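import Mathlib
import Fermat.Agent.S55.Local.CyclicInv
import Fermat.Agent.S55.Tate.ClassModule

/-!
# S55 / reciprocity (C): solving `d * m / p ^ K = t` in `ℚ/ℤ`

* `rc_qz_exists_frac` : an element of `ℚ/ℤ` killed by `n > 0` is `a / n`.
* `rc_qz_orderOf_pow` : `orderOf (σ ^ d) = p ^ K / gcd (p ^ K) d` when `orderOf σ = p ^ K`.
* `rc_qz_solve` : if `p ^ k` divides the order `p ^ K / gcd (p ^ K) d` of `σ ^ d`, every `t` killed
  by `p ^ k` is of the form `d * m / p ^ K` with `m : ℕ`.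
-/

set_option autoImplicit false

namespace Fermat.Agent.S55

/-- An element of `ℚ/ℤ` killed by `n > 0` is `a / n` for an integer `a`. -/
theorem rc_qz_exists_frac (t : tt_QZ) (n : ℕ) (hn : 0 < n) (ht : n • t = 0) :
    ∃ a : ℤ, t = cy_frac n a := by
  obtain ⟨x, rfl⟩ := QuotientAddGroup.mk_surjective t
  have hn' : (n : ℚ) ≠ 0 := by exact_mod_cast hn.ne'
  have h1 : ((n • x : ℚ) : AddCircle (1 : ℚ)) = 0 := by
    rw [AddCircle.coe_nsmul]; exact ht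
  rw [AddCircle.coe_eq_zero_iff] at h1
  obtain ⟨c, hc⟩ := h1
  refine ⟨c, ?_⟩
  rw [cy_frac_apply]
  show ((x : ℚ) : AddCircle (1 : ℚ)) = _
  congr 1
  have h2 : (c : ℚ) = n * x := by
    have := hc
    simp only [zsmul_eq_mul, mul_one, nsmul_eq_mul] at this
    exact this
  rw [h2]
  field_simp

variable {p : ℕ} [Fact p.Prime]

/-- The order of `σ ^ d` when `σ` has order `p ^ K`. -/
theorem rc_qz_orderOf_pow {G : Type*} [Group G] (σ : G) (K d : ℕ) (ho : orderOf σ = p ^ K) :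
    orderOf (σ ^ d) = p ^ K / Nat.gcd (p ^ K) d := by
  have hfin : IsOfFinOrder σ := by
    rw [← orderOf_pos_iff, ho]
    exact pow_pos (Fact.out : p.Prime).pos K
  rw [hfin.orderOf_pow, ho]

set_option linter.unusedVariables false in
/-- If `p ^ k ∣ p ^ K / gcd (p ^ K) d`, every `t : ℚ/ℤ` killed by `p ^ k` is `d * m / p ^ K` for
some natural number `m`. -/
theorem rc_qz_solve {k K d : ℕ} (hkK : k ≤ K) (hd : p ^ k ∣ p ^ K / Nat.gcd (p ^ K) d)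
    (t : tt_QZ) (ht : p ^ k • t = 0) :
    ∃ m : ℕ, cy_frac (p ^ K) ((d : ℤ) * (m : ℤ)) = t := by
  have hp : p.Prime := Fact.out
  have hpK : 0 < p ^ K := pow_pos hp.pos K
  have hpk : 0 < p ^ k := pow_pos hp.pos k
  -- `t = a / p ^ k = a p ^ (K - k) / p ^ K`
  obtain ⟨a, rfl⟩ := rc_qz_exists_frac t (p ^ k) hpk ht
  set g : ℕ := Nat.gcd (p ^ K) d with hg
  have hgK : g ∣ p ^ K := Nat.gcd_dvd_left _ _
  have hgd : g ∣ d := Nat.gcd_dvd_right _ _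
  have hgpos : 0 < g := Nat.gcd_pos_of_pos_left _ hpK
  -- `g * p ^ k ∣ p ^ K`
  have hgk : g * p ^ k ∣ p ^ K := by
    obtain ⟨c, hc⟩ := hd
    have h1 : p ^ K = g * (p ^ K / g) := (Nat.mul_div_cancel' hgK).symm
    rw [h1, hc]
    exact ⟨c, by ring⟩
  obtain ⟨c, hc⟩ := hgk
  -- Bezout: `g = p ^ K * u + d * v`
  have hbez : (g : ℤ) = (p ^ K : ℕ) * Nat.gcdA (p ^ K) d + d * Nat.gcdB (p ^ K) d :=
    Nat.gcd_eq_gcd_ab (p ^ K) d
  set u : ℤ := Nat.gcdA (p ^ K) d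
  set v : ℤ := Nat.gcdB (p ^ K) d
  -- the integer solution and its reduction modulo `p ^ K`
  set m₀ : ℤ := v * a * c with hm₀
  refine ⟨(m₀ % ((p ^ K : ℕ) : ℤ)).toNat, ?_⟩
  have hnn : 0 ≤ m₀ % ((p ^ K : ℕ) : ℤ) :=
    Int.emod_nonneg _ (by exact_mod_cast hpK.ne')
  rw [Int.toNat_of_nonneg hnn]
  have hcong : ((p ^ K : ℕ) : ℤ) ∣ (d : ℤ) * (m₀ % ((p ^ K : ℕ) : ℤ)) - (d : ℤ) * m₀ := by
    have h2 : ((p ^ K : ℕ) : ℤ) ∣ m₀ % ((p ^ K : ℕ) : ℤ) - m₀ := by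
      have := Int.emod_add_mul_ediv m₀ ((p ^ K : ℕ) : ℤ)
      exact ⟨-(m₀ / ((p ^ K : ℕ) : ℤ)), by linarith⟩
    rw [← mul_sub]
    exact Dvd.dvd.mul_left h2 _
  have hc' : ((p ^ K : ℕ) : ℤ) = (g : ℤ) * ((p ^ k : ℕ) : ℤ) * (c : ℤ) := by exact_mod_cast hc
  -- `d * m₀ / p ^ K = a / p ^ k`
  have hmain : cy_frac (p ^ K) ((d : ℤ) * m₀) = cy_frac (p ^ k) a := by
    rw [← sub_eq_zero]
    have h3 : cy_frac (p ^ k) a = cy_frac (p ^ K) ((g : ℤ) * (c : ℤ) * a) := by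
      have := cy_frac_eq_of_mul_eq hpk hpK (a := 1) (b := (g : ℤ) * (c : ℤ))
        (by rw [hc']; ring) a
      rw [one_mul] at this
      rw [this]
    rw [h3, ← map_sub, cy_frac_eq_zero_iff hpK]
    refine ⟨-(u * a * c), ?_⟩
    rw [hm₀]
    have : (g : ℤ) * (c : ℤ) * a = ((p ^ K : ℕ) * u + d * v) * c * a := by rw [← hbez]
    rw [this]
    ring
  have hfin : cy_frac (p ^ K) ((d : ℤ) * (m₀ % ((p ^ K : ℕ) : ℤ))) = cy_frac (p ^ k) a := by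
    rw [← hmain, ← sub_eq_zero, ← map_sub, cy_frac_eq_zero_iff hpK]
    exact hcong
  exact hfin

end Fermat.Agent.S55
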