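import Fermat.Agent.S55.Recip.TermDict
import Fermat.Agent.S55.Recip.QZSolve

/-!
# S55 / G4 (C), leaf (P1): the approximating element (prefix `rc_ac_`)

`M` a Galois number field, `Γ = M ≃ₐ[ℚ] M`, local data `𝔻` with a dictionary `𝔇`, `E ⊆ M` with
`M / E` Galois, `𝒢 = rc_dg_sub E M`.

* `rc_ac_term_under`: the local term of a `p`-primary class of `H²(𝒢, J)` at the place `g • w`
  depends only on the prime `(g • w) ∩ E` of `E` (`Gal(M/E)` is transitive on the primes over it,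
  then `rc_term_congr` on the double coset).
* `rc_ac_exists_elt`: `Z / E` cyclic of degree `p ^ c` generated by `t₀`; if `p ^ k` divides the
  order of the Frobenius elements of `Z / E` at the primes of `E` over the index `q₀` (`= p`) and
  the weak approximation `happrox` produces elements of `Eˣ` with prescribed orders at finitely
  many primes away from `l` (and an opaque property `P`), then for every class `z` killed by
  `p ^ k` there is `b'` with `P b'` such that the local terms of `z` at the places over `q₀` are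
  those of the cyclic class `(Z / E, b')`: `term_{g w₀}(z) = d · ord_v(b') / p ^ c` whenever
  `Frob_v = t₀ ^ d`, `v = (g • w₀) ∩ E`.
-/

set_option autoImplicit false
set_option linter.unusedSectionVars false
set_option linter.style.haveILetI false

open scoped NumberField Pointwise
open IsDedekindDomain CategoryTheory groupCohomology
open Fermat.Agent.S14

namespace Fermat.Agent.S55

section

variable {M : Type} [Field M] [NumberField M] [Finite (M ≃ₐ[ℚ] M)] {p : ℕ} [Fact p.Prime]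
  {J : Rep.{0} ℤ (M ≃ₐ[ℚ] M)} {Q : Type} (𝔻 : rc_InvData p J Q) (δ : id_KRep M ⟶ J)
  {E : Type} [Field E] [NumberField E] [Algebra E M] [IsGalois E M]

/-- **The local term depends only on the prime of `E` below the place.** -/
theorem rc_ac_term_under {q : Q} (𝔇 : rc_td_Dict 𝔻 δ q) (g g' : M ≃ₐ[ℚ] M)
    (h : id_under E M (g • 𝔇.w) = id_under E M (g' • 𝔇.w))
    (z : groupCohomology (tt_res (rc_dg_sub E M) J) 2) (hz : tt_IsPPrimary p z) :
    rc_term 𝔻 q (rc_dg_sub E M) g z = rc_term 𝔻 q (rc_dg_sub E M) g' z := by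
  have hv : (g • 𝔇.w.asIdeal).under (𝓞 E) = (g' • 𝔇.w.asIdeal).under (𝓞 E) :=
    congrArg HeightOneSpectrum.asIdeal h
  haveI := 𝔇.w.isPrime
  haveI hR : (g • 𝔇.w.asIdeal).IsPrime := Ideal.IsPrime.smul g
  haveI hR' : (g' • 𝔇.w.asIdeal).IsPrime := Ideal.IsPrime.smul g'
  haveI : ((g' • 𝔇.w.asIdeal).under (𝓞 E)).IsPrime := Ideal.IsPrime.under (𝓞 E) _
  haveI : (g' • 𝔇.w.asIdeal).LiesOver ((g' • 𝔇.w.asIdeal).under (𝓞 E)) := ⟨rfl⟩
  haveI : (g • 𝔇.w.asIdeal).LiesOver ((g' • 𝔇.w.asIdeal).under (𝓞 E)) := ⟨hv.symm⟩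
  obtain ⟨s, hs⟩ := Ideal.exists_smul_eq_of_isGaloisGroup ((g' • 𝔇.w.asIdeal).under (𝓞 E))
    (g' • 𝔇.w.asIdeal) (g • 𝔇.w.asIdeal) Gal(M/E)
  set h₀ : M ≃ₐ[ℚ] M := AlgEquiv.restrictScalarsHom ℚ s with hh₀
  have hh𝒢 : h₀ ∈ rc_dg_sub E M := ⟨s, rfl⟩
  have hs' : h₀ • (g' • 𝔇.w.asIdeal) = g • 𝔇.w.asIdeal := by
    rw [hh₀, rc_dg_restrict_smul]
    exact hs
  have hd : (g'⁻¹ * h₀⁻¹ * g) ∈ 𝔻.D q := by
    rw [𝔇.hD, MulAction.mem_stabilizer_iff, mul_smul, mul_smul, ← hs', inv_smul_smul,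
      inv_smul_smul]
  have e : g = h₀ * g' * ((⟨g'⁻¹ * h₀⁻¹ * g, hd⟩ : ↥(𝔻.D q)) : M ≃ₐ[ℚ] M) := by
    change g = h₀ * g' * (g'⁻¹ * h₀⁻¹ * g)
    group
  exact (congrArg (fun x => rc_term 𝔻 q (rc_dg_sub E M) x z) e).trans
    (rc_term_congr 𝔻 q (rc_dg_sub E M) g' hh𝒢 ⟨_, hd⟩ z hz)

/-- **The approximating element**: the local terms at the places over `q₀` of a class killed by
`p ^ k` are those of a cyclic class `(Z / E, b')`. -/
theorem rc_ac_exists_elt {Z : Type} [Field Z] [NumberField Z] [Algebra E Z] [IsGalois E Z]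
    (𝔇 : ∀ q, rc_td_Dict 𝔻 δ q) (q₀ : Q)
    (hq₀ : ∀ g : M ≃ₐ[ℚ] M, (p : 𝓞 E) ∈ (id_under E M (g • (𝔇 q₀).w)).asIdeal)
    (t₀ : Gal(Z/E)) {c k : ℕ} (ht₀ : orderOf t₀ = p ^ c)
    (hgen : ∀ t : Gal(Z/E), t ∈ Subgroup.zpowers t₀)
    (hgrow : ∀ v : Ideal (𝓞 E), v.IsPrime → v ≠ ⊥ → (p : 𝓞 E) ∈ v →
      p ^ k ∣ orderOf (am_frob E Z v))
    (l : ℕ) (hl : ∀ g : M ≃ₐ[ℚ] M, ((l : ℕ) : 𝓞 E) ∉ (id_under E M (g • (𝔇 q₀).w)).asIdeal)
    (P : Eˣ → Prop)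
    (happrox : ∀ (S : Finset (HeightOneSpectrum (𝓞 E))) (n : HeightOneSpectrum (𝓞 E) → ℕ),
      (∀ v ∈ S, ((l : ℕ) : 𝓞 E) ∉ v.asIdeal) → ∃ b : Eˣ, P b ∧ ∀ v ∈ S, id_ordZ E v b = n v)
    (z : groupCohomology (tt_res (rc_dg_sub E M) J) 2) (hz : p ^ k • z = 0) :
    ∃ b' : Eˣ, P b' ∧ ∀ (g : M ≃ₐ[ℚ] M) (d : ℕ),
      am_frob E Z (id_under E M (g • (𝔇 q₀).w)).asIdeal = t₀ ^ d →
      rc_term 𝔻 q₀ (rc_dg_sub E M) g z =
        cy_frac (p ^ c) ((d : ℤ) * id_ordZ E (id_under E M (g • (𝔇 q₀).w)) b') := by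
  classical
  have hp := (Fact.out : p.Prime)
  have hpc : 0 < p ^ c := pow_pos hp.pos c
  haveI : Fintype (M ≃ₐ[ℚ] M) := Fintype.ofFinite _
  set pl : (M ≃ₐ[ℚ] M) → HeightOneSpectrum (𝓞 E) := fun g => id_under E M (g • (𝔇 q₀).w)
    with hpl
  have hzpp : tt_IsPPrimary p z := ⟨k, hz⟩
  -- the exponents at every place
  have key : ∀ v : HeightOneSpectrum (𝓞 E), ∃ m : ℕ, ∀ (g : M ≃ₐ[ℚ] M) (d : ℕ), pl g = v →
      am_frob E Z v.asIdeal = t₀ ^ d →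
      rc_term 𝔻 q₀ (rc_dg_sub E M) g z = cy_frac (p ^ c) ((d : ℤ) * (m : ℤ)) := by
    intro v
    by_cases hv : ∃ g, pl g = v
    · obtain ⟨g₀, hg₀⟩ := hv
      have h1 := hgen (am_frob E Z v.asIdeal)
      rw [← mem_powers_iff_mem_zpowers] at h1
      obtain ⟨d₀, hd₀⟩ := h1
      have hd₀' : t₀ ^ d₀ = am_frob E Z v.asIdeal := hd₀
      have hpv : (p : 𝓞 E) ∈ v.asIdeal := hg₀ ▸ hq₀ g₀
      have hdiv : p ^ k ∣ p ^ c / Nat.gcd (p ^ c) d₀ := by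
        have := hgrow v.asIdeal v.isPrime v.ne_bot hpv
        rwa [← hd₀', rc_qz_orderOf_pow t₀ c d₀ ht₀] at this
      have hkc : k ≤ c := by
        have hgpos : 0 < Nat.gcd (p ^ c) d₀ := Nat.gcd_pos_of_pos_left _ hpc
        have hpos : 0 < p ^ c / Nat.gcd (p ^ c) d₀ :=
          Nat.div_pos (Nat.le_of_dvd hpc (Nat.gcd_dvd_left _ _)) hgpos
        have h2 : p ^ k ≤ p ^ c := (Nat.le_of_dvd hpos hdiv).trans (Nat.div_le_self _ _)
        exact (Nat.pow_le_pow_iff_right hp.one_lt).1 h2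
      have htk : p ^ k • rc_term 𝔻 q₀ (rc_dg_sub E M) g₀ z = 0 := by
        rw [← map_nsmul, hz, map_zero]
      obtain ⟨m, hm⟩ := rc_qz_solve hkc hdiv _ htk
      refine ⟨m, fun g d hg hd => ?_⟩
      rw [rc_ac_term_under 𝔻 δ (𝔇 q₀) g g₀ (hg.trans hg₀.symm) z hzpp, ← hm]
      have hdd : t₀ ^ d = t₀ ^ d₀ := hd.symm.trans hd₀'.symm
      have hmod : d ≡ d₀ [MOD p ^ c] := by
        rw [← ht₀]
        exact pow_eq_pow_iff_modEq.1 hdd
      have hdvd : ((p ^ c : ℕ) : ℤ) ∣ (d₀ : ℤ) - (d : ℤ) := (Nat.modEq_iff_dvd).1 hmod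
      rw [← sub_eq_zero, ← map_sub, cy_frac_eq_zero_iff hpc, ← sub_mul]
      exact Dvd.dvd.mul_right hdvd _
    · exact ⟨0, fun g d hg _ => absurd ⟨g, hg⟩ hv⟩
  choose m hm using key
  obtain ⟨b', hPb, hb'⟩ := happrox (Finset.univ.image pl) m (fun v hv => by
    obtain ⟨g, _, rfl⟩ := Finset.mem_image.1 hv
    exact hl g)
  refine ⟨b', hPb, fun g d hd => ?_⟩
  have h2 : id_ordZ E (id_under E M (g • (𝔇 q₀).w)) b' = m (pl g) :=
    hb' (pl g) (Finset.mem_image_of_mem _ (Finset.mem_univ g))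
  rw [h2]
  exact hm (pl g) g d rfl hd

end

end Fermat.Agent.S55
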