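import Mathlib
import Fermat.Agent.S14.AuxPrime.Frob
import Fermat.Agent.S14.Artin.Cyclotomic
import Fermat.Agent.S14.AuxExt.Ramification

/-!
# S55 / G4, leaf P1a: the `p`-cyclotomic tower over a number field containing `ζ_p`

`E` a number field, `M = E(ζ_n)` (S14 carriers: `E M : Type*`, `am_frob`, `am_Unram`).

* `rc_ax_cyclo_unram` : `E(ζ_n)/E` is unramified at every prime not containing `n`;
* `rc_ax_frob_pow_eq_one_iff`, `rc_ax_orderOf_frob` : the Frobenius at `q ∤ n` has the order of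
  `N(q)` in `(ℤ/n)ˣ`;
* `rc_ax_tower_cyclic`, `rc_ax_tower_pow_eq_one`, `rc_ax_tower_card_dvd`,
  `rc_ax_tower_card_eq_pow` : for `p` odd and `ζ_p ∈ E`, `Gal(E(ζ_{p^(r+1)})/E)` is cyclic of
  `p`-power order dividing `p ^ r`;
* `rc_ax_orderOf_mod_prime_pow` (LTE), `rc_ax_tower_orderOf_frob`, `rc_ax_tower_growth`,
  `rc_ax_tower_card_growth` : the orders of the Frobenius elements (the local degrees) at a finite
  set of primes not above `p` grow without bound in the tower.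
-/

set_option autoImplicit false

namespace Fermat.Agent.S55

open Polynomial NumberField
open Fermat.Agent.S14

set_option linter.style.haveILetI false
set_option linter.unusedSectionVars false

/-! ### Generic cyclotomic extensions of fields -/

section cyc

variable {E M : Type*} [Field E] [Field M] [Algebra E M]

/-- In a cyclotomic extension `M = E(ζ_n)` an `E`-automorphism fixing a primitive `n`-th root of
unity is the identity. -/
theorem rc_ax_eq_one_of_fix {n : ℕ} [NeZero n] [IsCyclotomicExtension {n} E M] {ζ : M}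
    (hζ : IsPrimitiveRoot ζ n) (σ : Gal(M/E)) (h : σ ζ = ζ) : σ = 1 := by
  have hadj : Algebra.adjoin E {ζ} = ⊤ :=
    IsCyclotomicExtension.adjoin_primitive_root_eq_top hζ
  have hEq : Set.EqOn (σ : M →ₐ[E] M) ((1 : Gal(M/E)) : M →ₐ[E] M) {ζ} := by
    intro y hy
    rw [Set.mem_singleton_iff] at hy
    subst hy
    simpa using h
  exact AlgEquiv.coe_toAlgHom_injective (AlgHom.ext_of_adjoin_eq_top hadj hEq)

/-- `Gal(E(ζ_{p^r})/E)` is cyclic for odd `p`. -/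
theorem rc_ax_tower_cyclic {p : ℕ} [hpF : Fact p.Prime] (hp2 : p ≠ 2) (r : ℕ)
    [IsCyclotomicExtension {p ^ r} E M] : IsCyclic Gal(M/E) := by
  have hp := hpF.out
  haveI : NeZero p := ⟨hp.ne_zero⟩
  obtain ⟨ζ, hζ⟩ := IsCyclotomicExtension.exists_isPrimitiveRoot E M
    (Set.mem_singleton (p ^ r)) (NeZero.ne (p ^ r))
  haveI := ZMod.isCyclic_units_of_prime_pow p hp hp2 r
  exact isCyclic_of_injective (hζ.autToPow E) (IsPrimitiveRoot.autToPow_injective E hζ)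

/-- `Gal(E(ζ_l)/E)` is cyclic for a prime `l`. -/
theorem rc_ax_prime_cyclic {l : ℕ} [hlF : Fact l.Prime] [IsCyclotomicExtension {l} E M] :
    IsCyclic Gal(M/E) := by
  haveI : NeZero l := ⟨hlF.out.ne_zero⟩
  obtain ⟨ζ, hζ⟩ := IsCyclotomicExtension.exists_isPrimitiveRoot E M
    (Set.mem_singleton l) (NeZero.ne l)
  exact isCyclic_of_injective (hζ.autToPow E) (IsPrimitiveRoot.autToPow_injective E hζ)

/-- If `E` contains a primitive `p`-th root of unity, `Gal(E(ζ_{p^(r+1)})/E)` is killed by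
`p ^ r`. -/
theorem rc_ax_tower_pow_eq_one {p : ℕ} [hpF : Fact p.Prime] {ζ₁ : E}
    (hζ₁ : IsPrimitiveRoot ζ₁ p) (r : ℕ) [IsCyclotomicExtension {p ^ (r + 1)} E M]
    (σ : Gal(M/E)) : σ ^ (p ^ r) = 1 := by
  have hp := hpF.out
  haveI : NeZero p := ⟨hp.ne_zero⟩
  obtain ⟨ζ, hζ⟩ := IsCyclotomicExtension.exists_isPrimitiveRoot E M
    (Set.mem_singleton (p ^ (r + 1))) (NeZero.ne (p ^ (r + 1)))
  apply IsPrimitiveRoot.autToPow_injective E hζ
  rw [map_pow, map_one]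
  set u := hζ.autToPow E σ with hu
  have hspec : ζ ^ (u : ZMod (p ^ (r + 1))).val = σ ζ := hζ.autToPow_spec E σ
  set c := (u : ZMod (p ^ (r + 1))).val with hc
  -- `σ` fixes `ξ = ζ ^ (p ^ r)`
  have hξprim : IsPrimitiveRoot (ζ ^ (p ^ r)) p :=
    hζ.pow (Nat.pos_of_ne_zero (NeZero.ne _)) (pow_succ p r)
  have hζ₁M : IsPrimitiveRoot (algebraMap E M ζ₁) p :=
    hζ₁.map_of_injective (algebraMap E M).injective
  obtain ⟨j, -, hj⟩ := hζ₁M.eq_pow_of_pow_eq_one hξprim.pow_eq_one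
  have hfix : σ (ζ ^ (p ^ r)) = ζ ^ (p ^ r) := by
    rw [← hj, ← map_pow, σ.commutes]
  rw [map_pow, ← hspec, ← pow_mul] at hfix
  have hfin : IsOfFinOrder ζ :=
    isOfFinOrder_iff_pow_eq_one.mpr ⟨p ^ (r + 1), Nat.pos_of_ne_zero (NeZero.ne _),
      hζ.pow_eq_one⟩
  rw [hfin.pow_eq_pow_iff_modEq, ← hζ.eq_orderOf, pow_succ] at hfix
  have hc1 : c ≡ 1 [MOD p] := by
    have h2 : c * p ^ r ≡ 1 * p ^ r [MOD p * p ^ r] := by
      rw [one_mul, mul_comm p]; exact hfix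
    exact Nat.ModEq.mul_right_cancel' (pow_ne_zero r hp.ne_zero) h2
  -- hence `u ^ (p ^ r) = 1`
  have hdvd : (p : ZMod (p ^ (r + 1))) ∣ (u : ZMod (p ^ (r + 1))) - 1 := by
    have h3 : ((c : ℕ) : ZMod (p ^ (r + 1))) = (u : ZMod (p ^ (r + 1))) :=
      ZMod.natCast_zmod_val _
    have h4 : (p : ℤ) ∣ (c : ℤ) - 1 := by
      have := (Nat.modEq_iff_dvd.mp hc1.symm)
      simpa using this
    obtain ⟨d, hd⟩ := h4
    refine ⟨(d : ZMod (p ^ (r + 1))), ?_⟩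
    rw [← h3]
    have := congrArg (fun x : ℤ => (x : ZMod (p ^ (r + 1)))) hd
    simpa using this
  have h5 := dvd_sub_pow_of_dvd_sub hdvd r
  rw [one_pow, ← Nat.cast_pow, ZMod.natCast_self, zero_dvd_iff, sub_eq_zero] at h5
  apply Units.ext
  rw [Units.val_pow_eq_pow_val, Units.val_one]
  exact h5

/-- For `p` odd and `ζ_p ∈ E`, the order of `Gal(E(ζ_{p^(r+1)})/E)` divides `p ^ r`. -/
theorem rc_ax_tower_card_dvd {p : ℕ} [hpF : Fact p.Prime] (hp2 : p ≠ 2) {ζ₁ : E}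
    (hζ₁ : IsPrimitiveRoot ζ₁ p) (r : ℕ) [IsCyclotomicExtension {p ^ (r + 1)} E M] :
    Nat.card Gal(M/E) ∣ p ^ r := by
  haveI := rc_ax_tower_cyclic (E := E) (M := M) hp2 (r + 1)
  obtain ⟨g, hg⟩ := IsCyclic.exists_generator (α := Gal(M/E))
  rw [← orderOf_eq_card_of_forall_mem_zpowers hg]
  exact orderOf_dvd_of_pow_eq_one (rc_ax_tower_pow_eq_one hζ₁ r g)

/-- For `p` odd and `ζ_p ∈ E`, the order of `Gal(E(ζ_{p^(r+1)})/E)` is `p ^ c` with `c ≤ r`. -/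
theorem rc_ax_tower_card_eq_pow {p : ℕ} [hpF : Fact p.Prime] (hp2 : p ≠ 2) {ζ₁ : E}
    (hζ₁ : IsPrimitiveRoot ζ₁ p) (r : ℕ) [IsCyclotomicExtension {p ^ (r + 1)} E M] :
    ∃ c, c ≤ r ∧ Nat.card Gal(M/E) = p ^ c :=
  (Nat.dvd_prime_pow hpF.out).mp (rc_ax_tower_card_dvd (M := M) hp2 hζ₁ r)

end cyc

/-! ### LTE: the order of `N ≡ 1 mod p` modulo `p ^ r` -/

/-- LTE growth: for `p` odd, `N ≡ 1 mod p`, `N ≥ 2` and `s = v_p(N - 1)`, the order of `N` modulo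
`p ^ (m + s)` is exactly `p ^ m`. -/
theorem rc_ax_orderOf_mod_prime_pow {p : ℕ} [hpF : Fact p.Prime] (hp2 : p ≠ 2) {N : ℕ}
    (hN : 2 ≤ N) (hNp : N ≡ 1 [MOD p]) (m : ℕ) :
    orderOf ((N : ℕ) : ZMod (p ^ (m + padicValNat p (N - 1)))) = p ^ m := by
  have hp := hpF.out
  set s := padicValNat p (N - 1) with hs
  have hN0 : N - 1 ≠ 0 := by omega
  have hpd : p ∣ N - 1 := (Nat.modEq_iff_dvd' (by omega)).mp hNp.symm
  have hs1 : 1 ≤ s := one_le_padicValNat_of_dvd hN0 hpd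
  obtain ⟨a, ha⟩ : p ^ s ∣ N - 1 := pow_padicValNat_dvd
  have hpa : ¬ (p : ℤ) ∣ (a : ℤ) := by
    intro h
    have h' : p ∣ a := by exact_mod_cast h
    obtain ⟨b, hb⟩ := h'
    have : p ^ (s + 1) ∣ N - 1 := ⟨b, by rw [ha, hb, pow_succ]; ring⟩
    exact pow_succ_padicValNat_not_dvd hN0 this
  have hp3 : 3 ≤ p := by
    have := hp.two_le
    omega
  have hps : s + 2 ≤ p * s := by
    calc s + 2 ≤ 3 * s := by omega
      _ ≤ p * s := Nat.mul_le_mul_right s hp3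
  have key := ZMod.orderOf_one_add_mul_prime_pow hp s (by omega) hps (a : ℤ) hpa m
  have hNeq : N = 1 + p ^ s * a := by omega
  have hcast : ((N : ℕ) : ZMod (p ^ (m + s))) = 1 + (p : ZMod (p ^ (m + s))) ^ s * ((a : ℤ) :
      ZMod (p ^ (m + s))) := by
    conv_lhs => rw [hNeq]
    push_cast
    rfl
  rw [hcast]
  exact key

/-! ### Number fields: ramification and Frobenius elements -/

section tower

variable {E M : Type*} [Field E] [NumberField E] [Field M] [NumberField M] [Algebra E M]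

/-- A primitive `n`-th root of unity of `M` as an element of `𝓞 M`. -/
theorem rc_ax_exists_integer_root {n : ℕ} [NeZero n] {ζ : M} (hζ : IsPrimitiveRoot ζ n) :
    ∃ z : 𝓞 M, (z : M) = ζ ∧ z ^ n = 1 ∧ IsPrimitiveRoot z n :=
  ⟨hζ.toInteger, rfl, hζ.toInteger_isPrimitiveRoot.pow_eq_one, hζ.toInteger_isPrimitiveRoot⟩

/-- `E(ζ_n)/E` is unramified at the primes not containing `n`. -/
theorem rc_ax_cyclo_unram {n : ℕ} [NeZero n] [IsCyclotomicExtension {n} E M]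
    [IsGalois E M] (q : Ideal (𝓞 E)) (hnq : (n : 𝓞 E) ∉ q) : am_Unram E M q := by
  intro Q hQp hQq
  obtain ⟨ζ, hζ⟩ := IsCyclotomicExtension.exists_isPrimitiveRoot E M
    (Set.mem_singleton n) (NeZero.ne n)
  obtain ⟨z, hz, hz1, -⟩ := rc_ax_exists_integer_root hζ
  have hnQ : (n : 𝓞 M) ∉ Q := by
    intro h
    apply hnq
    have h1 : (algebraMap (𝓞 E) (𝓞 M)) (n : 𝓞 E) ∈ Q := by simpa using h
    have h2 : (n : 𝓞 E) ∈ Q.under (𝓞 E) := h1
    rwa [← hQq.over] at h2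
  have hQtop : Q ≠ ⊤ := hQp.ne_top
  apply ax_inertia_eq_bot Q (Nat.pos_of_ne_zero (NeZero.ne n)) hnQ {z}
  · intro α hα
    rw [Set.mem_singleton_iff] at hα
    subst hα
    refine ⟨fun hzQ => hQtop ?_, fun σ => ?_⟩
    · rw [Ideal.eq_top_iff_one, ← hz1]
      exact Q.pow_mem_of_mem hzQ n (Nat.pos_of_ne_zero (NeZero.ne n))
    · rw [hz1, smul_one]
  · intro σ hσ
    apply rc_ax_eq_one_of_fix hζ σ
    have := congrArg (algebraMap (𝓞 M) M) (hσ z (Set.mem_singleton z))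
    rw [← hz]
    exact this

/-- If `p ∉ q` (`q` prime) then `p ^ r ∉ q`. -/
theorem rc_ax_natCast_pow_notMem {p : ℕ} {q : Ideal (𝓞 E)} [hq : q.IsPrime]
    (hpq : (p : 𝓞 E) ∉ q) (r : ℕ) : ((p ^ r : ℕ) : 𝓞 E) ∉ q := by
  intro h
  rw [Nat.cast_pow] at h
  exact hpq (hq.mem_of_pow_mem r h)

/-- The `p`-cyclotomic tower is unramified outside `p`. -/
theorem rc_ax_tower_unram {p : ℕ} [hpF : Fact p.Prime] (r : ℕ)
    [IsCyclotomicExtension {p ^ r} E M] [IsGalois E M] (q : Ideal (𝓞 E)) [hq : q.IsPrime]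
    (hpq : (p : 𝓞 E) ∉ q) : am_Unram E M q := by
  haveI : NeZero p := ⟨hpF.out.ne_zero⟩
  exact rc_ax_cyclo_unram (n := p ^ r) q (rc_ax_natCast_pow_notMem hpq r)

/-- The norm of a nonzero prime is at least `2`. -/
theorem rc_ax_two_le_absNorm {q : Ideal (𝓞 E)} [hq : q.IsPrime] (hq0 : q ≠ ⊥) :
    2 ≤ Ideal.absNorm q := by
  have h0 : Ideal.absNorm q ≠ 0 := by
    rw [Ne, Ideal.absNorm_eq_zero_iff]; exact hq0
  have h1 : Ideal.absNorm q ≠ 1 := by
    rw [Ne, Ideal.absNorm_eq_one_iff]; exact hq.ne_top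
  omega

/-- If `E` contains a primitive `p`-th root of unity and `q` is a prime of `E` not above `p`, then
`N(q) ≡ 1 mod p`. -/
theorem rc_ax_absNorm_modEq_one {p : ℕ} [hpF : Fact p.Prime]
    {ζ₁ : E} (hζ₁ : IsPrimitiveRoot ζ₁ p) {q : Ideal (𝓞 E)} [hq : q.IsPrime] (hq0 : q ≠ ⊥)
    (hpq : (p : 𝓞 E) ∉ q) : Ideal.absNorm q ≡ 1 [MOD p] := by
  have hp := hpF.out
  have : NeZero p := ⟨hp.ne_zero⟩
  have hzO := hζ₁.toInteger_isPrimitiveRoot
  set z := hζ₁.toInteger with hz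
  have hsum : ∑ i ∈ Finset.range p, z ^ i = 0 := hzO.geom_sum_eq_zero hp.one_lt
  haveI := am_isMaximal hq0
  haveI : Finite (𝓞 E ⧸ q) := am_finite_quotient E hq0
  letI : Field (𝓞 E ⧸ q) := Ideal.Quotient.field q
  have := Fintype.ofFinite (𝓞 E ⧸ q)
  set y : 𝓞 E ⧸ q := Ideal.Quotient.mk q z with hy
  have hyp : y ^ p = 1 := by rw [hy, ← map_pow, hzO.pow_eq_one, map_one]
  have hy1 : y ≠ 1 := by
    intro h
    apply hpq
    rw [← Ideal.Quotient.eq_zero_iff_mem]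
    have h2 := congrArg (Ideal.Quotient.mk q) hsum
    rw [map_sum] at h2
    simp only [map_pow] at h2
    rw [← hy] at h2
    simp only [h, one_pow, Finset.sum_const, Finset.card_range, nsmul_eq_mul, mul_one,
      map_zero] at h2
    rw [map_natCast]
    exact h2
  have hy0 : y ≠ 0 := by
    intro h
    rw [h, zero_pow hp.ne_zero] at hyp
    exact zero_ne_one hyp
  have hord : orderOf y = p := orderOf_eq_prime hyp hy1
  have hcard : Fintype.card (𝓞 E ⧸ q) = Ideal.absNorm q := by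
    rw [← Nat.card_eq_fintype_card, Ideal.absNorm_apply, Submodule.cardQuot_apply]
  have hdvd : p ∣ Ideal.absNorm q - 1 := by
    rw [← hord, ← hcard]
    exact orderOf_dvd_of_pow_eq_one (FiniteField.pow_card_sub_one_eq_one y hy0)
  have hpos : 1 ≤ Ideal.absNorm q := by
    rw [← hcard]; exact Fintype.card_pos
  exact ((Nat.modEq_iff_dvd' hpos).mpr hdvd).symm

omit [Field M] [NumberField M] [Algebra E M] in
/-- There is a nonzero prime of `𝓞 E` not above `p`. -/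
theorem rc_ax_exists_prime_notMem (E : Type*) [Field E] [NumberField E] (p : ℕ)
    [Fact p.Prime] :
    ∃ q : Ideal (𝓞 E), q.IsPrime ∧ q ≠ ⊥ ∧ (p : 𝓞 E) ∉ q := by
  obtain ⟨ℓ, hℓp, hℓ⟩ := Nat.exists_infinite_primes (p + 1)
  haveI : Fact ℓ.Prime := ⟨hℓ⟩
  obtain ⟨P, hP1, hP2⟩ := ae_exists_prime_mem E ℓ
  refine ⟨P, hP1, ?_, ?_⟩
  · rintro rfl
    rw [Ideal.mem_bot, Nat.cast_eq_zero] at hP2
    exact hℓ.ne_zero hP2
  · refine ax_natCast_not_mem P hP1.ne_top hP2 ?_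
    rw [Nat.coprime_comm]
    exact (Nat.coprime_primes hℓ (Fact.out : p.Prime)).mpr (by omega)

variable [IsGalois E M] [IsMulCommutative Gal(M/E)]

/-- The Frobenius of `q ∤ n` in `E(ζ_n)/E`: `Frob_q ^ t = 1 ↔ N(q)^t ≡ 1 mod n`. -/
theorem rc_ax_frob_pow_eq_one_iff {n : ℕ} [NeZero n] [IsCyclotomicExtension {n} E M]
    {q : Ideal (𝓞 E)} [q.IsPrime] (hq0 : q ≠ ⊥) (hnq : (n : 𝓞 E) ∉ q) (t : ℕ) :
    am_frob E M q ^ t = 1 ↔ (Ideal.absNorm q) ^ t ≡ 1 [MOD n] := by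
  obtain ⟨ζ, hζ⟩ := IsCyclotomicExtension.exists_isPrimitiveRoot E M
    (Set.mem_singleton n) (NeZero.ne n)
  obtain ⟨z, hz, hz1, hzprim⟩ := rc_ax_exists_integer_root hζ
  have hsm := am_frob_pow_smul_of_pow_eq_one (K := M) hq0 hz1 hnq t
  have hord : orderOf z = n := hzprim.eq_orderOf.symm
  have hfin : IsOfFinOrder z :=
    isOfFinOrder_iff_pow_eq_one.mpr ⟨n, Nat.pos_of_ne_zero (NeZero.ne n), hz1⟩
  constructor
  · intro h
    rw [h, one_smul] at hsm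
    have h2 : z ^ (Ideal.absNorm q ^ t) = z ^ 1 := by rw [pow_one]; exact hsm.symm
    rw [hfin.pow_eq_pow_iff_modEq, hord] at h2
    exact h2
  · intro h
    apply rc_ax_eq_one_of_fix hζ
    have h2 : z ^ (Ideal.absNorm q ^ t) = z ^ 1 := by
      rw [hfin.pow_eq_pow_iff_modEq, hord]
      exact h
    rw [h2, pow_one] at hsm
    have := congrArg (algebraMap (𝓞 M) M) hsm
    rw [← hz]
    exact this

/-- The order of the Frobenius of `q ∤ n` in `E(ζ_n)/E` is the order of `N(q)` modulo `n`. -/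
theorem rc_ax_orderOf_frob {n : ℕ} [NeZero n] [IsCyclotomicExtension {n} E M]
    {q : Ideal (𝓞 E)} [q.IsPrime] (hq0 : q ≠ ⊥) (hnq : (n : 𝓞 E) ∉ q) :
    orderOf (am_frob E M q) = orderOf ((Ideal.absNorm q : ℕ) : ZMod n) := by
  rw [orderOf_eq_orderOf_iff]
  intro t
  rw [rc_ax_frob_pow_eq_one_iff hq0 hnq t, ← Nat.cast_pow,
    ← ZMod.natCast_eq_natCast_iff, Nat.cast_one]

/-- The exact order of the Frobenius in the `p`-tower: if `E ∋ ζ_p`, `q ∤ p`,
`s = v_p(N(q) - 1)` and `M = E(ζ_{p^(m+s)})` then `Frob_q` has order `p ^ m`. -/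
theorem rc_ax_tower_orderOf_frob {p : ℕ} [hpF : Fact p.Prime] (hp2 : p ≠ 2) {ζ₁ : E}
    (hζ₁ : IsPrimitiveRoot ζ₁ p) {q : Ideal (𝓞 E)} [hq : q.IsPrime] (hq0 : q ≠ ⊥)
    (hpq : (p : 𝓞 E) ∉ q) (m : ℕ)
    [IsCyclotomicExtension {p ^ (m + padicValNat p (Ideal.absNorm q - 1))} E M] :
    orderOf (am_frob E M q) = p ^ m := by
  haveI : NeZero p := ⟨hpF.out.ne_zero⟩
  rw [rc_ax_orderOf_frob (n := p ^ (m + padicValNat p (Ideal.absNorm q - 1))) hq0
    (rc_ax_natCast_pow_notMem hpq _)]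
  exact rc_ax_orderOf_mod_prime_pow hp2 (rc_ax_two_le_absNorm hq0)
    (rc_ax_absNorm_modEq_one hζ₁ hq0 hpq) m

omit [Field M] [NumberField M] [Algebra E M] [IsGalois E M] [IsMulCommutative Gal(M/E)] in
/-- Level from which all Frobenius elements at `T` have order divisible by `p ^ k` in the
`p`-cyclotomic tower. -/
noncomputable def rc_ax_growthLevel (p : ℕ) (T : Finset (Ideal (𝓞 E))) (k : ℕ) : ℕ :=
  k + T.sup (fun q => padicValNat p (Ideal.absNorm q - 1))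

/-- GROWTH of the local degrees in the `p`-cyclotomic tower: for `r ≥ rc_ax_growthLevel p T k`,
the Frobenius of every `q ∈ T` (not above `p`) in `E(ζ_{p^r})/E` has order divisible by
`p ^ k`. -/
theorem rc_ax_tower_growth {p : ℕ} [hpF : Fact p.Prime] (hp2 : p ≠ 2) {ζ₁ : E}
    (hζ₁ : IsPrimitiveRoot ζ₁ p) (T : Finset (Ideal (𝓞 E))) (k : ℕ) {r : ℕ}
    (hr : rc_ax_growthLevel p T k ≤ r) [IsCyclotomicExtension {p ^ r} E M]
    {q : Ideal (𝓞 E)} (hqT : q ∈ T) [hq : q.IsPrime] (hq0 : q ≠ ⊥) (hpq : (p : 𝓞 E) ∉ q) :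
    p ^ k ∣ orderOf (am_frob E M q) := by
  set s := padicValNat p (Ideal.absNorm q - 1) with hs
  have hsle : s ≤ T.sup (fun q => padicValNat p (Ideal.absNorm q - 1)) :=
    Finset.le_sup (f := fun q => padicValNat p (Ideal.absNorm q - 1)) hqT
  unfold rc_ax_growthLevel at hr
  obtain ⟨m, hm⟩ : ∃ m, r = m + s := ⟨r - s, by omega⟩
  have hkm : k ≤ m := by omega
  subst hm
  rw [rc_ax_tower_orderOf_frob hp2 hζ₁ hq0 hpq m]
  exact pow_dvd_pow p hkm

/-- The degree of the `p`-tower grows: `p ^ k ∣ |Gal(E(ζ_{p^r})/E)|` for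
`r ≥ rc_ax_growthLevel p {q} k` (`q` any nonzero prime not above `p`). -/
theorem rc_ax_tower_card_growth {p : ℕ} [hpF : Fact p.Prime] (hp2 : p ≠ 2) {ζ₁ : E}
    (hζ₁ : IsPrimitiveRoot ζ₁ p) {q : Ideal (𝓞 E)} [hq : q.IsPrime] (hq0 : q ≠ ⊥)
    (hpq : (p : 𝓞 E) ∉ q) (k : ℕ) {r : ℕ} (hr : rc_ax_growthLevel p {q} k ≤ r)
    [IsCyclotomicExtension {p ^ r} E M] : p ^ k ∣ Nat.card Gal(M/E) :=
  (rc_ax_tower_growth (M := M) hp2 hζ₁ {q} k hr (Finset.mem_singleton_self q) hq0 hpq).trans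
    (orderOf_dvd_natCard _)

end tower

end Fermat.Agent.S55
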