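import Fermat.Agent.S55.Recip.CycloArtin

/-!
# S55 / G4: Frobenius elements and Artin symbols in towers

`F ⊆ K' ⊆ K` number fields, `K/F` and `K'/F` Galois.  A Frobenius element of `K/F` at a prime `Q`
restricts to a Frobenius element of `K'/F` at `Q ∩ 𝓞 K'`; hence (unramified, abelian `K'/F`)
`am_frob` and the symbols `rc_artAway` are compatible with restriction.
-/

set_option autoImplicit false

open NumberField

namespace Fermat.Agent.S55

open Fermat.Agent.S14
open scoped Pointwise IsMulCommutative nonZeroDivisors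

set_option linter.style.haveILetI false
set_option linter.unusedSectionVars false

variable {F K' K : Type*} [Field F] [NumberField F] [Field K'] [NumberField K'] [Field K]
  [NumberField K] [Algebra F K'] [Algebra K' K] [Algebra F K] [IsScalarTower F K' K]
  [IsGalois F K] [IsGalois F K']

theorem rc_smul_algebraMap (σ : Gal(K/F)) (x : 𝓞 K') :
    algebraMap (𝓞 K') (𝓞 K) ((AlgEquiv.restrictNormalHom K' σ) • x) =
      σ • (algebraMap (𝓞 K') (𝓞 K) x) := by
  apply RingOfIntegers.ext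
  show algebraMap K' K ((AlgEquiv.restrictNormalHom K' σ) (x : K')) =
    σ (algebraMap K' K (x : K'))
  exact AlgEquiv.restrictNormal_commutes σ K' (x : K')

/-- A Frobenius at `Q` restricts to a Frobenius at `Q ∩ 𝓞 K'`. -/
theorem rc_isArithFrobAt_restrict {σ : Gal(K/F)} {Q : Ideal (𝓞 K)}
    (h : IsArithFrobAt (𝓞 F) σ Q) :
    IsArithFrobAt (𝓞 F) (AlgEquiv.restrictNormalHom K' σ) (Q.under (𝓞 K')) := by
  intro x
  have hunder : (Q.under (𝓞 K')).under (𝓞 F) = Q.under (𝓞 F) := Ideal.under_under Q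
  have hx := h (algebraMap (𝓞 K') (𝓞 K) x)
  show (AlgEquiv.restrictNormalHom K' σ) • x -
    x ^ Nat.card (𝓞 F ⧸ (Q.under (𝓞 K')).under (𝓞 F)) ∈ Q.under (𝓞 K')
  rw [hunder, Ideal.under, Ideal.mem_comap, map_sub, map_pow, rc_smul_algebraMap]
  exact hx

/-- Unramifiedness descends to an intermediate field. -/
theorem rc_unram_of_tower {q : Ideal (𝓞 F)} [hq : q.IsPrime] (hq0 : q ≠ ⊥)
    (hu : am_Unram F K q) : am_Unram F K' q := by
  rw [am_unram_iff_ramificationIdx q hq0] at hu ⊢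
  intro Q' hQ' hQ'q
  have hQ'0 : Q' ≠ ⊥ := am_ne_bot_of_liesOver hq0 Q'
  obtain ⟨Q, hQ, hQQ', hQ0⟩ := am_exists_prime_over K Q' hQ'0
  haveI : Q.LiesOver q := Ideal.LiesOver.trans Q Q' q
  have h1 := hu Q hQ inferInstance
  have hdvd : Q'.ramificationIdx (𝓞 F) ∣ Q.ramificationIdx (𝓞 F) :=
    Ideal.ramificationIdx_below_dvd Q' Q
  rw [h1] at hdvd
  exact Nat.dvd_one.mp hdvd

variable [IsMulCommutative Gal(K'/F)]

/-- A Frobenius of `K/F` (any Galois `K/F`) at a prime over an unramified `q` restricts to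
`am_frob F K' q` for an abelian intermediate `K'/F`. -/
theorem rc_restrict_eq_frob {q : Ideal (𝓞 F)} [hq : q.IsPrime] (hq0 : q ≠ ⊥)
    (hu : am_Unram F K' q) {σ : Gal(K/F)} (Q : Ideal (𝓞 K)) [Q.IsPrime] [hQ : Q.LiesOver q]
    (h : IsArithFrobAt (𝓞 F) σ Q) :
    AlgEquiv.restrictNormalHom K' σ = am_frob F K' q := by
  haveI : (Q.under (𝓞 K')).IsPrime := Ideal.IsPrime.under (𝓞 K') Q
  haveI : (Q.under (𝓞 K')).LiesOver q := ⟨by rw [Ideal.under_under]; exact hQ.over⟩
  exact am_frob_unique hq0 hu (Q.under (𝓞 K')) (rc_isArithFrobAt_restrict h)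

variable [IsMulCommutative Gal(K/F)]

theorem rc_frob_restrict {q : Ideal (𝓞 F)} [hq : q.IsPrime] (hq0 : q ≠ ⊥)
    (hu : am_Unram F K q) :
    AlgEquiv.restrictNormalHom K' (am_frob F K q) = am_frob F K' q := by
  obtain ⟨Q, hQ1, hQ2, -⟩ := am_exists_prime_over K q hq0
  exact rc_restrict_eq_frob hq0 (rc_unram_of_tower hq0 hu) Q (am_frob_spec q hq0 Q)

/-- The symbol away from `m` is compatible with restriction to an intermediate field. -/
theorem rc_artAway_restrict {m : ℕ}
    (hunr : ∀ q : Ideal (𝓞 F), q.IsPrime → q ≠ ⊥ → (m : 𝓞 F) ∉ q → am_Unram F K q)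
    (I : Ideal (𝓞 F)) :
    AlgEquiv.restrictNormalHom K' (rc_artAway F K m I) = rc_artAway F K' m I := by
  unfold rc_artAway
  rw [map_multiset_prod, Multiset.map_map]
  congr 1
  apply Multiset.map_congr rfl
  intro q hq
  obtain ⟨h1, h2, h3⟩ := rc_factorsAway_prop hq
  haveI := h1
  exact rc_frob_restrict h2 (hunr q h1 h2 h3)

end Fermat.Agent.S55
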