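import Mathlib
import Fermat.Agent.S55.Recip.AuxTower
import Fermat.Agent.S55.Recip.FrobRestrict

/-!
# S55 / G4, leaf P1b (field level): the auxiliary cyclic layer inside `E(ζ_l)`

`l ≡ 1 mod p ^ K` a prime such that `p` is not a `p`-th power modulo `l`
(`rc_ax_exists_aux_prime_pow`), `M = E(ζ_l)`, `G = Gal(M/E)` (cyclic: `rc_ax_prime_cyclic`).

* `rc_ax_frob_pow_of_pow` : for a prime `v` of `E` of norm `p ^ f`, if `Frob_v ^ t` is a
  `p ^ K`-th power in `G` then `p ^ (K - v_p(f)) ∣ t`;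
* `rc_ax_layer E M n` : the subextension of the abelian extension `M/E` fixed by the `n`-th powers
  of `G`, with its instances (`IsGalois`, `IsMulCommutative`), `rc_ax_layer_isCyclic`,
  `rc_ax_layer_card`, `rc_ax_layer_restrict_eq_one_iff`, `rc_ax_layer_unram`, `rc_ax_layer_frob`,
  `rc_ax_layer_frob_pow_eq_one_iff`;
* `rc_ax_layer_orderOf_frob` : in `E'' = rc_ax_layer E M (p ^ K)` the Frobenius of `v ∣ p` has
  order divisible by `p ^ (K - v_p(f))`; `rc_ax_layer_card_dvd`, `rc_ax_layer_card_eq_pow`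
  (degree exactly `p ^ K` when `l` is unramified in `E`).
-/

set_option autoImplicit false

namespace Fermat.Agent.S55

open Polynomial NumberField
open Fermat.Agent.S14
open scoped IsMulCommutative

set_option linter.style.haveILetI false
set_option linter.unusedSectionVars false

/-- In a finite cyclic group whose order is divisible by `p ^ K`, if `x` is not a `p`-th power and
`x ^ m` is a `p ^ K`-th power then `p ^ K ∣ m`. -/
theorem rc_ax_cyclic_pow_mem {U : Type*} [CommGroup U] [Finite U] [IsCyclic U] {p K : ℕ}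
    (hp : p.Prime) (hK : p ^ K ∣ Nat.card U) {x : U} (hx : ¬ ∃ y : U, y ^ p = x) {m : ℕ}
    (hm : ∃ y : U, y ^ (p ^ K) = x ^ m) : p ^ K ∣ m := by
  obtain ⟨g, hg⟩ := IsCyclic.exists_generator (α := U)
  have hord : orderOf g = Nat.card U := orderOf_eq_card_of_forall_mem_zpowers hg
  have hpow : ∀ z : U, ∃ i : ℕ, g ^ i = z := by
    intro z
    have := (mem_powers_iff_mem_zpowers (x := g) (y := z)).mpr (hg z)
    exact Submonoid.mem_powers_iff z g |>.mp this
  obtain ⟨a, rfl⟩ := hpow x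
  obtain ⟨y, hy⟩ := hm
  obtain ⟨b, rfl⟩ := hpow y
  have hpa : ¬ p ∣ a := by
    rintro ⟨a', rfl⟩
    exact hx ⟨g ^ a', by rw [← pow_mul, mul_comm]⟩
  rw [← pow_mul, ← pow_mul, pow_eq_pow_iff_modEq, hord] at hy
  have h1 : b * p ^ K ≡ a * m [MOD p ^ K] := hy.of_dvd hK
  have h2 : a * m ≡ 0 [MOD p ^ K] := by
    refine h1.symm.trans ?_
    exact (Nat.modEq_zero_iff_dvd).mpr (dvd_mul_left _ _)
  have h3 : p ^ K ∣ a * m := (Nat.modEq_zero_iff_dvd).mp h2
  have hco : Nat.Coprime (p ^ K) a :=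
    Nat.Coprime.pow_left K ((Nat.Prime.coprime_iff_not_dvd hp).mpr hpa)
  exact hco.dvd_of_dvd_mul_left h3

/-- `p ^ K ∣ f * t` implies `p ^ (K - v_p(f)) ∣ t`. -/
theorem rc_ax_pow_dvd_of_mul {p K f t : ℕ} (hp : p.Prime) (hf : f ≠ 0) (h : p ^ K ∣ f * t) :
    p ^ (K - padicValNat p f) ∣ t := by
  haveI : Fact p.Prime := ⟨hp⟩
  set v := padicValNat p f with hv
  obtain ⟨f', hf'⟩ : p ^ v ∣ f := pow_padicValNat_dvd
  have hpf' : ¬ p ∣ f' := by
    rintro ⟨b, rfl⟩
    have : p ^ (v + 1) ∣ f := ⟨b, by rw [hf', pow_succ]; ring⟩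
    exact pow_succ_padicValNat_not_dvd hf this
  rcases le_or_gt K v with hKv | hKv
  · rw [Nat.sub_eq_zero_of_le hKv, pow_zero]
    exact one_dvd t
  · obtain ⟨j, rfl⟩ : ∃ j, K = v + j := ⟨K - v, by omega⟩
    rw [Nat.add_sub_cancel_left]
    rw [hf', pow_add, mul_assoc] at h
    have h2 : p ^ j ∣ f' * t :=
      Nat.dvd_of_mul_dvd_mul_left (pow_pos hp.pos v) h
    have hco : Nat.Coprime (p ^ j) f' :=
      Nat.Coprime.pow_left j ((Nat.Prime.coprime_iff_not_dvd hp).mpr hpf')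
    exact hco.dvd_of_dvd_mul_left h2

section cyclic

variable {E M : Type*} [Field E] [NumberField E] [Field M] [NumberField M] [Algebra E M]
  [IsGalois E M] [IsMulCommutative Gal(M/E)]

/-- A prime of norm `p ^ f` contains `p`. -/
theorem rc_ax_mem_of_absNorm_eq_pow {p f : ℕ} {v : Ideal (𝓞 E)} [hv : v.IsPrime]
    (hvf : Ideal.absNorm v = p ^ f) : (p : 𝓞 E) ∈ v := by
  have h := Ideal.absNorm_mem v
  rw [hvf, Nat.cast_pow] at h
  exact hv.mem_of_pow_mem f h

/-- KEY (P1b, field level): `l ≡ 1 mod p ^ K` prime, `p` not a `p`-th power modulo `l`,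
`M = E(ζ_l)`, `v` a prime of `E` of norm `p ^ f`.  If `Frob_v ^ t` is a `p ^ K`-th power in
`Gal(M/E)` then `p ^ (K - v_p(f)) ∣ t`. -/
theorem rc_ax_frob_pow_of_pow {p l K : ℕ} [hpF : Fact p.Prime] [hlF : Fact l.Prime]
    (hlK : l % p ^ K = 1) (hnp : ¬ ∃ x : ZMod l, x ^ p = (p : ZMod l))
    [IsCyclotomicExtension {l} E M] {v : Ideal (𝓞 E)} [hv : v.IsPrime] (hv0 : v ≠ ⊥) {f : ℕ}
    (hvf : Ideal.absNorm v = p ^ f) {t : ℕ}
    (ht : ∃ τ : Gal(M/E), τ ^ (p ^ K) = am_frob E M v ^ t) :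
    p ^ (K - padicValNat p f) ∣ t := by
  have hp := hpF.out
  have hl := hlF.out
  haveI : NeZero l := ⟨hl.ne_zero⟩
  have hpl : p ≠ l := by
    rintro rfl
    exact hnp ⟨0, by rw [zero_pow hp.ne_zero, ZMod.natCast_self]⟩
  have hf0 : f ≠ 0 := by
    rintro rfl
    have := rc_ax_two_le_absNorm hv0
    rw [hvf] at this
    simp at this
  have hco : Nat.Coprime p l := (Nat.coprime_primes hp hl).mpr hpl
  have hpv : (p : 𝓞 E) ∈ v := rc_ax_mem_of_absNorm_eq_pow hvf
  have hlv : (l : 𝓞 E) ∉ v := ax_natCast_not_mem v hv.ne_top hpv hco.symm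
  obtain ⟨ζ, hζ⟩ := IsCyclotomicExtension.exists_isPrimitiveRoot E M
    (Set.mem_singleton l) (NeZero.ne l)
  -- the cyclotomic character
  set χ := hζ.autToPow E with hχ
  set x : (ZMod l)ˣ := ZMod.unitOfCoprime p hco with hx
  have hxval : (x : ZMod l) = (p : ZMod l) := ZMod.coe_unitOfCoprime p hco
  have hfrob : χ (am_frob E M v) = x ^ f := by
    apply Units.ext
    rw [Units.val_pow_eq_pow_val, hxval]
    have h1 : ζ ^ ((χ (am_frob E M v) : (ZMod l)ˣ) : ZMod l).val = am_frob E M v ζ :=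
      hζ.autToPow_spec E _
    rw [am_frob_apply_of_pow_eq_one hv0 hl.ne_zero hζ.pow_eq_one hlv, hvf] at h1
    have hfin : IsOfFinOrder ζ :=
      isOfFinOrder_iff_pow_eq_one.mpr ⟨l, hl.pos, hζ.pow_eq_one⟩
    rw [hfin.pow_eq_pow_iff_modEq, ← hζ.eq_orderOf, ← ZMod.natCast_eq_natCast_iff,
      ZMod.natCast_zmod_val, Nat.cast_pow] at h1
    exact h1
  obtain ⟨τ, hτ⟩ := ht
  have h2 : (χ τ) ^ (p ^ K) = x ^ (f * t) := by
    rw [← map_pow, hτ, map_pow, hfrob, pow_mul]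
  have hxnot : ¬ ∃ y : (ZMod l)ˣ, y ^ p = x := by
    rintro ⟨y, hy⟩
    apply hnp
    refine ⟨(y : ZMod l), ?_⟩
    rw [← Units.val_pow_eq_pow_val, hy, hxval]
  have hcard : p ^ K ∣ Nat.card (ZMod l)ˣ := by
    rw [Nat.card_eq_fintype_card, ZMod.card_units_eq_totient, Nat.totient_prime hl]
    have h := Nat.div_add_mod l (p ^ K)
    rw [hlK] at h
    exact ⟨l / p ^ K, by omega⟩
  have h3 : p ^ K ∣ f * t := rc_ax_cyclic_pow_mem hp hcard hxnot ⟨χ τ, h2⟩
  exact rc_ax_pow_dvd_of_mul hp hf0 h3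

end cyclic


section layer

/-- The subgroup of `n`-th powers of an abelian group (`IsMulCommutative` mixin form). -/
def rc_ax_powSubgroup (G : Type*) [Group G] [IsMulCommutative G] (n : ℕ) : Subgroup G :=
  (powMonoidHom n : G →* G).range

theorem rc_ax_mem_powSubgroup {G : Type*} [Group G] [IsMulCommutative G] {n : ℕ} {σ : G} :
    σ ∈ rc_ax_powSubgroup G n ↔ ∃ τ : G, τ ^ n = σ := by
  unfold rc_ax_powSubgroup
  rw [MonoidHom.mem_range]
  rfl

instance rc_ax_powSubgroup_normal (G : Type*) [Group G] [IsMulCommutative G] (n : ℕ) :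
    (rc_ax_powSubgroup G n).Normal :=
  ⟨fun x hx g => by rwa [mul_comm' g x, mul_assoc, mul_inv_cancel, mul_one]⟩

theorem rc_ax_powSubgroup_index {G : Type*} [Group G] [IsMulCommutative G] [Finite G]
    [IsCyclic G] (n : ℕ) : (rc_ax_powSubgroup G n).index = (Nat.card G).gcd n := by
  unfold rc_ax_powSubgroup
  exact IsCyclic.index_powMonoidHom_range G n

variable (E M : Type*) [Field E] [Field M] [Algebra E M]
  [IsGalois E M] [IsMulCommutative Gal(M/E)]

/-- The layer of `M/E` (abelian) cut out by the `n`-th powers of the Galois group: the maximal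
subextension of exponent dividing `n`. -/
noncomputable def rc_ax_layer (n : ℕ) : IntermediateField E M :=
  IntermediateField.fixedField (rc_ax_powSubgroup Gal(M/E) n)

instance rc_ax_layer_isGalois (n : ℕ) : IsGalois E (rc_ax_layer E M n) := by
  unfold rc_ax_layer
  infer_instance

variable {E M}

theorem rc_ax_layer_restrict_eq_one_iff [FiniteDimensional E M] (n : ℕ) (σ : Gal(M/E)) :
    AlgEquiv.restrictNormalHom (rc_ax_layer E M n) σ = 1 ↔ ∃ τ : Gal(M/E), τ ^ n = σ := by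
  rw [← rc_ax_mem_powSubgroup, ← MonoidHom.mem_ker, IntermediateField.restrictNormalHom_ker]
  unfold rc_ax_layer
  rw [IntermediateField.fixingSubgroup_fixedField]

instance rc_ax_layer_isMulCommutative (n : ℕ) :
    IsMulCommutative Gal(rc_ax_layer E M n/E) := by
  refine ⟨⟨fun x y => ?_⟩⟩
  obtain ⟨x, rfl⟩ := AlgEquiv.restrictNormalHom_surjective M x
  obtain ⟨y, rfl⟩ := AlgEquiv.restrictNormalHom_surjective M y
  rw [← map_mul, ← map_mul, mul_comm' x y]

theorem rc_ax_layer_isCyclic [IsCyclic Gal(M/E)] (n : ℕ) :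
    IsCyclic Gal(rc_ax_layer E M n/E) :=
  isCyclic_of_surjective (AlgEquiv.restrictNormalHom (F := E) (K₁ := M) (rc_ax_layer E M n))
    (AlgEquiv.restrictNormalHom_surjective M)

theorem rc_ax_layer_card [FiniteDimensional E M] [IsCyclic Gal(M/E)] (n : ℕ) :
    Nat.card Gal(rc_ax_layer E M n/E) = (Nat.card Gal(M/E)).gcd n := by
  rw [← rc_ax_powSubgroup_index (G := Gal(M/E)) n]
  unfold rc_ax_layer
  rw [Subgroup.index, Nat.card_congr (IsGalois.normalAutEquivQuotient _).toEquiv]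

end layer


section layerFrob

variable {E M : Type*} [Field E] [NumberField E] [Field M] [NumberField M] [Algebra E M]
  [IsGalois E M] [IsMulCommutative Gal(M/E)]

/-- Unramifiedness descends to the layer. -/
theorem rc_ax_layer_unram (n : ℕ) {q : Ideal (𝓞 E)} [q.IsPrime] (hq0 : q ≠ ⊥)
    (hu : am_Unram E M q) : am_Unram E (rc_ax_layer E M n) q :=
  rc_unram_of_tower (K := M) hq0 hu

/-- The Frobenius of the layer is the restriction of the Frobenius of `M/E`. -/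
theorem rc_ax_layer_frob (n : ℕ) {q : Ideal (𝓞 E)} [q.IsPrime] (hq0 : q ≠ ⊥)
    (hu : am_Unram E M q) :
    am_frob E (rc_ax_layer E M n) q =
      AlgEquiv.restrictNormalHom (rc_ax_layer E M n) (am_frob E M q) :=
  (rc_frob_restrict (K' := rc_ax_layer E M n) hq0 hu).symm

/-- `Frob_q ^ t = 1` in the layer iff `Frob_q ^ t` is an `n`-th power in `Gal(M/E)`. -/
theorem rc_ax_layer_frob_pow_eq_one_iff (n : ℕ) {q : Ideal (𝓞 E)} [q.IsPrime] (hq0 : q ≠ ⊥)
    (hu : am_Unram E M q) (t : ℕ) :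
    am_frob E (rc_ax_layer E M n) q ^ t = 1 ↔ ∃ τ : Gal(M/E), τ ^ n = am_frob E M q ^ t := by
  rw [rc_ax_layer_frob n hq0 hu, ← map_pow, rc_ax_layer_restrict_eq_one_iff]

/-- MAIN (P1b): in the layer `E'' = rc_ax_layer E M (p ^ K)` of `M = E(ζ_l)` the Frobenius of a
prime `v` of norm `p ^ f` has order divisible by `p ^ (K - v_p(f))`. -/
theorem rc_ax_layer_orderOf_frob {p l K : ℕ} [hpF : Fact p.Prime] [hlF : Fact l.Prime]
    (hlK : l % p ^ K = 1) (hnp : ¬ ∃ x : ZMod l, x ^ p = (p : ZMod l))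
    [IsCyclotomicExtension {l} E M] {v : Ideal (𝓞 E)} [hv : v.IsPrime] (hv0 : v ≠ ⊥) {f : ℕ}
    (hvf : Ideal.absNorm v = p ^ f) :
    p ^ (K - padicValNat p f) ∣ orderOf (am_frob E (rc_ax_layer E M (p ^ K)) v) := by
  have hp := hpF.out
  have hl := hlF.out
  haveI : NeZero l := ⟨hl.ne_zero⟩
  have hpl : p ≠ l := by
    rintro rfl
    exact hnp ⟨0, by rw [zero_pow hp.ne_zero, ZMod.natCast_self]⟩
  have hco : Nat.Coprime p l := (Nat.coprime_primes hp hl).mpr hpl
  have hpv : (p : 𝓞 E) ∈ v := rc_ax_mem_of_absNorm_eq_pow hvf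
  have hlv : (l : 𝓞 E) ∉ v := ax_natCast_not_mem v hv.ne_top hpv hco.symm
  have hu : am_Unram E M v := rc_ax_cyclo_unram (n := l) v hlv
  apply rc_ax_frob_pow_of_pow (M := M) hlK hnp hv0 hvf
  rw [← rc_ax_layer_frob_pow_eq_one_iff (p ^ K) hv0 hu]
  exact pow_orderOf_eq_one _

/-- The layer `rc_ax_layer E M (p ^ K)` has degree dividing `p ^ K`. -/
theorem rc_ax_layer_card_dvd [IsCyclic Gal(M/E)] (n : ℕ) :
    Nat.card Gal(rc_ax_layer E M n/E) ∣ n := by
  rw [rc_ax_layer_card]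
  exact Nat.gcd_dvd_right _ _

/-- If `l` is unramified in `E` and `l ≡ 1 mod p ^ K`, the layer of `E(ζ_l)/E` cut out by the
`p ^ K`-th powers has degree exactly `p ^ K`. -/
theorem rc_ax_layer_card_eq_pow {p l K : ℕ} [hlF : Fact l.Prime] (hlK : l % p ^ K = 1)
    [IsCyclotomicExtension {l} E M]
    (hunr : ∀ Q : Ideal (𝓞 E), Q.IsPrime → (l : 𝓞 E) ∈ Q → Q.ramificationIdx ℤ = 1) :
    Nat.card Gal(rc_ax_layer E M (p ^ K)/E) = p ^ K := by
  haveI := rc_ax_prime_cyclic (E := E) (M := M) (l := l)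
  obtain ⟨P, hP1, hP2⟩ := ae_exists_prime_mem M l
  have hcard := (ae_inertia_eq_top (K := E) (Ω := M) hunr P hP2).2
  rw [rc_ax_layer_card, hcard]
  apply Nat.gcd_eq_right
  have h := Nat.div_add_mod l (p ^ K)
  rw [hlK] at h
  exact ⟨l / p ^ K, by omega⟩

/-- In the `p`-tower, for `r ≥ rc_ax_growthLevel p {q} k` the layer of `E(ζ_{p^r})/E` cut out by
the `p ^ k`-th powers is cyclic of degree exactly `p ^ k`. -/
theorem rc_ax_tower_layer_card {p : ℕ} [hpF : Fact p.Prime] (hp2 : p ≠ 2) {ζ₁ : E}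
    (hζ₁ : IsPrimitiveRoot ζ₁ p) {q : Ideal (𝓞 E)} [hq : q.IsPrime] (hq0 : q ≠ ⊥)
    (hpq : (p : 𝓞 E) ∉ q) (k : ℕ) {r : ℕ} (hr : rc_ax_growthLevel p {q} k ≤ r)
    [IsCyclotomicExtension {p ^ r} E M] :
    Nat.card Gal(rc_ax_layer E M (p ^ k)/E) = p ^ k := by
  haveI := rc_ax_tower_cyclic (E := E) (M := M) hp2 r
  rw [rc_ax_layer_card]
  exact Nat.gcd_eq_right (rc_ax_tower_card_growth (M := M) hp2 hζ₁ hq0 hpq k hr)

end layerFrob

end Fermat.Agent.S55
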