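import Mathlib

/-!
# Orbit counting for double cosets (G4, helper13's request (H-b))

`Γ` a finite group, `D H' H : Subgroup Γ` with `H' ≤ H`.  The `H'`-orbits on `Γ ⧸ D` lying over a
given `H`-orbit `o` partition it, and with the local indices
`c g = |g⁻¹ H g ∩ D| / |g⁻¹ H' g ∩ D|` one has `∑_{o' ↦ o} c (rep o') = [H : H']`.

* `oc_π`     : the obvious map `H'`-orbits → `H`-orbits (any `Γ`-set `X`);
* `oc_sum_gen` : general `Γ`-set form, local index written with stabilisers;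
* `oc_c`, `oc_sum`, `oc_card_dvd` : the `Γ ⧸ D` form.
-/

set_option autoImplicit false

namespace Fermat.Agent.S55

open MulAction

section General

variable {Γ X : Type*} [Group Γ] [MulAction Γ X] (H' H : Subgroup Γ)

/-- The obvious map from `H'`-orbits to `H`-orbits, for `H' ≤ H`. -/
def oc_π (hle : H' ≤ H) : orbitRel.Quotient ↥H' X → orbitRel.Quotient ↥H X :=
  Quotient.map' id (fun a b hab => by
    obtain ⟨h, hh⟩ := hab
    exact ⟨⟨h.1, hle h.2⟩, hh⟩)

@[simp] lemma oc_π_mk (hle : H' ≤ H) (x : X) :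
    oc_π H' H hle (Quotient.mk'' x) = Quotient.mk'' x := rfl

/-- The `H`-orbit `o` is the disjoint union of the `H'`-orbits lying over it. -/
noncomputable def oc_orbitEquivSigma (hle : H' ≤ H) (o : orbitRel.Quotient ↥H X) :
    o.orbit ≃ Σ o' : ↥{o' : orbitRel.Quotient ↥H' X | oc_π H' H hle o' = o}, (o'.1).orbit where
  toFun x := ⟨⟨Quotient.mk'' x.1, by
      have := orbitRel.Quotient.mem_orbit.1 x.2
      simpa using this⟩, ⟨x.1, orbitRel.Quotient.mem_orbit.2 rfl⟩⟩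
  invFun z := ⟨z.2.1, by
      have h1 := orbitRel.Quotient.mem_orbit.1 z.2.2
      have h2 : oc_π H' H hle z.1.1 = o := z.1.2
      rw [← h1] at h2
      exact orbitRel.Quotient.mem_orbit.2 h2⟩
  left_inv x := rfl
  right_inv z := by
    rcases z with ⟨⟨o', ho'⟩, ⟨x, hx⟩⟩
    have h1 := orbitRel.Quotient.mem_orbit.1 hx
    subst h1
    rfl

variable [Finite Γ]

omit [Finite Γ] in
/-- Orbit–stabiliser with `Nat.card`. -/
lemma oc_card_orbit_mul_card_stabilizer (K : Subgroup Γ) (y : X) :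
    Nat.card (orbit ↥K y) * Nat.card (stabilizer ↥K y) = Nat.card ↥K := by
  rw [← Nat.card_prod]
  exact Nat.card_congr (orbitProdStabilizerEquivGroup ↥K y)

omit [Finite Γ] in
/-- `Stab_{H'}(y)` embeds in `Stab_H(y)`. -/
lemma oc_card_stabilizer_dvd (hle : H' ≤ H) (y : X) :
    Nat.card (stabilizer ↥H' y) ∣ Nat.card (stabilizer ↥H y) := by
  let f : stabilizer ↥H' y →* stabilizer ↥H y :=
    { toFun := fun k => ⟨⟨k.1.1, hle k.1.2⟩, k.2⟩
      map_one' := rfl
      map_mul' := fun _ _ => rfl }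
  refine Subgroup.card_dvd_of_injective f ?_
  intro a b hab
  have : (a.1.1 : Γ) = b.1.1 := congrArg (fun z : stabilizer ↥H y => (z.1.1 : Γ)) hab
  exact Subtype.ext (Subtype.ext this)

/-- **Orbit counting, general `Γ`-set form.** -/
theorem oc_sum_gen [Finite X] (hle : H' ≤ H) (rep : orbitRel.Quotient ↥H' X → X)
    (hrep : ∀ o', (Quotient.mk'' (rep o') : orbitRel.Quotient ↥H' X) = o')
    (o : orbitRel.Quotient ↥H X) :
    ∑ᶠ o' ∈ {o' : orbitRel.Quotient ↥H' X | oc_π H' H hle o' = o},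
      Nat.card (stabilizer ↥H (rep o')) / Nat.card (stabilizer ↥H' (rep o')) =
        H'.relIndex H := by
  classical
  have : Fintype ↥{o' : orbitRel.Quotient ↥H' X | oc_π H' H hle o' = o} := Fintype.ofFinite _
  rw [← finsum_set_coe_eq_finsum_mem, finsum_eq_sum_of_fintype]
  have hH' : 0 < Nat.card ↥H' := Nat.card_pos
  have ho : 0 < Nat.card o.orbit := by
    induction o using Quotient.inductionOn' with
    | h x =>
      have : Nonempty (orbitRel.Quotient.orbit (Quotient.mk'' x : orbitRel.Quotient ↥H X)) :=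
        ⟨⟨x, orbitRel.Quotient.mem_orbit.2 rfl⟩⟩
      exact Nat.card_pos
  have key : ∀ o' : ↥{o' : orbitRel.Quotient ↥H' X | oc_π H' H hle o' = o},
      Nat.card (stabilizer ↥H (rep o'.1)) / Nat.card (stabilizer ↥H' (rep o'.1)) *
        (Nat.card ↥H' * Nat.card o.orbit) = Nat.card ↥H * Nat.card (o'.1).orbit := by
    intro o'
    set y := rep o'.1 with hy
    have ha : (o'.1).orbit = orbit ↥H' y := by
      conv_lhs => rw [← hrep o'.1]
      exact orbitRel.Quotient.orbit_mk _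
    have hb : o.orbit = orbit ↥H y := by
      have h2 : oc_π H' H hle o'.1 = o := o'.2
      rw [← h2]
      conv_lhs => rw [← hrep o'.1]
      rfl
    rw [ha, hb, ← oc_card_orbit_mul_card_stabilizer H y,
      ← oc_card_orbit_mul_card_stabilizer H' y]
    obtain ⟨c, hc⟩ := oc_card_stabilizer_dvd H' H hle y
    have hs' : 0 < Nat.card (stabilizer ↥H' y) := Nat.card_pos
    rw [hc, Nat.mul_div_cancel_left _ hs']
    ring
  have hsum : ∑ o' : ↥{o' : orbitRel.Quotient ↥H' X | oc_π H' H hle o' = o},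
      Nat.card (o'.1).orbit = Nat.card o.orbit := by
    rw [Nat.card_congr (oc_orbitEquivSigma H' H hle o), Nat.card_sigma]
  have hrel : H'.relIndex H * Nat.card ↥H' = Nat.card ↥H := by
    rw [Subgroup.relIndex, mul_comm, ← Nat.card_congr (Subgroup.subgroupOfEquivOfLe hle).toEquiv]
    exact Subgroup.card_mul_index _
  apply Nat.eq_of_mul_eq_mul_right (Nat.mul_pos hH' ho)
  rw [Finset.sum_mul, Finset.sum_congr rfl (fun o' _ => key o'), ← Finset.mul_sum, hsum,
    ← hrel]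
  ring

end General

section Coset

variable {Γ : Type*} [Group Γ] (D H' H : Subgroup Γ)

/-- The local index `|g⁻¹ H g ∩ D| / |g⁻¹ H' g ∩ D|`. -/
noncomputable def oc_c (g : Γ) : ℕ :=
  Nat.card ↥((H.comap (MulAut.conj g).toMonoidHom).subgroupOf D) /
    Nat.card ↥((H'.comap (MulAut.conj g).toMonoidHom).subgroupOf D)

/-- `|g⁻¹ K g ∩ D| = |Stab_K (gD)|`. -/
lemma oc_card_comap_subgroupOf (K : Subgroup Γ) (g : Γ) :
    Nat.card ↥((K.comap (MulAut.conj g).toMonoidHom).subgroupOf D) =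
      Nat.card (stabilizer ↥K ((g : Γ) : Γ ⧸ D)) := by
  have hstab : ∀ k : ↥K, k ∈ stabilizer ↥K ((g : Γ) : Γ ⧸ D) ↔ g⁻¹ * (k : Γ) * g ∈ D := by
    intro k
    rw [mem_stabilizer_iff]
    change (((k : Γ) * g : Γ) : Γ ⧸ D) = (g : Γ ⧸ D) ↔ _
    rw [eq_comm, QuotientGroup.eq, mul_assoc]
  refine Nat.card_congr
    ⟨fun d => ⟨⟨g * (d.1.1 : Γ) * g⁻¹, ?_⟩, ?_⟩, fun k => ⟨⟨g⁻¹ * (k.1.1 : Γ) * g, ?_⟩, ?_⟩, ?_, ?_⟩
  · have := d.2
    rw [Subgroup.mem_subgroupOf, Subgroup.mem_comap] at this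
    simpa using this
  · rw [hstab]
    have : g⁻¹ * (g * (d.1.1 : Γ) * g⁻¹) * g = d.1.1 := by group
    change g⁻¹ * (g * (d.1.1 : Γ) * g⁻¹) * g ∈ D
    rw [this]
    exact d.1.2
  · exact (hstab k.1).1 k.2
  · rw [Subgroup.mem_subgroupOf, Subgroup.mem_comap]
    change (MulAut.conj g) (g⁻¹ * (k.1.1 : Γ) * g) ∈ K
    have : (MulAut.conj g) (g⁻¹ * (k.1.1 : Γ) * g) = k.1.1 := by
      simp [MulAut.conj_apply, mul_assoc]
    rw [this]
    exact k.1.2
  · intro d
    apply Subtype.ext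
    apply Subtype.ext
    change g⁻¹ * (g * (d.1.1 : Γ) * g⁻¹) * g = d.1.1
    group
  · intro k
    apply Subtype.ext
    apply Subtype.ext
    change g * (g⁻¹ * (k.1.1 : Γ) * g) * g⁻¹ = k.1.1
    group

/-- The division defining `oc_c` is exact. -/
theorem oc_card_dvd (hle : H' ≤ H) (g : Γ) :
    Nat.card ↥((H'.comap (MulAut.conj g).toMonoidHom).subgroupOf D) ∣
      Nat.card ↥((H.comap (MulAut.conj g).toMonoidHom).subgroupOf D) := by
  rw [oc_card_comap_subgroupOf, oc_card_comap_subgroupOf]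
  exact oc_card_stabilizer_dvd H' H hle _

/-- `oc_c` in terms of stabilisers. -/
lemma oc_c_eq (g : Γ) :
    oc_c D H' H g = Nat.card (stabilizer ↥H ((g : Γ) : Γ ⧸ D)) /
      Nat.card (stabilizer ↥H' ((g : Γ) : Γ ⧸ D)) := by
  rw [oc_c, oc_card_comap_subgroupOf, oc_card_comap_subgroupOf]

variable [Finite Γ]

/-- **Orbit counting (H-b).**  Summing the local indices `|g⁻¹Hg ∩ D| / |g⁻¹H'g ∩ D|` over
representatives of the `H'`-orbits on `Γ ⧸ D` lying over a fixed `H`-orbit gives `[H : H']`. -/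
theorem oc_sum (hle : H' ≤ H) (rep : orbitRel.Quotient ↥H' (Γ ⧸ D) → Γ)
    (hrep : ∀ o', (Quotient.mk'' ((rep o' : Γ) : Γ ⧸ D) : orbitRel.Quotient ↥H' (Γ ⧸ D)) = o')
    (o : orbitRel.Quotient ↥H (Γ ⧸ D)) :
    ∑ᶠ o' ∈ {o' : orbitRel.Quotient ↥H' (Γ ⧸ D) | oc_π H' H hle o' = o},
      oc_c D H' H (rep o') = H'.relIndex H := by
  simp only [oc_c_eq]
  exact oc_sum_gen H' H hle (fun o' => ((rep o' : Γ) : Γ ⧸ D)) hrep o

end Coset

end Fermat.Agent.S55
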