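import Fermat.Agent.S55.Recip.ConjRes
import Fermat.Agent.S55.Recip.OrbitCount

/-!
# S55 / G4: the total invariant of an idele-type module (abstract form)

`Γ` is a finite group, `J : Rep ℤ Γ` (the ideles of a Galois level).  The local data
(`rc_InvData p J Q`) are indexed by a type `Q` (the rational primes): for `q : Q` a subgroup
`D q ≤ Γ` (the decomposition group of a chosen place over `q`), a `D q`-module `X q` (the
multiplicative group of the completion, or `ℤ` at the primes where only the valuation is kept), a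
`D q`-equivariant map `pr q : J → X q` (the component at the chosen place) and a `p`-class module
structure `P q` on `X q` (seam A / seam L).

For every subgroup `H ≤ Γ` the *total invariant* `rc_INV 𝔻 hfin H : H²(H, J) →+ ℚ/ℤ` is the sum
over `q` and over the `H`-orbits on `Γ ⧸ D q` (= the places of the fixed field of `H` above `q`)
of the local invariants of the components; the component at the place `g D q` is computed at
the chosen place after conjugating by `g` (`rc_comp`, `rc_term`).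

Main results:
* `rc_term_congr` : the local term only depends on the double coset `H g D q`
  (for `p`-primary classes);
* `rc_term_res`, `rc_qterm_res`, `rc_INV_res` (U2) :
  `INV_{H'} (res z) = [H : H'] • INV_H z` for `H' ≤ H` and `p`-primary `z`;
* `rc_qterm_top`, `rc_INV_top` : on the top layer there is one orbit per `q` and
  `INV_Γ z = ∑ q, (P q).invTop (pr_q (res_{D q} z))` (the semi-local form of the sum formula).
-/

set_option autoImplicit false

namespace Fermat.Agent.S55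

open CategoryTheory groupCohomology

section data

variable {Γ : Type} [Group Γ]

/-- inner automorphisms of a subgroup act trivially: `rc_cj` for `h ∈ H`. -/
theorem rc_cj_self {k : Type} [CommRing k] (J : Rep.{0} k Γ) {H : Subgroup Γ} {h : Γ} (hh : h ∈ H)
    (hH : ∀ x ∈ H, h * x * h⁻¹ ∈ H) : rc_cj J h hH 2 = 𝟙 _ := by
  rw [← rc_inn_trivial (tt_res H J) (⟨h, hh⟩ : ↥H)]
  unfold rc_cj
  refine map_congr ?_ ?_ 2
  · ext x
    rfl
  · ext m
    rfl

/-- `g⁻¹ H g`. -/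
def rc_conj (g : Γ) (H : Subgroup Γ) : Subgroup Γ := H.comap (MulAut.conj g).toMonoidHom

theorem rc_mem_conj {g : Γ} {H : Subgroup Γ} {x : Γ} : x ∈ rc_conj g H ↔ g * x * g⁻¹ ∈ H :=
  Iff.rfl

theorem rc_conj_spec (g : Γ) (H : Subgroup Γ) : ∀ x ∈ rc_conj g H, g * x * g⁻¹ ∈ H :=
  fun _ hx => hx

/-- Local data for the total invariant: decomposition groups `D q`, local modules `X q`, the
component maps and the local `p`-class module structures. -/
structure rc_InvData (p : ℕ) (J : Rep.{0} ℤ Γ) (Q : Type) where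
  D : Q → Subgroup Γ
  X : ∀ q, Rep.{0} ℤ ↥(D q)
  pr : ∀ q, tt_res (D q) J ⟶ X q
  P : ∀ q, PClassModule p (X q)

variable {p : ℕ} {J : Rep.{0} ℤ Γ} {Q : Type} (𝔻 : rc_InvData p J Q)

/-- the component of a class of `H²(H, J)` at the place `g · (chosen place over q)`, computed at
the chosen place: conjugate by `g`, restrict to the decomposition group, project. -/
noncomputable def rc_comp (q : Q) (H : Subgroup Γ) (g : Γ) :
    groupCohomology (tt_res H J) 2 →+
      groupCohomology (tt_res ((rc_conj g H).subgroupOf (𝔻.D q)) (𝔻.X q)) 2 :=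
  (rc_cj J g (rc_conj_spec g H) 2 ≫ rc_loc (𝔻.pr q) (rc_conj g H) 2).hom.toAddMonoidHom

/-- the local term of the total invariant at the place `g · (chosen place over q)`. -/
noncomputable def rc_term (q : Q) (H : Subgroup Γ) (g : Γ) :
    groupCohomology (tt_res H J) 2 →+ tt_QZ :=
  ((𝔻.P q).inv _).comp (rc_comp 𝔻 q H g)

theorem rc_term_apply (q : Q) (H : Subgroup Γ) (g : Γ) (z : groupCohomology (tt_res H J) 2) :
    rc_term 𝔻 q H g z = (𝔻.P q).inv _ (rc_comp 𝔻 q H g z) := rfl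

theorem rc_comp_isPPrimary (q : Q) (H : Subgroup Γ) (g : Γ) {z : groupCohomology (tt_res H J) 2}
    (hz : tt_IsPPrimary p z) : tt_IsPPrimary p (rc_comp 𝔻 q H g z) :=
  tt_isPPrimary_map _ hz

section T1

variable [Finite Γ] [Fact p.Prime]

/-- **Independence of the representative of the double coset `H g D`.** -/
theorem rc_term_congr (q : Q) (H : Subgroup Γ) (g : Γ) {h : Γ} (hh : h ∈ H) (d : ↥(𝔻.D q))
    (z : groupCohomology (tt_res H J) 2) (hz : tt_IsPPrimary p z) :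
    rc_term 𝔻 q H (h * g * d) z = rc_term 𝔻 q H g z := by
  -- `K' = (hgd)⁻¹ H (hgd)`, `K = g⁻¹ H g`, `d K' d⁻¹ = K`
  have hK' : ∀ x ∈ rc_conj (h * g * d) H, (d : Γ) * x * (d : Γ)⁻¹ ∈ rc_conj g H := by
    intro x hx
    rw [rc_mem_conj] at hx ⊢
    have : g * ((d : Γ) * x * (d : Γ)⁻¹) * g⁻¹ = h⁻¹ * (h * g * d * x * (h * g * d)⁻¹) * h := by
      group
    rw [this]
    exact H.mul_mem (H.mul_mem (H.inv_mem hh) hx) hh
  have hH : ∀ x ∈ H, h * x * h⁻¹ ∈ H := fun x hx => H.mul_mem (H.mul_mem hh hx) (H.inv_mem hh)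
  -- decompose the conjugation-restriction
  have h1 : rc_cj J (h * g * d) (rc_conj_spec (h * g * d) H) 2 =
      rc_cj J g (rc_conj_spec g H) 2 ≫ rc_cj J (d : Γ) hK' 2 := by
    have hx1 : ∀ x ∈ rc_conj (h * g * d) H, (g * d) * x * (g * d)⁻¹ ∈ H := by
      intro x hx
      rw [rc_mem_conj] at hx
      have : g * d * x * (g * d)⁻¹ = h⁻¹ * (h * g * d * x * (h * g * d)⁻¹) * h := by group
      rw [this]
      exact H.mul_mem (H.mul_mem (H.inv_mem hh) hx) hh
    rw [rc_cj_comp J g d (rc_conj_spec g H) hK' 2 hx1]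
    have h2 := rc_cj_comp J h (g * d) hH hx1 2
      (by intro x hx; rw [← mul_assoc]; exact rc_conj_spec _ H x hx)
    rw [rc_cj_self J hh hH, Category.id_comp] at h2
    rw [h2]
    exact rc_cj_congr J (mul_assoc h g d) _ _ 2
  have hK'' : ∀ x ∈ (rc_conj (h * g * d) H).subgroupOf (𝔻.D q),
      d * x * d⁻¹ ∈ (rc_conj g H).subgroupOf (𝔻.D q) := by
    intro x hx
    rw [Subgroup.mem_subgroupOf] at hx ⊢
    exact hK' _ hx
  have h3 : rc_comp 𝔻 q H (h * g * d) z =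
      (rc_cj (𝔻.X q) d hK'' 2).hom (rc_comp 𝔻 q H g z) := by
    unfold rc_comp
    rw [h1, Category.assoc, rc_cj_loc (𝔻.pr q) d hK' 2 hK'', ← Category.assoc]
    rfl
  rw [rc_term_apply, rc_term_apply, h3,
    rc_pcm_inv_cj (𝔻.P q) d hK'' _ (rc_comp_isPPrimary 𝔻 q H g hz)]
  -- the two groups have the same cardinality
  have hcard : Nat.card ↥((rc_conj g H).subgroupOf (𝔻.D q)) =
      Nat.card ↥((rc_conj (h * g * d) H).subgroupOf (𝔻.D q)) := by
    refine Nat.card_congr ⟨fun x => ⟨d⁻¹ * x * d, ?_⟩, fun x => ⟨d * x * d⁻¹, hK'' x x.2⟩, ?_, ?_⟩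
    · have hx := x.2
      rw [Subgroup.mem_subgroupOf] at hx ⊢
      rw [rc_mem_conj] at hx ⊢
      have : h * g * ↑d * ↑(d⁻¹ * (x : ↥(𝔻.D q)) * d) * (h * g * ↑d)⁻¹ =
          h * (g * ((x : ↥(𝔻.D q)) : Γ) * g⁻¹) * h⁻¹ := by
        push_cast
        group
      rw [this]
      exact H.mul_mem (H.mul_mem hh hx) (H.inv_mem hh)
    · intro x; ext; simp [mul_assoc]
    · intro x; ext; simp [mul_assoc]
  rw [hcard, Nat.div_self Nat.card_pos, one_smul]

end T1

section U2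

variable [Finite Γ] [Fact p.Prime]

/-- restriction `H²(H, J) → H²(H', J)` for `H' ≤ H`. -/
noncomputable abbrev rc_res (J : Rep.{0} ℤ Γ) {H' H : Subgroup Γ} (hle : H' ≤ H) :
    groupCohomology (tt_res H J) 2 ⟶ groupCohomology (tt_res H' J) 2 :=
  rc_cj J 1 (rc_one_mem hle) 2

omit [Finite Γ] in
theorem rc_conj_mono (g : Γ) {H' H : Subgroup Γ} (hle : H' ≤ H) : rc_conj g H' ≤ rc_conj g H :=
  fun _ hx => hle hx

/-- the index factor `|g⁻¹Hg ∩ D| / |g⁻¹H'g ∩ D|`. -/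
noncomputable def rc_idx (D : Subgroup Γ) (H' H : Subgroup Γ) (g : Γ) : ℕ :=
  Nat.card ↥((rc_conj g H).subgroupOf D) / Nat.card ↥((rc_conj g H').subgroupOf D)

/-- **Local terms and restriction.** -/
theorem rc_term_res (q : Q) {H' H : Subgroup Γ} (hle : H' ≤ H) (g : Γ)
    (z : groupCohomology (tt_res H J) 2) (hz : tt_IsPPrimary p z) :
    rc_term 𝔻 q H' g ((rc_res J hle).hom z) = rc_idx (𝔻.D q) H' H g • rc_term 𝔻 q H g z := by
  have hKK : ∀ x ∈ rc_conj g H', (1 : Γ) * x * (1 : Γ)⁻¹ ∈ rc_conj g H :=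
    rc_one_mem (rc_conj_mono g hle)
  have h1 : rc_res J hle ≫ rc_cj J g (rc_conj_spec g H') 2 =
      rc_cj J g (rc_conj_spec g H) 2 ≫ rc_cj J 1 hKK 2 := by
    have hx1 : ∀ x ∈ rc_conj g H', (1 * g) * x * (1 * g)⁻¹ ∈ H := by
      intro x hx; rw [one_mul]; exact hle (rc_conj_spec g H' x hx)
    have hx2 : ∀ x ∈ rc_conj g H', (g * 1) * x * (g * 1)⁻¹ ∈ H := by
      intro x hx; rw [mul_one]; exact hle (rc_conj_spec g H' x hx)
    rw [rc_cj_comp J 1 g (rc_one_mem hle) (rc_conj_spec g H') 2 hx1,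
      rc_cj_comp J g 1 (rc_conj_spec g H) hKK 2 hx2]
    exact rc_cj_congr J (by rw [one_mul, mul_one]) _ _ 2
  have hK'' : ∀ x ∈ (rc_conj g H').subgroupOf (𝔻.D q),
      (1 : ↥(𝔻.D q)) * x * (1 : ↥(𝔻.D q))⁻¹ ∈ (rc_conj g H).subgroupOf (𝔻.D q) := by
    intro x hx
    rw [Subgroup.mem_subgroupOf] at hx ⊢
    simpa using rc_conj_mono g hle hx
  have h3 : rc_comp 𝔻 q H' g ((rc_res J hle).hom z) =
      (rc_cj (𝔻.X q) 1 hK'' 2).hom (rc_comp 𝔻 q H g z) := by
    unfold rc_comp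
    have := rc_cj_loc (𝔻.pr q) (1 : ↥(𝔻.D q)) hKK 2 hK''
    have e : (rc_res J hle ≫ rc_cj J g (rc_conj_spec g H') 2 ≫
        rc_loc (𝔻.pr q) (rc_conj g H') 2) =
        (rc_cj J g (rc_conj_spec g H) 2 ≫ rc_loc (𝔻.pr q) (rc_conj g H) 2) ≫
          rc_cj (𝔻.X q) 1 hK'' 2 := by
      rw [← Category.assoc, h1, Category.assoc, Category.assoc]
      congr 1
    exact congrArg (fun f => f.hom z) e
  rw [rc_term_apply, rc_term_apply, h3,
    rc_pcm_inv_cj (𝔻.P q) 1 hK'' _ (rc_comp_isPPrimary 𝔻 q H g hz)]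
  rfl

end U2

section INV

variable [Finite Γ] [Fact p.Prime]

open MulAction

/-- representatives of the `H`-orbits on `Γ ⧸ D` (the double cosets `H \ Γ / D`). -/
noncomputable def rc_rep (D H : Subgroup Γ) (o : orbitRel.Quotient ↥H (Γ ⧸ D)) : Γ :=
  (Quotient.out o : Γ ⧸ D).out

omit [Finite Γ] in
theorem rc_rep_spec (D H : Subgroup Γ) (o : orbitRel.Quotient ↥H (Γ ⧸ D)) :
    (Quotient.mk'' ((rc_rep D H o : Γ) : Γ ⧸ D) : orbitRel.Quotient ↥H (Γ ⧸ D)) = o := by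
  unfold rc_rep
  rw [QuotientGroup.out_eq']
  exact Quotient.out_eq o

omit [Finite Γ] in
/-- two elements of `Γ` over the same `H`-orbit of `Γ ⧸ D` differ by `H` on the left and `D` on
the right. -/
theorem rc_exists_of_orbit_eq (D H : Subgroup Γ) {g₁ g₂ : Γ}
    (h : (Quotient.mk'' ((g₁ : Γ) : Γ ⧸ D) : orbitRel.Quotient ↥H (Γ ⧸ D)) =
      Quotient.mk'' ((g₂ : Γ) : Γ ⧸ D)) :
    ∃ h ∈ H, ∃ d : ↥D, g₁ = h * g₂ * d := by
  have h' := Quotient.exact' h
  obtain ⟨⟨k, hk⟩, hk'⟩ := h'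
  have h1 : ((k * g₂ : Γ) : Γ ⧸ D) = (g₁ : Γ ⧸ D) := hk'
  have h2 : (k * g₂)⁻¹ * g₁ ∈ D := QuotientGroup.eq.mp h1
  exact ⟨k, hk, ⟨_, h2⟩, by simp [mul_assoc]⟩

/-- the `H'`-orbit of a point lies in its `H`-orbit. -/
def rc_orbMap (D : Subgroup Γ) {H' H : Subgroup Γ} (hle : H' ≤ H) :
    orbitRel.Quotient ↥H' (Γ ⧸ D) → orbitRel.Quotient ↥H (Γ ⧸ D) :=
  Quotient.map' id (by
    rintro a b ⟨⟨k, hk⟩, hk'⟩
    exact ⟨⟨k, hle hk⟩, hk'⟩)

omit [Finite Γ] in
theorem rc_orbMap_mk (D : Subgroup Γ) {H' H : Subgroup Γ} (hle : H' ≤ H) (x : Γ ⧸ D) :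
    rc_orbMap D hle (Quotient.mk'' x) = Quotient.mk'' x := rfl

/-- **Orbit counting** (from `oc_sum`). -/
theorem rc_count (D : Subgroup Γ) {H' H : Subgroup Γ} (hle : H' ≤ H)
    [Fintype (orbitRel.Quotient ↥H' (Γ ⧸ D))] [DecidableEq (orbitRel.Quotient ↥H (Γ ⧸ D))]
    (o : orbitRel.Quotient ↥H (Γ ⧸ D)) :
    ∑ o' ∈ Finset.univ.filter (fun o' => rc_orbMap D hle o' = o),
      rc_idx D H' H (rc_rep D H' o') = H'.relIndex H := by
  have h := oc_sum D H' H hle (rc_rep D H') (rc_rep_spec D H') o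
  rw [finsum_mem_eq_finite_toFinset_sum _ (Set.toFinite _)] at h
  rw [← h]
  refine Finset.sum_congr ?_ fun _ _ => rfl
  ext o'
  simp only [Finset.mem_filter, Finset.mem_univ, true_and, Set.Finite.mem_toFinset]
  exact Iff.rfl

/-- the contribution of `q` to the total invariant: the sum of the local terms over the
`H`-orbits on `Γ ⧸ D q`. -/
noncomputable def rc_qterm (q : Q) (H : Subgroup Γ) : groupCohomology (tt_res H J) 2 →+ tt_QZ :=
  ∑ᶠ o : orbitRel.Quotient ↥H (Γ ⧸ 𝔻.D q), rc_term 𝔻 q H (rc_rep (𝔻.D q) H o)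

omit [Fact p.Prime] in
theorem rc_qterm_apply (q : Q) (H : Subgroup Γ) (z : groupCohomology (tt_res H J) 2) :
    rc_qterm 𝔻 q H z =
      ∑ᶠ o : orbitRel.Quotient ↥H (Γ ⧸ 𝔻.D q), rc_term 𝔻 q H (rc_rep (𝔻.D q) H o) z := by
  unfold rc_qterm
  exact (AddMonoidHom.map_finsum (AddMonoidHom.eval z) (Set.toFinite _))

/-- **(U2) for one `q`.** -/
theorem rc_qterm_res (q : Q) {H' H : Subgroup Γ} (hle : H' ≤ H)
    (z : groupCohomology (tt_res H J) 2) (hz : tt_IsPPrimary p z) :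
    rc_qterm 𝔻 q H' ((rc_res J hle).hom z) = H'.relIndex H • rc_qterm 𝔻 q H z := by
  classical
  rw [rc_qterm_apply, rc_qterm_apply]
  -- step 1: each term
  have h1 : ∀ o' : orbitRel.Quotient ↥H' (Γ ⧸ 𝔻.D q),
      rc_term 𝔻 q H' (rc_rep (𝔻.D q) H' o') ((rc_res J hle).hom z) =
        rc_idx (𝔻.D q) H' H (rc_rep (𝔻.D q) H' o') •
          rc_term 𝔻 q H (rc_rep (𝔻.D q) H (rc_orbMap (𝔻.D q) hle o')) z := by
    intro o'
    rw [rc_term_res 𝔻 q hle _ z hz]
    congr 1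
    -- same `H`-orbit
    have e : (Quotient.mk'' ((rc_rep (𝔻.D q) H' o' : Γ) : Γ ⧸ 𝔻.D q) :
          orbitRel.Quotient ↥H (Γ ⧸ 𝔻.D q)) =
        Quotient.mk'' ((rc_rep (𝔻.D q) H (rc_orbMap (𝔻.D q) hle o') : Γ) : Γ ⧸ 𝔻.D q) := by
      rw [rc_rep_spec, ← rc_orbMap_mk (𝔻.D q) hle, rc_rep_spec]
    obtain ⟨h, hh, d, hd⟩ := rc_exists_of_orbit_eq (𝔻.D q) H e
    rw [hd]
    exact rc_term_congr 𝔻 q H _ hh d z hz
  rw [finsum_congr h1]
  -- step 2: fibrewise
  have : Fintype (orbitRel.Quotient ↥H' (Γ ⧸ 𝔻.D q)) := Fintype.ofFinite _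
  have : Fintype (orbitRel.Quotient ↥H (Γ ⧸ 𝔻.D q)) := Fintype.ofFinite _
  rw [finsum_eq_sum_of_fintype, finsum_eq_sum_of_fintype, Finset.smul_sum,
    ← Finset.sum_fiberwise Finset.univ (rc_orbMap (𝔻.D q) hle)]
  refine Finset.sum_congr rfl fun o _ => ?_
  rw [← rc_count (𝔻.D q) hle o, Finset.sum_smul]
  refine Finset.sum_congr rfl fun o' ho' => ?_
  rw [(Finset.mem_filter.mp ho').2]

/-- Finite support: every class has only finitely many non-trivial components. -/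
def rc_FinSupp : Prop :=
  ∀ (H : Subgroup Γ) (z : groupCohomology (tt_res H J) 2),
    {q : Q | ∃ g : Γ, rc_comp 𝔻 q H g z ≠ 0}.Finite

omit [Fact p.Prime] in
theorem rc_support_qterm (hfin : rc_FinSupp 𝔻) (H : Subgroup Γ)
    (z : groupCohomology (tt_res H J) 2) :
    (Function.support fun q => rc_qterm 𝔻 q H z).Finite := by
  refine (hfin H z).subset fun q hq => ?_
  by_contra hcon
  simp only [Set.mem_ofPred_eq, not_exists, not_not] at hcon
  apply hq
  show rc_qterm 𝔻 q H z = 0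
  rw [rc_qterm_apply]
  refine finsum_eq_zero_of_forall_eq_zero fun o => ?_
  rw [rc_term_apply, hcon, map_zero]

/-- **The total invariant** `INV_H : H²(H, J) → ℚ/ℤ`. -/
noncomputable def rc_INV (hfin : rc_FinSupp 𝔻) (H : Subgroup Γ) :
    groupCohomology (tt_res H J) 2 →+ tt_QZ where
  toFun z := ∑ᶠ q, rc_qterm 𝔻 q H z
  map_zero' := by simp
  map_add' z w := by
    rw [← finsum_add_distrib (rc_support_qterm 𝔻 hfin H z) (rc_support_qterm 𝔻 hfin H w)]
    exact finsum_congr fun q => map_add _ _ _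

omit [Fact p.Prime] in
theorem rc_INV_apply (hfin : rc_FinSupp 𝔻) (H : Subgroup Γ)
    (z : groupCohomology (tt_res H J) 2) : rc_INV 𝔻 hfin H z = ∑ᶠ q, rc_qterm 𝔻 q H z := rfl

/-- **(U2)** the total invariant and restriction. -/
theorem rc_INV_res (hfin : rc_FinSupp 𝔻) {H' H : Subgroup Γ} (hle : H' ≤ H)
    (z : groupCohomology (tt_res H J) 2) (hz : tt_IsPPrimary p z) :
    rc_INV 𝔻 hfin H' ((rc_res J hle).hom z) = H'.relIndex H • rc_INV 𝔻 hfin H z := by
  rw [rc_INV_apply, rc_INV_apply, smul_finsum' _ (rc_support_qterm 𝔻 hfin H z)]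
  exact finsum_congr fun q => rc_qterm_res 𝔻 q hle z hz

/-! ### The top layer: one orbit per `q` -/

omit [Finite Γ] in
theorem rc_conj_top (g : Γ) : rc_conj g (⊤ : Subgroup Γ) = ⊤ := by
  ext x
  simp [rc_mem_conj]

/-- the localisation map `H²(Γ, J) → H²(D q, X q)` (restriction then projection). -/
noncomputable abbrev rc_locTop (q : Q) :
    groupCohomology J 2 ⟶ groupCohomology (𝔻.X q) 2 :=
  map (𝔻.D q).subtype (𝔻.pr q) 2

omit [Finite Γ] [Fact p.Prime] in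
theorem rc_locTop_eq (q : Q) :
    rc_locTop 𝔻 q = tt_resMap (𝔻.D q) J 2 ≫ tt_coeffMap (𝔻.pr q) 2 :=
  rc_map_subtype_eq (𝔻.pr q) 2

/-- **The contribution of `q` on the top layer.** -/
theorem rc_qterm_top (q : Q) (z : groupCohomology J 2) (hz : tt_IsPPrimary p z) :
    rc_qterm 𝔻 q ⊤ ((tt_resMap ⊤ J 2).hom z) = (𝔻.P q).invTop ((rc_locTop 𝔻 q).hom z) := by
  have hzt : tt_IsPPrimary p ((tt_resMap ⊤ J 2).hom z) :=
    tt_isPPrimary_map (tt_resMap ⊤ J 2).hom.toAddMonoidHom hz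
  -- one orbit
  have hsub : Subsingleton (orbitRel.Quotient ↥(⊤ : Subgroup Γ) (Γ ⧸ 𝔻.D q)) := by
    constructor
    intro a b
    induction a using Quotient.inductionOn' with | h a => ?_
    induction b using Quotient.inductionOn' with | h b => ?_
    apply Quotient.sound'
    induction a using QuotientGroup.induction_on with | H a => ?_
    induction b using QuotientGroup.induction_on with | H b => ?_
    refine ⟨⟨a * b⁻¹, Subgroup.mem_top _⟩, ?_⟩
    show ((a * b⁻¹ * b : Γ) : Γ ⧸ 𝔻.D q) = a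
    rw [inv_mul_cancel_right]
  have hne : Nonempty (orbitRel.Quotient ↥(⊤ : Subgroup Γ) (Γ ⧸ 𝔻.D q)) :=
    ⟨Quotient.mk'' ((1 : Γ) : Γ ⧸ 𝔻.D q)⟩
  have huniq : Unique (orbitRel.Quotient ↥(⊤ : Subgroup Γ) (Γ ⧸ 𝔻.D q)) :=
    @Unique.mk' _ ⟨hne.some⟩ hsub
  rw [rc_qterm_apply, finsum_unique]
  have h1 : ∀ g : Γ, rc_term 𝔻 q ⊤ g ((tt_resMap ⊤ J 2).hom z) =
      rc_term 𝔻 q ⊤ 1 ((tt_resMap ⊤ J 2).hom z) := by
    intro g
    have := rc_term_congr 𝔻 q ⊤ 1 (Subgroup.mem_top g) (1 : ↥(𝔻.D q)) _ hzt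
    rwa [show g * 1 * ((1 : ↥(𝔻.D q)) : Γ) = g by simp] at this
  rw [h1, rc_term_apply]
  -- the component is the restriction of the localisation
  set D'' := (rc_conj 1 (⊤ : Subgroup Γ)).subgroupOf (𝔻.D q) with hD''
  have hD''top : D'' = ⊤ := by
    rw [hD'', rc_conj_top]
    exact Subgroup.top_subgroupOf _
  have h2 : rc_comp 𝔻 q ⊤ 1 ((tt_resMap ⊤ J 2).hom z) =
      (tt_resMap D'' (𝔻.X q) 2).hom ((rc_locTop 𝔻 q).hom z) := by
    have e := rc_resMap_cj_loc (𝔻.pr q) (rc_conj 1 (⊤ : Subgroup Γ)) (rc_conj_spec 1 ⊤) 2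
    exact congrArg (fun f => f.hom z) e
  have hw : tt_IsPPrimary p ((rc_locTop 𝔻 q).hom z) :=
    tt_isPPrimary_map (rc_locTop 𝔻 q).hom.toAddMonoidHom hz
  rw [h2, (𝔻.P q).inv_res D'' _ hw, hD''top, Subgroup.index_top, one_smul]
  rfl

/-- **The total invariant on the top layer** is the sum of the local invariants at the chosen
places (this is the semi-local form of the sum formula). -/
theorem rc_INV_top (hfin : rc_FinSupp 𝔻) (z : groupCohomology J 2) (hz : tt_IsPPrimary p z) :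
    rc_INV 𝔻 hfin ⊤ ((tt_resMap ⊤ J 2).hom z) =
      ∑ᶠ q, (𝔻.P q).invTop ((rc_locTop 𝔻 q).hom z) := by
  rw [rc_INV_apply]
  exact finsum_congr fun q => rc_qterm_top 𝔻 q z hz

end INV

end data

end Fermat.Agent.S55
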