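import Mathlib
import Fermat.Agent.S55.Recip.AuxCyclic
import Fermat.Agent.S55.Recip.FrobRestrict
import Fermat.Agent.S55.Recip.TotalInv
import Fermat.Agent.S55.Idele.Primes

/-!
# S55 / G4, leaf [DEG]: decomposition groups, local degrees and the index factor `rc_idx`

S14 carriers (`E E' M : Type*` number fields with tower instances).

* (A) `rc_dg_card_stabilizer_eq_mul` : `|D(Q|v)| = e f` ; at an unramified prime of an abelian
  extension `rc_dg_stabilizer_eq_zpowers` : `D(Q|v) = ⟨Frob_v⟩` and `rc_dg_card_stabilizer` :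
  `|D(Q|v)| = orderOf Frob_v`.
* (B) `rc_dg_card_stabilizer_tower` : `|D_{M/E}(Q)| = |D_{M/E'}(Q)| · |D_{E'/E}(Q ∩ E')|`,
  `rc_dg_card_stabilizer_tower_unram`, `rc_dg_exists_frob_lift`.
* (C) growth: `rc_dg_tower_growth` (the `p`-cyclotomic tower) and `rc_dg_layer_growth` (the
  auxiliary layer inside `E(ζ_l)`), `rc_dg_exists_absNorm_pow`.
* (D) dictionary to `Γ = M ≃ₐ[ℚ] M`: `rc_dg_sub E M` (the image of `Gal(M/E)`), `rc_dg_mem_sub`,
  `rc_dg_subEquiv`, `rc_dg_resHom` (restriction to `Gal(E'/E)`, surjective, kernel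
  `rc_dg_sub E' M`), `rc_dg_card_inf`, `rc_dg_card_conj`, and
  `rc_dg_idx` : `rc_idx (Stab Q₀) (rc_dg_sub E' M) (rc_dg_sub E M) g = |D_{E'/E}(g Q₀ ∩ E')|`,
  `rc_dg_idx_unram` (`= orderOf Frob`), `rc_dg_idx_tower_growth`, `rc_dg_idx_layer_growth`,
  `rc_dg_exists_frob_conj` (Frobenius elements of the layer inside `Γ`).
-/

set_option autoImplicit false

namespace Fermat.Agent.S55

open Polynomial NumberField
open Fermat.Agent.S14
open scoped IsMulCommutative Pointwise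

set_option linter.style.haveILetI false
set_option linter.unusedSectionVars false

section A

variable {E E' : Type*} [Field E] [NumberField E] [Field E'] [NumberField E'] [Algebra E E']
  [IsGalois E E']

/-- `|D(Q|v)| = e(Q|v) f(Q|v)` for a single prime `Q` of a Galois extension of number fields. -/
theorem rc_dg_card_stabilizer_eq_mul (Q : Ideal (𝓞 E')) [hQ : Q.IsPrime] :
    Nat.card ↥(MulAction.stabilizer Gal(E'/E) Q) =
      Q.ramificationIdx (𝓞 E) * Q.inertiaDeg (𝓞 E) := by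
  haveI : (Q.under (𝓞 E)).IsPrime := Ideal.IsPrime.under (𝓞 E) Q
  haveI : Q.LiesOver (Q.under (𝓞 E)) := ⟨rfl⟩
  rw [Ideal.card_stabilizer_eq_card_inertia_mul_finrank (G := Gal(E'/E)) (Q.under (𝓞 E)) Q,
    Ideal.card_inertia_eq_ramificationIdxIn (G := Gal(E'/E)) (Q.under (𝓞 E)) Q,
    Ideal.ramificationIdxIn_eq_ramificationIdx (Q.under (𝓞 E)) Q Gal(E'/E)]

/-- unramified: `|D(Q|v)| = f(Q|v)`. -/
theorem rc_dg_card_stabilizer_eq_inertiaDeg {v : Ideal (𝓞 E)} [hv : v.IsPrime]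
    (hu : am_Unram E E' v) (Q : Ideal (𝓞 E')) [hQ : Q.IsPrime] [hQv : Q.LiesOver v] :
    Nat.card ↥(MulAction.stabilizer Gal(E'/E) Q) = Q.inertiaDeg (𝓞 E) := by
  have h := Ideal.card_stabilizer_eq_card_inertia_mul_finrank (G := Gal(E'/E)) v Q
  rw [h, hu Q hQ hQv]
  simp

variable [IsMulCommutative Gal(E'/E)]

/-- At an unramified prime of an abelian extension the decomposition group has order the order
of the Frobenius. -/
theorem rc_dg_card_stabilizer {v : Ideal (𝓞 E)} [hv : v.IsPrime] (hv0 : v ≠ ⊥)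
    (hu : am_Unram E E' v) (Q : Ideal (𝓞 E')) [hQ : Q.IsPrime] [hQv : Q.LiesOver v] :
    Nat.card ↥(MulAction.stabilizer Gal(E'/E) Q) = orderOf (am_frob E E' v) := by
  rw [rc_dg_card_stabilizer_eq_inertiaDeg hu Q, am_orderOf_frob hv0 hu Q]

/-- At an unramified prime of an abelian extension the decomposition group is generated by the
Frobenius. -/
theorem rc_dg_stabilizer_eq_zpowers {v : Ideal (𝓞 E)} [hv : v.IsPrime] (hv0 : v ≠ ⊥)
    (hu : am_Unram E E' v) (Q : Ideal (𝓞 E')) [hQ : Q.IsPrime] [hQv : Q.LiesOver v] :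
    MulAction.stabilizer Gal(E'/E) Q = Subgroup.zpowers (am_frob E E' v) := by
  symm
  apply Subgroup.eq_of_le_of_card_ge
  · rw [Subgroup.zpowers_le]
    exact (am_frob_spec v hv0 Q).mem_stabilizer
  · rw [rc_dg_card_stabilizer hv0 hu Q, Nat.card_zpowers]

end A

section B

variable {E E' M : Type*} [Field E] [NumberField E] [Field E'] [NumberField E'] [Field M]
  [NumberField M] [Algebra E E'] [Algebra E' M] [Algebra E M] [IsScalarTower E E' M]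
  [IsGalois E M] [IsGalois E E']

/-- **Decomposition groups in a tower**: `|D(Q|v)| = |D(Q|v')| · |D(v'|v)|`. -/
theorem rc_dg_card_stabilizer_tower (Q : Ideal (𝓞 M)) [hQ : Q.IsPrime] :
    haveI : IsGalois E' M := IsGalois.tower_top_of_isGalois E E' M
    Nat.card ↥(MulAction.stabilizer Gal(M/E) Q) =
      Nat.card ↥(MulAction.stabilizer Gal(M/E') Q) *
        Nat.card ↥(MulAction.stabilizer Gal(E'/E) (Q.under (𝓞 E'))) := by
  haveI : IsGalois E' M := IsGalois.tower_top_of_isGalois E E' M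
  haveI : (Q.under (𝓞 E')).IsPrime := Ideal.IsPrime.under (𝓞 E') Q
  haveI : Q.LiesOver (Q.under (𝓞 E')) := ⟨rfl⟩
  rw [rc_dg_card_stabilizer_eq_mul (E := E) Q, rc_dg_card_stabilizer_eq_mul (E := E') Q,
    rc_dg_card_stabilizer_eq_mul (E := E) (Q.under (𝓞 E')),
    Ideal.ramificationIdx_tower (R := 𝓞 E) (Q.under (𝓞 E')) Q,
    Ideal.inertiaDeg_tower (R := 𝓞 E) (Q.under (𝓞 E')) Q]
  ring

/-- a nonzero prime of `𝓞 M` lies over a nonzero prime of `𝓞 E`. -/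
theorem rc_dg_under_ne_bot {Q : Ideal (𝓞 M)} (hQ0 : Q ≠ ⊥) :
    Q.under (𝓞 E) ≠ ⊥ :=
  Ideal.under_ne_bot (𝓞 E) hQ0

/-- a Frobenius element at `Q` in `Gal(M/E)` restricting to `am_frob E E'`. -/
theorem rc_dg_exists_frob_lift [IsMulCommutative Gal(E'/E)] (Q : Ideal (𝓞 M)) [hQ : Q.IsPrime]
    (hQ0 : Q ≠ ⊥) (hu : am_Unram E E' (Q.under (𝓞 E))) :
    ∃ φ : Gal(M/E), φ ∈ MulAction.stabilizer Gal(M/E) Q ∧ IsArithFrobAt (𝓞 E) φ Q ∧
      AlgEquiv.restrictNormalHom E' φ = am_frob E E' (Q.under (𝓞 E)) := by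
  haveI : (Q.under (𝓞 E)).IsPrime := Ideal.IsPrime.under (𝓞 E) Q
  haveI : Q.LiesOver (Q.under (𝓞 E)) := ⟨rfl⟩
  haveI : Finite (𝓞 M ⧸ Q) := am_finite_quotient M hQ0
  obtain ⟨φ, hφ⟩ := IsArithFrobAt.exists_of_isInvariant (𝓞 E) Gal(M/E) Q
  exact ⟨φ, hφ.mem_stabilizer, hφ,
    rc_restrict_eq_frob (K' := E') (rc_dg_under_ne_bot hQ0) hu Q hφ⟩

/-- unramified abelian layer: `|D_{M/E}(Q)| = |D_{M/E'}(Q)| · orderOf Frob_v`. -/
theorem rc_dg_card_stabilizer_tower_unram [IsMulCommutative Gal(E'/E)] (Q : Ideal (𝓞 M))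
    [hQ : Q.IsPrime] (hQ0 : Q ≠ ⊥) (hu : am_Unram E E' (Q.under (𝓞 E))) :
    haveI : IsGalois E' M := IsGalois.tower_top_of_isGalois E E' M
    Nat.card ↥(MulAction.stabilizer Gal(M/E) Q) =
      Nat.card ↥(MulAction.stabilizer Gal(M/E') Q) *
        orderOf (am_frob E E' (Q.under (𝓞 E))) := by
  haveI : IsGalois E' M := IsGalois.tower_top_of_isGalois E E' M
  haveI : (Q.under (𝓞 E)).IsPrime := Ideal.IsPrime.under (𝓞 E) Q
  haveI : (Q.under (𝓞 E')).IsPrime := Ideal.IsPrime.under (𝓞 E') Q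
  haveI : (Q.under (𝓞 E')).LiesOver (Q.under (𝓞 E)) := ⟨by rw [Ideal.under_under]⟩
  rw [rc_dg_card_stabilizer_tower (E' := E') Q,
    rc_dg_card_stabilizer (rc_dg_under_ne_bot hQ0) hu (Q.under (𝓞 E'))]

end B

section C

variable {E : Type*} [Field E] [NumberField E]

/-- a prime of `𝓞 E` above `p` has norm `p ^ f` with `1 ≤ f ≤ [E : ℚ]`. -/
theorem rc_dg_exists_absNorm_pow {p : ℕ} (hp : p.Prime) (v : Ideal (𝓞 E)) [hv : v.IsPrime]
    (hpv : (p : 𝓞 E) ∈ v) :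
    ∃ f, 1 ≤ f ∧ f ≤ Module.finrank ℚ E ∧ Ideal.absNorm v = p ^ f := by
  have hle : Ideal.span {(p : 𝓞 E)} ≤ v := (Ideal.span_singleton_le_iff_mem v).mpr hpv
  have hdvd : Ideal.absNorm v ∣ p ^ Module.finrank ℚ E := by
    rw [← RingOfIntegers.rank E, ← Ideal.absNorm_span_natCast (S := 𝓞 E) p]
    exact Ideal.absNorm_dvd_absNorm_of_le hle
  obtain ⟨f, hf, hvf⟩ := (Nat.dvd_prime_pow hp).mp hdvd
  refine ⟨f, ?_, hf, hvf⟩
  rcases Nat.eq_zero_or_pos f with h0 | h0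
  · exfalso
    rw [h0, pow_zero, Ideal.absNorm_eq_one_iff] at hvf
    exact hv.ne_top hvf
  · exact h0

/-- `K - v_p(f) ≥ k` as soon as `K ≥ k + log_p [E : ℚ]` and `f ≤ [E : ℚ]`. -/
theorem rc_dg_le_sub_padicValNat {p k K f n : ℕ} (hfn : f ≤ n)
    (hK : k + Nat.log p n ≤ K) : k ≤ K - padicValNat p f := by
  have h1 : padicValNat p f ≤ Nat.log p f := padicValNat_le_nat_log f
  have h2 : Nat.log p f ≤ Nat.log p n := Nat.log_mono_right hfn
  omega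

end C

section Cgrowth

variable {E E' M : Type*} [Field E] [NumberField E] [Field E'] [NumberField E'] [Field M]
  [NumberField M] [Algebra E E'] [Algebra E' M] [Algebra E M] [IsScalarTower E E' M]
  [IsGalois E M] [IsGalois E E'] [IsMulCommutative Gal(E'/E)]

/-- a natural number not in `Q.under (𝓞 E)` when not in `Q`. -/
theorem rc_dg_natCast_notMem_under {Q : Ideal (𝓞 M)} {n : ℕ} (h : (n : 𝓞 M) ∉ Q) :
    (n : 𝓞 E) ∉ Q.under (𝓞 E) := by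
  intro h'
  apply h
  have := Ideal.mem_comap.mp h'
  rwa [map_natCast] at this

/-- GROWTH in the `p`-cyclotomic tower, in terms of decomposition groups of a big field `M`:
for `E' = E(ζ_{p^r})`, `r ≥ rc_ax_growthLevel p T k` and `Q ∤ p` a prime of `M` over `T`,
`|D_{M/E}(Q)| = |D_{M/E'}(Q)| · (p ^ k · c)`. -/
theorem rc_dg_tower_growth {p : ℕ} [hpF : Fact p.Prime] (hp2 : p ≠ 2) {ζ₁ : E}
    (hζ₁ : IsPrimitiveRoot ζ₁ p) (T : Finset (Ideal (𝓞 E))) (k : ℕ) {r : ℕ}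
    (hr : rc_ax_growthLevel p T k ≤ r) [IsCyclotomicExtension {p ^ r} E E']
    (Q : Ideal (𝓞 M)) [hQ : Q.IsPrime] (hQ0 : Q ≠ ⊥) (hQT : Q.under (𝓞 E) ∈ T)
    (hpQ : (p : 𝓞 M) ∉ Q) :
    haveI : IsGalois E' M := IsGalois.tower_top_of_isGalois E E' M
    p ^ k * Nat.card ↥(MulAction.stabilizer Gal(M/E') Q) ∣
      Nat.card ↥(MulAction.stabilizer Gal(M/E) Q) := by
  haveI : IsGalois E' M := IsGalois.tower_top_of_isGalois E E' M
  haveI : (Q.under (𝓞 E)).IsPrime := Ideal.IsPrime.under (𝓞 E) Q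
  have hpq : (p : 𝓞 E) ∉ Q.under (𝓞 E) := rc_dg_natCast_notMem_under hpQ
  have hq0 := rc_dg_under_ne_bot (E := E) hQ0
  have hu : am_Unram E E' (Q.under (𝓞 E)) := rc_ax_tower_unram (M := E') r (Q.under (𝓞 E)) hpq
  rw [rc_dg_card_stabilizer_tower_unram (E' := E') Q hQ0 hu, mul_comm]
  exact Nat.mul_dvd_mul_left _
    (rc_ax_tower_growth (M := E') hp2 hζ₁ T k hr hQT hq0 hpq)

end Cgrowth

section Clayer

variable {E M₁ M : Type*} [Field E] [NumberField E] [Field M₁] [NumberField M₁] [Field M]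
  [NumberField M] [Algebra E M₁] [IsGalois E M₁] [IsMulCommutative Gal(M₁/E)] [Algebra E M]
  [IsGalois E M]

/-- the primes above `p` are unramified in the auxiliary layer. -/
theorem rc_dg_layer_unram {p l K : ℕ} [hpF : Fact p.Prime] [hlF : Fact l.Prime]
    (hnp : ¬ ∃ x : ZMod l, x ^ p = (p : ZMod l)) [IsCyclotomicExtension {l} E M₁]
    {v : Ideal (𝓞 E)} [hv : v.IsPrime] (hv0 : v ≠ ⊥) (hpv : (p : 𝓞 E) ∈ v) :
    am_Unram E (rc_ax_layer E M₁ (p ^ K)) v := by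
  have hp := hpF.out
  have hl := hlF.out
  haveI : NeZero l := ⟨hl.ne_zero⟩
  have hpl : p ≠ l := by
    rintro rfl
    exact hnp ⟨0, by rw [zero_pow hp.ne_zero, ZMod.natCast_self]⟩
  have hco : Nat.Coprime p l := (Nat.coprime_primes hp hl).mpr hpl
  have hlv : (l : 𝓞 E) ∉ v := ax_natCast_not_mem v hv.ne_top hpv hco.symm
  exact rc_ax_layer_unram (p ^ K) hv0 (rc_ax_cyclo_unram (n := l) v hlv)

/-- GROWTH for the auxiliary layer `Z = rc_ax_layer E M₁ (p ^ K)` inside `M₁ = E(ζ_l)`, in terms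
of decomposition groups of a big field `M ⊇ Z`: for `K ≥ k + log_p [E : ℚ]` and `Q ∣ p` a prime
of `M`, `p ^ k · |D_{M/Z}(Q)|` divides `|D_{M/E}(Q)|`. -/
theorem rc_dg_layer_growth {p l K : ℕ} [hpF : Fact p.Prime] [hlF : Fact l.Prime]
    (hlK : l % p ^ K = 1) (hnp : ¬ ∃ x : ZMod l, x ^ p = (p : ZMod l))
    [IsCyclotomicExtension {l} E M₁]
    [Algebra ↥(rc_ax_layer E M₁ (p ^ K)) M] [IsScalarTower E ↥(rc_ax_layer E M₁ (p ^ K)) M]
    {k : ℕ} (hK : k + Nat.log p (Module.finrank ℚ E) ≤ K)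
    (Q : Ideal (𝓞 M)) [hQ : Q.IsPrime] (hQ0 : Q ≠ ⊥) (hpQ : (p : 𝓞 M) ∈ Q) :
    haveI : IsGalois ↥(rc_ax_layer E M₁ (p ^ K)) M :=
      IsGalois.tower_top_of_isGalois E ↥(rc_ax_layer E M₁ (p ^ K)) M
    p ^ k * Nat.card ↥(MulAction.stabilizer Gal(M/rc_ax_layer E M₁ (p ^ K)) Q) ∣
      Nat.card ↥(MulAction.stabilizer Gal(M/E) Q) := by
  haveI : IsGalois ↥(rc_ax_layer E M₁ (p ^ K)) M :=
    IsGalois.tower_top_of_isGalois E ↥(rc_ax_layer E M₁ (p ^ K)) M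
  haveI : (Q.under (𝓞 E)).IsPrime := Ideal.IsPrime.under (𝓞 E) Q
  have hpv : (p : 𝓞 E) ∈ Q.under (𝓞 E) := by
    rw [Ideal.under, Ideal.mem_comap, map_natCast]
    exact hpQ
  have hq0 := rc_dg_under_ne_bot (E := E) hQ0
  obtain ⟨f, hf1, hfn, hvf⟩ := rc_dg_exists_absNorm_pow hpF.out (Q.under (𝓞 E)) hpv
  have hu : am_Unram E (rc_ax_layer E M₁ (p ^ K)) (Q.under (𝓞 E)) :=
    rc_dg_layer_unram hnp hq0 hpv
  rw [rc_dg_card_stabilizer_tower_unram (E' := ↥(rc_ax_layer E M₁ (p ^ K))) Q hQ0 hu, mul_comm]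
  refine Nat.mul_dvd_mul_left _ ?_
  refine (pow_dvd_pow p (rc_dg_le_sub_padicValNat hfn hK)).trans ?_
  exact rc_ax_layer_orderOf_frob (M := M₁) hlK hnp hq0 hvf

end Clayer

section D

/-- generic: `g⁻¹ H g ∩ Stab(x₀) ≃ H ∩ Stab(g x₀)`. -/
theorem rc_dg_card_conj {Γ X : Type*} [Group Γ] [MulAction Γ X] (H : Subgroup Γ) (g : Γ)
    (x₀ : X) :
    Nat.card ↥((H.comap (MulAut.conj g).toMonoidHom).subgroupOf (MulAction.stabilizer Γ x₀)) =
      Nat.card ↥(H ⊓ MulAction.stabilizer Γ (g • x₀)) := by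
  refine Nat.card_congr ⟨fun x => ⟨g * (x : Γ) * g⁻¹, ?_, ?_⟩,
    fun y => ⟨⟨g⁻¹ * (y : Γ) * g, ?_⟩, ?_⟩, ?_, ?_⟩
  · have := x.2
    rw [Subgroup.mem_subgroupOf, Subgroup.mem_comap] at this
    simpa using this
  · refine MulAction.mem_stabilizer_iff.mpr ?_
    rw [mul_smul, mul_smul, inv_smul_smul]
    have := MulAction.mem_stabilizer_iff.mp (x : ↥(MulAction.stabilizer Γ x₀)).2
    rw [this]
  · have := MulAction.mem_stabilizer_iff.mp y.2.2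
    refine MulAction.mem_stabilizer_iff.mpr ?_
    rw [mul_smul, mul_smul, this, inv_smul_smul]
  · rw [Subgroup.mem_subgroupOf, Subgroup.mem_comap]
    have := y.2.1
    simpa [mul_assoc] using this
  · intro x
    ext
    simp [mul_assoc]
  · intro y
    ext
    simp [mul_assoc]

variable {E E' M : Type*} [Field E] [NumberField E] [Field E'] [NumberField E'] [Field M]
  [NumberField M] [Algebra E E'] [Algebra E' M] [Algebra E M] [IsScalarTower E E' M]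

/-- the Galois group over `E` inside the Galois group over `ℚ`. -/
noncomputable def rc_dg_sub (E M : Type*) [Field E] [NumberField E] [Field M] [NumberField M]
    [Algebra E M] : Subgroup (M ≃ₐ[ℚ] M) :=
  (AlgEquiv.restrictScalarsHom ℚ : (M ≃ₐ[E] M) →* (M ≃ₐ[ℚ] M)).range

theorem rc_dg_mem_sub {τ : M ≃ₐ[ℚ] M} :
    τ ∈ rc_dg_sub E M ↔ ∀ x : E, τ (algebraMap E M x) = algebraMap E M x := by
  constructor
  · rintro ⟨σ, rfl⟩ x
    exact σ.commutes x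
  · intro h
    refine ⟨AlgEquiv.ofRingEquiv (f := τ.toRingEquiv) h, ?_⟩
    ext x
    rfl

theorem rc_dg_sub_le : rc_dg_sub E' M ≤ rc_dg_sub E M := by
  intro τ hτ
  rw [rc_dg_mem_sub] at hτ ⊢
  intro x
  rw [IsScalarTower.algebraMap_apply E E' M, hτ]

/-- `Gal(M/E) ≃* rc_dg_sub E M`. -/
noncomputable def rc_dg_subEquiv (E M : Type*) [Field E] [NumberField E] [Field M]
    [NumberField M] [Algebra E M] : (M ≃ₐ[E] M) ≃* ↥(rc_dg_sub E M) :=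
  MonoidHom.ofInjective (AlgEquiv.restrictScalarsHom_injective ℚ)

theorem rc_dg_subEquiv_coe (σ : M ≃ₐ[E] M) :
    ((rc_dg_subEquiv E M σ : ↥(rc_dg_sub E M)) : M ≃ₐ[ℚ] M) = σ.restrictScalars ℚ := rfl

theorem rc_dg_subEquiv_symm_apply (τ : ↥(rc_dg_sub E M)) (x : M) :
    (rc_dg_subEquiv E M).symm τ x = (τ : M ≃ₐ[ℚ] M) x := by
  obtain ⟨σ, rfl⟩ := (rc_dg_subEquiv E M).surjective τ
  rw [MulEquiv.symm_apply_apply]
  rfl

variable (E E' M) in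
/-- restriction `rc_dg_sub E M → Gal(E'/E)` for a normal intermediate extension. -/
noncomputable def rc_dg_resHom [Normal E E'] : ↥(rc_dg_sub E M) →* Gal(E'/E) :=
  (AlgEquiv.restrictNormalHom (F := E) (K₁ := M) E').comp (rc_dg_subEquiv E M).symm.toMonoidHom

theorem rc_dg_resHom_subEquiv [Normal E E'] (σ : M ≃ₐ[E] M) :
    rc_dg_resHom E E' M (rc_dg_subEquiv E M σ) = AlgEquiv.restrictNormalHom E' σ := by
  unfold rc_dg_resHom
  rw [MonoidHom.comp_apply]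
  congr 1
  exact (rc_dg_subEquiv E M).symm_apply_apply σ

theorem rc_dg_resHom_commutes [Normal E E'] (τ : ↥(rc_dg_sub E M)) (x : E') :
    algebraMap E' M (rc_dg_resHom E E' M τ x) = (τ : M ≃ₐ[ℚ] M) (algebraMap E' M x) := by
  unfold rc_dg_resHom
  rw [MonoidHom.comp_apply]
  rw [show AlgEquiv.restrictNormalHom E' ((rc_dg_subEquiv E M).symm.toMonoidHom τ) x =
    ((rc_dg_subEquiv E M).symm τ).restrictNormal E' x from rfl,
    AlgEquiv.restrictNormal_commutes, rc_dg_subEquiv_symm_apply]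

theorem rc_dg_resHom_surjective [Normal E E'] [Normal E M] :
    Function.Surjective (rc_dg_resHom E E' M) := by
  intro σ
  obtain ⟨σ', rfl⟩ := AlgEquiv.restrictNormalHom_surjective M σ
  exact ⟨rc_dg_subEquiv E M σ', rc_dg_resHom_subEquiv σ'⟩

theorem rc_dg_resHom_ker [Normal E E'] :
    (rc_dg_resHom E E' M).ker = (rc_dg_sub E' M).subgroupOf (rc_dg_sub E M) := by
  ext τ
  rw [MonoidHom.mem_ker, Subgroup.mem_subgroupOf, rc_dg_mem_sub]
  constructor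
  · intro h x
    rw [← rc_dg_resHom_commutes, h]
    rfl
  · intro h
    ext x
    apply (algebraMap E' M).injective
    rw [rc_dg_resHom_commutes, h]
    rfl

theorem rc_dg_restrict_smul (σ : M ≃ₐ[E] M) (Q : Ideal (𝓞 M)) :
    (AlgEquiv.restrictScalarsHom ℚ σ : M ≃ₐ[ℚ] M) • Q = σ • Q := by
  ext x
  rw [Ideal.mem_pointwise_smul_iff_inv_smul_mem, Ideal.mem_pointwise_smul_iff_inv_smul_mem]
  rfl

/-- `rc_dg_sub E M ∩ Stab_Γ(Q) ≃ Stab_{Gal(M/E)}(Q)`. -/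
theorem rc_dg_card_inf (Q : Ideal (𝓞 M)) :
    Nat.card ↥(rc_dg_sub E M ⊓ MulAction.stabilizer (M ≃ₐ[ℚ] M) Q) =
      Nat.card ↥(MulAction.stabilizer (M ≃ₐ[E] M) Q) := by
  have h : rc_dg_sub E M ⊓ MulAction.stabilizer (M ≃ₐ[ℚ] M) Q =
      (MulAction.stabilizer (M ≃ₐ[E] M) Q).map
        (AlgEquiv.restrictScalarsHom ℚ : (M ≃ₐ[E] M) →* (M ≃ₐ[ℚ] M)) := by
    ext τ
    simp only [Subgroup.mem_inf, Subgroup.mem_map, MulAction.mem_stabilizer_iff, rc_dg_sub,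
      MonoidHom.mem_range]
    constructor
    · rintro ⟨⟨σ, rfl⟩, h2⟩
      exact ⟨σ, by rwa [rc_dg_restrict_smul] at h2, rfl⟩
    · rintro ⟨σ, h1, rfl⟩
      exact ⟨⟨σ, rfl⟩, by rwa [rc_dg_restrict_smul]⟩
  rw [h]
  exact Nat.card_congr
    ((MulAction.stabilizer (M ≃ₐ[E] M) Q).equivMapOfInjective _
      (AlgEquiv.restrictScalarsHom_injective ℚ)).symm.toEquiv

end D

section idx

variable {E E' : Type*} {M : Type} [Field E] [NumberField E] [Field E'] [NumberField E']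
  [Field M] [NumberField M] [Algebra E E'] [Algebra E' M] [Algebra E M] [IsScalarTower E E' M]

theorem rc_dg_card_conj_sub (Q₀ : Ideal (𝓞 M)) (g : M ≃ₐ[ℚ] M) :
    Nat.card ↥((rc_conj g (rc_dg_sub E M)).subgroupOf
        (MulAction.stabilizer (M ≃ₐ[ℚ] M) Q₀)) =
      Nat.card ↥(MulAction.stabilizer (M ≃ₐ[E] M) (g • Q₀)) := by
  unfold rc_conj
  rw [rc_dg_card_conj, rc_dg_card_inf]

variable [IsGalois E M] [IsGalois E E']

/-- **The index factor `rc_idx` is the order of the decomposition group of the layer.** -/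
theorem rc_dg_idx (Q₀ : Ideal (𝓞 M)) [hQ₀ : Q₀.IsPrime] (g : M ≃ₐ[ℚ] M) :
    rc_idx (MulAction.stabilizer (M ≃ₐ[ℚ] M) Q₀) (rc_dg_sub E' M) (rc_dg_sub E M) g =
      Nat.card ↥(MulAction.stabilizer Gal(E'/E) ((g • Q₀).under (𝓞 E'))) := by
  haveI : IsGalois E' M := IsGalois.tower_top_of_isGalois E E' M
  haveI : (g • Q₀).IsPrime := Ideal.IsPrime.smul g
  unfold rc_idx
  rw [rc_dg_card_conj_sub, rc_dg_card_conj_sub,
    rc_dg_card_stabilizer_tower (E := E) (E' := E') (g • Q₀)]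
  exact Nat.mul_div_cancel_left _ Nat.card_pos

theorem rc_dg_natCast_mem_smul_iff (Q₀ : Ideal (𝓞 M)) (g : M ≃ₐ[ℚ] M) (n : ℕ) :
    (n : 𝓞 M) ∈ g • Q₀ ↔ (n : 𝓞 M) ∈ Q₀ := by
  rw [Ideal.mem_pointwise_smul_iff_inv_smul_mem]
  have h : g⁻¹ • ((n : 𝓞 M)) = (n : 𝓞 M) :=
    map_natCast (MulSemiringAction.toRingHom (M ≃ₐ[ℚ] M) (𝓞 M) g⁻¹) n
  rw [h]

/-- unramified abelian layer: `rc_idx` is the order of the Frobenius. -/
theorem rc_dg_idx_unram [IsMulCommutative Gal(E'/E)] (Q₀ : Ideal (𝓞 M)) [hQ₀ : Q₀.IsPrime]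
    (hQ0 : Q₀ ≠ ⊥) (g : M ≃ₐ[ℚ] M) (hu : am_Unram E E' ((g • Q₀).under (𝓞 E))) :
    rc_idx (MulAction.stabilizer (M ≃ₐ[ℚ] M) Q₀) (rc_dg_sub E' M) (rc_dg_sub E M) g =
      orderOf (am_frob E E' ((g • Q₀).under (𝓞 E))) := by
  haveI : (g • Q₀).IsPrime := Ideal.IsPrime.smul g
  haveI : ((g • Q₀).under (𝓞 E)).IsPrime := Ideal.IsPrime.under (𝓞 E) (g • Q₀)
  haveI : ((g • Q₀).under (𝓞 E')).IsPrime := Ideal.IsPrime.under (𝓞 E') (g • Q₀)
  haveI : ((g • Q₀).under (𝓞 E')).LiesOver ((g • Q₀).under (𝓞 E)) :=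
    ⟨by rw [Ideal.under_under]⟩
  have hg0 : g • Q₀ ≠ ⊥ := id_smul_ne_bot M g hQ0
  rw [rc_dg_idx (E := E) (E' := E') Q₀ g,
    rc_dg_card_stabilizer (rc_dg_under_ne_bot hg0) hu ((g • Q₀).under (𝓞 E'))]

/-- GROWTH of `rc_idx` in the `p`-cyclotomic tower `E' = E(ζ_{p^r})`. -/
theorem rc_dg_idx_tower_growth [IsMulCommutative Gal(E'/E)] {p : ℕ} [hpF : Fact p.Prime]
    (hp2 : p ≠ 2) {ζ₁ : E} (hζ₁ : IsPrimitiveRoot ζ₁ p) (T : Finset (Ideal (𝓞 E))) (k : ℕ)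
    {r : ℕ} (hr : rc_ax_growthLevel p T k ≤ r) [IsCyclotomicExtension {p ^ r} E E']
    (Q₀ : Ideal (𝓞 M)) [hQ₀ : Q₀.IsPrime] (hQ0 : Q₀ ≠ ⊥) (hpQ : (p : 𝓞 M) ∉ Q₀)
    (g : M ≃ₐ[ℚ] M) (hQT : (g • Q₀).under (𝓞 E) ∈ T) :
    p ^ k ∣ rc_idx (MulAction.stabilizer (M ≃ₐ[ℚ] M) Q₀) (rc_dg_sub E' M) (rc_dg_sub E M) g := by
  haveI : (g • Q₀).IsPrime := Ideal.IsPrime.smul g
  haveI : ((g • Q₀).under (𝓞 E)).IsPrime := Ideal.IsPrime.under (𝓞 E) (g • Q₀)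
  have hg0 : g • Q₀ ≠ ⊥ := id_smul_ne_bot M g hQ0
  have hpg : (p : 𝓞 M) ∉ g • Q₀ := by rwa [rc_dg_natCast_mem_smul_iff]
  have hpq : (p : 𝓞 E) ∉ (g • Q₀).under (𝓞 E) := rc_dg_natCast_notMem_under hpg
  have hq0 := rc_dg_under_ne_bot (E := E) hg0
  have hu : am_Unram E E' ((g • Q₀).under (𝓞 E)) :=
    rc_ax_tower_unram (M := E') r ((g • Q₀).under (𝓞 E)) hpq
  rw [rc_dg_idx_unram (E := E) (E' := E') Q₀ hQ0 g hu]
  exact rc_ax_tower_growth (M := E') hp2 hζ₁ T k hr hQT hq0 hpq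

end idx

section idxLayer

variable {E M₁ : Type*} {M : Type} [Field E] [NumberField E] [Field M₁] [NumberField M₁] [Field M]
  [NumberField M] [Algebra E M₁] [IsGalois E M₁] [IsMulCommutative Gal(M₁/E)] [Algebra E M]
  [IsGalois E M]

/-- GROWTH of `rc_idx` for the auxiliary layer `Z = rc_ax_layer E M₁ (p ^ K)` of `M₁ = E(ζ_l)`
at the primes above `p`. -/
theorem rc_dg_idx_layer_growth {p l K : ℕ} [hpF : Fact p.Prime] [hlF : Fact l.Prime]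
    (hlK : l % p ^ K = 1) (hnp : ¬ ∃ x : ZMod l, x ^ p = (p : ZMod l))
    [IsCyclotomicExtension {l} E M₁]
    [Algebra ↥(rc_ax_layer E M₁ (p ^ K)) M] [IsScalarTower E ↥(rc_ax_layer E M₁ (p ^ K)) M]
    {k : ℕ} (hK : k + Nat.log p (Module.finrank ℚ E) ≤ K)
    (Q₀ : Ideal (𝓞 M)) [hQ₀ : Q₀.IsPrime] (hQ0 : Q₀ ≠ ⊥) (hpQ : (p : 𝓞 M) ∈ Q₀)
    (g : M ≃ₐ[ℚ] M) :
    p ^ k ∣ rc_idx (MulAction.stabilizer (M ≃ₐ[ℚ] M) Q₀)
      (rc_dg_sub ↥(rc_ax_layer E M₁ (p ^ K)) M) (rc_dg_sub E M) g := by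
  haveI : (g • Q₀).IsPrime := Ideal.IsPrime.smul g
  haveI : ((g • Q₀).under (𝓞 E)).IsPrime := Ideal.IsPrime.under (𝓞 E) (g • Q₀)
  have hg0 : g • Q₀ ≠ ⊥ := id_smul_ne_bot M g hQ0
  have hpg : (p : 𝓞 M) ∈ g • Q₀ := by rwa [rc_dg_natCast_mem_smul_iff]
  have hpv : (p : 𝓞 E) ∈ (g • Q₀).under (𝓞 E) := by
    rw [Ideal.under, Ideal.mem_comap, map_natCast]
    exact hpg
  have hq0 := rc_dg_under_ne_bot (E := E) hg0
  obtain ⟨f, hf1, hfn, hvf⟩ := rc_dg_exists_absNorm_pow hpF.out ((g • Q₀).under (𝓞 E)) hpv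
  have hu : am_Unram E (rc_ax_layer E M₁ (p ^ K)) ((g • Q₀).under (𝓞 E)) :=
    rc_dg_layer_unram hnp hq0 hpv
  rw [rc_dg_idx_unram (E := E) (E' := ↥(rc_ax_layer E M₁ (p ^ K))) Q₀ hQ0 g hu]
  refine (pow_dvd_pow p (rc_dg_le_sub_padicValNat hfn hK)).trans ?_
  exact rc_ax_layer_orderOf_frob (M := M₁) hlK hnp hq0 hvf

end idxLayer

section frobconj

variable {E E' M : Type*} [Field E] [NumberField E] [Field E'] [NumberField E']
  [Field M] [NumberField M] [Algebra E E'] [Algebra E' M] [Algebra E M] [IsScalarTower E E' M]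
  [IsGalois E M] [IsGalois E E'] [IsMulCommutative Gal(E'/E)]

/-- **Frobenius elements in `Γ`-terms**: for the place `g Q₀` of the layer `rc_dg_sub E M`,
unramified in `E'/E`, there is `φ ∈ Stab(Q₀) ∩ g⁻¹ (rc_dg_sub E M) g` whose conjugate `g φ g⁻¹`
restricts to `am_frob E E'` and which acts as `x ↦ x ^ N(v)` modulo `Q₀`. -/
theorem rc_dg_exists_frob_conj (Q₀ : Ideal (𝓞 M)) [hQ₀ : Q₀.IsPrime] (hQ0 : Q₀ ≠ ⊥)
    (g : M ≃ₐ[ℚ] M) (hu : am_Unram E E' ((g • Q₀).under (𝓞 E))) :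
    ∃ φ : M ≃ₐ[ℚ] M, φ ∈ MulAction.stabilizer (M ≃ₐ[ℚ] M) Q₀ ∧
      ∃ h : g * φ * g⁻¹ ∈ rc_dg_sub E M,
        rc_dg_resHom E E' M ⟨g * φ * g⁻¹, h⟩ = am_frob E E' ((g • Q₀).under (𝓞 E)) ∧
        ∀ x : 𝓞 M, φ • x - x ^ Nat.card (𝓞 E ⧸ (g • Q₀).under (𝓞 E)) ∈ Q₀ := by
  haveI : (g • Q₀).IsPrime := Ideal.IsPrime.smul g
  have hg0 : g • Q₀ ≠ ⊥ := id_smul_ne_bot M g hQ0
  obtain ⟨φ', hφ's, hφ'f, hφ'r⟩ := rc_dg_exists_frob_lift (E := E) (E' := E') (g • Q₀) hg0 hu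
  set φ'' : M ≃ₐ[ℚ] M := AlgEquiv.restrictScalarsHom ℚ φ' with hφ''
  have hstab : φ'' • (g • Q₀) = g • Q₀ := by
    rw [hφ'', rc_dg_restrict_smul]
    exact MulAction.mem_stabilizer_iff.mp hφ's
  have hconj : g * (g⁻¹ * φ'' * g) * g⁻¹ = φ'' := by group
  refine ⟨g⁻¹ * φ'' * g, ?_, ?_, ?_, ?_⟩
  · refine MulAction.mem_stabilizer_iff.mpr ?_
    rw [mul_smul, mul_smul, hstab, inv_smul_smul]
  · rw [hconj]
    exact ⟨φ', rfl⟩
  · have : (⟨g * (g⁻¹ * φ'' * g) * g⁻¹, by rw [hconj]; exact ⟨φ', rfl⟩⟩ : ↥(rc_dg_sub E M)) =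
        rc_dg_subEquiv E M φ' := Subtype.ext hconj
    rw [this, rc_dg_resHom_subEquiv, hφ'r]
  · intro x
    have h1 : φ'' • (g • x) - (g • x) ^ Nat.card (𝓞 E ⧸ (g • Q₀).under (𝓞 E)) ∈ g • Q₀ :=
      hφ'f (g • x)
    have h3 : g⁻¹ • (φ'' • g • x - (g • x) ^ Nat.card (𝓞 E ⧸ (g • Q₀).under (𝓞 E))) ∈ Q₀ := by
      rw [← Ideal.mem_pointwise_smul_iff_inv_smul_mem]
      exact h1
    rw [smul_sub, smul_pow', inv_smul_smul] at h3
    rw [mul_smul, mul_smul]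
    exact h3

end frobconj

end Fermat.Agent.S55
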