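import Mathlib
import Fermat.Agent.S55.Recip.AuxCyclic
import Fermat.Agent.S14.Density.Infinite
import Fermat.Agent.S14.Artin.ArtinMap

/-!
# S55 / G4: inert primes in cyclic extensions of prime power degree

`E'/E` an abelian extension of number fields (S14 carriers) with `Gal(E'/E)` cyclic of order
`p ^ k`, `k ≥ 1`.  There are infinitely many primes `q` of `E` of degree one,
unramified in `E'`, whose Frobenius generates `Gal(E'/E)` (`rc_ip_infinite_inert`,
`rc_ip_exists_inert`): apply the
density statement `dn_infinite_not_split` of S14 to the degree-`p` sublayer `rc_ax_layer E E' p`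
and use that an element of a cyclic `p`-group which is not a `p`-th power is a generator
(`rc_ip_orderOf_eq_card`).
-/

set_option autoImplicit false

namespace Fermat.Agent.S55

open NumberField IsDedekindDomain
open Fermat.Agent.S14
open scoped IsMulCommutative

set_option linter.style.haveILetI false
set_option linter.unusedSectionVars false

/-- In a cyclic group of order `p ^ k`, an element which is not a `p`-th power has order
`p ^ k`. -/
theorem rc_ip_orderOf_eq_card {G : Type*} [Group G] [Finite G] [IsCyclic G] {p k : ℕ}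
    (hp : p.Prime) (hcard : Nat.card G = p ^ k) {x : G} (hx : ¬ ∃ y : G, y ^ p = x) :
    orderOf x = p ^ k := by
  obtain ⟨g, hg⟩ := IsCyclic.exists_generator (α := G)
  have hord : orderOf g = p ^ k := (orderOf_eq_card_of_forall_mem_zpowers hg).trans hcard
  have hmem := (mem_powers_iff_mem_zpowers (x := g) (y := x)).mpr (hg x)
  obtain ⟨a, rfl⟩ := (Submonoid.mem_powers_iff x g).mp hmem
  have hpa : ¬ p ∣ a := by
    rintro ⟨a', rfl⟩
    exact hx ⟨g ^ a', by rw [← pow_mul, mul_comm]⟩
  have hco : Nat.Coprime (p ^ k) a :=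
    Nat.Coprime.pow_left k ((Nat.Prime.coprime_iff_not_dvd hp).mpr hpa)
  rw [orderOf_pow, hord, Nat.Coprime.gcd_eq_one hco, Nat.div_one]

section inert

variable {E E' : Type*} [Field E] [NumberField E] [Field E'] [NumberField E'] [Algebra E E']
  [IsGalois E E'] [IsMulCommutative Gal(E'/E)]

/-- `am_Unram` from non-membership in the ramified set of S14's density block. -/
theorem rc_ip_unram_of_notMem_ramSet {v : HeightOneSpectrum (𝓞 E)} (hv : v ∉ dn_ramSet E E') :
    am_Unram E E' v.asIdeal := by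
  haveI := v.isPrime
  rw [am_unram_iff_ramificationIdx v.asIdeal v.ne_bot]
  intro Q hQ hQv
  exact (dn_notMem_ramSet_iff v).mp hv Q hQv

/-- A prime which is unramified and not completely split has nontrivial Frobenius. -/
theorem rc_ip_frob_ne_one {v : HeightOneSpectrum (𝓞 E)} (h1 : v ∉ dn_splitSet E E')
    (h2 : v ∉ dn_ramSet E E') : am_frob E E' v.asIdeal ≠ 1 := by
  haveI := v.isPrime
  have hu := rc_ip_unram_of_notMem_ramSet h2
  obtain ⟨Q, hQ1, hQ2, -⟩ := am_exists_prime_over E' v.asIdeal v.ne_bot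
  rw [Ne, am_frob_eq_one_iff v.ne_bot hu Q,
    ← Ideal.inertiaDegIn_eq_inertiaDeg v.asIdeal Q Gal(E'/E)]
  exact dn_inertiaDegIn_of_notMem h1 h2

/-- INFINITELY MANY INERT PRIMES: if `Gal(E'/E)` is cyclic of order `p ^ k` (`k ≥ 1`), there are
infinitely many primes `v` of `E` of prime norm, unramified in `E'`, whose Frobenius has order
`p ^ k = [E' : E]`. -/
theorem rc_ip_infinite_inert {p k : ℕ} [hpF : Fact p.Prime] (hk : 1 ≤ k) [IsCyclic Gal(E'/E)]
    (hcard : Nat.card Gal(E'/E) = p ^ k) :
    {v : HeightOneSpectrum (𝓞 E) | (Ideal.absNorm v.asIdeal).Prime ∧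
      am_Unram E E' v.asIdeal ∧ orderOf (am_frob E E' v.asIdeal) = p ^ k}.Infinite := by
  have hp := hpF.out
  -- the sublayer of degree `p`
  have hdeg : Module.finrank E (rc_ax_layer E E' p) = p := by
    rw [← IsGalois.card_aut_eq_finrank, rc_ax_layer_card, hcard]
    obtain ⟨j, rfl⟩ : ∃ j, k = j + 1 := ⟨k - 1, by omega⟩
    exact Nat.gcd_eq_right ⟨p ^ j, by rw [pow_succ, mul_comm]⟩
  have hinf := dn_infinite_not_split (k := E) (rc_ax_layer E E' p)
    (by rw [hdeg]; exact hp.one_lt)
  -- remove the primes ramified in `E'`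
  refine (hinf.sdiff (dn_ramSet_finite E E')).mono ?_
  rintro v ⟨⟨hvprime, hvsplit, hvram⟩, hvramE'⟩
  haveI := v.isPrime
  have hu : am_Unram E E' v.asIdeal := rc_ip_unram_of_notMem_ramSet hvramE'
  refine ⟨hvprime, hu, ?_⟩
  apply rc_ip_orderOf_eq_card hp hcard
  have hne := rc_ip_frob_ne_one hvsplit hvram
  intro hex
  apply hne
  have := (rc_ax_layer_frob_pow_eq_one_iff (M := E') p v.ne_bot hu 1).mpr (by simpa using hex)
  simpa using this

/-- EXISTENCE OF INERT PRIMES: if `Gal(E'/E)` is cyclic of order `p ^ k` (`k ≥ 1`), then outside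
any finite set `B` there is a nonzero prime `q` of `𝓞 E` of prime norm, unramified in `E'`, whose
Frobenius has order `p ^ k = [E' : E]`. -/
theorem rc_ip_exists_inert {p k : ℕ} [hpF : Fact p.Prime] (hk : 1 ≤ k) [IsCyclic Gal(E'/E)]
    (hcard : Nat.card Gal(E'/E) = p ^ k) (B : Set (Ideal (𝓞 E))) (hB : B.Finite) :
    ∃ q : Ideal (𝓞 E), q.IsPrime ∧ q ≠ ⊥ ∧ q ∉ B ∧ (Ideal.absNorm q).Prime ∧
      am_Unram E E' q ∧ orderOf (am_frob E E' q) = p ^ k := by
  have hinf := rc_ip_infinite_inert (E := E) (E' := E') hk hcard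
  have hB' : {v : HeightOneSpectrum (𝓞 E) | v.asIdeal ∈ B}.Finite := by
    refine Set.Finite.preimage ?_ hB
    intro v _ w _ hvw
    exact HeightOneSpectrum.ext hvw
  obtain ⟨v, ⟨h1, h2, h3⟩, hvB⟩ := (hinf.sdiff hB').nonempty
  exact ⟨v.asIdeal, v.isPrime, v.ne_bot, hvB, h1, h2, h3⟩

end inert

end Fermat.Agent.S55
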