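import Mathlib
import Fermat.Agent.S55.Recip.DecompDeg
import Fermat.Agent.S55.Recip.InertPrime
import Fermat.Agent.S55.Idele.Descent

/-!
# S55 / G4: the two-level inputs `hNp`, `hNdvd`, `q₀`, `hq₀` in the `Γ`-language

`E ⊆ M` number fields (`E` the lower level, `M` the upper level), `N := rc_dg_sub E M` the image of
`Gal(M/E)` in `Γ_M = M ≃ₐ[ℚ] M`.

* bridges: `rc_tl_sub_eq_of_isGal` (`id_IsGal E M H → rc_dg_sub E M = H`), `rc_tl_card_sub`,
  `rc_tl_ker_restrict` (`N` is the kernel of the restriction `Γ_M → Γ_E`), `rc_tl_sub_normal`;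
* the `p`-cyclotomic tower `M = E(ζ_{p^r})`, `ζ_p ∈ E`, `p` odd: `rc_tl_isPGroup`, `rc_tl_isCyclic`,
  `rc_tl_card_eq_pow`, `rc_tl_growth` (`p ^ k ∣ |N|` for `r` large);
* inert primes: `rc_tl_sub_le_stabilizer`, `rc_tl_exists_inert` : outside any finite set of rational
  primes there is `q₀` such that `N ≤ Stab_{Γ_M} R` for every prime `R` of `M` over `q₀`
  (for `M/E` cyclic of `p`-power degree, `M/ℚ` and `E/ℚ` Galois).
-/

set_option autoImplicit false

open NumberField IsDedekindDomain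

namespace Fermat.Agent.S55

open Fermat.Agent.S14
open scoped IsMulCommutative Pointwise

set_option linter.style.haveILetI false
set_option linter.unusedSectionVars false

section bridges

variable {E M : Type} [Field E] [NumberField E] [Field M] [NumberField M] [Algebra E M]

/-- A subgroup `H` with fixed field `E` is the image of `Gal(M/E)`. -/
theorem rc_tl_sub_eq_of_isGal (H : Subgroup (M ≃ₐ[ℚ] M)) (hH : id_IsGal E M H) :
    rc_dg_sub E M = H := by
  apply le_antisymm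
  · intro τ hτ
    rw [rc_dg_mem_sub] at hτ
    have h1 : τ ∈ (IntermediateField.fixedField H).fixingSubgroup := by
      rw [IntermediateField.mem_fixingSubgroup_iff]
      intro y hy
      have hy' : ∀ σ ∈ H, σ y = y := fun σ hσ => hy ⟨σ, hσ⟩
      obtain ⟨x, rfl⟩ := hH.fixed y hy'
      exact hτ x
    rwa [IntermediateField.fixingSubgroup_fixedField] at h1
  · intro τ hτ
    rw [rc_dg_mem_sub]
    exact hH.fixes τ hτ

end bridges

section bridges2

variable {E M : Type*} [Field E] [NumberField E] [Field M] [NumberField M] [Algebra E M]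

theorem rc_tl_card_sub : Nat.card ↥(rc_dg_sub E M) = Nat.card Gal(M/E) :=
  (Nat.card_congr (rc_dg_subEquiv E M).toEquiv).symm

theorem rc_tl_ker_restrict [Normal ℚ E] :
    (AlgEquiv.restrictNormalHom E : (M ≃ₐ[ℚ] M) →* (E ≃ₐ[ℚ] E)).ker = rc_dg_sub E M := by
  ext τ
  rw [MonoidHom.mem_ker, rc_dg_mem_sub]
  constructor
  · intro h x
    have := AlgEquiv.restrictNormal_commutes τ E x
    rw [← this]
    change algebraMap E M ((AlgEquiv.restrictNormalHom E τ) x) = _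
    rw [h]
    rfl
  · intro h
    ext x
    apply (algebraMap E M).injective
    change algebraMap E M ((τ.restrictNormal E) x) = _
    rw [AlgEquiv.restrictNormal_commutes, h]
    rfl

instance rc_tl_sub_normal [Normal ℚ E] : (rc_dg_sub E M).Normal := by
  rw [← rc_tl_ker_restrict]
  infer_instance

end bridges2

section tower

variable {E M : Type*} [Field E] [NumberField E] [Field M] [NumberField M] [Algebra E M]

/-- `|Gal(E(ζ_{p^r})/E)|` is a power of `p` when `ζ_p ∈ E`, `p` odd. -/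
theorem rc_tl_card_gal_eq_pow {p : ℕ} [hpF : Fact p.Prime] (hp2 : p ≠ 2) {ζ₁ : E}
    (hζ₁ : IsPrimitiveRoot ζ₁ p) (r : ℕ) [IsCyclotomicExtension {p ^ r} E M] :
    ∃ c, Nat.card Gal(M/E) = p ^ c := by
  rcases r with _ | r
  · refine ⟨0, ?_⟩
    haveI : NeZero (p ^ 0) := ⟨by simp⟩
    obtain ⟨ζ, hζ⟩ := IsCyclotomicExtension.exists_isPrimitiveRoot E M
      (Set.mem_singleton (p ^ 0)) (NeZero.ne (p ^ 0))
    haveI : Subsingleton (ZMod (p ^ 0))ˣ := by
      rw [pow_zero]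
      infer_instance
    haveI : Subsingleton Gal(M/E) :=
      (IsPrimitiveRoot.autToPow_injective E hζ).subsingleton
    rw [pow_zero]
    exact Nat.card_unique
  · obtain ⟨c, -, hc⟩ := rc_ax_tower_card_eq_pow (M := M) hp2 hζ₁ r
    exact ⟨c, hc⟩

theorem rc_tl_card_eq_pow {p : ℕ} [hpF : Fact p.Prime] (hp2 : p ≠ 2) {ζ₁ : E}
    (hζ₁ : IsPrimitiveRoot ζ₁ p) (r : ℕ) [IsCyclotomicExtension {p ^ r} E M] :
    ∃ c, Nat.card ↥(rc_dg_sub E M) = p ^ c := by
  rw [rc_tl_card_sub]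
  exact rc_tl_card_gal_eq_pow hp2 hζ₁ r

/-- (hNp) -/
theorem rc_tl_isPGroup {p : ℕ} [hpF : Fact p.Prime] (hp2 : p ≠ 2) {ζ₁ : E}
    (hζ₁ : IsPrimitiveRoot ζ₁ p) (r : ℕ) [IsCyclotomicExtension {p ^ r} E M] :
    IsPGroup p ↥(rc_dg_sub E M) := by
  obtain ⟨c, hc⟩ := rc_tl_card_eq_pow (M := M) hp2 hζ₁ r
  exact IsPGroup.of_card hc

theorem rc_tl_isCyclic {p : ℕ} [hpF : Fact p.Prime] (hp2 : p ≠ 2) (r : ℕ)
    [IsCyclotomicExtension {p ^ r} E M] : IsCyclic ↥(rc_dg_sub E M) := by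
  haveI := rc_ax_tower_cyclic (E := E) (M := M) hp2 r
  exact isCyclic_of_surjective (rc_dg_subEquiv E M) (rc_dg_subEquiv E M).surjective

end tower

section growth

variable (E : Type*) [Field E] [NumberField E]

/-- (hNdvd) the degree of `E(ζ_{p^r})/E` is divisible by any prescribed power of `p` for `r`
large. -/
theorem rc_tl_growth {p : ℕ} [hpF : Fact p.Prime] (hp2 : p ≠ 2) {ζ₁ : E}
    (hζ₁ : IsPrimitiveRoot ζ₁ p) (k : ℕ) :
    ∃ r₀, ∀ r, r₀ ≤ r → ∀ (M : Type) [Field M] [NumberField M] [Algebra E M]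
      [IsCyclotomicExtension {p ^ r} E M], p ^ k ∣ Nat.card ↥(rc_dg_sub E M) := by
  obtain ⟨v, hv, hv0, hpv⟩ := rc_ax_exists_prime_notMem E p
  refine ⟨rc_ax_growthLevel p {v} k, ?_⟩
  intro r hr M _ _ _ _
  rw [rc_tl_card_sub]
  haveI : IsGalois E M := IsCyclotomicExtension.isGalois {p ^ r} E M
  haveI : IsMulCommutative Gal(M/E) := IsCyclotomicExtension.isMulCommutative {p ^ r} E M
  exact rc_ax_tower_card_growth (M := M) hp2 hζ₁ hv0 hpv k hr

end growth

section inert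

variable {E M : Type*} [Field E] [NumberField E] [Field M] [NumberField M] [Algebra E M]

/-- finitely many height one primes of given norm in a finite set. -/
theorem rc_tl_finite_absNorm_mem (B : Finset ℕ) :
    {v : HeightOneSpectrum (𝓞 E) | Ideal.absNorm v.asIdeal ∈ B}.Finite := by
  have h : {v : HeightOneSpectrum (𝓞 E) | Ideal.absNorm v.asIdeal ∈ B} ⊆
      ⋃ b ∈ B, {v : HeightOneSpectrum (𝓞 E) | Ideal.absNorm v.asIdeal = b} := by
    intro v hv
    simp only [Set.mem_iUnion, Set.mem_ofPred_eq]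
    exact ⟨_, hv, rfl⟩
  refine Set.Finite.subset (Set.Finite.biUnion B.finite_toSet fun b _ => ?_) h
  refine Set.Finite.preimage (f := HeightOneSpectrum.asIdeal) ?_ (Ideal.finite_setOfPred_absNorm_eq b)
  intro v _ w _ hvw
  exact HeightOneSpectrum.ext hvw

variable [IsGalois ℚ M] [Normal ℚ E] [IsGalois E M] [IsMulCommutative Gal(M/E)]
  [IsCyclic Gal(M/E)]

/-- if the Frobenius at `v` generates `Gal(M/E)`, every prime of `M` over the rational prime
below `v` is fixed by `Gal(M/E)` (inside `Γ_M`). -/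
theorem rc_tl_sub_le_stabilizer {v : Ideal (𝓞 E)} [hv : v.IsPrime] (hv0 : v ≠ ⊥)
    (hu : am_Unram E M v) (hord : orderOf (am_frob E M v) = Nat.card Gal(M/E))
    {q₀ : ℕ} (hq₀ : (q₀ : 𝓞 E) ∈ v) (hq₀p : q₀.Prime)
    (R : Ideal (𝓞 M)) [hR : R.IsPrime] (hqR : (q₀ : 𝓞 M) ∈ R) :
    rc_dg_sub E M ≤ MulAction.stabilizer (M ≃ₐ[ℚ] M) R := by
  obtain ⟨Q₁, hQ₁, hQ₁v, hQ₁0⟩ := am_exists_prime_over M v hv0
  -- the decomposition group of `Q₁` is everything
  have hstab : MulAction.stabilizer Gal(M/E) Q₁ = ⊤ := by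
    apply Subgroup.eq_top_of_card_eq
    rw [rc_dg_card_stabilizer hv0 hu Q₁, hord]
  have hfix : ∀ τ ∈ rc_dg_sub E M, τ • Q₁ = Q₁ := by
    rintro _ ⟨σ, rfl⟩
    rw [rc_dg_restrict_smul]
    have : σ ∈ MulAction.stabilizer Gal(M/E) Q₁ := by rw [hstab]; trivial
    exact MulAction.mem_stabilizer_iff.mp this
  -- `q₀ ∈ Q₁`
  have hqQ₁ : (q₀ : 𝓞 M) ∈ Q₁ := by
    have h1 : algebraMap (𝓞 E) (𝓞 M) (q₀ : 𝓞 E) ∈ Q₁ := by
      have : (q₀ : 𝓞 E) ∈ Q₁.under (𝓞 E) := by rw [← hQ₁v.over]; exact hq₀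
      exact Ideal.mem_comap.mp this
    rwa [map_natCast] at h1
  -- both lie over `(q₀)`
  have hunder : ∀ (P : Ideal (𝓞 M)), P.IsPrime → (q₀ : 𝓞 M) ∈ P →
      P.under ℤ = Ideal.span {(q₀ : ℤ)} := by
    intro P hP hqP
    have hmax : (Ideal.span {(q₀ : ℤ)}).IsMaximal :=
      PrincipalIdealRing.isMaximal_of_irreducible
        (Nat.prime_iff_prime_int.mp hq₀p).irreducible
    have hle : Ideal.span {(q₀ : ℤ)} ≤ P.under ℤ := by
      rw [Ideal.span_singleton_le_iff_mem, Ideal.under, Ideal.mem_comap]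
      simpa using hqP
    have hne : P.under ℤ ≠ ⊤ := (Ideal.IsPrime.under ℤ P).ne_top
    exact (hmax.eq_of_le hne hle).symm
  obtain ⟨g, hg⟩ := Algebra.IsInvariant.exists_smul_of_under_eq ℤ (𝓞 M) (M ≃ₐ[ℚ] M) Q₁ R
    ((hunder Q₁ hQ₁ hqQ₁).trans (hunder R hR hqR).symm)
  -- conjugate
  intro τ hτ
  refine MulAction.mem_stabilizer_iff.mpr ?_
  have hconj : g⁻¹ * τ * g ∈ rc_dg_sub E M := by
    have := (rc_tl_sub_normal (E := E) (M := M)).conj_mem τ hτ g⁻¹
    simpa using this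
  have h2 := hfix _ hconj
  rw [mul_smul, mul_smul] at h2
  rw [hg]
  have h3 := congrArg (fun I => g • I) h2
  simpa using h3

/-- **(q₀, hq₀)**: outside any finite set of rational primes there is a prime `q₀` such that
`Gal(M/E)` (inside `Γ_M`) fixes every prime of `M` over `q₀`. -/
theorem rc_tl_exists_inert {p c : ℕ} [hpF : Fact p.Prime] (hcard : Nat.card Gal(M/E) = p ^ c)
    (B : Finset ℕ) :
    ∃ q₀ : ℕ, q₀.Prime ∧ q₀ ∉ B ∧ ∀ R : Ideal (𝓞 M), R.IsPrime → (q₀ : 𝓞 M) ∈ R →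
      rc_dg_sub E M ≤ MulAction.stabilizer (M ≃ₐ[ℚ] M) R := by
  rcases Nat.eq_zero_or_pos c with hc | hc
  · -- trivial extension
    obtain ⟨q₀, hq₀B, hq₀⟩ := Nat.exists_infinite_primes (B.sup id + 1)
    refine ⟨q₀, hq₀, ?_, ?_⟩
    · intro hmem
      have : q₀ ≤ B.sup id := Finset.le_sup (f := id) hmem
      omega
    · intro R _ _
      have h1 : Nat.card ↥(rc_dg_sub E M) = 1 := by rw [rc_tl_card_sub, hcard, hc, pow_zero]
      rw [Subgroup.eq_bot_of_card_eq _ h1]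
      exact bot_le
  · have hinf := rc_ip_infinite_inert (E := E) (E' := M) (k := c) hc hcard
    obtain ⟨v, ⟨hvp, hvu, hvord⟩, hvB⟩ := (hinf.sdiff (rc_tl_finite_absNorm_mem (E := E) B)).nonempty
    haveI := v.isPrime
    refine ⟨Ideal.absNorm v.asIdeal, hvp, hvB, ?_⟩
    intro R hR hqR
    have hmem : ((Ideal.absNorm v.asIdeal : ℕ) : 𝓞 E) ∈ v.asIdeal := Ideal.absNorm_mem v.asIdeal
    exact rc_tl_sub_le_stabilizer v.ne_bot hvu (hvord.trans hcard.symm) hmem hvp R hqR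

/-- the same for height one primes with the action `id_primesAction`. -/
theorem rc_tl_exists_inert' {p c : ℕ} [hpF : Fact p.Prime] (hcard : Nat.card Gal(M/E) = p ^ c)
    (B : Finset ℕ) :
    ∃ q₀ : ℕ, q₀.Prime ∧ q₀ ∉ B ∧ ∀ w : HeightOneSpectrum (𝓞 M), (q₀ : 𝓞 M) ∈ w.asIdeal →
      rc_dg_sub E M ≤ MulAction.stabilizer (M ≃ₐ[ℚ] M) w := by
  obtain ⟨q₀, h1, h2, h3⟩ := rc_tl_exists_inert (E := E) (M := M) hcard B
  refine ⟨q₀, h1, h2, ?_⟩
  intro w hw τ hτ
  have := h3 w.asIdeal w.isPrime hw hτ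
  refine MulAction.mem_stabilizer_iff.mpr ?_
  apply HeightOneSpectrum.ext
  exact MulAction.mem_stabilizer_iff.mp this

end inert

section towerInert

variable {E M : Type*} [Field E] [NumberField E] [Field M] [NumberField M] [Algebra E M]
  [IsGalois ℚ M] [Normal ℚ E]

/-- **(q₀, hq₀) for the `p`-cyclotomic tower** `M = E(ζ_{p^r})`, `ζ_p ∈ E`, `p` odd. -/
theorem rc_tl_tower_exists_inert {p : ℕ} [hpF : Fact p.Prime] (hp2 : p ≠ 2) {ζ₁ : E}
    (hζ₁ : IsPrimitiveRoot ζ₁ p) (r : ℕ) [IsCyclotomicExtension {p ^ r} E M] (B : Finset ℕ) :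
    ∃ q₀ : ℕ, q₀.Prime ∧ q₀ ∉ B ∧ ∀ w : HeightOneSpectrum (𝓞 M), (q₀ : 𝓞 M) ∈ w.asIdeal →
      rc_dg_sub E M ≤ MulAction.stabilizer (M ≃ₐ[ℚ] M) w := by
  haveI : NeZero p := ⟨hpF.out.ne_zero⟩
  haveI : IsGalois E M := IsCyclotomicExtension.isGalois {p ^ r} E M
  haveI : IsMulCommutative Gal(M/E) := IsCyclotomicExtension.isMulCommutative {p ^ r} E M
  haveI : IsCyclic Gal(M/E) := rc_ax_tower_cyclic (E := E) (M := M) hp2 r
  obtain ⟨c, hc⟩ := rc_tl_card_gal_eq_pow (M := M) hp2 hζ₁ r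
  exact rc_tl_exists_inert' (E := E) (M := M) hc B

end towerInert

end Fermat.Agent.S55
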