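import Fermat.Agent.S55.Recip.TermDict
import Fermat.Agent.S55.Recip.TowerLevel

/-!
# S55 / G4 (C): reciprocity on a concrete cyclic layer (prefix `rc_cc_`)

`M` a Galois number field, `Γ = M ≃ₐ[ℚ] M`, local data `𝔻` with a dictionary `𝔇 q` at every index,
`E ⊆ E' ⊆ M` a cyclic layer.  If the local term of a cyclic class at every place unramified in
`E'/E` is given by the Frobenius formula (`hterm`, = `rc_tf_term`), a cyclic class `(χ, x)`,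
`x ∈ Eˣ`, with vanishing components over the modulus `m` and with trivial Artin symbol away from
`m` has total invariant `0` (`rc_cc_recip_of_symbol`).
-/

set_option autoImplicit false

open scoped NumberField Pointwise
open IsDedekindDomain CategoryTheory groupCohomology MulAction
open Fermat.Agent.S14
open scoped IsMulCommutative

namespace Fermat.Agent.S55

noncomputable section

section hprod

variable {E E' : Type} {M : Type} [Field E] [NumberField E] [Field E'] [NumberField E']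
  [Field M] [NumberField M] [Algebra E E'] [IsGalois E E'] [IsMulCommutative Gal(E'/E)]
  [Algebra E M] [IsGalois E M]
  {Q : Type} (w : Q → HeightOneSpectrum (𝓞 M))
  (D : Q → Subgroup (M ≃ₐ[ℚ] M))

/-- The prime of `E` of the place `(q, o)`. -/
def rc_cc_place (q : Q) (o : orbitRel.Quotient ↥(rc_dg_sub E M) ((M ≃ₐ[ℚ] M) ⧸ D q)) :
    HeightOneSpectrum (𝓞 E) :=
  id_under E M (rc_rep (D q) (rc_dg_sub E M) o • w q)

open Classical in
/-- The numerators `x_{q,o} = d_{q,o} · ord_v(s)` of the local terms (`0` over the modulus). -/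
def rc_cc_x (m : ℕ) (s : Eˣ)
    (d : ∀ q, orbitRel.Quotient ↥(rc_dg_sub E M) ((M ≃ₐ[ℚ] M) ⧸ D q) → ℤ) (q : Q)
    (o : orbitRel.Quotient ↥(rc_dg_sub E M) ((M ≃ₐ[ℚ] M) ⧸ D q)) : ℤ :=
  if (m : 𝓞 E) ∈ (rc_cc_place (E := E) w D q o).asIdeal then 0
  else d q o * id_ordZ E (rc_cc_place w D q o) s

variable (huniq : ∀ q q' (g : M ≃ₐ[ℚ] M), g • (w q).asIdeal = (w q').asIdeal → q = q')
  (hcov : ∀ R : Ideal (𝓞 M), R.IsPrime → R ≠ ⊥ → ∃ q, ∃ g : M ≃ₐ[ℚ] M, g • (w q).asIdeal = R)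
  (hD : ∀ q, D q = MulAction.stabilizer (M ≃ₐ[ℚ] M) (w q).asIdeal)

include huniq hD in
theorem rc_cc_x_finite (m : ℕ) (s : Eˣ)
    (d : ∀ q, orbitRel.Quotient ↥(rc_dg_sub E M) ((M ≃ₐ[ℚ] M) ⧸ D q) → ℤ) :
    {q : Q | ∃ o, rc_cc_x w D m s d q o ≠ 0}.Finite := by
  obtain rfl : D = fun q => MulAction.stabilizer (M ≃ₐ[ℚ] M) (w q).asIdeal := funext hD
  exact rc_pd_x_finite (E := E) (fun q => (w q).asIdeal) (fun q => (w q).isPrime)
    (fun q => (w q).ne_bot) huniq m s d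

include huniq hcov hD in
/-- **The product formula**: if `Frob_v = σ ^ d_v` at the places not over `m`, then
`σ ^ (∑ x_{q,o}) = rc_ad_symbol E E' m s`. -/
theorem rc_cc_hprod (m : ℕ) (s : Eˣ) (σ : Gal(E'/E))
    (d : ∀ q, orbitRel.Quotient ↥(rc_dg_sub E M) ((M ≃ₐ[ℚ] M) ⧸ D q) → ℤ)
    (hd : ∀ q o, (m : 𝓞 E) ∉ (rc_cc_place (E := E) w D q o).asIdeal →
      am_frob E E' (rc_cc_place (E := E) w D q o).asIdeal = σ ^ d q o) :
    σ ^ (∑ᶠ q, ∑ᶠ o, rc_cc_x w D m s d q o) = rc_ad_symbol E E' m s := by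
  obtain rfl : D = fun q => MulAction.stabilizer (M ≃ₐ[ℚ] M) (w q).asIdeal := funext hD
  exact rc_pd_hprod (E := E) (E' := E') (fun q => (w q).asIdeal) (fun q => (w q).isPrime)
    (fun q => (w q).ne_bot) huniq hcov m s σ d hd

end hprod

section order

variable {G H : Type*} [Group G] [Group H]

/-- The order of the image of `τ` under a homomorphism `ρ` is the order of its class modulo
`ker ρ`. -/
theorem rc_cc_orderOf_map (ρ : G →* H) (N : Subgroup G) [N.Normal] (hker : ρ.ker = N) (τ : G) :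
    orderOf (ρ τ) = orderOf (τ : G ⧸ N) := by
  rw [orderOf_eq_orderOf_iff]
  intro j
  rw [← map_pow, ← QuotientGroup.mk_pow, QuotientGroup.eq_one_iff, ← hker, MonoidHom.mem_ker]

end order

section main

variable {M : Type} [Field M] [NumberField M] {p : ℕ} [Fact p.Prime]
  {J : Rep.{0} ℤ (M ≃ₐ[ℚ] M)} {Q : Type} (𝔻 : rc_InvData p J Q) (hfin : rc_FinSupp 𝔻)
  (δ : id_KRep M ⟶ J) (𝔇 : ∀ q, rc_td_Dict 𝔻 δ q)
  (huniq : ∀ q q' (g : M ≃ₐ[ℚ] M), g • (𝔇 q).w.asIdeal = (𝔇 q').w.asIdeal → q = q')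
  (hcov : ∀ R : Ideal (𝓞 M), R.IsPrime → R ≠ ⊥ →
    ∃ q, ∃ g : M ≃ₐ[ℚ] M, g • (𝔇 q).w.asIdeal = R)
  {E E' : Type} [Field E] [NumberField E] [Field E'] [NumberField E'] [Algebra E E']
  [Algebra E' M] [Algebra E M] [IsScalarTower E E' M] [IsGalois E M] [IsGalois E E']
  [IsMulCommutative Gal(E'/E)]
  {N : Subgroup ↥(rc_dg_sub E M)} [N.Normal] (𝔏 : rc_td_Layer E E' M (rc_dg_sub E M) N)

omit [Fact p.Prime] in
include huniq hcov in
/-- **Reciprocity on a concrete cyclic layer, from the Artin symbol.**  A cyclic class `(χ, x)`,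
`x ∈ Eˣ`, whose local terms at the places not over the modulus `m` are given by the Frobenius
formula, whose local terms over `m` vanish and whose Artin symbol away from `m` is trivial, has
total invariant `0`. -/
theorem rc_cc_recip_of_symbol [Finite (M ≃ₐ[ℚ] M)] {σ : ↥(rc_dg_sub E M) ⧸ N} {n : ℕ} (hn : 0 < n)
    (ho : orderOf σ = n) (τ : ↥(rc_dg_sub E M)) (hτ : (τ : ↥(rc_dg_sub E M) ⧸ N) = σ)
    (hgenρ : ∀ g : Gal(E'/E), g ∈ Subgroup.zpowers (𝔏.ρ τ))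
    (m : ℕ)
    (hunr : ∀ q (g : M ≃ₐ[ℚ] M), (m : 𝓞 E) ∉ (id_under E M (g • (𝔇 q).w)).asIdeal →
      am_Unram E E' (id_under E M (g • (𝔇 q).w)).asIdeal)
    (f : cocycles₂ ((tt_res (rc_dg_sub E M) (id_KRep M)).quotientToInvariants N)) (x : Eˣ)
    (hterm : ∀ q (g : M ≃ₐ[ℚ] M) (d : ℕ),
      am_Unram E E' (id_under E M (g • (𝔇 q).w)).asIdeal →
      am_frob E E' (id_under E M (g • (𝔇 q).w)).asIdeal = 𝔏.ρ τ ^ d →
      rc_term 𝔻 q (rc_dg_sub E M) g ((rr_push δ (rc_dg_sub E M)).hom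
          ((ir_inf₂ (tt_res (rc_dg_sub E M) (id_KRep M)) N).hom (H2π _ f))) =
        cy_frac n ((d : ℤ) * id_ordZ E (id_under E M (g • (𝔇 q).w)) x))
    (hzero : ∀ q (g : M ≃ₐ[ℚ] M), (m : 𝓞 E) ∈ (id_under E M (g • (𝔇 q).w)).asIdeal →
      rc_term 𝔻 q (rc_dg_sub E M) g ((rr_push δ (rc_dg_sub E M)).hom
          ((ir_inf₂ (tt_res (rc_dg_sub E M) (id_KRep M)) N).hom (H2π _ f))) = 0)
    (hsym : rc_ad_symbol E E' m x = 1) :
    rc_INV 𝔻 hfin (rc_dg_sub E M) ((rr_push δ (rc_dg_sub E M)).hom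
      ((ir_inf₂ (tt_res (rc_dg_sub E M) (id_KRep M)) N).hom (H2π _ f))) = 0 := by
  classical
  have hoρ : orderOf (𝔏.ρ τ) = n := by
    rw [rc_cc_orderOf_map 𝔏.ρ N 𝔏.hker τ, hτ, ho]
  -- the exponents of the Frobenius elements
  have hex : ∀ q (o : orbitRel.Quotient ↥(rc_dg_sub E M) ((M ≃ₐ[ℚ] M) ⧸ 𝔻.D q)), ∃ d : ℕ,
      am_frob E E' (rc_cc_place (E := E) (fun q => (𝔇 q).w) 𝔻.D q o).asIdeal = 𝔏.ρ τ ^ d := by
    intro q o
    have h1 := hgenρ (am_frob E E' (rc_cc_place (E := E) (fun q => (𝔇 q).w) 𝔻.D q o).asIdeal)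
    rw [← mem_powers_iff_mem_zpowers] at h1
    obtain ⟨d, hd⟩ := h1
    exact ⟨d, hd.symm⟩
  choose d hd using hex
  refine rr_INV_eq_zero 𝔻 hfin hn hoρ (rc_dg_sub E M) _
    (rc_cc_x (fun q => (𝔇 q).w) 𝔻.D m x (fun q o => (d q o : ℤ))) (fun q o => ?_)
    (rc_cc_x_finite (fun q => (𝔇 q).w) 𝔻.D huniq (fun q => (𝔇 q).hD) m x _) ?_
  · unfold rc_cc_x
    split_ifs with hm
    · rw [map_zero]
      exact hzero q _ hm
    · exact hterm q _ (d q o) (hunr q _ hm) (hd q o)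
  · rw [rc_cc_hprod (E' := E') (fun q => (𝔇 q).w) 𝔻.D huniq hcov (fun q => (𝔇 q).hD) m x (𝔏.ρ τ)
      (fun q o => (d q o : ℤ)) (fun q o _ => by rw [zpow_natCast]; exact hd q o)]
    exact hsym

omit [Fact p.Prime] [IsGalois E M] [IsGalois E E'] [IsMulCommutative Gal(E'/E)] in
/-- A generator of `𝒢 ⧸ N` restricts to a generator of `Gal(E'/E)`. -/
theorem rc_cc_hgenρ {σ : ↥(rc_dg_sub E M) ⧸ N}
    (hgen : ∀ g : ↥(rc_dg_sub E M) ⧸ N, g ∈ Subgroup.zpowers σ)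
    (τ : ↥(rc_dg_sub E M)) (hτ : (τ : ↥(rc_dg_sub E M) ⧸ N) = σ) (g : Gal(E'/E)) :
    g ∈ Subgroup.zpowers (𝔏.ρ τ) := by
  obtain ⟨t, rfl⟩ := 𝔏.hρs g
  obtain ⟨z, hz⟩ := Subgroup.mem_zpowers_iff.1 (hgen (t : ↥(rc_dg_sub E M) ⧸ N))
  refine Subgroup.mem_zpowers_iff.2 ⟨z, ?_⟩
  rw [← hτ, ← QuotientGroup.mk_zpow, QuotientGroup.eq, ← 𝔏.hker, MonoidHom.mem_ker, map_mul,
    map_inv, map_zpow] at hz
  exact (eq_of_inv_mul_eq_one hz)

variable {Jm : Rep.{0} ℤ (M ≃ₐ[ℚ] M)} (πm : J ⟶ Jm)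

omit [Fact p.Prime] in
include huniq hcov in
/-- **Reciprocity on a concrete cyclic layer** for a class `(χ, x)` which is a semi-local norm at
the index `qm` of the modulus and has trivial Artin symbol away from the modulus. -/
theorem rc_cc_recip [Finite (M ≃ₐ[ℚ] M)] (qm : Q) (pr' : tt_res (𝔻.D qm) Jm ⟶ 𝔻.X qm)
    (hfac : (Rep.resFunctor (𝔻.D qm).subtype).map πm ≫ pr' = 𝔻.pr qm)
    {σ : ↥(rc_dg_sub E M) ⧸ N} {n : ℕ} (hn : 0 < n)
    (ho : orderOf σ = n) (hgen : ∀ g : ↥(rc_dg_sub E M) ⧸ N, g ∈ Subgroup.zpowers σ)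
    (τ : ↥(rc_dg_sub E M)) (hτ : (τ : ↥(rc_dg_sub E M) ⧸ N) = σ)
    (m : ℕ)
    (hunr : ∀ q (g : M ≃ₐ[ℚ] M), (m : 𝓞 E) ∉ (id_under E M (g • (𝔇 q).w)).asIdeal →
      am_Unram E E' (id_under E M (g • (𝔇 q).w)).asIdeal)
    (hqm : ∀ q (g : M ≃ₐ[ℚ] M), (m : 𝓞 E) ∈ (id_under E M (g • (𝔇 q).w)).asIdeal → q = qm)
    (f : cocycles₂ ((tt_res (rc_dg_sub E M) (id_KRep M)).quotientToInvariants N)) (x : Eˣ)
    (hterm : ∀ q (g : M ≃ₐ[ℚ] M) (d : ℕ),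
      am_Unram E E' (id_under E M (g • (𝔇 q).w)).asIdeal →
      am_frob E E' (id_under E M (g • (𝔇 q).w)).asIdeal = 𝔏.ρ τ ^ d →
      rc_term 𝔻 q (rc_dg_sub E M) g ((rr_push δ (rc_dg_sub E M)).hom
          ((ir_inf₂ (tt_res (rc_dg_sub E M) (id_KRep M)) N).hom (H2π _ f))) =
        cy_frac n ((d : ℤ) * id_ordZ E (id_under E M (g • (𝔇 q).w)) x))
    (hnorm : ∃ b : ((tt_res (rc_dg_sub E M) Jm).quotientToInvariants N).V,
      cy_repNorm ((tt_res (rc_dg_sub E M) Jm).quotientToInvariants N) σ n b =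
        (rr_invMap ((Rep.resFunctor (rc_dg_sub E M).subtype).map (δ ≫ πm)) N).hom
          (cy_repSum ((tt_res (rc_dg_sub E M) (id_KRep M)).quotientToInvariants N) σ n
            (f : (↥(rc_dg_sub E M) ⧸ N) × (↥(rc_dg_sub E M) ⧸ N) →
              ((tt_res (rc_dg_sub E M) (id_KRep M)).quotientToInvariants N).V)))
    (hsym : rc_ad_symbol E E' m x = 1) :
    rc_INV 𝔻 hfin (rc_dg_sub E M) ((rr_push δ (rc_dg_sub E M)).hom
      ((ir_inf₂ (tt_res (rc_dg_sub E M) (id_KRep M)) N).hom (H2π _ f))) = 0 := by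
  refine rc_cc_recip_of_symbol 𝔻 hfin δ 𝔇 huniq hcov 𝔏 hn ho τ hτ (rc_cc_hgenρ 𝔏 hgen τ hτ) m hunr
    f x hterm (fun q g hm => ?_) hsym
  obtain rfl := hqm q g hm
  rw [rc_term_apply, rr_comp_push_inf_eq_zero_of_norm 𝔻 δ πm (rc_dg_sub E M) N q pr' hfac hn ho
    hgen f hnorm, map_zero]

omit [Fact p.Prime] in
include huniq hcov in
/-- **`[CYC]` for a layer inside a prime-power cyclotomic extension**: the hypothesis `hCYC` of
`rr_reciprocity` (and of its variants), for `E ⊆ E' ⊆ C = E(ζ_{ℓ^j})`, `E` totally complex: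
a cyclic class which is a semi-local norm at `ℓ` has total invariant `0`. -/
theorem rc_cc_cyc [Finite (M ≃ₐ[ℚ] M)] [NumberField.IsTotallyComplex E] (qℓ : Nat.Primes)
    (πℓ : J ⟶ id_ARep M qℓ) (qm : Q) (pr' : tt_res (𝔻.D qm) (id_ARep M qℓ) ⟶ 𝔻.X qm)
    (hfac : (Rep.resFunctor (𝔻.D qm).subtype).map πℓ ≫ pr' = 𝔻.pr qm)
    (hψ : ∀ y : Mˣ, (δ ≫ πℓ).hom (Additive.ofMul y) = Additive.ofMul (id_inclU M qℓ y))
    {C : Type} [Field C] [NumberField C] [Algebra E' C] [Algebra E C]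
    [IsScalarTower E E' C] [IsGalois E C] [IsMulCommutative Gal(C/E)] {j : ℕ} (hj : 1 ≤ j)
    [IsCyclotomicExtension {(qℓ : ℕ) ^ j} E C]
    {σ : ↥(rc_dg_sub E M) ⧸ N} {n : ℕ} (hn : 0 < n)
    (ho : orderOf σ = n) (hgen : ∀ g : ↥(rc_dg_sub E M) ⧸ N, g ∈ Subgroup.zpowers σ)
    (τ : ↥(rc_dg_sub E M)) (hτ : (τ : ↥(rc_dg_sub E M) ⧸ N) = σ)
    (hunr : ∀ q (g : M ≃ₐ[ℚ] M),
      (((qℓ : ℕ) ^ j : ℕ) : 𝓞 E) ∉ (id_under E M (g • (𝔇 q).w)).asIdeal →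
      am_Unram E E' (id_under E M (g • (𝔇 q).w)).asIdeal)
    (hqm : ∀ q (g : M ≃ₐ[ℚ] M),
      (((qℓ : ℕ) ^ j : ℕ) : 𝓞 E) ∈ (id_under E M (g • (𝔇 q).w)).asIdeal → q = qm)
    (hterm : ∀ q (g : M ≃ₐ[ℚ] M) (d : ℕ)
      (f : cocycles₂ ((tt_res (rc_dg_sub E M) (id_KRep M)).quotientToInvariants N)) (x : Eˣ),
      am_Unram E E' (id_under E M (g • (𝔇 q).w)).asIdeal →
      am_frob E E' (id_under E M (g • (𝔇 q).w)).asIdeal = 𝔏.ρ τ ^ d →
      ((cy_repSum ((tt_res (rc_dg_sub E M) (id_KRep M)).quotientToInvariants N) σ n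
        (f : (↥(rc_dg_sub E M) ⧸ N) × (↥(rc_dg_sub E M) ⧸ N) →
          ((tt_res (rc_dg_sub E M) (id_KRep M)).quotientToInvariants N).V) :
        ((tt_res (rc_dg_sub E M) (id_KRep M)).quotientToInvariants N).V) : (id_KRep M).V) =
        Additive.ofMul (id_unitsMap E M x) →
      rc_term 𝔻 q (rc_dg_sub E M) g ((rr_push δ (rc_dg_sub E M)).hom
          ((ir_inf₂ (tt_res (rc_dg_sub E M) (id_KRep M)) N).hom (H2π _ f))) =
        cy_frac n ((d : ℤ) * id_ordZ E (id_under E M (g • (𝔇 q).w)) x))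
    (f : cocycles₂ ((tt_res (rc_dg_sub E M) (id_KRep M)).quotientToInvariants N))
    (hnorm : ∃ b : ((tt_res (rc_dg_sub E M) (id_ARep M qℓ)).quotientToInvariants N).V,
      cy_repNorm ((tt_res (rc_dg_sub E M) (id_ARep M qℓ)).quotientToInvariants N) σ n b =
        (rr_invMap ((Rep.resFunctor (rc_dg_sub E M).subtype).map (δ ≫ πℓ)) N).hom
          (cy_repSum ((tt_res (rc_dg_sub E M) (id_KRep M)).quotientToInvariants N) σ n
            (f : (↥(rc_dg_sub E M) ⧸ N) × (↥(rc_dg_sub E M) ⧸ N) →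
              ((tt_res (rc_dg_sub E M) (id_KRep M)).quotientToInvariants N).V))) :
    rc_INV 𝔻 hfin (rc_dg_sub E M) ((rr_push δ (rc_dg_sub E M)).hom
      ((ir_inf₂ (tt_res (rc_dg_sub E M) (id_KRep M)) N).hom (H2π _ f))) = 0 := by
  obtain ⟨x, hx, hsym⟩ := rc_sn_symbol_eq_one (C := C) hj 𝔏.ρ 𝔏.hρ 𝔏.hρs 𝔏.hker 𝔏.h𝒢 𝔏.hN
    (δ ≫ πℓ) hψ hn ho hgen f hnorm
  exact rc_cc_recip 𝔻 hfin δ 𝔇 huniq hcov 𝔏 πℓ qm pr' hfac hn ho hgen τ hτ ((qℓ : ℕ) ^ j) hunr hqm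
    f x (fun q g d hu hd => hterm q g d f x hu hd hx) hnorm hsym

end main

end

end Fermat.Agent.S55
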