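import Mathlib
import Fermat.Agent.S55.Recip.AuxTower
import Fermat.Agent.S55.Recip.FrobRestrict

/-!
# S55 / G4: cyclotomic-cyclic reciprocity, ideal-theoretic core

`E` a totally complex number field, `M = E(ζ_m)`, `E ⊆ E' ⊆ M` (S14 carriers, `E'/E` Galois).

* `rc_ccr_congr` : if `δ ≡ 1 mod m` then the Artin symbol (away from `m`) of `(δ)` in `E'/E` is
  trivial;
* `rc_ccr_norm` : norms from `E'` have trivial symbol away from `m`;
* `rc_ccr_core` : if `x₁ · N(b₂) · δ₂ = x₂ · N(b₁) · δ₁` with `δᵢ ≡ 1 mod m` then `(x₁)` and `(x₂)`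
  have the same symbol away from `m`;
* `rc_ccr_of_norm_mul_congr` : the special case `x · δ₂ = N(b) · δ₁`: the symbol of `(x)` is
  trivial, i.e. `∏_{v ∤ m} Frob_v ^ ord_v(x) = 1` ("an element which is a norm up to a factor
  `≡ 1 mod m` has trivial symbol").
-/

set_option autoImplicit false

namespace Fermat.Agent.S55

open NumberField
open Fermat.Agent.S14
open scoped IsMulCommutative

set_option linter.style.haveILetI false
set_option linter.unusedSectionVars false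

section ccr

variable {E E' M : Type*} [Field E] [NumberField E] [Field E'] [NumberField E'] [Field M]
  [NumberField M] [Algebra E E'] [Algebra E' M] [Algebra E M] [IsScalarTower E E' M]
  [IsGalois E M] [IsGalois E E'] [IsMulCommutative Gal(E'/E)] [IsMulCommutative Gal(M/E)]

/-- `E(ζ_m)/E` (and every Galois sublayer) is unramified at the primes not containing `m`. -/
theorem rc_ccr_unram {m : ℕ} [NeZero m] [IsCyclotomicExtension {m} E M] (q : Ideal (𝓞 E))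
    [hq : q.IsPrime] (hq0 : q ≠ ⊥) (hm : (m : 𝓞 E) ∉ q) : am_Unram E E' q :=
  rc_unram_of_tower (K := M) hq0 (rc_ax_cyclo_unram (n := m) q hm)

/-- CYCLOTOMIC RECIPROCITY IN A SUBLAYER: for `δ ≡ 1 mod m` the symbol of `(δ)` in `E'/E` is
trivial (`E` totally complex, `E ⊆ E' ⊆ E(ζ_m)`). -/
theorem rc_ccr_congr [IsTotallyComplex E] {m : ℕ} [NeZero m] [IsCyclotomicExtension {m} E M]
    {δ : 𝓞 E} (hδ0 : δ ≠ 0) (hδ : δ - 1 ∈ Ideal.span {(m : 𝓞 E)}) :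
    rc_artAway E E' m (Ideal.span {δ}) = 1 := by
  obtain ⟨ζ, hζ⟩ := IsCyclotomicExtension.exists_isPrimitiveRoot E M
    (Set.mem_singleton m) (NeZero.ne m)
  obtain ⟨z, hz, hz1, -⟩ := rc_ax_exists_integer_root hζ
  have hunr : ∀ q : Ideal (𝓞 E), q.IsPrime → q ≠ ⊥ → (m : 𝓞 E) ∉ q → am_Unram E M q :=
    fun q _ _ hm => rc_ax_cyclo_unram (n := m) q hm
  have h1 : rc_artAway E M m (Ideal.span {δ}) = 1 := by
    apply rc_ax_eq_one_of_fix hζ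
    have h := rc_artAway_span_smul_root (K := M) hδ0 hδ hz1
    have := congrArg (algebraMap (𝓞 M) M) h
    rw [← hz]
    exact this
  rw [← rc_artAway_restrict (K' := E') (K := M) hunr, h1, map_one]

/-- Norms of integers of `E'` have trivial symbol away from `m`. -/
theorem rc_ccr_norm {m : ℕ} [NeZero m] [IsCyclotomicExtension {m} E M] (b : 𝓞 E') :
    rc_artAway E E' m (Ideal.span {Algebra.intNorm (𝓞 E) (𝓞 E') b}) = 1 :=
  rc_artAway_span_norm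
    (fun q hq hq0 hm => by haveI := hq; exact rc_ccr_unram (M := M) q hq0 hm) b

/-- CCR, core form: if `x₁ · N(b₂) · δ₂ = x₂ · N(b₁) · δ₁` with `δᵢ ≡ 1 mod m` (all nonzero
integers) then `(x₁)` and `(x₂)` have the same symbol away from `m` in `E'/E`. -/
theorem rc_ccr_core [IsTotallyComplex E] {m : ℕ} [NeZero m] [IsCyclotomicExtension {m} E M]
    {x₁ x₂ δ₁ δ₂ : 𝓞 E} {b₁ b₂ : 𝓞 E'} (hx₁ : x₁ ≠ 0) (hx₂ : x₂ ≠ 0) (hb₁ : b₁ ≠ 0)
    (hb₂ : b₂ ≠ 0) (hδ₁0 : δ₁ ≠ 0) (hδ₂0 : δ₂ ≠ 0)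
    (hδ₁ : δ₁ - 1 ∈ Ideal.span {(m : 𝓞 E)}) (hδ₂ : δ₂ - 1 ∈ Ideal.span {(m : 𝓞 E)})
    (h : x₁ * Algebra.intNorm (𝓞 E) (𝓞 E') b₂ * δ₂ = x₂ * Algebra.intNorm (𝓞 E) (𝓞 E') b₁ * δ₁) :
    rc_artAway E E' m (Ideal.span {x₁}) = rc_artAway E E' m (Ideal.span {x₂}) := by
  have hN₁ : Algebra.intNorm (𝓞 E) (𝓞 E') b₁ ≠ 0 := by
    rwa [Ne, Algebra.intNorm_eq_zero]
  have hN₂ : Algebra.intNorm (𝓞 E) (𝓞 E') b₂ ≠ 0 := by
    rwa [Ne, Algebra.intNorm_eq_zero]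
  have hs : ∀ {y : 𝓞 E}, y ≠ 0 → Ideal.span {y} ≠ (⊥ : Ideal (𝓞 E)) := by
    intro y hy
    rwa [Ne, Ideal.span_singleton_eq_bot]
  have h2 := congrArg (fun y : 𝓞 E => rc_artAway E E' m (Ideal.span {y})) h
  simp only [← Ideal.span_singleton_mul_span_singleton] at h2
  have hA : Ideal.span {x₁} * Ideal.span {Algebra.intNorm (𝓞 E) (𝓞 E') b₂} ≠ ⊥ := by
    rw [Ideal.span_singleton_mul_span_singleton]
    exact hs (mul_ne_zero hx₁ hN₂)
  have hB : Ideal.span {x₂} * Ideal.span {Algebra.intNorm (𝓞 E) (𝓞 E') b₁} ≠ ⊥ := by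
    rw [Ideal.span_singleton_mul_span_singleton]
    exact hs (mul_ne_zero hx₂ hN₁)
  rw [rc_artAway_mul m hA (hs hδ₂0), rc_artAway_mul m (hs hx₁) (hs hN₂),
    rc_artAway_mul m hB (hs hδ₁0), rc_artAway_mul m (hs hx₂) (hs hN₁),
    rc_ccr_norm (M := M), rc_ccr_norm (M := M), rc_ccr_congr (M := M) hδ₁0 hδ₁,
    rc_ccr_congr (M := M) hδ₂0 hδ₂] at h2
  simpa using h2

/-- CCR: an integer `x` which is a norm from `E'` up to factors `≡ 1 mod m`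
(`x · δ₂ = N(b) · δ₁`) has trivial symbol away from `m`:
`∏_{v ∤ m} Frob_v ^ ord_v(x) = 1` in `Gal(E'/E)`. -/
theorem rc_ccr_of_norm_mul_congr [IsTotallyComplex E] {m : ℕ} [NeZero m]
    [IsCyclotomicExtension {m} E M] {x δ₁ δ₂ : 𝓞 E} {b : 𝓞 E'} (hx : x ≠ 0) (hb : b ≠ 0)
    (hδ₁0 : δ₁ ≠ 0) (hδ₂0 : δ₂ ≠ 0)
    (hδ₁ : δ₁ - 1 ∈ Ideal.span {(m : 𝓞 E)}) (hδ₂ : δ₂ - 1 ∈ Ideal.span {(m : 𝓞 E)})
    (h : x * δ₂ = Algebra.intNorm (𝓞 E) (𝓞 E') b * δ₁) :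
    rc_artAway E E' m (Ideal.span {x}) = 1 := by
  have h1 := rc_ccr_core (M := M) (m := m) (x₁ := x) (x₂ := 1) (b₁ := b) (b₂ := 1) hx
    one_ne_zero hb one_ne_zero hδ₁0 hδ₂0 hδ₁ hδ₂ (by
      rw [map_one, mul_one, one_mul]; exact h)
  rw [h1, Ideal.span_singleton_one]
  exact rc_artAway_top m

end ccr

end Fermat.Agent.S55
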