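import Mathlib
import Fermat.Agent.S55.Idele.GaloisAlgebra
import Fermat.Agent.S55.Recip.CCR

/-!
# S55 / G4: semilocal cyclotomic-cyclic reciprocity in the tensor model

`E ⊆ E' ⊆ M = E(ζ_{q^j})` number fields (S14 carriers), `E` totally complex, `E'/E` Galois.
The semilocal algebra at `q` is `ℚ_[q] ⊗[ℚ] E'` (helper20's `id_A E' q`), with `Gal(E'/E)` acting
through `ga_act` (`rc_cl_act`) and the semilocal norm `rc_cl_normT z = ∏_σ σ z`.

* `rc_cl_order q K` : the order `ℤ_[q] ⊗ 𝓞 K` inside `ℚ_[q] ⊗[ℚ] K` (coordinates in an integral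
  basis are `q`-adic integers); closed under multiplication (`rc_cl_mul_mem`), Galois stable
  (`rc_cl_act_mem`), absorbing (`rc_cl_exists_pow_smul_mem`);
* `rc_cl_exists_approx` : `K` is dense in `ℚ_[q] ⊗[ℚ] K` (weak approximation at one prime);
* `rc_cl_integral_of_mem` : `K ∩ q ^ k • order = q ^ k • (𝓞 K)_(q)`;
* `rc_cl_exists_norm_approx` : a semilocal norm `a ∈ Eˣ` is `N(b)/δ` with `b ∈ E'ˣ` and
  `δ ≡ 1 mod q ^ j` (`ℤ_(q)`-integrally);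
* `rc_cl_ccr` : SEMILOCAL CCR: if `a = a₁/a₂` is a semilocal norm at `q` then
  `rc_artAway E E' (q ^ j) (a₁) = rc_artAway E E' (q ^ j) (a₂)`.
-/

set_option autoImplicit false

open scoped TensorProduct
open NumberField

namespace Fermat.Agent.S55

open Fermat.Agent.S14

set_option linter.style.haveILetI false
set_option linter.unusedSectionVars false

section order

variable (q : ℕ) [hqF : Fact q.Prime] (K : Type*) [Field K] [NumberField K]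

/-- The `ℚ_[q]`-basis `1 ⊗ ω_i` of `ℚ_[q] ⊗[ℚ] K` coming from an integral basis of `K`. -/
noncomputable def rc_cl_basis :
    Module.Basis (Module.Free.ChooseBasisIndex ℤ (𝓞 K)) ℚ_[q] (ℚ_[q] ⊗[ℚ] K) :=
  Algebra.TensorProduct.basis ℚ_[q] (NumberField.integralBasis K)

theorem rc_cl_basis_apply (i : Module.Free.ChooseBasisIndex ℤ (𝓞 K)) :
    rc_cl_basis q K i = (1 : ℚ_[q]) ⊗ₜ[ℚ] (NumberField.integralBasis K i) :=
  Algebra.TensorProduct.basis_apply _ i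

theorem rc_cl_repr_tmul (c : ℚ_[q]) (x : K) (i : Module.Free.ChooseBasisIndex ℤ (𝓞 K)) :
    (rc_cl_basis q K).repr (c ⊗ₜ[ℚ] x) i =
      c * (((NumberField.integralBasis K).repr x i : ℚ) : ℚ_[q]) := by
  unfold rc_cl_basis
  rw [Algebra.TensorProduct.basis_repr_tmul]
  simp

/-- The order `ℤ_[q] ⊗ 𝓞 K` inside `ℚ_[q] ⊗[ℚ] K`, as an additive subgroup: elements all of whose
coordinates in the basis `1 ⊗ ω_i` are `q`-adic integers. -/
noncomputable def rc_cl_order : AddSubgroup (ℚ_[q] ⊗[ℚ] K) where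
  carrier := {z | ∀ i, ‖(rc_cl_basis q K).repr z i‖ ≤ 1}
  zero_mem' := by
    intro i
    simp
  add_mem' := by
    intro a b ha hb i
    rw [map_add, Finsupp.add_apply]
    exact (Padic.nonarchimedean _ _).trans (max_le (ha i) (hb i))
  neg_mem' := by
    intro a ha i
    rw [map_neg, Finsupp.neg_apply, norm_neg]
    exact ha i

theorem rc_cl_mem_order {z : ℚ_[q] ⊗[ℚ] K} :
    z ∈ rc_cl_order q K ↔ ∀ i, ‖(rc_cl_basis q K).repr z i‖ ≤ 1 := Iff.rfl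

/-- Generators: `c ⊗ x` with `c` a `q`-adic integer and `x` an algebraic integer. -/
theorem rc_cl_tmul_mem {c : ℚ_[q]} (hc : ‖c‖ ≤ 1) (x : 𝓞 K) :
    c ⊗ₜ[ℚ] (x : K) ∈ rc_cl_order q K := by
  intro i
  rw [rc_cl_repr_tmul]
  have h1 : (NumberField.integralBasis K).repr (x : K) i =
      (algebraMap ℤ ℚ) ((RingOfIntegers.basis K).repr x i) :=
    NumberField.integralBasis_repr_apply K x i
  rw [h1, norm_mul]
  have h2 : ‖(((algebraMap ℤ ℚ) ((RingOfIntegers.basis K).repr x i) : ℚ) : ℚ_[q])‖ ≤ 1 := by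
    have : (((algebraMap ℤ ℚ) ((RingOfIntegers.basis K).repr x i) : ℚ) : ℚ_[q]) =
        (((RingOfIntegers.basis K).repr x i : ℤ) : ℚ_[q]) := by
      simp
    rw [this]
    exact Padic.norm_int_le_one _
  calc ‖c‖ * _ ≤ 1 * 1 := mul_le_mul hc h2 (norm_nonneg _) zero_le_one
    _ = 1 := one_mul 1

/-- Scalar multiplication by a `q`-adic integer preserves the order. -/
theorem rc_cl_smul_mem {c : ℚ_[q]} (hc : ‖c‖ ≤ 1) {z : ℚ_[q] ⊗[ℚ] K}
    (hz : z ∈ rc_cl_order q K) : c • z ∈ rc_cl_order q K := by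
  intro i
  rw [map_smul, Finsupp.smul_apply, smul_eq_mul, norm_mul]
  calc ‖c‖ * _ ≤ 1 * 1 := mul_le_mul hc (hz i) (norm_nonneg _) zero_le_one
    _ = 1 := one_mul 1

/-- Expansion of an element in the basis `1 ⊗ ω_i`. -/
theorem rc_cl_sum_repr (z : ℚ_[q] ⊗[ℚ] K) :
    z = ∑ i, ((rc_cl_basis q K).repr z i) ⊗ₜ[ℚ] (NumberField.integralBasis K i) := by
  conv_lhs => rw [← (rc_cl_basis q K).sum_repr z]
  refine Finset.sum_congr rfl fun i _ => ?_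
  rw [rc_cl_basis_apply, TensorProduct.smul_tmul', smul_eq_mul, mul_one]

theorem rc_cl_one_mem : (1 : ℚ_[q] ⊗[ℚ] K) ∈ rc_cl_order q K := by
  have h := rc_cl_tmul_mem q K (c := 1) (by simp) (1 : 𝓞 K)
  simpa [Algebra.TensorProduct.one_def] using h

/-- The order is closed under multiplication. -/
theorem rc_cl_mul_mem {z w : ℚ_[q] ⊗[ℚ] K} (hz : z ∈ rc_cl_order q K)
    (hw : w ∈ rc_cl_order q K) : z * w ∈ rc_cl_order q K := by
  rw [rc_cl_sum_repr q K z, rc_cl_sum_repr q K w, Finset.sum_mul_sum]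
  refine AddSubgroup.sum_mem _ fun i _ => AddSubgroup.sum_mem _ fun j _ => ?_
  rw [Algebra.TensorProduct.tmul_mul_tmul, NumberField.integralBasis_apply,
    NumberField.integralBasis_apply, ← map_mul]
  refine rc_cl_tmul_mem q K ?_ _
  rw [norm_mul]
  calc _ ≤ 1 * 1 := mul_le_mul (hz i) (hw j) (norm_nonneg _) zero_le_one
    _ = 1 := one_mul 1

/-- The order is stable under the Galois action. -/
theorem rc_cl_act_mem (σ : K ≃ₐ[ℚ] K) {z : ℚ_[q] ⊗[ℚ] K} (hz : z ∈ rc_cl_order q K) :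
    ga_act ℚ_[q] σ z ∈ rc_cl_order q K := by
  rw [rc_cl_sum_repr q K z, map_sum]
  refine AddSubgroup.sum_mem _ fun i _ => ?_
  rw [ga_act_tmul, NumberField.integralBasis_apply]
  have hint : IsIntegral ℤ (σ (algebraMap (𝓞 K) K (RingOfIntegers.basis K i))) :=
    (RingOfIntegers.isIntegral_coe _).map σ
  have := rc_cl_tmul_mem q K (hz i) (⟨_, hint⟩ : 𝓞 K)
  exact this

/-- Every element is in the order after multiplication by a power of `q`. -/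
theorem rc_cl_exists_pow_smul_mem (z : ℚ_[q] ⊗[ℚ] K) :
    ∃ c : ℕ, ((q : ℚ_[q]) ^ c) • z ∈ rc_cl_order q K := by
  have hq1 : (1 : ℝ) < q := by exact_mod_cast hqF.out.one_lt
  have hqpos : (0 : ℝ) < q := by linarith
  have h : ∀ i, ∃ c : ℕ, ‖(rc_cl_basis q K).repr z i‖ ≤ (q : ℝ) ^ c := by
    intro i
    obtain ⟨c, hc⟩ := pow_unbounded_of_one_lt ‖(rc_cl_basis q K).repr z i‖ hq1
    exact ⟨c, hc.le⟩
  choose c hc using h
  refine ⟨Finset.univ.sup c, fun i => ?_⟩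
  rw [map_smul, Finsupp.smul_apply, smul_eq_mul, norm_mul, Padic.norm_p_pow]
  have h1 : ‖(rc_cl_basis q K).repr z i‖ ≤ (q : ℝ) ^ (Finset.univ.sup c) :=
    (hc i).trans (pow_le_pow_right₀ hq1.le (Finset.le_sup (Finset.mem_univ i)))
  rw [zpow_neg, zpow_natCast]
  rw [inv_mul_le_iff₀ (pow_pos hqpos _), mul_one]
  exact h1

/-- Density of `K` in `ℚ_[q] ⊗[ℚ] K` for the `q`-adic filtration of the order. -/
theorem rc_cl_exists_approx (z : ℚ_[q] ⊗[ℚ] K) (k : ℕ) :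
    ∃ x : K, ∃ y ∈ rc_cl_order q K, z - (1 : ℚ_[q]) ⊗ₜ[ℚ] x = ((q : ℚ_[q]) ^ k) • y := by
  have hqpos : (0 : ℝ) < q := by exact_mod_cast hqF.out.pos
  have hq0 : ((q : ℚ_[q]) ^ k) ≠ 0 := by
    apply pow_ne_zero
    exact_mod_cast hqF.out.ne_zero
  have h : ∀ i, ∃ r : ℚ, ‖(rc_cl_basis q K).repr z i - (r : ℚ_[q])‖ < (q : ℝ) ^ (-(k : ℤ)) :=
    fun i => Padic.rat_dense q _ (zpow_pos hqpos _)
  choose r hr using h
  refine ⟨∑ i, r i • NumberField.integralBasis K i,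
    ∑ i, (((rc_cl_basis q K).repr z i - (r i : ℚ_[q])) / (q : ℚ_[q]) ^ k) ⊗ₜ[ℚ]
      (NumberField.integralBasis K i), ?_, ?_⟩
  · refine AddSubgroup.sum_mem _ fun i _ => ?_
    rw [NumberField.integralBasis_apply]
    refine rc_cl_tmul_mem q K ?_ _
    rw [norm_div, Padic.norm_p_pow, div_le_one (zpow_pos hqpos _)]
    exact (hr i).le
  · conv_lhs => rw [rc_cl_sum_repr q K z]
    rw [TensorProduct.tmul_sum, ← Finset.sum_sub_distrib, Finset.smul_sum]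
    refine Finset.sum_congr rfl fun i _ => ?_
    rw [TensorProduct.tmul_smul, TensorProduct.smul_tmul', TensorProduct.smul_tmul',
      ← TensorProduct.sub_tmul, smul_eq_mul, mul_div_cancel₀ _ hq0]
    congr 2
    rw [Algebra.smul_def, mul_one, eq_ratCast]

/-- A rational number which is a `q`-adic integer has denominator prime to `q`. -/
theorem rc_cl_not_dvd_den {s : ℚ} (hs : ‖(s : ℚ_[q])‖ ≤ 1) : ¬ q ∣ s.den := by
  intro hdvd
  have hq := hqF.out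
  have hnum : ¬ (q : ℤ) ∣ s.num := by
    intro h
    have h1 : q ∣ s.num.natAbs := Int.natCast_dvd.mp h
    have h2 : q ∣ Nat.gcd s.num.natAbs s.den := Nat.dvd_gcd h1 hdvd
    rw [s.reduced] at h2
    exact hq.one_lt.ne' (Nat.dvd_one.mp h2)
  have hnorm_num : ‖((s.num : ℤ) : ℚ_[q])‖ = 1 := by
    refine le_antisymm (Padic.norm_int_le_one _) (not_lt.mp ?_)
    rw [Padic.norm_intCast_lt_one_iff]
    exact hnum
  have hnorm_den : ‖((s.den : ℤ) : ℚ_[q])‖ < 1 := by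
    rw [Padic.norm_intCast_lt_one_iff]
    exact_mod_cast hdvd
  have heq : (s : ℚ_[q]) * ((s.den : ℤ) : ℚ_[q]) = ((s.num : ℤ) : ℚ_[q]) := by
    have h := Rat.mul_den_eq_num s
    have := congrArg (fun x : ℚ => (x : ℚ_[q])) h
    push_cast at this ⊢
    exact this
  have := congrArg norm heq
  rw [norm_mul, hnorm_num] at this
  have h2 : ‖(s : ℚ_[q])‖ * ‖((s.den : ℤ) : ℚ_[q])‖ < 1 := by
    calc _ ≤ 1 * ‖((s.den : ℤ) : ℚ_[q])‖ := mul_le_mul_of_nonneg_right hs (norm_nonneg _)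
      _ < 1 := by rw [one_mul]; exact hnorm_den
  linarith

/-- INTEGRALITY: if `1 ⊗ x ∈ q ^ k • order` with `x ∈ K`, then `d * x ∈ q ^ k * 𝓞 K` for some
natural number `d` prime to `q`. -/
theorem rc_cl_integral_of_mem {x : K} {k : ℕ} {y : ℚ_[q] ⊗[ℚ] K} (hy : y ∈ rc_cl_order q K)
    (h : (1 : ℚ_[q]) ⊗ₜ[ℚ] x = ((q : ℚ_[q]) ^ k) • y) :
    ∃ d : ℕ, Nat.Coprime d q ∧ ∃ t : 𝓞 K, (d : K) * x = (q : K) ^ k * (t : K) := by
  classical
  have hq := hqF.out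
  have hqpos : (0 : ℝ) < q := by exact_mod_cast hq.pos
  have hqQ : ((q : ℚ) ^ k) ≠ 0 := pow_ne_zero _ (by exact_mod_cast hq.ne_zero)
  set b := NumberField.integralBasis K with hb
  set s : Module.Free.ChooseBasisIndex ℤ (𝓞 K) → ℚ := fun i => b.repr x i / (q : ℚ) ^ k with hs
  have hsnorm : ∀ i, ‖((s i : ℚ) : ℚ_[q])‖ ≤ 1 := by
    intro i
    have h1 : (rc_cl_basis q K).repr ((1 : ℚ_[q]) ⊗ₜ[ℚ] x) i =
        (rc_cl_basis q K).repr (((q : ℚ_[q]) ^ k) • y) i := by rw [h]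
    rw [rc_cl_repr_tmul, one_mul, map_smul, Finsupp.smul_apply, smul_eq_mul] at h1
    have h2 : ((s i : ℚ) : ℚ_[q]) = (rc_cl_basis q K).repr y i := by
      rw [hs]
      push_cast
      rw [h1]
      have : ((q : ℚ_[q]) ^ k) ≠ 0 := pow_ne_zero _ (by exact_mod_cast hq.ne_zero)
      field_simp
    rw [h2]
    exact hy i
  have hden : ∀ i, ¬ q ∣ (s i).den := fun i => rc_cl_not_dvd_den q (hsnorm i)
  set d : ℕ := ∏ i, (s i).den with hd
  have hdco : Nat.Coprime d q := by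
    rw [hd]
    refine Nat.Coprime.prod_left fun i _ => ?_
    exact ((Nat.Prime.coprime_iff_not_dvd hq).mpr (hden i)).symm
  set n : Module.Free.ChooseBasisIndex ℤ (𝓞 K) → ℤ :=
    fun i => ((d / (s i).den : ℕ) : ℤ) * (s i).num with hn
  have hn_eq : ∀ i, ((n i : ℤ) : ℚ) = (d : ℚ) * s i := by
    intro i
    have hdvd : (s i).den ∣ d := Finset.dvd_prod_of_mem (fun i => (s i).den) (Finset.mem_univ i)
    obtain ⟨e, he⟩ := hdvd
    have hden0 : ((s i).den : ℚ) ≠ 0 := by exact_mod_cast (s i).den_nz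
    have h1 : d / (s i).den = e := by
      rw [he, Nat.mul_div_cancel_left _ (s i).den_pos]
    have h2 : ((n i : ℤ) : ℚ) = (e : ℚ) * ((s i).num : ℚ) := by
      rw [hn]
      simp only
      rw [h1]
      push_cast
      rfl
    rw [h2, he]
    push_cast
    calc (e : ℚ) * ((s i).num : ℚ)
        = (((s i).den : ℚ) * e) * (((s i).num : ℚ) / ((s i).den : ℚ)) := by field_simp
      _ = (((s i).den : ℚ) * e) * s i := by rw [Rat.num_div_den]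
  refine ⟨d, hdco, ∑ i, n i • RingOfIntegers.basis K i, ?_⟩
  have hx : x = ∑ i, b.repr x i • b i := (b.sum_repr x).symm
  have hcoe : ((∑ i, n i • RingOfIntegers.basis K i : 𝓞 K) : K) = ∑ i, (n i : K) * b i := by
    change algebraMap (𝓞 K) K (∑ i, n i • RingOfIntegers.basis K i) = _
    rw [map_sum]
    refine Finset.sum_congr rfl fun i _ => ?_
    rw [map_zsmul, zsmul_eq_mul, hb, NumberField.integralBasis_apply]
  rw [hcoe]
  conv_lhs => rw [hx]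
  rw [Finset.mul_sum, Finset.mul_sum]
  refine Finset.sum_congr rfl fun i _ => ?_
  have h3 : (n i : K) = ((d : ℚ) * s i : ℚ) := by
    rw [← hn_eq i]
    simp
  rw [h3, hs]
  simp only
  rw [Algebra.smul_def, eq_ratCast]
  push_cast
  have hqK : ((q : K) ^ k) ≠ 0 := pow_ne_zero _ (by exact_mod_cast hq.ne_zero)
  field_simp

theorem rc_cl_norm_q_pow_le_one (k : ℕ) : ‖((q : ℚ_[q]) ^ k)‖ ≤ 1 := by
  rw [Padic.norm_p_pow]
  have hq1 : (1 : ℝ) ≤ q := by exact_mod_cast hqF.out.one_lt.le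
  rw [zpow_neg, zpow_natCast]
  exact inv_le_one_of_one_le₀ (one_le_pow₀ hq1)

/-- Products of elements `1 + c • y` (`c` a `q`-adic integer, `y` in the order) are of the same
form. -/
theorem rc_cl_prod_one_add {ι : Type*} (s : Finset ι) {c : ℚ_[q]} (hc : ‖c‖ ≤ 1)
    (y : ι → ℚ_[q] ⊗[ℚ] K) (hy : ∀ i ∈ s, y i ∈ rc_cl_order q K) :
    ∃ y' ∈ rc_cl_order q K, ∏ i ∈ s, (1 + c • y i) = 1 + c • y' := by
  classical
  induction s using Finset.induction_on with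
  | empty => exact ⟨0, (rc_cl_order q K).zero_mem, by simp⟩
  | insert a s ha ih =>
    obtain ⟨y', hy', hprod⟩ := ih (fun i hi => hy i (Finset.mem_insert_of_mem hi))
    have hya := hy a (Finset.mem_insert_self a s)
    refine ⟨y a + y' + c • (y a * y'), ?_, ?_⟩
    · exact (rc_cl_order q K).add_mem ((rc_cl_order q K).add_mem hya hy')
        (rc_cl_smul_mem q K hc (rc_cl_mul_mem q K hya hy'))
    · rw [Finset.prod_insert ha, hprod]
      simp only [smul_add, mul_add, add_mul, one_mul, mul_one, smul_mul_assoc, mul_smul_comm]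
      abel

end order

section main

variable {E E' : Type*} [Field E] [NumberField E] [Field E'] [NumberField E']
  [Algebra E E'] [IsGalois E E']

variable (q : ℕ) [hqF : Fact q.Prime]

/-- The action of `Gal(E'/E)` on `ℚ_[q] ⊗[ℚ] E'`. -/
noncomputable def rc_cl_act (σ : Gal(E'/E)) :
    (ℚ_[q] ⊗[ℚ] E') ≃ₐ[ℚ_[q]] (ℚ_[q] ⊗[ℚ] E') :=
  ga_act ℚ_[q] (σ.restrictScalars ℚ)

theorem rc_cl_act_tmul (σ : Gal(E'/E)) (c : ℚ_[q]) (x : E') :
    rc_cl_act q σ (c ⊗ₜ[ℚ] x) = c ⊗ₜ[ℚ] σ x := by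
  unfold rc_cl_act
  rw [ga_act_tmul]
  rfl

/-- The semilocal norm `∏_σ σ z` on `ℚ_[q] ⊗[ℚ] E'`. -/
noncomputable def rc_cl_normT (z : ℚ_[q] ⊗[ℚ] E') : ℚ_[q] ⊗[ℚ] E' :=
  ∏ σ : Gal(E'/E), rc_cl_act q σ z

theorem rc_cl_normT_mul (z w : ℚ_[q] ⊗[ℚ] E') :
    rc_cl_normT (E := E) q (z * w) = rc_cl_normT (E := E) q z * rc_cl_normT (E := E) q w := by
  unfold rc_cl_normT
  simp only [map_mul]
  exact Finset.prod_mul_distrib

theorem rc_cl_normT_tmul (x : E') :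
    rc_cl_normT (E := E) q ((1 : ℚ_[q]) ⊗ₜ[ℚ] x) =
      (1 : ℚ_[q]) ⊗ₜ[ℚ] algebraMap E E' (Algebra.norm E x) := by
  unfold rc_cl_normT
  simp only [rc_cl_act_tmul]
  rw [Algebra.norm_eq_prod_automorphisms]
  have : ∀ (s : Finset Gal(E'/E)), ∏ σ ∈ s, ((1 : ℚ_[q]) ⊗ₜ[ℚ] σ x) =
      (1 : ℚ_[q]) ⊗ₜ[ℚ] ∏ σ ∈ s, σ x := by
    classical
    intro s
    induction s using Finset.induction_on with
    | empty => simp [Algebra.TensorProduct.one_def]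
    | insert a s ha ih =>
      rw [Finset.prod_insert ha, Finset.prod_insert ha, ih,
        Algebra.TensorProduct.tmul_mul_tmul, one_mul]
  exact this Finset.univ


theorem rc_cl_normT_one_add (hj : ℕ) {y : ℚ_[q] ⊗[ℚ] E'} (hy : y ∈ rc_cl_order q E') :
    ∃ y' ∈ rc_cl_order q E', rc_cl_normT (E := E) q (1 + ((q : ℚ_[q]) ^ hj) • y) =
      1 + ((q : ℚ_[q]) ^ hj) • y' := by
  unfold rc_cl_normT
  simp only [map_add, map_one, map_smul]
  refine rc_cl_prod_one_add q E' Finset.univ (rc_cl_norm_q_pow_le_one q hj)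
    (fun σ => rc_cl_act q σ y) (fun σ _ => ?_)
  exact rc_cl_act_mem q E' _ hy

/-- `1 ⊗ (q ^ k : E')` is `q ^ k • 1`. -/
theorem rc_cl_tmul_natCast_pow (k : ℕ) :
    (1 : ℚ_[q]) ⊗ₜ[ℚ] ((q : E') ^ k) = ((q : ℚ_[q]) ^ k) • (1 : ℚ_[q] ⊗[ℚ] E') := by
  have h1 : ((q : E') ^ k) = ((q : ℚ) ^ k) • (1 : E') := by
    rw [Algebra.smul_def, mul_one]
    simp
  have h2 : ((q : ℚ) ^ k) • (1 : ℚ_[q]) = (q : ℚ_[q]) ^ k := by
    rw [Algebra.smul_def, mul_one]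
    simp
  rw [h1, TensorProduct.tmul_smul, TensorProduct.smul_tmul', h2, Algebra.TensorProduct.one_def,
    TensorProduct.smul_tmul', smul_eq_mul, mul_one]

/-- APPROXIMATION STEP: if `a ∈ Eˣ` is a semilocal norm at `q` (in `ℚ_[q] ⊗ E'`), there is
`b ∈ E'ˣ` such that `δ := N(b)/a` satisfies `d (δ - 1) ∈ q ^ j 𝓞 E` for some `d` prime to `q`. -/
theorem rc_cl_exists_norm_approx (j : ℕ) {a : E} (ha : a ≠ 0)
    (β : (ℚ_[q] ⊗[ℚ] E')ˣ)
    (hβ : rc_cl_normT (E := E) q (β : ℚ_[q] ⊗[ℚ] E') =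
      (1 : ℚ_[q]) ⊗ₜ[ℚ] algebraMap E E' a) :
    ∃ (b : E') (d : ℕ) (t : 𝓞 E), b ≠ 0 ∧ Nat.Coprime d q ∧
      (d : E) * (Algebra.norm E b / a - 1) = (q : E) ^ j * (t : E) := by
  have hq := hqF.out
  set γ : ℚ_[q] ⊗[ℚ] E' := ((β⁻¹ : (ℚ_[q] ⊗[ℚ] E')ˣ) : ℚ_[q] ⊗[ℚ] E') with hγ
  have hβγ : (β : ℚ_[q] ⊗[ℚ] E') * γ = 1 := by rw [hγ]; exact Units.mul_inv β
  obtain ⟨c, hc⟩ := rc_cl_exists_pow_smul_mem q E' γ
  -- approximation of `β` by a nonzero `b`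
  obtain ⟨b, hb0, y₁, hy₁, hb⟩ : ∃ b : E', b ≠ 0 ∧ ∃ y₁ ∈ rc_cl_order q E',
      (β : ℚ_[q] ⊗[ℚ] E') - (1 : ℚ_[q]) ⊗ₜ[ℚ] b = ((q : ℚ_[q]) ^ (j + c)) • y₁ := by
    obtain ⟨b₀, y₀, hy₀, hb₀⟩ := rc_cl_exists_approx q E' (β : ℚ_[q] ⊗[ℚ] E') (j + c)
    by_cases h0 : b₀ = 0
    · refine ⟨(q : E') ^ (j + c), pow_ne_zero _ (by exact_mod_cast hq.ne_zero), y₀ - 1,
        (rc_cl_order q E').sub_mem hy₀ (rc_cl_one_mem q E'), ?_⟩
      rw [rc_cl_tmul_natCast_pow, smul_sub, ← hb₀, h0, TensorProduct.tmul_zero, sub_zero]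
    · exact ⟨b₀, h0, y₀, hy₀, hb₀⟩
  -- `1 ⊗ b = β * (1 + q ^ j • y₂)`
  set y₂ : ℚ_[q] ⊗[ℚ] E' := -(y₁ * (((q : ℚ_[q]) ^ c) • γ)) with hy₂def
  have hy₂ : y₂ ∈ rc_cl_order q E' :=
    (rc_cl_order q E').neg_mem (rc_cl_mul_mem q E' hy₁ hc)
  have hb' : (1 : ℚ_[q]) ⊗ₜ[ℚ] b = (β : ℚ_[q] ⊗[ℚ] E') * (1 + ((q : ℚ_[q]) ^ j) • y₂) := by
    have h1 : (1 : ℚ_[q]) ⊗ₜ[ℚ] b = (β : ℚ_[q] ⊗[ℚ] E') - ((q : ℚ_[q]) ^ (j + c)) • y₁ := by
      rw [← hb]; ring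
    have h5 : (β : ℚ_[q] ⊗[ℚ] E') * y₂ = -(((q : ℚ_[q]) ^ c) • y₁) := by
      rw [hy₂def, mul_neg, mul_smul_comm, mul_smul_comm, ← mul_assoc,
        mul_comm (β : ℚ_[q] ⊗[ℚ] E') y₁, mul_assoc, hβγ, mul_one]
    rw [h1, mul_add, mul_one, mul_smul_comm, h5, smul_neg, smul_smul, ← pow_add]
    ring
  -- take norms
  obtain ⟨y', hy', hnorm⟩ := rc_cl_normT_one_add (E := E) q j hy₂
  have hN := congrArg (rc_cl_normT (E := E) q) hb'
  rw [rc_cl_normT_mul, rc_cl_normT_tmul, hβ, hnorm] at hN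
  -- cancel `1 ⊗ a`
  have hcancel : (1 : ℚ_[q]) ⊗ₜ[ℚ] algebraMap E E' (Algebra.norm E b / a) =
      1 + ((q : ℚ_[q]) ^ j) • y' := by
    have h2 : ((1 : ℚ_[q]) ⊗ₜ[ℚ] algebraMap E E' a⁻¹) * ((1 : ℚ_[q]) ⊗ₜ[ℚ] algebraMap E E' a) =
        (1 : ℚ_[q] ⊗[ℚ] E') := by
      rw [Algebra.TensorProduct.tmul_mul_tmul, one_mul, ← map_mul, inv_mul_cancel₀ ha, map_one,
        Algebra.TensorProduct.one_def]
    have h3 : ((1 : ℚ_[q]) ⊗ₜ[ℚ] algebraMap E E' a⁻¹) *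
        ((1 : ℚ_[q]) ⊗ₜ[ℚ] algebraMap E E' (Algebra.norm E b)) =
        ((1 : ℚ_[q]) ⊗ₜ[ℚ] algebraMap E E' a⁻¹) *
        ((1 : ℚ_[q]) ⊗ₜ[ℚ] algebraMap E E' a * (1 + ((q : ℚ_[q]) ^ j) • y')) := by rw [hN]
    rw [Algebra.TensorProduct.tmul_mul_tmul, one_mul, ← map_mul, ← mul_assoc, h2, one_mul] at h3
    rw [div_eq_inv_mul]
    exact h3
  have hsub : (1 : ℚ_[q]) ⊗ₜ[ℚ] (algebraMap E E' (Algebra.norm E b / a) - 1) =
      ((q : ℚ_[q]) ^ j) • y' := by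
    rw [TensorProduct.tmul_sub, hcancel, ← Algebra.TensorProduct.one_def]
    ring
  obtain ⟨d, hd, t', ht'⟩ := rc_cl_integral_of_mem q E' hy' hsub
  -- descend to `E`
  have hqE : ((q : E) ^ j) ≠ 0 := pow_ne_zero _ (by exact_mod_cast hq.ne_zero)
  have hqE' : ((q : E') ^ j) ≠ 0 := pow_ne_zero _ (by exact_mod_cast hq.ne_zero)
  set u : E := (d : E) * (Algebra.norm E b / a - 1) / (q : E) ^ j with hu
  have hιu : algebraMap E E' u = (t' : E') := by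
    rw [hu, map_div₀, map_mul, map_sub, map_one, map_pow, map_natCast, map_natCast, ht']
    field_simp
  have hint : IsIntegral ℤ u := by
    rw [← isIntegral_algebraMap_iff (algebraMap E E').injective (R := ℤ), hιu]
    exact RingOfIntegers.isIntegral_coe t'
  refine ⟨b, d, ⟨u, hint⟩, hb0, hd, ?_⟩
  change _ = (q : E) ^ j * u
  rw [hu]
  field_simp

end main


section ccr

variable {E E' M : Type*} [Field E] [NumberField E] [Field E'] [NumberField E'] [Field M]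
  [NumberField M] [Algebra E E'] [Algebra E' M] [Algebra E M] [IsScalarTower E E' M]
  [IsGalois E M] [IsGalois E E'] [IsMulCommutative Gal(E'/E)] [IsMulCommutative Gal(M/E)]

/-- SEMILOCAL CYCLOTOMIC-CYCLIC RECIPROCITY: `E` totally complex, `E ⊆ E' ⊆ M = E(ζ_{q^j})`.
If `a = a₁/a₂ ∈ Eˣ` is a semilocal norm at `q`, i.e. `1 ⊗ a = ∏_σ σ β` for a unit `β` of
`ℚ_[q] ⊗[ℚ] E'`, then `(a₁)` and `(a₂)` have the same Artin symbol away from `q` in `E'/E`: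
`∏_{v ∤ q} Frob_v ^ ord_v(a) = 1`. -/
theorem rc_cl_ccr [IsTotallyComplex E] {q j : ℕ} [hqF : Fact q.Prime] (hj : 1 ≤ j)
    [IsCyclotomicExtension {q ^ j} E M] {a₁ a₂ : 𝓞 E} (ha₁ : a₁ ≠ 0) (ha₂ : a₂ ≠ 0)
    (β : (ℚ_[q] ⊗[ℚ] E')ˣ)
    (hβ : rc_cl_normT (E := E) q (β : ℚ_[q] ⊗[ℚ] E') =
      (1 : ℚ_[q]) ⊗ₜ[ℚ] algebraMap E E' ((a₁ : E) / (a₂ : E))) :
    rc_artAway E E' (q ^ j) (Ideal.span {a₁}) = rc_artAway E E' (q ^ j) (Ideal.span {a₂}) := by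
  have hq := hqF.out
  haveI : NeZero (q ^ j) := ⟨pow_ne_zero _ hq.ne_zero⟩
  have ha₁E : (a₁ : E) ≠ 0 := by
    rwa [Ne, RingOfIntegers.coe_eq_zero_iff]
  have ha₂E : (a₂ : E) ≠ 0 := by
    rwa [Ne, RingOfIntegers.coe_eq_zero_iff]
  have ha : (a₁ : E) / (a₂ : E) ≠ 0 := div_ne_zero ha₁E ha₂E
  obtain ⟨b, d, t, hb0, hd, hdt⟩ := rc_cl_exists_norm_approx (E := E) q j ha β hβ
  set δ : E := Algebra.norm E b / ((a₁ : E) / (a₂ : E)) with hδ
  have hNb : Algebra.norm E b ≠ 0 := Algebra.norm_ne_zero_iff.mpr hb0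
  have hδ0 : δ ≠ 0 := div_ne_zero hNb ha
  -- invert `d` modulo `q ^ j`
  have hqj : 1 < q ^ j := Nat.one_lt_pow (by omega) hq.one_lt
  obtain ⟨e, -, he⟩ := Nat.exists_mul_mod_eq_one_of_coprime (Nat.Coprime.pow_right j hd) hqj
  set w := d * e / q ^ j with hw
  have hde : d * e = q ^ j * w + 1 := by
    have := Nat.div_add_mod (d * e) (q ^ j)
    rw [he] at this
    exact this.symm
  -- the integral `δ₁ = (d e) δ`
  set δ₁ : 𝓞 E := ((d * e : ℕ) : 𝓞 E) + (e : 𝓞 E) * ((q ^ j : ℕ) : 𝓞 E) * t with hδ₁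
  have hδ₁E : (δ₁ : E) = ((d * e : ℕ) : E) * δ := by
    rw [hδ₁]
    push_cast
    have h1 : ((d : E) * (e : E)) * δ = (d : E) * (e : E) + (e : E) * ((d : E) * (δ - 1)) := by
      ring
    rw [h1, hdt]
    ring
  have hδ₁0 : δ₁ ≠ 0 := by
    intro h
    have h2 : (δ₁ : E) = 0 := by rw [h]; rfl
    rw [hδ₁E] at h2
    have hde0 : ((d * e : ℕ) : E) ≠ 0 :=
      Nat.cast_ne_zero.mpr (by rw [hde]; exact Nat.succ_ne_zero _)
    exact (mul_ne_zero hde0 hδ0) h2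
  have hδ₁m : δ₁ - 1 ∈ Ideal.span {((q ^ j : ℕ) : 𝓞 E)} := by
    rw [Ideal.mem_span_singleton]
    refine ⟨(w : 𝓞 E) + (e : 𝓞 E) * t, ?_⟩
    rw [hδ₁, hde]
    push_cast
    ring
  set d₂ : 𝓞 E := ((d * e : ℕ) : 𝓞 E) with hd₂
  have hd₂0 : d₂ ≠ 0 := by
    rw [hd₂]
    exact Nat.cast_ne_zero.mpr (by rw [hde]; exact Nat.succ_ne_zero _)
  have hd₂m : d₂ - 1 ∈ Ideal.span {((q ^ j : ℕ) : 𝓞 E)} := by
    rw [Ideal.mem_span_singleton]
    refine ⟨(w : 𝓞 E), ?_⟩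
    rw [hd₂, hde]
    push_cast
    ring
  -- clear the denominator of `b`
  have halg : IsAlgebraic ℤ b :=
    (IsFractionRing.isAlgebraic_iff ℤ ℚ E').mpr (Algebra.IsAlgebraic.isAlgebraic b)
  obtain ⟨y, hy0, hyint⟩ := halg.exists_integral_multiple
  set b₁ : 𝓞 E' := ⟨y • b, hyint⟩ with hb₁
  set b₂ : 𝓞 E' := (y : 𝓞 E') with hb₂
  have hb₂0 : b₂ ≠ 0 := by
    rw [hb₂]
    exact_mod_cast hy0
  have hb₁E : (b₁ : E') = (y : E') * b := by
    change y • b = _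
    rw [zsmul_eq_mul]
  have hb₁0 : b₁ ≠ 0 := by
    intro h
    have h2 : (b₁ : E') = 0 := by rw [h]; rfl
    rw [hb₁E] at h2
    exact (mul_ne_zero (by exact_mod_cast hy0) hb0) h2
  have hb₂E : (b₂ : E') = (y : E') := by
    rw [hb₂]
    simp
  apply rc_ccr_core (M := M) (m := q ^ j) (b₁ := b₁) (b₂ := b₂) (δ₁ := d₂) (δ₂ := δ₁) ha₁ ha₂
    hb₁0 hb₂0 hd₂0 hδ₁0 hd₂m hδ₁m
  apply RingOfIntegers.coe_injective
  have hN₁ : algebraMap (𝓞 E) E (Algebra.intNorm (𝓞 E) (𝓞 E') b₁) =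
      Algebra.norm E (algebraMap (𝓞 E') E' b₁) :=
    Algebra.algebraMap_intNorm (A := 𝓞 E) (K := E) (L := E') (B := 𝓞 E') b₁
  have hN₂ : algebraMap (𝓞 E) E (Algebra.intNorm (𝓞 E) (𝓞 E') b₂) =
      Algebra.norm E (algebraMap (𝓞 E') E' b₂) :=
    Algebra.algebraMap_intNorm (A := 𝓞 E) (K := E) (L := E') (B := 𝓞 E') b₂
  have hb₁E' : algebraMap (𝓞 E') E' b₁ = (y : E') * b := hb₁E
  have hb₂E' : algebraMap (𝓞 E') E' b₂ = (y : E') := hb₂E
  have hδ₁E' : algebraMap (𝓞 E) E δ₁ = ((d * e : ℕ) : E) * δ := hδ₁E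
  have hd₂E' : algebraMap (𝓞 E) E d₂ = ((d * e : ℕ) : E) := by
    rw [hd₂, map_natCast]
  change algebraMap (𝓞 E) E (a₁ * Algebra.intNorm (𝓞 E) (𝓞 E') b₂ * δ₁) =
    algebraMap (𝓞 E) E (a₂ * Algebra.intNorm (𝓞 E) (𝓞 E') b₁ * d₂)
  rw [map_mul, map_mul, map_mul, map_mul, hN₁, hN₂, hb₁E', hb₂E', map_mul, hδ₁E', hd₂E', hδ]
  have ha₁E' : algebraMap (𝓞 E) E a₁ ≠ 0 := ha₁E
  have ha₂E' : algebraMap (𝓞 E) E a₂ ≠ 0 := ha₂E
  change _ * _ * (_ * (Algebra.norm E b / (algebraMap (𝓞 E) E a₁ / algebraMap (𝓞 E) E a₂))) = _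
  field_simp

end ccr

end Fermat.Agent.S55
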