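import Mathlib
import Fermat.Agent.S55.Idele.Primes
import Fermat.Agent.S55.Recip.CCRLocal

/-!
# S55 / G4: the Artin symbol away from `m` of an element of `Eˣ`, in terms of `ord_v`

`E'/E` abelian extension of number fields (S14 carriers).  For `x : Eˣ`,
`rc_ad_symbol E E' m x = ∏ᶠ_{v, m ∉ v} Frob_v ^ ord_v(x)` (`ord_v = id_ordZ E v` of
`Idele/Primes.lean`).  It is multiplicative in `x` (`rc_ad_symbol_mul`), equals `rc_artAway` on
integers (`rc_ad_symbol_of_integer`), and the semilocal cyclotomic-cyclic reciprocity law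
`rc_cl_ccr` becomes `rc_ad_ccr : rc_ad_symbol E E' (q ^ j) x = 1` for a semilocal norm `x`.
-/

set_option autoImplicit false

open scoped TensorProduct
open NumberField IsDedekindDomain

namespace Fermat.Agent.S55

open Fermat.Agent.S14
open scoped IsMulCommutative

set_option linter.style.haveILetI false
set_option linter.unusedSectionVars false

section ord

variable {E : Type*} [Field E] [NumberField E]

/-- `ord_v` of a nonzero integer is the multiplicity of `v` in the factorisation of `(a)`. -/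
theorem rc_ad_ordZ_eq_count (v : HeightOneSpectrum (𝓞 E)) {a : 𝓞 E} (ha : a ≠ 0) (u : Eˣ)
    (hu : (u : E) = algebraMap (𝓞 E) E a) :
    id_ordZ E v u = (Multiset.count v.asIdeal
      (UniqueFactorizationMonoid.normalizedFactors (Ideal.span {a})) : ℤ) := by
  classical
  have hI : Ideal.span {a} ≠ (0 : Ideal (𝓞 E)) := by
    rwa [Ne, Ideal.zero_eq_bot, Ideal.span_singleton_eq_bot]
  rw [id_ordZ, hu, HeightOneSpectrum.valuation_of_algebraMap,
    HeightOneSpectrum.intValuation_if_neg v ha, WithZero.log_exp, neg_neg,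
    Ideal.count_associates_factors_eq hI v.isPrime v.ne_bot]

/-- `ord_v` of a quotient of integers. -/
theorem rc_ad_ordZ_div (v : HeightOneSpectrum (𝓞 E)) (x y : Eˣ) :
    id_ordZ E v (x / y) = id_ordZ E v x - id_ordZ E v y := by
  have h := id_ordZ_mul E v (x / y) y
  rw [div_mul_cancel] at h
  omega

end ord

section symbol

variable (E E' : Type*) [Field E] [NumberField E] [Field E'] [NumberField E'] [Algebra E E']
  [IsGalois E E'] [IsMulCommutative Gal(E'/E)]

open Classical in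
/-- The local factor of the symbol. -/
noncomputable def rc_ad_factor (m : ℕ) (x : Eˣ) (v : HeightOneSpectrum (𝓞 E)) : Gal(E'/E) :=
  if (m : 𝓞 E) ∈ v.asIdeal then 1 else am_frob E E' v.asIdeal ^ (id_ordZ E v x)

/-- The Artin symbol away from `m` of `x ∈ Eˣ`: `∏_{v, m ∉ v} Frob_v ^ ord_v(x)`. -/
noncomputable def rc_ad_symbol (m : ℕ) (x : Eˣ) : Gal(E'/E) :=
  ∏ᶠ v : HeightOneSpectrum (𝓞 E), rc_ad_factor E E' m x v

variable {E E'}

theorem rc_ad_factor_mul (m : ℕ) (x y : Eˣ) (v : HeightOneSpectrum (𝓞 E)) :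
    rc_ad_factor E E' m (x * y) v = rc_ad_factor E E' m x v * rc_ad_factor E E' m y v := by
  unfold rc_ad_factor
  split_ifs
  · rw [one_mul]
  · rw [id_ordZ_mul, zpow_add]

theorem rc_ad_mulSupport_factor (m : ℕ) (x : Eˣ) :
    (Function.mulSupport (rc_ad_factor E E' m x)).Finite := by
  apply (id_finite_ordZ_ne_zero E x).subset
  intro v hv
  rw [Function.mem_mulSupport] at hv
  change id_ordZ E v x ≠ 0
  intro h0
  apply hv
  unfold rc_ad_factor
  split_ifs
  · rfl
  · rw [h0, zpow_zero]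

theorem rc_ad_symbol_mul (m : ℕ) (x y : Eˣ) :
    rc_ad_symbol E E' m (x * y) = rc_ad_symbol E E' m x * rc_ad_symbol E E' m y := by
  unfold rc_ad_symbol
  rw [← finprod_mul_distrib (rc_ad_mulSupport_factor (E' := E') m x)
    (rc_ad_mulSupport_factor (E' := E') m y)]
  exact finprod_congr fun v => rc_ad_factor_mul m x y v

theorem rc_ad_symbol_one (m : ℕ) : rc_ad_symbol E E' m (1 : Eˣ) = 1 := by
  unfold rc_ad_symbol
  have : ∀ v, rc_ad_factor E E' m (1 : Eˣ) v = 1 := by
    intro v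
    unfold rc_ad_factor
    split_ifs
    · rfl
    · rw [id_ordZ_one, zpow_zero]
  simp only [this, finprod_one]

theorem rc_ad_symbol_inv (m : ℕ) (x : Eˣ) :
    rc_ad_symbol E E' m x⁻¹ = (rc_ad_symbol E E' m x)⁻¹ := by
  rw [eq_inv_iff_mul_eq_one, ← rc_ad_symbol_mul, inv_mul_cancel, rc_ad_symbol_one]

theorem rc_ad_symbol_div (m : ℕ) (x y : Eˣ) :
    rc_ad_symbol E E' m (x / y) = rc_ad_symbol E E' m x * (rc_ad_symbol E E' m y)⁻¹ := by
  rw [div_eq_mul_inv, rc_ad_symbol_mul, rc_ad_symbol_inv]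

/-- On a nonzero integer the symbol is `rc_artAway` of the principal ideal. -/
theorem rc_ad_symbol_of_integer (m : ℕ) {a : 𝓞 E} (ha : a ≠ 0) (u : Eˣ)
    (hu : (u : E) = algebraMap (𝓞 E) E a) :
    rc_ad_symbol E E' m u = rc_artAway E E' m (Ideal.span {a}) := by
  classical
  set F := UniqueFactorizationMonoid.normalizedFactors (Ideal.span {a}) with hF
  set T := (F.filter (fun q => (m : 𝓞 E) ∉ q)).toFinset with hT
  have hTprop : ∀ P ∈ T, P.IsPrime ∧ P ≠ ⊥ ∧ (m : 𝓞 E) ∉ P ∧ P ∈ F := by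
    intro P hP
    rw [hT, Multiset.mem_toFinset, Multiset.mem_filter] at hP
    have hp := UniqueFactorizationMonoid.prime_of_normalized_factor P hP.1
    exact ⟨Ideal.isPrime_of_prime hp, hp.ne_zero, hP.2, hP.1⟩
  -- the finite set of primes as height one primes
  set φ : {P // P ∈ T} → HeightOneSpectrum (𝓞 E) :=
    fun P => ⟨P.1, (hTprop P.1 P.2).1, (hTprop P.1 P.2).2.1⟩ with hφ
  have hφinj : Function.Injective φ := by
    intro P Q h
    apply Subtype.ext
    exact congrArg HeightOneSpectrum.asIdeal h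
  set s : Finset (HeightOneSpectrum (𝓞 E)) := T.attach.image φ with hs
  have hsupp : Function.mulSupport (rc_ad_factor E E' m u) ⊆ ↑s := by
    intro v hv
    rw [Function.mem_mulSupport] at hv
    have hmv : (m : 𝓞 E) ∉ v.asIdeal := by
      intro h
      apply hv
      unfold rc_ad_factor
      rw [if_pos h]
    have hcount : Multiset.count v.asIdeal F ≠ 0 := by
      intro h0
      apply hv
      unfold rc_ad_factor
      rw [if_neg hmv, rc_ad_ordZ_eq_count v ha u hu, ← hF, h0]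
      simp
    have hvF : v.asIdeal ∈ F := Multiset.count_ne_zero.mp hcount
    have hvT : v.asIdeal ∈ T := by
      rw [hT, Multiset.mem_toFinset, Multiset.mem_filter]
      exact ⟨hvF, hmv⟩
    rw [hs, Finset.coe_image]
    exact ⟨⟨v.asIdeal, hvT⟩, Finset.mem_coe.mpr (Finset.mem_attach _ _), rfl⟩
  unfold rc_ad_symbol
  rw [finprod_eq_prod_of_mulSupport_subset _ hsupp, hs,
    Finset.prod_image (fun P _ Q _ h => hφinj h)]
  unfold rc_artAway rc_factorsAway
  rw [← hF, Finset.prod_multiset_map_count, ← hT, ← Finset.prod_attach T]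
  refine Finset.prod_congr rfl fun P _ => ?_
  obtain ⟨h1, h2, h3, h4⟩ := hTprop P.1 P.2
  unfold rc_ad_factor
  have : (φ P).asIdeal = P.1 := rfl
  rw [this, if_neg h3, rc_ad_ordZ_eq_count (φ P) ha u hu, ← hF, this, zpow_natCast,
    Multiset.count_filter_of_pos (p := fun q : Ideal (𝓞 E) => (m : 𝓞 E) ∉ q) h3]

/-- The symbol of a quotient of integers. -/
theorem rc_ad_symbol_eq_artAway_div (m : ℕ) {a₁ a₂ : 𝓞 E} (ha₁ : a₁ ≠ 0) (ha₂ : a₂ ≠ 0) (x : Eˣ)
    (hx : (x : E) = algebraMap (𝓞 E) E a₁ / algebraMap (𝓞 E) E a₂) :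
    rc_ad_symbol E E' m x =
      rc_artAway E E' m (Ideal.span {a₁}) * (rc_artAway E E' m (Ideal.span {a₂}))⁻¹ := by
  have h1 : algebraMap (𝓞 E) E a₁ ≠ 0 := by
    rwa [Ne, FaithfulSMul.algebraMap_eq_zero_iff]
  have h2 : algebraMap (𝓞 E) E a₂ ≠ 0 := by
    rwa [Ne, FaithfulSMul.algebraMap_eq_zero_iff]
  have hxu : x = Units.mk0 _ h1 / Units.mk0 _ h2 := by
    apply Units.ext
    rw [hx, Units.val_div_eq_div_val]
    rfl
  rw [hxu, rc_ad_symbol_div, rc_ad_symbol_of_integer m ha₁ (Units.mk0 _ h1) rfl,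
    rc_ad_symbol_of_integer m ha₂ (Units.mk0 _ h2) rfl]

end symbol

section ccr

variable {E E' M : Type*} [Field E] [NumberField E] [Field E'] [NumberField E'] [Field M]
  [NumberField M] [Algebra E E'] [Algebra E' M] [Algebra E M] [IsScalarTower E E' M]
  [IsGalois E M] [IsGalois E E'] [IsMulCommutative Gal(E'/E)] [IsMulCommutative Gal(M/E)]

/-- SEMILOCAL CYCLOTOMIC-CYCLIC RECIPROCITY, symbol form: if `x ∈ Eˣ` is a semilocal norm at `q`
from `E' ⊆ E(ζ_{q^j})` then `∏_{v ∤ q} Frob_v ^ ord_v(x) = 1` in `Gal(E'/E)`. -/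
theorem rc_ad_ccr [IsTotallyComplex E] {q j : ℕ} [hqF : Fact q.Prime] (hj : 1 ≤ j)
    [IsCyclotomicExtension {q ^ j} E M] (x : Eˣ) (β : (ℚ_[q] ⊗[ℚ] E')ˣ)
    (hβ : rc_cl_normT (E := E) q (β : ℚ_[q] ⊗[ℚ] E') =
      (1 : ℚ_[q]) ⊗ₜ[ℚ] algebraMap E E' (x : E)) :
    rc_ad_symbol E E' (q ^ j) x = 1 := by
  obtain ⟨a₁, a₂, ha₂, hx⟩ := IsFractionRing.div_surjective (A := 𝓞 E) (x : E)
  have ha₂0 : a₂ ≠ 0 := nonZeroDivisors.ne_zero ha₂
  have ha₁0 : a₁ ≠ 0 := by
    rintro rfl
    rw [map_zero, zero_div] at hx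
    exact x.ne_zero hx.symm
  have h := rc_cl_ccr (M := M) hj ha₁0 ha₂0 β (by rw [hβ]; congr 2; exact hx.symm)
  rw [rc_ad_symbol_eq_artAway_div (q ^ j) ha₁0 ha₂0 x hx.symm, h, mul_inv_cancel]

end ccr


end Fermat.Agent.S55
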