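import Mathlib
import Fermat.Agent.S55.Idele.Integral
import Fermat.Agent.S55.Recip.ArtDiv

/-!
# S55 / G4 `[APPROX]`: global elements with prescribed orders which are norms at the conductor

* `rc_ap_exists` : CRT in `𝓞 E`: a nonzero integer `b ≡ 1 mod m` with prescribed `ord_v(b) = n v`
  at finitely many primes `v ∌ m` (`rc_ap_ordZ_eq` translates into `id_ordZ`);
* `rc_ap_bc` : base change `ℚ_[q] ⊗ E → ℚ_[q] ⊗ E'`; its image is fixed by `Gal(E'/E)`, so the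
  semilocal norm is the `[E' : E]`-th power (`rc_ap_normT_bc`); hence semilocal `n`-th powers with
  `[E' : E] ∣ n` are semilocal norms (`rc_ap_norm_of_pow`) and have trivial symbol
  (`rc_ap_ccr_of_pow`);
* `rc_ap_exists_root` : for `p ≠ q`, an integer `b ≡ 1 mod q` is a `p ^ K`-th power in
  `(ℚ_[q] ⊗ E)ˣ` (from `io_U_le_pow_of_ne` of `Idele/Integral.lean`);
* `rc_ap_exists_norm_elt`, `rc_ap_exists_norm_elt_symbol` : `[APPROX]` of the reciprocity proof: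
  inside `E ⊆ E' ⊆ E(ζ_l)`, `[E' : E] ∣ p ^ K`, there is `b ∈ Eˣ` with prescribed orders at the
  primes of `T` (e.g. the primes over `p`), `b ≡ 1 mod l`, semilocal norm at `l`, trivial symbol
  away from `l`.
-/

set_option autoImplicit false

open scoped TensorProduct
open NumberField IsDedekindDomain

namespace Fermat.Agent.S55

open Fermat.Agent.S14
open scoped IsMulCommutative

set_option linter.style.haveILetI false
set_option linter.unusedSectionVars false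

section crt

variable {E : Type*} [Field E] [NumberField E]

/-- Distinct height one primes are coprime (as ideals), and so are their powers. -/
theorem rc_ap_isCoprime_pow {v w : HeightOneSpectrum (𝓞 E)} (h : v ≠ w) (a b : ℕ) :
    IsCoprime (v.asIdeal ^ a) (w.asIdeal ^ b) := by
  have hv : v.asIdeal.IsMaximal := v.isMaximal
  have hw : w.asIdeal.IsMaximal := w.isMaximal
  have hne : v.asIdeal ≠ w.asIdeal := fun h' => h (HeightOneSpectrum.ext h')
  have h1 : IsCoprime v.asIdeal w.asIdeal := by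
    rw [Ideal.isCoprime_iff_sup_eq]
    exact Ideal.IsMaximal.coprime_of_ne hv hw hne
  exact IsCoprime.pow h1

/-- A principal ideal `(m)` with `m ∉ v` is coprime to the powers of `v`. -/
theorem rc_ap_isCoprime_span_pow {v : HeightOneSpectrum (𝓞 E)} {m : 𝓞 E} (hm : m ∉ v.asIdeal)
    (a : ℕ) : IsCoprime (Ideal.span {m}) (v.asIdeal ^ a) := by
  have hv : v.asIdeal.IsMaximal := v.isMaximal
  have h1 : IsCoprime (Ideal.span {m}) v.asIdeal := by
    rw [Ideal.isCoprime_iff_sup_eq]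
    by_contra hne
    have h2 := hv.eq_of_le hne le_sup_right
    apply hm
    rw [h2]
    exact Ideal.mem_sup_left (Ideal.subset_span rfl)
  exact IsCoprime.pow_right h1

/-- APPROXIMATION BY CRT: for finitely many primes `v ∈ T` with prescribed orders `n v ≥ 0` and a
modulus `m` prime to `T`, there is a nonzero integer `b ≡ 1 mod m` with `ord_v(b) = n v` for
`v ∈ T`. -/
theorem rc_ap_exists (T : Finset (HeightOneSpectrum (𝓞 E)))
    (n : HeightOneSpectrum (𝓞 E) → ℕ) {m : 𝓞 E} (hm : ∀ v ∈ T, m ∉ v.asIdeal) :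
    ∃ b : 𝓞 E, b ≠ 0 ∧ b - 1 ∈ Ideal.span {m} ∧
      ∀ v ∈ T, b ∈ v.asIdeal ^ (n v) ∧ b ∉ v.asIdeal ^ (n v + 1) := by
  classical
  -- the family of pairwise coprime ideals
  set I : Option {v // v ∈ T} → Ideal (𝓞 E) := fun o =>
    match o with
    | none => Ideal.span {m}
    | some v => v.1.asIdeal ^ (n v.1 + 1) with hI
  have hcop : Pairwise (Function.onFun IsCoprime I) := by
    intro o o' hoo'
    cases o with
    | none =>
      cases o' with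
      | none => exact absurd rfl hoo'
      | some w => exact rc_ap_isCoprime_span_pow (hm w.1 w.2) _
    | some v =>
      cases o' with
      | none => exact (rc_ap_isCoprime_span_pow (hm v.1 v.2) _).symm
      | some w =>
        apply rc_ap_isCoprime_pow
        intro h
        apply hoo'
        rw [Subtype.ext h]
  -- targets: `1` modulo `m`, an element of exact order `n v` modulo `v ^ (n v + 1)`
  have hx : ∀ v : HeightOneSpectrum (𝓞 E), ∃ x : 𝓞 E, x ∈ v.asIdeal ^ (n v) ∧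
      x ∉ v.asIdeal ^ (n v + 1) := by
    intro v
    haveI := v.isPrime
    have hlt : v.asIdeal ^ (n v + 1) < v.asIdeal ^ (n v) :=
      Ideal.pow_succ_lt_pow v.ne_bot (n v)
    obtain ⟨x, hx1, hx2⟩ := SetLike.exists_of_lt hlt
    exact ⟨x, hx1, hx2⟩
  choose x hx1 hx2 using hx
  obtain ⟨b, hb⟩ := Ideal.pi_quotient_surjective hcop (fun o =>
    match o with
    | none => (Ideal.Quotient.mk (I none) 1)
    | some v => (Ideal.Quotient.mk (I (some v)) (x v.1)))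
  have hb1 : b - 1 ∈ Ideal.span {m} := by
    have := hb none
    rwa [Ideal.Quotient.eq] at this
  have hbv : ∀ v (hv : v ∈ T), b - x v ∈ v.asIdeal ^ (n v + 1) := by
    intro v hv
    have := hb (some ⟨v, hv⟩)
    rwa [Ideal.Quotient.eq] at this
  have hprop : ∀ v ∈ T, b ∈ v.asIdeal ^ (n v) ∧ b ∉ v.asIdeal ^ (n v + 1) := by
    intro v hv
    have hle : v.asIdeal ^ (n v + 1) ≤ v.asIdeal ^ (n v) := Ideal.pow_le_pow_right (Nat.le_succ _)
    constructor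
    · have := (v.asIdeal ^ (n v)).add_mem (hle (hbv v hv)) (hx1 v)
      simpa using this
    · intro hb'
      apply hx2 v
      have := (v.asIdeal ^ (n v + 1)).sub_mem hb' (hbv v hv)
      simpa using this
  by_cases hb0 : b = 0
  · -- then `T = ∅` and `m` is a unit: take `b = 1`
    subst hb0
    have hT : T = ∅ := by
      by_contra hne
      obtain ⟨v, hv⟩ := Finset.nonempty_iff_ne_empty.mpr hne
      exact (hprop v hv).2 (Ideal.zero_mem _)
    refine ⟨1, one_ne_zero, by simp, ?_⟩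
    intro v hv
    rw [hT] at hv
    exact absurd hv (Finset.notMem_empty v)
  · exact ⟨b, hb0, hb1, hprop⟩

/-- The order of an element in terms of membership in powers of the prime. -/
theorem rc_ap_ordZ_eq (v : HeightOneSpectrum (𝓞 E)) {b : 𝓞 E} {k : ℕ}
    (h1 : b ∈ v.asIdeal ^ k) (h2 : b ∉ v.asIdeal ^ (k + 1)) (u : Eˣ)
    (hu : (u : E) = algebraMap (𝓞 E) E b) : id_ordZ E v u = k := by
  have hb0 : b ≠ 0 := by
    rintro rfl
    exact h2 (Ideal.zero_mem _)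
  rw [id_ordZ, hu, HeightOneSpectrum.valuation_of_algebraMap]
  have h3 := (v.intValuation_le_pow_iff_mem b k).mpr h1
  have h4 : ¬ v.intValuation b ≤ WithZero.exp (-((k + 1 : ℕ) : ℤ)) := by
    rw [v.intValuation_le_pow_iff_mem b (k + 1)]
    exact h2
  rw [v.intValuation_if_neg hb0] at h3 h4 ⊢
  rw [WithZero.exp_le_exp] at h3 h4
  rw [WithZero.log_exp]
  push_cast at h3 h4
  omega

end crt

section baseChange

variable {E E' : Type*} [Field E] [NumberField E] [Field E'] [NumberField E'] [Algebra E E']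
  [IsGalois E E'] (q : ℕ) [hqF : Fact q.Prime]

/-- Base change `ℚ_[q] ⊗ E → ℚ_[q] ⊗ E'` (`= id_Amap E E' q` of `Idele/Transition.lean`). -/
noncomputable def rc_ap_bc : (ℚ_[q] ⊗[ℚ] E) →ₐ[ℚ_[q]] (ℚ_[q] ⊗[ℚ] E') :=
  Algebra.TensorProduct.map (AlgHom.id ℚ_[q] ℚ_[q]) ((algebraMap E E').toRatAlgHom)

@[simp]
theorem rc_ap_bc_tmul (c : ℚ_[q]) (x : E) :
    rc_ap_bc (E' := E') q (c ⊗ₜ[ℚ] x) = c ⊗ₜ[ℚ] algebraMap E E' x := by
  simp [rc_ap_bc]

/-- Base-changed elements are fixed by `Gal(E'/E)`. -/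
theorem rc_ap_act_bc (σ : Gal(E'/E)) (z : ℚ_[q] ⊗[ℚ] E) :
    rc_cl_act q σ (rc_ap_bc (E' := E') q z) = rc_ap_bc (E' := E') q z := by
  induction z using TensorProduct.induction_on with
  | zero => simp
  | tmul c x => rw [rc_ap_bc_tmul, rc_cl_act_tmul, σ.commutes]
  | add a b ha hb => rw [map_add, map_add, ha, hb]

/-- The semilocal norm of a base-changed element is its `[E' : E]`-th power. -/
theorem rc_ap_normT_bc (z : ℚ_[q] ⊗[ℚ] E) :
    rc_cl_normT (E := E) q (rc_ap_bc (E' := E') q z) =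
      (rc_ap_bc (E' := E') q z) ^ Nat.card Gal(E'/E) := by
  unfold rc_cl_normT
  simp only [rc_ap_act_bc]
  rw [Finset.prod_const, Finset.card_univ, Nat.card_eq_fintype_card]

end baseChange

section power

variable {E : Type*} [Field E] [NumberField E]

/-- For `p ≠ q`, every principal unit of level `1` at `q` is a `p ^ K`-th power. -/
theorem rc_ap_exists_root_of_mem_U {p : ℕ} (hp : p.Prime) (q : Nat.Primes) (hpq : p ≠ (q : ℕ))
    (K : ℕ) {w : (id_A E q)ˣ} (hw : w ∈ id_U E q 1) :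
    ∃ w' ∈ id_U E q 1, w' ^ (p ^ K) = w := by
  induction K generalizing w with
  | zero => exact ⟨w, hw, by simp⟩
  | succ K ih =>
    obtain ⟨w₁, hw₁, h1⟩ := io_U_le_pow_of_ne E q hp hpq le_rfl hw
    obtain ⟨w₂, hw₂, h2⟩ := ih hw₁
    refine ⟨w₂, hw₂, ?_⟩
    rw [pow_succ, pow_mul, h2]
    exact h1

/-- An integer `b ≡ 1 mod q` is a `p ^ K`-th power in `(ℚ_[q] ⊗ E)ˣ` (`p ≠ q`). -/
theorem rc_ap_exists_root {p : ℕ} (hp : p.Prime) (q : Nat.Primes) (hpq : p ≠ (q : ℕ)) (K : ℕ)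
    {b : 𝓞 E} (hb : b - 1 ∈ Ideal.span {(((q : ℕ) : ℕ) : 𝓞 E)}) (z : Eˣ)
    (hz : (z : E) = (b : E)) :
    ∃ u : (id_A E q)ˣ, u ^ (p ^ K) = id_inclU E q z := by
  have h1 : id_inclU E q z ∈ id_U E q 1 :=
    io_inclU_mem_U E q le_rfl b z hz (by rwa [pow_one])
  obtain ⟨u, -, hu⟩ := rc_ap_exists_root_of_mem_U hp q hpq K h1
  exact ⟨u, hu⟩

end power

section ccr

variable {E E' M : Type*} [Field E] [NumberField E] [Field E'] [NumberField E'] [Field M]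
  [NumberField M] [Algebra E E'] [Algebra E' M] [Algebra E M] [IsScalarTower E E' M]
  [IsGalois E M] [IsGalois E E'] [IsMulCommutative Gal(E'/E)] [IsMulCommutative Gal(M/E)]

/-- An element which is an `n`-th power semilocally at `q`, `[E' : E] ∣ n`, is a semilocal norm
from `E'`. -/
theorem rc_ap_norm_of_pow (q : ℕ) [hqF : Fact q.Prime] {n : ℕ}
    (hn : Nat.card Gal(E'/E) ∣ n) (x : E) (u : (ℚ_[q] ⊗[ℚ] E)ˣ)
    (hu : (u : ℚ_[q] ⊗[ℚ] E) ^ n = (1 : ℚ_[q]) ⊗ₜ[ℚ] x) :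
    ∃ β : (ℚ_[q] ⊗[ℚ] E')ˣ, rc_cl_normT (E := E) q (β : ℚ_[q] ⊗[ℚ] E') =
      (1 : ℚ_[q]) ⊗ₜ[ℚ] algebraMap E E' x := by
  obtain ⟨c, rfl⟩ := hn
  refine ⟨Units.map (rc_ap_bc (E' := E') q).toMonoidHom (u ^ c), ?_⟩
  change rc_cl_normT (E := E) q (rc_ap_bc (E' := E') q ((u ^ c : (ℚ_[q] ⊗[ℚ] E)ˣ) :
    ℚ_[q] ⊗[ℚ] E)) = _
  rw [rc_ap_normT_bc, ← map_pow, Units.val_pow_eq_pow_val, ← pow_mul, mul_comm c, hu,
    rc_ap_bc_tmul]

/-- CCR for semilocal powers: if `1 ⊗ x` is an `n`-th power in `(ℚ_[q] ⊗ E)ˣ`, `[E' : E] ∣ n`,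
`E' ⊆ E(ζ_{q^j})`, then the symbol of `x` away from `q` is trivial. -/
theorem rc_ap_ccr_of_pow [IsTotallyComplex E] {q j : ℕ} [hqF : Fact q.Prime] (hj : 1 ≤ j)
    [IsCyclotomicExtension {q ^ j} E M] {n : ℕ} (hn : Nat.card Gal(E'/E) ∣ n) (x : Eˣ)
    (u : (ℚ_[q] ⊗[ℚ] E)ˣ) (hu : (u : ℚ_[q] ⊗[ℚ] E) ^ n = (1 : ℚ_[q]) ⊗ₜ[ℚ] (x : E)) :
    rc_ad_symbol E E' (q ^ j) x = 1 := by
  obtain ⟨β, hβ⟩ := rc_ap_norm_of_pow (E' := E') q hn (x : E) u hu
  exact rc_ad_ccr (M := M) hj x β hβ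

end ccr

section approx

variable {E E' M : Type*} [Field E] [NumberField E] [Field E'] [NumberField E'] [Field M]
  [NumberField M] [Algebra E E'] [Algebra E' M] [Algebra E M] [IsScalarTower E E' M]
  [IsGalois E M] [IsGalois E E'] [IsMulCommutative Gal(E'/E)] [IsMulCommutative Gal(M/E)]

/-- `rc_ad_ccr` for a prime conductor. -/
theorem rc_ap_ccr_prime [IsTotallyComplex E] {q : ℕ} [hqF : Fact q.Prime]
    [hcyc : IsCyclotomicExtension {q} E M] (x : Eˣ) (β : (ℚ_[q] ⊗[ℚ] E')ˣ)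
    (hβ : rc_cl_normT (E := E) q (β : ℚ_[q] ⊗[ℚ] E') =
      (1 : ℚ_[q]) ⊗ₜ[ℚ] algebraMap E E' (x : E)) :
    rc_ad_symbol E E' q x = 1 := by
  haveI : IsCyclotomicExtension {q ^ 1} E M := by rwa [pow_one]
  have h := rc_ad_ccr (M := M) (q := q) (j := 1) le_rfl x β hβ
  rwa [pow_one] at h

/-- [APPROX]: `E ⊆ E' ⊆ E(ζ_l)`, `[E' : E] ∣ p ^ K`, `p ≠ l`.  For finitely many primes `v ∈ T`
not above `l` and prescribed orders `n v ≥ 0` there is `b ∈ Eˣ`, integral, `b ≡ 1 mod l`, with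
`ord_v(b) = n v` for `v ∈ T`, which is a semilocal norm at `l` from `E'`; hence (for `E` totally
complex) its symbol away from `l` in `E'/E` is trivial. -/
theorem rc_ap_exists_norm_elt {p K : ℕ} (hp : p.Prime) (l : Nat.Primes) (hpl : p ≠ (l : ℕ))
    (hcard : Nat.card Gal(E'/E) ∣ p ^ K) (T : Finset (HeightOneSpectrum (𝓞 E)))
    (n : HeightOneSpectrum (𝓞 E) → ℕ)
    (hT : ∀ v ∈ T, (((l : ℕ) : ℕ) : 𝓞 E) ∉ v.asIdeal) :
    ∃ b : Eˣ, (∃ b₀ : 𝓞 E, (b : E) = (b₀ : E) ∧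
        b₀ - 1 ∈ Ideal.span {(((l : ℕ) : ℕ) : 𝓞 E)}) ∧
      (∀ v ∈ T, id_ordZ E v b = n v) ∧
      ∃ β : (ℚ_[(l : ℕ)] ⊗[ℚ] E')ˣ, rc_cl_normT (E := E) (l : ℕ) (β : ℚ_[(l : ℕ)] ⊗[ℚ] E') =
        (1 : ℚ_[(l : ℕ)]) ⊗ₜ[ℚ] algebraMap E E' (b : E) := by
  obtain ⟨b₀, hb0, hb1, hbT⟩ := rc_ap_exists T n hT
  have hbE : (b₀ : E) ≠ 0 := by
    rwa [Ne, RingOfIntegers.coe_eq_zero_iff]
  refine ⟨Units.mk0 (b₀ : E) hbE, ⟨b₀, rfl, hb1⟩, ?_, ?_⟩
  · intro v hv
    exact rc_ap_ordZ_eq v (hbT v hv).1 (hbT v hv).2 _ rfl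
  · obtain ⟨u, hu⟩ := rc_ap_exists_root hp l hpl K hb1 (Units.mk0 (b₀ : E) hbE) rfl
    refine rc_ap_norm_of_pow (E' := E') (l : ℕ) hcard (b₀ : E) u ?_
    have := congrArg (fun w : (id_A E l)ˣ => (w : id_A E l)) hu
    simp only [Units.val_pow_eq_pow_val, id_inclU_coe, id_incl_apply] at this
    exact this

/-- [APPROX] with the reciprocity conclusion. -/
theorem rc_ap_exists_norm_elt_symbol [IsTotallyComplex E] {p K : ℕ} (hp : p.Prime)
    (l : Nat.Primes) (hpl : p ≠ (l : ℕ)) [IsCyclotomicExtension {(l : ℕ)} E M]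
    (hcard : Nat.card Gal(E'/E) ∣ p ^ K) (T : Finset (HeightOneSpectrum (𝓞 E)))
    (n : HeightOneSpectrum (𝓞 E) → ℕ)
    (hT : ∀ v ∈ T, (((l : ℕ) : ℕ) : 𝓞 E) ∉ v.asIdeal) :
    ∃ b : Eˣ, (∃ b₀ : 𝓞 E, (b : E) = (b₀ : E) ∧
        b₀ - 1 ∈ Ideal.span {(((l : ℕ) : ℕ) : 𝓞 E)}) ∧
      (∀ v ∈ T, id_ordZ E v b = n v) ∧
      (∃ β : (ℚ_[(l : ℕ)] ⊗[ℚ] E')ˣ, rc_cl_normT (E := E) (l : ℕ) (β : ℚ_[(l : ℕ)] ⊗[ℚ] E') =
        (1 : ℚ_[(l : ℕ)]) ⊗ₜ[ℚ] algebraMap E E' (b : E)) ∧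
      rc_ad_symbol E E' (l : ℕ) b = 1 := by
  obtain ⟨b, h1, h2, β, hβ⟩ := rc_ap_exists_norm_elt (E' := E') hp l hpl hcard T n hT
  exact ⟨b, h1, h2, ⟨β, hβ⟩, rc_ap_ccr_prime (M := M) b β hβ⟩

end approx

end Fermat.Agent.S55
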