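import Mathlib
import Fermat.Agent.S55.Recip.DecompDeg
import Fermat.Agent.S55.Recip.ArtDiv
import Fermat.Agent.S55.Idele.Transition

/-!
# S55 / G4 (C)(i): places `(q, o)` of a layer ↔ primes of its fixed field; `hprod` from the
Artin symbol

`M : Type` a number field (the top field `Ω`, Galois over `E`), `Γ = M ≃ₐ[ℚ] M`,
`𝒢 = rc_dg_sub E M` (the image of `Gal(M/E)`), `P : Q → Ideal (𝓞 M)` a choice of primes such that
every nonzero prime of `𝓞 M` is `Γ`-conjugate to exactly one `P q` (`huniq`, `hcov`),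
`D q = Stab_Γ (P q)`.

* `rc_pd_finprod_sigma` : `∏ᶠ` over a sigma type with finite fibres;
* `rc_pd_below`, `rc_pd_place`, `rc_pd_placeH`, `rc_pd_place_mk` : the prime of `E` attached to the
  place `(q, o)`, `o` a `𝒢`-orbit on `Γ ⧸ D q`;
* `rc_pd_equiv` : `(Σ q, 𝒢 \ Γ / D q) ≃ HeightOneSpectrum (𝓞 E)`; `rc_pd_finprod_places`;
* `rc_pd_x`, `rc_pd_x_finite`, `rc_pd_hprod` : `σ ^ (∑ᶠ q, ∑ᶠ o, x q o) = rc_ad_symbol E E' m s`
  when `Frob_v = σ ^ d_v` and `x = d · ord_v(s)` away from `m` (so `= 1` by `rc_ad_ccr`);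
* `rc_dg_sub_normal`, `rc_dg_quotEquiv` (`𝒢 ⧸ N ≃* Gal(E'/E)`), `rc_dg_map_subgroupOf`;
* `rc_pd_card_inertia` : `|g⁻¹𝒢g ∩ I(w₀)| = e(g w₀ | E)`; `rc_pd_ordZ_conj` :
  `ord_{w₀}(g⁻¹ s) = e(g w₀ | E) · ord_v(s)` (the `c₀` of `rr_term_push_inf_cyc`).
-/

set_option autoImplicit false

open scoped TensorProduct
open NumberField IsDedekindDomain

namespace Fermat.Agent.S55

open Fermat.Agent.S14
open scoped IsMulCommutative Pointwise

set_option linter.style.haveILetI false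
set_option linter.unusedSectionVars false

section sigma

/-- `∏ᶠ` over a sigma type with finite fibres. -/
theorem rc_pd_finprod_sigma {α : Type*} {β : α → Type*} {G : Type*} [CommMonoid G]
    [∀ a, Finite (β a)] (f : (Σ a, β a) → G) (hf : (Function.mulSupport f).Finite) :
    ∏ᶠ x, f x = ∏ᶠ a, ∏ᶠ b, f ⟨a, b⟩ := by
  classical
  haveI : ∀ a, Fintype (β a) := fun a => Fintype.ofFinite (β a)
  set s := hf.toFinset with hs
  set sa := s.image Sigma.fst with hsa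
  have h1 : ∏ᶠ x, f x = ∏ x ∈ s, f x :=
    finprod_eq_prod_of_mulSupport_subset f (by rw [hs, Set.Finite.coe_toFinset])
  have h2 : ∀ a, ∏ᶠ b, f ⟨a, b⟩ = ∏ b, f ⟨a, b⟩ := fun a => finprod_eq_prod_of_fintype _
  have h3 : ∏ᶠ a, ∏ᶠ b, f ⟨a, b⟩ = ∏ a ∈ sa, ∏ b, f ⟨a, b⟩ := by
    simp only [h2]
    apply finprod_eq_prod_of_mulSupport_subset
    intro a ha
    rw [Function.mem_mulSupport] at ha
    obtain ⟨b, -, hb⟩ := Finset.exists_ne_one_of_prod_ne_one ha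
    rw [hsa, Finset.coe_image]
    exact ⟨⟨a, b⟩, by rw [hs, Finset.mem_coe, Set.Finite.mem_toFinset]; exact hb, rfl⟩
  rw [h1, h3, ← Finset.prod_sigma sa (fun _ => Finset.univ) f]
  apply Finset.prod_subset
  · intro x hx
    rw [Finset.mem_sigma]
    exact ⟨Finset.mem_image_of_mem _ hx, Finset.mem_univ _⟩
  · intro x _ hx
    rw [hs, Set.Finite.mem_toFinset, Function.mem_mulSupport, not_not] at hx
    exact hx

end sigma

section places

variable {E : Type*} {M : Type} [Field E] [NumberField E] [Field M] [NumberField M]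
  [Algebra E M] {Q : Type} (P : Q → Ideal (𝓞 M))

/-- the prime of `E` below `g • P q`. -/
def rc_pd_below (E : Type*) {M : Type} [Field E] [NumberField E] [Field M] [NumberField M]
    [Algebra E M] {Q : Type} (P : Q → Ideal (𝓞 M)) (q : Q) (g : M ≃ₐ[ℚ] M) : Ideal (𝓞 E) :=
  (g • P q).under (𝓞 E)

theorem rc_pd_under_smul {h : M ≃ₐ[ℚ] M} (hh : h ∈ rc_dg_sub E M) (R : Ideal (𝓞 M)) :
    (h • R).under (𝓞 E) = R.under (𝓞 E) := by
  ext x
  rw [Ideal.under, Ideal.mem_comap, Ideal.mem_comap, Ideal.mem_pointwise_smul_iff_inv_smul_mem]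
  have hinv : h⁻¹ ∈ rc_dg_sub E M := (rc_dg_sub E M).inv_mem hh
  rw [rc_dg_mem_sub] at hinv
  have : h⁻¹ • (algebraMap (𝓞 E) (𝓞 M) x) = algebraMap (𝓞 E) (𝓞 M) x := by
    apply RingOfIntegers.ext
    exact hinv (x : E)
  rw [this]

theorem rc_pd_below_mul_left (q : Q) {h : M ≃ₐ[ℚ] M} (hh : h ∈ rc_dg_sub E M) (g : M ≃ₐ[ℚ] M) :
    rc_pd_below E P q (h * g) = rc_pd_below E P q g := by
  unfold rc_pd_below
  rw [mul_smul, rc_pd_under_smul hh]

theorem rc_pd_below_mul_right (q : Q) (g : M ≃ₐ[ℚ] M) {d : M ≃ₐ[ℚ] M}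
    (hd : d ∈ MulAction.stabilizer (M ≃ₐ[ℚ] M) (P q)) :
    rc_pd_below E P q (g * d) = rc_pd_below E P q g := by
  unfold rc_pd_below
  rw [mul_smul, MulAction.mem_stabilizer_iff.mp hd]

open MulAction in
/-- the prime of `E` attached to the place `(q, o)`. -/
noncomputable def rc_pd_place (E : Type*) {M : Type} [Field E] [NumberField E] [Field M]
    [NumberField M] [Algebra E M] {Q : Type} (P : Q → Ideal (𝓞 M)) (q : Q)
    (o : orbitRel.Quotient ↥(rc_dg_sub E M)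
      ((M ≃ₐ[ℚ] M) ⧸ MulAction.stabilizer (M ≃ₐ[ℚ] M) (P q))) : Ideal (𝓞 E) :=
  rc_pd_below E P q (rc_rep (MulAction.stabilizer (M ≃ₐ[ℚ] M) (P q)) (rc_dg_sub E M) o)

open MulAction in
theorem rc_pd_place_mk (q : Q) (g : M ≃ₐ[ℚ] M) :
    rc_pd_place E P q (Quotient.mk'' ((g : M ≃ₐ[ℚ] M) :
      (M ≃ₐ[ℚ] M) ⧸ MulAction.stabilizer (M ≃ₐ[ℚ] M) (P q))) = rc_pd_below E P q g := by
  unfold rc_pd_place
  have h := rc_rep_spec (MulAction.stabilizer (M ≃ₐ[ℚ] M) (P q)) (rc_dg_sub E M)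
    (Quotient.mk'' ((g : M ≃ₐ[ℚ] M) :
      (M ≃ₐ[ℚ] M) ⧸ MulAction.stabilizer (M ≃ₐ[ℚ] M) (P q)))
  obtain ⟨h', hh', d, hd⟩ := rc_exists_of_orbit_eq _ _ h
  rw [hd, rc_pd_below_mul_right P q _ d.2, rc_pd_below_mul_left P q hh']

end places

section bij

variable {E : Type*} {M : Type} [Field E] [NumberField E] [Field M] [NumberField M]
  [Algebra E M] {Q : Type} (P : Q → Ideal (𝓞 M))
  (hP : ∀ q, (P q).IsPrime) (hP0 : ∀ q, P q ≠ ⊥)

include hP in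
theorem rc_pd_below_isPrime (q : Q) (g : M ≃ₐ[ℚ] M) : (rc_pd_below E P q g).IsPrime := by
  haveI := hP q
  haveI : (g • P q).IsPrime := Ideal.IsPrime.smul g
  exact Ideal.IsPrime.under (𝓞 E) (g • P q)

include hP0 in
theorem rc_pd_below_ne_bot (q : Q) (g : M ≃ₐ[ℚ] M) : rc_pd_below E P q g ≠ ⊥ :=
  Ideal.under_ne_bot (𝓞 E) (id_smul_ne_bot M g (hP0 q))

open MulAction in
/-- the place `(q, o)` as a height one prime of `𝓞 E`. -/
noncomputable def rc_pd_placeH (q : Q)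
    (o : orbitRel.Quotient ↥(rc_dg_sub E M)
      ((M ≃ₐ[ℚ] M) ⧸ MulAction.stabilizer (M ≃ₐ[ℚ] M) (P q))) : HeightOneSpectrum (𝓞 E) :=
  ⟨rc_pd_place E P q o, rc_pd_below_isPrime P hP q _, rc_pd_below_ne_bot P hP0 q _⟩

open MulAction in
theorem rc_pd_placeH_asIdeal (q : Q)
    (o : orbitRel.Quotient ↥(rc_dg_sub E M)
      ((M ≃ₐ[ℚ] M) ⧸ MulAction.stabilizer (M ≃ₐ[ℚ] M) (P q))) :
    (rc_pd_placeH P hP hP0 q o).asIdeal = rc_pd_place E P q o := rfl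

variable [IsGalois E M]

open MulAction in
theorem rc_pd_placeH_injective (huniq : ∀ q q' (g : M ≃ₐ[ℚ] M), g • P q = P q' → q = q') :
    Function.Injective (fun x : Σ q, orbitRel.Quotient ↥(rc_dg_sub E M)
      ((M ≃ₐ[ℚ] M) ⧸ MulAction.stabilizer (M ≃ₐ[ℚ] M) (P q)) =>
      rc_pd_placeH P hP hP0 x.1 x.2) := by
  rintro ⟨q, o⟩ ⟨q', o'⟩ hxy
  have hxy' : rc_pd_place E P q o = rc_pd_place E P q' o' :=
    congrArg HeightOneSpectrum.asIdeal hxy
  set g := rc_rep (MulAction.stabilizer (M ≃ₐ[ℚ] M) (P q)) (rc_dg_sub E M) o with hg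
  set g' := rc_rep (MulAction.stabilizer (M ≃ₐ[ℚ] M) (P q')) (rc_dg_sub E M) o' with hg'
  have ho : (Quotient.mk'' ((g : M ≃ₐ[ℚ] M) :
      (M ≃ₐ[ℚ] M) ⧸ MulAction.stabilizer (M ≃ₐ[ℚ] M) (P q)) : orbitRel.Quotient _ _) = o :=
    rc_rep_spec _ _ o
  have ho' : (Quotient.mk'' ((g' : M ≃ₐ[ℚ] M) :
      (M ≃ₐ[ℚ] M) ⧸ MulAction.stabilizer (M ≃ₐ[ℚ] M) (P q')) : orbitRel.Quotient _ _) = o' :=
    rc_rep_spec _ _ o'
  -- the two primes of `M`
  haveI := hP q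
  haveI := hP q'
  haveI hR : (g • P q).IsPrime := Ideal.IsPrime.smul g
  haveI hR' : (g' • P q').IsPrime := Ideal.IsPrime.smul g'
  have hv : (g • P q).under (𝓞 E) = (g' • P q').under (𝓞 E) := hxy'
  haveI : ((g • P q).under (𝓞 E)).IsPrime := Ideal.IsPrime.under (𝓞 E) _
  haveI : (g • P q).LiesOver ((g • P q).under (𝓞 E)) := ⟨rfl⟩
  haveI : (g' • P q').LiesOver ((g • P q).under (𝓞 E)) := ⟨hv⟩
  obtain ⟨τ, hτ⟩ := Ideal.exists_smul_eq_of_isGaloisGroup ((g • P q).under (𝓞 E))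
    (g • P q) (g' • P q') Gal(M/E)
  set h : M ≃ₐ[ℚ] M := AlgEquiv.restrictScalarsHom ℚ τ with hh
  have hh𝒢 : h ∈ rc_dg_sub E M := ⟨τ, rfl⟩
  have hτ' : h • (g • P q) = g' • P q' := by rw [hh, rc_dg_restrict_smul]; exact hτ
  have hconj : (g'⁻¹ * h * g) • P q = P q' := by
    rw [mul_smul, mul_smul, hτ', inv_smul_smul]
  have hqq : q = q' := huniq q q' _ hconj
  subst hqq
  congr 1
  rw [← ho, ← ho']
  apply Quotient.sound'
  rw [orbitRel_apply]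
  refine ⟨⟨h⁻¹, (rc_dg_sub E M).inv_mem hh𝒢⟩, ?_⟩
  change ((h⁻¹ * g' : M ≃ₐ[ℚ] M) : (M ≃ₐ[ℚ] M) ⧸ MulAction.stabilizer (M ≃ₐ[ℚ] M) (P q)) = _
  rw [QuotientGroup.eq]
  refine MulAction.mem_stabilizer_iff.mpr ?_
  have : (h⁻¹ * g')⁻¹ * g = g'⁻¹ * h * g := by group
  rw [this]
  exact hconj

open MulAction in
theorem rc_pd_placeH_surjective
    (hcov : ∀ R : Ideal (𝓞 M), R.IsPrime → R ≠ ⊥ → ∃ q, ∃ g : M ≃ₐ[ℚ] M, g • P q = R) :
    Function.Surjective (fun x : Σ q, orbitRel.Quotient ↥(rc_dg_sub E M)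
      ((M ≃ₐ[ℚ] M) ⧸ MulAction.stabilizer (M ≃ₐ[ℚ] M) (P q)) =>
      rc_pd_placeH P hP hP0 x.1 x.2) := by
  intro v
  obtain ⟨R, hR, hRv, hR0⟩ := am_exists_prime_over M v.asIdeal v.ne_bot
  obtain ⟨q, g, hg⟩ := hcov R hR hR0
  refine ⟨⟨q, Quotient.mk'' ((g : M ≃ₐ[ℚ] M) :
      (M ≃ₐ[ℚ] M) ⧸ MulAction.stabilizer (M ≃ₐ[ℚ] M) (P q))⟩, ?_⟩
  apply HeightOneSpectrum.ext
  change rc_pd_place E P q _ = v.asIdeal
  rw [rc_pd_place_mk]
  unfold rc_pd_below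
  rw [hg]
  exact (hRv.over).symm

end bij

theorem rc_pd_zpow_finsum {G α : Type*} [CommGroup G] (σ : G) (x : α → ℤ)
    (hx : (Function.support x).Finite) : σ ^ (∑ᶠ a, x a) = ∏ᶠ a, σ ^ (x a) := by
  classical
  rw [finsum_eq_sum_of_support_subset x (s := hx.toFinset) (by rw [Set.Finite.coe_toFinset]),
    finprod_eq_prod_of_mulSupport_subset (fun a => σ ^ x a) (s := hx.toFinset)]
  · induction hx.toFinset using Finset.induction_on with
    | empty => simp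
    | insert a s ha ih => rw [Finset.sum_insert ha, Finset.prod_insert ha, zpow_add, ih]
  · intro a ha
    rw [Function.mem_mulSupport] at ha
    rw [Set.Finite.coe_toFinset, Function.mem_support]
    intro h0
    apply ha
    rw [h0, zpow_zero]

section hprod

variable {E : Type*} {M : Type} [Field E] [NumberField E] [Field M] [NumberField M]
  [Algebra E M] [IsGalois E M]
  {Q : Type} (P : Q → Ideal (𝓞 M)) (hP : ∀ q, (P q).IsPrime) (hP0 : ∀ q, P q ≠ ⊥)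
  (huniq : ∀ q q' (g : M ≃ₐ[ℚ] M), g • P q = P q' → q = q')
  (hcov : ∀ R : Ideal (𝓞 M), R.IsPrime → R ≠ ⊥ → ∃ q, ∃ g : M ≃ₐ[ℚ] M, g • P q = R)

open MulAction in
/-- **Places `(q, o)` of the layer `rc_dg_sub E M` are the primes of `E`.** -/
noncomputable def rc_pd_equiv :
    (Σ q, orbitRel.Quotient ↥(rc_dg_sub E M)
      ((M ≃ₐ[ℚ] M) ⧸ MulAction.stabilizer (M ≃ₐ[ℚ] M) (P q))) ≃ HeightOneSpectrum (𝓞 E) :=
  Equiv.ofBijective _ ⟨rc_pd_placeH_injective P hP hP0 huniq, rc_pd_placeH_surjective P hP hP0 hcov⟩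

open MulAction in
theorem rc_pd_equiv_apply (q : Q) (o : orbitRel.Quotient ↥(rc_dg_sub E M)
      ((M ≃ₐ[ℚ] M) ⧸ MulAction.stabilizer (M ≃ₐ[ℚ] M) (P q))) :
    rc_pd_equiv P hP hP0 huniq hcov ⟨q, o⟩ = rc_pd_placeH P hP hP0 q o := rfl

open MulAction in
instance rc_pd_finite_orbits (q : Q) : Finite (orbitRel.Quotient ↥(rc_dg_sub E M)
    ((M ≃ₐ[ℚ] M) ⧸ MulAction.stabilizer (M ≃ₐ[ℚ] M) (P q))) :=
  Quotient.finite _

include huniq hcov in
open MulAction in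
/-- reindexing a product over the primes of `E` as a double product over the places. -/
theorem rc_pd_finprod_places {G : Type*} [CommMonoid G] (F : HeightOneSpectrum (𝓞 E) → G)
    (hF : (Function.mulSupport F).Finite) :
    ∏ᶠ q, ∏ᶠ o, F (rc_pd_placeH P hP hP0 q o) = ∏ᶠ v, F v := by
  rw [← finprod_comp_equiv (rc_pd_equiv P hP hP0 huniq hcov)]
  rw [rc_pd_finprod_sigma (fun x => F (rc_pd_equiv P hP hP0 huniq hcov x))]
  · rfl
  · exact hF.preimage (Set.injOn_of_injective (rc_pd_equiv P hP hP0 huniq hcov).injective)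

end hprod

section hprod2

variable {E E' : Type*} {M : Type} [Field E] [NumberField E] [Field E'] [NumberField E']
  [Field M] [NumberField M] [Algebra E E'] [IsGalois E E'] [IsMulCommutative Gal(E'/E)]
  [Algebra E M] [IsGalois E M]
  {Q : Type} (P : Q → Ideal (𝓞 M)) (hP : ∀ q, (P q).IsPrime) (hP0 : ∀ q, P q ≠ ⊥)
  (huniq : ∀ q q' (g : M ≃ₐ[ℚ] M), g • P q = P q' → q = q')
  (hcov : ∀ R : Ideal (𝓞 M), R.IsPrime → R ≠ ⊥ → ∃ q, ∃ g : M ≃ₐ[ℚ] M, g • P q = R)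

open MulAction Classical in
/-- the numerators `x_{q,o} = d_{q,o} · ord_v(s)` of the local terms (`0` over the modulus). -/
noncomputable def rc_pd_x (m : ℕ) (s : Eˣ)
    (d : ∀ q, orbitRel.Quotient ↥(rc_dg_sub E M)
      ((M ≃ₐ[ℚ] M) ⧸ MulAction.stabilizer (M ≃ₐ[ℚ] M) (P q)) → ℤ) (q : Q)
    (o : orbitRel.Quotient ↥(rc_dg_sub E M)
      ((M ≃ₐ[ℚ] M) ⧸ MulAction.stabilizer (M ≃ₐ[ℚ] M) (P q))) : ℤ :=
  if (m : 𝓞 E) ∈ rc_pd_place E P q o then 0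
  else d q o * id_ordZ E (rc_pd_placeH P hP hP0 q o) s

include huniq in
open MulAction in
theorem rc_pd_x_finite (m : ℕ) (s : Eˣ)
    (d : ∀ q, orbitRel.Quotient ↥(rc_dg_sub E M)
      ((M ≃ₐ[ℚ] M) ⧸ MulAction.stabilizer (M ≃ₐ[ℚ] M) (P q)) → ℤ) :
    {q : Q | ∃ o, rc_pd_x P hP hP0 m s d q o ≠ 0}.Finite := by
  have hfin := id_finite_ordZ_ne_zero E s
  have h1 : {x : Σ q, orbitRel.Quotient ↥(rc_dg_sub E M)
      ((M ≃ₐ[ℚ] M) ⧸ MulAction.stabilizer (M ≃ₐ[ℚ] M) (P q)) |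
      id_ordZ E (rc_pd_placeH P hP hP0 x.1 x.2) s ≠ 0}.Finite :=
    hfin.preimage (Set.injOn_of_injective (rc_pd_placeH_injective P hP hP0 huniq))
  refine (h1.image Sigma.fst).subset ?_
  rintro q ⟨o, ho⟩
  refine ⟨⟨q, o⟩, ?_, rfl⟩
  intro h0
  apply ho
  unfold rc_pd_x
  split_ifs
  · rfl
  · rw [h0, mul_zero]

include huniq hcov in
open MulAction in
/-- **`hprod` from the Artin symbol**: if `Frob_v = σ ^ d_v` at the places not over `m`, then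
`σ ^ (∑ x_{q,o}) = rc_ad_symbol E E' m s`. -/
theorem rc_pd_hprod (m : ℕ) (s : Eˣ) (σ : Gal(E'/E))
    (d : ∀ q, orbitRel.Quotient ↥(rc_dg_sub E M)
      ((M ≃ₐ[ℚ] M) ⧸ MulAction.stabilizer (M ≃ₐ[ℚ] M) (P q)) → ℤ)
    (hd : ∀ q o, (m : 𝓞 E) ∉ rc_pd_place E P q o →
      am_frob E E' (rc_pd_place E P q o) = σ ^ d q o) :
    σ ^ (∑ᶠ q, ∑ᶠ o, rc_pd_x P hP hP0 m s d q o) = rc_ad_symbol E E' m s := by
  have hfinq := rc_pd_x_finite P hP hP0 huniq m s d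
  rw [rc_pd_zpow_finsum]
  · have h1 : ∀ q, σ ^ (∑ᶠ o, rc_pd_x P hP hP0 m s d q o) =
        ∏ᶠ o, rc_ad_factor E E' m s (rc_pd_placeH P hP hP0 q o) := by
      intro q
      rw [rc_pd_zpow_finsum _ _ (Set.toFinite _)]
      apply finprod_congr
      intro o
      unfold rc_pd_x rc_ad_factor
      rw [rc_pd_placeH_asIdeal]
      split_ifs with hm
      · rw [zpow_zero]
      · rw [hd q o hm, zpow_mul]
    simp only [h1]
    unfold rc_ad_symbol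
    exact rc_pd_finprod_places P hP hP0 huniq hcov _ (rc_ad_mulSupport_factor m s)
  · refine hfinq.subset ?_
    intro q hq
    rw [Function.mem_support] at hq
    by_contra hne
    apply hq
    have : ∀ o, rc_pd_x P hP hP0 m s d q o = 0 := by
      intro o
      by_contra h
      exact hne ⟨o, h⟩
    simp only [this, finsum_zero]

end hprod2

section quot

variable {E E' M : Type*} [Field E] [NumberField E] [Field E'] [NumberField E'] [Field M]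
  [NumberField M] [Algebra E E'] [Algebra E' M] [Algebra E M] [IsScalarTower E E' M]

instance rc_dg_sub_normal [Normal E E'] :
    ((rc_dg_sub E' M).subgroupOf (rc_dg_sub E M)).Normal := by
  rw [← rc_dg_resHom_ker (E := E) (E' := E') (M := M)]
  infer_instance

/-- `𝒢 ⧸ N ≃* Gal(E'/E)` for `𝒢 = rc_dg_sub E M`, `N = rc_dg_sub E' M`. -/
noncomputable def rc_dg_quotEquiv (E E' M : Type*) [Field E] [NumberField E] [Field E']
    [NumberField E'] [Field M] [NumberField M] [Algebra E E'] [Algebra E' M] [Algebra E M]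
    [IsScalarTower E E' M] [Normal E E'] [Normal E M] :
    ↥(rc_dg_sub E M) ⧸ ((rc_dg_sub E' M).subgroupOf (rc_dg_sub E M)) ≃* Gal(E'/E) :=
  (QuotientGroup.quotientMulEquivOfEq (rc_dg_resHom_ker (E := E) (E' := E') (M := M)).symm).trans
    (QuotientGroup.quotientKerEquivOfSurjective (rc_dg_resHom E E' M) rc_dg_resHom_surjective)

theorem rc_dg_quotEquiv_mk [Normal E E'] [Normal E M] (τ : ↥(rc_dg_sub E M)) :
    rc_dg_quotEquiv E E' M
      (τ : ↥(rc_dg_sub E M) ⧸ ((rc_dg_sub E' M).subgroupOf (rc_dg_sub E M))) =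
      rc_dg_resHom E E' M τ := rfl

theorem rc_dg_map_subgroupOf :
    ((rc_dg_sub E' M).subgroupOf (rc_dg_sub E M)).map (rc_dg_sub E M).subtype =
      rc_dg_sub E' M := by
  rw [Subgroup.subgroupOf_map_subtype, inf_eq_left]
  exact rc_dg_sub_le

end quot

section inertia

/-- generic: `(I ∩ D) ∩ (H ∩ D)` inside `D`, for `I ≤ D`. -/
theorem rc_pd_card_subgroupOf_subgroupOf {Γ : Type*} [Group Γ] (I D H : Subgroup Γ)
    (hID : I ≤ D) :
    Nat.card ↥((I.subgroupOf D).subgroupOf (H.subgroupOf D)) = Nat.card ↥(H ⊓ I) := by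
  refine Nat.card_congr ⟨fun x => ⟨((x : ↥(H.subgroupOf D)) : ↥D), ?_, ?_⟩,
    fun y => ⟨⟨⟨(y : Γ), hID y.2.2⟩, ?_⟩, ?_⟩, ?_, ?_⟩
  · have := (x : ↥(H.subgroupOf D)).2
    rwa [Subgroup.mem_subgroupOf] at this
  · have := x.2
    rwa [Subgroup.mem_subgroupOf, Subgroup.mem_subgroupOf] at this
  · rw [Subgroup.mem_subgroupOf]
    exact y.2.1
  · rw [Subgroup.mem_subgroupOf, Subgroup.mem_subgroupOf]
    exact y.2.2
  · intro x
    rfl
  · intro y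
    rfl

variable {E M : Type} [Field E] [NumberField E] [Field M] [NumberField M] [Algebra E M]
  [IsGalois E M]

theorem rc_pd_mem_inertia_smul_iff (Q₀ : Ideal (𝓞 M)) (g h : M ≃ₐ[ℚ] M) :
    g * h * g⁻¹ ∈ (g • Q₀).inertia (M ≃ₐ[ℚ] M) ↔ h ∈ Q₀.inertia (M ≃ₐ[ℚ] M) := by
  constructor
  · intro hh x
    have h1 : (g * h * g⁻¹) • g • x - g • x ∈ g • Q₀ := hh (g • x)
    rw [Ideal.mem_pointwise_smul_iff_inv_smul_mem, smul_sub, mul_smul, mul_smul, inv_smul_smul,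
      inv_smul_smul] at h1
    exact h1
  · intro hh y
    have h1 : h • g⁻¹ • y - g⁻¹ • y ∈ Q₀ := hh (g⁻¹ • y)
    change (g * h * g⁻¹) • y - y ∈ g • Q₀
    rw [Ideal.mem_pointwise_smul_iff_inv_smul_mem, smul_sub, mul_smul, mul_smul, inv_smul_smul]
    exact h1

theorem rc_pd_mem_inertia_restrict (σ : M ≃ₐ[E] M) (R : Ideal (𝓞 M)) :
    (AlgEquiv.restrictScalarsHom ℚ σ : M ≃ₐ[ℚ] M) ∈ R.inertia (M ≃ₐ[ℚ] M) ↔
      σ ∈ R.inertia (M ≃ₐ[E] M) := Iff.rfl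

/-- `|g⁻¹𝒢g ∩ I(Q₀)| = e(g Q₀ | E)`. -/
theorem rc_pd_card_inertia (w₀ : HeightOneSpectrum (𝓞 M)) (g : M ≃ₐ[ℚ] M) :
    Nat.card ↥(rc_conj g (rc_dg_sub E M) ⊓ w₀.asIdeal.inertia (M ≃ₐ[ℚ] M)) =
      id_e E M (g • w₀) := by
  haveI : (g • w₀.asIdeal).IsPrime := Ideal.IsPrime.smul g
  -- conjugate
  have h1 : Nat.card ↥(rc_conj g (rc_dg_sub E M) ⊓ w₀.asIdeal.inertia (M ≃ₐ[ℚ] M)) =
      Nat.card ↥(rc_dg_sub E M ⊓ (g • w₀.asIdeal).inertia (M ≃ₐ[ℚ] M)) := by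
    refine Nat.card_congr ⟨fun x => ⟨g * (x : M ≃ₐ[ℚ] M) * g⁻¹, x.2.1,
      (rc_pd_mem_inertia_smul_iff _ g _).mpr x.2.2⟩,
      fun y => ⟨g⁻¹ * (y : M ≃ₐ[ℚ] M) * g, ?_, ?_⟩, ?_, ?_⟩
    · refine rc_mem_conj.mpr ?_
      have := y.2.1
      simpa [mul_assoc] using this
    · refine (rc_pd_mem_inertia_smul_iff _ g _).mp ?_
      have := y.2.2
      simpa [mul_assoc] using this
    · intro x
      ext
      simp [mul_assoc]
    · intro y
      ext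
      simp [mul_assoc]
  -- descend to `Gal(M/E)`
  have h2 : rc_dg_sub E M ⊓ (g • w₀.asIdeal).inertia (M ≃ₐ[ℚ] M) =
      ((g • w₀.asIdeal).inertia (M ≃ₐ[E] M)).map
        (AlgEquiv.restrictScalarsHom ℚ : (M ≃ₐ[E] M) →* (M ≃ₐ[ℚ] M)) := by
    ext τ
    simp only [Subgroup.mem_inf, Subgroup.mem_map, rc_dg_sub, MonoidHom.mem_range]
    constructor
    · rintro ⟨⟨σ, rfl⟩, h2⟩
      exact ⟨σ, (rc_pd_mem_inertia_restrict σ _).mp h2, rfl⟩
    · rintro ⟨σ, h1, rfl⟩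
      exact ⟨⟨σ, rfl⟩, (rc_pd_mem_inertia_restrict σ _).mpr h1⟩
  rw [h1, h2, Nat.card_congr (((g • w₀.asIdeal).inertia (M ≃ₐ[E] M)).equivMapOfInjective _
      (AlgEquiv.restrictScalarsHom_injective ℚ)).symm.toEquiv]
  haveI : ((g • w₀.asIdeal).under (𝓞 E)).IsPrime := Ideal.IsPrime.under (𝓞 E) _
  haveI : (g • w₀.asIdeal).LiesOver ((g • w₀.asIdeal).under (𝓞 E)) := ⟨rfl⟩
  rw [Ideal.card_inertia_eq_ramificationIdxIn (G := Gal(M/E)) ((g • w₀.asIdeal).under (𝓞 E))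
      (g • w₀.asIdeal),
    Ideal.ramificationIdxIn_eq_ramificationIdx ((g • w₀.asIdeal).under (𝓞 E)) (g • w₀.asIdeal)
      Gal(M/E)]
  unfold id_e
  rw [Ideal.ramificationIdx'_eq_ramificationIdx _ _ (id_under E M (g • w₀)).ne_bot]
  rfl

end inertia

section ordconj

variable {E M : Type} [Field E] [NumberField E] [Field M] [NumberField M] [Algebra E M]

/-- the `c₀` of `rr_term_push_inf_cyc`: the order at the chosen prime `w₀` of `g⁻¹ s`
(`s ∈ Eˣ`) is `e(g w₀ | E) · ord_v(s)`, `v = g w₀ ∩ E`. -/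
theorem rc_pd_ordZ_conj (w₀ : HeightOneSpectrum (𝓞 M)) (g : M ≃ₐ[ℚ] M) (s : Eˣ) :
    id_ordZ M w₀ (g⁻¹ • id_unitsMap E M s) =
      (id_e E M (g • w₀) : ℤ) * id_ordZ E (id_under E M (g • w₀)) s := by
  rw [← id_ordZ_map E M (g • w₀) s]
  have h := id_ordZ_smul M g w₀ (g⁻¹ • id_unitsMap E M s)
  rw [smul_inv_smul] at h
  exact h.symm

end ordconj

section under

variable {E M : Type} [Field E] [NumberField E] [Field M] [NumberField M] [Algebra E M]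
  {Q : Type} (w : Q → HeightOneSpectrum (𝓞 M))

open MulAction in
/-- for a choice of height one primes `w q`, the place of `(q, [g])` is the prime below
`g • w q`. -/
theorem rc_pd_placeH_eq_under (q : Q) (g : M ≃ₐ[ℚ] M) :
    rc_pd_placeH (E := E) (fun q => (w q).asIdeal) (fun q => (w q).isPrime)
      (fun q => (w q).ne_bot) q (Quotient.mk'' ((g : M ≃ₐ[ℚ] M) :
        (M ≃ₐ[ℚ] M) ⧸ MulAction.stabilizer (M ≃ₐ[ℚ] M) (w q).asIdeal)) =
      id_under E M (g • w q) := by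
  apply HeightOneSpectrum.ext
  change rc_pd_place E (fun q => (w q).asIdeal) q _ = _
  rw [rc_pd_place_mk]
  rfl

end under

end Fermat.Agent.S55
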