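import Fermat.Agent.S55.Recip.Reciprocity
import Fermat.Agent.S55.Recip.DecompDeg
import Fermat.Agent.S55.Recip.ArtDiv
import Fermat.Agent.S55.Idele.Descent

/-!
# S55 / G4 (C)(ii): the semi-local norm of the reciprocity chase in the tensor model (prefix `rc_sn_`)

`M` the top field (`Ω`), `Γ = M ≃ₐ[ℚ] M`, `E ⊆ E' ⊆ M` number fields with `E'/E` Galois,
`𝒢 ≤ Γ` the layer of `E`, `N ⊴ 𝒢` the layer of `E'`, `ρ : 𝒢 → Gal(E'/E)` the restriction
(surjective with kernel `N`), `σ` a generator of `𝒢 ⧸ N` of order `n`.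

* `rc_sn_exists_elt` : the cyclic sum `cy_repSum f` of a `2`-cocycle of `𝒢 ⧸ N` with values in
  `(Mˣ)^N` is the image of an element `x ∈ Eˣ`;
* `rc_sn_exists_beta` : if `b ∈ ((ℚ_q ⊗ M)ˣ)^N` has `cy_repNorm b = 1 ⊗ x` then there is
  `β ∈ (ℚ_q ⊗ E')ˣ` with `rc_cl_normT β = 1 ⊗ x` (the hypothesis `hβ` of `rc_cl_ccr`/`rc_ad_ccr`);
* `rc_sn_of_hnorm` : both together, from the hypothesis `hnorm` of `rr_cyc_recip`;
* `rc_sn_symbol_eq_one` : hence `rc_ad_symbol E E' (q ^ j) x = 1`;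
* the instance `𝒢 = rc_dg_sub E M`, `N = (rc_dg_sub E' M).subgroupOf 𝒢`, `ρ = rc_dg_resHom`.
-/

set_option autoImplicit false

open scoped TensorProduct
open NumberField

namespace Fermat.Agent.S55

open Fermat.Agent.S14 groupCohomology

set_option linter.unusedSectionVars false

section generic

variable {E E' M : Type} [Field E] [NumberField E] [Field E'] [NumberField E'] [Field M]
  [NumberField M] [Algebra E E'] [Algebra E' M] [Algebra E M] [IsScalarTower E E' M]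
  [IsGalois E E']

variable (q : Nat.Primes) (𝒢 : Subgroup (M ≃ₐ[ℚ] M)) (N : Subgroup ↥𝒢) [N.Normal]

/-- the action of `g ∈ 𝒢` on the image of `ℚ_q ⊗ E'` is through its restriction `ρ g`. -/
theorem rc_sn_smul_AmapU (ρ : ↥𝒢 →* (E' ≃ₐ[E] E'))
    (hρ : ∀ (g : ↥𝒢) (x : E'), algebraMap E' M (ρ g x) = (g : M ≃ₐ[ℚ] M) (algebraMap E' M x))
    (g : ↥𝒢) (β : (id_A E' q)ˣ) :
    (g : M ≃ₐ[ℚ] M) • id_AmapU E' M q β =
      id_AmapU E' M q (((ρ g).restrictScalars ℚ : E' ≃ₐ[ℚ] E') • β) := by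
  apply Units.ext
  rw [ga_coe_smul_units]
  change (g : M ≃ₐ[ℚ] M) • id_Amap E' M q (β : id_A E' q) =
    id_Amap E' M q ((((ρ g).restrictScalars ℚ : E' ≃ₐ[ℚ] E') • β : (id_A E' q)ˣ) : id_A E' q)
  rw [ga_coe_smul_units]
  exact (id_Amap_smul E' M q ((ρ g).restrictScalars ℚ) (g : M ≃ₐ[ℚ] M)
    (fun x => (hρ g x).symm) (β : id_A E' q)).symm

/-- `i ↦ τ ^ i`, `i < n`, enumerates a finite cyclic group of order `n` exactly once. -/
theorem rc_sn_prod_range_pow {G : Type*} [Group G] [Fintype G] {τ : G} {n : ℕ}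
    (ho : orderOf τ = n) (hgen : ∀ g : G, g ∈ Subgroup.zpowers τ)
    {β : Type*} [CommMonoid β] (F : G → β) :
    ∏ i ∈ Finset.range n, F (τ ^ i) = ∏ g : G, F g := by
  classical
  have himg : (Finset.range n).image (fun i => τ ^ i) = Finset.univ := by
    rw [← ho]
    ext g
    simp only [Finset.mem_image, Finset.mem_range, Finset.mem_univ, iff_true]
    have h := hgen g
    rw [← mem_powers_iff_mem_zpowers, Submonoid.mem_powers_iff] at h
    obtain ⟨k, rfl⟩ := h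
    exact ⟨k % orderOf τ, Nat.mod_lt _ (orderOf_pos τ), pow_mod_orderOf τ k⟩
  rw [← himg, Finset.prod_image]
  intro i hi j hj h
  rw [← ho] at hi hj
  exact pow_injOn_Iio_orderOf (by simpa using hi) (by simpa using hj) h

/-- the isomorphism `𝒢 ⧸ N ≃ Gal(E'/E)` transports generators. -/
theorem rc_sn_generator {G Q : Type*} [Group G] [Group Q] (N : Subgroup G) [N.Normal]
    (ρ : G →* Q) (hρs : Function.Surjective ρ) (hker : ρ.ker = N) (g₀ : G) {n : ℕ}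
    (ho : orderOf (g₀ : G ⧸ N) = n) (hgen : ∀ g : G ⧸ N, g ∈ Subgroup.zpowers (g₀ : G ⧸ N)) :
    orderOf (ρ g₀) = n ∧ ∀ t : Q, t ∈ Subgroup.zpowers (ρ g₀) := by
  have hle : N ≤ ρ.ker := hker.ge
  set φ : G ⧸ N →* Q := QuotientGroup.lift N ρ hle with hφ
  have hφmk : ∀ g : G, φ (g : G ⧸ N) = ρ g := fun g => rfl
  have hinj : Function.Injective φ := by
    rw [injective_iff_map_eq_one]
    intro x hx
    induction x using QuotientGroup.induction_on with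
    | H g =>
      rw [hφmk] at hx
      have : g ∈ N := by rw [← hker]; exact hx
      exact (QuotientGroup.eq_one_iff g).2 this
  refine ⟨?_, fun t => ?_⟩
  · rw [← hφmk, orderOf_injective φ hinj, ho]
  · obtain ⟨g, rfl⟩ := hρs t
    obtain ⟨k, hk⟩ := Subgroup.mem_zpowers_iff.1 (hgen (g : G ⧸ N))
    refine Subgroup.mem_zpowers_iff.2 ⟨k, ?_⟩
    rw [← hφmk, ← hφmk, ← map_zpow, hk]

variable {q 𝒢 N}

/-- **Descent of the semi-local norm.** If `b ∈ ((ℚ_q ⊗ M)ˣ)^N` has cyclic norm `1 ⊗ x`,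
`x ∈ Eˣ`, then `1 ⊗ x` is a norm from `(ℚ_q ⊗ E')ˣ` in the sense of `rc_cl_normT`. -/
theorem rc_sn_exists_beta (ρ : ↥𝒢 →* (E' ≃ₐ[E] E'))
    (hρ : ∀ (g : ↥𝒢) (x : E'), algebraMap E' M (ρ g x) = (g : M ≃ₐ[ℚ] M) (algebraMap E' M x))
    (hρs : Function.Surjective ρ) (hker : ρ.ker = N)
    (hN : id_IsGal E' M (rr_up 𝒢 N))
    {σ : ↥𝒢 ⧸ N} {n : ℕ} (ho : orderOf σ = n) (hgen : ∀ g : ↥𝒢 ⧸ N, g ∈ Subgroup.zpowers σ)
    (b : ((tt_res 𝒢 (id_ARep M q)).quotientToInvariants N).V) (x : Eˣ)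
    (hb : ((cy_repNorm ((tt_res 𝒢 (id_ARep M q)).quotientToInvariants N) σ n b :
        ((tt_res 𝒢 (id_ARep M q)).quotientToInvariants N).V) : (id_ARep M q).V) =
      Additive.ofMul (id_inclU M q (id_unitsMap E M x))) :
    ∃ β : (id_A E' q)ˣ, rc_cl_normT (E := E) (q : ℕ) (β : id_A E' q) =
      (1 : ℚ_[(q : ℕ)]) ⊗ₜ[ℚ] algebraMap E E' (x : E) := by
  classical
  obtain ⟨g₀, rfl⟩ := QuotientGroup.mk_surjective σ
  -- descent of `b`
  set u : (id_A M q)ˣ := Additive.toMul (b : (id_ARep M q).V) with hu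
  have hinv : ∀ τ ∈ rr_up 𝒢 N, τ • u = u := by
    rintro _ ⟨ν, hν, rfl⟩
    have := b.2 ⟨ν, hν⟩
    exact congrArg Additive.toMul this
  obtain ⟨β, hβ⟩ := hN.AmapU_range q u hinv
  refine ⟨β, ?_⟩
  obtain ⟨hoτ, hgenτ⟩ := rc_sn_generator N ρ hρs hker g₀ ho hgen
  -- the cyclic norm of `b`
  have h1 : ((cy_repNorm ((tt_res 𝒢 (id_ARep M q)).quotientToInvariants N)
      ((g₀ : ↥𝒢) : ↥𝒢 ⧸ N) n b : ((tt_res 𝒢 (id_ARep M q)).quotientToInvariants N).V) :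
      (id_ARep M q).V) =
      Additive.ofMul (∏ i ∈ Finset.range n, (((g₀ ^ i : ↥𝒢) : M ≃ₐ[ℚ] M) • u)) := by
    rw [cy_repNorm_apply, Submodule.coe_sum, ofMul_prod]
    refine Finset.sum_congr rfl fun i _ => ?_
    rfl
  have h2 : ∏ i ∈ Finset.range n, (((g₀ ^ i : ↥𝒢) : M ≃ₐ[ℚ] M) • u) =
      id_AmapU E' M q (∏ t : E' ≃ₐ[E] E', ((t.restrictScalars ℚ : E' ≃ₐ[ℚ] E') • β)) := by
    rw [← rc_sn_prod_range_pow hoτ hgenτ (fun t => ((t.restrictScalars ℚ : E' ≃ₐ[ℚ] E') • β)),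
      map_prod]
    refine Finset.prod_congr rfl fun i _ => ?_
    rw [← hβ, rc_sn_smul_AmapU q 𝒢 ρ hρ, map_pow]
  rw [h1, h2] at hb
  have h3 : id_AmapU E' M q (∏ t : E' ≃ₐ[E] E', ((t.restrictScalars ℚ : E' ≃ₐ[ℚ] E') • β)) =
      id_inclU M q (id_unitsMap E M x) := Additive.ofMul.injective hb
  have h4 := congrArg (fun v : (id_A M q)ˣ => (v : id_A M q)) h3
  apply id_Amap_injective E' M q
  have h5 : ((∏ t : E' ≃ₐ[E] E', ((t.restrictScalars ℚ : E' ≃ₐ[ℚ] E') • β) : (id_A E' q)ˣ) :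
      id_A E' q) = rc_cl_normT (E := E) (q : ℕ) (β : id_A E' q) := by
    rw [Units.coe_prod]
    unfold rc_cl_normT
    refine Finset.prod_congr rfl fun t _ => ?_
    rw [ga_coe_smul_units]
    rfl
  change id_Amap E' M q ((∏ t : E' ≃ₐ[E] E', ((t.restrictScalars ℚ : E' ≃ₐ[ℚ] E') • β) :
    (id_A E' q)ˣ) : id_A E' q) = id_incl M q ((id_unitsMap E M x : Mˣ) : M) at h4
  rw [h5] at h4
  rw [h4, id_Amap_tmul, id_incl_apply, ← IsScalarTower.algebraMap_apply]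
  rfl

/-- The cyclic sum of a `2`-cocycle of `𝒢 ⧸ N` with values in `(Mˣ)^N` comes from `Eˣ`. -/
theorem rc_sn_exists_elt (h𝒢 : id_IsGal E M 𝒢)
    {σ : ↥𝒢 ⧸ N} {n : ℕ} (hn : 0 < n) (ho : orderOf σ = n)
    (hgen : ∀ g : ↥𝒢 ⧸ N, g ∈ Subgroup.zpowers σ)
    (f : cocycles₂ ((tt_res 𝒢 (id_KRep M)).quotientToInvariants N)) :
    ∃ x : Eˣ, ((cy_repSum ((tt_res 𝒢 (id_KRep M)).quotientToInvariants N) σ n
        (f : (↥𝒢 ⧸ N) × (↥𝒢 ⧸ N) → ((tt_res 𝒢 (id_KRep M)).quotientToInvariants N).V) :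
        ((tt_res 𝒢 (id_KRep M)).quotientToInvariants N).V) : (id_KRep M).V) =
      Additive.ofMul (id_unitsMap E M x) := by
  set s := cy_repSum ((tt_res 𝒢 (id_KRep M)).quotientToInvariants N) σ n
    (f : (↥𝒢 ⧸ N) × (↥𝒢 ⧸ N) → ((tt_res 𝒢 (id_KRep M)).quotientToInvariants N).V) with hs
  set y : Mˣ := Additive.toMul (s : (id_KRep M).V) with hy
  have hinv : ∀ τ ∈ 𝒢, τ • y = y := by
    intro τ hτ
    have h1 := cy_repSum_invariant ((tt_res 𝒢 (id_KRep M)).quotientToInvariants N) hn ho hgen f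
      ((⟨τ, hτ⟩ : ↥𝒢) : ↥𝒢 ⧸ N)
    have h2 := congrArg (fun z : ((tt_res 𝒢 (id_KRep M)).quotientToInvariants N).V =>
      (z : (id_KRep M).V)) h1
    exact congrArg Additive.toMul h2
  obtain ⟨x, hx⟩ := h𝒢.unitsMap_range y hinv
  exact ⟨x, by rw [hx]; rfl⟩

/-- **From the hypothesis `hnorm` of `rr_cyc_recip` to the hypothesis `hβ` of `rc_ad_ccr`.** -/
theorem rc_sn_of_hnorm (ρ : ↥𝒢 →* (E' ≃ₐ[E] E'))
    (hρ : ∀ (g : ↥𝒢) (x : E'), algebraMap E' M (ρ g x) = (g : M ≃ₐ[ℚ] M) (algebraMap E' M x))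
    (hρs : Function.Surjective ρ) (hker : ρ.ker = N)
    (h𝒢 : id_IsGal E M 𝒢) (hN : id_IsGal E' M (rr_up 𝒢 N))
    (ψ : id_KRep M ⟶ id_ARep M q)
    (hψ : ∀ y : Mˣ, ψ.hom (Additive.ofMul y) = Additive.ofMul (id_inclU M q y))
    {σ : ↥𝒢 ⧸ N} {n : ℕ} (hn : 0 < n) (ho : orderOf σ = n)
    (hgen : ∀ g : ↥𝒢 ⧸ N, g ∈ Subgroup.zpowers σ)
    (f : cocycles₂ ((tt_res 𝒢 (id_KRep M)).quotientToInvariants N))
    (hnorm : ∃ b : ((tt_res 𝒢 (id_ARep M q)).quotientToInvariants N).V,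
      cy_repNorm ((tt_res 𝒢 (id_ARep M q)).quotientToInvariants N) σ n b =
        (rr_invMap ((Rep.resFunctor 𝒢.subtype).map ψ) N).hom
          (cy_repSum ((tt_res 𝒢 (id_KRep M)).quotientToInvariants N) σ n
            (f : (↥𝒢 ⧸ N) × (↥𝒢 ⧸ N) →
              ((tt_res 𝒢 (id_KRep M)).quotientToInvariants N).V))) :
    ∃ x : Eˣ, ((cy_repSum ((tt_res 𝒢 (id_KRep M)).quotientToInvariants N) σ n
        (f : (↥𝒢 ⧸ N) × (↥𝒢 ⧸ N) → ((tt_res 𝒢 (id_KRep M)).quotientToInvariants N).V) :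
        ((tt_res 𝒢 (id_KRep M)).quotientToInvariants N).V) : (id_KRep M).V) =
      Additive.ofMul (id_unitsMap E M x) ∧
      ∃ β : (id_A E' q)ˣ, rc_cl_normT (E := E) (q : ℕ) (β : id_A E' q) =
        (1 : ℚ_[(q : ℕ)]) ⊗ₜ[ℚ] algebraMap E E' (x : E) := by
  obtain ⟨x, hx⟩ := rc_sn_exists_elt h𝒢 hn ho hgen f
  obtain ⟨b, hb⟩ := hnorm
  refine ⟨x, hx, rc_sn_exists_beta ρ hρ hρs hker hN ho hgen b x ?_⟩
  rw [hb, rr_invMap_coe]
  change ψ.hom _ = _
  rw [hx]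
  exact hψ _

/-- **Cyclotomic–cyclic reciprocity for the cyclic class of `f`**: under the hypothesis `hnorm` of
`rr_cyc_recip` at the prime `q`, if `E ⊆ E' ⊆ C = E(ζ_{q^j})` with `E` totally complex, the element
`x ∈ Eˣ` representing `cy_repSum f` has trivial Artin symbol away from `q`. -/
theorem rc_sn_symbol_eq_one {C : Type*} [Field C] [NumberField C] [Algebra E' C] [Algebra E C]
    [IsScalarTower E E' C] [IsGalois E C] [IsMulCommutative Gal(E'/E)]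
    [IsMulCommutative Gal(C/E)] [IsTotallyComplex E] {j : ℕ} (hj : 1 ≤ j)
    [IsCyclotomicExtension {(q : ℕ) ^ j} E C]
    (ρ : ↥𝒢 →* (E' ≃ₐ[E] E'))
    (hρ : ∀ (g : ↥𝒢) (x : E'), algebraMap E' M (ρ g x) = (g : M ≃ₐ[ℚ] M) (algebraMap E' M x))
    (hρs : Function.Surjective ρ) (hker : ρ.ker = N)
    (h𝒢 : id_IsGal E M 𝒢) (hN : id_IsGal E' M (rr_up 𝒢 N))
    (ψ : id_KRep M ⟶ id_ARep M q)
    (hψ : ∀ y : Mˣ, ψ.hom (Additive.ofMul y) = Additive.ofMul (id_inclU M q y))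
    {σ : ↥𝒢 ⧸ N} {n : ℕ} (hn : 0 < n) (ho : orderOf σ = n)
    (hgen : ∀ g : ↥𝒢 ⧸ N, g ∈ Subgroup.zpowers σ)
    (f : cocycles₂ ((tt_res 𝒢 (id_KRep M)).quotientToInvariants N))
    (hnorm : ∃ b : ((tt_res 𝒢 (id_ARep M q)).quotientToInvariants N).V,
      cy_repNorm ((tt_res 𝒢 (id_ARep M q)).quotientToInvariants N) σ n b =
        (rr_invMap ((Rep.resFunctor 𝒢.subtype).map ψ) N).hom
          (cy_repSum ((tt_res 𝒢 (id_KRep M)).quotientToInvariants N) σ n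
            (f : (↥𝒢 ⧸ N) × (↥𝒢 ⧸ N) →
              ((tt_res 𝒢 (id_KRep M)).quotientToInvariants N).V))) :
    ∃ x : Eˣ, ((cy_repSum ((tt_res 𝒢 (id_KRep M)).quotientToInvariants N) σ n
        (f : (↥𝒢 ⧸ N) × (↥𝒢 ⧸ N) → ((tt_res 𝒢 (id_KRep M)).quotientToInvariants N).V) :
        ((tt_res 𝒢 (id_KRep M)).quotientToInvariants N).V) : (id_KRep M).V) =
      Additive.ofMul (id_unitsMap E M x) ∧ rc_ad_symbol E E' ((q : ℕ) ^ j) x = 1 := by
  obtain ⟨x, hx, β, hβ⟩ := rc_sn_of_hnorm ρ hρ hρs hker h𝒢 hN ψ hψ hn ho hgen f hnorm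
  exact ⟨x, hx, rc_ad_ccr (M := C) hj x β hβ⟩

end generic

/-! ### The instance `𝒢 = rc_dg_sub E M`, `N = ker (rc_dg_resHom E E' M)` -/

section instance_

variable (E E' M : Type) [Field E] [NumberField E] [Field E'] [NumberField E'] [Field M]
  [NumberField M] [Algebra E E'] [Algebra E' M] [Algebra E M] [IsScalarTower E E' M]

/-- `rc_dg_sub E M` is the Galois group of `M/E` in the sense of `id_IsGal`. -/
theorem rc_sn_isGal_sub [IsGalois E M] : id_IsGal E M (rc_dg_sub E M) where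
  fixes := fun σ hσ x => rc_dg_mem_sub.1 hσ x
  fixed := fun y hy => by
    have h : y ∈ Set.range (algebraMap E M) := by
      rw [IsGalois.mem_range_algebraMap_iff_fixed]
      intro f
      exact hy _ ⟨f, rfl⟩
    exact h

variable [IsGalois E E']

/-- the layer of `E'` inside the layer of `E`, as a subgroup of `Γ`. -/
theorem rc_sn_up_ker : rr_up (rc_dg_sub E M) (rc_dg_resHom E E' M).ker = rc_dg_sub E' M := by
  rw [rc_dg_resHom_ker]
  ext τ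
  constructor
  · rintro ⟨ν, hν, rfl⟩
    exact hν
  · intro hτ
    exact ⟨⟨τ, rc_dg_sub_le hτ⟩, hτ, rfl⟩

theorem rc_sn_isGal_up [IsGalois E' M] :
    id_IsGal E' M (rr_up (rc_dg_sub E M) (rc_dg_resHom E E' M).ker) := by
  rw [rc_sn_up_ker]
  exact rc_sn_isGal_sub E' M

variable {E E' M}

/-- `rc_sn_of_hnorm` for the concrete layers `𝒢 = rc_dg_sub E M`, `N = ker (rc_dg_resHom E E' M)`
of a Galois number field `M/ℚ`. -/
theorem rc_sn_of_hnorm_dg [IsGalois ℚ M] (q : Nat.Primes)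
    (ψ : id_KRep M ⟶ id_ARep M q)
    (hψ : ∀ y : Mˣ, ψ.hom (Additive.ofMul y) = Additive.ofMul (id_inclU M q y))
    {σ : ↥(rc_dg_sub E M) ⧸ (rc_dg_resHom E E' M).ker} {n : ℕ} (hn : 0 < n)
    (ho : orderOf σ = n)
    (hgen : ∀ g : ↥(rc_dg_sub E M) ⧸ (rc_dg_resHom E E' M).ker, g ∈ Subgroup.zpowers σ)
    (f : cocycles₂ ((tt_res (rc_dg_sub E M) (id_KRep M)).quotientToInvariants
      (rc_dg_resHom E E' M).ker))
    (hnorm : ∃ b : ((tt_res (rc_dg_sub E M) (id_ARep M q)).quotientToInvariants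
        (rc_dg_resHom E E' M).ker).V,
      cy_repNorm ((tt_res (rc_dg_sub E M) (id_ARep M q)).quotientToInvariants
          (rc_dg_resHom E E' M).ker) σ n b =
        (rr_invMap ((Rep.resFunctor (rc_dg_sub E M).subtype).map ψ)
          (rc_dg_resHom E E' M).ker).hom
          (cy_repSum ((tt_res (rc_dg_sub E M) (id_KRep M)).quotientToInvariants
            (rc_dg_resHom E E' M).ker) σ n
            (f : (↥(rc_dg_sub E M) ⧸ (rc_dg_resHom E E' M).ker) ×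
              (↥(rc_dg_sub E M) ⧸ (rc_dg_resHom E E' M).ker) →
              ((tt_res (rc_dg_sub E M) (id_KRep M)).quotientToInvariants
                (rc_dg_resHom E E' M).ker).V))) :
    ∃ x : Eˣ, ((cy_repSum ((tt_res (rc_dg_sub E M) (id_KRep M)).quotientToInvariants
          (rc_dg_resHom E E' M).ker) σ n
        (f : (↥(rc_dg_sub E M) ⧸ (rc_dg_resHom E E' M).ker) ×
          (↥(rc_dg_sub E M) ⧸ (rc_dg_resHom E E' M).ker) →
          ((tt_res (rc_dg_sub E M) (id_KRep M)).quotientToInvariants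
            (rc_dg_resHom E E' M).ker).V) :
        ((tt_res (rc_dg_sub E M) (id_KRep M)).quotientToInvariants
          (rc_dg_resHom E E' M).ker).V) : (id_KRep M).V) =
      Additive.ofMul (id_unitsMap E M x) ∧
      ∃ β : (id_A E' q)ˣ, rc_cl_normT (E := E) (q : ℕ) (β : id_A E' q) =
        (1 : ℚ_[(q : ℕ)]) ⊗ₜ[ℚ] algebraMap E E' (x : E) := by
  have : IsGalois E M := IsGalois.tower_top_of_isGalois ℚ E M
  have : IsGalois E' M := IsGalois.tower_top_of_isGalois ℚ E' M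
  exact rc_sn_of_hnorm (rc_dg_resHom E E' M) (rc_dg_resHom_commutes)
    (rc_dg_resHom_surjective) rfl (rc_sn_isGal_sub E M) (rc_sn_isGal_up E E' M) ψ hψ hn ho hgen f
    hnorm

end instance_

end Fermat.Agent.S55
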