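import Mathlib

/-!
# Inner automorphisms act trivially on cohomology (degrees 1 and 2), and an orbit count

* cocycle form (`ct_conj_cocycle₂`, `ct_conj_cocycle₁`): for a 2-cocycle `f` and `h : G`,
  `(g₁, g₂) ↦ h • f (h⁻¹ g₁ h, h⁻¹ g₂ h) - f (g₁, g₂)` is the coboundary of
  `b g = f (h, h⁻¹ g h) - f (g, h)`;
* Mathlib form (`ct_res_comp_conj`): restriction to `S` followed by conjugation
  `H²(S, A) ⟶ H²(S', A)` (`h⁻¹ S' h ≤ S`) is restriction to `S'`;
* `ct_sum_relIndex_eq_index`: `∑_{H'-orbits o' ⊆ H x} [H_y : H'_y] = [H : H']`.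
-/

set_option autoImplicit false

namespace Fermat.Agent.S55

open groupCohomology

section Pure

variable {G A : Type*} [Group G] [AddCommGroup A] [DistribMulAction G A]

/-- The homotopy for conjugation in degree 2. -/
def ct_b (f : G × G → A) (h : G) : G → A := fun g => f (h, h⁻¹ * g * h) - f (g, h)

/-- **Conjugation acts trivially on `H²`, cocycle form.** -/
theorem ct_conj_cocycle₂ (f : G × G → A) (hf : IsCocycle₂ f) (h : G) (g₁ g₂ : G) :
    h • f (h⁻¹ * g₁ * h, h⁻¹ * g₂ * h) - f (g₁, g₂) =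
      g₁ • ct_b f h g₂ - ct_b f h (g₁ * g₂) + ct_b f h g₁ := by
  have e1 := hf h (h⁻¹ * g₁ * h) (h⁻¹ * g₂ * h)
  have e2 := hf g₁ h (h⁻¹ * g₂ * h)
  have e3 := hf g₁ g₂ h
  have a1 : h * (h⁻¹ * g₁ * h) = g₁ * h := by group
  have a2 : h⁻¹ * g₁ * h * (h⁻¹ * g₂ * h) = h⁻¹ * (g₁ * g₂) * h := by group
  have a3 : h * (h⁻¹ * g₂ * h) = g₂ * h := by group
  rw [a1, a2] at e1
  rw [a3] at e2
  simp only [ct_b, smul_sub]
  -- e1 : f (g₁h, g₂') + f (h, g₁') = h • f (g₁', g₂') + f (h, (g₁g₂)')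
  -- e2 : f (g₁h, g₂') + f (g₁, h) = g₁ • f (h, g₂') + f (g₁, g₂h)
  -- e3 : f (g₁g₂, h) + f (g₁, g₂) = g₁ • f (g₂, h) + f (g₁, g₂h)
  have k1 : h • f (h⁻¹ * g₁ * h, h⁻¹ * g₂ * h) =
      f (g₁ * h, h⁻¹ * g₂ * h) + f (h, h⁻¹ * g₁ * h) - f (h, h⁻¹ * (g₁ * g₂) * h) :=
    eq_sub_of_add_eq e1.symm
  have k2 : f (g₁ * h, h⁻¹ * g₂ * h) =
      g₁ • f (h, h⁻¹ * g₂ * h) + f (g₁, g₂ * h) - f (g₁, h) := eq_sub_of_add_eq e2
  have k3 : f (g₁, g₂ * h) = f (g₁ * g₂, h) + f (g₁, g₂) - g₁ • f (g₂, h) :=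
    eq_sub_of_add_eq' e3.symm
  rw [k1, k2, k3]
  abel

/-- **Conjugation acts trivially on `H¹`, cocycle form.** -/
theorem ct_conj_cocycle₁ (c : G → A) (hc : IsCocycle₁ c) (h g : G) :
    h • c (h⁻¹ * g * h) - c g = g • c h - c h := by
  have e1 := hc (h⁻¹ * g) h
  have e2 := hc h⁻¹ g
  have e3 := map_inv_of_isCocycle₁ hc h
  rw [e1, e2]
  simp only [smul_add, smul_smul, mul_inv_cancel_left, mul_inv_cancel, one_smul, e3]
  abel

end Pure

section RepLevel

universe u

open CategoryTheory Rep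

variable {k G : Type u} [CommRing k] [Group G] (A : Rep k G)

/-- Conjugation `S' →* S`, `s ↦ h⁻¹ s h`, for subgroups with `h⁻¹ S' h ≤ S`. -/
def ct_conjHom (S S' : Subgroup G) (h : G) (hSS' : ∀ s ∈ S', h⁻¹ * s * h ∈ S) : S' →* S where
  toFun s := ⟨h⁻¹ * s * h, hSS' s s.2⟩
  map_one' := by
    apply Subtype.ext
    simp
  map_mul' a b := by
    apply Subtype.ext
    simp only [Subgroup.coe_mul]
    group

@[simp] lemma ct_conjHom_coe (S S' : Subgroup G) (h : G) (hSS' : ∀ s ∈ S', h⁻¹ * s * h ∈ S)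
    (s : S') : ((ct_conjHom S S' h hSS' s : S) : G) = h⁻¹ * s * h := rfl

/-- The coefficient map `ρ h` intertwining the `S'`-action twisted by conjugation with the
`S'`-action. -/
def ct_conjCoeff (S S' : Subgroup G) (h : G) (hSS' : ∀ s ∈ S', h⁻¹ * s * h ∈ S) :
    Rep.res (ct_conjHom S S' h hSS') (Rep.res S.subtype A) ⟶ Rep.res S'.subtype A :=
  Rep.ofHom (LinearMap.intertwiningMap_of_isIntertwiningMap
    (ρ := (Rep.res (ct_conjHom S S' h hSS') (Rep.res S.subtype A)).ρ)
    (σ := (Rep.res S'.subtype A).ρ) (f := A.ρ h) (fun s a => by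
      change A.ρ h (A.ρ (h⁻¹ * (s : G) * h) a) = A.ρ (s : G) (A.ρ h a)
      rw [← Module.End.mul_apply, ← Module.End.mul_apply, ← map_mul, ← map_mul]
      congr 2
      group))

/-- Conjugation `Hⁿ(S, A) ⟶ Hⁿ(S', A)` induced by `h` (`h⁻¹ S' h ≤ S`). -/
noncomputable abbrev ct_conjMap (S S' : Subgroup G) (h : G) (hSS' : ∀ s ∈ S', h⁻¹ * s * h ∈ S)
    (n : ℕ) : groupCohomology (Rep.res S.subtype A) n ⟶ groupCohomology (Rep.res S'.subtype A) n :=
  groupCohomology.map (ct_conjHom S S' h hSS') (ct_conjCoeff A S S' h hSS') n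

/-- The `DistribMulAction` on the underlying module of a representation. -/
@[reducible] def ct_dma : DistribMulAction G A.V :=
  DistribMulAction.compHom A.V (A.ρ : G →* Module.End k A.V)

/-- **Conjugation is trivial on `H²`**: restriction to `S` followed by conjugation by `h`
(to `S'` with `h⁻¹ S' h ≤ S`) equals restriction to `S'`. -/
theorem ct_res_comp_conj₂ (S S' : Subgroup G) (h : G) (hSS' : ∀ s ∈ S', h⁻¹ * s * h ∈ S) :
    groupCohomology.map (A := A) (B := Rep.res S.subtype A) S.subtype (𝟙 _) 2 ≫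
        ct_conjMap A S S' h hSS' 2 =
      groupCohomology.map (A := A) (B := Rep.res S'.subtype A) S'.subtype (𝟙 _) 2 := by
  let _ := ct_dma A
  rw [← cancel_epi (H2π A)]
  ext f
  simp only [ModuleCat.hom_comp, LinearMap.coe_comp, Function.comp_apply]
  erw [H2π_comp_map_apply, H2π_comp_map_apply, H2π_comp_map_apply]
  rw [H2π_eq_iff]
  refine ⟨fun s : S' => ct_b (f : G × G → A.V) h (s : G), ?_⟩
  funext p
  obtain ⟨s₁, s₂⟩ := p
  have hf : IsCocycle₂ (f : G × G → A.V) := (mem_cocycles₂_iff f).1 f.2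
  exact (ct_conj_cocycle₂ (f : G × G → A.V) hf h (s₁ : G) (s₂ : G)).symm

/-- **Conjugation is trivial on `H¹`.** -/
theorem ct_res_comp_conj₁ (S S' : Subgroup G) (h : G) (hSS' : ∀ s ∈ S', h⁻¹ * s * h ∈ S) :
    groupCohomology.map (A := A) (B := Rep.res S.subtype A) S.subtype (𝟙 _) 1 ≫
        ct_conjMap A S S' h hSS' 1 =
      groupCohomology.map (A := A) (B := Rep.res S'.subtype A) S'.subtype (𝟙 _) 1 := by
  let _ := ct_dma A
  rw [← cancel_epi (H1π A)]
  ext c
  simp only [ModuleCat.hom_comp, LinearMap.coe_comp, Function.comp_apply]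
  erw [H1π_comp_map_apply, H1π_comp_map_apply, H1π_comp_map_apply]
  rw [H1π_eq_iff]
  refine ⟨(c : G → A.V) h, ?_⟩
  funext s
  have hc : IsCocycle₁ (c : G → A.V) := (mem_cocycles₁_iff c).1 c.2
  exact (ct_conj_cocycle₁ (c : G → A.V) hc h (s : G)).symm

/-- Conjugation by an element of `S` is the identity on `H²(S, A)`. -/
theorem ct_conjMap_self₂ (S : Subgroup G) (h : G) (hh : h ∈ S) :
    ct_conjMap A S S h (fun _ hs => S.mul_mem (S.mul_mem (S.inv_mem hh) hs) hh) 2 = 𝟙 _ := by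
  let _ := ct_dma (Rep.res S.subtype A)
  rw [← cancel_epi (H2π (Rep.res S.subtype A))]
  ext f
  simp only [ModuleCat.hom_comp, LinearMap.coe_comp, Function.comp_apply, Category.comp_id]
  erw [H2π_comp_map_apply]
  rw [H2π_eq_iff]
  refine ⟨fun s : S => ct_b (f : S × S → A.V) (⟨h, hh⟩ : S) s, ?_⟩
  funext p
  obtain ⟨s₁, s₂⟩ := p
  have hf : IsCocycle₂ (f : S × S → A.V) :=
    (mem_cocycles₂_iff (A := Rep.res S.subtype A) f).1 f.2
  exact (ct_conj_cocycle₂ (f : S × S → A.V) hf (⟨h, hh⟩ : S) s₁ s₂).symm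

/-- Conjugation by an element of `S` is the identity on `H¹(S, A)`. -/
theorem ct_conjMap_self₁ (S : Subgroup G) (h : G) (hh : h ∈ S) :
    ct_conjMap A S S h (fun _ hs => S.mul_mem (S.mul_mem (S.inv_mem hh) hs) hh) 1 = 𝟙 _ := by
  let _ := ct_dma (Rep.res S.subtype A)
  rw [← cancel_epi (H1π (Rep.res S.subtype A))]
  ext c
  simp only [ModuleCat.hom_comp, LinearMap.coe_comp, Function.comp_apply, Category.comp_id]
  erw [H1π_comp_map_apply]
  rw [H1π_eq_iff]
  refine ⟨(c : S → A.V) (⟨h, hh⟩ : S), ?_⟩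
  funext s
  have hc : IsCocycle₁ (c : S → A.V) := (mem_cocycles₁_iff (A := Rep.res S.subtype A) c).1 c.2
  exact (ct_conj_cocycle₁ (c : S → A.V) hc (⟨h, hh⟩ : S) s).symm

/-- Composition of conjugations. -/
theorem ct_conjMap_comp (S S' S'' : Subgroup G) (h h' : G)
    (hSS' : ∀ s ∈ S', h⁻¹ * s * h ∈ S) (hS'S'' : ∀ s ∈ S'', h'⁻¹ * s * h' ∈ S') (n : ℕ) :
    ct_conjMap A S S' h hSS' n ≫ ct_conjMap A S' S'' h' hS'S'' n =
      ct_conjMap A S S'' (h' * h) (fun s hs => by
        have := hSS' _ (hS'S'' s hs)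
        have e : (h' * h)⁻¹ * s * (h' * h) = h⁻¹ * (h'⁻¹ * s * h') * h := by group
        rw [e]; exact this) n := by
  unfold ct_conjMap
  rw [← groupCohomology.map_comp]
  apply groupCohomology.map_congr
  · ext s
    simp only [MonoidHom.coe_comp, Function.comp_apply, ct_conjHom_coe]
    group
  · ext a
    change A.ρ h' (A.ρ h a) = A.ρ (h' * h) a
    rw [map_mul]
    rfl

end RepLevel

section OrbitCount

open MulAction

variable {H X : Type*} [Group H] [Finite H] [MulAction H X]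

omit [Finite H] in
/-- For `y` in the `H`-orbit of `x`, the stabilizers have the same cardinality. -/
lemma ct_card_stabilizer_of_mem_orbit {x y : X} (hy : y ∈ orbit H x) :
    Nat.card (stabilizer H y) = Nat.card (stabilizer H x) := by
  obtain ⟨g, rfl⟩ := hy
  exact Nat.card_congr (stabilizerEquivStabilizer (g := g) rfl).toEquiv.symm

omit [Finite H] in
/-- `|H'| * [H_y : H' ∩ H_y] = |H_y| * |H' y|`. -/
lemma ct_card_mul_relIndex (H' : Subgroup H) (y : X) :
    Nat.card H' * H'.relIndex (stabilizer H y) =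
      Nat.card (stabilizer H y) * Nat.card (orbit H' y) := by
  classical
  -- `H'_y = stabilizer H' y ≃ (H' ⊓ H_y)`
  have h1 : Nat.card (stabilizer H' y) * H'.relIndex (stabilizer H y) =
      Nat.card (stabilizer H y) := by
    have e : Nat.card (stabilizer H' y) = Nat.card (H'.subgroupOf (stabilizer H y)) := by
      refine Nat.card_congr ⟨fun s => ⟨⟨(s.1 : H), s.2⟩, s.1.2⟩,
        fun t => ⟨⟨(t.1 : H), t.2⟩, t.1.2⟩, fun s => rfl, fun t => rfl⟩
    rw [e, Subgroup.relIndex, mul_comm, Subgroup.index_mul_card]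
  have h2 : Nat.card (orbit H' y) * Nat.card (stabilizer H' y) = Nat.card H' := by
    rw [← Nat.card_prod]
    exact Nat.card_congr (orbitProdStabilizerEquivGroup H' y)
  calc Nat.card H' * H'.relIndex (stabilizer H y)
      = Nat.card (orbit H' y) * (Nat.card (stabilizer H' y) * H'.relIndex (stabilizer H y)) := by
        rw [← h2]; ring
    _ = _ := by rw [h1]; ring

/-- **Orbit counting**: for `H' ≤ H` finite acting on `X` and `x : X`, summing the local indices
`[H_y : H' ∩ H_y]` over representatives `y` of the `H'`-orbits inside the `H`-orbit of `x` gives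
`[H : H']`. -/
theorem ct_sum_relIndex_eq_index (H' : Subgroup H) (x : X)
    [Fintype (orbitRel.Quotient H' (orbit H x))]
    (r : orbitRel.Quotient H' (orbit H x) → orbit H x)
    (hr : ∀ ω, (Quotient.mk'' (r ω) : orbitRel.Quotient H' (orbit H x)) = ω) :
    ∑ ω, H'.relIndex (stabilizer H ((r ω : orbit H x) : X)) = H'.index := by
  classical
  have hH' : 0 < Nat.card H' := Nat.card_pos
  apply Nat.eq_of_mul_eq_mul_left hH'
  rw [Finset.mul_sum, Subgroup.card_mul_index]
  -- each summand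
  have hterm : ∀ ω : orbitRel.Quotient H' (orbit H x),
      Nat.card H' * H'.relIndex (stabilizer H ((r ω : orbit H x) : X)) =
        Nat.card (stabilizer H x) * Nat.card (orbitRel.Quotient.orbit ω) := by
    intro ω
    rw [ct_card_mul_relIndex, ct_card_stabilizer_of_mem_orbit (r ω).2]
    congr 1
    -- the `H'`-orbit of `r ω` in `X` and in `orbit H x` have the same cardinality
    have e : orbitRel.Quotient.orbit ω = orbit H' (r ω) := by
      conv_lhs => rw [← hr ω]
      exact orbitRel.Quotient.orbit_mk _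
    rw [e]
    have hmemO : ∀ z : X, z ∈ orbit H' ((r ω : orbit H x) : X) → z ∈ orbit H x := by
      rintro _ ⟨h', rfl⟩
      obtain ⟨g, hg⟩ := (r ω).2
      refine ⟨(h' : H) * g, ?_⟩
      change ((h' : H) * g) • x = (h' : H) • ((r ω : orbit H x) : X)
      rw [mul_smul]
      congr 1
    refine Nat.card_congr ⟨fun z => ⟨⟨z.1, hmemO z.1 z.2⟩, ?_⟩, fun z => ⟨z.1.1, ?_⟩, fun z => rfl,
      fun z => rfl⟩
    · obtain ⟨h', hh'⟩ := z.2
      exact ⟨h', Subtype.ext hh'⟩
    · obtain ⟨h', hh'⟩ := z.2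
      exact ⟨h', congrArg Subtype.val hh'⟩
  rw [Finset.sum_congr rfl (fun ω _ => hterm ω), ← Finset.mul_sum]
  have hsum : ∑ ω : orbitRel.Quotient H' (orbit H x), Nat.card (orbitRel.Quotient.orbit ω) =
      Nat.card (orbit H x) := by
    have hfinO : Finite (orbit H x) := Set.finite_range _
    have : ∀ a : orbitRel.Quotient H' (orbit H x), Finite (orbitRel.Quotient.orbit a) :=
      fun a => Set.Finite.subset (Set.toFinite Set.univ) (Set.subset_univ _)
    rw [Nat.card_congr (selfEquivSigmaOrbits' H' (orbit H x)), Nat.card_sigma]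
  rw [hsum, mul_comm, ← Nat.card_prod]
  exact Nat.card_congr (orbitProdStabilizerEquivGroup H x)

/-- `ct_sum_relIndex_eq_index` with the representatives `Quotient.out`. -/
theorem ct_sum_relIndex_out_eq_index (H' : Subgroup H) (x : X)
    [Fintype (orbitRel.Quotient H' (orbit H x))] :
    ∑ ω : orbitRel.Quotient H' (orbit H x),
      H'.relIndex (stabilizer H ((Quotient.out ω : orbit H x) : X)) = H'.index :=
  ct_sum_relIndex_eq_index H' x (fun ω => Quotient.out ω) (fun ω => Quotient.out_eq' ω)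

omit [Finite H] in
/-- The local index `[H_y : H' ∩ H_y]` only depends on the `H'`-orbit of `y`. -/
theorem ct_relIndex_stabilizer_smul (H' : Subgroup H) (y : X) (g : H) (hg : g ∈ H') :
    H'.relIndex (stabilizer H (g • y)) = H'.relIndex (stabilizer H y) := by
  have h1 : stabilizer H (g • y) = (stabilizer H y).map (MulAut.conj g).toMonoidHom :=
    stabilizer_smul_eq_stabilizer_map_conj g y
  have h2 : H'.map (MulAut.conj g).toMonoidHom = H' := by
    ext a
    simp only [Subgroup.mem_map, MulEquiv.coe_toMonoidHom, MulAut.conj_apply]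
    constructor
    · rintro ⟨a, ha, rfl⟩
      exact H'.mul_mem (H'.mul_mem hg ha) (H'.inv_mem hg)
    · intro ha
      exact ⟨g⁻¹ * a * g, H'.mul_mem (H'.mul_mem (H'.inv_mem hg) ha) hg, by group⟩
  have h3 := Subgroup.relIndex_map_map_of_injective H' (stabilizer H y)
    (f := (MulAut.conj g).toMonoidHom) (MulAut.conj g).injective
  rw [h2] at h3
  rw [h1, h3]

end OrbitCount

end Fermat.Agent.S55
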