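import Fermat.Agent.S55.Recip.TotalInv
import Fermat.Agent.S55.LocalCF.PClassCompat

/-!
# S55 / G4: the total invariant and inflation (U3)

`π : G →* Γ` is a surjection of finite groups, `J' : Rep ℤ G`, `J : Rep ℤ Γ` (the ideles of two
Galois levels), `φ : Res(π) J ⟶ J'` (the inclusion of the ideles).  Local data `𝔻'` for `J'` and
`𝔻` for `J` over the same index type `Q` are related by an `rc_InvMor`: `π` maps the decomposition
group `𝔻'.D q` onto `𝔻.D q`, there are morphisms `ψ q : Res(π_q) (𝔻.X q) ⟶ 𝔻'.X q` of the local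
modules compatible with the component maps, and the top local invariants are compatible with
inflation along `(π_q, ψ q)`.

Main result `rc_INV_inf` (U3): for every layer `K ≤ Γ` and every `p`-primary `z ∈ H²(K, J)`,
`INV'_{π⁻¹K} (inf z) = INV_K z`.

The proof: the `π⁻¹K`-orbits on `G ⧸ D'` biject with the `K`-orbits on `Γ ⧸ D`
(`rc_inf_orb_bijective`); `rc_term_congr` frees the choice of the representatives; for one term
all the maps are `groupCohomology.map`s (`rc_inf_comp`), and the local statement is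
`rc_inf_pcm_inv` (top-layer compatibility of two `p`-class modules implies the compatibility for
all pairs of corresponding layers).
-/

set_option autoImplicit false

namespace Fermat.Agent.S55

open CategoryTheory groupCohomology

/-! ### Generic: maps of layers along a homomorphism -/

section generic

variable {k G Γ : Type} [CommRing k] [Group G] [Group Γ]

/-- `π` restricted to subgroups `E₁ → E` with `π E₁ ≤ E`. -/
def rc_inf_sub (π : G →* Γ) {E₁ : Subgroup G} {E : Subgroup Γ} (hE : ∀ x ∈ E₁, π x ∈ E) :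
    ↥E₁ →* ↥E :=
  (π.comp E₁.subtype).codRestrict E (fun x => hE x.1 x.2)

@[simp] theorem rc_inf_sub_coe (π : G →* Γ) {E₁ : Subgroup G} {E : Subgroup Γ}
    (hE : ∀ x ∈ E₁, π x ∈ E) (x : ↥E₁) : ((rc_inf_sub π hE x : ↥E) : Γ) = π x := rfl

/-- the module map `φ` over `rc_inf_sub`. -/
noncomputable def rc_inf_subMor {π : G →* Γ} {A : Rep.{0} k Γ} {A' : Rep.{0} k G}
    (φ : Rep.res π A ⟶ A') {E₁ : Subgroup G} {E : Subgroup Γ} (hE : ∀ x ∈ E₁, π x ∈ E) :
    Rep.res (rc_inf_sub π hE) (tt_res E A) ⟶ tt_res E₁ A' :=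
  Rep.ofHom ⟨φ.hom.toLinearMap, fun g => φ.hom.isIntertwining' g.1⟩

theorem rc_inf_subMor_apply {π : G →* Γ} {A : Rep.{0} k Γ} {A' : Rep.{0} k G}
    (φ : Rep.res π A ⟶ A') {E₁ : Subgroup G} {E : Subgroup Γ} (hE : ∀ x ∈ E₁, π x ∈ E) (a : A.V) :
    (rc_inf_subMor φ hE).hom a = φ.hom a := rfl

/-- the map `Hⁿ(E, A) ⟶ Hⁿ(E₁, A')` along `(π, φ)`. -/
noncomputable def rc_inf_map (π : G →* Γ) {A : Rep.{0} k Γ} {A' : Rep.{0} k G}
    (φ : Rep.res π A ⟶ A') {E₁ : Subgroup G} {E : Subgroup Γ} (hE : ∀ x ∈ E₁, π x ∈ E) (n : ℕ) :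
    groupCohomology (tt_res E A) n ⟶ groupCohomology (tt_res E₁ A') n :=
  map (rc_inf_sub π hE) (rc_inf_subMor φ hE) n

/-- the inflation maps of the local class formations are instances of `rc_inf_map`. -/
theorem rc_inf_map_eq_inf₂ (π : G →* Γ) {A : Rep.{0} k Γ} {A' : Rep.{0} k G}
    (φ : Rep.res π A ⟶ A') (K : Subgroup Γ) :
    lc_inf₂ (lc_piSub π K) (lc_phiSub π φ K) =
      rc_inf_map π φ (E₁ := K.comap π) (E := K) (fun _ hx => hx) 2 := by
  unfold rc_inf_map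
  exact map_congr rfl rfl 2

/-- restriction from the top commutes with `rc_inf_map`. -/
theorem rc_inf_map_res (π : G →* Γ) {A : Rep.{0} k Γ} {A' : Rep.{0} k G}
    (φ : Rep.res π A ⟶ A') {E₁ : Subgroup G} {E : Subgroup Γ} (hE : ∀ x ∈ E₁, π x ∈ E) (n : ℕ) :
    tt_resMap E A n ≫ rc_inf_map π φ hE n = map π φ n ≫ tt_resMap E₁ A' n := by
  unfold rc_inf_map
  rw [← map_comp, ← map_comp]
  exact map_congr rfl rfl n

/-- **One term of the total invariant and inflation**: conjugation-restriction, localisation and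
the maps along `(π, φ)` commute. -/
theorem rc_inf_comp (π : G →* Γ) {A : Rep.{0} k Γ} {A' : Rep.{0} k G}
    (φ : Rep.res π A ⟶ A') {D' : Subgroup G} {D : Subgroup Γ} (hD : ∀ x ∈ D', π x ∈ D)
    {X : Rep.{0} k ↥D} {X' : Rep.{0} k ↥D'} (pr : tt_res D A ⟶ X) (pr' : tt_res D' A' ⟶ X')
    (ψ : Rep.res (rc_inf_sub π hD) X ⟶ X')
    (sq : ∀ a : A.V, pr'.hom (φ.hom a) = ψ.hom (pr.hom a))
    (g' : G) {H₁ K₁ : Subgroup G} {H K : Subgroup Γ}
    (hH : ∀ x ∈ H₁, π x ∈ H) (hK₁ : ∀ x ∈ K₁, g' * x * g'⁻¹ ∈ H₁)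
    (hK : ∀ x ∈ K, π g' * x * (π g')⁻¹ ∈ H)
    (hsub : ∀ x ∈ K₁.subgroupOf D', rc_inf_sub π hD x ∈ K.subgroupOf D) (n : ℕ) :
    rc_inf_map π φ hH n ≫ rc_cj A' g' hK₁ n ≫ rc_loc pr' K₁ n =
      (rc_cj A (π g') hK n ≫ rc_loc pr K n) ≫ rc_inf_map (rc_inf_sub π hD) ψ hsub n := by
  unfold rc_inf_map rc_cj rc_loc
  rw [← map_comp, ← map_comp, ← map_comp, ← map_comp]
  refine map_congr ?_ ?_ n
  · ext x
    simp [map_mul, map_inv]
  · ext a
    change pr'.hom (A'.ρ g'⁻¹ (φ.hom a)) = ψ.hom (pr.hom (A.ρ (π g')⁻¹ a))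
    rw [← sq]
    congr 1
    have := Rep.hom_comm_apply φ g'⁻¹ a
    rw [← this]
    change φ.hom (A.ρ (π g'⁻¹) a) = _
    rw [map_inv]

end generic

/-! ### `p`-class modules: compatibility on corresponding layers from the top layer -/

section pcm

variable {Δ Δ₁ : Type} [Group Δ] [Group Δ₁] [Finite Δ] {p : ℕ} [Fact p.Prime]
  {X : Rep.{0} ℤ Δ} {X₁ : Rep.{0} ℤ Δ₁}

/-- If two `p`-class modules are compatible with inflation along `(π₀, ψ₀)` on the top layer, they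
are compatible on every pair of layers `E₁ = π₀⁻¹ E` (the subgroup `E₁` is only required to be
*equal* to the preimage, not syntactically the preimage). -/
theorem rc_inf_pcm_inv (P : PClassModule p X) (P₁ : PClassModule p X₁)
    (π₀ : Δ₁ →* Δ) (hπ₀ : Function.Surjective π₀) (ψ₀ : Rep.res π₀ X ⟶ X₁)
    (h : ∀ z : groupCohomology X 2, tt_IsPPrimary p z →
      P₁.invTop ((map π₀ ψ₀ 2).hom z) = P.invTop z)
    {E₁ : Subgroup Δ₁} {E : Subgroup Δ} (hE : E₁ = E.comap π₀) (hle : ∀ x ∈ E₁, π₀ x ∈ E)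
    (w : groupCohomology (tt_res E X) 2) (hw : tt_IsPPrimary p w) :
    P₁.inv E₁ ((rc_inf_map π₀ ψ₀ hle 2).hom w) = P.inv E w := by
  obtain ⟨z₀, hz₀, rfl⟩ := rc_pcm_exists_res P E w hw
  have h1 : (rc_inf_map π₀ ψ₀ hle 2).hom ((tt_resMap E X 2).hom z₀) =
      (tt_resMap E₁ X₁ 2).hom ((map π₀ ψ₀ 2).hom z₀) := by
    have e := rc_inf_map_res π₀ ψ₀ hle 2
    exact congrArg (fun f => f.hom z₀) e
  have hz₁ : tt_IsPPrimary p ((map π₀ ψ₀ 2).hom z₀) :=
    tt_isPPrimary_map (map π₀ ψ₀ 2).hom.toAddMonoidHom hz₀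
  have hidx : E₁.index = E.index := by
    rw [hE]
    exact Subgroup.index_comap_of_surjective E hπ₀
  rw [h1, P₁.inv_resMap E₁ _ hz₁, P.inv_resMap E z₀ hz₀, h z₀ hz₀, hidx]

end pcm

/-! ### Morphisms of local data -/

section data

variable {G Γ : Type} [Group G] [Group Γ] {p : ℕ} {J' : Rep.{0} ℤ G} {J : Rep.{0} ℤ Γ}
  {Q : Type}

theorem rc_inf_πq_mem (π : G →* Γ) {D' : Subgroup G} {D : Subgroup Γ} (h : D'.map π = D) :
    ∀ x ∈ D', π x ∈ D :=
  fun _ hx => h ▸ Subgroup.mem_map_of_mem π hx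

/-- `π` restricted to the decomposition groups `D' → D` when `π D' = D`. -/
abbrev rc_inf_πq (π : G →* Γ) {D' : Subgroup G} {D : Subgroup Γ} (h : D'.map π = D) :
    ↥D' →* ↥D :=
  rc_inf_sub π (rc_inf_πq_mem π h)

@[simp] theorem rc_inf_πq_coe (π : G →* Γ) {D' : Subgroup G} {D : Subgroup Γ}
    (h : D'.map π = D) (x : ↥D') : ((rc_inf_πq π h x : ↥D) : Γ) = π x := rfl

theorem rc_inf_πq_surjective (π : G →* Γ) {D' : Subgroup G} {D : Subgroup Γ}
    (h : D'.map π = D) : Function.Surjective (rc_inf_πq π h) := by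
  intro d
  have hd : (d : Γ) ∈ D'.map π := h ▸ d.2
  obtain ⟨d', hd', hdd'⟩ := Subgroup.mem_map.1 hd
  exact ⟨⟨d', hd'⟩, Subtype.ext hdd'⟩

/-- **Morphism of local data along `(π, φ)`**: the decomposition groups correspond, the local
modules are related by `ψ q` over `π_q`, compatibly with the component maps, and the top local
invariants are compatible with inflation. -/
structure rc_InvMor (𝔻' : rc_InvData p J' Q) (𝔻 : rc_InvData p J Q) (π : G →* Γ)
    (φ : Rep.res π J ⟶ J') where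
  hD : ∀ q, (𝔻'.D q).map π = 𝔻.D q
  ψ : ∀ q, Rep.res (rc_inf_πq π (hD q)) (𝔻.X q) ⟶ 𝔻'.X q
  sq : ∀ q (x : J.V), (𝔻'.pr q).hom (φ.hom x) = (ψ q).hom ((𝔻.pr q).hom x)
  inv : ∀ q (w : groupCohomology (𝔻.X q) 2), tt_IsPPrimary p w →
    (𝔻'.P q).invTop ((map (rc_inf_πq π (hD q)) (ψ q) 2).hom w) = (𝔻.P q).invTop w

/-! ### Orbits -/

section orbits

open MulAction

variable (π : G →* Γ) {D' : Subgroup G} {D : Subgroup Γ}

/-- elements differing by `H` on the left and `D` on the right lie over the same `H`-orbit of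
`Γ ⧸ D` (converse of `rc_exists_of_orbit_eq`). -/
theorem rc_inf_orbit_eq (D H : Subgroup Γ) {g₁ g₂ h : Γ} (hh : h ∈ H) (d : ↥D)
    (e : g₁ = h * g₂ * d) :
    (Quotient.mk'' ((g₁ : Γ) : Γ ⧸ D) : orbitRel.Quotient ↥H (Γ ⧸ D)) =
      Quotient.mk'' ((g₂ : Γ) : Γ ⧸ D) := by
  apply Quotient.sound'
  refine ⟨⟨h, hh⟩, ?_⟩
  show ((h * g₂ : Γ) : Γ ⧸ D) = (g₁ : Γ ⧸ D)
  rw [QuotientGroup.eq, e]
  have : (h * g₂)⁻¹ * (h * g₂ * (d : Γ)) = d := by group
  rw [this]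
  exact d.2

/-- the map from the `π⁻¹K`-orbits on `G ⧸ D'` to the `K`-orbits on `Γ ⧸ D`, written with the
chosen representatives. -/
noncomputable def rc_inf_orb (D' : Subgroup G) (D K : Subgroup Γ) :
    orbitRel.Quotient ↥(K.comap π) (G ⧸ D') → orbitRel.Quotient ↥K (Γ ⧸ D) :=
  fun o' => Quotient.mk'' ((π (rc_rep D' (K.comap π) o') : Γ) : Γ ⧸ D)

theorem rc_inf_orb_bijective (hπ : Function.Surjective π) (hD : D'.map π = D) (K : Subgroup Γ) :
    Function.Bijective (rc_inf_orb π D' D K) := by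
  constructor
  · intro o₁ o₂ h12
    unfold rc_inf_orb at h12
    obtain ⟨k, hk, d, hd⟩ := rc_exists_of_orbit_eq D K h12
    have hd0 : (d : Γ) ∈ D'.map π := hD ▸ d.2
    obtain ⟨d', hd', hdd'⟩ := Subgroup.mem_map.1 hd0
    set g₁ := rc_rep D' (K.comap π) o₁ with hg₁
    set g₂ := rc_rep D' (K.comap π) o₂ with hg₂
    have hh : g₁ * d'⁻¹ * g₂⁻¹ ∈ K.comap π := by
      rw [Subgroup.mem_comap, map_mul, map_mul, map_inv, map_inv, hd, hdd']
      have : k * π g₂ * (d : Γ) * (d : Γ)⁻¹ * (π g₂)⁻¹ = k := by group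
      rw [this]
      exact hk
    have e : g₁ = (g₁ * d'⁻¹ * g₂⁻¹) * g₂ * ((⟨d', hd'⟩ : ↥D') : G) := by
      show g₁ = (g₁ * d'⁻¹ * g₂⁻¹) * g₂ * d'
      group
    have := rc_inf_orbit_eq D' (K.comap π) hh ⟨d', hd'⟩ e
    rw [hg₁, hg₂, rc_rep_spec, rc_rep_spec] at this
    exact this
  · intro o
    obtain ⟨g', hg'⟩ := hπ (rc_rep D K o)
    refine ⟨Quotient.mk'' ((g' : G) : G ⧸ D'), ?_⟩
    unfold rc_inf_orb
    set g'' := rc_rep D' (K.comap π) (Quotient.mk'' ((g' : G) : G ⧸ D')) with hg''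
    have h1 : (Quotient.mk'' ((g'' : G) : G ⧸ D') : orbitRel.Quotient ↥(K.comap π) (G ⧸ D')) =
        Quotient.mk'' ((g' : G) : G ⧸ D') := by
      rw [hg'', rc_rep_spec]
    obtain ⟨h, hh, d', hd'⟩ := rc_exists_of_orbit_eq D' (K.comap π) h1
    have e : π g'' = π h * rc_rep D K o *
        ((⟨π d', rc_inf_πq_mem π hD _ d'.2⟩ : ↥D) : Γ) := by
      rw [hd', map_mul, map_mul, hg']
    have := rc_inf_orbit_eq D K (Subgroup.mem_comap.1 hh) ⟨π d', rc_inf_πq_mem π hD _ d'.2⟩ e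
    rw [this, rc_rep_spec]

end orbits

section main

variable [Finite G] [Finite Γ] [Fact p.Prime] {π : G →* Γ} {φ : Rep.res π J ⟶ J'}
  {𝔻' : rc_InvData p J' Q} {𝔻 : rc_InvData p J Q}

omit [Finite G] in
/-- **One local term and inflation.** -/
theorem rc_term_inf (M : rc_InvMor 𝔻' 𝔻 π φ) (q : Q) (K : Subgroup Γ) (g' : G)
    (z : groupCohomology (tt_res K J) 2) (hz : tt_IsPPrimary p z) :
    rc_term 𝔻' q (K.comap π) g' ((lc_inf₂ (lc_piSub π K) (lc_phiSub π φ K)).hom z) =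
      rc_term 𝔻 q K (π g') z := by
  rw [rc_term_apply, rc_term_apply]
  have hsub : ∀ x ∈ (rc_conj g' (K.comap π)).subgroupOf (𝔻'.D q),
      rc_inf_πq π (M.hD q) x ∈ (rc_conj (π g') K).subgroupOf (𝔻.D q) := by
    intro x hx
    rw [Subgroup.mem_subgroupOf, rc_mem_conj] at hx ⊢
    rw [Subgroup.mem_comap, map_mul, map_mul, map_inv] at hx
    exact hx
  have hE : (rc_conj g' (K.comap π)).subgroupOf (𝔻'.D q) =
      ((rc_conj (π g') K).subgroupOf (𝔻.D q)).comap (rc_inf_πq π (M.hD q)) := by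
    ext x
    rw [Subgroup.mem_comap, Subgroup.mem_subgroupOf, Subgroup.mem_subgroupOf, rc_mem_conj,
      rc_mem_conj, Subgroup.mem_comap, map_mul, map_mul, map_inv]
    rfl
  have key := rc_inf_comp π φ (rc_inf_πq_mem π (M.hD q)) (𝔻.pr q) (𝔻'.pr q) (M.ψ q) (M.sq q) g'
    (H₁ := K.comap π) (K₁ := rc_conj g' (K.comap π)) (H := K) (K := rc_conj (π g') K)
    (fun _ hx => hx) (rc_conj_spec g' _) (rc_conj_spec (π g') K) hsub 2
  have h3 : rc_comp 𝔻' q (K.comap π) g' ((lc_inf₂ (lc_piSub π K) (lc_phiSub π φ K)).hom z) =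
      (rc_inf_map (rc_inf_πq π (M.hD q)) (M.ψ q) hsub 2).hom (rc_comp 𝔻 q K (π g') z) := by
    rw [rc_inf_map_eq_inf₂]
    exact congrArg (fun f => f.hom z) key
  rw [h3]
  exact rc_inf_pcm_inv (𝔻.P q) (𝔻'.P q) (rc_inf_πq π (M.hD q))
    (rc_inf_πq_surjective π (M.hD q)) (M.ψ q) (M.inv q) hE hsub _
    (rc_comp_isPPrimary 𝔻 q K (π g') hz)

/-- **(U3) for one `q`.** -/
theorem rc_qterm_inf (hπ : Function.Surjective π) (M : rc_InvMor 𝔻' 𝔻 π φ) (q : Q)
    (K : Subgroup Γ) (z : groupCohomology (tt_res K J) 2) (hz : tt_IsPPrimary p z) :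
    rc_qterm 𝔻' q (K.comap π) ((lc_inf₂ (lc_piSub π K) (lc_phiSub π φ K)).hom z) =
      rc_qterm 𝔻 q K z := by
  rw [rc_qterm_apply, rc_qterm_apply]
  refine finsum_eq_of_bijective (rc_inf_orb π (𝔻'.D q) (𝔻.D q) K)
    (rc_inf_orb_bijective π hπ (M.hD q) K) (fun o' => ?_)
  rw [rc_term_inf M q K _ z hz]
  have e : (Quotient.mk'' ((π (rc_rep (𝔻'.D q) (K.comap π) o') : Γ) : Γ ⧸ 𝔻.D q) :
        MulAction.orbitRel.Quotient ↥K (Γ ⧸ 𝔻.D q)) =
      Quotient.mk'' ((rc_rep (𝔻.D q) K (rc_inf_orb π (𝔻'.D q) (𝔻.D q) K o') : Γ) : Γ ⧸ 𝔻.D q) := by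
    rw [rc_rep_spec]
    rfl
  obtain ⟨h, hh, d, hd⟩ := rc_exists_of_orbit_eq (𝔻.D q) K e
  rw [hd]
  exact rc_term_congr 𝔻 q K _ hh d z hz

/-- **(U3)** the total invariant is compatible with inflation. -/
theorem rc_INV_inf (hπ : Function.Surjective π) (M : rc_InvMor 𝔻' 𝔻 π φ)
    (hfin' : rc_FinSupp 𝔻') (hfin : rc_FinSupp 𝔻)
    (K : Subgroup Γ) (z : groupCohomology (tt_res K J) 2) (hz : tt_IsPPrimary p z) :
    rc_INV 𝔻' hfin' (K.comap π) ((lc_inf₂ (lc_piSub π K) (lc_phiSub π φ K)).hom z) =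
      rc_INV 𝔻 hfin K z := by
  rw [rc_INV_apply, rc_INV_apply]
  exact finsum_congr fun q => rc_qterm_inf hπ M q K z hz

end main

end data

end Fermat.Agent.S55
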