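import Fermat.Agent.S55.Recip.TotalInv
import Fermat.Agent.S55.Recip.TotalInvInf

/-!
# S55 / G4 (E): change of the set of primes in the total invariant (abstract part)

* `rc_tc_sum 𝔻₁ 𝔻₂` : the disjoint union of two families of local data on the same module `J`
  (indexed by `Q₁ ⊕ Q₂`); `rc_tc_INV_sum` : its total invariant is the sum of the two total
  invariants.  So "`INV` = inside part + outside part" is the total invariant of one family.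
* `rc_tc_reindex e 𝔻` : reindexing along an equivalence `e : Q' ≃ Q`; `rc_tc_INV_reindex`.
* `rc_tc_INV_coeff` : change of coefficients over the same group (`rc_INV_inf` at `π = id`):
  for a morphism of local data `M : rc_InvMor 𝔻' 𝔻 (MonoidHom.id Γ) φ` along `φ : J ⟶ J'`,
  `INV'_K (φ_* z) = INV_K z`.

Owner: helper28.  Prefix `rc_tc_`.
-/

set_option autoImplicit false

namespace Fermat.Agent.S55

open CategoryTheory groupCohomology

section sum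

variable {Γ : Type} [Group Γ] {p : ℕ} {J : Rep.{0} ℤ Γ} {Q₁ Q₂ : Type}

/-- The disjoint union of two families of local data. -/
def rc_tc_sum (𝔻₁ : rc_InvData p J Q₁) (𝔻₂ : rc_InvData p J Q₂) : rc_InvData p J (Q₁ ⊕ Q₂) where
  D := Sum.elim 𝔻₁.D 𝔻₂.D
  X := fun q => match q with
    | .inl q => 𝔻₁.X q
    | .inr q => 𝔻₂.X q
  pr := fun q => match q with
    | .inl q => 𝔻₁.pr q
    | .inr q => 𝔻₂.pr q
  P := fun q => match q with
    | .inl q => 𝔻₁.P q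
    | .inr q => 𝔻₂.P q

variable (𝔻₁ : rc_InvData p J Q₁) (𝔻₂ : rc_InvData p J Q₂)

@[simp] theorem rc_tc_sum_D_inl (q : Q₁) : (rc_tc_sum 𝔻₁ 𝔻₂).D (.inl q) = 𝔻₁.D q := rfl
@[simp] theorem rc_tc_sum_D_inr (q : Q₂) : (rc_tc_sum 𝔻₁ 𝔻₂).D (.inr q) = 𝔻₂.D q := rfl
@[simp] theorem rc_tc_sum_X_inl (q : Q₁) : (rc_tc_sum 𝔻₁ 𝔻₂).X (.inl q) = 𝔻₁.X q := rfl
@[simp] theorem rc_tc_sum_X_inr (q : Q₂) : (rc_tc_sum 𝔻₁ 𝔻₂).X (.inr q) = 𝔻₂.X q := rfl
@[simp] theorem rc_tc_sum_pr_inl (q : Q₁) : (rc_tc_sum 𝔻₁ 𝔻₂).pr (.inl q) = 𝔻₁.pr q := rfl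
@[simp] theorem rc_tc_sum_pr_inr (q : Q₂) : (rc_tc_sum 𝔻₁ 𝔻₂).pr (.inr q) = 𝔻₂.pr q := rfl
@[simp] theorem rc_tc_sum_P_inl (q : Q₁) : (rc_tc_sum 𝔻₁ 𝔻₂).P (.inl q) = 𝔻₁.P q := rfl
@[simp] theorem rc_tc_sum_P_inr (q : Q₂) : (rc_tc_sum 𝔻₁ 𝔻₂).P (.inr q) = 𝔻₂.P q := rfl

theorem rc_tc_comp_inl (q : Q₁) (H : Subgroup Γ) (g : Γ) :
    rc_comp (rc_tc_sum 𝔻₁ 𝔻₂) (.inl q) H g = rc_comp 𝔻₁ q H g := rfl

theorem rc_tc_comp_inr (q : Q₂) (H : Subgroup Γ) (g : Γ) :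
    rc_comp (rc_tc_sum 𝔻₁ 𝔻₂) (.inr q) H g = rc_comp 𝔻₂ q H g := rfl

theorem rc_tc_term_inl (q : Q₁) (H : Subgroup Γ) (g : Γ) :
    rc_term (rc_tc_sum 𝔻₁ 𝔻₂) (.inl q) H g = rc_term 𝔻₁ q H g := rfl

theorem rc_tc_term_inr (q : Q₂) (H : Subgroup Γ) (g : Γ) :
    rc_term (rc_tc_sum 𝔻₁ 𝔻₂) (.inr q) H g = rc_term 𝔻₂ q H g := rfl

variable [Finite Γ] [Fact p.Prime]

omit [Finite Γ] [Fact p.Prime] in
theorem rc_tc_qterm_inl (q : Q₁) (H : Subgroup Γ) :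
    rc_qterm (rc_tc_sum 𝔻₁ 𝔻₂) (.inl q) H = rc_qterm 𝔻₁ q H := rfl

omit [Finite Γ] [Fact p.Prime] in
theorem rc_tc_qterm_inr (q : Q₂) (H : Subgroup Γ) :
    rc_qterm (rc_tc_sum 𝔻₁ 𝔻₂) (.inr q) H = rc_qterm 𝔻₂ q H := rfl

omit [Finite Γ] [Fact p.Prime] in
/-- Finite support of a disjoint union. -/
theorem rc_tc_finSupp_sum (h₁ : rc_FinSupp 𝔻₁) (h₂ : rc_FinSupp 𝔻₂) :
    rc_FinSupp (rc_tc_sum 𝔻₁ 𝔻₂) := by
  intro H z
  refine (((h₁ H z).image Sum.inl).union ((h₂ H z).image Sum.inr)).subset ?_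
  rintro (q | q) ⟨g, hg⟩
  · exact Or.inl ⟨q, ⟨g, hg⟩, rfl⟩
  · exact Or.inr ⟨q, ⟨g, hg⟩, rfl⟩

omit [Finite Γ] [Fact p.Prime] in
theorem rc_tc_finSupp_left (h : rc_FinSupp (rc_tc_sum 𝔻₁ 𝔻₂)) : rc_FinSupp 𝔻₁ := by
  intro H z
  refine ((h H z).preimage (Sum.inl_injective.injOn)).subset ?_
  rintro q ⟨g, hg⟩
  exact ⟨g, hg⟩

omit [Finite Γ] [Fact p.Prime] in
theorem rc_tc_finSupp_right (h : rc_FinSupp (rc_tc_sum 𝔻₁ 𝔻₂)) : rc_FinSupp 𝔻₂ := by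
  intro H z
  refine ((h H z).preimage (Sum.inr_injective.injOn)).subset ?_
  rintro q ⟨g, hg⟩
  exact ⟨g, hg⟩

omit [Fact p.Prime] in
/-- **The total invariant of a disjoint union is the sum of the total invariants.** -/
theorem rc_tc_INV_sum (h₁ : rc_FinSupp 𝔻₁) (h₂ : rc_FinSupp 𝔻₂)
    (h : rc_FinSupp (rc_tc_sum 𝔻₁ 𝔻₂)) (H : Subgroup Γ)
    (z : groupCohomology (tt_res H J) 2) :
    rc_INV (rc_tc_sum 𝔻₁ 𝔻₂) h H z = rc_INV 𝔻₁ h₁ H z + rc_INV 𝔻₂ h₂ H z := by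
  classical
  rw [rc_INV_apply, rc_INV_apply, rc_INV_apply]
  have hs₁ := rc_support_qterm 𝔻₁ h₁ H z
  have hs₂ := rc_support_qterm 𝔻₂ h₂ H z
  rw [finsum_eq_sum_of_support_subset _ (s := hs₁.toFinset) (by simp),
    finsum_eq_sum_of_support_subset _ (s := hs₂.toFinset) (by simp),
    finsum_eq_sum_of_support_subset _ (s := hs₁.toFinset.disjSum hs₂.toFinset) ?_,
    Finset.sum_disjSum]
  · rfl
  · rintro (q | q) hq
    · rw [Finset.mem_coe, Finset.inl_mem_disjSum, Set.Finite.mem_toFinset]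
      exact hq
    · rw [Finset.mem_coe, Finset.inr_mem_disjSum, Set.Finite.mem_toFinset]
      exact hq

end sum

section reindex

variable {Γ : Type} [Group Γ] {p : ℕ} {J : Rep.{0} ℤ Γ} {Q Q' : Type}

/-- Reindexing a family of local data along a map of index types. -/
def rc_tc_reindex (e : Q' → Q) (𝔻 : rc_InvData p J Q) : rc_InvData p J Q' where
  D := fun q => 𝔻.D (e q)
  X := fun q => 𝔻.X (e q)
  pr := fun q => 𝔻.pr (e q)
  P := fun q => 𝔻.P (e q)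

variable (e : Q' ≃ Q) (𝔻 : rc_InvData p J Q)

theorem rc_tc_comp_reindex (q : Q') (H : Subgroup Γ) (g : Γ) :
    rc_comp (rc_tc_reindex e 𝔻) q H g = rc_comp 𝔻 (e q) H g := rfl

theorem rc_tc_term_reindex (q : Q') (H : Subgroup Γ) (g : Γ) :
    rc_term (rc_tc_reindex e 𝔻) q H g = rc_term 𝔻 (e q) H g := rfl

theorem rc_tc_finSupp_reindex (h : rc_FinSupp 𝔻) : rc_FinSupp (rc_tc_reindex e 𝔻) := by
  intro H z
  refine ((h H z).preimage (e.injective.injOn)).subset ?_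
  rintro q ⟨g, hg⟩
  exact ⟨g, hg⟩

variable [Finite Γ] [Fact p.Prime]

omit [Finite Γ] [Fact p.Prime] in
theorem rc_tc_qterm_reindex (q : Q') (H : Subgroup Γ) :
    rc_qterm (rc_tc_reindex e 𝔻) q H = rc_qterm 𝔻 (e q) H := rfl

omit [Fact p.Prime] in
/-- **The total invariant is invariant under reindexing.** -/
theorem rc_tc_INV_reindex (h : rc_FinSupp 𝔻) (h' : rc_FinSupp (rc_tc_reindex e 𝔻))
    (H : Subgroup Γ) (z : groupCohomology (tt_res H J) 2) :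
    rc_INV (rc_tc_reindex e 𝔻) h' H z = rc_INV 𝔻 h H z := by
  rw [rc_INV_apply, rc_INV_apply]
  exact finsum_comp_equiv e (f := fun q => rc_qterm 𝔻 q H z)

end reindex

section coeffGeneric

variable {k Γ : Type} [CommRing k] [Group Γ] {J J' : Rep.{0} k Γ}

/-- Coefficient change followed by the restriction along `K.comap id ≤ K` is the inflation map
along `(MonoidHom.id Γ, φ)` (generic coefficient ring, to avoid the `Module ℤ` diamond). -/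
theorem rc_tc_coeff_res_eq (φ : J ⟶ J') (K : Subgroup Γ)
    (hle : K.comap (MonoidHom.id Γ) ≤ K) :
    tt_coeffMap ((Rep.resFunctor K.subtype).map φ) 2 ≫ rc_cj J' 1 (rc_one_mem hle) 2 =
      lc_inf₂ (lc_piSub (MonoidHom.id Γ) K) (lc_phiSub (MonoidHom.id Γ) φ K) := by
  unfold rc_cj
  rw [← map_comp]
  refine map_congr ?_ ?_ 2
  · ext x
    change (1 : Γ) * (x : Γ) * (1 : Γ)⁻¹ = (x : Γ)
    rw [one_mul, inv_one, mul_one]
  · ext m
    change J'.ρ (1 : Γ)⁻¹ (φ.hom m) = φ.hom m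
    rw [inv_one, map_one]
    rfl

end coeffGeneric

section coeff

variable {Γ : Type} [Group Γ] [Finite Γ] {p : ℕ} [Fact p.Prime] {J J' : Rep.{0} ℤ Γ} {Q : Type}
  {𝔻' : rc_InvData p J' Q} {𝔻 : rc_InvData p J Q}

/-- **Change of coefficients over the same group**: the total invariant is compatible with a
morphism of local data along a morphism of modules `φ : J ⟶ J'`. -/
theorem rc_tc_INV_coeff (φ : J ⟶ J') (M : rc_InvMor 𝔻' 𝔻 (MonoidHom.id Γ) φ)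
    (hfin' : rc_FinSupp 𝔻') (hfin : rc_FinSupp 𝔻) (K : Subgroup Γ)
    (z : groupCohomology (tt_res K J) 2) (hz : tt_IsPPrimary p z) :
    rc_INV 𝔻' hfin' K ((tt_coeffMap ((Rep.resFunctor K.subtype).map φ) 2).hom z) =
      rc_INV 𝔻 hfin K z := by
  have h1 := rc_INV_inf (π := MonoidHom.id Γ) (φ := φ) Function.surjective_id M hfin' hfin K z hz
  have hle : K.comap (MonoidHom.id Γ) ≤ K := le_of_eq (Subgroup.comap_id K)
  have hz' : tt_IsPPrimary p ((tt_coeffMap ((Rep.resFunctor K.subtype).map φ) 2).hom z) :=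
    tt_isPPrimary_map (tt_coeffMap ((Rep.resFunctor K.subtype).map φ) 2).hom.toAddMonoidHom hz
  have h2 := rc_INV_res 𝔻' hfin' hle _ hz'
  have hidx : (K.comap (MonoidHom.id Γ)).relIndex K = 1 := by
    rw [Subgroup.comap_id]
    exact Subgroup.relIndex_self K
  rw [hidx, one_smul] at h2
  rw [← h2, ← h1]
  congr 1
  exact congrArg (fun f => f.hom z) (rc_tc_coeff_res_eq φ K hle)

end coeff

end Fermat.Agent.S55
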