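import Fermat.Agent.S55.Recip.Reciprocity
import Fermat.Agent.S55.Recip.SemilocalNorm
import Fermat.Agent.S55.Recip.PlaceDict
import Fermat.Agent.S55.Recip.TChange

/-!
# S55 / G4 (C): the dictionary between local data and number fields (prefix `rc_td_`)

Two small structures against which the concrete instantiation of `rr_reciprocity` is written.

* `rc_td_Dict 𝔻 δ q` : for a number field `M` (Galois over `ℚ`, `Γ = M ≃ₐ[ℚ] M`), a module `J` with
  a "diagonal" `δ : Mˣ ⟶ J` and local data `𝔻`, the arithmetic meaning of the index `q`: a prime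
  `w` of `M` over a rational prime `ℓ` whose stabiliser is `𝔻.D q`, an unramified formula `U` for
  `𝔻.P q` whose inertia subgroup is the inertia group of `w`, whose Frobenius element acts as
  `x ↦ x ^ ℓ` modulo `w`, and whose valuation computes `ord_w` on the image of `δ`.
* `rc_td_Layer E E' M 𝒢 N` : `𝒢 = Gal(M/E)`, `N = Gal(M/E')` with the restriction
  `ρ : 𝒢 → Gal(E'/E)` (the generic hypotheses of `Recip/SemilocalNorm.lean`, bundled).
-/

set_option autoImplicit false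

open scoped NumberField Pointwise
open IsDedekindDomain CategoryTheory groupCohomology

namespace Fermat.Agent.S55

/-- The arithmetic meaning of the index `q` of a family of local data on a module receiving the
units of a number field `M`. -/
structure rc_td_Dict {M : Type} [Field M] [NumberField M] {p : ℕ}
    {J : Rep.{0} ℤ (M ≃ₐ[ℚ] M)} {Q : Type} (𝔻 : rc_InvData p J Q) (δ : id_KRep M ⟶ J) (q : Q) where
  /-- the chosen prime of `M` -/
  w : HeightOneSpectrum (𝓞 M)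
  /-- the rational prime below it -/
  ℓ : ℕ
  hℓ : ℓ.Prime
  hmem : (ℓ : 𝓞 M) ∈ w.asIdeal
  /-- the decomposition group -/
  hD : 𝔻.D q = MulAction.stabilizer (M ≃ₐ[ℚ] M) w.asIdeal
  /-- the unramified formula of the local class module -/
  U : lcu_Unr (𝔻.P q)
  /-- its inertia subgroup is the inertia group of `w` -/
  hI : ∀ d : ↥(𝔻.D q), d ∈ U.I ↔
    ((d : ↥(𝔻.D q)) : M ≃ₐ[ℚ] M) ∈ w.asIdeal.toAddSubgroup.inertia (M ≃ₐ[ℚ] M)
  /-- its Frobenius element is a Frobenius element at `w` -/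
  hfrob : ∀ x : 𝓞 M, ((U.frob : ↥(𝔻.D q)) : M ≃ₐ[ℚ] M) • x - x ^ ℓ ∈ w.asIdeal
  /-- its valuation is `ord_w` on global elements -/
  hv : ∀ y : Mˣ, U.v ((𝔻.pr q).hom (δ.hom (Additive.ofMul y))) = id_ordZ M w y

/-- The Galois-theoretic data of a layer `E ⊆ E' ⊆ M` in the group `Γ = M ≃ₐ[ℚ] M`. -/
structure rc_td_Layer (E E' M : Type) [Field E] [NumberField E] [Field E'] [NumberField E']
    [Field M] [NumberField M] [Algebra E E'] [Algebra E' M] [Algebra E M] [IsScalarTower E E' M]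
    (𝒢 : Subgroup (M ≃ₐ[ℚ] M)) (N : Subgroup ↥𝒢) where
  /-- the restriction map -/
  ρ : ↥𝒢 →* (E' ≃ₐ[E] E')
  hρ : ∀ (g : ↥𝒢) (x : E'), algebraMap E' M (ρ g x) = (g : M ≃ₐ[ℚ] M) (algebraMap E' M x)
  hρs : Function.Surjective ρ
  hker : ρ.ker = N
  h𝒢 : id_IsGal E M 𝒢
  hN : id_IsGal E' M (rr_up 𝒢 N)

section sum

variable {M : Type} [Field M] [NumberField M] {p : ℕ} {J : Rep.{0} ℤ (M ≃ₐ[ℚ] M)} {Q₁ Q₂ : Type}
  (𝔻₁ : rc_InvData p J Q₁) (𝔻₂ : rc_InvData p J Q₂) (δ : id_KRep M ⟶ J)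

/-- The dictionary of a disjoint union, left summand. -/
def rc_td_Dict.inl {q : Q₁} (𝔇 : rc_td_Dict 𝔻₁ δ q) : rc_td_Dict (rc_tc_sum 𝔻₁ 𝔻₂) δ (Sum.inl q) where
  w := 𝔇.w
  ℓ := 𝔇.ℓ
  hℓ := 𝔇.hℓ
  hmem := 𝔇.hmem
  hD := 𝔇.hD
  U := 𝔇.U
  hI := 𝔇.hI
  hfrob := 𝔇.hfrob
  hv := 𝔇.hv

/-- The dictionary of a disjoint union, right summand. -/
def rc_td_Dict.inr {q : Q₂} (𝔇 : rc_td_Dict 𝔻₂ δ q) : rc_td_Dict (rc_tc_sum 𝔻₁ 𝔻₂) δ (Sum.inr q) where
  w := 𝔇.w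
  ℓ := 𝔇.ℓ
  hℓ := 𝔇.hℓ
  hmem := 𝔇.hmem
  hD := 𝔇.hD
  U := 𝔇.U
  hI := 𝔇.hI
  hfrob := 𝔇.hfrob
  hv := 𝔇.hv

end sum

end Fermat.Agent.S55
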