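/-
S55 / G4 reciprocity, instantiation (C), §3(6) of the endgame plan:
**instance dictionary  top field `M` + layer `𝒢 ≤ Gal(M/ℚ)`  ↔  the S14 carriers `E ⊆ E' ⊆ M`.**

Everything number-theoretic in `Recip/{DecompDeg, PlaceDict, TowerLevel, ApproxElt, ArtDiv, …}` is
stated for number fields `E ⊆ E' ⊆ M` *as types* with `𝒢 = rc_dg_sub E M`, `N = rc_dg_sub E' M`.
Here: `rc_fs_E M 𝒢 := ↥(fixedField 𝒢)` with `rc_dg_sub (rc_fs_E M 𝒢) M = 𝒢`, Artin's theorem as an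
instance, `ζ_p ∈ M^𝒢` for a `p`-group `𝒢`, total complexity, the cyclotomic sub-extensions
`E(ζ) ⊆ M`, the restriction `𝒢 → Gal(F/E)` for intermediate fields `F`, and the auxiliary layers.
-/
import Mathlib
import Fermat.Agent.S55.Recip.TowerLevel
import Fermat.Agent.S55.Recip.PlaceDict
import Fermat.Agent.S55.Recip.ApproxElt
import Fermat.Agent.S55.Recip.TermDict
import Fermat.Agent.S55.Idele.AbsLevels

set_option autoImplicit false

open NumberField IsDedekindDomain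

namespace Fermat.Agent.S55

open Fermat.Agent.S14
open scoped IsMulCommutative Pointwise

set_option linter.style.haveILetI false
set_option linter.unusedSectionVars false

section E

variable (M : Type) [Field M] [NumberField M] (𝒢 : Subgroup (M ≃ₐ[ℚ] M))

/-- the fixed field of the layer `𝒢`, as a type. -/
abbrev rc_fs_E : Type := ↥(IntermediateField.fixedField 𝒢)

/-- Artin: `M / M^𝒢` is Galois. -/
instance rc_fs_isGalois : IsGalois (rc_fs_E M 𝒢) M := by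
  apply IsGalois.of_card_aut_eq_finrank
  rw [IntermediateField.finrank_fixedField_eq_card 𝒢]
  exact (Nat.card_congr (IntermediateField.subgroupEquivAlgEquiv 𝒢).toEquiv).symm

/-- **the layer of the fixed field is the group.** -/
theorem rc_fs_sub_E : rc_dg_sub (rc_fs_E M 𝒢) M = 𝒢 := by
  ext τ
  rw [rc_dg_mem_sub]
  constructor
  · intro h
    have h1 : τ ∈ (IntermediateField.fixedField 𝒢).fixingSubgroup := by
      rw [IntermediateField.mem_fixingSubgroup_iff]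
      intro y hy
      exact h ⟨y, hy⟩
    rwa [IntermediateField.fixingSubgroup_fixedField] at h1
  · intro h x
    exact x.2 ⟨τ, h⟩

/-- helper20's descent predicate for `M^𝒢 ⊆ M`. -/
theorem rc_fs_isGal : id_IsGal (rc_fs_E M 𝒢) M 𝒢 where
  fixes σ hσ x := x.2 ⟨σ, hσ⟩
  fixed y hy := ⟨⟨y, fun g => hy g.1 g.2⟩, rfl⟩

theorem rc_fs_card_gal : Nat.card Gal(M/rc_fs_E M 𝒢) = Nat.card ↥𝒢 := by
  rw [← rc_tl_card_sub, rc_fs_sub_E]

variable {M 𝒢}

theorem rc_fs_mem_E_iff {x : M} :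
    x ∈ IntermediateField.fixedField 𝒢 ↔ ∀ g ∈ 𝒢, g x = x := by
  constructor
  · intro h g hg
    exact h ⟨g, hg⟩
  · intro h g
    exact h g.1 g.2

/-- a `p`-group fixes the `p`-th roots of unity. -/
theorem rc_fs_zeta_fixed {p : ℕ} [hpF : Fact p.Prime] (h𝒢 : IsPGroup p ↥𝒢) {ζ₁ : M}
    (hζ₁ : IsPrimitiveRoot ζ₁ p) (g : M ≃ₐ[ℚ] M) (hg : g ∈ 𝒢) : g ζ₁ = ζ₁ := by
  haveI : NeZero p := ⟨hpF.out.ne_zero⟩
  haveI : Fact (1 < p) := ⟨hpF.out.one_lt⟩
  set χ : ↥𝒢 →* (ZMod p)ˣ := (hζ₁.autToPow ℚ).comp 𝒢.subtype with hχ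
  -- the image of a `p`-group in a group of order `p - 1` is trivial
  have h1 : χ ⟨g, hg⟩ = 1 := by
    obtain ⟨k, hk⟩ := h𝒢 ⟨g, hg⟩
    have h2 : (χ ⟨g, hg⟩) ^ (p ^ k) = 1 := by rw [← map_pow, hk, map_one]
    have h3 : (χ ⟨g, hg⟩) ^ (p - 1) = 1 := by
      have := ZMod.card_units p
      rw [← this]
      exact pow_card_eq_one (G := (ZMod p)ˣ)
    have hco : Nat.Coprime (p ^ k) (p - 1) := by
      apply Nat.Coprime.pow_left
      have hp1 := hpF.out.one_lt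
      rw [Nat.Prime.coprime_iff_not_dvd hpF.out]
      intro hdvd
      have := Nat.le_of_dvd (by omega) hdvd
      omega
    have h5 : orderOf (χ ⟨g, hg⟩) ∣ Nat.gcd (p ^ k) (p - 1) :=
      Nat.dvd_gcd (orderOf_dvd_of_pow_eq_one h2) (orderOf_dvd_of_pow_eq_one h3)
    rw [hco] at h5
    exact orderOf_eq_one_iff.mp (Nat.dvd_one.mp h5)
  have hspec := hζ₁.autToPow_spec ℚ g
  have h4 : hζ₁.autToPow ℚ g = 1 := h1
  rw [h4] at hspec
  rw [← hspec]
  simp [ZMod.val_one]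

/-- `ζ_p ∈ M^𝒢` for a `p`-group `𝒢`. -/
theorem rc_fs_exists_zeta {p : ℕ} [hpF : Fact p.Prime] (h𝒢 : IsPGroup p ↥𝒢) {ζ₁ : M}
    (hζ₁ : IsPrimitiveRoot ζ₁ p) :
    ∃ ζ₁' : rc_fs_E M 𝒢, IsPrimitiveRoot ζ₁' p ∧ algebraMap (rc_fs_E M 𝒢) M ζ₁' = ζ₁ := by
  refine ⟨⟨ζ₁, rc_fs_mem_E_iff.mpr (rc_fs_zeta_fixed h𝒢 hζ₁)⟩, ?_, rfl⟩
  exact IsPrimitiveRoot.of_map_of_injective (f := algebraMap (rc_fs_E M 𝒢) M) hζ₁
    (algebraMap (rc_fs_E M 𝒢) M).injective

/-- a number field containing a primitive `p`-th root of unity, `p` odd, is totally complex. -/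
theorem rc_fs_isTotallyComplex_of_zeta {K : Type*} [Field K] [NumberField K] {p : ℕ}
    [hpF : Fact p.Prime] (hp2 : p ≠ 2) {ζ : K} (hζ : IsPrimitiveRoot ζ p) :
    IsTotallyComplex K := by
  refine ⟨fun v => ?_⟩
  rw [← InfinitePlace.not_isReal_iff_isComplex]
  intro hv
  let φ : K →+* ℝ := InfinitePlace.embedding_of_isReal hv
  have h1 : (φ ζ) ^ p = 1 := by rw [← map_pow, hζ.pow_eq_one, map_one]
  have hodd : ¬ Even p := fun he => hp2 ((Nat.Prime.even_iff hpF.out).1 he)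
  rcases pow_eq_one_iff_cases.1 h1 with h | h | h
  · exact hpF.out.ne_zero h
  · have : ζ = 1 := φ.injective (by rw [h, map_one])
    exact hζ.ne_one hpF.out.one_lt this
  · exact hodd h.2

/-- `M^𝒢` is totally complex when `𝒢` is a `p`-group, `p` odd, `ζ_p ∈ M`. -/
theorem rc_fs_isTotallyComplex {p : ℕ} [hpF : Fact p.Prime] (hp2 : p ≠ 2) (h𝒢 : IsPGroup p ↥𝒢)
    {ζ₁ : M} (hζ₁ : IsPrimitiveRoot ζ₁ p) : IsTotallyComplex (rc_fs_E M 𝒢) := by
  obtain ⟨ζ₁', h, -⟩ := rc_fs_exists_zeta h𝒢 hζ₁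
  exact rc_fs_isTotallyComplex_of_zeta hp2 h

end E

section F

variable {M : Type} [Field M] [NumberField M] {𝒢 : Subgroup (M ≃ₐ[ℚ] M)}
  (F : IntermediateField (rc_fs_E M 𝒢) M)

/-- the layer of an intermediate field `F` of `M / M^𝒢`. -/
theorem rc_fs_mem_sub_iff {g : M ≃ₐ[ℚ] M} :
    g ∈ rc_dg_sub ↥F M ↔ ∀ x ∈ F, g x = x := by
  rw [rc_dg_mem_sub]
  constructor
  · intro h x hx
    exact h ⟨x, hx⟩
  · intro h x
    exact h x x.2

theorem rc_fs_sub_le : rc_dg_sub ↥F M ≤ 𝒢 := by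
  have h := rc_dg_sub_le (E := rc_fs_E M 𝒢) (E' := ↥F) (M := M)
  rwa [rc_fs_sub_E] at h

/-- the layer of `F` as a subgroup of `𝒢`: the `N` of `rr_reciprocity`. -/
noncomputable abbrev rc_fs_N : Subgroup ↥𝒢 := (rc_dg_sub ↥F M).subgroupOf 𝒢

theorem rc_fs_mem_N_iff {τ : ↥𝒢} : τ ∈ rc_fs_N F ↔ ∀ x ∈ F, (τ : M ≃ₐ[ℚ] M) x = x := by
  rw [Subgroup.mem_subgroupOf, rc_fs_mem_sub_iff]

/-- `rr_up 𝒢 N = N.map 𝒢.subtype` is the layer of `F`. -/
theorem rc_fs_N_map : (rc_fs_N F).map 𝒢.subtype = rc_dg_sub ↥F M := by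
  rw [Subgroup.subgroupOf_map_subtype, inf_eq_left]
  exact rc_fs_sub_le F

variable (M 𝒢) in
/-- restriction `𝒢 → Gal(F / M^𝒢)` for a normal intermediate field. -/
noncomputable def rc_fs_resHom [Normal (rc_fs_E M 𝒢) ↥F] : ↥𝒢 →* Gal(↥F/rc_fs_E M 𝒢) :=
  (AlgEquiv.restrictNormalHom ↥F).comp (IntermediateField.subgroupEquivAlgEquiv 𝒢).toMonoidHom

theorem rc_fs_resHom_commutes [Normal (rc_fs_E M 𝒢) ↥F] (τ : ↥𝒢) (x : ↥F) :
    ((rc_fs_resHom M 𝒢 F τ x : ↥F) : M) = (τ : M ≃ₐ[ℚ] M) (x : M) := by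
  unfold rc_fs_resHom
  have := AlgEquiv.restrictNormal_commutes (IntermediateField.subgroupEquivAlgEquiv 𝒢 τ) ↥F x
  exact this

theorem rc_fs_resHom_surjective [Normal (rc_fs_E M 𝒢) ↥F] :
    Function.Surjective (rc_fs_resHom M 𝒢 F) := by
  unfold rc_fs_resHom
  rw [MonoidHom.coe_comp]
  exact (AlgEquiv.restrictNormalHom_surjective M).comp
    (IntermediateField.subgroupEquivAlgEquiv 𝒢).surjective

theorem rc_fs_resHom_ker [Normal (rc_fs_E M 𝒢) ↥F] :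
    (rc_fs_resHom M 𝒢 F).ker = rc_fs_N F := by
  ext τ
  rw [MonoidHom.mem_ker, rc_fs_mem_N_iff]
  constructor
  · intro h x hx
    have := rc_fs_resHom_commutes F τ ⟨x, hx⟩
    rw [h] at this
    exact this.symm
  · intro h
    ext x
    rw [rc_fs_resHom_commutes]
    exact h x x.2

instance rc_fs_N_normal [Normal (rc_fs_E M 𝒢) ↥F] : (rc_fs_N F).Normal := by
  rw [← rc_fs_resHom_ker]
  infer_instance

variable (M 𝒢) in
/-- `𝒢 ⧸ N ≃* Gal(F / M^𝒢)`. -/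
noncomputable def rc_fs_quotEquiv [Normal (rc_fs_E M 𝒢) ↥F] :
    ↥𝒢 ⧸ rc_fs_N F ≃* Gal(↥F/rc_fs_E M 𝒢) :=
  (QuotientGroup.quotientMulEquivOfEq (rc_fs_resHom_ker F).symm).trans
    (QuotientGroup.quotientKerEquivOfSurjective (rc_fs_resHom M 𝒢 F) (rc_fs_resHom_surjective F))

theorem rc_fs_quotEquiv_mk [Normal (rc_fs_E M 𝒢) ↥F] (τ : ↥𝒢) :
    rc_fs_quotEquiv M 𝒢 F (τ : ↥𝒢 ⧸ rc_fs_N F) = rc_fs_resHom M 𝒢 F τ := rfl

/-- comparison with `rc_dg_resHom`. -/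
theorem rc_fs_resHom_eq [Normal (rc_fs_E M 𝒢) ↥F] (τ : M ≃ₐ[ℚ] M) (h : τ ∈ 𝒢)
    (h' : τ ∈ rc_dg_sub (rc_fs_E M 𝒢) M) :
    rc_dg_resHom (rc_fs_E M 𝒢) ↥F M ⟨τ, h'⟩ = rc_fs_resHom M 𝒢 F ⟨τ, h⟩ := by
  ext x
  rw [rc_fs_resHom_commutes]
  exact rc_dg_resHom_commutes (E := rc_fs_E M 𝒢) (E' := ↥F) (M := M) ⟨τ, h'⟩ x

theorem rc_fs_card_quot [Normal (rc_fs_E M 𝒢) ↥F] :
    (rc_fs_N F).index = Nat.card Gal(↥F/rc_fs_E M 𝒢) := by
  rw [Subgroup.index]
  exact Nat.card_congr (rc_fs_quotEquiv M 𝒢 F).toEquiv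

end F

section twoLevel

variable {E' L Ω : Type} [Field E'] [NumberField E'] [Field L] [NumberField L] [Field Ω]
  [NumberField Ω] [Algebra E' L] [Algebra L Ω] [Algebra E' Ω] [IsScalarTower E' L Ω]

/-- **two levels**: the layer of `E' ⊆ L` in the upper level `Ω` is the preimage of its layer in
`L` under any restriction map `π` compatible with `L → Ω`. -/
theorem rc_fs_sub_comap (π : (Ω ≃ₐ[ℚ] Ω) →* (L ≃ₐ[ℚ] L)) (hπ : ∀ g, id_Compat L Ω (π g) g) :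
    rc_dg_sub E' Ω = (rc_dg_sub E' L).comap π := by
  ext g
  rw [Subgroup.mem_comap, rc_dg_mem_sub, rc_dg_mem_sub]
  constructor
  · intro h x
    apply (algebraMap L Ω).injective
    rw [← hπ g, ← IsScalarTower.algebraMap_apply E' L Ω]
    exact h x
  · intro h x
    rw [IsScalarTower.algebraMap_apply E' L Ω, hπ g, h x]

end twoLevel

section twoLevelE

variable {L Ω : Type} [Field L] [NumberField L] [Field Ω] [NumberField Ω] [Algebra L Ω]
  (K : Subgroup (L ≃ₐ[ℚ] L))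

/-- **two levels**: `E = L^K` viewed inside `Ω ⊇ L` has layer `π⁻¹ K`. -/
theorem rc_fs_sub_E_comap (π : (Ω ≃ₐ[ℚ] Ω) →* (L ≃ₐ[ℚ] L)) (hπ : ∀ g, id_Compat L Ω (π g) g) :
    rc_dg_sub (rc_fs_E L K) Ω = K.comap π := by
  rw [rc_fs_sub_comap (E' := rc_fs_E L K) π hπ, rc_fs_sub_E]

/-- `Ω / L^K` is Galois when `Ω / ℚ` is. -/
instance rc_fs_isGalois_top [IsGalois ℚ Ω] : IsGalois (rc_fs_E L K) Ω :=
  IsGalois.tower_top_of_isGalois ℚ (rc_fs_E L K) Ω

end twoLevelE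

section adjoin

variable {E Ω : Type*} [Field E] [NumberField E] [Field Ω] [NumberField Ω] [Algebra E Ω]

/-- the layer of `E(ζ) ⊆ Ω`. -/
theorem rc_fs_mem_sub_adjoin {ζ : Ω} {g : Ω ≃ₐ[ℚ] Ω} :
    g ∈ rc_dg_sub ↥(IntermediateField.adjoin E {ζ}) Ω ↔ g ∈ rc_dg_sub E Ω ∧ g ζ = ζ := by
  constructor
  · intro h
    refine ⟨rc_dg_sub_le (E := E) (E' := ↥(IntermediateField.adjoin E {ζ})) (M := Ω) h, ?_⟩
    rw [rc_dg_mem_sub] at h
    exact h ⟨ζ, IntermediateField.mem_adjoin_simple_self E ζ⟩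
  · rintro ⟨h1, h2⟩
    rw [rc_dg_mem_sub] at h1 ⊢
    rintro ⟨x, hx⟩
    change g x = x
    induction hx using IntermediateField.adjoin_induction with
    | mem y hy =>
      rw [Set.mem_singleton_iff] at hy
      rw [hy, h2]
    | algebraMap y => exact h1 y
    | add y z _ _ hy hz => rw [map_add, hy, hz]
    | inv y _ hy => rw [map_inv₀, hy]
    | mul y z _ _ hy hz => rw [map_mul, hy, hz]

/-- `E(ζ_n) / E` is a cyclotomic extension. -/
theorem rc_fs_adjoin_isCyclotomic {n : ℕ} [NeZero n] {ζ : Ω} (hζ : IsPrimitiveRoot ζ n) :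
    IsCyclotomicExtension {n} E ↥(IntermediateField.adjoin E {ζ}) := by
  haveI : FiniteDimensional E Ω := Module.Finite.of_restrictScalars_finite ℚ E Ω
  exact hζ.intermediateField_adjoin_isCyclotomicExtension E

theorem rc_fs_adjoin_isGalois {n : ℕ} [NeZero n] {ζ : Ω} (hζ : IsPrimitiveRoot ζ n) :
    IsGalois E ↥(IntermediateField.adjoin E {ζ}) := by
  haveI := rc_fs_adjoin_isCyclotomic (E := E) hζ
  exact IsCyclotomicExtension.isGalois {n} E _

theorem rc_fs_adjoin_isMulCommutative {n : ℕ} [NeZero n] {ζ : Ω} (hζ : IsPrimitiveRoot ζ n) :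
    IsMulCommutative Gal(↥(IntermediateField.adjoin E {ζ})/E) := by
  haveI := rc_fs_adjoin_isCyclotomic (E := E) hζ
  exact IsCyclotomicExtension.isMulCommutative {n} E _

end adjoin

section layer

variable (E E' M : Type) [Field E] [NumberField E] [Field E'] [NumberField E'] [Field M]
  [NumberField M] [Algebra E E'] [Algebra E' M] [Algebra E M] [IsScalarTower E E' M]
  [IsGalois E M] [IsGalois E E']

/-- **the layer datum of `E ⊆ E' ⊆ M`** in the shape of `Recip/TermDict.lean`. -/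
noncomputable def rc_fs_layer :
    rc_td_Layer E E' M (rc_dg_sub E M) (rc_dg_resHom E E' M).ker where
  ρ := rc_dg_resHom E E' M
  hρ := fun g x => rc_dg_resHom_commutes g x
  hρs := rc_dg_resHom_surjective
  hker := rfl
  h𝒢 := rc_sn_isGal_sub E M
  hN := by
    haveI : IsGalois E' M := IsGalois.tower_top_of_isGalois E E' M
    exact rc_sn_isGal_up E E' M

@[simp] theorem rc_fs_layer_ρ : (rc_fs_layer E E' M).ρ = rc_dg_resHom E E' M := rfl

/-- `𝒢 ⧸ N ≃* Gal(E'/E)` for `N = ker (rc_dg_resHom E E' M)`. -/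
noncomputable def rc_fs_kerQuotEquiv :
    ↥(rc_dg_sub E M) ⧸ (rc_dg_resHom E E' M).ker ≃* Gal(E'/E) :=
  QuotientGroup.quotientKerEquivOfSurjective (rc_dg_resHom E E' M) rc_dg_resHom_surjective

theorem rc_fs_kerQuotEquiv_mk (τ : ↥(rc_dg_sub E M)) :
    rc_fs_kerQuotEquiv E E' M (τ : ↥(rc_dg_sub E M) ⧸ (rc_dg_resHom E E' M).ker) =
      rc_dg_resHom E E' M τ := rfl

theorem rc_fs_card_kerQuot :
    Nat.card (↥(rc_dg_sub E M) ⧸ (rc_dg_resHom E E' M).ker) = Nat.card Gal(E'/E) :=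
  Nat.card_congr (rc_fs_kerQuotEquiv E E' M).toEquiv

/-- **a generator of the cyclic layer**: `τ ∈ 𝒢` whose class generates `𝒢 ⧸ N` and has order
`[E' : E]`; its restriction generates `Gal(E'/E)`. -/
theorem rc_fs_exists_generator [IsCyclic Gal(E'/E)] :
    ∃ τ : ↥(rc_dg_sub E M),
      orderOf (τ : ↥(rc_dg_sub E M) ⧸ (rc_dg_resHom E E' M).ker) = Nat.card Gal(E'/E) ∧
      (∀ g : ↥(rc_dg_sub E M) ⧸ (rc_dg_resHom E E' M).ker,
        g ∈ Subgroup.zpowers (τ : ↥(rc_dg_sub E M) ⧸ (rc_dg_resHom E E' M).ker)) ∧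
      orderOf (rc_dg_resHom E E' M τ) = Nat.card Gal(E'/E) ∧
      ∀ t : Gal(E'/E), t ∈ Subgroup.zpowers (rc_dg_resHom E E' M τ) := by
  obtain ⟨t₀, ht₀⟩ := IsCyclic.exists_generator (α := Gal(E'/E))
  obtain ⟨τ, hτ⟩ := rc_dg_resHom_surjective (E := E) (E' := E') (M := M) t₀
  have ho : orderOf t₀ = Nat.card Gal(E'/E) := orderOf_eq_card_of_forall_mem_zpowers ht₀
  set e := rc_fs_kerQuotEquiv E E' M with he
  have hemk : e (τ : ↥(rc_dg_sub E M) ⧸ (rc_dg_resHom E E' M).ker) = t₀ := by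
    rw [he, rc_fs_kerQuotEquiv_mk, hτ]
  refine ⟨τ, ?_, ?_, ?_, ?_⟩
  · rw [← orderOf_injective e.toMonoidHom e.injective]
    change orderOf (e _) = _
    rw [hemk, ho]
  · intro g
    obtain ⟨k, hk⟩ := Subgroup.mem_zpowers_iff.1 (ht₀ (e g))
    refine Subgroup.mem_zpowers_iff.2 ⟨k, ?_⟩
    apply e.injective
    rw [map_zpow, hemk, hk]
  · rw [hτ, ho]
  · rw [hτ]
    exact ht₀

/-- the same with the generator `t₀` of `Gal(E'/E)` prescribed. -/
theorem rc_fs_exists_generator_of (t₀ : Gal(E'/E))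
    (ht₀ : ∀ t : Gal(E'/E), t ∈ Subgroup.zpowers t₀) :
    ∃ τ : ↥(rc_dg_sub E M), rc_dg_resHom E E' M τ = t₀ ∧
      orderOf (τ : ↥(rc_dg_sub E M) ⧸ (rc_dg_resHom E E' M).ker) = orderOf t₀ ∧
      ∀ g : ↥(rc_dg_sub E M) ⧸ (rc_dg_resHom E E' M).ker,
        g ∈ Subgroup.zpowers (τ : ↥(rc_dg_sub E M) ⧸ (rc_dg_resHom E E' M).ker) := by
  obtain ⟨τ, hτ⟩ := rc_dg_resHom_surjective (E := E) (E' := E') (M := M) t₀
  set e := rc_fs_kerQuotEquiv E E' M with he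
  have hemk : e (τ : ↥(rc_dg_sub E M) ⧸ (rc_dg_resHom E E' M).ker) = t₀ := by
    rw [he, rc_fs_kerQuotEquiv_mk, hτ]
  refine ⟨τ, hτ, ?_, ?_⟩
  · rw [← orderOf_injective e.toMonoidHom e.injective]
    change orderOf (e _) = _
    rw [hemk]
  · intro g
    obtain ⟨k, hk⟩ := Subgroup.mem_zpowers_iff.1 (ht₀ (e g))
    refine Subgroup.mem_zpowers_iff.2 ⟨k, ?_⟩
    apply e.injective
    rw [map_zpow, hemk, hk]

end layer

section towerLayer

variable {E M : Type} [Field E] [NumberField E] [Field M] [NumberField M] [Algebra E M]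

/-- `E(ζ) ⊆ M`. -/
abbrev rc_fs_Ez (E : Type) {M : Type} [Field E] [Field M] [Algebra E M] (ζ : M) :
    IntermediateField E M := IntermediateField.adjoin E {ζ}

/-- the tower layer `E(ζ_{p^r})/E` is cyclic (`p` odd). -/
theorem rc_fs_tower_isCyclic {p : ℕ} [hpF : Fact p.Prime] (hp2 : p ≠ 2) {r : ℕ} {ζ : M}
    (hζ : IsPrimitiveRoot ζ (p ^ r)) : IsCyclic Gal(↥(rc_fs_Ez E ζ)/E) := by
  haveI : NeZero p := ⟨hpF.out.ne_zero⟩
  haveI := rc_fs_adjoin_isCyclotomic (E := E) hζ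
  exact rc_ax_tower_cyclic (E := E) (M := ↥(rc_fs_Ez E ζ)) hp2 r

/-- the tower layer has `p`-power degree (`p` odd, `ζ_p ∈ E`). -/
theorem rc_fs_tower_card {p : ℕ} [hpF : Fact p.Prime] (hp2 : p ≠ 2) {ζ₁ : E}
    (hζ₁ : IsPrimitiveRoot ζ₁ p) {r : ℕ} {ζ : M} (hζ : IsPrimitiveRoot ζ (p ^ r)) :
    ∃ c, Nat.card Gal(↥(rc_fs_Ez E ζ)/E) = p ^ c := by
  haveI : NeZero p := ⟨hpF.out.ne_zero⟩
  haveI := rc_fs_adjoin_isCyclotomic (E := E) hζ
  exact rc_tl_card_gal_eq_pow (E := E) (M := ↥(rc_fs_Ez E ζ)) hp2 hζ₁ r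

end towerLayer

section auxLayer

variable {E M₁ : Type} [Field E] [NumberField E] [Field M₁] [NumberField M₁] [Algebra E M₁]
  [IsGalois E M₁] [IsMulCommutative Gal(M₁/E)]

/-- the aux layer `Z = rc_ax_layer E E(ζ_l) (p^K)` is cyclic. -/
theorem rc_fs_aux_isCyclic {l : ℕ} [hlF : Fact l.Prime] [IsCyclotomicExtension {l} E M₁]
    (n : ℕ) : IsCyclic Gal(↥(rc_ax_layer E M₁ n)/E) := by
  haveI := rc_ax_prime_cyclic (E := E) (M := M₁) (l := l)
  exact rc_ax_layer_isCyclic n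

/-- the aux layer has degree `p ^ c`, `c ≤ K`. -/
theorem rc_fs_aux_card {p l : ℕ} [hpF : Fact p.Prime] [hlF : Fact l.Prime]
    [IsCyclotomicExtension {l} E M₁] (K : ℕ) :
    ∃ c, c ≤ K ∧ Nat.card Gal(↥(rc_ax_layer E M₁ (p ^ K))/E) = p ^ c := by
  haveI := rc_ax_prime_cyclic (E := E) (M := M₁) (l := l)
  exact (Nat.dvd_prime_pow hpF.out).mp (rc_ax_layer_card_dvd (E := E) (M := M₁) (p ^ K))

end auxLayer

section compAlgebra

/-- the composite algebra structure `E → L → Ω` (for a generic `E`; for `E = rc_fs_E L K` or an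
intermediate field of `L` it is found by instance resolution and agrees with this one). -/
@[reducible] def rc_fs_algebra (E L Ω : Type*) [CommSemiring E] [CommSemiring L] [CommSemiring Ω]
    [Algebra E L] [Algebra L Ω] : Algebra E Ω :=
  ((algebraMap L Ω).comp (algebraMap E L)).toAlgebra

theorem rc_fs_isScalarTower (E L Ω : Type*) [CommSemiring E] [CommSemiring L] [CommSemiring Ω]
    [Algebra E L] [Algebra L Ω] :
    letI := rc_fs_algebra E L Ω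
    IsScalarTower E L Ω := by
  letI := rc_fs_algebra E L Ω
  exact IsScalarTower.of_algebraMap_eq (fun _ => rfl)

end compAlgebra

section ia

variable {T : Finset Nat.Primes} {b Ω : ia_Lev T} (h : b ≤ Ω) (K : Subgroup b.Γ)

/-- **base change along field levels**: `E = b.L^K` inside `Ω.L` has layer `π⁻¹ K`. -/
theorem rc_fs_sub_comap_ia :
    letI := ia_algebra h
    rc_dg_sub (rc_fs_E ↥b.L K) ↥Ω.L = K.comap (ia_Lev.res h) := by
  letI := ia_algebra h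
  exact rc_fs_sub_E_comap K (ia_Lev.res h) (ia_compat_res h)

theorem rc_fs_isGalois_ia :
    letI := ia_algebra h
    IsGalois (rc_fs_E ↥b.L K) ↥Ω.L := by
  letI := ia_algebra h
  haveI : IsGalois ℚ ↥Ω.L := ⟨⟩
  infer_instance

end ia

end Fermat.Agent.S55
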