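/-
S55 / G4 reciprocity, instantiation (C): **the field-side packages with OPAQUE carriers.**

At the concrete levels `↥a.L` (`a : ia_Lev T`, nested `IntermediateField`s of `ℚ̄`) instance search
on explicit carriers such as `↥(IntermediateField.fixedField K)` or
`↥(rc_ax_layer E ↥(adjoin E {ζ}) n)` explores the whole tower of intermediate fields and times out
on failing branches.  The three theorems here produce the carriers `E`, `Z` (aux layer in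
`E(ζ_l)`), `F` (tower layer `E(ζ_{p^r})`) as *existentially quantified types with their
instances*, over an abstract top field `M`; after `obtain` they are opaque local types and all
S14-carrier lemmas (`rc_dg_*`, `rc_pd_*`, `rc_sn_*`, `rc_tf_*`, `rc_fs_layer`, …) apply to them
with instant instance resolution.
-/
import Mathlib
import Fermat.Agent.S55.Recip.FieldSetup

set_option autoImplicit false

open NumberField IsDedekindDomain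

namespace Fermat.Agent.S55

open Fermat.Agent.S14
open scoped IsMulCommutative Pointwise TensorProduct

set_option linter.style.haveILetI false
set_option linter.unusedSectionVars false

/-- **BASE**: the fixed field of a layer `𝒢` as an opaque carrier. -/
theorem rc_fp_base (M : Type) [Field M] [NumberField M] (𝒢 : Subgroup (M ≃ₐ[ℚ] M)) :
    ∃ (E : Type) (_ : Field E) (_ : NumberField E) (_ : Algebra E M) (_ : IsGalois E M),
      rc_dg_sub E M = 𝒢 ∧ id_IsGal E M 𝒢 ∧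
      ∀ (p : ℕ) [Fact p.Prime], IsPGroup p ↥𝒢 → ∀ ζ₁ : M, IsPrimitiveRoot ζ₁ p →
        (∃ ζ₁' : E, IsPrimitiveRoot ζ₁' p ∧ algebraMap E M ζ₁' = ζ₁) ∧
        (p ≠ 2 → IsTotallyComplex E) := by
  refine ⟨rc_fs_E M 𝒢, inferInstance, inferInstance, inferInstance, inferInstance,
    rc_fs_sub_E M 𝒢, rc_fs_isGal M 𝒢, ?_⟩
  intro p _ h𝒢 ζ₁ hζ₁
  exact ⟨rc_fs_exists_zeta h𝒢 hζ₁, fun hp2 => rc_fs_isTotallyComplex hp2 h𝒢 hζ₁⟩

section aux

variable {E M : Type} [Field E] [NumberField E] [Field M] [NumberField M] [Algebra E M]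

/-- **AUX LAYER**: `Z ⊆ E(ζ_l) ⊆ M`, cut out by the `p^K`-th powers of `Gal(E(ζ_l)/E)`, as an
opaque carrier: cyclic of degree `p^c`, `c ≤ K`; unramified outside `l`; Frobenius orders at the
primes over `p` divisible by `p^k` once `k + log_p [E:ℚ] ≤ K`; CCR at the modulus `l`; [APPROX]. -/
theorem rc_fp_aux [IsTotallyComplex E] {p K : ℕ} [hpF : Fact p.Prime] (l : Nat.Primes)
    (hlK : (l : ℕ) % p ^ K = 1) (hnp : ¬ ∃ x : ZMod (l : ℕ), x ^ p = (p : ZMod (l : ℕ)))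
    {ζ : M} (hζ : IsPrimitiveRoot ζ (l : ℕ)) :
    ∃ (Z : Type) (_ : Field Z) (_ : NumberField Z) (_ : Algebra E Z) (_ : Algebra Z M)
      (_ : IsScalarTower E Z M) (_ : IsGalois E Z) (_ : IsMulCommutative Gal(Z/E)),
      IsCyclic Gal(Z/E) ∧ (∃ c, c ≤ K ∧ Nat.card Gal(Z/E) = p ^ c) ∧
      (∀ v : Ideal (𝓞 E), v.IsPrime → v ≠ ⊥ → (((l : ℕ) : ℕ) : 𝓞 E) ∉ v → am_Unram E Z v) ∧
      (∀ k, k + Nat.log p (Module.finrank ℚ E) ≤ K → ∀ v : Ideal (𝓞 E), v.IsPrime → v ≠ ⊥ →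
        (p : 𝓞 E) ∈ v → am_Unram E Z v ∧ p ^ k ∣ orderOf (am_frob E Z v)) ∧
      (∀ (x : Eˣ) (β : (ℚ_[(l : ℕ)] ⊗[ℚ] Z)ˣ),
        rc_cl_normT (E := E) (l : ℕ) (β : ℚ_[(l : ℕ)] ⊗[ℚ] Z) =
          (1 : ℚ_[(l : ℕ)]) ⊗ₜ[ℚ] algebraMap E Z (x : E) → rc_ad_symbol E Z (l : ℕ) x = 1) ∧
      (∀ (T : Finset (HeightOneSpectrum (𝓞 E))) (n : HeightOneSpectrum (𝓞 E) → ℕ),
        (∀ v ∈ T, (((l : ℕ) : ℕ) : 𝓞 E) ∉ v.asIdeal) →
        ∃ b : Eˣ, (∃ b₀ : 𝓞 E, (b : E) = (b₀ : E) ∧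
            b₀ - 1 ∈ Ideal.span {(((l : ℕ) : ℕ) : 𝓞 E)}) ∧
          (∀ v ∈ T, id_ordZ E v b = n v) ∧
          (∃ β : (ℚ_[(l : ℕ)] ⊗[ℚ] Z)ˣ,
            rc_cl_normT (E := E) (l : ℕ) (β : ℚ_[(l : ℕ)] ⊗[ℚ] Z) =
              (1 : ℚ_[(l : ℕ)]) ⊗ₜ[ℚ] algebraMap E Z (b : E)) ∧
          rc_ad_symbol E Z (l : ℕ) b = 1) := by
  have hp := hpF.out
  have hl : (l : ℕ).Prime := l.2
  haveI hlF : Fact (l : ℕ).Prime := ⟨hl⟩
  haveI : NeZero (l : ℕ) := ⟨hl.ne_zero⟩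
  have hpl : p ≠ (l : ℕ) := by
    rintro rfl
    exact hnp ⟨0, by rw [zero_pow hp.ne_zero, ZMod.natCast_self]⟩
  haveI := rc_fs_adjoin_isCyclotomic (E := E) hζ
  haveI := rc_fs_adjoin_isGalois (E := E) hζ
  haveI := rc_fs_adjoin_isMulCommutative (E := E) hζ
  haveI := rc_ax_prime_cyclic (E := E) (M := ↥(rc_fs_Ez E ζ)) (l := (l : ℕ))
  refine ⟨↥(rc_ax_layer E ↥(rc_fs_Ez E ζ) (p ^ K)), inferInstance, inferInstance, inferInstance,
    inferInstance, inferInstance, inferInstance, inferInstance,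
    rc_fs_aux_isCyclic (l := (l : ℕ)) _, rc_fs_aux_card (l := (l : ℕ)) K, ?_, ?_, ?_, ?_⟩
  · intro v hv hv0 hlv
    haveI := hv
    exact rc_ax_layer_unram (p ^ K) hv0 (rc_ax_cyclo_unram (n := (l : ℕ)) v hlv)
  · intro k hK v hv hv0 hpv
    haveI := hv
    obtain ⟨f, hf1, hfn, hvf⟩ := rc_dg_exists_absNorm_pow hp v hpv
    refine ⟨rc_dg_layer_unram hnp hv0 hpv, ?_⟩
    refine (pow_dvd_pow p (rc_dg_le_sub_padicValNat hfn hK)).trans ?_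
    exact rc_ax_layer_orderOf_frob (M := ↥(rc_fs_Ez E ζ)) hlK hnp hv0 hvf
  · intro x β hβ
    exact rc_ap_ccr_prime (M := ↥(rc_fs_Ez E ζ)) x β hβ
  · intro T n hT
    exact rc_ap_exists_norm_elt_symbol (M := ↥(rc_fs_Ez E ζ)) hp l hpl
      (rc_ax_layer_card_dvd (E := E) (M := ↥(rc_fs_Ez E ζ)) (p ^ K)) T n hT

end aux

section tower

variable {E M : Type} [Field E] [NumberField E] [Field M] [NumberField M] [Algebra E M]

/-- **TOWER LAYER**: `F = E(ζ_{p^r}) ⊆ M` as an opaque carrier (`p` odd, `ζ_p ∈ E`): cyclic of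
`p`-power degree; its layer in `Γ_M` is the stabiliser of `ζ` in the layer of `E`; unramified
outside `p`; GROWTH of the Frobenius orders; CCR at the modulus `p^r`. -/
theorem rc_fp_tower [IsTotallyComplex E] {p : ℕ} [hpF : Fact p.Prime] (hp2 : p ≠ 2) {ζ₁ : E}
    (hζ₁ : IsPrimitiveRoot ζ₁ p) {r : ℕ} (hr : 1 ≤ r) {ζ : M} (hζ : IsPrimitiveRoot ζ (p ^ r)) :
    ∃ (F : Type) (_ : Field F) (_ : NumberField F) (_ : Algebra E F) (_ : Algebra F M)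
      (_ : IsScalarTower E F M) (_ : IsGalois E F) (_ : IsMulCommutative Gal(F/E)),
      IsCyclic Gal(F/E) ∧ (∃ c, Nat.card Gal(F/E) = p ^ c) ∧
      (∀ g : M ≃ₐ[ℚ] M, g ∈ rc_dg_sub F M ↔ g ∈ rc_dg_sub E M ∧ g ζ = ζ) ∧
      (∀ v : Ideal (𝓞 E), v.IsPrime → (p : 𝓞 E) ∉ v → am_Unram E F v) ∧
      (∀ (S : Finset (Ideal (𝓞 E))) (k : ℕ), rc_ax_growthLevel p S k ≤ r →
        ∀ v ∈ S, v.IsPrime → v ≠ ⊥ → (p : 𝓞 E) ∉ v → p ^ k ∣ orderOf (am_frob E F v)) ∧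
      (∀ (x : Eˣ) (β : (ℚ_[p] ⊗[ℚ] F)ˣ),
        rc_cl_normT (E := E) p (β : ℚ_[p] ⊗[ℚ] F) =
          (1 : ℚ_[p]) ⊗ₜ[ℚ] algebraMap E F (x : E) → rc_ad_symbol E F (p ^ r) x = 1) := by
  haveI : NeZero p := ⟨hpF.out.ne_zero⟩
  haveI := rc_fs_adjoin_isCyclotomic (E := E) hζ
  haveI := rc_fs_adjoin_isGalois (E := E) hζ
  haveI := rc_fs_adjoin_isMulCommutative (E := E) hζ
  refine ⟨↥(rc_fs_Ez E ζ), inferInstance, inferInstance, inferInstance, inferInstance,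
    inferInstance, inferInstance, inferInstance, rc_fs_tower_isCyclic hp2 hζ,
    rc_fs_tower_card hp2 hζ₁ hζ, fun g => rc_fs_mem_sub_adjoin, ?_, ?_, ?_⟩
  · intro v hv hpv
    haveI := hv
    exact rc_ax_tower_unram (M := ↥(rc_fs_Ez E ζ)) r v hpv
  · intro S k hSr v hvS hv hv0 hpv
    haveI := hv
    exact rc_ax_tower_growth (M := ↥(rc_fs_Ez E ζ)) hp2 hζ₁ S k hSr hvS hv0 hpv
  · intro x β hβ
    exact rc_ad_ccr (M := ↥(rc_fs_Ez E ζ)) (E' := ↥(rc_fs_Ez E ζ)) hr x β hβ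

end tower

section withCyclotomicCarrier

variable {E M : Type} [Field E] [NumberField E] [Field M] [NumberField M] [Algebra E M]

/-- **TOWER LAYER, with the cyclotomic instance** (`C := F` in `rc_cc_cyc`, `j := r`): the same
package as `rc_fp_tower` plus `[IsCyclotomicExtension {p ^ r} E F]`. -/
theorem rc_fp_tower_cyc [IsTotallyComplex E] {p : ℕ} [hpF : Fact p.Prime] (hp2 : p ≠ 2)
    {ζ₁ : E} (hζ₁ : IsPrimitiveRoot ζ₁ p) {r : ℕ} (hr : 1 ≤ r) {ζ : M}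
    (hζ : IsPrimitiveRoot ζ (p ^ r)) :
    ∃ (F : Type) (_ : Field F) (_ : NumberField F) (_ : Algebra E F) (_ : Algebra F M)
      (_ : IsScalarTower E F M) (_ : IsGalois E F) (_ : IsMulCommutative Gal(F/E))
      (_ : IsCyclotomicExtension {p ^ r} E F),
      IsCyclic Gal(F/E) ∧ (∃ c, Nat.card Gal(F/E) = p ^ c) ∧
      (∀ g : M ≃ₐ[ℚ] M, g ∈ rc_dg_sub F M ↔ g ∈ rc_dg_sub E M ∧ g ζ = ζ) ∧
      (∀ v : Ideal (𝓞 E), v.IsPrime → (p : 𝓞 E) ∉ v → am_Unram E F v) ∧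
      (∀ (S : Finset (Ideal (𝓞 E))) (k : ℕ), rc_ax_growthLevel p S k ≤ r →
        ∀ v ∈ S, v.IsPrime → v ≠ ⊥ → (p : 𝓞 E) ∉ v → p ^ k ∣ orderOf (am_frob E F v)) ∧
      (∀ (x : Eˣ) (β : (ℚ_[p] ⊗[ℚ] F)ˣ),
        rc_cl_normT (E := E) p (β : ℚ_[p] ⊗[ℚ] F) =
          (1 : ℚ_[p]) ⊗ₜ[ℚ] algebraMap E F (x : E) → rc_ad_symbol E F (p ^ r) x = 1) := by
  haveI : NeZero p := ⟨hpF.out.ne_zero⟩
  haveI := rc_fs_adjoin_isCyclotomic (E := E) hζ
  haveI := rc_fs_adjoin_isGalois (E := E) hζ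
  haveI := rc_fs_adjoin_isMulCommutative (E := E) hζ
  refine ⟨↥(rc_fs_Ez E ζ), inferInstance, inferInstance, inferInstance, inferInstance,
    inferInstance, inferInstance, inferInstance, inferInstance, rc_fs_tower_isCyclic hp2 hζ,
    rc_fs_tower_card hp2 hζ₁ hζ, fun g => rc_fs_mem_sub_adjoin, ?_, ?_, ?_⟩
  · intro v hv hpv
    haveI := hv
    exact rc_ax_tower_unram (M := ↥(rc_fs_Ez E ζ)) r v hpv
  · intro S k hSr v hvS hv hv0 hpv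
    haveI := hv
    exact rc_ax_tower_growth (M := ↥(rc_fs_Ez E ζ)) hp2 hζ₁ S k hSr hvS hv0 hpv
  · intro x β hβ
    exact rc_ad_ccr (M := ↥(rc_fs_Ez E ζ)) (E' := ↥(rc_fs_Ez E ζ)) hr x β hβ

/-- **AUX LAYER, with the cyclotomic carrier** `C = E(ζ_l) ⊇ Z` (for `rc_cc_cyc` with `j := 1`):
the same package as `rc_fp_aux` plus an opaque `C` with `[IsCyclotomicExtension {l ^ 1} E C]`. -/
theorem rc_fp_aux_cyc [IsTotallyComplex E] {p K : ℕ} [hpF : Fact p.Prime] (l : Nat.Primes)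
    (hlK : (l : ℕ) % p ^ K = 1) (hnp : ¬ ∃ x : ZMod (l : ℕ), x ^ p = (p : ZMod (l : ℕ)))
    {ζ : M} (hζ : IsPrimitiveRoot ζ (l : ℕ)) :
    ∃ (Z : Type) (_ : Field Z) (_ : NumberField Z) (_ : Algebra E Z) (_ : Algebra Z M)
      (_ : IsScalarTower E Z M) (_ : IsGalois E Z) (_ : IsMulCommutative Gal(Z/E))
      (C : Type) (_ : Field C) (_ : NumberField C) (_ : Algebra Z C) (_ : Algebra E C)
      (_ : IsScalarTower E Z C) (_ : IsGalois E C) (_ : IsMulCommutative Gal(C/E))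
      (_ : IsCyclotomicExtension {(l : ℕ) ^ 1} E C),
      IsCyclic Gal(Z/E) ∧ (∃ c, c ≤ K ∧ Nat.card Gal(Z/E) = p ^ c) ∧
      (∀ v : Ideal (𝓞 E), v.IsPrime → v ≠ ⊥ → (((l : ℕ) : ℕ) : 𝓞 E) ∉ v → am_Unram E Z v) ∧
      (∀ k, k + Nat.log p (Module.finrank ℚ E) ≤ K → ∀ v : Ideal (𝓞 E), v.IsPrime → v ≠ ⊥ →
        (p : 𝓞 E) ∈ v → am_Unram E Z v ∧ p ^ k ∣ orderOf (am_frob E Z v)) ∧
      (∀ (x : Eˣ) (β : (ℚ_[(l : ℕ)] ⊗[ℚ] Z)ˣ),
        rc_cl_normT (E := E) (l : ℕ) (β : ℚ_[(l : ℕ)] ⊗[ℚ] Z) =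
          (1 : ℚ_[(l : ℕ)]) ⊗ₜ[ℚ] algebraMap E Z (x : E) → rc_ad_symbol E Z (l : ℕ) x = 1) ∧
      (∀ (T : Finset (HeightOneSpectrum (𝓞 E))) (n : HeightOneSpectrum (𝓞 E) → ℕ),
        (∀ v ∈ T, (((l : ℕ) : ℕ) : 𝓞 E) ∉ v.asIdeal) →
        ∃ b : Eˣ, (∃ b₀ : 𝓞 E, (b : E) = (b₀ : E) ∧
            b₀ - 1 ∈ Ideal.span {(((l : ℕ) : ℕ) : 𝓞 E)}) ∧
          (∀ v ∈ T, id_ordZ E v b = n v) ∧
          (∃ β : (ℚ_[(l : ℕ)] ⊗[ℚ] Z)ˣ,
            rc_cl_normT (E := E) (l : ℕ) (β : ℚ_[(l : ℕ)] ⊗[ℚ] Z) =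
              (1 : ℚ_[(l : ℕ)]) ⊗ₜ[ℚ] algebraMap E Z (b : E)) ∧
          rc_ad_symbol E Z (l : ℕ) b = 1) := by
  have hp := hpF.out
  have hl : (l : ℕ).Prime := l.2
  haveI hlF : Fact (l : ℕ).Prime := ⟨hl⟩
  haveI : NeZero (l : ℕ) := ⟨hl.ne_zero⟩
  have hpl : p ≠ (l : ℕ) := by
    rintro rfl
    exact hnp ⟨0, by rw [zero_pow hp.ne_zero, ZMod.natCast_self]⟩
  haveI := rc_fs_adjoin_isCyclotomic (E := E) hζ
  haveI := rc_fs_adjoin_isGalois (E := E) hζ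
  haveI := rc_fs_adjoin_isMulCommutative (E := E) hζ
  haveI := rc_ax_prime_cyclic (E := E) (M := ↥(rc_fs_Ez E ζ)) (l := (l : ℕ))
  haveI : IsCyclotomicExtension {(l : ℕ) ^ 1} E ↥(rc_fs_Ez E ζ) := by rwa [pow_one]
  refine ⟨↥(rc_ax_layer E ↥(rc_fs_Ez E ζ) (p ^ K)), inferInstance, inferInstance, inferInstance,
    inferInstance, inferInstance, inferInstance, inferInstance,
    ↥(rc_fs_Ez E ζ), inferInstance, inferInstance, inferInstance, inferInstance, inferInstance,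
    inferInstance, inferInstance, inferInstance,
    rc_fs_aux_isCyclic (l := (l : ℕ)) _, rc_fs_aux_card (l := (l : ℕ)) K, ?_, ?_, ?_, ?_⟩
  · intro v hv hv0 hlv
    haveI := hv
    exact rc_ax_layer_unram (p ^ K) hv0 (rc_ax_cyclo_unram (n := (l : ℕ)) v hlv)
  · intro k hK v hv hv0 hpv
    haveI := hv
    obtain ⟨f, hf1, hfn, hvf⟩ := rc_dg_exists_absNorm_pow hp v hpv
    refine ⟨rc_dg_layer_unram hnp hv0 hpv, ?_⟩
    refine (pow_dvd_pow p (rc_dg_le_sub_padicValNat hfn hK)).trans ?_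
    exact rc_ax_layer_orderOf_frob (M := ↥(rc_fs_Ez E ζ)) hlK hnp hv0 hvf
  · intro x β hβ
    exact rc_ap_ccr_prime (M := ↥(rc_fs_Ez E ζ)) x β hβ
  · intro T n hT
    exact rc_ap_exists_norm_elt_symbol (M := ↥(rc_fs_Ez E ζ)) hp l hpl
      (rc_ax_layer_card_dvd (E := E) (M := ↥(rc_fs_Ez E ζ)) (p ^ K)) T n hT

end withCyclotomicCarrier

section levelChange

variable (E Z L₁ L₂ : Type*) [CommSemiring E] [CommSemiring Z] [CommSemiring L₁] [CommSemiring L₂]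
  [Algebra E Z] [Algebra Z L₁] [Algebra E L₁] [IsScalarTower E Z L₁] [Algebra L₁ L₂]

/-- pushing a tower `E → Z → L₁` of opaque carriers to a higher level `L₂` with the composite
algebra structures `rc_fs_algebra`. -/
theorem rc_fp_isScalarTower_comp :
    letI := rc_fs_algebra E L₁ L₂
    letI := rc_fs_algebra Z L₁ L₂
    IsScalarTower E Z L₂ := by
  letI := rc_fs_algebra E L₁ L₂
  letI := rc_fs_algebra Z L₁ L₂
  refine IsScalarTower.of_algebraMap_eq (fun x => ?_)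
  change algebraMap L₁ L₂ (algebraMap E L₁ x) = algebraMap L₁ L₂ (algebraMap Z L₁ (algebraMap E Z x))
  rw [← IsScalarTower.algebraMap_apply E Z L₁]

end levelChange

end Fermat.Agent.S55
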