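import Fermat.Agent.S55.Recip.OrbitExt

/-!
# S55, leaf `Orbit`: restriction of a decomposition to a subgroup

For `H' ≤ H` a decomposition of `A` over the `H`-set `X` restricts to a decomposition of
`tt_res H' A` over the `H'`-set `X` (`ob_RepDecomp.res`), and a component `B` at `x₀` (over the
stabiliser `S` of `x₀` in `H`) restricts to the component `Rep.res _ B` over `S.subgroupOf H'`
(`ob_Comp.res`).  So all theorems of `Recip/Orbit.lean`, `Recip/OrbitExt.lean` apply to the
`H'`-orbits of `X`.
-/

set_option autoImplicit false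

namespace Fermat.Agent.S55

open CategoryTheory groupCohomology MulAction

variable {H : Type} [Group H] {A : Rep.{0} ℤ H} {X : Type*} [MulAction H X] [Fintype X]

/-- restriction of a decomposition to a subgroup -/
def ob_RepDecomp.res (D : ob_RepDecomp A X) (H' : Subgroup H) : ob_RepDecomp (tt_res H' A) X where
  π := D.π
  idem := D.idem
  orth := D.orth
  sum_eq := D.sum_eq
  ρ_π h x m := D.ρ_π (h : H) x m

@[simp] theorem ob_RepDecomp.res_π (D : ob_RepDecomp A X) (H' : Subgroup H) (x : X) :
    (D.res H').π x = D.π x := rfl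

variable {D : ob_RepDecomp A X} {x₀ : X} {S : Subgroup H} {B : Rep.{0} ℤ S}

/-- the inclusion of `S ⊓ H'` (as a subgroup of `H'`) into `S` -/
def ob_subgroupOfHom (S H' : Subgroup H) : ↥(S.subgroupOf H') →* ↥S where
  toFun s := ⟨((s : ↥H') : H), s.2⟩
  map_one' := rfl
  map_mul' _ _ := rfl

@[simp] theorem ob_subgroupOfHom_coe (S H' : Subgroup H) (s : ↥(S.subgroupOf H')) :
    ((ob_subgroupOfHom S H' s : ↥S) : H) = ((s : ↥H') : H) := rfl

/-- restriction of a component to a subgroup `H' ≤ H`: the component at `x₀` of `tt_res H' A`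
over the stabiliser `S.subgroupOf H'` of `x₀` in `H'`. -/
noncomputable def ob_Comp.res (C : ob_Comp A D x₀ S B) (H' : Subgroup H) :
    ob_Comp (tt_res H' A) (D.res H') x₀ (S.subgroupOf H')
      (Rep.res (ob_subgroupOfHom S H') B) where
  stab g := by
    rw [Subgroup.mem_subgroupOf, C.stab]
    rfl
  pr := ob_mkHom (tt_res (S.subgroupOf H') (tt_res H' A)) (Rep.res (ob_subgroupOfHom S H') B)
    { toFun := fun a => C.pr.hom a
      map_zero' := map_zero C.pr.hom
      map_add' := fun a b => map_add C.pr.hom a b }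
    (fun s a => C.pr_ρ (ob_subgroupOfHom S H' s) a)
  ι := C.ι
  pr_ι := C.pr_ι
  ι_pr := C.ι_pr

theorem ob_Comp.res_pr_apply (C : ob_Comp A D x₀ S B) (H' : Subgroup H) (a : A.V) :
    (C.res H').pr.hom a = C.pr.hom a := rfl

/-- **Localisation commutes with restriction**: `loc^{H'}_{x₀} ∘ res^H_{H'} =
res^S_{S ∩ H'} ∘ loc^H_{x₀}`. -/
theorem ob_loc_res (C : ob_Comp A D x₀ S B) (H' : Subgroup H) (n : ℕ) :
    tt_resMap H' A n ≫ ob_loc (S.subgroupOf H') (C.res H').pr n =
      ob_loc S C.pr n ≫
        groupCohomology.map (ob_subgroupOfHom S H') (𝟙 (Rep.res (ob_subgroupOfHom S H') B)) n := by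
  rw [ob_loc, ob_loc, tt_resMap, ← groupCohomology.map_comp, ← groupCohomology.map_comp]
  exact groupCohomology.map_congr rfl rfl n

theorem ob_loc_res_apply (C : ob_Comp A D x₀ S B) (H' : Subgroup H) (n : ℕ)
    (z : groupCohomology A n) :
    (ob_loc (S.subgroupOf H') (C.res H').pr n).hom ((tt_resMap H' A n).hom z) =
      (groupCohomology.map (ob_subgroupOfHom S H')
        (𝟙 (Rep.res (ob_subgroupOfHom S H') B)) n).hom ((ob_loc S C.pr n).hom z) := by
  have h := ob_loc_res C H' n
  exact congrArg (fun f => f.hom z) h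

end Fermat.Agent.S55
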