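import Fermat.Agent.S55.Recip.TotalInv
import Fermat.Agent.S55.Recip.OrbitRes

/-!
# S55, block [G4]: Hasse principle and extension by zero for a restricted sum of coinduced modules

`𝔻 : rc_InvData p J Q` (decomposition groups `D q ≤ Γ`, local modules `X q`, projections
`pr q : res (D q) J ⟶ X q`).  `hs_IsCoindSum 𝔻` says that `J` is the restricted sum over `q : Q`
of the modules coinduced from `X q`, through `a ↦ (q, g) ↦ pr q (g • a)`.  Under this hypothesis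
(`Γ` finite):

* `hs_finSupp`: `rc_FinSupp 𝔻` (every class of `H²(H, J)` has finitely many non-zero components);
* `hs_hasse` **(U4)**: a class of `H²(H, J)` all of whose components `rc_comp 𝔻 q H g` vanish is `0`;
* `hs_exists` **(U5)**: every class of `H²(g⁻¹Hg ∩ D q, X q)` is the `(q, g)`-component of a class
  of `H²(H, J)` whose other components vanish.

The first part is generic (`ob_RepDecomp`-language): conjugate components (`hs_conjComp`) and the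
Hasse principle for cocycles supported on the orbits that carry a component
(`hs_cl2_eq_zero_of_loc_supp`).
-/

set_option autoImplicit false

namespace Fermat.Agent.S55

open CategoryTheory groupCohomology MulAction

/-! ### Part A: generic statements -/

section equivInj

variable {G G' : Type} [Group G] [Group G']

/-- the map induced on `H²` by an isomorphism of groups is injective -/
theorem hs_map_equiv_injective (e : G' ≃* G) (B : Rep.{0} ℤ G) :
    Function.Injective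
      (groupCohomology.map e.toMonoidHom (𝟙 (Rep.res e.toMonoidHom B)) 2).hom := by
  rw [injective_iff_map_eq_zero]
  intro z hz
  obtain ⟨c, hc, rfl⟩ := te_cl2_surjective B z
  rw [te_map_cl2 e.toMonoidHom (𝟙 (Rep.res e.toMonoidHom B)) hc, te_cl2_eq_zero_iff] at hz
  obtain ⟨y, hy⟩ := hz
  rw [te_cl2_eq_zero_iff]
  refine ⟨fun g => y (e.symm g), funext fun q => ?_⟩
  have h := congrFun hy (e.symm q.1, e.symm q.2)
  simp only [te_d1] at h ⊢
  have e1 : ∀ g : G, e.toMonoidHom (e.symm g) = g := fun g => e.apply_symm_apply g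
  rw [e1, e1] at h
  have e2 : (Rep.res e.toMonoidHom B).ρ (e.symm q.1) = B.ρ q.1 := by
    show B.ρ (e.toMonoidHom (e.symm q.1)) = B.ρ q.1
    rw [e1]
  rw [e2, ← map_mul] at h
  exact h

end equivInj

section conj

variable {Γ : Type} [Group Γ] {A : Rep.{0} ℤ Γ} {X : Type*} [MulAction Γ X] [Fintype X]
  {𝒟 : ob_RepDecomp A X} {x₀ : X} {S : Subgroup Γ} {B : Rep.{0} ℤ S}

theorem hs_ρ_mul (A : Rep.{0} ℤ Γ) (g h : Γ) (a : A.V) : A.ρ (g * h) a = A.ρ g (A.ρ h a) := by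
  rw [map_mul]; rfl

theorem hs_ρ_one (A : Rep.{0} ℤ Γ) (a : A.V) : A.ρ 1 a = a := by
  rw [map_one]; rfl

theorem hs_ρ_inv_ρ (A : Rep.{0} ℤ Γ) (g : Γ) (a : A.V) : A.ρ g⁻¹ (A.ρ g a) = a := by
  rw [← hs_ρ_mul, inv_mul_cancel, hs_ρ_one]

theorem hs_ρ_ρ_inv (A : Rep.{0} ℤ Γ) (g : Γ) (a : A.V) : A.ρ g (A.ρ g⁻¹ a) = a := by
  rw [← hs_ρ_mul, mul_inv_cancel, hs_ρ_one]

/-- the stabiliser in `H` of `g • x₀`, when `S` is the stabiliser of `x₀` in `Γ`:
`{s ∈ H | g⁻¹ s g ∈ S}` -/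
def hs_conjStab (S H : Subgroup Γ) (g : Γ) : Subgroup ↥H :=
  S.comap ((MulAut.conj g).symm.toMonoidHom.comp H.subtype)

theorem hs_mem_conjStab {S H : Subgroup Γ} {g : Γ} {s : ↥H} :
    s ∈ hs_conjStab S H g ↔ g⁻¹ * (s : Γ) * g ∈ S := Iff.rfl

/-- `s ↦ g⁻¹ s g` from the stabiliser of `g • x₀` in `H` to `S` -/
def hs_conjHom (S H : Subgroup Γ) (g : Γ) : ↥(hs_conjStab S H g) →* ↥S where
  toFun s := ⟨g⁻¹ * ((s : ↥H) : Γ) * g, hs_mem_conjStab.mp s.2⟩
  map_one' := by ext; simp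
  map_mul' a b := by ext; simp [mul_assoc]

@[simp] theorem hs_conjHom_coe (S H : Subgroup Γ) (g : Γ) (s : ↥(hs_conjStab S H g)) :
    ((hs_conjHom S H g s : ↥S) : Γ) = g⁻¹ * ((s : ↥H) : Γ) * g := rfl

/-- **Conjugate component.**  A component `B` of `A` at `x₀` (over `S ≤ Γ`) gives, for `H ≤ Γ` and
`g : Γ`, a component of `res H A` at `g • x₀` over `{s ∈ H | g⁻¹ s g ∈ S}`, with projection
`a ↦ pr (g⁻¹ • a)`. -/
noncomputable def hs_conjComp (C : ob_Comp A 𝒟 x₀ S B) (H : Subgroup Γ) (g : Γ) :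
    ob_Comp (tt_res H A) (𝒟.res H) (g • x₀) (hs_conjStab S H g)
      (Rep.res (hs_conjHom S H g) B) where
  stab s := by
    rw [hs_mem_conjStab, C.stab]
    show (g⁻¹ * (s : Γ) * g) • x₀ = x₀ ↔ (s : Γ) • g • x₀ = g • x₀
    rw [mul_smul, mul_smul, inv_smul_eq_iff]
  pr := ob_mkHom (tt_res (hs_conjStab S H g) (tt_res H A)) (Rep.res (hs_conjHom S H g) B)
    { toFun := fun a => C.pr.hom (A.ρ g⁻¹ a)
      map_zero' := by rw [map_zero, map_zero]
      map_add' := fun a b => by rw [map_add, map_add] }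
    (fun s a => by
      show C.pr.hom (A.ρ g⁻¹ (A.ρ ((s : ↥H) : Γ) a)) = B.ρ (hs_conjHom S H g s) (C.pr.hom (A.ρ g⁻¹ a))
      rw [← C.pr_ρ, hs_conjHom_coe, ← hs_ρ_mul, ← hs_ρ_mul]
      congr 2
      group)
  ι :=
    { toFun := fun b => A.ρ g (C.ι b)
      map_zero' := by rw [map_zero, map_zero]
      map_add' := fun a b => by rw [map_add, map_add] }
  pr_ι b := by
    show C.pr.hom (A.ρ g⁻¹ (A.ρ g (C.ι b))) = b
    rw [hs_ρ_inv_ρ, C.pr_ι]
  ι_pr a := by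
    show A.ρ g (C.ι (C.pr.hom (A.ρ g⁻¹ a))) = 𝒟.π (g • x₀) a
    rw [C.ι_pr, 𝒟.ρ_π, hs_ρ_ρ_inv]

theorem hs_conjComp_pr_apply (C : ob_Comp A 𝒟 x₀ S B) (H : Subgroup Γ) (g : Γ) (a : A.V) :
    (hs_conjComp C H g).pr.hom a = C.pr.hom (A.ρ g⁻¹ a) := rfl

/-- the isomorphism `{s ∈ H | g⁻¹ s g ∈ S} ≃ g⁻¹ H g ∩ S`, `s ↦ g⁻¹ s g` -/
def hs_conjEquiv (S H : Subgroup Γ) (g : Γ) :
    ↥(hs_conjStab S H g) ≃* ↥((rc_conj g H).subgroupOf S) where
  toFun s := ⟨hs_conjHom S H g s, by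
    rw [Subgroup.mem_subgroupOf, rc_mem_conj, hs_conjHom_coe]
    have : g * (g⁻¹ * ((s : ↥H) : Γ) * g) * g⁻¹ = ((s : ↥H) : Γ) := by group
    rw [this]
    exact (s : ↥H).2⟩
  invFun d := ⟨⟨g * ((d : ↥S) : Γ) * g⁻¹, rc_mem_conj.mp (Subgroup.mem_subgroupOf.mp d.2)⟩, by
    rw [hs_mem_conjStab]
    have : g⁻¹ * (g * ((d : ↥S) : Γ) * g⁻¹) * g = ((d : ↥S) : Γ) := by group
    show g⁻¹ * (g * ((d : ↥S) : Γ) * g⁻¹) * g ∈ S
    rw [this]
    exact (d : ↥S).2⟩
  left_inv s := by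
    apply Subtype.ext
    apply Subtype.ext
    show g * (g⁻¹ * ((s : ↥H) : Γ) * g) * g⁻¹ = ((s : ↥H) : Γ)
    group
  right_inv d := by
    apply Subtype.ext
    apply Subtype.ext
    show g⁻¹ * (g * ((d : ↥S) : Γ) * g⁻¹) * g = ((d : ↥S) : Γ)
    group
  map_mul' a b := by
    apply Subtype.ext
    exact map_mul (hs_conjHom S H g) a b

theorem hs_conjEquiv_coe (S H : Subgroup Γ) (g : Γ) (s : ↥(hs_conjStab S H g)) :
    ((hs_conjEquiv S H g s : ↥((rc_conj g H).subgroupOf S)) : ↥S) = hs_conjHom S H g s := rfl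

/-- the localisation at the conjugate component is helper13's `rc_cj ≫ rc_loc`, up to the
identification `hs_conjEquiv` of the groups. -/
theorem hs_loc_conjComp (C : ob_Comp A 𝒟 x₀ S B) (H : Subgroup Γ) (g : Γ) :
    ob_loc (hs_conjStab S H g) (hs_conjComp C H g).pr 2 =
      (rc_cj A g (rc_conj_spec g H) 2 ≫ rc_loc C.pr (rc_conj g H) 2) ≫
        groupCohomology.map (hs_conjEquiv S H g).toMonoidHom
          (𝟙 (Rep.res (hs_conjEquiv S H g).toMonoidHom (tt_res ((rc_conj g H).subgroupOf S) B)))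
          2 := by
  unfold rc_cj rc_loc
  rw [ob_loc, ← groupCohomology.map_comp, ← groupCohomology.map_comp]
  refine groupCohomology.map_congr ?_ ?_ 2
  · ext s
    show ((s : ↥H) : Γ) = g * (g⁻¹ * ((s : ↥H) : Γ) * g) * g⁻¹
    group
  · rfl

end conj

section explicit

variable {Γ : Type} [Group Γ]

theorem hs_cl2_eq_zero_of_forall {G : Type} [Group G] (A : Rep.{0} ℤ G) (c : G × G → A.V)
    (hc : te_IsZ2 A c) (h0 : ∀ q, c q = 0) : te_cl2 A c hc = 0 := by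
  rw [te_cl2_eq_zero_iff]
  refine ⟨fun _ => 0, funext fun q => ?_⟩
  simp only [te_d1, h0 q, map_zero, sub_zero, add_zero]

/-- the explicit cocycle of a conjugate component `rc_cj ≫ rc_loc` -/
theorem hs_cj_loc_cl2 (A : Rep.{0} ℤ Γ) {D : Subgroup Γ} {B : Rep.{0} ℤ D} (pr : tt_res D A ⟶ B)
    (H : Subgroup Γ) (g : Γ) (c : ↥H × ↥H → A.V) (hc : te_IsZ2 (tt_res H A) c) :
    (rc_cj A g (rc_conj_spec g H) 2 ≫ rc_loc pr (rc_conj g H) 2).hom (te_cl2 (tt_res H A) c hc) =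
      te_cl2 (tt_res ((rc_conj g H).subgroupOf D) B)
        (fun q => pr.hom (A.ρ g⁻¹
          (c (rc_cjHom g (rc_conj_spec g H) (rc_locHom D (rc_conj g H) q.1),
            rc_cjHom g (rc_conj_spec g H) (rc_locHom D (rc_conj g H) q.2)))))
        (te_isZ2_map (rc_locHom D (rc_conj g H)) (rc_locMor pr (rc_conj g H))
          (te_isZ2_map (rc_cjHom g (rc_conj_spec g H)) (rc_cjMor A g (rc_conj_spec g H)) hc)) := by
  have h1 := te_map_cl2 (rc_cjHom g (rc_conj_spec g H)) (rc_cjMor A g (rc_conj_spec g H)) hc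
  have h2 := te_map_cl2 (rc_locHom D (rc_conj g H)) (rc_locMor pr (rc_conj g H))
    (te_isZ2_map (rc_cjHom g (rc_conj_spec g H)) (rc_cjMor A g (rc_conj_spec g H)) hc)
  show (rc_loc pr (rc_conj g H) 2).hom ((rc_cj A g (rc_conj_spec g H) 2).hom _) = _
  unfold rc_cj rc_loc
  rw [h1, h2]
  rfl

end explicit

section supp

variable {H : Type} [Group H] {A : Rep.{0} ℤ H} {X : Type*} [MulAction H X] [Fintype X]
  (D : ob_RepDecomp A X)

/-- the extension by zero has no component at a point outside the orbit (no component structure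
needed at that point) -/
theorem hs_π_ext_of_notMem {D : ob_RepDecomp A X} {x₀ : X} {S : Subgroup H} {B : Rep.{0} ℤ S}
    (C : ob_Comp A D x₀ S B) (c₀ : ↥S × ↥S → B.V) {y₀ : X}
    (hy : y₀ ∉ MulAction.orbit H x₀) (q : H × H) :
    D.π y₀ (ob_extCochain₂ C c₀ q : A.V) = 0 := by
  let _ := ob_repAction A
  exact ob_supp_coind₂ D.toDecomp x₀ (c₀ := ob_lift₂ C c₀) (fun p => C.π_ι _)
    (y := y₀) (fun hmem => hy (ob_mem_orb.mp hmem)) q

/-- **Hasse principle with support**: a cocycle whose components vanish identically outside the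
orbits of the points `pt i`, and whose localisations at the components `C i` (at `pt i`) are
cohomologically trivial, is a coboundary. -/
theorem hs_cl2_eq_zero_of_loc_supp {I : Type*} (pt : I → X)
    (S : I → Subgroup H) (B : ∀ i, Rep.{0} ℤ (S i)) (C : ∀ i, ob_Comp A D (pt i) (S i) (B i))
    (c : H × H → A.V) (hc : te_IsZ2 A c)
    (hsupp : ∀ x : X, (∀ i, x ∉ MulAction.orbit H (pt i)) → ∀ q, D.π x (c q) = 0)
    (hz : ∀ i, (ob_loc (S i) (C i).pr 2).hom (te_cl2 A c hc) = 0) : te_cl2 A c hc = 0 := by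
  rw [te_cl2_eq_zero_iff]
  let _ := ob_repAction A
  have hcob : IsCoboundary₂ c := by
    refine ob_isCoboundary₂_of_loc_family D.toDecomp (c := c) hc
      (I := I ⊕ {x : X // ∀ i, x ∉ MulAction.orbit H (pt i)})
      (fun j => Sum.elim pt (fun x => x.1) j) ?_ ?_
    · intro x
      by_cases hx : ∃ i, x ∈ MulAction.orbit H (pt i)
      · obtain ⟨i, hi⟩ := hx
        exact ⟨Sum.inl i, hi⟩
      · exact ⟨Sum.inr ⟨x, fun i hi => hx ⟨i, hi⟩⟩, MulAction.mem_orbit_self x⟩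
    · rintro (i | x)
      · have h1 := hz i
        rw [ob_loc, te_map_cl2 (S i).subtype (C i).pr hc, te_cl2_eq_zero_iff] at h1
        obtain ⟨y, hy⟩ := h1
        have hmem : ∀ s : ↥(MulAction.stabilizer H (pt i)), (s : H) ∈ S i := fun s =>
          ((C i).stab s).mpr s.2
        refine ⟨fun s => (C i).ι (y ⟨s, hmem s⟩), fun s s' => ?_⟩
        have h2 := congrFun hy (⟨s, hmem s⟩, ⟨s', hmem s'⟩)
        simp only [te_d1] at h2
        have h3 := congrArg (C i).ι h2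
        rw [(C i).ι_pr, map_add, map_sub, (C i).ι_ρ] at h3
        exact h3.symm
      · refine ⟨fun _ => 0, fun s s' => ?_⟩
        show s • (0 : A.V) - 0 + 0 = D.π x.1 (c ((s : H), (s' : H)))
        rw [hsupp x.1 x.2, smul_zero, sub_zero, add_zero]
  obtain ⟨b, hb⟩ := hcob
  exact ⟨b, funext fun q => (hb q.1 q.2).symm⟩

end supp

/-! ### Part B: restricted sums of coinduced modules -/

section coindSum

variable {Γ : Type} [Group Γ] {p : ℕ} {J : Rep.{0} ℤ Γ} {Q : Type}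

/-- `J` is the restricted sum over `q : Q` of the modules coinduced from `X q` along `D q ≤ Γ`:
`a ↦ (q, g) ↦ pr q (g • a)` is a bijection from `J` onto the finitely supported families of
`D q`-equivariant functions `Γ → X q`. -/
structure hs_IsCoindSum (𝔻 : rc_InvData p J Q) : Prop where
  ext : ∀ a : J.V, (∀ (q : Q) (g : Γ), (𝔻.pr q).hom (J.ρ g a) = 0) → a = 0
  fin : ∀ a : J.V, {q : Q | ∃ g : Γ, (𝔻.pr q).hom (J.ρ g a) ≠ 0}.Finite
  exists_eq : ∀ φ : ∀ q : Q, Γ → (𝔻.X q).V,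
    (∀ (q : Q) (d : ↥(𝔻.D q)) (g : Γ), φ q ((d : Γ) * g) = (𝔻.X q).ρ d (φ q g)) →
    {q : Q | ∃ g : Γ, φ q g ≠ 0}.Finite →
    ∃ a : J.V, ∀ (q : Q) (g : Γ), (𝔻.pr q).hom (J.ρ g a) = φ q g

variable {𝔻 : rc_InvData p J Q}

theorem hs_IsCoindSum.ext' (h : hs_IsCoindSum 𝔻) {a a' : J.V}
    (haa' : ∀ (q : Q) (g : Γ), (𝔻.pr q).hom (J.ρ g a) = (𝔻.pr q).hom (J.ρ g a')) : a = a' := by
  rw [← sub_eq_zero]
  refine h.ext _ fun q g => ?_
  rw [map_sub, map_sub, haa', sub_self]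

theorem hs_pr_ρ (𝔻 : rc_InvData p J Q) (q : Q) (d : ↥(𝔻.D q)) (a : J.V) :
    (𝔻.pr q).hom (J.ρ (d : Γ) a) = (𝔻.X q).ρ d ((𝔻.pr q).hom a) :=
  Rep.hom_comm_apply (𝔻.pr q) d a

variable (𝔻) in
/-- the index set of the decomposition relative to a finite set `T` of `q`'s: the "places over
`T`", and one extra point for everything outside `T` -/
abbrev hs_X (T : Finset Q) : Type := Option (Σ q : ↥T, Γ ⧸ 𝔻.D q.1)

noncomputable instance hs_fintypeX [Finite Γ] (T : Finset Q) : Fintype (hs_X 𝔻 T) :=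
  Fintype.ofFinite _

open scoped Classical in
variable (𝔻) in
/-- the point of `hs_X 𝔻 T` seen by `(q, g)`: the place `g⁻¹ · (chosen place over q)` if `q ∈ T`,
the extra point otherwise -/
noncomputable def hs_pt (T : Finset Q) (q : Q) (g : Γ) : hs_X 𝔻 T :=
  if hq : q ∈ T then some ⟨⟨q, hq⟩, ((g⁻¹ : Γ) : Γ ⧸ 𝔻.D q)⟩ else none

theorem hs_pt_of_mem (T : Finset Q) {q : Q} (hq : q ∈ T) (g : Γ) :
    hs_pt 𝔻 T q g = some ⟨⟨q, hq⟩, ((g⁻¹ : Γ) : Γ ⧸ 𝔻.D q)⟩ := by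
  rw [hs_pt, dif_pos hq]

theorem hs_pt_of_notMem (T : Finset Q) {q : Q} (hq : q ∉ T) (g : Γ) :
    hs_pt 𝔻 T q g = none := by
  rw [hs_pt, dif_neg hq]

theorem hs_pt_mul_left (T : Finset Q) (q : Q) (d : ↥(𝔻.D q)) (g : Γ) :
    hs_pt 𝔻 T q ((d : Γ) * g) = hs_pt 𝔻 T q g := by
  by_cases hq : q ∈ T
  · rw [hs_pt_of_mem T hq, hs_pt_of_mem T hq]
    congr 2
    rw [QuotientGroup.eq]
    have : (((d : Γ) * g)⁻¹)⁻¹ * g⁻¹ = (d : Γ) := by group
    rw [this]
    exact d.2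
  · rw [hs_pt_of_notMem T hq, hs_pt_of_notMem T hq]

theorem hs_pt_mul_right (T : Finset Q) (q : Q) (g k : Γ) :
    hs_pt 𝔻 T q (g * k) = k⁻¹ • hs_pt 𝔻 T q g := by
  by_cases hq : q ∈ T
  · rw [hs_pt_of_mem T hq, hs_pt_of_mem T hq, mul_inv_rev]
    rfl
  · rw [hs_pt_of_notMem T hq, hs_pt_of_notMem T hq]
    rfl

open scoped Classical in
variable (𝔻) in
/-- the family cutting out the component of `a` at `x` -/
noncomputable def hs_cut (T : Finset Q) (x : hs_X 𝔻 T) (a : J.V) : ∀ q : Q, Γ → (𝔻.X q).V :=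
  fun q g => if x = hs_pt 𝔻 T q g then (𝔻.pr q).hom (J.ρ g a) else 0

theorem hs_cut_equivariant (T : Finset Q) (x : hs_X 𝔻 T) (a : J.V) (q : Q) (d : ↥(𝔻.D q))
    (g : Γ) : hs_cut 𝔻 T x a q ((d : Γ) * g) = (𝔻.X q).ρ d (hs_cut 𝔻 T x a q g) := by
  classical
  simp only [hs_cut, hs_pt_mul_left]
  split_ifs
  · rw [hs_ρ_mul, hs_pr_ρ]
  · rw [map_zero]

theorem hs_cut_finite (h : hs_IsCoindSum 𝔻) (T : Finset Q) (x : hs_X 𝔻 T) (a : J.V) :
    {q : Q | ∃ g : Γ, hs_cut 𝔻 T x a q g ≠ 0}.Finite := by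
  classical
  refine (h.fin a).subset ?_
  rintro q ⟨g, hg⟩
  refine ⟨g, fun h0 => hg ?_⟩
  simp only [hs_cut, h0, ite_self]

open scoped Classical in
/-- the projector of `J` onto its component at `x : hs_X 𝔻 T` -/
noncomputable def hs_π (h : hs_IsCoindSum 𝔻) (T : Finset Q) (x : hs_X 𝔻 T) : J.V →+ J.V where
  toFun a := (h.exists_eq (hs_cut 𝔻 T x a) (hs_cut_equivariant T x a)
    (hs_cut_finite h T x a)).choose
  map_zero' := by
    refine h.ext' fun q g => ?_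
    rw [(h.exists_eq _ (hs_cut_equivariant T x 0) (hs_cut_finite h T x 0)).choose_spec q g]
    simp only [hs_cut, map_zero, ite_self]
  map_add' a a' := by
    refine h.ext' fun q g => ?_
    rw [map_add, map_add,
      (h.exists_eq _ (hs_cut_equivariant T x (a + a')) (hs_cut_finite h T x (a + a'))).choose_spec
        q g,
      (h.exists_eq _ (hs_cut_equivariant T x a) (hs_cut_finite h T x a)).choose_spec q g,
      (h.exists_eq _ (hs_cut_equivariant T x a') (hs_cut_finite h T x a')).choose_spec q g]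
    simp only [hs_cut]
    split_ifs
    · rw [map_add, map_add]
    · rw [add_zero]

open scoped Classical in
theorem hs_π_spec (h : hs_IsCoindSum 𝔻) (T : Finset Q) (x : hs_X 𝔻 T) (a : J.V) (q : Q) (g : Γ) :
    (𝔻.pr q).hom (J.ρ g (hs_π h T x a)) =
      if x = hs_pt 𝔻 T q g then (𝔻.pr q).hom (J.ρ g a) else 0 :=
  (h.exists_eq _ (hs_cut_equivariant T x a) (hs_cut_finite h T x a)).choose_spec q g

variable [Finite Γ]

open scoped Classical in
/-- the decomposition of `J` along the places over `T` (and the rest) -/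
noncomputable def hs_decomp (h : hs_IsCoindSum 𝔻) (T : Finset Q) :
    ob_RepDecomp J (hs_X 𝔻 T) where
  π := hs_π h T
  idem x a := h.ext' fun q g => by
    rw [hs_π_spec, hs_π_spec]
    split_ifs <;> rfl
  orth x y a hxy := by
    refine h.ext' fun q g => ?_
    rw [hs_π_spec, hs_π_spec, map_zero, map_zero]
    split_ifs with h1 h2
    · exact absurd (h1.trans h2.symm) hxy
    · rfl
    · rfl
  sum_eq a := h.ext' fun q g => by
    rw [map_sum, map_sum, Finset.sum_congr rfl (fun x _ => hs_π_spec h T x a q g),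
      Finset.sum_ite_eq']
    simp
  ρ_π k x a := h.ext' fun q g => by
    rw [← hs_ρ_mul, hs_π_spec, hs_π_spec, ← hs_ρ_mul, hs_pt_mul_right]
    have e3 : (x = k⁻¹ • hs_pt 𝔻 T q g) ↔ (k • x = hs_pt 𝔻 T q g) := by
      rw [eq_inv_smul_iff]
    simp only [e3]

theorem hs_decomp_π (h : hs_IsCoindSum 𝔻) (T : Finset Q) (x : hs_X 𝔻 T) :
    (hs_decomp h T).π x = hs_π h T x := rfl

variable (𝔻) in
/-- the chosen place over `q ∈ T` -/
def hs_base (T : Finset Q) (q : Q) (hq : q ∈ T) : hs_X 𝔻 T :=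
  some ⟨⟨q, hq⟩, ((1 : Γ) : Γ ⧸ 𝔻.D q)⟩

omit [Finite Γ] in
theorem hs_smul_base (T : Finset Q) (q : Q) (hq : q ∈ T) (g : Γ) :
    g • hs_base 𝔻 T q hq = some ⟨⟨q, hq⟩, ((g : Γ) : Γ ⧸ 𝔻.D q)⟩ := by
  show some (⟨⟨q, hq⟩, g • ((1 : Γ) : Γ ⧸ 𝔻.D q)⟩ : Σ q : ↥T, Γ ⧸ 𝔻.D q.1) = _
  rw [MulAction.Quotient.smul_mk, smul_eq_mul, mul_one]

omit [Finite Γ] in
theorem hs_base_stab (T : Finset Q) (q : Q) (hq : q ∈ T) (g : Γ) :
    g ∈ 𝔻.D q ↔ g • hs_base 𝔻 T q hq = hs_base 𝔻 T q hq := by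
  rw [hs_smul_base, hs_base, Option.some_inj, Sigma.mk.injEq, heq_iff_eq, QuotientGroup.eq,
    mul_one, inv_mem_iff]
  simp

omit [Finite Γ] in
theorem hs_pt_eq_base_iff (T : Finset Q) (q : Q) (hq : q ∈ T) (q' : Q) (g : Γ) :
    hs_base 𝔻 T q hq = hs_pt 𝔻 T q' g ↔ q' = q ∧ g ∈ 𝔻.D q := by
  constructor
  · intro h1
    by_cases hq' : q' ∈ T
    · rw [hs_pt_of_mem T hq', hs_base, Option.some_inj, Sigma.mk.injEq] at h1
      obtain ⟨h2, h3⟩ := h1
      have h4 : q = q' := congrArg Subtype.val h2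
      subst h4
      refine ⟨rfl, ?_⟩
      rw [heq_iff_eq, QuotientGroup.eq, inv_one, one_mul] at h3
      exact inv_mem_iff.mp h3
    · rw [hs_pt_of_notMem T hq'] at h1
      exact absurd h1 (by simp [hs_base])
  · rintro ⟨rfl, hg⟩
    rw [hs_pt_of_mem T hq, hs_base]
    congr 2
    rw [QuotientGroup.eq, inv_one, one_mul]
    exact inv_mem hg

omit [Finite Γ] in
theorem hs_IsCoindSum.pr_surjective (h : hs_IsCoindSum 𝔻) (q : Q) :
    Function.Surjective (𝔻.pr q).hom := by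
  classical
  intro b
  obtain ⟨a, ha⟩ := h.exists_eq
    (fun q' g => if hq' : q' = q then
      (if hg : g ∈ 𝔻.D q' then (𝔻.X q').ρ ⟨g, hg⟩ (hq' ▸ b) else 0) else 0) (by
    intro q' d g
    by_cases hq' : q' = q
    · subst hq'
      simp only [dif_pos]
      by_cases hg : g ∈ 𝔻.D q'
      · have hdg : (d : Γ) * g ∈ 𝔻.D q' := (𝔻.D q').mul_mem d.2 hg
        rw [dif_pos hdg, dif_pos hg]
        have : (⟨(d : Γ) * g, hdg⟩ : ↥(𝔻.D q')) = d * ⟨g, hg⟩ := rfl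
        rw [this, hs_ρ_mul]
      · have hdg : (d : Γ) * g ∉ 𝔻.D q' := fun h' => hg (by
          have := (𝔻.D q').mul_mem (inv_mem d.2) h'
          rwa [inv_mul_cancel_left] at this)
        rw [dif_neg hdg, dif_neg hg, map_zero]
    · simp only [dif_neg hq', map_zero]) (by
    refine (Set.finite_singleton q).subset ?_
    rintro q' ⟨g, hg⟩
    by_contra hne
    exact hg (dif_neg hne))
  refine ⟨a, ?_⟩
  have h1 := ha q 1
  rw [hs_ρ_one, dif_pos rfl, dif_pos (𝔻.D q).one_mem] at h1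
  have h2 : (⟨1, (𝔻.D q).one_mem⟩ : ↥(𝔻.D q)) = 1 := rfl
  rw [h2, hs_ρ_one] at h1
  exact h1

theorem hs_IsCoindSum.pr_eq_zero_iff (h : hs_IsCoindSum 𝔻) (T : Finset Q) (q : Q) (hq : q ∈ T)
    (a : J.V) : (𝔻.pr q).hom a = 0 ↔ (hs_decomp h T).π (hs_base 𝔻 T q hq) a = 0 := by
  classical
  rw [hs_decomp_π]
  constructor
  · intro h0
    refine h.ext _ fun q' g => ?_
    rw [hs_π_spec]
    split_ifs with hg
    · obtain ⟨rfl, hg'⟩ := (hs_pt_eq_base_iff T q hq q' g).mp hg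
      have := hs_pr_ρ 𝔻 q' ⟨g, hg'⟩ a
      rw [this, h0, map_zero]
    · rfl
  · intro h0
    have h1 := hs_π_spec h T (hs_base 𝔻 T q hq) a q 1
    rw [if_pos ((hs_pt_eq_base_iff T q hq q 1).mpr ⟨rfl, (𝔻.D q).one_mem⟩), hs_ρ_one, hs_ρ_one,
      h0, map_zero] at h1
    exact h1.symm

/-- the component of `J` at the chosen place over `q ∈ T` is `X q` -/
noncomputable def hs_comp (h : hs_IsCoindSum 𝔻) (T : Finset Q) (q : Q) (hq : q ∈ T) :
    ob_Comp J (hs_decomp h T) (hs_base 𝔻 T q hq) (𝔻.D q) (𝔻.X q) :=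
  ob_Comp.ofKer (hs_decomp h T) (hs_base 𝔻 T q hq) (𝔻.D q) (𝔻.X q) (hs_base_stab T q hq)
    (𝔻.pr q) (h.pr_surjective q) (h.pr_eq_zero_iff T q hq)

@[simp] theorem hs_comp_pr (h : hs_IsCoindSum 𝔻) (T : Finset Q) (q : Q) (hq : q ∈ T) :
    (hs_comp h T q hq).pr = 𝔻.pr q := rfl

/-! ### Part C: the theorems -/

omit [Finite Γ] in
theorem hs_comp_cl2 (𝔻 : rc_InvData p J Q) (q : Q) (H : Subgroup Γ) (g : Γ) (c : ↥H × ↥H → J.V)
    (hc : te_IsZ2 (tt_res H J) c) :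
    rc_comp 𝔻 q H g (te_cl2 (tt_res H J) c hc) =
      te_cl2 (tt_res ((rc_conj g H).subgroupOf (𝔻.D q)) (𝔻.X q))
        (fun r => (𝔻.pr q).hom (J.ρ g⁻¹
          (c (rc_cjHom g (rc_conj_spec g H) (rc_locHom (𝔻.D q) (rc_conj g H) r.1),
            rc_cjHom g (rc_conj_spec g H) (rc_locHom (𝔻.D q) (rc_conj g H) r.2)))))
        (te_isZ2_map (rc_locHom (𝔻.D q) (rc_conj g H)) (rc_locMor (𝔻.pr q) (rc_conj g H))
          (te_isZ2_map (rc_cjHom g (rc_conj_spec g H)) (rc_cjMor J g (rc_conj_spec g H)) hc)) :=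
  hs_cj_loc_cl2 J (𝔻.pr q) H g c hc

omit [Finite Γ] in
/-- a class represented by a cocycle with values outside the support of `q` has trivial
`q`-components -/
theorem hs_comp_eq_zero_of_supp (𝔻 : rc_InvData p J Q) (q : Q) (H : Subgroup Γ) (g : Γ)
    (c : ↥H × ↥H → J.V) (hc : te_IsZ2 (tt_res H J) c)
    (h0 : ∀ (r : ↥H × ↥H) (k : Γ), (𝔻.pr q).hom (J.ρ k (c r)) = 0) :
    rc_comp 𝔻 q H g (te_cl2 (tt_res H J) c hc) = 0 := by
  rw [hs_comp_cl2]
  exact hs_cl2_eq_zero_of_forall _ _ _ fun r => h0 _ _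

/-- the finite set of `q`'s carrying the values of a cochain -/
theorem hs_finite_supp_of_fin
    (hfin : ∀ a : J.V, {q : Q | ∃ g : Γ, (𝔻.pr q).hom (J.ρ g a) ≠ 0}.Finite)
    (H : Subgroup Γ) (c : ↥H × ↥H → J.V) :
    (⋃ r : ↥H × ↥H, {q : Q | ∃ g : Γ, (𝔻.pr q).hom (J.ρ g (c r)) ≠ 0}).Finite :=
  Set.finite_iUnion fun r => hfin (c r)

theorem hs_finite_supp (h : hs_IsCoindSum 𝔻) (H : Subgroup Γ) (c : ↥H × ↥H → J.V) :
    (⋃ r : ↥H × ↥H, {q : Q | ∃ g : Γ, (𝔻.pr q).hom (J.ρ g (c r)) ≠ 0}).Finite :=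
  hs_finite_supp_of_fin h.fin H c

/-- **Finite support** from the finiteness of the supports of the elements of `J` alone. -/
theorem hs_finSupp_of_fin
    (hfin : ∀ a : J.V, {q : Q | ∃ g : Γ, (𝔻.pr q).hom (J.ρ g a) ≠ 0}.Finite) : rc_FinSupp 𝔻 := by
  intro H z
  obtain ⟨c, hc, rfl⟩ := te_cl2_surjective (tt_res H J) z
  refine (hs_finite_supp_of_fin hfin H c).subset ?_
  rintro q ⟨g, hg⟩
  by_contra hq
  apply hg
  refine hs_comp_eq_zero_of_supp 𝔻 q H g c hc fun r k => ?_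
  by_contra hne
  exact hq (Set.mem_iUnion.mpr ⟨r, k, hne⟩)

/-- **Finite support.** -/
theorem hs_finSupp (h : hs_IsCoindSum 𝔻) : rc_FinSupp 𝔻 := hs_finSupp_of_fin h.fin

/-- **(U4) Hasse principle**, flexible form: it suffices that for every `q` and every double
coset `H k D_q` the component at *some* representative `g` of the double coset vanishes. -/
theorem hs_hasse' (h : hs_IsCoindSum 𝔻) (H : Subgroup Γ) (z : groupCohomology (tt_res H J) 2)
    (hz : ∀ (q : Q) (k : Γ), ∃ g : Γ, (∃ s ∈ H, ∃ d : ↥(𝔻.D q), g = s * k * d) ∧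
      rc_comp 𝔻 q H g z = 0) : z = 0 := by
  classical
  obtain ⟨c, hc, rfl⟩ := te_cl2_surjective (tt_res H J) z
  have hfin := hs_finite_supp h H c
  set T : Finset Q := hfin.toFinset with hTdef
  have hT : ∀ q, q ∉ T → ∀ (r : ↥H × ↥H) (k : Γ), (𝔻.pr q).hom (J.ρ k (c r)) = 0 := by
    intro q hq r k
    by_contra hne
    exact hq (hfin.mem_toFinset.mpr (Set.mem_iUnion.mpr ⟨r, k, hne⟩))
  choose rep hrep hrep0 using hz
  refine hs_cl2_eq_zero_of_loc_supp ((hs_decomp h T).res H) (I := ↥T × Γ)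
    (fun i => rep i.1.1 i.2 • hs_base 𝔻 T i.1.1 i.1.2)
    (fun i => hs_conjStab (𝔻.D i.1.1) H (rep i.1.1 i.2))
    (fun i => Rep.res (hs_conjHom (𝔻.D i.1.1) H (rep i.1.1 i.2)) (𝔻.X i.1.1))
    (fun i => hs_conjComp (hs_comp h T i.1.1 i.1.2) H (rep i.1.1 i.2)) c hc ?_ ?_
  · intro x hx r
    cases x with
    | none =>
      refine h.ext _ fun q g => ?_
      rw [ob_RepDecomp.res_π, hs_decomp_π, hs_π_spec]
      split_ifs with h1
      · have hq : q ∉ T := by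
          intro hq
          rw [hs_pt_of_mem T hq] at h1
          cases h1
        exact hT q hq r g
      · rfl
    | some y =>
      exfalso
      obtain ⟨q, y⟩ := y
      induction y using QuotientGroup.induction_on with
      | H k =>
        obtain ⟨s, hs, d, hsd⟩ := hrep q.1 k
        refine hx (q, k) ⟨(⟨s, hs⟩ : ↥H)⁻¹, ?_⟩
        show (s⁻¹ : Γ) • (rep q.1 k • hs_base 𝔻 T q.1 q.2) = _
        rw [hs_smul_base, hsd]
        show some (⟨q, (s⁻¹ : Γ) • (((s * k * d : Γ)) : Γ ⧸ 𝔻.D q.1)⟩ :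
          Σ q : ↥T, Γ ⧸ 𝔻.D q.1) = _
        congr 2
        rw [MulAction.Quotient.smul_mk, QuotientGroup.eq, smul_eq_mul]
        have : (s⁻¹ * (s * k * (d : Γ)))⁻¹ * k = ((d : Γ))⁻¹ := by group
        rw [this]
        exact inv_mem d.2
  · intro i
    rw [hs_loc_conjComp]
    have h1 : (rc_cj J (rep i.1.1 i.2) (rc_conj_spec (rep i.1.1 i.2) H) 2 ≫
        rc_loc (𝔻.pr i.1.1) (rc_conj (rep i.1.1 i.2) H) 2).hom (te_cl2 (tt_res H J) c hc) = 0 :=
      hrep0 i.1.1 i.2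
    show (groupCohomology.map _ _ 2).hom ((rc_cj J (rep i.1.1 i.2) _ 2 ≫
      rc_loc (hs_comp h T i.1.1 i.1.2).pr (rc_conj (rep i.1.1 i.2) H) 2).hom _) = 0
    rw [hs_comp_pr, h1, map_zero]

/-- **(U4) Hasse principle**: a class of `H²(H, J)` all of whose components vanish is zero. -/
theorem hs_hasse (h : hs_IsCoindSum 𝔻) (H : Subgroup Γ) (z : groupCohomology (tt_res H J) 2)
    (hz : ∀ (q : Q) (g : Γ), rc_comp 𝔻 q H g z = 0) : z = 0 :=
  hs_hasse' h H z fun q k => ⟨k, ⟨1, H.one_mem, 1, by simp⟩, hz q k⟩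

/-- **(U5) extension by zero**, as an additive map: the global class with the given
`(q, g)`-component and no other component. -/
noncomputable def hs_ext (h : hs_IsCoindSum 𝔻) (H : Subgroup Γ) (q : Q) (g : Γ) :
    groupCohomology (tt_res ((rc_conj g H).subgroupOf (𝔻.D q)) (𝔻.X q)) 2 →+
      groupCohomology (tt_res H J) 2 :=
  (ob_ext (hs_conjComp (hs_comp h {q} q (Finset.mem_singleton_self q)) H g)).comp
    ((groupCohomology.map (hs_conjEquiv (𝔻.D q) H g).toMonoidHom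
      (𝟙 (Rep.res (hs_conjEquiv (𝔻.D q) H g).toMonoidHom
        (tt_res ((rc_conj g H).subgroupOf (𝔻.D q)) (𝔻.X q)))) 2).hom.toAddMonoidHom :
      groupCohomology (tt_res ((rc_conj g H).subgroupOf (𝔻.D q)) (𝔻.X q)) 2 →+
        groupCohomology (Rep.res (hs_conjHom (𝔻.D q) H g) (𝔻.X q)) 2)

/-- the `(q, g)`-component of the extension is the given class -/
theorem hs_comp_ext (h : hs_IsCoindSum 𝔻) (H : Subgroup Γ) (q : Q) (g : Γ)
    (w : groupCohomology (tt_res ((rc_conj g H).subgroupOf (𝔻.D q)) (𝔻.X q)) 2) :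
    rc_comp 𝔻 q H g (hs_ext h H q g w) = w := by
  let C := hs_comp h {q} q (Finset.mem_singleton_self q)
  let C' := hs_conjComp C H g
  let e := hs_conjEquiv (𝔻.D q) H g
  let w' : groupCohomology (Rep.res (hs_conjHom (𝔻.D q) H g) (𝔻.X q)) 2 :=
    (groupCohomology.map e.toMonoidHom
      (𝟙 (Rep.res e.toMonoidHom (tt_res ((rc_conj g H).subgroupOf (𝔻.D q)) (𝔻.X q)))) 2).hom w
  show rc_comp 𝔻 q H g (ob_ext C' w') = w
  apply hs_map_equiv_injective e _
  have h1 : (ob_loc _ C'.pr 2).hom (ob_ext C' w') =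
      (groupCohomology.map e.toMonoidHom
        (𝟙 (Rep.res e.toMonoidHom (tt_res ((rc_conj g H).subgroupOf (𝔻.D q)) (𝔻.X q)))) 2).hom
        (rc_comp 𝔻 q H g (ob_ext C' w')) := by
    rw [hs_loc_conjComp]; rfl
  rw [ob_loc_ext] at h1
  exact h1.symm

/-- the extension has no component at the other `q'` -/
theorem hs_comp_ext_of_ne (h : hs_IsCoindSum 𝔻) (H : Subgroup Γ) (q : Q) (g : Γ)
    (w : groupCohomology (tt_res ((rc_conj g H).subgroupOf (𝔻.D q)) (𝔻.X q)) 2)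
    {q' : Q} (hne : q' ≠ q) (g' : Γ) : rc_comp 𝔻 q' H g' (hs_ext h H q g w) = 0 := by
  classical
  have hq : q ∈ ({q} : Finset Q) := Finset.mem_singleton_self q
  have hT : q' ∉ ({q} : Finset Q) := fun hq' => hne (Finset.mem_singleton.mp hq')
  let C := hs_comp h {q} q hq
  let C' := hs_conjComp C H g
  let e := hs_conjEquiv (𝔻.D q) H g
  let w' : groupCohomology (Rep.res (hs_conjHom (𝔻.D q) H g) (𝔻.X q)) 2 :=
    (groupCohomology.map e.toMonoidHom
      (𝟙 (Rep.res e.toMonoidHom (tt_res ((rc_conj g H).subgroupOf (𝔻.D q)) (𝔻.X q)))) 2).hom w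
  show rc_comp 𝔻 q' H g' (ob_ext C' w') = 0
  obtain ⟨c₀, hc₀, hw'⟩ := te_cl2_surjective _ w'
  rw [← hw', ob_ext_cl2]
  refine hs_comp_eq_zero_of_supp 𝔻 q' H g' _ _ fun r k => ?_
  have h0 : ((hs_decomp h {q}).res H).π none (ob_extCochain₂ C' c₀ r) = 0 := by
    refine hs_π_ext_of_notMem C' c₀ (y₀ := none) ?_ r
    rintro ⟨s, hs⟩
    have : ((s : ↥H) : Γ) • g • hs_base 𝔻 {q} q hq = none := hs
    rw [hs_smul_base] at this
    cases this
  have key : ∀ v : J.V, hs_π h {q} none v = 0 → (𝔻.pr q').hom (J.ρ k v) = 0 := by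
    intro v hv
    have h1 := hs_π_spec h {q} none v q' k
    rw [hs_pt_of_notMem {q} hT, if_pos rfl, hv, map_zero, map_zero] at h1
    exact h1.symm
  exact key _ h0

/-- the extension has no component at the places over `q` outside the `H`-orbit of `g` -/
theorem hs_comp_ext_of_notMem (h : hs_IsCoindSum 𝔻) (H : Subgroup Γ) (q : Q) (g : Γ)
    (w : groupCohomology (tt_res ((rc_conj g H).subgroupOf (𝔻.D q)) (𝔻.X q)) 2)
    {g' : Γ} (hg' : ¬ ∃ s ∈ H, ∃ d : ↥(𝔻.D q), g' = s * g * d) :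
    rc_comp 𝔻 q H g' (hs_ext h H q g w) = 0 := by
  have hq : q ∈ ({q} : Finset Q) := Finset.mem_singleton_self q
  let C := hs_comp h {q} q hq
  let C' := hs_conjComp C H g
  let e := hs_conjEquiv (𝔻.D q) H g
  let w' : groupCohomology (Rep.res (hs_conjHom (𝔻.D q) H g) (𝔻.X q)) 2 :=
    (groupCohomology.map e.toMonoidHom
      (𝟙 (Rep.res e.toMonoidHom (tt_res ((rc_conj g H).subgroupOf (𝔻.D q)) (𝔻.X q)))) 2).hom w
  show rc_comp 𝔻 q H g' (ob_ext C' w') = 0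
  let C'' := hs_conjComp C H g'
  let e' := hs_conjEquiv (𝔻.D q) H g'
  apply hs_map_equiv_injective e' _
  rw [map_zero]
  have h1 : (ob_loc _ C''.pr 2).hom (ob_ext C' w') =
      (groupCohomology.map e'.toMonoidHom
        (𝟙 (Rep.res e'.toMonoidHom (tt_res ((rc_conj g' H).subgroupOf (𝔻.D q)) (𝔻.X q)))) 2).hom
        (rc_comp 𝔻 q H g' (ob_ext C' w')) := by
    rw [hs_loc_conjComp]; rfl
  rw [ob_loc_ext_of_notMem C' C'' ?_ w'] at h1
  · exact h1.symm
  · rintro ⟨s, hs⟩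
    have hs' : ((s : ↥H) : Γ) • g • hs_base 𝔻 {q} q hq = g' • hs_base 𝔻 {q} q hq := hs
    apply hg'
    have h2 : (g'⁻¹ * ((s : ↥H) : Γ) * g) • hs_base 𝔻 {q} q hq = hs_base 𝔻 {q} q hq := by
      rw [mul_smul, mul_smul, hs', inv_smul_smul]
    have h3 := (hs_base_stab {q} q hq _).mpr h2
    refine ⟨s, s.2, ⟨_, inv_mem h3⟩, ?_⟩
    show g' = (s : Γ) * g * (g'⁻¹ * ((s : ↥H) : Γ) * g)⁻¹
    group

/-- **(U5) extension by zero**: every local class at the place `g · (chosen place over q)` is the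
component of a global class all of whose other components vanish. -/
theorem hs_exists (h : hs_IsCoindSum 𝔻) (H : Subgroup Γ) (q : Q) (g : Γ)
    (w : groupCohomology (tt_res ((rc_conj g H).subgroupOf (𝔻.D q)) (𝔻.X q)) 2) :
    ∃ z : groupCohomology (tt_res H J) 2, rc_comp 𝔻 q H g z = w ∧
      (∀ (q' : Q) (g' : Γ), q' ≠ q → rc_comp 𝔻 q' H g' z = 0) ∧
      (∀ g' : Γ, (¬ ∃ s ∈ H, ∃ d : ↥(𝔻.D q), g' = s * g * d) → rc_comp 𝔻 q H g' z = 0) :=
  ⟨hs_ext h H q g w, hs_comp_ext h H q g w, fun _ g' hne => hs_comp_ext_of_ne h H q g w hne g',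
    fun _ hg' => hs_comp_ext_of_notMem h H q g w hg'⟩

end coindSum

/-! ### Part D: pull-back of the data to a summand -/

section pull

variable {Γ : Type} [Group Γ] {p : ℕ} {J I : Rep.{0} ℤ Γ} {Q : Type}

/-- the data pulled back along a morphism `ι : I ⟶ J` (same `D`, `X`, `P`; projections
`pr q ∘ ι`) -/
noncomputable def hs_pull (𝔻 : rc_InvData p J Q) (ι : I ⟶ J) : rc_InvData p I Q where
  D := 𝔻.D
  X := 𝔻.X
  pr q := (Rep.resFunctor (𝔻.D q).subtype).map ι ≫ 𝔻.pr q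
  P := 𝔻.P

theorem hs_pull_pr_apply (𝔻 : rc_InvData p J Q) (ι : I ⟶ J) (q : Q) (a : I.V) :
    ((hs_pull 𝔻 ι).pr q).hom a = (𝔻.pr q).hom (ι.hom a) := rfl

theorem hs_isZ2_coeff (ι : I ⟶ J) (H : Subgroup Γ) (c : ↥H × ↥H → I.V)
    (hc : te_IsZ2 (tt_res H I) c) : te_IsZ2 (tt_res H J) (fun r => ι.hom (c r)) := by
  intro g h j
  have h1 := congrArg ι.hom (hc g h j)
  rw [map_add, map_add] at h1
  rw [h1]
  congr 1
  exact Rep.hom_comm_apply ι (g : Γ) (c (h, j))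

/-- the coefficient map `ι_*` on explicit cocycles -/
theorem hs_coeff_cl2 (ι : I ⟶ J) (H : Subgroup Γ) (c : ↥H × ↥H → I.V)
    (hc : te_IsZ2 (tt_res H I) c) :
    (tt_coeffMap ((Rep.resFunctor H.subtype).map ι) 2).hom (te_cl2 (tt_res H I) c hc) =
      te_cl2 (tt_res H J) (fun r => ι.hom (c r)) (hs_isZ2_coeff ι H c hc) := by
  have h1 := te_map_cl2 (MonoidHom.id ↥H) ((Rep.resFunctor H.subtype).map ι) hc
  exact h1

/-- the components of the image of a class under `ι_*` are the components for the pulled-back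
data -/
theorem hs_comp_pull (𝔻 : rc_InvData p J Q) (ι : I ⟶ J) (q : Q) (H : Subgroup Γ) (g : Γ)
    (z : groupCohomology (tt_res H I) 2) :
    rc_comp 𝔻 q H g ((tt_coeffMap ((Rep.resFunctor H.subtype).map ι) 2).hom z) =
      rc_comp (hs_pull 𝔻 ι) q H g z := by
  obtain ⟨c, hc, rfl⟩ := te_cl2_surjective (tt_res H I) z
  rw [hs_coeff_cl2, hs_comp_cl2 𝔻 q H g _ (hs_isZ2_coeff ι H c hc),
    hs_comp_cl2 (hs_pull 𝔻 ι) q H g c hc]
  refine ob_te_cl2_congr _ (funext fun r => ?_) _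
  show (𝔻.pr q).hom (J.ρ g⁻¹ (ι.hom (c _))) = (𝔻.pr q).hom (ι.hom (I.ρ g⁻¹ (c _)))
  rw [Rep.hom_comm_apply ι g⁻¹]
  rfl

variable [Finite Γ]

/-- **(U5) for a summand**: if the data pulled back to `ι : I ⟶ J` is a restricted sum of
coinduced modules, every local class is the component of a global class `ι_* z'` all of whose
other components vanish. -/
noncomputable def hs_extPull (𝔻 : rc_InvData p J Q) (ι : I ⟶ J)
    (h : hs_IsCoindSum (hs_pull 𝔻 ι)) (H : Subgroup Γ) (q : Q) (g : Γ) :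
    groupCohomology (tt_res ((rc_conj g H).subgroupOf (𝔻.D q)) (𝔻.X q)) 2 →+
      groupCohomology (tt_res H J) 2 :=
  (tt_coeffMap ((Rep.resFunctor H.subtype).map ι) 2).hom.toAddMonoidHom.comp (hs_ext h H q g)

theorem hs_extPull_apply (𝔻 : rc_InvData p J Q) (ι : I ⟶ J)
    (h : hs_IsCoindSum (hs_pull 𝔻 ι)) (H : Subgroup Γ) (q : Q) (g : Γ)
    (w : groupCohomology (tt_res ((rc_conj g H).subgroupOf (𝔻.D q)) (𝔻.X q)) 2) :
    hs_extPull 𝔻 ι h H q g w =
      (tt_coeffMap ((Rep.resFunctor H.subtype).map ι) 2).hom (hs_ext h H q g w) := rfl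

theorem hs_comp_extPull (𝔻 : rc_InvData p J Q) (ι : I ⟶ J)
    (h : hs_IsCoindSum (hs_pull 𝔻 ι)) (H : Subgroup Γ) (q : Q) (g : Γ)
    (w : groupCohomology (tt_res ((rc_conj g H).subgroupOf (𝔻.D q)) (𝔻.X q)) 2) :
    rc_comp 𝔻 q H g (hs_extPull 𝔻 ι h H q g w) = w := by
  rw [hs_extPull_apply, hs_comp_pull]
  exact hs_comp_ext h H q g w

theorem hs_comp_extPull_of_ne (𝔻 : rc_InvData p J Q) (ι : I ⟶ J)
    (h : hs_IsCoindSum (hs_pull 𝔻 ι)) (H : Subgroup Γ) (q : Q) (g : Γ)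
    (w : groupCohomology (tt_res ((rc_conj g H).subgroupOf (𝔻.D q)) (𝔻.X q)) 2)
    {q' : Q} (hne : q' ≠ q) (g' : Γ) : rc_comp 𝔻 q' H g' (hs_extPull 𝔻 ι h H q g w) = 0 := by
  rw [hs_extPull_apply, hs_comp_pull]
  exact hs_comp_ext_of_ne h H q g w hne g'

theorem hs_comp_extPull_of_notMem (𝔻 : rc_InvData p J Q) (ι : I ⟶ J)
    (h : hs_IsCoindSum (hs_pull 𝔻 ι)) (H : Subgroup Γ) (q : Q) (g : Γ)
    (w : groupCohomology (tt_res ((rc_conj g H).subgroupOf (𝔻.D q)) (𝔻.X q)) 2)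
    {g' : Γ} (hg' : ¬ ∃ s ∈ H, ∃ d : ↥(𝔻.D q), g' = s * g * d) :
    rc_comp 𝔻 q H g' (hs_extPull 𝔻 ι h H q g w) = 0 := by
  rw [hs_extPull_apply, hs_comp_pull]
  exact hs_comp_ext_of_notMem h H q g w hg'

/-- a morphism killed by `ι` kills the extension (pointwise hypothesis) -/
theorem hs_coeffMap_extPull' {J' : Rep.{0} ℤ Γ} (𝔻 : rc_InvData p J Q) (ι : I ⟶ J) (π : J ⟶ J')
    (hπ : ∀ a : I.V, π.hom (ι.hom a) = 0) (h : hs_IsCoindSum (hs_pull 𝔻 ι)) (H : Subgroup Γ)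
    (q : Q) (g : Γ)
    (w : groupCohomology (tt_res ((rc_conj g H).subgroupOf (𝔻.D q)) (𝔻.X q)) 2) :
    (tt_coeffMap ((Rep.resFunctor H.subtype).map π) 2).hom (hs_extPull 𝔻 ι h H q g w) = 0 := by
  rw [hs_extPull_apply]
  obtain ⟨c, hc, hcw⟩ := te_cl2_surjective _ (hs_ext h H q g w)
  rw [← hcw, hs_coeff_cl2, hs_coeff_cl2]
  exact hs_cl2_eq_zero_of_forall _ _ _ fun r => hπ (c r)

/-- a morphism killed by `ι` kills the extension -/
theorem hs_coeffMap_extPull {J' : Rep.{0} ℤ Γ} (𝔻 : rc_InvData p J Q) (ι : I ⟶ J) (π : J ⟶ J')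
    (hπ : ι ≫ π = 0) (h : hs_IsCoindSum (hs_pull 𝔻 ι)) (H : Subgroup Γ) (q : Q) (g : Γ)
    (w : groupCohomology (tt_res ((rc_conj g H).subgroupOf (𝔻.D q)) (𝔻.X q)) 2) :
    (tt_coeffMap ((Rep.resFunctor H.subtype).map π) 2).hom (hs_extPull 𝔻 ι h H q g w) = 0 :=
  hs_coeffMap_extPull' 𝔻 ι π (fun a => by
    have h3 : (ι ≫ π).hom a = 0 := by rw [hπ]; rfl
    exact h3) h H q g w

/-- **(U4) for a summand**: a class of `H²(H, I)` whose components (for the data on `J`, through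
`ι`) all vanish is zero. -/
theorem hs_hasse_pull (𝔻 : rc_InvData p J Q) (ι : I ⟶ J) (h : hs_IsCoindSum (hs_pull 𝔻 ι))
    (H : Subgroup Γ) (z : groupCohomology (tt_res H I) 2)
    (hz : ∀ (q : Q) (g : Γ),
      rc_comp 𝔻 q H g ((tt_coeffMap ((Rep.resFunctor H.subtype).map ι) 2).hom z) = 0) : z = 0 :=
  hs_hasse h H z fun q g => by rw [← hs_comp_pull]; exact hz q g

end pull

end Fermat.Agent.S55
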