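import Fermat.Agent.S55.Idele.Descent
import Fermat.Agent.S55.Idele.Semilocal
import Fermat.Agent.S55.Recip.HasseSum

/-!
# S55 / block [G4]: `J_T(L)` is a restricted sum of coinduced modules (prefix `rc_ic_`)

For a Galois number field `L/ℚ` and a finite set `T` of rational primes:

* (outside `T`) with a chosen prime `w q` of `L` above every `q ∉ T`: a divisor prime to `T` is
  determined by, and can be prescribed by, its components `(g, q) ↦ (g • D)(w q)`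
  (`rc_ic_I_ext`, `rc_ic_I_exists`, `rc_ic_I_fin`);
* (inside `T`) the units of `ℚ_q ⊗ L` are coinduced from the stabiliser of a maximal ideal
  (`ga_units_ext`, `ga_units_exists` of `Idele/Semilocal.lean`);
* `rc_ic_isCoindSum`: helper15's `hs_IsCoindSum 𝔻` for every `𝔻 : rc_InvData p (id_JRep T L) _`
  whose component maps have this shape.
-/

set_option autoImplicit false
set_option linter.unusedSectionVars false
set_option linter.style.haveILetI false

open scoped TensorProduct NumberField nonZeroDivisors Pointwise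
open IsDedekindDomain

noncomputable section

namespace Fermat.Agent.S55

section outside

variable (T : Finset Nat.Primes) (L : Type) [Field L] [NumberField L]

/-- A prime of `𝓞 L` containing the rational prime `ℓ` lies over `(ℓ)`. -/
theorem rc_ic_under_eq (w : HeightOneSpectrum (𝓞 L)) (ℓ : ℕ) (hℓ : ℓ.Prime)
    (hmem : ((ℓ : ℕ) : 𝓞 L) ∈ w.asIdeal) : w.asIdeal.under ℤ = Ideal.span {(ℓ : ℤ)} := by
  have hspanmax : (Ideal.span {(ℓ : ℤ)}).IsMaximal :=
    PrincipalIdealRing.isMaximal_of_irreducible (Nat.prime_iff_prime_int.mp hℓ).irreducible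
  symm
  refine hspanmax.eq_of_le (Ideal.IsPrime.ne_top (Ideal.IsPrime.under ℤ w.asIdeal)) ?_
  rw [Ideal.span_singleton_le_iff_mem, Ideal.under_def, Ideal.mem_comap]
  simpa using hmem

/-- Every prime of `𝓞 L` contains a rational prime. -/
theorem rc_ic_exists_prime_mem (w : HeightOneSpectrum (𝓞 L)) :
    ∃ ℓ : ℕ, ℓ.Prime ∧ ((ℓ : ℕ) : 𝓞 L) ∈ w.asIdeal := by
  have hne : w.asIdeal.under ℤ ≠ ⊥ := Ideal.IsIntegral.comap_ne_bot ℤ w.ne_bot
  have hprime : (w.asIdeal.under ℤ).IsPrime := Ideal.IsPrime.under ℤ w.asIdeal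
  obtain ⟨n, hn⟩ : ∃ n : ℤ, w.asIdeal.under ℤ = Ideal.span {n} :=
    ⟨_, (Ideal.span_singleton_generator (w.asIdeal.under ℤ)).symm⟩
  have hn0 : n ≠ 0 := by
    rintro rfl
    apply hne
    rw [hn]
    simp
  rw [hn, Ideal.span_singleton_prime hn0] at hprime
  refine ⟨n.natAbs, Int.prime_iff_natAbs_prime.1 hprime, ?_⟩
  have h1 : ((n.natAbs : ℕ) : ℤ) ∈ w.asIdeal.under ℤ := by
    rw [hn, Ideal.mem_span_singleton]
    exact Int.dvd_natAbs_self
  rw [Ideal.under_def, Ideal.mem_comap] at h1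
  simpa using h1

/-- A prime of `𝓞 L` contains at most one rational prime. -/
theorem rc_ic_prime_unique (w : HeightOneSpectrum (𝓞 L)) {ℓ ℓ' : ℕ} (hℓ : ℓ.Prime) (hℓ' : ℓ'.Prime)
    (h : ((ℓ : ℕ) : 𝓞 L) ∈ w.asIdeal) (h' : ((ℓ' : ℕ) : 𝓞 L) ∈ w.asIdeal) : ℓ = ℓ' := by
  have h1 := rc_ic_under_eq L w ℓ hℓ h
  have h2 := rc_ic_under_eq L w ℓ' hℓ' h'
  rw [h1, Ideal.span_singleton_eq_span_singleton] at h2
  have h3 := Int.natAbs_eq_natAbs_iff.2 (Int.associated_iff.1 h2)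
  simpa using h3

variable [IsGalois ℚ L]

/-- `Gal(L/ℚ)` is transitive on the primes above a rational prime. -/
theorem rc_ic_exists_smul_eq (w w' : HeightOneSpectrum (𝓞 L)) (ℓ : ℕ) (hℓ : ℓ.Prime)
    (h : ((ℓ : ℕ) : 𝓞 L) ∈ w.asIdeal) (h' : ((ℓ : ℕ) : 𝓞 L) ∈ w'.asIdeal) :
    ∃ g : L ≃ₐ[ℚ] L, g • w = w' := by
  have h1 : w.asIdeal.under ℤ = w'.asIdeal.under ℤ := by
    rw [rc_ic_under_eq L w ℓ hℓ h, rc_ic_under_eq L w' ℓ hℓ h']
  obtain ⟨g, hg⟩ := Algebra.IsInvariant.exists_smul_of_under_eq ℤ (𝓞 L) (L ≃ₐ[ℚ] L)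
    w.asIdeal w'.asIdeal h1
  refine ⟨g, ?_⟩
  apply HeightOneSpectrum.ext
  rw [id_smul_asIdeal, hg]

theorem rc_ic_smul_mem (g : L ≃ₐ[ℚ] L) (w : HeightOneSpectrum (𝓞 L)) (ℓ : ℕ)
    (h : ((ℓ : ℕ) : 𝓞 L) ∈ w.asIdeal) : ((ℓ : ℕ) : 𝓞 L) ∈ (g • w).asIdeal := by
  rw [id_smul_asIdeal, Ideal.mem_pointwise_smul_iff_inv_smul_mem]
  have h1 : g⁻¹ • (((ℓ : ℕ) : 𝓞 L)) = (((ℓ : ℕ) : 𝓞 L)) :=
    map_natCast (MulSemiringAction.toRingHom (L ≃ₐ[ℚ] L) (𝓞 L) g⁻¹) ℓ
  rwa [h1]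

variable {T L}
variable (w : {q : Nat.Primes // q ∉ T} → id_P T L)
  (hw : ∀ q, (((q.1 : Nat.Primes) : ℕ) : 𝓞 L) ∈ (w q).1.asIdeal)

include hw

/-- Every prime of `L` prime to `T` is a conjugate of one of the chosen primes `w q`. -/
theorem rc_ic_exists_rep (v : id_P T L) : ∃ q, ∃ g : L ≃ₐ[ℚ] L, g • w q = v := by
  obtain ⟨ℓ, hℓ, hmem⟩ := rc_ic_exists_prime_mem L v.1
  have hq : (⟨ℓ, hℓ⟩ : Nat.Primes) ∉ T := fun h => v.2 ⟨ℓ, hℓ⟩ h hmem
  obtain ⟨g, hg⟩ := rc_ic_exists_smul_eq L (w ⟨⟨ℓ, hℓ⟩, hq⟩).1 v.1 ℓ hℓ (hw ⟨⟨ℓ, hℓ⟩, hq⟩) hmem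
  exact ⟨⟨⟨ℓ, hℓ⟩, hq⟩, g, Subtype.ext hg⟩

/-- The chosen prime below a conjugate of `w q` is `q`. -/
theorem rc_ic_rep_unique {q q' : {q : Nat.Primes // q ∉ T}} {g g' : L ≃ₐ[ℚ] L}
    (h : g • w q = g' • w q') : q = q' := by
  have h1 : (((q.1 : Nat.Primes) : ℕ) : 𝓞 L) ∈ (g • w q).1.asIdeal :=
    rc_ic_smul_mem L g (w q).1 _ (hw q)
  have h2 : (((q'.1 : Nat.Primes) : ℕ) : 𝓞 L) ∈ (g • w q).1.asIdeal := by
    rw [h]
    exact rc_ic_smul_mem L g' (w q').1 _ (hw q')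
  apply Subtype.ext
  apply Subtype.ext
  exact rc_ic_prime_unique L (g • w q).1 q.1.2 q'.1.2 h1 h2

/-- A divisor all of whose "components" vanish is trivial. -/
theorem rc_ic_I_ext (D : id_I T L) (h : ∀ q (g : L ≃ₐ[ℚ] L), (g • D).toAdd (w q) = 0) : D = 1 := by
  apply Multiplicative.toAdd.injective
  ext v
  obtain ⟨q, g, rfl⟩ := rc_ic_exists_rep w hw v
  have h1 := h q g⁻¹
  rw [id_I_smul_def, toAdd_ofAdd, id_IAct_apply, inv_inv] at h1
  exact h1

/-- The components of a divisor vanish for almost all `q`. -/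
theorem rc_ic_I_fin (D : id_I T L) :
    {q | ∃ g : L ≃ₐ[ℚ] L, (g • D).toAdd (w q) ≠ 0}.Finite := by
  classical
  have hfin : (D.toAdd.support : Set (id_P T L)).Finite := Finset.finite_toSet _
  choose qv gv hv using rc_ic_exists_rep w hw
  apply (hfin.image qv).subset
  rintro q ⟨g, hg⟩
  rw [id_I_smul_def, toAdd_ofAdd, id_IAct_apply] at hg
  refine ⟨g⁻¹ • w q, Finsupp.mem_support_iff.2 hg, ?_⟩
  have h1 := hv (g⁻¹ • w q)
  exact rc_ic_rep_unique w hw h1

/-- Existence of a divisor with prescribed components. -/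
theorem rc_ic_I_exists (φ : ∀ _ : {q : Nat.Primes // q ∉ T}, (L ≃ₐ[ℚ] L) → ℤ)
    (hφ : ∀ q (d : L ≃ₐ[ℚ] L), d • w q = w q → ∀ g, φ q (d * g) = φ q g)
    (hfin : {q | ∃ g, φ q g ≠ 0}.Finite) :
    ∃ D : id_I T L, ∀ q (g : L ≃ₐ[ℚ] L), (g • D).toAdd (w q) = φ q g := by
  classical
  choose qv gv hv using rc_ic_exists_rep w hw
  have key : ∀ q (g : L ≃ₐ[ℚ] L), φ (qv (g⁻¹ • w q)) (gv (g⁻¹ • w q))⁻¹ = φ q g := by
    intro q g
    have h1 := hv (g⁻¹ • w q)
    have h2 : qv (g⁻¹ • w q) = q := rc_ic_rep_unique w hw h1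
    rw [h2] at h1 ⊢
    have h3 : (g * gv (g⁻¹ • w q)) • w q = w q := by
      rw [mul_smul, h1, smul_inv_smul]
    have h4 := hφ q _ h3 (gv (g⁻¹ • w q))⁻¹
    rw [mul_assoc, mul_inv_cancel, mul_one] at h4
    exact h4.symm
  have hsupp : (Function.support fun v : id_P T L => φ (qv v) (gv v)⁻¹).Finite := by
    have h1 : (⋃ q ∈ {q | ∃ g, φ q g ≠ 0}, Set.range fun g : L ≃ₐ[ℚ] L => g • w q).Finite :=
      Set.Finite.biUnion hfin (fun q _ => Set.finite_range _)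
    apply h1.subset
    intro v hv'
    simp only [Function.mem_support, ne_eq] at hv'
    simp only [Set.mem_iUnion, Set.mem_range, exists_prop]
    exact ⟨qv v, ⟨_, hv'⟩, gv v, hv v⟩
  refine ⟨Multiplicative.ofAdd (Finsupp.ofSupportFinite _ hsupp), fun q g => ?_⟩
  rw [id_I_smul_def, toAdd_ofAdd, id_IAct_apply]
  exact key q g

end outside

section assembly

open Sum

variable {T : Finset Nat.Primes} {L : Type} [Field L] [NumberField L] [IsGalois ℚ L] {p : ℕ}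

/-- **`J_T(L)` is the restricted sum of the coinduced modules**: `hs_IsCoindSum` for any local data
on `id_JRep T L` whose components are, at `q ∈ T`, the projection to the `q`-component followed
by a map `prq q` with kernel `1 + m q` (`m q` a maximal ideal with stabiliser `D q`), and at
`q ∉ T` the coefficient of the divisor at a chosen prime `w q` above `q` (with stabiliser `D q`
acting trivially on `X q ≃ ℤ`). -/
theorem rc_ic_isCoindSum (𝔻 : rc_InvData p (id_JRep T L) (↥T ⊕ {q : Nat.Primes // q ∉ T}))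
    (m : ∀ q : ↥T, Ideal (id_A L q.1)) (hm : ∀ q, (m q).IsMaximal)
    (hDin : ∀ (q : ↥T) (g : L ≃ₐ[ℚ] L), g ∈ 𝔻.D (inl q) ↔ g • m q = m q)
    (prq : ∀ q : ↥T, Additive (id_A L q.1)ˣ →+ (𝔻.X (inl q)).V)
    (hprin : ∀ (q : ↥T) (z : id_J T L),
      (𝔻.pr (inl q)).hom (Additive.ofMul z : Additive (id_J T L)) = prq q (Additive.ofMul (z.1 q)))
    (hker : ∀ (q : ↥T) (u : (id_A L q.1)ˣ),
      prq q (Additive.ofMul u) = 0 ↔ (u : id_A L q.1) - 1 ∈ m q)
    (hsurj : ∀ q : ↥T, Function.Surjective (prq q))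
    (w : {q : Nat.Primes // q ∉ T} → id_P T L)
    (hw : ∀ q, (((q.1 : Nat.Primes) : ℕ) : 𝓞 L) ∈ (w q).1.asIdeal)
    (hDout : ∀ (q : {q : Nat.Primes // q ∉ T}) (g : L ≃ₐ[ℚ] L), g ∈ 𝔻.D (inr q) ↔ g • w q = w q)
    (val : ∀ q : {q : Nat.Primes // q ∉ T}, (𝔻.X (inr q)).V ≃+ ℤ)
    (htriv : ∀ (q : {q : Nat.Primes // q ∉ T}) (d : ↥(𝔻.D (inr q))) (x : (𝔻.X (inr q)).V),
      (𝔻.X (inr q)).ρ d x = x)
    (hprout : ∀ (q : {q : Nat.Primes // q ∉ T}) (z : id_J T L),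
      val q ((𝔻.pr (inr q)).hom (Additive.ofMul z : Additive (id_J T L))) = z.2.toAdd (w q)) :
    hs_IsCoindSum 𝔻 := by
  classical
  -- equivariance of `prq`
  have hπρ : ∀ (q : ↥T) (d : ↥(𝔻.D (inl q))) (u : (id_A L q.1)ˣ),
      prq q (Additive.ofMul ((d : L ≃ₐ[ℚ] L) • u)) =
        ((𝔻.X (inl q)).ρ d).toAddMonoidHom (prq q (Additive.ofMul u)) := by
    intro q d u
    have h1 := hs_pr_ρ 𝔻 (inl q) d (Additive.ofMul (id_inS T L (id_inq T L q u)) :
      Additive (id_J T L))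
    have h2 : (id_JRep T L).ρ (d : L ≃ₐ[ℚ] L)
        (Additive.ofMul (id_inS T L (id_inq T L q u)) : Additive (id_J T L)) =
        (Additive.ofMul ((d : L ≃ₐ[ℚ] L) • id_inS T L (id_inq T L q u)) :
          Additive (id_J T L)) := rfl
    rw [h2, hprin, hprin] at h1
    have h3 : ((d : L ≃ₐ[ℚ] L) • id_inS T L (id_inq T L q u)).1 q = (d : L ≃ₐ[ℚ] L) • u := by
      rw [id_smul_inS, id_smul_inq]
      simp [id_inS, id_inq]
    have h4 : (id_inS T L (id_inq T L q u)).1 q = u := by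
      simp [id_inS, id_inq]
    rw [h3, h4] at h1
    exact h1
  have hρ : ∀ (g : L ≃ₐ[ℚ] L) (z : id_J T L),
      (id_JRep T L).ρ g (Additive.ofMul z : Additive (id_J T L)) =
        (Additive.ofMul (g • z) : Additive (id_J T L)) := fun _ _ => rfl
  refine ⟨?_, ?_, ?_⟩
  · -- ext
    intro a ha
    obtain ⟨z, rfl⟩ : ∃ z : id_J T L, (Additive.ofMul z : Additive (id_J T L)) = a := ⟨_, rfl⟩
    have h1 : z.1 = 1 := by
      funext q
      haveI := hm q
      apply ga_units_ext (m q) (prq q) (hker q)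
      intro g
      have h2 := ha (inl q) g
      rw [hρ, hprin] at h2
      have h3 : (g • z).1 q = g • z.1 q := rfl
      rw [h3] at h2
      rw [h2, Pi.one_apply, smul_one]
      exact (map_zero (prq q)).symm
    have h2 : z.2 = 1 := by
      apply rc_ic_I_ext w hw
      intro q g
      have h3 := ha (inr q) g
      rw [hρ] at h3
      have h4 := hprout q (g • z)
      rw [h3, map_zero] at h4
      exact h4.symm
    have h3 : z = 1 := Prod.ext h1 h2
    rw [h3]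
    rfl
  · -- fin
    intro a
    obtain ⟨z, rfl⟩ : ∃ z : id_J T L, (Additive.ofMul z : Additive (id_J T L)) = a := ⟨_, rfl⟩
    have h1 := rc_ic_I_fin w hw z.2
    apply ((Set.finite_range (Sum.inl : ↥T → ↥T ⊕ {q : Nat.Primes // q ∉ T})).union
      (h1.image Sum.inr)).subset
    rintro (q | q) hq
    · exact Or.inl ⟨q, rfl⟩
    · right
      obtain ⟨g, hg⟩ := hq
      refine ⟨q, ⟨g, ?_⟩, rfl⟩
      intro h0
      apply hg
      apply (val q).injective
      rw [hρ, hprout, map_zero]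
      exact h0
  · -- exists_eq
    intro φ hφ hfin
    have hin : ∀ q : ↥T, ∃ u : (id_A L q.1)ˣ, ∀ g : L ≃ₐ[ℚ] L,
        prq q (Additive.ofMul (g • u)) = φ (inl q) g := by
      intro q
      haveI := hm q
      exact ga_units_exists (m q) (𝔻.D (inl q)) (hDin q)
        (fun d => ((𝔻.X (inl q)).ρ d).toAddMonoidHom) (prq q) (hπρ q) (hker q) (hsurj q)
        (φ (inl q)) (fun d g => hφ (inl q) d g)
    choose x hx using hin
    obtain ⟨D, hD⟩ := rc_ic_I_exists w hw (fun q g => val q (φ (inr q) g))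
      (fun q d hd g => by
        have hdD : d ∈ 𝔻.D (inr q) := (hDout q d).2 hd
        have h1 := hφ (inr q) ⟨d, hdD⟩ g
        rw [htriv] at h1
        exact congrArg (val q) h1)
      (by
        apply (hfin.preimage (Sum.inr_injective.injOn)).subset
        rintro q ⟨g, hg⟩
        refine ⟨g, fun h0 => hg ?_⟩
        rw [h0, map_zero])
    refine ⟨(Additive.ofMul ((x, D) : id_J T L) : Additive (id_J T L)), ?_⟩
    rintro (q | q) g
    · rw [hρ, hprin]
      exact hx q g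
    · apply (val q).injective
      rw [hρ, hprout]
      exact hD q g

end assembly

end Fermat.Agent.S55
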