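/-
S55 / G4 reciprocity, instantiation (C): **[LOC-KILL] bookkeeping** (prefix `rc_kg_`).

* `rc_kg_primesOver E B` : the finite set of nonzero primes of `E` over a finite set `B` of
  rational primes (the `Σ` of `rc_ax_growthLevel`);
* `rc_kg_idx_dvd` : the `hkill` alternative of `rr_reciprocity` from a dictionary
  `𝔇 : rc_td_Dict 𝔻 δ q`, an abelian layer `E ⊆ F ⊆ M` unramified at the primes over `𝔇.ℓ`, and
  the divisibility of the Frobenius orders (output of `rc_fp_tower` GROWTH).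
-/
import Mathlib
import Fermat.Agent.S55.Recip.FieldPackage
import Fermat.Agent.S55.Recip.IdeleCoind

set_option autoImplicit false

open NumberField IsDedekindDomain

namespace Fermat.Agent.S55

open Fermat.Agent.S14
open scoped IsMulCommutative Pointwise TensorProduct

set_option linter.style.haveILetI false
set_option linter.unusedSectionVars false

section primesOver

variable (E : Type*) [Field E] [NumberField E]

theorem rc_kg_finite_primesOver (B : Finset ℕ) :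
    {v : Ideal (𝓞 E) | v.IsPrime ∧ v ≠ ⊥ ∧ ∃ q ∈ B, q.Prime ∧ (q : 𝓞 E) ∈ v}.Finite := by
  refine (Ideal.finite_setOfPred_absNorm_le (S := 𝓞 E)
    ((B.sup id) ^ Module.finrank ℚ E)).subset ?_
  rintro v ⟨hv, -, q, hqB, hq, hqv⟩
  haveI := hv
  obtain ⟨f, hf1, hfn, hvf⟩ := rc_dg_exists_absNorm_pow hq v hqv
  change Ideal.absNorm v ≤ _
  rw [hvf]
  have hqle : q ≤ B.sup id := Finset.le_sup (f := id) hqB
  calc q ^ f ≤ q ^ Module.finrank ℚ E := Nat.pow_le_pow_right hq.pos hfn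
    _ ≤ (B.sup id) ^ Module.finrank ℚ E := Nat.pow_le_pow_left hqle _

/-- the nonzero primes of `E` over the rational primes in `B`. -/
noncomputable def rc_kg_primesOver (B : Finset ℕ) : Finset (Ideal (𝓞 E)) :=
  (rc_kg_finite_primesOver E B).toFinset

variable {E}

theorem rc_kg_mem_primesOver {B : Finset ℕ} {v : Ideal (𝓞 E)} :
    v ∈ rc_kg_primesOver E B ↔ v.IsPrime ∧ v ≠ ⊥ ∧ ∃ q ∈ B, q.Prime ∧ (q : 𝓞 E) ∈ v := by
  unfold rc_kg_primesOver
  rw [Set.Finite.mem_toFinset]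
  rfl

/-- the prime of `E` under a prime of `M` over `q ∈ B` belongs to `rc_kg_primesOver E B`. -/
theorem rc_kg_under_mem {M : Type*} [Field M] [NumberField M] [Algebra E M] {B : Finset ℕ}
    (R : Ideal (𝓞 M)) [hR : R.IsPrime] (hR0 : R ≠ ⊥) {q : ℕ} (hqB : q ∈ B) (hq : q.Prime)
    (hqR : (q : 𝓞 M) ∈ R) : R.under (𝓞 E) ∈ rc_kg_primesOver E B := by
  rw [rc_kg_mem_primesOver]
  refine ⟨Ideal.IsPrime.under (𝓞 E) R, Ideal.under_ne_bot (𝓞 E) hR0, q, hqB, hq, ?_⟩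
  rw [Ideal.under, Ideal.mem_comap, map_natCast]
  exact hqR

end primesOver

section supp

variable {E : Type} [Field E] [NumberField E]

/-- the rational prime below a prime of `E` (as a natural number). -/
noncomputable def rc_kg_below (v : HeightOneSpectrum (𝓞 E)) : ℕ :=
  (rc_ic_exists_prime_mem E v).choose

theorem rc_kg_below_prime (v : HeightOneSpectrum (𝓞 E)) : (rc_kg_below v).Prime :=
  (rc_ic_exists_prime_mem E v).choose_spec.1

theorem rc_kg_below_mem (v : HeightOneSpectrum (𝓞 E)) :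
    ((rc_kg_below v : ℕ) : 𝓞 E) ∈ v.asIdeal :=
  (rc_ic_exists_prime_mem E v).choose_spec.2

theorem rc_kg_below_eq (v : HeightOneSpectrum (𝓞 E)) {ℓ : ℕ} (hℓ : ℓ.Prime)
    (h : ((ℓ : ℕ) : 𝓞 E) ∈ v.asIdeal) : rc_kg_below v = ℓ :=
  rc_ic_prime_unique E v (rc_kg_below_prime v) hℓ (rc_kg_below_mem v) h

/-- **the rational primes in the support of `b ∈ Eˣ`** (the `B₂` of the quantifier order). -/
noncomputable def rc_kg_suppPrimes (b : Eˣ) : Finset ℕ :=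
  (id_finite_ordZ_ne_zero E b).toFinset.image rc_kg_below

theorem rc_kg_below_mem_suppPrimes {b : Eˣ} {v : HeightOneSpectrum (𝓞 E)}
    (h : id_ordZ E v b ≠ 0) : rc_kg_below v ∈ rc_kg_suppPrimes b := by
  unfold rc_kg_suppPrimes
  refine Finset.mem_image.2 ⟨v, ?_, rfl⟩
  rw [Set.Finite.mem_toFinset]
  exact h

/-- away from the support primes, `b` is a unit. -/
theorem rc_kg_ordZ_eq_zero {b : Eˣ} {v : HeightOneSpectrum (𝓞 E)} {ℓ : ℕ} (hℓ : ℓ.Prime)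
    (hmem : ((ℓ : ℕ) : 𝓞 E) ∈ v.asIdeal) (hℓb : ℓ ∉ rc_kg_suppPrimes b) :
    id_ordZ E v b = 0 := by
  by_contra h
  apply hℓb
  rw [← rc_kg_below_eq v hℓ hmem]
  exact rc_kg_below_mem_suppPrimes h

end supp

section hkill

variable {M : Type} [Field M] [NumberField M] {p : ℕ} {J : Rep.{0} ℤ (M ≃ₐ[ℚ] M)} {Q : Type}
  {𝔻 : rc_InvData p J Q} {δ : id_KRep M ⟶ J} {q : Q} (𝔇 : rc_td_Dict 𝔻 δ q)
  {E F : Type} [Field E] [NumberField E] [Field F] [NumberField F] [Algebra E F] [Algebra F M]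
  [Algebra E M] [IsScalarTower E F M] [IsGalois E M] [IsGalois E F] [IsMulCommutative Gal(F/E)]

/-- the rational prime of the dictionary lies in every conjugate of its prime. -/
theorem rc_kg_ell_mem_smul (g : M ≃ₐ[ℚ] M) : (𝔇.ℓ : 𝓞 M) ∈ g • 𝔇.w.asIdeal := by
  rw [rc_dg_natCast_mem_smul_iff]
  exact 𝔇.hmem

/-- `rc_idx` of the layer `E ⊆ F ⊆ M` at the place `(q, g)` is the order of the Frobenius of
`F/E` at the prime of `E` under `g • w`, when that prime is unramified in `F`. -/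
theorem rc_kg_idx_eq (g : M ≃ₐ[ℚ] M)
    (hu : am_Unram E F ((g • 𝔇.w.asIdeal).under (𝓞 E))) :
    rc_idx (𝔻.D q) (rr_up (rc_dg_sub E M) (rc_dg_resHom E F M).ker) (rc_dg_sub E M) g =
      orderOf (am_frob E F ((g • 𝔇.w.asIdeal).under (𝓞 E))) := by
  haveI := 𝔇.w.isPrime
  rw [𝔇.hD, rc_sn_up_ker, rc_dg_idx_unram (E := E) (E' := F) 𝔇.w.asIdeal 𝔇.w.ne_bot g hu]

/-- **the `hkill` alternative of `rr_reciprocity`** from GROWTH: if `𝔇.ℓ ∈ B`, `𝔇.ℓ ≠ p`, the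
layer `F/E` is unramified outside `p` and the Frobenius orders at the primes of `E` over `B` (not
over `p`) are divisible by `p ^ k`, then `p ^ k ∣ rc_idx (𝔻.D q) (rr_up 𝒢 N) 𝒢 g`. -/
theorem rc_kg_hkill [hpF : Fact p.Prime] {B : Finset ℕ} {k : ℕ} (hℓB : 𝔇.ℓ ∈ B)
    (hℓp : 𝔇.ℓ ≠ p)
    (hunr : ∀ v : Ideal (𝓞 E), v.IsPrime → (p : 𝓞 E) ∉ v → am_Unram E F v)
    (hgrow : ∀ v ∈ rc_kg_primesOver E B, v.IsPrime → v ≠ ⊥ → (p : 𝓞 E) ∉ v →
      p ^ k ∣ orderOf (am_frob E F v))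
    (g : M ≃ₐ[ℚ] M) :
    p ^ k ∣ rc_idx (𝔻.D q) (rr_up (rc_dg_sub E M) (rc_dg_resHom E F M).ker)
      (rc_dg_sub E M) g := by
  haveI := 𝔇.w.isPrime
  haveI : (g • 𝔇.w.asIdeal).IsPrime := Ideal.IsPrime.smul g
  have hg0 : g • 𝔇.w.asIdeal ≠ ⊥ := id_smul_ne_bot M g 𝔇.w.ne_bot
  have hmem : (g • 𝔇.w.asIdeal).under (𝓞 E) ∈ rc_kg_primesOver E B :=
    rc_kg_under_mem (g • 𝔇.w.asIdeal) hg0 hℓB 𝔇.hℓ (rc_kg_ell_mem_smul 𝔇 g)
  obtain ⟨hv, hv0, -⟩ := rc_kg_mem_primesOver.1 hmem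
  have hℓv : (𝔇.ℓ : 𝓞 E) ∈ (g • 𝔇.w.asIdeal).under (𝓞 E) := by
    rw [Ideal.under, Ideal.mem_comap, map_natCast]
    exact rc_kg_ell_mem_smul 𝔇 g
  have hco : Nat.Coprime p 𝔇.ℓ := (Nat.coprime_primes hpF.out 𝔇.hℓ).mpr (Ne.symm hℓp)
  have hpv : (p : 𝓞 E) ∉ (g • 𝔇.w.asIdeal).under (𝓞 E) :=
    ax_natCast_not_mem _ hv.ne_top hℓv hco
  rw [rc_kg_idx_eq 𝔇 g (hunr _ hv hpv)]
  exact hgrow _ hmem hv hv0 hpv

end hkill

end Fermat.Agent.S55
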