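import Fermat.Agent.S55.Tate.ClassModule
import Fermat.Agent.S55.FinGrp.H2Torsion
import Fermat.Agent.S55.Local.CyclicInv

/-!
# The `p`-class module of `ℤ` for a finite cyclic group (S55, block G4, leaf `Recip/ZClass`)

For a finite group `D` with a generator `φ` ("Frobenius") and `Z := ℤ` with the trivial action,
`zc_pclass φ hφ p : PClassModule p Z` has the invariant maps
`inv D' [f] = (∑_{i < |D'|} f (τ ^ i, τ)) / |D'|` with `τ = φ ^ [D : D']` the induced generator of
the layer `D'` (`cy_inv` of `Local/CyclicInv.lean` for the valuation `id : ℤ → ℤ`); under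
`H²(D', ℤ) = Hom(D', ℚ/ℤ)` this is `χ ↦ χ(φ ^ [D : D'])`.
-/

set_option autoImplicit false

namespace Fermat.Agent.S55

open groupCohomology CategoryTheory Rep

noncomputable section

variable {D : Type} [Group D] [Finite D] (φ : D) (hφ : ∀ x : D, x ∈ Subgroup.zpowers φ)

/-- `ℤ` with the trivial action of `D` -/
abbrev zc_Z (D : Type) [Group D] : Rep.{0} ℤ D := Rep.trivial ℤ D ℤ


include hφ in
omit [Finite D] in
theorem zc_comm (a b : D) : a * b = b * a := by
  obtain ⟨i, rfl⟩ := Subgroup.mem_zpowers_iff.1 (hφ a)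
  obtain ⟨j, rfl⟩ := Subgroup.mem_zpowers_iff.1 (hφ b)
  exact zpow_mul_comm φ i j

include hφ in
omit [Finite D] in
theorem zc_pow_index_mem (D' : Subgroup D) : φ ^ D'.index ∈ D' := by
  have : D'.Normal := ⟨fun n hn g => by
    rw [zc_comm φ hφ g n, mul_inv_cancel_right]; exact hn⟩
  exact Subgroup.pow_index_mem D' φ

/-- the generator `φ ^ [D : D']` of a subgroup `D'` -/
def zc_gen (D' : Subgroup D) : D' := ⟨φ ^ D'.index, zc_pow_index_mem φ hφ D'⟩

omit [Finite D] in
theorem zc_gen_coe (D' : Subgroup D) : (zc_gen φ hφ D' : D) = φ ^ D'.index := rfl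

theorem zc_orderOf_gen (D' : Subgroup D) : orderOf (zc_gen φ hφ D') = Nat.card D' := by
  rw [← Subgroup.orderOf_coe]
  show orderOf (φ ^ D'.index) = Nat.card D'
  have hn : orderOf φ = Nat.card D := orderOf_eq_card_of_forall_mem_zpowers hφ
  have hi : D'.index ≠ 0 := Subgroup.index_ne_zero_of_finite
  rw [orderOf_pow' φ hi, hn, Nat.gcd_eq_right (Subgroup.index_dvd_card D')]
  exact Nat.div_eq_of_eq_mul_left (Nat.pos_of_ne_zero hi) D'.card_mul_index.symm

theorem zc_gen_spec (D' : Subgroup D) (x : D') : x ∈ Subgroup.zpowers (zc_gen φ hφ D') := by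
  have h : Subgroup.zpowers (zc_gen φ hφ D') = ⊤ := by
    apply Subgroup.eq_top_of_card_eq
    rw [Nat.card_zpowers, zc_orderOf_gen]
  rw [h]
  exact Subgroup.mem_top x

theorem zc_gen_pow_card (D' : Subgroup D) : zc_gen φ hφ D' ^ Nat.card D' = 1 := by
  rw [← zc_orderOf_gen φ hφ D']; exact pow_orderOf_eq_one _

omit [Finite D] in
theorem zc_hv (D' : Subgroup D) (g : D') (x : (tt_res D' (zc_Z D)).V) :
    (AddMonoidHom.id ℤ) ((tt_res D' (zc_Z D)).ρ g x) = (AddMonoidHom.id ℤ) x := rfl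

omit [Finite D] in
theorem zc_hv0 (g : D) (x : (zc_Z D).V) :
    (AddMonoidHom.id ℤ) ((zc_Z D).ρ g x) = (AddMonoidHom.id ℤ) x := rfl

include hφ in
omit [Finite D] in
theorem zc_pow_card : φ ^ Nat.card D = 1 := by
  rw [← orderOf_eq_card_of_forall_mem_zpowers hφ]; exact pow_orderOf_eq_one _

/-- the invariant map of the layer `D'`: `cy_inv` for the generator `φ ^ [D : D']` and the
valuation `id` -/
def zc_inv (D' : Subgroup D) : groupCohomology (tt_res D' (zc_Z D)) 2 →+ tt_QZ :=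
  cy_inv (tt_res D' (zc_Z D)) (AddMonoidHom.id ℤ) (σ := zc_gen φ hφ D') (n := Nat.card D')
    (zc_gen_pow_card φ hφ D') (zc_hv D')

/-- the invariant map of `D` itself w.r.t. the generator `φ` -/
def zc_inv0 : groupCohomology (zc_Z D) 2 →+ tt_QZ :=
  cy_inv (zc_Z D) (AddMonoidHom.id ℤ) (σ := φ) (n := Nat.card D)
    (zc_pow_card φ hφ) zc_hv0

theorem zc_inv_layer_cocycle (D' : Subgroup D) (f : cocycles₂ (tt_res D' (zc_Z D))) :
    zc_inv φ hφ D' (H2π _ f) = cy_frac (Nat.card D')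
      (∑ i ∈ Finset.range (Nat.card D'), (f : D' × D' → ℤ) (zc_gen φ hφ D' ^ i, zc_gen φ hφ D')) := by
  rw [zc_inv, cy_inv_H2π, cy_repSum_apply]
  rfl

omit [Finite D] in
theorem zc_inv0_cocycle (f : cocycles₂ (zc_Z D)) :
    zc_inv0 φ hφ (H2π _ f) = cy_frac (Nat.card D)
      (∑ i ∈ Finset.range (Nat.card D), (f : D × D → ℤ) (φ ^ i, φ)) := by
  rw [zc_inv0, cy_inv_H2π, cy_repSum_apply]
  rfl

/-- invariants and restriction -/
theorem zc_inv_res (D' : Subgroup D) (z : groupCohomology (zc_Z D) 2) :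
    zc_inv φ hφ D' ((tt_resMap D' (zc_Z D) 2).hom z) = D'.index • zc_inv0 φ hφ z := by
  have h := cy_inv_map (A := zc_Z D) (B := tt_res D' (zc_Z D)) D'.subtype (𝟙 (tt_res D' (zc_Z D)))
    (σ := φ) (n := Nat.card D) (τ := zc_gen φ hφ D') (m := Nat.card D')
    (AddMonoidHom.id ℤ) (AddMonoidHom.id ℤ) Nat.card_pos Nat.card_pos
    (zc_pow_card φ hφ)
    (zc_gen_pow_card φ hφ D') zc_hv0 (zc_hv D') (d := D'.index) rfl (r := 1)
    (by rw [mul_one, mul_comm]; exact D'.card_mul_index) (e := 1) (fun x => (one_mul _).symm) z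
  rw [one_mul, natCast_zsmul] at h
  exact h

/-- additive characters of a finite group with values in `ℤ` vanish -/
theorem zc_hom_int_eq_zero {G : Type} [Group G] [Finite G] (y : G → ℤ)
    (hy : ∀ a b : G, y (a * b) = y a + y b) (a : G) : y a = 0 := by
  have h1 : y 1 = 0 := by
    have := hy 1 1
    rw [one_mul] at this
    linarith
  have hpow : ∀ n : ℕ, y (a ^ n) = n * y a := by
    intro n
    induction n with
    | zero => simp [h1]
    | succ n ih => rw [pow_succ, hy, ih]; push_cast; ring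
  have h2 := hpow (Nat.card G)
  rw [pow_card_eq_one', h1] at h2
  have h3 : (Nat.card G : ℤ) ≠ 0 := by exact_mod_cast Nat.card_pos.ne'
  rcases mul_eq_zero.1 h2.symm with h | h
  · exact absurd h h3
  · exact h

theorem zc_H1_eq_zero (D' : Subgroup D) (x : groupCohomology (tt_res D' (zc_Z D)) 1) : x = 0 := by
  induction x using H1_induction_on with | h c => ?_
  have hc := (mem_cocycles₁_iff (c : D' → ℤ)).1 c.2
  have h0 : c = 0 := by
    apply Subtype.ext
    funext a
    exact zc_hom_int_eq_zero (c : D' → ℤ) (fun a b => by rw [hc a b, add_comm]; rfl) a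
  rw [h0, map_zero]

/-- **The `p`-class module of `ℤ` for a finite cyclic group with a chosen generator.** -/
def zc_pclass (p : ℕ) [Fact p.Prime] : PClassModule p (zc_Z D) where
  inv := zc_inv φ hφ
  h1 D' x _ := zc_H1_eq_zero D' x
  inv_inj D' z _ hz := by
    have hinj := cy_inv_injective (tt_res D' (zc_Z D)) (AddMonoidHom.id ℤ) (σ := zc_gen φ hφ D')
      (n := Nat.card D') Nat.card_pos (zc_orderOf_gen φ hφ D') (zc_gen_spec φ hφ D') (zc_hv D')
      (fun a _ ha => ⟨0, by rw [map_zero]; exact ha.symm⟩) ⟨(1 : ℤ), fun _ => rfl, rfl⟩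
    exact hinj (hz.trans (map_zero _).symm)
  inv_gen := by
    have hp : p.Prime := Fact.out
    have hn : 0 < Nat.card D := Nat.card_pos
    obtain ⟨z, hz⟩ := cy_inv_exists_gen (zc_Z D) (AddMonoidHom.id ℤ) (σ := φ) (n := Nat.card D) hn
      (orderOf_eq_card_of_forall_mem_zpowers hφ) hφ zc_hv0 ⟨(1 : ℤ), fun _ => rfl, rfl⟩
    have hz' : zc_inv0 φ hφ z = cy_frac (Nat.card D) 1 := hz
    refine ⟨ordCompl[p] (Nat.card D) • z, ⟨(Nat.card D).factorization p, ?_⟩, ?_⟩
    · rw [smul_smul, Nat.ordProj_mul_ordCompl_eq_self]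
      exact h2_card_smul_eq_zero (zc_Z D) z
    · rw [zc_inv_res, Subgroup.index_top, one_smul, map_nsmul, hz']
      have hfin : IsOfFinAddOrder (cy_frac (Nat.card D) 1) := by
        rw [← addOrderOf_pos_iff, cy_addOrderOf_frac_one hn]; exact hn
      rw [hfin.addOrderOf_nsmul, cy_addOrderOf_frac_one hn,
        Nat.gcd_eq_right (Nat.ordCompl_dvd (Nat.card D) p)]
      exact Nat.div_eq_of_eq_mul_left (Nat.ordCompl_pos p hn.ne')
        (Nat.ordProj_mul_ordCompl_eq_self (Nat.card D) p).symm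
  inv_res D' z _ := by
    rw [zc_inv_res, zc_inv_res, Subgroup.index_top, one_smul]

theorem zc_pclass_inv (p : ℕ) [Fact p.Prime] (D' : Subgroup D) :
    (zc_pclass φ hφ p).inv D' = zc_inv φ hφ D' := rfl

theorem zc_pclass_invTop (p : ℕ) [Fact p.Prime] (z : groupCohomology (zc_Z D) 2) :
    (zc_pclass φ hφ p).invTop z = zc_inv0 φ hφ z := by
  rw [PClassModule.invTop_apply, zc_pclass_inv, zc_inv_res, Subgroup.index_top, one_smul]

/-- the invariant of the class of a 2-cocycle `f` is `(∑_{i < |D|} f (φ ^ i, φ)) / |D|` -/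
theorem zc_inv_cocycle (p : ℕ) [Fact p.Prime] (f : cocycles₂ (zc_Z D)) :
    (zc_pclass φ hφ p).invTop (H2π _ f) = cy_frac (Nat.card D)
      (∑ i ∈ Finset.range (Nat.card D), (f : D × D → ℤ) (φ ^ i, φ)) := by
  rw [zc_pclass_invTop, zc_inv0_cocycle]

end

end Fermat.Agent.S55
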