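import Fermat.Agent.S55.Recip.HasseSum
import Fermat.Agent.S55.Recip.ZClass
import Fermat.Agent.S55.Idele.EnlargeS

/-!
# S55, block [G4], leaf (B1): the primes outside `T`

`T` a finite set of rational primes, `L` a finite Galois extension of `ℚ` in which every prime
outside `T` has trivial inertia (`hunr`), `Γ = Gal(L/ℚ)`.  For `q ∉ T`:

the places are a PARAMETER: `w : rc_io_Q T → id_P T L` with `hw : ∀ q, (q : 𝓞 L) ∈ (w q).1.asIdeal`
(a prime of `L` over every `q ∉ T`; `rc_io_w0 T L` is one choice).  Then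

* `rc_io_D w q` the decomposition group of `w q`, `rc_io_frob w hw hunr q` its Frobenius
  (a generator of `rc_io_D w q`);
* `rc_io_data p T L w hw hunr : rc_InvData p (id_JRep T L) (rc_io_Q T)`: local module `ℤ` (trivial
  action), projection "coefficient of the divisor at `w q`", class module `zc_pclass` of the
  Frobenius;
* `rc_io_isCoindSum`: the ideal part `id_IRep T L` of the ideles is the restricted sum over `q ∉ T`
  of the modules coinduced from `ℤ` (in the sense of `hs_IsCoindSum`, for the data pulled back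
  along `id_IRep ⟶ id_JRep`);
* `rc_io_finSupp`, `rc_io_ext` (extension by zero), `rc_io_hasse` (Hasse principle on the ideal
  part), `rc_io_pr_inS`.
-/

set_option autoImplicit false

namespace Fermat.Agent.S55

open NumberField IsDedekindDomain CategoryTheory groupCohomology MulAction
open scoped Pointwise

/-! ### Frobenius generates the decomposition group (generic) -/

section frob
variable {A B G : Type*} [CommRing A] [CommRing B] [Algebra A B] [Group G]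
  [MulSemiringAction G B] [SMulCommClass G A B]

attribute [local instance] Ideal.Quotient.field in
omit [SMulCommClass G A B] in
theorem rc_io_frob_aux (P : Ideal A) (Q : Ideal B) [Q.IsPrime] [Q.LiesOver P] [SMulCommClass G A B]
    [Finite (B ⧸ Q)] [Q.IsMaximal] [P.IsMaximal] [Fintype (A ⧸ P)] (φ : G)
    (hφst : φ ∈ MulAction.stabilizer G Q)
    (hφspec : ∀ x : B, φ • x - x ^ Nat.card (A ⧸ P) ∈ Q)
    (hfinj : Function.Injective (Ideal.Quotient.stabilizerHom Q P G))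
    (g : G) (hg : g ∈ MulAction.stabilizer G Q) : g ∈ Subgroup.zpowers φ := by
  have hfφ : Ideal.Quotient.stabilizerHom Q P G ⟨φ, hφst⟩ =
      FiniteField.frobeniusAlgEquivOfAlgebraic (A ⧸ P) (B ⧸ Q) := by
    apply AlgEquiv.ext
    intro x
    obtain ⟨x, rfl⟩ := Ideal.Quotient.mk_surjective x
    rw [Ideal.Quotient.stabilizerHom_apply, FiniteField.coe_frobeniusAlgEquivOfAlgebraic]
    show Ideal.Quotient.mk Q (φ • x) = (Ideal.Quotient.mk Q x) ^ Fintype.card (A ⧸ P)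
    rw [← map_pow, Ideal.Quotient.eq, ← Nat.card_eq_fintype_card]
    exact hφspec x
  obtain ⟨n, hn⟩ := (FiniteField.bijective_frobeniusAlgEquivOfAlgebraic_pow (A ⧸ P) (B ⧸ Q)).2
    (Ideal.Quotient.stabilizerHom Q P G ⟨g, hg⟩)
  have h2 : Ideal.Quotient.stabilizerHom Q P G (⟨φ, hφst⟩ ^ (n : ℕ)) =
      Ideal.Quotient.stabilizerHom Q P G ⟨g, hg⟩ := by
    rw [map_pow, hfφ]
    exact hn
  have h3 := hfinj h2
  rw [Subgroup.mem_zpowers_iff]
  refine ⟨(n : ℕ), ?_⟩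
  have h4 := congrArg Subtype.val h3
  rw [zpow_natCast]
  simpa using h4

variable [Finite G] [Algebra.IsInvariant A B G]

/-- **Frobenius generates the decomposition group at a prime with trivial inertia.** -/
theorem rc_io_exists_frob_gen (P : Ideal A) (Q : Ideal B) [Q.IsPrime] [Q.LiesOver P]
    [Finite (B ⧸ Q)] [P.IsMaximal] [Finite (A ⧸ P)]
    (hin : ∀ g : G, g • Q = Q → (∀ x : B, g • x - x ∈ Q) → g = 1) :
    ∃ φ : G, φ • Q = Q ∧ (∀ x : B, φ • x - x ^ Nat.card (A ⧸ P) ∈ Q) ∧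
      ∀ g : G, g • Q = Q → g ∈ Subgroup.zpowers φ := by
  classical
  have hP : P = Q.under A := Ideal.LiesOver.over
  obtain ⟨φ, hφ⟩ := IsArithFrobAt.exists_of_isInvariant A G Q
  have hφst : φ ∈ MulAction.stabilizer G Q := hφ.mem_stabilizer
  have hφspec : ∀ x : B, φ • x - x ^ Nat.card (A ⧸ P) ∈ Q := by
    intro x
    have := hφ x
    rw [hP]
    exact this
  refine ⟨φ, hφst, hφspec, ?_⟩
  have hQmax : Q.IsMaximal :=
    Ideal.Quotient.maximal_of_isField _ (Finite.isField_of_domain (B ⧸ Q))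
  let _ := Fintype.ofFinite (A ⧸ P)
  have hfinj : Function.Injective (Ideal.Quotient.stabilizerHom Q P G) := by
    rw [injective_iff_map_eq_one]
    intro g hg
    have hg' : g ∈ (Ideal.Quotient.stabilizerHom Q P G).ker := hg
    rw [Ideal.Quotient.ker_stabilizerHom] at hg'
    have h1 : (g : G) = 1 := hin g g.2 (fun x => by
      have := AddSubgroup.mem_inertia.mp hg' x
      exact this)
    exact Subtype.ext h1
  intro g hg
  exact rc_io_frob_aux P Q φ hφst hφspec hfinj g hg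

end frob

/-! ### The chosen primes -/

section primes
variable (T : Finset Nat.Primes) (L : Type) [Field L] [NumberField L]

/-- the rational primes outside `T` -/
abbrev rc_io_Q : Type := {q : Nat.Primes // q ∉ T}

omit [NumberField L] in
theorem rc_io_under_eq (v : HeightOneSpectrum (𝓞 L)) (q : Nat.Primes)
    (hq : ((q : ℕ) : 𝓞 L) ∈ v.asIdeal) :
    v.asIdeal.under ℤ = Ideal.span {((q : ℕ) : ℤ)} := by
  have hmax : (Ideal.span {((q : ℕ) : ℤ)}).IsMaximal := Int.ideal_span_isMaximal_of_prime q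
  symm
  apply hmax.eq_of_le
  · exact (Ideal.IsPrime.under ℤ v.asIdeal).ne_top
  · rw [Ideal.span_singleton_le_iff_mem, Ideal.under_def, Ideal.mem_comap]
    simpa using hq

theorem rc_io_liesOver (v : HeightOneSpectrum (𝓞 L)) (q : Nat.Primes)
    (hq : ((q : ℕ) : 𝓞 L) ∈ v.asIdeal) :
    v.asIdeal.LiesOver (Ideal.span {((q : ℕ) : ℤ)}) :=
  ⟨(rc_io_under_eq L v q hq).symm⟩

/-- two rational primes in the same prime ideal are equal -/
theorem rc_io_prime_unique (v : HeightOneSpectrum (𝓞 L)) (q q' : Nat.Primes)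
    (hq : ((q : ℕ) : 𝓞 L) ∈ v.asIdeal) (hq' : ((q' : ℕ) : 𝓞 L) ∈ v.asIdeal) : q = q' := by
  have h1 := rc_io_under_eq L v q hq
  have h2 := rc_io_under_eq L v q' hq'
  rw [h1] at h2
  have h3 : ((q : ℕ) : ℤ) ∈ Ideal.span {((q' : ℕ) : ℤ)} := by
    rw [← h2]; exact Ideal.mem_span_singleton_self _
  rw [Ideal.mem_span_singleton] at h3
  have h4 : (q' : ℕ) ∣ (q : ℕ) := by exact_mod_cast h3
  have h5 := (Nat.prime_dvd_prime_iff_eq q'.2 q.2).mp h4
  exact (Subtype.ext h5).symm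

/-- a prime containing a rational prime outside `T` is prime to `T` -/
theorem rc_io_primeToT (v : HeightOneSpectrum (𝓞 L)) (q : rc_io_Q T)
    (hq : ((q.1 : ℕ) : 𝓞 L) ∈ v.asIdeal) : id_PrimeToS T L v := by
  intro q' hq' hmem
  have := rc_io_prime_unique L v q.1 q' hq hmem
  exact q.2 (this ▸ hq')

/-- there is a prime of `L` over every rational prime -/
theorem rc_io_exists_over (q : Nat.Primes) :
    ∃ v : HeightOneSpectrum (𝓞 L), ((q : ℕ) : 𝓞 L) ∈ v.asIdeal := by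
  have hmax : (Ideal.span {((q : ℕ) : ℤ)}).IsMaximal := Int.ideal_span_isMaximal_of_prime q
  obtain ⟨Q, hQmax, hQ⟩ := Ideal.exists_ideal_over_maximal_of_isIntegral (S := 𝓞 L)
    (Ideal.span {((q : ℕ) : ℤ)}) (by
      rw [(RingHom.injective_iff_ker_eq_bot _).mp (FaithfulSMul.algebraMap_injective ℤ (𝓞 L))]
      exact bot_le)
  have hmem : ((q : ℕ) : 𝓞 L) ∈ Q := by
    have : ((q : ℕ) : ℤ) ∈ Q.comap (algebraMap ℤ (𝓞 L)) := by
      rw [hQ]; exact Ideal.mem_span_singleton_self _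
    simpa using this
  refine ⟨⟨Q, hQmax.isPrime, ?_⟩, hmem⟩
  intro hbot
  rw [hbot, Ideal.mem_bot] at hmem
  have : ((q : ℕ) : 𝓞 L) ≠ 0 := by
    exact_mod_cast q.2.ne_zero
  exact this hmem

theorem rc_io_exists_w (q : rc_io_Q T) : ∃ w : id_P T L, ((q.1 : ℕ) : 𝓞 L) ∈ w.1.asIdeal := by
  obtain ⟨v, hv⟩ := rc_io_exists_over L q.1
  exact ⟨⟨v, rc_io_primeToT T L v q hv⟩, hv⟩

/-- a choice of a prime of `L` over every `q ∉ T` -/
noncomputable def rc_io_w0 (q : rc_io_Q T) : id_P T L := (rc_io_exists_w T L q).choose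

theorem rc_io_w0_mem (q : rc_io_Q T) : ((q.1 : ℕ) : 𝓞 L) ∈ (rc_io_w0 T L q).1.asIdeal :=
  (rc_io_exists_w T L q).choose_spec

/-- every prime outside `T` lies over a rational prime outside `T` -/
theorem rc_io_exists_below (v : id_P T L) : ∃ q : rc_io_Q T, ((q.1 : ℕ) : 𝓞 L) ∈ v.1.asIdeal := by
  obtain ⟨q, hq⟩ := ie_exists_prime_mem L v.1
  exact ⟨⟨q, fun hqT => v.2 q hqT hq⟩, hq⟩

end primes

/-! ### Decomposition groups and Frobenius elements -/

section galois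

variable {T : Finset Nat.Primes} {L : Type} [Field L] [NumberField L] [IsGalois ℚ L]
  (w : rc_io_Q T → id_P T L) (hw : ∀ q, ((q.1 : ℕ) : 𝓞 L) ∈ (w q).1.asIdeal)

/-- the decomposition group of the prime `w q` over `q` -/
def rc_io_D (q : rc_io_Q T) : Subgroup (L ≃ₐ[ℚ] L) :=
  MulAction.stabilizer (L ≃ₐ[ℚ] L) (w q)

omit [IsGalois ℚ L] in
theorem rc_io_smul_eq_iff (g : L ≃ₐ[ℚ] L) (v v' : id_P T L) :
    g • v = v' ↔ g • v.1.asIdeal = v'.1.asIdeal := by
  constructor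
  · intro h
    rw [← h]
    rfl
  · intro h
    apply Subtype.ext
    apply HeightOneSpectrum.ext
    exact h

omit [IsGalois ℚ L] in
theorem rc_io_mem_D (q : rc_io_Q T) (g : L ≃ₐ[ℚ] L) :
    g ∈ rc_io_D w q ↔ g • (w q).1.asIdeal = (w q).1.asIdeal := by
  rw [rc_io_D, MulAction.mem_stabilizer_iff, rc_io_smul_eq_iff]

omit [IsGalois ℚ L] in
theorem rc_io_natCast_mem_smul (g : L ≃ₐ[ℚ] L) (v : id_P T L) (n : ℕ) :
    ((n : ℕ) : 𝓞 L) ∈ (g • v).1.asIdeal ↔ ((n : ℕ) : 𝓞 L) ∈ v.1.asIdeal := by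
  rw [id_P_smul_val, id_smul_asIdeal, Ideal.mem_pointwise_smul_iff_inv_smul_mem]
  have h : g⁻¹ • (((n : ℕ) : 𝓞 L)) = (((n : ℕ) : 𝓞 L)) :=
    map_natCast (MulSemiringAction.toRingHom (L ≃ₐ[ℚ] L) (𝓞 L) g⁻¹) n
  rw [h]

include hw in
/-- **Transitivity**: every prime outside `T` is conjugate to one of the primes `w q`. -/
theorem rc_io_exists_smul (v : id_P T L) :
    ∃ q : rc_io_Q T, ∃ g : L ≃ₐ[ℚ] L, g • w q = v := by
  obtain ⟨q, hq⟩ := rc_io_exists_below T L v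
  refine ⟨q, ?_⟩
  have h1 := rc_io_under_eq L (w q).1 q.1 (hw q)
  have h2 := rc_io_under_eq L v.1 q.1 hq
  obtain ⟨g, hg⟩ := Algebra.IsInvariant.exists_smul_of_under_eq ℤ (𝓞 L) (L ≃ₐ[ℚ] L)
    (w q).1.asIdeal v.1.asIdeal (h1.trans h2.symm)
  exact ⟨g, (rc_io_smul_eq_iff g _ _).mpr hg.symm⟩

omit [IsGalois ℚ L] in
include hw in
/-- the rational prime below a conjugate of `w q` -/
theorem rc_io_q_unique {q q' : rc_io_Q T} {g g' : L ≃ₐ[ℚ] L}
    (h : g • w q = g' • w q') : q = q' := by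
  have h1 : ((q.1 : ℕ) : 𝓞 L) ∈ (g • w q).1.asIdeal :=
    (rc_io_natCast_mem_smul g _ _).mpr (hw q)
  have h2 : ((q'.1 : ℕ) : 𝓞 L) ∈ (g • w q).1.asIdeal := by
    rw [h]
    exact (rc_io_natCast_mem_smul g' _ _).mpr (hw q')
  exact Subtype.ext (rc_io_prime_unique L _ q.1 q'.1 h1 h2)

variable (T L) in
/-- `L` has trivial inertia at the primes outside `T` -/
def rc_io_Unram : Prop :=
  ∀ w : id_P T L, ∀ g : L ≃ₐ[ℚ] L, (∀ x : 𝓞 L, g • x - x ∈ w.1.asIdeal) → g = 1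

include hw in
theorem rc_io_exists_frob (hunr : rc_io_Unram T L) (q : rc_io_Q T) :
    ∃ φ : ↥(rc_io_D w q), (∀ x, x ∈ Subgroup.zpowers φ) ∧
      ∀ x : 𝓞 L, ((φ : L ≃ₐ[ℚ] L)) • x - x ^ (q.1 : ℕ) ∈ (w q).1.asIdeal := by
  have hlo := rc_io_liesOver L (w q).1 q.1 (hw q)
  have hfinB : Finite (𝓞 L ⧸ (w q).1.asIdeal) :=
    Ideal.finiteQuotientOfFreeOfNeBot _ (w q).1.ne_bot
  have hmax : (Ideal.span {((q.1 : ℕ) : ℤ)}).IsMaximal := Int.ideal_span_isMaximal_of_prime q.1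
  have hfinA : Finite (ℤ ⧸ Ideal.span {((q.1 : ℕ) : ℤ)}) :=
    Finite.of_equiv _ (Int.quotientSpanNatEquivZMod q.1).toEquiv.symm
  obtain ⟨φ, h1, h2, h3⟩ := rc_io_exists_frob_gen (G := L ≃ₐ[ℚ] L)
    (Ideal.span {((q.1 : ℕ) : ℤ)}) (w q).1.asIdeal (fun g _ hg => hunr _ g hg)
  have hcard : Nat.card (ℤ ⧸ Ideal.span {((q.1 : ℕ) : ℤ)}) = q.1 := by
    rw [Nat.card_congr (Int.quotientSpanNatEquivZMod q.1).toEquiv, Nat.card_zmod]
  rw [hcard] at h2
  refine ⟨⟨φ, (rc_io_mem_D w q φ).mpr h1⟩, ?_, h2⟩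
  intro x
  have := h3 x ((rc_io_mem_D w q x).mp x.2)
  rw [Subgroup.mem_zpowers_iff] at this ⊢
  obtain ⟨n, hn⟩ := this
  exact ⟨n, Subtype.ext (by simpa using hn)⟩

/-- the Frobenius element of the prime `w q` -/
noncomputable def rc_io_frob (hunr : rc_io_Unram T L) (q : rc_io_Q T) : ↥(rc_io_D w q) :=
  (rc_io_exists_frob w hw hunr q).choose

theorem rc_io_frob_gen (hunr : rc_io_Unram T L) (q : rc_io_Q T) :
    ∀ x, x ∈ Subgroup.zpowers (rc_io_frob w hw hunr q) :=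
  (rc_io_exists_frob w hw hunr q).choose_spec.1

theorem rc_io_frob_spec (hunr : rc_io_Unram T L) (q : rc_io_Q T) (x : 𝓞 L) :
    ((rc_io_frob w hw hunr q : ↥(rc_io_D w q)) : L ≃ₐ[ℚ] L) • x - x ^ (q.1 : ℕ) ∈
      (w q).1.asIdeal :=
  (rc_io_exists_frob w hw hunr q).choose_spec.2 x

end galois

/-! ### The data -/

section data

variable {T : Finset Nat.Primes} {L : Type} [Field L] [NumberField L] [IsGalois ℚ L]
  (w : rc_io_Q T → id_P T L) (hw : ∀ q, ((q.1 : ℕ) : 𝓞 L) ∈ (w q).1.asIdeal)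

/-- the coefficient of the divisor part of an idele at the prime `w q` -/
def rc_io_prAdd (q : rc_io_Q T) : (id_JRep T L).V →+ ℤ where
  toFun a := (Additive.toMul a).2.toAdd (w q)
  map_zero' := rfl
  map_add' _ _ := rfl

omit [IsGalois ℚ L] in
theorem rc_io_prAdd_apply (q : rc_io_Q T) (a : (id_JRep T L).V) :
    rc_io_prAdd w q a = (Additive.toMul a).2.toAdd (w q) := rfl

omit [IsGalois ℚ L] in
theorem rc_io_prAdd_ρ (q : rc_io_Q T) (g : L ≃ₐ[ℚ] L) (a : (id_JRep T L).V) :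
    rc_io_prAdd w q ((id_JRep T L).ρ g a) = (Additive.toMul a).2.toAdd (g⁻¹ • w q) := rfl

/-- the projection of the ideles to the local module `ℤ` at `q ∉ T` -/
noncomputable def rc_io_pr (q : rc_io_Q T) :
    tt_res (rc_io_D w q) (id_JRep T L) ⟶ zc_Z ↥(rc_io_D w q) :=
  ob_mkHom (tt_res (rc_io_D w q) (id_JRep T L)) (zc_Z ↥(rc_io_D w q)) (rc_io_prAdd w q)
    (fun d a => by
      show rc_io_prAdd w q ((id_JRep T L).ρ (d : L ≃ₐ[ℚ] L) a) = rc_io_prAdd w q a
      rw [rc_io_prAdd_ρ, rc_io_prAdd_apply]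
      have hd : (d : L ≃ₐ[ℚ] L)⁻¹ • w q = w q := by
        have := (inv_mem d.2 : (d : L ≃ₐ[ℚ] L)⁻¹ ∈ rc_io_D w q)
        exact this
      rw [hd])

omit [IsGalois ℚ L] in
theorem rc_io_pr_apply (q : rc_io_Q T) (a : (id_JRep T L).V) :
    (rc_io_pr w q).hom a = (Additive.toMul a).2.toAdd (w q) := rfl

omit [IsGalois ℚ L] in
theorem rc_io_pr_ρ (q : rc_io_Q T) (g : L ≃ₐ[ℚ] L) (a : (id_JRep T L).V) :
    (rc_io_pr w q).hom ((id_JRep T L).ρ g a) = (Additive.toMul a).2.toAdd (g⁻¹ • w q) := rfl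

/-- **The local data at the primes outside `T`** (the places `w q` over `q ∉ T` are a
parameter). -/
noncomputable def rc_io_data (p : ℕ) [Fact p.Prime] (T : Finset Nat.Primes) (L : Type) [Field L]
    [NumberField L] [IsGalois ℚ L] (w : rc_io_Q T → id_P T L)
    (hw : ∀ q, ((q.1 : ℕ) : 𝓞 L) ∈ (w q).1.asIdeal) (hunr : rc_io_Unram T L) :
    rc_InvData p (id_JRep T L) (rc_io_Q T) where
  D := rc_io_D w
  X q := zc_Z ↥(rc_io_D w q)
  pr := rc_io_pr w
  P q := zc_pclass (rc_io_frob w hw hunr q) (rc_io_frob_gen w hw hunr q) p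

theorem rc_io_data_D (p : ℕ) [Fact p.Prime] (hunr : rc_io_Unram T L) (q : rc_io_Q T) :
    (rc_io_data p T L w hw hunr).D q = rc_io_D w q := rfl

theorem rc_io_data_X (p : ℕ) [Fact p.Prime] (hunr : rc_io_Unram T L) (q : rc_io_Q T) :
    (rc_io_data p T L w hw hunr).X q = zc_Z ↥(rc_io_D w q) := rfl

theorem rc_io_data_pr (p : ℕ) [Fact p.Prime] (hunr : rc_io_Unram T L) (q : rc_io_Q T) :
    (rc_io_data p T L w hw hunr).pr q = rc_io_pr w q := rfl

theorem rc_io_data_P (p : ℕ) [Fact p.Prime] (hunr : rc_io_Unram T L) (q : rc_io_Q T) :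
    (rc_io_data p T L w hw hunr).P q =
      zc_pclass (rc_io_frob w hw hunr q) (rc_io_frob_gen w hw hunr q) p := rfl

end data

/-! ### The ideal part of the ideles is a restricted sum of coinduced modules -/

section coind

variable (T : Finset Nat.Primes) (L : Type) [Field L] [NumberField L] [IsGalois ℚ L]

/-- `id_IRep ⟶ id_JRep` -/
noncomputable def rc_io_inI : id_IRep T L ⟶ id_JRep T L :=
  id_repHom (id_inI T L) (fun σ D => (id_smul_inI T L σ D).symm)

/-- the projection `id_JRep ⟶ id_JSRep` -/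
noncomputable def rc_io_prS : id_JRep T L ⟶ id_JSRep T L :=
  id_repHom (MonoidHom.fst (id_JS T L) (id_I T L)) (fun _ _ => rfl)

omit [IsGalois ℚ L] in
theorem rc_io_prS_inI (a : (id_IRep T L).V) : (rc_io_prS T L).hom ((rc_io_inI T L).hom a) = 0 :=
  rfl

/-- the divisor underlying an element of `id_IRep` -/
def rc_io_divI (a : (id_IRep T L).V) : id_P T L →₀ ℤ :=
  Multiplicative.toAdd (Additive.toMul (a : Additive (id_I T L)))

/-- a divisor as an element of `id_IRep` -/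
def rc_io_ofDiv (D : id_P T L →₀ ℤ) : (id_IRep T L).V :=
  (Additive.ofMul (Multiplicative.ofAdd D : id_I T L) : Additive (id_I T L))

omit [IsGalois ℚ L] in
theorem rc_io_divI_ofDiv (D : id_P T L →₀ ℤ) : rc_io_divI T L (rc_io_ofDiv T L D) = D := rfl

omit [IsGalois ℚ L] in
theorem rc_io_divI_injective : Function.Injective (rc_io_divI T L) := fun _ _ h => h

variable {T L} (w : rc_io_Q T → id_P T L) (hw : ∀ q, ((q.1 : ℕ) : 𝓞 L) ∈ (w q).1.asIdeal)

omit [IsGalois ℚ L] in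
/-- **(6)** classes from the `T`-part have no components outside `T` -/
theorem rc_io_pr_inS (q : rc_io_Q T) (x : id_JS T L) :
    (rc_io_pr w q).hom (Additive.ofMul (id_inS T L x) : (id_JRep T L).V) = 0 := rfl

/-- the rational prime below a prime outside `T` (as an element of `rc_io_Q T`) -/
noncomputable def rc_io_below (v : id_P T L) : rc_io_Q T := (rc_io_exists_smul w hw v).choose

/-- an element moving the prime `w (rc_io_below v)` to `v` -/
noncomputable def rc_io_kk (v : id_P T L) : L ≃ₐ[ℚ] L :=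
  (rc_io_exists_smul w hw v).choose_spec.choose

theorem rc_io_kk_smul (v : id_P T L) : rc_io_kk w hw v • w (rc_io_below w hw v) = v :=
  (rc_io_exists_smul w hw v).choose_spec.choose_spec

theorem rc_io_below_smul (q : rc_io_Q T) (g : L ≃ₐ[ℚ] L) :
    rc_io_below w hw (g • w q) = q :=
  rc_io_q_unique w hw (rc_io_kk_smul w hw (g • w q))

include hw in
/-- finiteness of the support in `q` of a divisor -/
theorem rc_io_fin_aux (D : id_P T L →₀ ℤ) :
    {q : rc_io_Q T | ∃ g : L ≃ₐ[ℚ] L, D (g⁻¹ • w q) ≠ 0}.Finite := by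
  classical
  refine (D.support.image (rc_io_below w hw)).finite_toSet.subset ?_
  rintro q ⟨g, hg⟩
  rw [Finset.mem_coe, Finset.mem_image]
  exact ⟨g⁻¹ • w q, Finsupp.mem_support_iff.mpr hg, rc_io_below_smul w hw q g⁻¹⟩

theorem rc_io_pull_pr_ρ (p : ℕ) [Fact p.Prime] (hunr : rc_io_Unram T L) (q : rc_io_Q T)
    (g : L ≃ₐ[ℚ] L) (a : (id_IRep T L).V) :
    ((hs_pull (rc_io_data p T L w hw hunr) (rc_io_inI T L)).pr q).hom ((id_IRep T L).ρ g a) =
      rc_io_divI T L a (g⁻¹ • w q) := rfl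

/-- **The ideal part of the ideles is the restricted sum over `q ∉ T` of `Coind_{D_q}^Γ ℤ`.** -/
theorem rc_io_isCoindSum (p : ℕ) [Fact p.Prime] (hunr : rc_io_Unram T L) :
    hs_IsCoindSum (hs_pull (rc_io_data p T L w hw hunr) (rc_io_inI T L)) where
  ext a h := by
    apply rc_io_divI_injective T L
    ext v
    obtain ⟨q, g, rfl⟩ := rc_io_exists_smul w hw v
    have := h q g⁻¹
    rw [rc_io_pull_pr_ρ, inv_inv] at this
    exact this
  fin a := by
    refine (rc_io_fin_aux w hw (rc_io_divI T L a)).subset ?_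
    rintro q ⟨g, hg⟩
    exact ⟨g, hg⟩
  exists_eq φ hφ hfin := by
    classical
    let Dfun : id_P T L → ℤ := fun v => φ (rc_io_below w hw v) (rc_io_kk w hw v)⁻¹
    have hsupp : (Function.support Dfun).Finite := by
      refine ((hfin.prod (Set.finite_univ : (Set.univ : Set (L ≃ₐ[ℚ] L)).Finite)).image
        (fun x : rc_io_Q T × (L ≃ₐ[ℚ] L) => x.2 • w x.1)).subset ?_
      intro v hv
      refine ⟨(rc_io_below w hw v, rc_io_kk w hw v), ⟨⟨_, hv⟩, Set.mem_univ _⟩,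
        rc_io_kk_smul w hw v⟩
    refine ⟨rc_io_ofDiv T L (Finsupp.ofSupportFinite Dfun hsupp), fun q g => ?_⟩
    rw [rc_io_pull_pr_ρ, rc_io_divI_ofDiv]
    show Dfun (g⁻¹ • w q) = φ q g
    show φ (rc_io_below w hw (g⁻¹ • w q)) (rc_io_kk w hw (g⁻¹ • w q))⁻¹ = φ q g
    have hk := rc_io_kk_smul w hw (g⁻¹ • w q)
    generalize rc_io_kk w hw (g⁻¹ • w q) = k at hk ⊢
    generalize rc_io_below w hw (g⁻¹ • w q) = q' at hk ⊢
    have hq : q' = q := rc_io_q_unique w hw hk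
    subst hq
    have hmem : g * k ∈ rc_io_D w q' := by
      show (g * k) • w q' = w q'
      rw [mul_smul, hk, smul_inv_smul]
    have h1 := hφ q' ⟨g * k, hmem⟩ k⁻¹
    have h2 : ((⟨g * k, hmem⟩ : ↥(rc_io_D w q')) : L ≃ₐ[ℚ] L) * k⁻¹ = g := by
      show g * k * k⁻¹ = g
      group
    rw [h2] at h1
    rw [h1]
    rfl

end coind

/-! ### Finite support, extension by zero, Hasse principle -/

section main

variable {T : Finset Nat.Primes} {L : Type} [Field L] [NumberField L] [IsGalois ℚ L]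
  (p : ℕ) [Fact p.Prime] (w : rc_io_Q T → id_P T L)
  (hw : ∀ q, ((q.1 : ℕ) : 𝓞 L) ∈ (w q).1.asIdeal) (hunr : rc_io_Unram T L)

/-- **(4)** every class of `H²(K, J)` has only finitely many non-trivial components outside `T` -/
theorem rc_io_finSupp : rc_FinSupp (rc_io_data p T L w hw hunr) :=
  hs_finSupp_of_fin fun a => by
    refine (rc_io_fin_aux w hw (Multiplicative.toAdd (Additive.toMul a).2)).subset ?_
    rintro q ⟨g, hg⟩
    exact ⟨g, hg⟩

/-- **(5)** extension by zero at a prime outside `T`, as an additive map -/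
noncomputable def rc_io_extHom (K : Subgroup (L ≃ₐ[ℚ] L)) (q : rc_io_Q T) (g : L ≃ₐ[ℚ] L) :
    groupCohomology (tt_res ((rc_conj g K).subgroupOf (rc_io_D w q))
      (zc_Z ↥(rc_io_D w q))) 2 →+ groupCohomology (tt_res K (id_JRep T L)) 2 :=
  hs_extPull (rc_io_data p T L w hw hunr) (rc_io_inI T L) (rc_io_isCoindSum w hw p hunr) K q g

theorem rc_io_comp_extHom (K : Subgroup (L ≃ₐ[ℚ] L)) (q : rc_io_Q T) (g : L ≃ₐ[ℚ] L)
    (z : groupCohomology (tt_res ((rc_conj g K).subgroupOf (rc_io_D w q))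
      (zc_Z ↥(rc_io_D w q))) 2) :
    rc_comp (rc_io_data p T L w hw hunr) q K g (rc_io_extHom p w hw hunr K q g z) = z :=
  hs_comp_extPull (rc_io_data p T L w hw hunr) (rc_io_inI T L) (rc_io_isCoindSum w hw p hunr)
    K q g z

theorem rc_io_comp_extHom_of_ne (K : Subgroup (L ≃ₐ[ℚ] L)) (q : rc_io_Q T) (g : L ≃ₐ[ℚ] L)
    (z : groupCohomology (tt_res ((rc_conj g K).subgroupOf (rc_io_D w q))
      (zc_Z ↥(rc_io_D w q))) 2) {q' : rc_io_Q T} (hne : q' ≠ q) (g' : L ≃ₐ[ℚ] L) :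
    rc_comp (rc_io_data p T L w hw hunr) q' K g' (rc_io_extHom p w hw hunr K q g z) = 0 :=
  hs_comp_extPull_of_ne (rc_io_data p T L w hw hunr) (rc_io_inI T L)
    (rc_io_isCoindSum w hw p hunr) K q g z hne g'

theorem rc_io_comp_extHom_of_notMem (K : Subgroup (L ≃ₐ[ℚ] L)) (q : rc_io_Q T) (g : L ≃ₐ[ℚ] L)
    (z : groupCohomology (tt_res ((rc_conj g K).subgroupOf (rc_io_D w q))
      (zc_Z ↥(rc_io_D w q))) 2) {g' : L ≃ₐ[ℚ] L}
    (hg' : ¬ ∃ s ∈ K, ∃ d : ↥(rc_io_D w q), g' = s * g * d) :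
    rc_comp (rc_io_data p T L w hw hunr) q K g' (rc_io_extHom p w hw hunr K q g z) = 0 :=
  hs_comp_extPull_of_notMem (rc_io_data p T L w hw hunr) (rc_io_inI T L)
    (rc_io_isCoindSum w hw p hunr) K q g z hg'

/-- the extension has trivial image in the `T`-part of the ideles -/
theorem rc_io_prS_extHom (K : Subgroup (L ≃ₐ[ℚ] L)) (q : rc_io_Q T) (g : L ≃ₐ[ℚ] L)
    (z : groupCohomology (tt_res ((rc_conj g K).subgroupOf (rc_io_D w q))
      (zc_Z ↥(rc_io_D w q))) 2) :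
    (tt_coeffMap ((Rep.resFunctor K.subtype).map (rc_io_prS T L)) 2).hom
      (rc_io_extHom p w hw hunr K q g z) = 0 :=
  hs_coeffMap_extPull' (rc_io_data p T L w hw hunr) (rc_io_inI T L) (rc_io_prS T L)
    (rc_io_prS_inI T L) (rc_io_isCoindSum w hw p hunr) K q g z

omit [IsGalois ℚ L] in
/-- elements of the same `(K, D)`-double coset give the same `K`-orbit on `Γ ⧸ D` -/
theorem rc_io_orbit_eq (K D : Subgroup (L ≃ₐ[ℚ] L)) {g g' : L ≃ₐ[ℚ] L}
    (h : ∃ s ∈ K, ∃ d : ↥D, g' = s * g * d) :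
    (Quotient.mk'' ((g' : L ≃ₐ[ℚ] L) : (L ≃ₐ[ℚ] L) ⧸ D) :
      orbitRel.Quotient ↥K ((L ≃ₐ[ℚ] L) ⧸ D)) = Quotient.mk'' ((g : L ≃ₐ[ℚ] L) : (L ≃ₐ[ℚ] L) ⧸ D) := by
  obtain ⟨s, hs, d, rfl⟩ := h
  apply Quotient.sound'
  refine ⟨⟨s, hs⟩, ?_⟩
  show ((s * g : L ≃ₐ[ℚ] L) : (L ≃ₐ[ℚ] L) ⧸ D) = ((s * g * d : L ≃ₐ[ℚ] L) : (L ≃ₐ[ℚ] L) ⧸ D)
  rw [QuotientGroup.eq]
  have : (s * g)⁻¹ * (s * g * (d : L ≃ₐ[ℚ] L)) = d := by group
  rw [this]
  exact d.2

/-- **(5) extension by zero** at a prime outside `T`: every local class is the component of a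
global idele class coming from the ideal part, all of whose other components vanish. -/
theorem rc_io_ext (K : Subgroup (L ≃ₐ[ℚ] L)) (q : rc_io_Q T) (g : L ≃ₐ[ℚ] L)
    (z₀ : groupCohomology (tt_res ((rc_conj g K).subgroupOf (rc_io_D w q))
      (zc_Z ↥(rc_io_D w q))) 2) :
    ∃ z : groupCohomology (tt_res K (id_JRep T L)) 2,
      rc_comp (rc_io_data p T L w hw hunr) q K g z = z₀ ∧
      (∀ (q' : rc_io_Q T) (g' : L ≃ₐ[ℚ] L), q' ≠ q →
        rc_comp (rc_io_data p T L w hw hunr) q' K g' z = 0) ∧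
      (∀ g' : L ≃ₐ[ℚ] L,
        (Quotient.mk'' ((g' : L ≃ₐ[ℚ] L) : (L ≃ₐ[ℚ] L) ⧸ rc_io_D w q) :
          orbitRel.Quotient ↥K ((L ≃ₐ[ℚ] L) ⧸ rc_io_D w q)) ≠
            Quotient.mk'' ((g : L ≃ₐ[ℚ] L) : (L ≃ₐ[ℚ] L) ⧸ rc_io_D w q) →
          rc_comp (rc_io_data p T L w hw hunr) q K g' z = 0) ∧
      (tt_coeffMap ((Rep.resFunctor K.subtype).map (rc_io_prS T L)) 2).hom z = 0 ∧
      ∀ n : ℕ, n • z₀ = 0 → n • z = 0 := by
  refine ⟨rc_io_extHom p w hw hunr K q g z₀, rc_io_comp_extHom p w hw hunr K q g z₀,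
    fun q' g' hne => rc_io_comp_extHom_of_ne p w hw hunr K q g z₀ hne g',
    fun g' hg' => rc_io_comp_extHom_of_notMem p w hw hunr K q g z₀
      (fun h => hg' (rc_io_orbit_eq K (rc_io_D w q) h)),
    rc_io_prS_extHom p w hw hunr K q g z₀, fun n hn => ?_⟩
  rw [← map_nsmul, hn, map_zero]

/-- **Hasse principle on the ideal part**: a class of `H²(K, id_IRep)` whose image in `H²(K, J)`
has trivial components at all primes outside `T` is zero. -/
theorem rc_io_hasse (K : Subgroup (L ≃ₐ[ℚ] L)) (z : groupCohomology (tt_res K (id_IRep T L)) 2)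
    (hz : ∀ (q : rc_io_Q T) (g : L ≃ₐ[ℚ] L), rc_comp (rc_io_data p T L w hw hunr) q K g
      ((tt_coeffMap ((Rep.resFunctor K.subtype).map (rc_io_inI T L)) 2).hom z) = 0) : z = 0 :=
  hs_hasse_pull (rc_io_data p T L w hw hunr) (rc_io_inI T L) (rc_io_isCoindSum w hw p hunr) K z hz

end main

end Fermat.Agent.S55
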