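import Fermat.Agent.S55.Recip.Orbit

/-!
# S55, leaf `Orbit`: extension by zero on `H²`

For a component `B` of `A` at `x₀` (`C : ob_Comp A D x₀ S B`):

* `ob_ext C : H²(S, B) →+ H²(H, A)` (coinduction of cocycles, `ob_coind₂`), with
  `ob_ext_cl2` (value on the class of an explicit cocycle);
* `ob_loc_ext`: `ob_loc ∘ ob_ext = id`;
* `ob_loc_ext_of_notMem`: `ob_loc' ∘ ob_ext = 0` for a component at a point of another orbit;
* `ob_ext_loc` (transitive `X`): `ob_ext ∘ ob_loc = id`, so `ob_locEquiv : H²(H, A) ≃+ H²(S, B)`;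
* `ob_sum_ext_loc`: `z = ∑ i, ob_ext (C i) (ob_loc (C i) z)` for a family of components, one at a
  point of each orbit.
-/

set_option autoImplicit false

namespace Fermat.Agent.S55

open CategoryTheory groupCohomology MulAction

section cochain

variable {H : Type} [Group H] {A : Rep.{0} ℤ H} {X : Type*} [MulAction H X] [Fintype X]
  {D : ob_RepDecomp A X} {x₀ : X} {S : Subgroup H} {B : Rep.{0} ℤ S}

/-- the stabiliser of `x₀` as a subgroup of `S` -/
def ob_toS (C : ob_Comp A D x₀ S B) (s : ↥(MulAction.stabilizer H x₀)) : ↥S :=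
  ⟨s, (C.stab s).mpr s.2⟩

/-- an element of `S` as an element of the stabiliser of `x₀` -/
def ob_ofS (C : ob_Comp A D x₀ S B) (s : ↥S) : ↥(MulAction.stabilizer H x₀) :=
  ⟨s, (C.stab s).mp s.2⟩

@[simp] theorem ob_toS_ofS (C : ob_Comp A D x₀ S B) (s : ↥S) : ob_toS C (ob_ofS C s) = s := rfl

@[simp] theorem ob_toS_mul (C : ob_Comp A D x₀ S B) (s s' : ↥(MulAction.stabilizer H x₀)) :
    ob_toS C (s * s') = ob_toS C s * ob_toS C s' := rfl

@[simp] theorem ob_toS_coe (C : ob_Comp A D x₀ S B) (s : ↥(MulAction.stabilizer H x₀)) :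
    ((ob_toS C s : ↥S) : H) = s := rfl

/-- a `2`-cochain of `S` in `B` as a `2`-cochain of the stabiliser in `A_{x₀} ⊆ A` -/
def ob_lift₂ (C : ob_Comp A D x₀ S B) (c₀ : ↥S × ↥S → B.V) :
    ↥(MulAction.stabilizer H x₀) × ↥(MulAction.stabilizer H x₀) → A.V :=
  fun p => C.ι (c₀ (ob_toS C p.1, ob_toS C p.2))

/-- a `1`-cochain of `S` in `B` as a `1`-cochain of the stabiliser in `A_{x₀} ⊆ A` -/
def ob_lift₁ (C : ob_Comp A D x₀ S B) (b₀ : ↥S → B.V) : ↥(MulAction.stabilizer H x₀) → A.V :=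
  fun s => C.ι (b₀ (ob_toS C s))

/-- extension by zero of a `2`-cochain -/
noncomputable def ob_extCochain₂ (C : ob_Comp A D x₀ S B) (c₀ : ↥S × ↥S → B.V) : H × H → A.V :=
  @ob_coind₂ H _ X _ _ A.V _ (ob_repAction A) x₀ (ob_lift₂ C c₀)

/-- extension by zero of a `1`-cochain -/
noncomputable def ob_extCochain₁ (C : ob_Comp A D x₀ S B) (b₀ : ↥S → B.V) : H → A.V :=
  @ob_coind₁ H _ X _ _ A.V _ (ob_repAction A) x₀ (ob_lift₁ C b₀)

theorem ob_lift₂_isCocycle (C : ob_Comp A D x₀ S B) {c₀ : ↥S × ↥S → B.V} (hc₀ : te_IsZ2 B c₀) :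
    @IsCocycle₂ ↥(MulAction.stabilizer H x₀) A.V _ _
      (@Subgroup.instMulAction H A.V _ (ob_repAction A).toMulAction
        (MulAction.stabilizer H x₀)).toSMul (ob_lift₂ C c₀) := by
  intro s s' s''
  have h := congrArg C.ι (hc₀ (ob_toS C s) (ob_toS C s') (ob_toS C s''))
  rw [map_add, map_add, C.ι_ρ] at h
  exact h

theorem ob_isZ2_ext (C : ob_Comp A D x₀ S B) {c₀ : ↥S × ↥S → B.V} (hc₀ : te_IsZ2 B c₀) :
    te_IsZ2 A (ob_extCochain₂ C c₀) := by
  let _ := ob_repAction A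
  exact ob_isCocycle₂_coind₂ x₀ (ob_lift₂_isCocycle C hc₀)

theorem ob_ext_d1 (C : ob_Comp A D x₀ S B) (y : ↥S → B.V) :
    ob_extCochain₂ C (te_d1 B y) = te_d1 A (ob_extCochain₁ C y) := by
  let _ := ob_repAction A
  funext p
  have h := ob_coind₂_d x₀ (ob_lift₁ C y) (c₀ := ob_lift₂ C (te_d1 B y)) (fun s s' => by
    show (s : H) • C.ι (y (ob_toS C s')) - C.ι (y (ob_toS C (s * s'))) + C.ι (y (ob_toS C s)) =
      C.ι (te_d1 B y (ob_toS C s, ob_toS C s'))
    simp only [te_d1, map_add, map_sub, C.ι_ρ]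
    rfl) p.1 p.2
  exact h.symm

theorem ob_ext_add (C : ob_Comp A D x₀ S B) (c c' : ↥S × ↥S → B.V) :
    ob_extCochain₂ C (c + c') = ob_extCochain₂ C c + ob_extCochain₂ C c' := by
  let _ := ob_repAction A
  funext p
  show ob_coind₂ x₀ (ob_lift₂ C (c + c')) p =
    ob_coind₂ x₀ (ob_lift₂ C c) p + ob_coind₂ x₀ (ob_lift₂ C c') p
  simp only [ob_coind₂, ob_lift₂, Pi.add_apply, map_add, smul_add, Finset.sum_add_distrib]

theorem ob_ext_sub (C : ob_Comp A D x₀ S B) (c c' : ↥S × ↥S → B.V) :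
    ob_extCochain₂ C (c - c') = ob_extCochain₂ C c - ob_extCochain₂ C c' := by
  have h := ob_ext_add C (c - c') c'
  rw [sub_add_cancel] at h
  rw [h, add_sub_cancel_right]

/-- the localisation at `x₀` of the extension is the original cochain -/
theorem ob_pr_ext (C : ob_Comp A D x₀ S B) (c₀ : ↥S × ↥S → B.V) (s s' : ↥S) :
    C.pr.hom (ob_extCochain₂ C c₀ ((s : H), (s' : H)) : A.V) = c₀ (s, s') := by
  let _ := ob_repAction A
  have h := ob_loc_coind₂ D.toDecomp x₀ (c₀ := ob_lift₂ C c₀) (fun p => C.π_ι _)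
    (ob_ofS C s) (ob_ofS C s')
  rw [← C.pr_π]
  have h' : D.π x₀ (ob_extCochain₂ C c₀ ((s : H), (s' : H))) =
      C.ι (c₀ (s, s')) := h
  rw [h', C.pr_ι]

/-- the extension vanishes in the components outside the orbit of `x₀` -/
theorem ob_pr_ext_of_notMem (C : ob_Comp A D x₀ S B) (c₀ : ↥S × ↥S → B.V)
    {y₀ : X} {S' : Subgroup H} {B' : Rep.{0} ℤ S'} (C' : ob_Comp A D y₀ S' B')
    (hy : y₀ ∉ MulAction.orbit H x₀) (p : H × H) :
    C'.pr.hom (ob_extCochain₂ C c₀ p : A.V) = 0 := by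
  let _ := ob_repAction A
  have h := ob_supp_coind₂ D.toDecomp x₀ (c₀ := ob_lift₂ C c₀) (fun p => C.π_ι _)
    (y := y₀) (fun hmem => hy (ob_mem_orb.mp hmem)) p
  rw [← C'.pr_π]
  have h' : D.π y₀ (ob_extCochain₂ C c₀ p) = 0 := h
  rw [h', map_zero]

end cochain

/-! ### descent of cochain-level maps to `H²` -/

section descend

variable {G G' : Type} [Group G] [Group G']

theorem ob_te_cl2_eq_iff (A : Rep.{0} ℤ G) {z z' : G × G → A.V} (hz : te_IsZ2 A z)
    (hz' : te_IsZ2 A z') :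
    te_cl2 A z hz = te_cl2 A z' hz' ↔ ∃ y : G → A.V, z - z' = te_d1 A y := by
  rw [te_cl2, te_cl2, H2π_eq_iff]
  constructor
  · rintro ⟨y, hy⟩; exact ⟨y, hy.symm⟩
  · rintro ⟨y, hy⟩; exact ⟨y, hy.symm⟩

theorem ob_te_isZ2_add (A : Rep.{0} ℤ G) {z z' : G × G → A.V} (hz : te_IsZ2 A z)
    (hz' : te_IsZ2 A z') : te_IsZ2 A (z + z') := by
  rw [te_isZ2_iff] at hz hz' ⊢
  exact (cocycles₂ A).add_mem hz hz'

theorem ob_te_cl2_add (A : Rep.{0} ℤ G) {z z' : G × G → A.V} (hz : te_IsZ2 A z)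
    (hz' : te_IsZ2 A z') :
    te_cl2 A (z + z') (ob_te_isZ2_add A hz hz') = te_cl2 A z hz + te_cl2 A z' hz' := by
  rw [te_cl2, te_cl2, te_cl2, ← map_add]
  rfl

theorem ob_te_cl2_congr (A : Rep.{0} ℤ G) {z z' : G × G → A.V} (h : z = z') (hz : te_IsZ2 A z) :
    te_cl2 A z hz = te_cl2 A z' (h ▸ hz) := by
  subst h; rfl

/-- A map on explicit `2`-cochains which preserves cocycles, sums and coboundaries descends to
`H²`. -/
theorem ob_exists_descend (B : Rep.{0} ℤ G') (A : Rep.{0} ℤ G)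
    (E : (G' × G' → B.V) → (G × G → A.V))
    (hZ : ∀ c, te_IsZ2 B c → te_IsZ2 A (E c))
    (hadd : ∀ c c', E (c + c') = E c + E c')
    (hB : ∀ y : G' → B.V, ∃ y' : G → A.V, E (te_d1 B y) = te_d1 A y') :
    ∃ f : groupCohomology B 2 →+ groupCohomology A 2,
      ∀ (c : G' × G' → B.V) (hc : te_IsZ2 B c), f (te_cl2 B c hc) = te_cl2 A (E c) (hZ c hc) := by
  classical
  have hsub : ∀ c c', E (c - c') = E c - E c' := by
    intro c c'
    have h := hadd (c - c') c'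
    rw [sub_add_cancel] at h
    rw [h, add_sub_cancel_right]
  have hwd : ∀ (c c' : G' × G' → B.V) (hc : te_IsZ2 B c) (hc' : te_IsZ2 B c'),
      te_cl2 B c hc = te_cl2 B c' hc' → te_cl2 A (E c) (hZ c hc) = te_cl2 A (E c') (hZ c' hc') := by
    intro c c' hc hc' h
    rw [ob_te_cl2_eq_iff] at h ⊢
    obtain ⟨y, hy⟩ := h
    obtain ⟨y', hy'⟩ := hB y
    exact ⟨y', by rw [← hsub, hy, hy']⟩
  choose rep hrep hrep' using te_cl2_surjective B
  have key : ∀ (c : G' × G' → B.V) (hc : te_IsZ2 B c),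
      te_cl2 A (E (rep (te_cl2 B c hc))) (hZ _ (hrep _)) = te_cl2 A (E c) (hZ c hc) :=
    fun c hc => hwd _ _ _ _ (hrep' _)
  refine ⟨AddMonoidHom.mk' (fun z => te_cl2 A (E (rep z)) (hZ _ (hrep z))) ?_, fun c hc => key c hc⟩
  intro z z'
  obtain ⟨c, hc, rfl⟩ := te_cl2_surjective B z
  obtain ⟨c', hc', rfl⟩ := te_cl2_surjective B z'
  rw [← ob_te_cl2_add B hc hc', key, key, key, ← ob_te_cl2_add A (hZ c hc) (hZ c' hc')]
  exact ob_te_cl2_congr A (hadd c c') _

end descend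

/-! ### extension by zero on `H²` -/

section ext

variable {H : Type} [Group H] {A : Rep.{0} ℤ H} {X : Type*} [MulAction H X] [Fintype X]
  {D : ob_RepDecomp A X} {x₀ : X} {S : Subgroup H} {B : Rep.{0} ℤ S}

theorem ob_ext_exists (C : ob_Comp A D x₀ S B) :
    ∃ f : groupCohomology B 2 →+ groupCohomology A 2,
      ∀ (c : ↥S × ↥S → B.V) (hc : te_IsZ2 B c),
        f (te_cl2 B c hc) = te_cl2 A (ob_extCochain₂ C c) (ob_isZ2_ext C hc) :=
  ob_exists_descend B A (ob_extCochain₂ C) (fun _ hc => ob_isZ2_ext C hc) (ob_ext_add C)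
    (fun y => ⟨ob_extCochain₁ C y, ob_ext_d1 C y⟩)

/-- **Extension by zero** `H²(S, B) →+ H²(H, A)` for a component `B` of `A`. -/
noncomputable def ob_ext (C : ob_Comp A D x₀ S B) :
    groupCohomology B 2 →+ groupCohomology A 2 :=
  (ob_ext_exists C).choose

theorem ob_ext_cl2 (C : ob_Comp A D x₀ S B) (c : ↥S × ↥S → B.V) (hc : te_IsZ2 B c) :
    ob_ext C (te_cl2 B c hc) = te_cl2 A (ob_extCochain₂ C c) (ob_isZ2_ext C hc) :=
  (ob_ext_exists C).choose_spec c hc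

/-- `ob_loc ∘ ob_ext = id` -/
theorem ob_loc_ext (C : ob_Comp A D x₀ S B) (z : groupCohomology B 2) :
    (ob_loc S C.pr 2).hom (ob_ext C z) = z := by
  obtain ⟨c, hc, rfl⟩ := te_cl2_surjective B z
  rw [ob_ext_cl2, ob_loc, te_map_cl2 S.subtype C.pr (ob_isZ2_ext C hc)]
  exact ob_te_cl2_congr B (funext fun q => ob_pr_ext C c q.1 q.2) _

/-- `ob_loc' ∘ ob_ext = 0` for a component at a point of another orbit -/
theorem ob_loc_ext_of_notMem (C : ob_Comp A D x₀ S B)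
    {y₀ : X} {S' : Subgroup H} {B' : Rep.{0} ℤ S'} (C' : ob_Comp A D y₀ S' B')
    (hy : y₀ ∉ MulAction.orbit H x₀) (z : groupCohomology B 2) :
    (ob_loc S' C'.pr 2).hom (ob_ext C z) = 0 := by
  obtain ⟨c, hc, rfl⟩ := te_cl2_surjective B z
  rw [ob_ext_cl2, ob_loc, te_map_cl2 S'.subtype C'.pr (ob_isZ2_ext C hc), te_cl2_eq_zero_iff]
  refine ⟨0, funext fun q => ?_⟩
  have h0 : te_d1 B' (0 : ↥S' → B'.V) q = 0 := by simp [te_d1]
  rw [h0]
  exact ob_pr_ext_of_notMem C c C' hy _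

/-- For a transitive `X`: `ob_ext ∘ ob_loc = id`. -/
theorem ob_ext_loc (htr : ∀ x : X, x ∈ MulAction.orbit H x₀) (C : ob_Comp A D x₀ S B)
    (z : groupCohomology A 2) : ob_ext C ((ob_loc S C.pr 2).hom z) = z :=
  ob_loc_injective₂ htr C (ob_loc_ext C _)

/-- **Shapiro's isomorphism in degree `2`** for a transitive `X`. -/
noncomputable def ob_locEquiv (htr : ∀ x : X, x ∈ MulAction.orbit H x₀) (C : ob_Comp A D x₀ S B) :
    groupCohomology A 2 ≃+ groupCohomology B 2 where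
  toFun := (ob_loc S C.pr 2).hom
  invFun := ob_ext C
  left_inv := ob_ext_loc htr C
  right_inv := ob_loc_ext C
  map_add' := map_add _

/-- **Decomposition of `H²(H, A)` along the orbits**: for a finite family of components, one at
a point of each orbit, every class is the sum of the extensions of its localisations. -/
theorem ob_sum_ext_loc {I : Type*} [Fintype I] (pt : I → X)
    (hpt : ∀ x : X, ∃ i, x ∈ MulAction.orbit H (pt i))
    (hdis : ∀ i j, i ≠ j → pt j ∉ MulAction.orbit H (pt i))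
    (S : I → Subgroup H) (B : ∀ i, Rep.{0} ℤ (S i)) (C : ∀ i, ob_Comp A D (pt i) (S i) (B i))
    (z : groupCohomology A 2) :
    z = ∑ i, ob_ext (C i) ((ob_loc (S i) (C i).pr 2).hom z) := by
  classical
  rw [← sub_eq_zero]
  refine ob_H2_eq_zero_of_loc D pt hpt S B C _ fun j => ?_
  rw [map_sub, map_sum, Finset.sum_eq_single j, ob_loc_ext, sub_self]
  · intro i _ hij
    exact ob_loc_ext_of_notMem (C i) (C j) (hdis i j hij) _
  · intro h; exact absurd (Finset.mem_univ j) h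

end ext

end Fermat.Agent.S55
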