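import Fermat.Agent.S55.Recip.OrbitCoind
import Fermat.Agent.S55.Idele.Semilocal

/-!
# S55: Shapiro for the units of a semilocal Galois algebra

`L/k` finite Galois with group `Γ`, `F/k` a field, `R = F ⊗[k] L`, `m` a maximal ideal of `R` with
stabiliser `D`, `X : Rep ℤ D` with a surjective `D`-map `pr` from the units of `R` with kernel
`1 + m`.  By `Idele/Semilocal.lean` (`ga_units_ext`, `ga_units_exists`) the `Γ`-module `Rˣ` is
coinduced from `X` (`ob_ga_isCoind`), hence (`Recip/OrbitCoind.lean`):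

* `ob_ga_shapiro`: the field `shapiro` of `du_Seam` for `Jq = Rˣ`, in the shape of `ga_frob`;
* `ob_ga_loc_injective₁/₂`: `res + proj` is injective on `H¹(Γ, Rˣ)`, `H²(Γ, Rˣ)`.
-/

set_option autoImplicit false

open scoped TensorProduct Pointwise

namespace Fermat.Agent.S55

open CategoryTheory groupCohomology

variable {k L F : Type} [Field k] [Field L] [Field F] [Algebra k L]
  [Algebra k F] [FiniteDimensional k L] [IsGalois k L]

/-- The units of the Galois algebra `F ⊗[k] L` are coinduced from the stabiliser of a maximal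
ideal. -/
theorem ob_ga_isCoind (m : Ideal (F ⊗[k] L)) [hm : m.IsMaximal] (D : Subgroup (L ≃ₐ[k] L))
    (hD : ∀ g : L ≃ₐ[k] L, g ∈ D ↔ g • m = m) (X : Rep.{0} ℤ D)
    (pr : Rep.res D.subtype (Rep.ofMulDistribMulAction (L ≃ₐ[k] L) (F ⊗[k] L)ˣ) ⟶ X)
    (hker : ∀ u : (F ⊗[k] L)ˣ,
      pr.hom (Additive.ofMul u : Additive (F ⊗[k] L)ˣ) = 0 ↔ (u : F ⊗[k] L) - 1 ∈ m)
    (hsurj : Function.Surjective pr.hom) :
    ob_IsCoind (Rep.ofMulDistribMulAction (L ≃ₐ[k] L) (F ⊗[k] L)ˣ) D X pr := by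
  let π : Additive (F ⊗[k] L)ˣ →+ X.V :=
    { toFun := fun a => pr.hom a
      map_zero' := map_zero pr.hom
      map_add' := fun a b => map_add pr.hom a b }
  let ρ : D → X.V →+ X.V := fun d => (X.ρ d).toAddMonoidHom
  have hπρ : ∀ (d : D) (u : (F ⊗[k] L)ˣ),
      π (Additive.ofMul ((d : L ≃ₐ[k] L) • u)) = ρ d (π (Additive.ofMul u)) := by
    intro d u
    exact Rep.hom_comm_apply pr d (Additive.ofMul u : Additive (F ⊗[k] L)ˣ)
  have hker' : ∀ u : (F ⊗[k] L)ˣ, π (Additive.ofMul u) = 0 ↔ (u : F ⊗[k] L) - 1 ∈ m := hker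
  have hsurj' : Function.Surjective π := hsurj
  refine ⟨fun a ha => ?_, fun φ hφ => ?_⟩
  · let a' : Additive (F ⊗[k] L)ˣ := a
    have h1 : Additive.toMul a' = (1 : (F ⊗[k] L)ˣ) := by
      apply ga_units_ext m π hker'
      intro g
      have h2 : π (Additive.ofMul (g • Additive.toMul a')) = 0 := ha g
      have h3 : π (Additive.ofMul (g • (1 : (F ⊗[k] L)ˣ))) = 0 := by
        rw [smul_one]
        exact map_zero π
      rw [h2, h3]
    exact congrArg Additive.ofMul h1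
  · obtain ⟨u, hu⟩ := ga_units_exists m D hD ρ π hπρ hker' hsurj' φ (fun d g => hφ d g)
    exact ⟨Additive.ofMul u, fun g => hu g⟩

/-- **The field `shapiro` of `du_Seam` for the units of a Galois algebra**, in the shape of
`ga_frob`: restriction to the stabiliser `D` of `m` followed by the projection is injective on
`Hⁿ(Γ, Hom(Y, Rˣ))`, `n = 1, 2`. -/
theorem ob_ga_shapiro (m : Ideal (F ⊗[k] L)) [hm : m.IsMaximal] (D : Subgroup (L ≃ₐ[k] L))
    (hD : ∀ g : L ≃ₐ[k] L, g ∈ D ↔ g • m = m) (X : Rep.{0} ℤ D)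
    (pr : Rep.res D.subtype (Rep.ofMulDistribMulAction (L ≃ₐ[k] L) (F ⊗[k] L)ˣ) ⟶ X)
    (hker : ∀ u : (F ⊗[k] L)ˣ,
      pr.hom (Additive.ofMul u : Additive (F ⊗[k] L)ˣ) = 0 ↔ (u : F ⊗[k] L) - 1 ∈ m)
    (hsurj : Function.Surjective pr.hom)
    (Y : Rep.{0} ℤ (L ≃ₐ[k] L)) (n : ℕ) (hn : n = 1 ∨ n = 2)
    (z : groupCohomology (tt_hom Y (Rep.ofMulDistribMulAction (L ≃ₐ[k] L) (F ⊗[k] L)ˣ)) n)
    (hz : (tt_coeffMap (tt_homPost (tt_res D Y) pr) n).hom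
      ((tt_resMap D (tt_hom Y (Rep.ofMulDistribMulAction (L ≃ₐ[k] L) (F ⊗[k] L)ˣ)) n).hom z) = 0) :
    z = 0 := by
  have : Fintype ((L ≃ₐ[k] L) ⧸ D) := Fintype.ofFinite _
  exact (ob_ga_isCoind m D hD X pr hker hsurj).shapiro Y n hn z hz

/-- `res + proj` is injective on `H²(Γ, Rˣ)`. -/
theorem ob_ga_loc_injective₂ (m : Ideal (F ⊗[k] L)) [hm : m.IsMaximal]
    (D : Subgroup (L ≃ₐ[k] L)) (hD : ∀ g : L ≃ₐ[k] L, g ∈ D ↔ g • m = m) (X : Rep.{0} ℤ D)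
    (pr : Rep.res D.subtype (Rep.ofMulDistribMulAction (L ≃ₐ[k] L) (F ⊗[k] L)ˣ) ⟶ X)
    (hker : ∀ u : (F ⊗[k] L)ˣ,
      pr.hom (Additive.ofMul u : Additive (F ⊗[k] L)ˣ) = 0 ↔ (u : F ⊗[k] L) - 1 ∈ m)
    (hsurj : Function.Surjective pr.hom) :
    Function.Injective (groupCohomology.map D.subtype pr 2).hom := by
  have : Fintype ((L ≃ₐ[k] L) ⧸ D) := Fintype.ofFinite _
  exact (ob_ga_isCoind m D hD X pr hker hsurj).loc_injective₂

/-- `res + proj` is injective on `H¹(Γ, Rˣ)`. -/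
theorem ob_ga_loc_injective₁ (m : Ideal (F ⊗[k] L)) [hm : m.IsMaximal]
    (D : Subgroup (L ≃ₐ[k] L)) (hD : ∀ g : L ≃ₐ[k] L, g ∈ D ↔ g • m = m) (X : Rep.{0} ℤ D)
    (pr : Rep.res D.subtype (Rep.ofMulDistribMulAction (L ≃ₐ[k] L) (F ⊗[k] L)ˣ) ⟶ X)
    (hker : ∀ u : (F ⊗[k] L)ˣ,
      pr.hom (Additive.ofMul u : Additive (F ⊗[k] L)ˣ) = 0 ↔ (u : F ⊗[k] L) - 1 ∈ m)
    (hsurj : Function.Surjective pr.hom) :
    Function.Injective (groupCohomology.map D.subtype pr 1).hom := by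
  have : Fintype ((L ≃ₐ[k] L) ⧸ D) := Fintype.ofFinite _
  exact (ob_ga_isCoind m D hD X pr hker hsurj).loc_injective₁

end Fermat.Agent.S55
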