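/-
S55 / G4, leaf (B2): the local data of the total invariant at the primes INSIDE `T`.
For a finite Galois `L ⊆ ℚ̄` and a finite set `T` of rational primes: the idele module
`id_JRep T ↥L` with, for `q ∈ T`, the decomposition group `il_D q L`, the local module
`il_Xq q L = (L·ℚ_q)ˣ`, the component `rc_ii_pr` (projection to `(ℚ_q ⊗ L)ˣ`, then `il_pr`) and the
local class module `ils_Pq` (`rc_ii_data`).  The semilocal factor `(ℚ_q ⊗ L)ˣ` is coinduced from
`(D_q, X_q)` (`rc_ii_isCoind`), hence the `T`-part of the ideles is a sum of coinduced modules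
(`rc_ii_isCoindSumS`, in the sense of `hs_IsCoindSum`) and local classes at the primes of `T` extend
by zero to classes of `H²(K, J)` coming from the `T`-part (`rc_ii_ext`).
Owner: helper19.  Prefix `rc_ii_`.
-/
import Fermat.Agent.S55.Idele.LocalSeam
import Fermat.Agent.S55.Recip.OrbitGalois
import Fermat.Agent.S55.Recip.OrbitExt
import Fermat.Agent.S55.Recip.TotalInv
import Fermat.Agent.S55.Recip.HasseSum

set_option autoImplicit false
set_option linter.unusedSectionVars false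

open scoped TensorProduct Pointwise
open NumberField groupCohomology CategoryTheory

namespace Fermat.Agent.S55

local notation "Qbar" => AlgebraicClosure ℚ

noncomputable section

variable (q : Nat.Primes) (L : IntermediateField ℚ Qbar) [FiniteDimensional ℚ L] [Normal ℚ L]
  [NumberField L]

/-- The distinguished maximal ideal of `ℚ_q ⊗ L`. -/
abbrev rc_ii_m : Ideal (id_A ↥L q) := RingHom.ker (il_evLq (q : ℕ) L)

theorem rc_ii_smul_mem_m {σ : ↥L ≃ₐ[ℚ] ↥L} (hσ : σ ∈ il_D (q : ℕ) L) {z : id_A ↥L q}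
    (hz : z ∈ rc_ii_m q L) : σ • z ∈ rc_ii_m q L := by
  rw [il_mem_ker_evLq_iff] at hz ⊢
  exact (il_mem_D_iff_ker (q : ℕ) L σ).mp hσ z hz

/-- `D_q(L)` is the stabiliser of the distinguished maximal ideal. -/
theorem rc_ii_mem_D_iff (σ : ↥L ≃ₐ[ℚ] ↥L) :
    σ ∈ il_D (q : ℕ) L ↔ σ • rc_ii_m q L = rc_ii_m q L := by
  constructor
  · intro hσ
    ext z
    rw [Ideal.mem_pointwise_smul_iff_inv_smul_mem]
    constructor
    · intro hz
      have := rc_ii_smul_mem_m q L hσ hz
      rwa [smul_inv_smul] at this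
    · intro hz
      exact rc_ii_smul_mem_m q L (inv_mem hσ) hz
  · intro h
    rw [il_mem_D_iff_ker]
    intro z hz
    have h1 : σ • z ∈ σ • rc_ii_m q L :=
      Ideal.smul_mem_pointwise_smul σ z _ ((il_mem_ker_evLq_iff q L z).mpr hz)
    rw [h] at h1
    exact (il_mem_ker_evLq_iff q L _).mp h1

theorem rc_ii_isCoind :
    ob_IsCoind (id_ARep ↥L q) (il_D (q : ℕ) L) (il_Xq q L) (il_pr q L) := by
  have : IsGalois ℚ ↥L := ⟨⟩
  exact ob_ga_isCoind (rc_ii_m q L) (il_D (q : ℕ) L) (rc_ii_mem_D_iff q L) (il_Xq q L) (il_pr q L)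
    (fun u => by
      rw [il_pr_eq_zero_iff, RingHom.mem_ker, il_mem_ker_evLq_iff])
    (il_pr_surjective q L)

end

end Fermat.Agent.S55

namespace Fermat.Agent.S55

local notation "Qbar" => AlgebraicClosure ℚ

noncomputable section

variable (p : ℕ) [Fact p.Prime] (T : Finset Nat.Primes) (L : IntermediateField ℚ Qbar)
  [FiniteDimensional ℚ L] [Normal ℚ L] [NumberField L]

/-- the `q`-component of an idele (`q ∈ T`) -/
def rc_ii_projHom (q : ↥T) : id_J T ↥L →* (id_A ↥L q.1)ˣ :=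
  (Pi.evalMonoidHom (fun q : ↥T => (id_A ↥L q.1)ˣ) q).comp (MonoidHom.fst _ _)

@[simp] theorem rc_ii_projHom_apply (q : ↥T) (z : id_J T ↥L) : rc_ii_projHom T L q z = z.1 q := rfl

/-- the `q`-component of an idele as a morphism of Galois modules -/
def rc_ii_proj (q : ↥T) : id_JRep T ↥L ⟶ id_ARep ↥L q.1 :=
  id_repHom (rc_ii_projHom T L q) (fun _ _ => rfl)

theorem rc_ii_proj_apply (q : ↥T) (z : id_J T ↥L) :
    (rc_ii_proj T L q).hom (Additive.ofMul z : Additive (id_J T ↥L)) =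
      (Additive.ofMul (z.1 q) : Additive (id_A ↥L q.1)ˣ) := rfl

/-- the local component at the chosen place over `q ∈ T` -/
def rc_ii_pr (q : ↥T) : tt_res (il_D (q.1 : ℕ) L) (id_JRep T ↥L) ⟶ il_Xq q.1 L :=
  (Rep.resFunctor (il_D (q.1 : ℕ) L).subtype).map (rc_ii_proj T L q) ≫ il_pr q.1 L

theorem rc_ii_pr_apply (q : ↥T) (z : id_J T ↥L) :
    (rc_ii_pr T L q).hom (Additive.ofMul z : Additive (id_J T ↥L)) =
      Additive.ofMul (il_prU q.1 L (z.1 q)) := rfl

/-- **The local data of the total invariant at the primes of `T`.** -/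
def rc_ii_data : rc_InvData p (id_JRep T ↥L) ↥T where
  D q := il_D (q.1 : ℕ) L
  X q := il_Xq q.1 L
  pr q := rc_ii_pr T L q
  P q := ils_Pq p q.1 L

@[simp] theorem rc_ii_data_D (q : ↥T) : (rc_ii_data p T L).D q = il_D (q.1 : ℕ) L := rfl
@[simp] theorem rc_ii_data_X (q : ↥T) : (rc_ii_data p T L).X q = il_Xq q.1 L := rfl
@[simp] theorem rc_ii_data_pr (q : ↥T) : (rc_ii_data p T L).pr q = rc_ii_pr T L q := rfl
@[simp] theorem rc_ii_data_P (q : ↥T) : (rc_ii_data p T L).P q = ils_Pq p q.1 L := rfl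

theorem rc_ii_finSupp : rc_FinSupp (rc_ii_data p T L) := fun _ _ => Set.toFinite _

end

end Fermat.Agent.S55

namespace Fermat.Agent.S55

local notation "Qbar" => AlgebraicClosure ℚ

noncomputable section

variable (p : ℕ) [Fact p.Prime] (T : Finset Nat.Primes) (L : IntermediateField ℚ Qbar)
  [FiniteDimensional ℚ L] [Normal ℚ L] [NumberField L]

/-! ### Compatibilities of the components with the inclusions -/

/-- the components at `T` of an idele supported outside `T` (a divisor) vanish -/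
theorem rc_ii_pr_inI (q : ↥T) (D : id_I T ↥L) :
    (rc_ii_pr T L q).hom (Additive.ofMul (id_inI T ↥L D) : Additive (id_J T ↥L)) = 0 := by
  rw [rc_ii_pr_apply]
  have h : (id_inI T ↥L D).1 q = 1 := rfl
  rw [h, map_one]
  rfl

/-- the component at `q` of an idele concentrated at `q` -/
theorem rc_ii_pr_inq (q : ↥T) (u : (id_A ↥L q.1)ˣ) :
    (rc_ii_pr T L q).hom
      (Additive.ofMul (id_inS T ↥L (id_inq T ↥L q u)) : Additive (id_J T ↥L)) =
      (il_pr q.1 L).hom (Additive.ofMul u : Additive (id_A ↥L q.1)ˣ) := by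
  rw [rc_ii_pr_apply, il_pr_hom_ofMul]
  have h : (id_inS T ↥L (id_inq T ↥L q u)).1 q = u := by
    change (id_inq T ↥L q u) q = u
    exact Pi.mulSingle_eq_same (M := fun q : ↥T => (id_A ↥L q.1)ˣ) q u
  rw [h]

/-- the component at `q' ≠ q` of an idele concentrated at `q` vanishes -/
theorem rc_ii_pr_inq_of_ne {q q' : ↥T} (h : q' ≠ q) (u : (id_A ↥L q.1)ˣ) :
    (rc_ii_pr T L q').hom
      (Additive.ofMul (id_inS T ↥L (id_inq T ↥L q u)) : Additive (id_J T ↥L)) = 0 := by
  rw [rc_ii_pr_apply]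
  have h1 : (id_inS T ↥L (id_inq T ↥L q u)).1 q' = 1 := by
    change (id_inq T ↥L q u) q' = 1
    exact Pi.mulSingle_eq_of_ne (M := fun q : ↥T => (id_A ↥L q.1)ˣ) h u
  rw [h1, map_one]
  rfl

end

end Fermat.Agent.S55

namespace Fermat.Agent.S55

noncomputable section

/-! ### Pull-back of local data along a coefficient map -/

section comap

variable {Γ : Type} [Group Γ] {p : ℕ} {J J' : Rep.{0} ℤ Γ} {Q : Type}

/-- pull-back of the local data along `f : J' ⟶ J` -/
@[reducible] def rc_ii_comap (𝔻 : rc_InvData p J Q) (f : J' ⟶ J) : rc_InvData p J' Q where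
  D := 𝔻.D
  X := 𝔻.X
  pr q := (Rep.resFunctor (𝔻.D q).subtype).map f ≫ 𝔻.pr q
  P := 𝔻.P

theorem rc_ii_comap_pr_apply (𝔻 : rc_InvData p J Q) (f : J' ⟶ J) (q : Q) (a : J'.V) :
    ((rc_ii_comap 𝔻 f).pr q).hom a = (𝔻.pr q).hom (f.hom a) := rfl

/-- components commute with coefficient maps -/
theorem rc_ii_comp_comap (𝔻 : rc_InvData p J Q) (f : J' ⟶ J) (q : Q) (H : Subgroup Γ) (g : Γ)
    (z : groupCohomology (tt_res H J') 2) :
    rc_comp 𝔻 q H g ((tt_coeffMap ((Rep.resFunctor H.subtype).map f) 2).hom z) =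
      rc_comp (rc_ii_comap 𝔻 f) q H g z := by
  obtain ⟨c, hc, rfl⟩ := te_cl2_surjective _ z
  rw [tt_coeffMap, te_map_cl2, hs_comp_cl2, hs_comp_cl2]
  refine ob_te_cl2_congr _ (funext fun r => ?_) _
  change (𝔻.pr q).hom (J.ρ g⁻¹ (f.hom (c _))) = (𝔻.pr q).hom (f.hom (J'.ρ g⁻¹ (c _)))
  rw [Rep.hom_comm_apply f]
  rfl

/-- a composite of coefficient maps which vanishes pointwise vanishes on `H²` -/
theorem rc_ii_coeffMap_comp_eq_zero {G : Type} [Group G] {A B C : Rep.{0} ℤ G} (f : A ⟶ B)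
    (g : B ⟶ C) (h : ∀ a : A.V, g.hom (f.hom a) = 0) (z : groupCohomology A 2) :
    (tt_coeffMap g 2).hom ((tt_coeffMap f 2).hom z) = 0 := by
  obtain ⟨c, hc, rfl⟩ := te_cl2_surjective A z
  change (groupCohomology.map (MonoidHom.id G) g 2).hom
    ((groupCohomology.map (MonoidHom.id G) f 2).hom (te_cl2 A c hc)) = 0
  rw [te_map_cl2 (MonoidHom.id G) f hc, te_map_cl2 (MonoidHom.id G) g]
  exact hs_cl2_eq_zero_of_forall _ _ _ (fun r => h _)

section exists_torsion

variable [Finite Γ]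

/-- `hs_exists` together with the torsion statement: the extension by zero of a local class is
killed by every integer killing the local class. -/
theorem rc_ii_exists_torsion {𝔻 : rc_InvData p J Q} (h : hs_IsCoindSum 𝔻) (H : Subgroup Γ)
    (q : Q) (g : Γ)
    (w : groupCohomology (tt_res ((rc_conj g H).subgroupOf (𝔻.D q)) (𝔻.X q)) 2) :
    ∃ z : groupCohomology (tt_res H J) 2, rc_comp 𝔻 q H g z = w ∧
      (∀ (q' : Q) (g' : Γ), q' ≠ q → rc_comp 𝔻 q' H g' z = 0) ∧
      (∀ g' : Γ, (¬ ∃ s ∈ H, ∃ d : ↥(𝔻.D q), g' = s * g * d) → rc_comp 𝔻 q H g' z = 0) ∧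
      (∀ n : ℕ, n • w = 0 → n • z = 0) := by
  obtain ⟨z, h1, h2, h3⟩ := hs_exists h H q g w
  refine ⟨z, h1, h2, h3, fun n hn => ?_⟩
  refine hs_hasse' h H (n • z) (fun q' k => ?_)
  by_cases hq : q' = q
  · subst hq
    by_cases hk : ∃ s ∈ H, ∃ d : ↥(𝔻.D q'), k = s * g * d
    · obtain ⟨s, hs, d, rfl⟩ := hk
      refine ⟨g, ⟨s⁻¹, H.inv_mem hs, d⁻¹, ?_⟩, ?_⟩
      · change g = s⁻¹ * (s * g * (d : Γ)) * ((d : Γ))⁻¹
        group
      · rw [map_nsmul, h1, hn]
    · refine ⟨k, ⟨1, H.one_mem, 1, by simp⟩, ?_⟩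
      rw [map_nsmul, h3 k hk, smul_zero]
  · refine ⟨k, ⟨1, H.one_mem, 1, by simp⟩, ?_⟩
    rw [map_nsmul, h2 q' k hq, smul_zero]

/-- Extension by zero for local data whose pull-back along `f : J' ⟶ J` is a sum of coinduced
modules: the extension comes from `J'`. -/
theorem rc_ii_ext_of_comap (𝔻 : rc_InvData p J Q) (f : J' ⟶ J)
    (h : hs_IsCoindSum (rc_ii_comap 𝔻 f)) (H : Subgroup Γ) (q : Q) (g : Γ)
    (w : groupCohomology (tt_res ((rc_conj g H).subgroupOf (𝔻.D q)) (𝔻.X q)) 2) :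
    ∃ zS : groupCohomology (tt_res H J') 2,
      rc_comp 𝔻 q H g ((tt_coeffMap ((Rep.resFunctor H.subtype).map f) 2).hom zS) = w ∧
      (∀ (q' : Q) (g' : Γ), q' ≠ q →
        rc_comp 𝔻 q' H g' ((tt_coeffMap ((Rep.resFunctor H.subtype).map f) 2).hom zS) = 0) ∧
      (∀ g' : Γ, (¬ ∃ s ∈ H, ∃ d : ↥(𝔻.D q), g' = s * g * d) →
        rc_comp 𝔻 q H g' ((tt_coeffMap ((Rep.resFunctor H.subtype).map f) 2).hom zS) = 0) ∧
      (∀ n : ℕ, n • w = 0 →
        n • (tt_coeffMap ((Rep.resFunctor H.subtype).map f) 2).hom zS = 0) := by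
  obtain ⟨zS, h1, h2, h3, h4⟩ := rc_ii_exists_torsion h H q g w
  refine ⟨zS, ?_, ?_, ?_, ?_⟩
  · exact (rc_ii_comp_comap 𝔻 f q H g zS).trans h1
  · intro q' g' hne
    exact (rc_ii_comp_comap 𝔻 f q' H g' zS).trans (h2 q' g' hne)
  · intro g' hg'
    exact (rc_ii_comp_comap 𝔻 f q H g' zS).trans (h3 g' hg')
  · intro n hn
    rw [← map_nsmul, h4 n hn, map_zero]

end exists_torsion

end comap

/-! ### The `T`-part of the ideles is a sum of coinduced modules -/

section Spart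

local notation "Qbar" => AlgebraicClosure ℚ

variable (p : ℕ) [Fact p.Prime] (T : Finset Nat.Primes) (L : IntermediateField ℚ Qbar)
  [FiniteDimensional ℚ L] [Normal ℚ L] [NumberField L]

/-- the inclusion of the `T`-part into the ideles -/
def rc_ii_inS : id_JSRep T ↥L ⟶ id_JRep T ↥L :=
  id_repHom (id_inS T ↥L) (fun σ a => (id_smul_inS T ↥L σ a).symm)

theorem rc_ii_inS_apply (x : id_JS T ↥L) :
    (rc_ii_inS T L).hom (Additive.ofMul x : Additive (id_JS T ↥L)) =
      (Additive.ofMul (id_inS T ↥L x) : Additive (id_J T ↥L)) := rfl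

/-- the projection of the ideles onto the divisors prime to `T` -/
def rc_ii_projI : id_JRep T ↥L ⟶ id_IRep T ↥L :=
  id_repHom (MonoidHom.snd (id_JS T ↥L) (id_I T ↥L)) (fun _ _ => rfl)

theorem rc_ii_projI_apply (z : id_J T ↥L) :
    (rc_ii_projI T L).hom (Additive.ofMul z : Additive (id_J T ↥L)) =
      (Additive.ofMul z.2 : Additive (id_I T ↥L)) := rfl

theorem rc_ii_projI_inS (a : (id_JSRep T ↥L).V) :
    (rc_ii_projI T L).hom ((rc_ii_inS T L).hom a) = 0 := rfl

/-- the local data on the `T`-part of the ideles -/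
abbrev rc_ii_dataS : rc_InvData p (id_JSRep T ↥L) ↥T :=
  rc_ii_comap (rc_ii_data p T L) (rc_ii_inS T L)

theorem rc_ii_dataS_pr_apply (q : ↥T) (x : id_JS T ↥L) :
    ((rc_ii_dataS p T L).pr q).hom (Additive.ofMul x : Additive (id_JS T ↥L)) =
      (il_pr q.1 L).hom (Additive.ofMul (x q) : Additive (id_A ↥L q.1)ˣ) := rfl

/-- **The `T`-part of the ideles is the sum of the modules coinduced from the local modules.** -/
theorem rc_ii_isCoindSumS : hs_IsCoindSum (rc_ii_dataS p T L) where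
  ext a ha := by
    have h1 : ∀ q : ↥T, (Additive.ofMul (Additive.toMul a q) : Additive (id_A ↥L q.1)ˣ) = 0 := by
      intro q
      exact (rc_ii_isCoind q.1 L).ext _ (fun g => ha q g)
    apply Additive.toMul.injective
    funext q
    exact congrArg Additive.toMul (h1 q)
  fin a := Set.toFinite _
  exists_eq φ hφ _ := by
    have h1 : ∀ q : ↥T, ∃ a : (id_ARep ↥L q.1).V, ∀ g : ↥L ≃ₐ[ℚ] ↥L,
        (il_pr q.1 L).hom ((id_ARep ↥L q.1).ρ g a) = φ q g :=
      fun q => (rc_ii_isCoind q.1 L).exists_eq (φ q) (hφ q)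
    choose a ha using h1
    refine ⟨Additive.ofMul (fun q : ↥T => Additive.toMul (a q)), fun q g => ?_⟩
    exact ha q g

/-- **Extension by zero at a prime of `T`**: every local class at the place `g · (chosen place
over q)` of the fixed field of `K` is the component of a class of `H²(K, J)` all of whose other
components at `T` vanish, which comes from the `T`-part (so its divisor part vanishes), and which
is killed by every integer killing the local class. -/
theorem rc_ii_ext (K : Subgroup (↥L ≃ₐ[ℚ] ↥L)) (q : ↥T) (g : ↥L ≃ₐ[ℚ] ↥L)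
    (w : groupCohomology
      (tt_res ((rc_conj g K).subgroupOf ((rc_ii_data p T L).D q)) ((rc_ii_data p T L).X q)) 2) :
    ∃ z : groupCohomology (tt_res K (id_JRep T ↥L)) 2,
      rc_comp (rc_ii_data p T L) q K g z = w ∧
      (∀ (q' : ↥T) (g' : ↥L ≃ₐ[ℚ] ↥L), q' ≠ q → rc_comp (rc_ii_data p T L) q' K g' z = 0) ∧
      (∀ g' : ↥L ≃ₐ[ℚ] ↥L, (¬ ∃ s ∈ K, ∃ d : ↥((rc_ii_data p T L).D q), g' = s * g * d) →
        rc_comp (rc_ii_data p T L) q K g' z = 0) ∧
      (tt_coeffMap ((Rep.resFunctor K.subtype).map (rc_ii_projI T L)) 2).hom z = 0 ∧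
      (∀ n : ℕ, n • w = 0 → n • z = 0) := by
  obtain ⟨zS, h1, h2, h3, h4⟩ :=
    rc_ii_ext_of_comap (rc_ii_data p T L) (rc_ii_inS T L) (rc_ii_isCoindSumS p T L) K q g w
  exact ⟨_, h1, h2, h3,
    rc_ii_coeffMap_comp_eq_zero ((Rep.resFunctor K.subtype).map (rc_ii_inS T L))
      ((Rep.resFunctor K.subtype).map (rc_ii_projI T L)) (fun a => rc_ii_projI_inS T L a) zS, h4⟩

end Spart

end

end Fermat.Agent.S55
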