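/-
S55 / G4: the total local data on `J_T(L)` = inside ⊕ outside, and `hs_IsCoindSum` for it.
For a finite Galois `L ⊆ ℚ̄`, a finite set `T` of primes and ANY family of local data `𝔻out` at the
primes outside `T` of the standard shape (component = coefficient of the divisor at a chosen prime
`w q` above `q`, decomposition group = stabiliser of `w q`, acting trivially on `X q ≃ ℤ`):
`rc_is_data p T L 𝔻out := rc_tc_sum (rc_ii_data p T L) 𝔻out` is a restricted sum of coinduced
modules (`rc_is_isCoindSum`, from `rc_ic_isCoindSum`), hence has finite supports (`rc_is_finSupp`),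
satisfies the Hasse principle (U4) `rc_is_hasse` and the extension by zero (U5) `rc_is_exists` in
the shapes of `rc_ch_hext`.
Owner: helper19.  Prefix `rc_is_`.
-/
import Fermat.Agent.S55.Recip.IdeleIn
import Fermat.Agent.S55.Recip.IdeleCoind
import Fermat.Agent.S55.Recip.TChange

set_option autoImplicit false
set_option linter.unusedSectionVars false

open scoped TensorProduct Pointwise
open NumberField groupCohomology CategoryTheory

namespace Fermat.Agent.S55

local notation "Qbar" => AlgebraicClosure ℚ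

noncomputable section

variable (p : ℕ) [Fact p.Prime] (T : Finset Nat.Primes) (L : IntermediateField ℚ Qbar)
  [FiniteDimensional ℚ L] [Normal ℚ L] [NumberField L]
  (𝔻out : rc_InvData p (id_JRep T ↥L) {q : Nat.Primes // q ∉ T})

/-- **The total local data on `J_T(L)`**: the primes of `T` (`rc_ii_data`) and the primes outside
`T` (`𝔻out`). -/
abbrev rc_is_data : rc_InvData p (id_JRep T ↥L) (↥T ⊕ {q : Nat.Primes // q ∉ T}) :=
  rc_tc_sum (rc_ii_data p T L) 𝔻out

/-- `il_pr` on units as an additive map. -/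
def rc_is_prq (q : ↥T) : Additive (id_A ↥L q.1)ˣ →+ (il_Xq q.1 L).V :=
  (il_pr q.1 L).hom.toLinearMap.toAddMonoidHom

theorem rc_is_prq_apply (q : ↥T) (u : Additive (id_A ↥L q.1)ˣ) :
    rc_is_prq T L q u = (il_pr q.1 L).hom u := rfl

/-- The kernel of `il_pr` is `1 + m`. -/
theorem rc_is_prq_eq_zero_iff (q : Nat.Primes) (u : (id_A ↥L q)ˣ) :
    (il_pr q L).hom (Additive.ofMul u : Additive (id_A ↥L q)ˣ) = 0 ↔
      (u : id_A ↥L q) - 1 ∈ rc_ii_m q L := by
  rw [il_pr_eq_zero_iff, RingHom.mem_ker, il_mem_ker_evLq_iff]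

variable {p T L}

/-- **`J_T(L)` with the total local data is a restricted sum of coinduced modules.** -/
theorem rc_is_isCoindSum [IsGalois ℚ ↥L]
    (w : {q : Nat.Primes // q ∉ T} → id_P T ↥L)
    (hw : ∀ q, (((q.1 : Nat.Primes) : ℕ) : 𝓞 ↥L) ∈ (w q).1.asIdeal)
    (hDout : ∀ (q : {q : Nat.Primes // q ∉ T}) (g : ↥L ≃ₐ[ℚ] ↥L),
      g ∈ 𝔻out.D q ↔ g • w q = w q)
    (val : ∀ q : {q : Nat.Primes // q ∉ T}, (𝔻out.X q).V ≃+ ℤ)
    (htriv : ∀ (q : {q : Nat.Primes // q ∉ T}) (d : ↥(𝔻out.D q)) (x : (𝔻out.X q).V),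
      (𝔻out.X q).ρ d x = x)
    (hprout : ∀ (q : {q : Nat.Primes // q ∉ T}) (z : id_J T ↥L),
      val q ((𝔻out.pr q).hom (Additive.ofMul z : Additive (id_J T ↥L))) = z.2.toAdd (w q)) :
    hs_IsCoindSum (rc_is_data p T L 𝔻out) :=
  rc_ic_isCoindSum (rc_is_data p T L 𝔻out) (fun q => rc_ii_m q.1 L)
    (fun q => inferInstance) (fun q g => rc_ii_mem_D_iff q.1 L g)
    (fun q => rc_is_prq T L q) (fun q z => rfl)
    (fun q u => rc_is_prq_eq_zero_iff L q.1 u)
    (fun q => il_pr_surjective q.1 L) w hw hDout val htriv hprout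

end

end Fermat.Agent.S55
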