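/-
S55 / G4: morphisms of local data and disjoint unions.
`rc_ms_sum M₁ M₂ : rc_InvMor (rc_tc_sum 𝔻₁' 𝔻₂') (rc_tc_sum 𝔻₁ 𝔻₂) π φ` from
`M₁ : rc_InvMor 𝔻₁' 𝔻₁ π φ` and `M₂ : rc_InvMor 𝔻₂' 𝔻₂ π φ` (inside ⊕ outside), and
`rc_ms_reindex e M : rc_InvMor (rc_tc_reindex e 𝔻') (rc_tc_reindex e 𝔻) π φ`.
Owner: helper19.  Prefix `rc_ms_`.
-/
import Fermat.Agent.S55.Recip.TChange
import Fermat.Agent.S55.Recip.TotalInvInf

set_option autoImplicit false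

namespace Fermat.Agent.S55

open CategoryTheory groupCohomology

variable {G Γ : Type} [Group G] [Group Γ] {p : ℕ} {J' : Rep.{0} ℤ G} {J : Rep.{0} ℤ Γ}
  {π : G →* Γ} {φ : Rep.res π J ⟶ J'}

section sum

variable {Q₁ Q₂ : Type} {𝔻₁' : rc_InvData p J' Q₁} {𝔻₁ : rc_InvData p J Q₁}
  {𝔻₂' : rc_InvData p J' Q₂} {𝔻₂ : rc_InvData p J Q₂}

/-- **The disjoint union of two morphisms of local data.** -/
noncomputable def rc_ms_sum (M₁ : rc_InvMor 𝔻₁' 𝔻₁ π φ) (M₂ : rc_InvMor 𝔻₂' 𝔻₂ π φ) :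
    rc_InvMor (rc_tc_sum 𝔻₁' 𝔻₂') (rc_tc_sum 𝔻₁ 𝔻₂) π φ where
  hD := fun q => match q with
    | .inl q => M₁.hD q
    | .inr q => M₂.hD q
  ψ := fun q => match q with
    | .inl q => M₁.ψ q
    | .inr q => M₂.ψ q
  sq := fun q => match q with
    | .inl q => M₁.sq q
    | .inr q => M₂.sq q
  inv := fun q => match q with
    | .inl q => M₁.inv q
    | .inr q => M₂.inv q

@[simp] theorem rc_ms_sum_psi_inl (M₁ : rc_InvMor 𝔻₁' 𝔻₁ π φ) (M₂ : rc_InvMor 𝔻₂' 𝔻₂ π φ)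
    (q : Q₁) : (rc_ms_sum M₁ M₂).ψ (.inl q) = M₁.ψ q := rfl

@[simp] theorem rc_ms_sum_psi_inr (M₁ : rc_InvMor 𝔻₁' 𝔻₁ π φ) (M₂ : rc_InvMor 𝔻₂' 𝔻₂ π φ)
    (q : Q₂) : (rc_ms_sum M₁ M₂).ψ (.inr q) = M₂.ψ q := rfl

end sum

section reindex

variable {Q Q' : Type} {𝔻' : rc_InvData p J' Q} {𝔻 : rc_InvData p J Q}

/-- Reindexing a morphism of local data. -/
noncomputable def rc_ms_reindex (e : Q' → Q) (M : rc_InvMor 𝔻' 𝔻 π φ) :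
    rc_InvMor (rc_tc_reindex e 𝔻') (rc_tc_reindex e 𝔻) π φ where
  hD q := M.hD (e q)
  ψ q := M.ψ (e q)
  sq q := M.sq (e q)
  inv q := M.inv (e q)

end reindex

end Fermat.Agent.S55
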