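/-
S55 / G4: the local data at the primes INSIDE `T` and inflation.
For finite Galois `L ≤ L' ⊆ ℚ̄`, a restriction homomorphism `π : Gal(L'/ℚ) →* Gal(L/ℚ)` and the
transition map `φ = id_JmapRep : Res(π) J_T(L) ⟶ J_T(L')`, the two families of local data
`rc_ii_data p T L'` and `rc_ii_data p T L` are related by a morphism of local data
(`rc_ii_mor : rc_InvMor …`): `π` maps `D_q(L')` onto `D_q(L)` (`rc_ii_map_D`), the local modules are
related by the inclusion of local units (`ils_unitsInclD`), compatibly with the components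
(`rc_ii_sq`) and with the local invariants (`ils_Pq_invTop_infl`).  Hence the inside part of the
total invariant is compatible with inflation (`rc_ii_INV_inf`, an instance of (U3) `rc_INV_inf`).
`rc_ii_morLev`, `rc_ii_INV_infLev`: the case of two levels `a ≤ b`.
Owner: helper19.  Prefix `rc_ii_`.
-/
import Fermat.Agent.S55.Recip.IdeleIn
import Fermat.Agent.S55.Recip.TotalInvInf
import Fermat.Agent.S55.Idele.LocalSeamInfl
import Fermat.Agent.S55.Idele.LevelInfl

set_option autoImplicit false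
set_option linter.unusedSectionVars false
set_option linter.style.haveILetI false

open scoped TensorProduct Pointwise
open NumberField groupCohomology CategoryTheory

namespace Fermat.Agent.S55

local notation "Qbar" => AlgebraicClosure ℚ

noncomputable section

section fields

variable {L L' : IntermediateField ℚ Qbar}

/-- The inclusion `L ≤ L'` as an algebra structure. -/
@[reducible] def rc_ii_algebra (h : L ≤ L') : Algebra ↥L ↥L' :=
  (IntermediateField.inclusion h).toRingHom.toAlgebra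

theorem rc_ii_algebraMap (h : L ≤ L') (x : ↥L) :
    letI := rc_ii_algebra h
    algebraMap ↥L ↥L' x = IntermediateField.inclusion h x := rfl

variable [FiniteDimensional ℚ L] [Normal ℚ L] [NumberField L]
  [FiniteDimensional ℚ L'] [Normal ℚ L'] [NumberField L']

/-- A compatible `π` is the restriction of automorphisms (in `ℚ̄`). -/
theorem rc_ii_compat_coe (h : L ≤ L') (π : (↥L' ≃ₐ[ℚ] ↥L') →* (↥L ≃ₐ[ℚ] ↥L))
    (hπ : letI := rc_ii_algebra h; ∀ σ, id_Compat ↥L ↥L' (π σ) σ) (σ : ↥L' ≃ₐ[ℚ] ↥L') (x : ↥L) :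
    (((π σ) x : ↥L) : Qbar) = ((σ (IntermediateField.inclusion h x) : ↥L') : Qbar) := by
  letI := rc_ii_algebra h
  have h1 := hπ σ x
  exact (congrArg (fun y : ↥L' => (y : Qbar)) h1).symm

/-- A compatible `π` commutes with the restriction from the local Galois group. -/
theorem rc_ii_comp_res (q : ℕ) [Fact q.Prime] (h : L ≤ L')
    (π : (↥L' ≃ₐ[ℚ] ↥L') →* (↥L ≃ₐ[ℚ] ↥L))
    (hπ : letI := rc_ii_algebra h; ∀ σ, id_Compat ↥L ↥L' (π σ) σ) :
    π.comp (il_res q L') = il_res q L := by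
  ext τ x
  rw [MonoidHom.comp_apply, rc_ii_compat_coe h π hπ]
  have h1 : ((il_res q L' τ (IntermediateField.inclusion h x) : ↥L') : Qbar) =
      localGaloisToGlobal q τ ((IntermediateField.inclusion h x : ↥L') : Qbar) :=
    AlgEquiv.restrictNormal_commutes (localGaloisToGlobal q τ) L' _
  have h2 : ((il_res q L τ x : ↥L) : Qbar) = localGaloisToGlobal q τ (x : Qbar) :=
    AlgEquiv.restrictNormal_commutes (localGaloisToGlobal q τ) L x
  rw [h1, h2]
  rfl

/-- **`π` maps `D_q(L')` onto `D_q(L)`.** -/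
theorem rc_ii_map_D (q : ℕ) [Fact q.Prime] (h : L ≤ L')
    (π : (↥L' ≃ₐ[ℚ] ↥L') →* (↥L ≃ₐ[ℚ] ↥L))
    (hπ : letI := rc_ii_algebra h; ∀ σ, id_Compat ↥L ↥L' (π σ) σ) :
    (il_D q L').map π = il_D q L := by
  unfold il_D
  rw [MonoidHom.map_range, rc_ii_comp_res q h π hπ]


/-! ### The canonical restriction homomorphism -/

/-- A compatible `π` is unique. -/
theorem rc_ii_compat_unique (h : L ≤ L') (π π' : (↥L' ≃ₐ[ℚ] ↥L') →* (↥L ≃ₐ[ℚ] ↥L))
    (hπ : letI := rc_ii_algebra h; ∀ σ, id_Compat ↥L ↥L' (π σ) σ)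
    (hπ' : letI := rc_ii_algebra h; ∀ σ, id_Compat ↥L ↥L' (π' σ) σ) : π = π' := by
  letI := rc_ii_algebra h
  ext σ x
  have h1 := hπ σ x
  have h2 := hπ' σ x
  have h3 : algebraMap ↥L ↥L' (π σ x) = algebraMap ↥L ↥L' (π' σ x) := h1.symm.trans h2
  exact congrArg (fun y : ↥L' => (y : Qbar)) h3

/-- The restriction `Gal(L'/ℚ) → Gal(L/ℚ)` for `L ≤ L'`. -/
def rc_ii_res (h : L ≤ L') : (↥L' ≃ₐ[ℚ] ↥L') →* (↥L ≃ₐ[ℚ] ↥L) :=
  letI := rc_ii_algebra h
  haveI : IsScalarTower ℚ ↥L ↥L' := IsScalarTower.of_algebraMap_eq (fun _ => rfl)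
  AlgEquiv.restrictNormalHom ↥L

theorem rc_ii_res_compat (h : L ≤ L') :
    letI := rc_ii_algebra h
    ∀ σ, id_Compat ↥L ↥L' (rc_ii_res h σ) σ := by
  letI := rc_ii_algebra h
  haveI : IsScalarTower ℚ ↥L ↥L' := IsScalarTower.of_algebraMap_eq (fun _ => rfl)
  intro σ x
  exact (AlgEquiv.restrictNormal_commutes σ ↥L x).symm

theorem rc_ii_res_surjective (h : L ≤ L') : Function.Surjective (rc_ii_res h (L := L)) := by
  letI := rc_ii_algebra h
  haveI : IsScalarTower ℚ ↥L ↥L' := IsScalarTower.of_algebraMap_eq (fun _ => rfl)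
  exact AlgEquiv.restrictNormalHom_surjective ↥L'

/-! ### The morphism of local data -/

variable (p : ℕ) [Fact p.Prime] (T : Finset Nat.Primes) (h : L ≤ L')
  (π : (↥L' ≃ₐ[ℚ] ↥L') →* (↥L ≃ₐ[ℚ] ↥L))
  (hπ : letI := rc_ii_algebra h; ∀ σ, id_Compat ↥L ↥L' (π σ) σ)

/-- The transition map `Res(π) J_T(L) ⟶ J_T(L')`. -/
def rc_ii_phi : Rep.res π (id_JRep T ↥L) ⟶ id_JRep T ↥L' :=
  letI := rc_ii_algebra h
  id_JmapRep T ↥L ↥L' π hπ

theorem rc_ii_phi_apply (z : id_J T ↥L) :
    letI := rc_ii_algebra h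
    (rc_ii_phi T h π hπ).hom (Additive.ofMul z) = Additive.ofMul (id_Jmap T ↥L ↥L' z) := rfl

/-- The restriction `D_q(L') → D_q(L)` induced by `π`. -/
abbrev rc_ii_rho (q : Nat.Primes) : ↥(il_D (q : ℕ) L') →* ↥(il_D (q : ℕ) L) :=
  rc_inf_πq π (rc_ii_map_D (q : ℕ) h π hπ)

theorem rc_ii_rho_spec (q : Nat.Primes) (d : ↥(il_D (q : ℕ) L')) (x : ↥L) :
    ((((rc_ii_rho h π hπ q d : ↥(il_D (q : ℕ) L)) : ↥L ≃ₐ[ℚ] ↥L) x : ↥L) : Qbar) =
      ((((d : ↥(il_D (q : ℕ) L')) : ↥L' ≃ₐ[ℚ] ↥L') (IntermediateField.inclusion h x) : ↥L') :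
        Qbar) :=
  rc_ii_compat_coe h π hπ (d : ↥L' ≃ₐ[ℚ] ↥L') x

/-- The inclusion of local units over `π`. -/
def rc_ii_psi (q : Nat.Primes) : Rep.res (rc_ii_rho h π hπ q) (il_Xq q L) ⟶ il_Xq q L' :=
  ils_unitsInclD h (rc_ii_rho h π hπ q) (rc_ii_rho_spec h π hπ q)

theorem rc_ii_lam_psi (q : Nat.Primes) (x : (il_Xq q L).V) :
    il_lam q L' ((rc_ii_psi h π hπ q).hom x) = il_lam q L x := by
  apply il_locUnits_ext
  rw [il_lam_coe, il_lam_coe]
  exact ils_unitsInclD_coe h (rc_ii_rho h π hπ q) (rc_ii_rho_spec h π hπ q) x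

/-- **The components are compatible with the transition maps.** -/
theorem rc_ii_sq (q : ↥T) (x : (id_JRep T ↥L).V) :
    (rc_ii_pr T L' q).hom ((rc_ii_phi T h π hπ).hom x) =
      (rc_ii_psi h π hπ q.1).hom ((rc_ii_pr T L q).hom x) := by
  letI := rc_ii_algebra h
  apply il_lam_injective q.1 L'
  rw [rc_ii_lam_psi]
  exact il_lam_pr_Tmap q.1 L L' (id_iota ↥L ↥L') (fun _ => rfl) ((Additive.toMul x).1 q)

/-- **The morphism of local data at the primes of `T` along `(π, φ)`.** -/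
def rc_ii_mor :
    rc_InvMor (rc_ii_data p T L') (rc_ii_data p T L) π (rc_ii_phi T h π hπ) where
  hD q := rc_ii_map_D (q.1 : ℕ) h π hπ
  ψ q := rc_ii_psi h π hπ q.1
  sq q x := rc_ii_sq T h π hπ q x
  inv q w hw :=
    ils_Pq_invTop_infl p h (rc_ii_rho h π hπ q.1) (rc_ii_rho_spec h π hπ q.1)
      (rc_ii_psi h π hπ q.1)
      (ils_unitsInclD_coe h (rc_ii_rho h π hπ q.1) (rc_ii_rho_spec h π hπ q.1)) w hw

/-- **(U3) for the inside part of the total invariant.** -/
theorem rc_ii_INV_inf (hsurj : Function.Surjective π) (K : Subgroup (↥L ≃ₐ[ℚ] ↥L))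
    (z : groupCohomology (tt_res K (id_JRep T ↥L)) 2) (hz : tt_IsPPrimary p z) :
    rc_INV (rc_ii_data p T L') (rc_ii_finSupp p T L') (K.comap π)
        ((lc_inf₂ (lc_piSub π K) (lc_phiSub π (rc_ii_phi T h π hπ) K)).hom z) =
      rc_INV (rc_ii_data p T L) (rc_ii_finSupp p T L) K z :=
  rc_INV_inf hsurj (rc_ii_mor p T h π hπ) (rc_ii_finSupp p T L') (rc_ii_finSupp p T L) K z hz

end fields

/-! ### Levels -/

section levels

variable {S : Finset Nat.Primes} (p : ℕ) [Fact p.Prime] (T : Finset Nat.Primes) {a b : du_Lev S}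
  (h : a ≤ b)

/-- The transition map `Res J_T(a) ⟶ J_T(b)` between two levels (any `T`). -/
def rc_ii_phiLev : Rep.res (du_Lev.res h) (id_JRep T ↥a.L) ⟶ id_JRep T ↥b.L :=
  rc_ii_phi T h (du_Lev.res h) (id_lev_compat_res h)

theorem rc_ii_phiLev_eq : rc_ii_phiLev S h = id_levJmapRep S h := rfl

/-- For levels, `du_Lev.res` is the canonical restriction. -/
theorem rc_ii_res_eq_lev : rc_ii_res (L := a.L) (L' := b.L) h = du_Lev.res h :=
  rc_ii_compat_unique h _ _ (rc_ii_res_compat h) (id_lev_compat_res h)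

/-- **The morphism of local data at the primes of `T` between two levels.** -/
def rc_ii_morLev :
    rc_InvMor (rc_ii_data p T b.L) (rc_ii_data p T a.L) (du_Lev.res h) (rc_ii_phiLev T h) :=
  rc_ii_mor p T h (du_Lev.res h) (id_lev_compat_res h)

/-- **(U3) for the inside part of the total invariant between two levels.** -/
theorem rc_ii_INV_infLev (K : Subgroup a.Γ)
    (z : groupCohomology (tt_res K (id_JRep T ↥a.L)) 2) (hz : tt_IsPPrimary p z) :
    rc_INV (rc_ii_data p T b.L) (rc_ii_finSupp p T b.L) (K.comap (du_Lev.res h))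
        ((lc_inf₂ (lc_piSub (du_Lev.res h) K)
          (lc_phiSub (du_Lev.res h) (rc_ii_phiLev T h) K)).hom z) =
      rc_INV (rc_ii_data p T a.L) (rc_ii_finSupp p T a.L) K z :=
  rc_ii_INV_inf p T h (du_Lev.res h) (id_lev_compat_res h) (du_Lev.res_surjective h) K z hz

end levels

end

end Fermat.Agent.S55
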