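/-
S55 / G4: the canonical, tower-compatible primes outside `T`.
For a finite Galois `L ⊆ ℚ̄` and a rational prime `q`, `rc_op_v L q` is the prime of `𝓞 L` cut out by
the fixed embedding `ℚ̄ → PadicAlgCl q` (the prime below `padicPlace q`); for `q ∉ T` it is prime to
`T` (`rc_op_w T L q : id_P T L`).  Its stabiliser is the decomposition group `il_D q L`
(`rc_op_smul_w_iff`), the primes are compatible in towers (`rc_op_underP`), and the coefficient of
an extended divisor at `rc_op_w T L' q` is `e` times the coefficient at `rc_op_w T L q`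
(`rc_op_Imap_toAdd`).  Frobenius elements: uniqueness for trivial inertia (`rc_op_frob_unique`) and
compatibility with restriction (`rc_op_frob_res`).
Owner: helper19.  Prefix `rc_op_`.
-/
import Fermat.Agent.S55.Idele.LocalField
import Fermat.Agent.S55.Idele.Transition
import Fermat.Agent.S55.Recip.IdeleInInfl

set_option autoImplicit false
set_option linter.unusedSectionVars false
set_option linter.style.haveILetI false

open scoped Pointwise
open NumberField IsDedekindDomain

namespace Fermat.Agent.S55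

local notation "Qbar" => AlgebraicClosure ℚ

noncomputable section

section one

variable (T : Finset Nat.Primes) (L : IntermediateField ℚ Qbar) [FiniteDimensional ℚ L]
  [IsGalois ℚ L] [NumberField L]

/-- The canonical prime of `𝓞 L` above `q`: the prime below `padicPlace q`. -/
def rc_op_v (q : Nat.Primes) : HeightOneSpectrum (𝓞 ↥L) :=
  haveI : Fact (q : ℕ).Prime := ⟨q.2⟩
  pl_prime L (padicPlace (q : ℕ)) q.2 (pl_padicPlace_liesOver (q : ℕ))

theorem rc_op_v_asIdeal (q : Nat.Primes) :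
    haveI : Fact (q : ℕ).Prime := ⟨q.2⟩
    (rc_op_v L q).asIdeal = pl_ideal L (padicPlace (q : ℕ)) := rfl

theorem rc_op_natCast_mem (q : Nat.Primes) : (((q : ℕ) : ℕ) : 𝓞 ↥L) ∈ (rc_op_v L q).asIdeal := by
  haveI : Fact (q : ℕ).Prime := ⟨q.2⟩
  exact pl_natCast_mem_ideal L (padicPlace (q : ℕ)) (pl_padicPlace_liesOver (q : ℕ))

theorem rc_op_primeToT {q : Nat.Primes} (hq : q ∉ T) : id_PrimeToS T ↥L (rc_op_v L q) := by
  haveI : Fact (q : ℕ).Prime := ⟨q.2⟩
  intro q' hq' hmem
  exact hq ((pl_prime_mem_primesOver_iff L (padicPlace (q : ℕ)) q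
    (pl_padicPlace_liesOver (q : ℕ))).1 ⟨q', hq', hmem⟩)

/-- The canonical prime above `q ∉ T` as a prime prime to `T`. -/
def rc_op_w (q : {q : Nat.Primes // q ∉ T}) : id_P T ↥L := ⟨rc_op_v L q.1, rc_op_primeToT T L q.2⟩

@[simp] theorem rc_op_w_val (q : {q : Nat.Primes // q ∉ T}) : (rc_op_w T L q).1 = rc_op_v L q.1 :=
  rfl

/-- The `hw` of `rc_ic_isCoindSum` / `rc_io_data` for the canonical primes. -/
theorem rc_op_hw (q : {q : Nat.Primes // q ∉ T}) :
    (((q.1 : Nat.Primes) : ℕ) : 𝓞 ↥L) ∈ (rc_op_w T L q).1.asIdeal := rc_op_natCast_mem L q.1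

/-- **The stabiliser of the canonical prime above `q` is the decomposition group `D_q(L)`.** -/
theorem rc_op_smul_v_iff (q : Nat.Primes) (g : ↥L ≃ₐ[ℚ] ↥L) :
    g • rc_op_v L q = rc_op_v L q ↔ g ∈ il_D (q : ℕ) L := by
  haveI : Fact (q : ℕ).Prime := ⟨q.2⟩
  rw [il_D_eq_stabilizer, MulAction.mem_stabilizer_iff]
  constructor
  · intro h
    have := congrArg HeightOneSpectrum.asIdeal h
    exact this
  · intro h
    exact HeightOneSpectrum.ext h

theorem rc_op_smul_w_iff (q : {q : Nat.Primes // q ∉ T}) (g : ↥L ≃ₐ[ℚ] ↥L) :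
    g • rc_op_w T L q = rc_op_w T L q ↔ g ∈ il_D (q.1 : ℕ) L := by
  rw [← rc_op_smul_v_iff]
  constructor
  · intro h
    exact congrArg Subtype.val h
  · intro h
    exact Subtype.ext h

theorem rc_op_stabilizer (q : {q : Nat.Primes // q ∉ T}) :
    MulAction.stabilizer (↥L ≃ₐ[ℚ] ↥L) (rc_op_w T L q) = il_D (q.1 : ℕ) L := by
  ext g
  rw [MulAction.mem_stabilizer_iff, rc_op_smul_w_iff]

end one

/-! ### Towers -/

section tower

variable (T : Finset Nat.Primes) {L L' : IntermediateField ℚ Qbar} [FiniteDimensional ℚ L]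
  [IsGalois ℚ L] [NumberField L] [FiniteDimensional ℚ L'] [IsGalois ℚ L'] [NumberField L']
  (h : L ≤ L')

/-- **The canonical primes are compatible in towers.** -/
theorem rc_op_under (q : Nat.Primes) :
    letI := rc_ii_algebra h
    id_under ↥L ↥L' (rc_op_v L' q) = rc_op_v L q := by
  letI := rc_ii_algebra h
  haveI : Fact (q : ℕ).Prime := ⟨q.2⟩
  apply HeightOneSpectrum.ext
  ext x
  rw [id_under_asIdeal, Ideal.under_def, Ideal.mem_comap, rc_op_v_asIdeal, rc_op_v_asIdeal,
    pl_mem_ideal, pl_mem_ideal]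
  rfl

theorem rc_op_underP (q : {q : Nat.Primes // q ∉ T}) :
    letI := rc_ii_algebra h
    id_underP T ↥L ↥L' (rc_op_w T L' q) = rc_op_w T L q := by
  letI := rc_ii_algebra h
  exact Subtype.ext (rc_op_under h q.1)

/-- **The coefficient of an extended divisor at the canonical prime.** -/
theorem rc_op_Imap_toAdd (q : {q : Nat.Primes // q ∉ T}) (D : id_I T ↥L) :
    letI := rc_ii_algebra h
    (id_Imap T ↥L ↥L' D).toAdd (rc_op_w T L' q) =
      (id_e ↥L ↥L' (rc_op_v L' q.1) : ℤ) * D.toAdd (rc_op_w T L q) := by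
  letI := rc_ii_algebra h
  rw [id_Imap_apply, rc_op_underP]
  rfl

/-- The coefficient of an extended divisor at the canonical prime, unramified case. -/
theorem rc_op_Imap_toAdd_of_unram (q : {q : Nat.Primes // q ∉ T})
    (he : letI := rc_ii_algebra h; id_e ↥L ↥L' (rc_op_v L' q.1) = 1) (D : id_I T ↥L) :
    letI := rc_ii_algebra h
    (id_Imap T ↥L ↥L' D).toAdd (rc_op_w T L' q) = D.toAdd (rc_op_w T L q) := by
  letI := rc_ii_algebra h
  rw [rc_op_Imap_toAdd, he, Nat.cast_one, one_mul]

end tower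

/-! ### Frobenius elements -/

section frob

variable {K : Type} [Field K] [NumberField K]

/-- **Uniqueness of the Frobenius element for trivial inertia**: two elements of the stabiliser
of `P` which satisfy the Frobenius congruence modulo `P` agree. -/
theorem rc_op_frob_unique (P : Ideal (𝓞 K)) (n : ℕ)
    (hunr : ∀ g : K ≃ₐ[ℚ] K, (∀ x : 𝓞 K, g • x - x ∈ P) → g = 1)
    {g g' : K ≃ₐ[ℚ] K} (hgP : g • P = P)
    (hg : ∀ x : 𝓞 K, g • x - x ^ n ∈ P) (hg' : ∀ x : 𝓞 K, g' • x - x ^ n ∈ P) : g' = g := by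
  have h1 : g⁻¹ * g' = 1 := by
    apply hunr
    intro x
    have h2 : g' • x - g • x ∈ P := by
      have := P.sub_mem (hg' x) (hg x)
      rwa [sub_sub_sub_cancel_right] at this
    have h3 : g⁻¹ • (g' • x - g • x) ∈ g⁻¹ • P := Ideal.smul_mem_pointwise_smul g⁻¹ _ P h2
    have h4 : g⁻¹ • P = P := by
      rw [inv_smul_eq_iff, hgP]
    rw [h4, smul_sub, inv_smul_smul, ← mul_smul] at h3
    exact h3
  calc g' = g * (g⁻¹ * g') := by group
    _ = g := by rw [h1, mul_one]

variable {L : Type} [Field L] [NumberField L] [Algebra K L]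

/-- **Restriction of a Frobenius element is a Frobenius element** for the prime below. -/
theorem rc_op_frob_res {σK : K ≃ₐ[ℚ] K} {σL : L ≃ₐ[ℚ] L} (hc : id_Compat K L σK σL)
    (w : HeightOneSpectrum (𝓞 L)) (n : ℕ) (hσ : ∀ x : 𝓞 L, σL • x - x ^ n ∈ w.asIdeal)
    (x : 𝓞 K) : σK • x - x ^ n ∈ (id_under K L w).asIdeal := by
  rw [id_under_asIdeal, Ideal.under_def, Ideal.mem_comap, map_sub, map_pow, ← hc.int]
  exact hσ _

end frob

end

end Fermat.Agent.S55
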