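/-
S55 / G4: the `p`-class module of `ℤ` for a finite cyclic group and inflation.
For a surjection `ι : D' →* D` of finite cyclic groups sending the chosen generator `φ'` to the
chosen generator `φ`, the top invariants of `zc_pclass φ' hφ' p` and `zc_pclass φ hφ p` are
compatible with inflation along `(ι, id_ℤ)` (`rc_zi_invTop_infl`): this is the field `inv` of an
`rc_InvMor` at the primes outside `T` (Frobenius restricts to Frobenius, `e = 1`).
Owner: helper19.  Prefix `rc_zi_`.
-/
import Fermat.Agent.S55.Recip.ZClass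

set_option autoImplicit false

namespace Fermat.Agent.S55

open groupCohomology CategoryTheory Rep

noncomputable section

variable {D D' : Type} [Group D] [Group D']

/-- The identity of `ℤ` as a morphism `Res(ι) ℤ ⟶ ℤ` of trivial modules. -/
def rc_zi_psi (ι : D' →* D) : Rep.res ι (zc_Z D) ⟶ zc_Z D' :=
  Rep.ofHom ⟨LinearMap.id, fun _ => by ext; rfl⟩

@[simp] theorem rc_zi_psi_apply (ι : D' →* D) (x : ℤ) : (rc_zi_psi ι).hom x = x := rfl

variable [Finite D] [Finite D']

/-- **Inflation compatibility of the class modules of `ℤ`.** -/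
theorem rc_zi_invTop_infl (φ : D) (hφ : ∀ x : D, x ∈ Subgroup.zpowers φ) (φ' : D')
    (hφ' : ∀ x : D', x ∈ Subgroup.zpowers φ') (ι : D' →* D) (hι : ι φ' = φ)
    (ψ : Rep.res ι (zc_Z D) ⟶ zc_Z D') (hψ : ∀ x : ℤ, ψ.hom x = x) (p : ℕ) [Fact p.Prime]
    (w : groupCohomology (zc_Z D) 2) :
    (zc_pclass φ' hφ' p).invTop ((map ι ψ 2).hom w) = (zc_pclass φ hφ p).invTop w := by
  rw [zc_pclass_invTop, zc_pclass_invTop]
  have hsurj : Function.Surjective ι := by
    intro d
    obtain ⟨k, hk⟩ := Subgroup.mem_zpowers_iff.1 (hφ d)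
    exact ⟨φ' ^ k, by rw [map_zpow, hι, hk]⟩
  have hdvd : Nat.card D ∣ Nat.card D' := Subgroup.card_dvd_of_surjective ι hsurj
  obtain ⟨r, hr⟩ := hdvd
  have h := cy_inv_map (A := zc_Z D) (B := zc_Z D') ι ψ (σ := φ) (n := Nat.card D) (τ := φ')
    (m := Nat.card D') (AddMonoidHom.id ℤ) (AddMonoidHom.id ℤ) Nat.card_pos Nat.card_pos
    (zc_pow_card φ hφ) (zc_pow_card φ' hφ') zc_hv0 zc_hv0 (d := 1) (by rw [hι, pow_one]) (r := r)
    (by rw [one_mul, hr]) (e := 1) (fun x => by rw [one_mul]; exact hψ x) w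
  rw [Nat.cast_one, mul_one, one_smul] at h
  exact h

end

end Fermat.Agent.S55
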