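import Fermat.Agent.S55.Recip.ZClass
import Fermat.Agent.S55.LocalCF.UnrFormula

/-!
# The unramified formula for the class module of `ℤ` (S55, block G4)

`zc_unr φ hφ p : lcu_Unr (zc_pclass φ hφ p)` with `I = ⊥`, `frob = φ`, `v = id`: the invariant of a
class inflated from a quotient `S ⧸ N` of a layer `S ≤ D` is given by the cyclic formula for the
image of `φ ^ [D : S]` in `S ⧸ N` (`zc_inv_inf`, from `cy_inv_inflation`).
-/

set_option autoImplicit false

namespace Fermat.Agent.S55

open groupCohomology CategoryTheory Rep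

noncomputable section

variable {D : Type} [Group D] [Finite D] (φ : D) (hφ : ∀ x : D, x ∈ Subgroup.zpowers φ)

omit [Finite D] in
theorem zc_resDeg_bot (S : Subgroup D) : lc_resDeg (⊥ : Subgroup D) S.subtype = S.index := by
  unfold lc_resDeg
  rw [Subgroup.index_map, QuotientGroup.ker_mk', sup_bot_eq,
    MonoidHom.range_eq_top.2 (QuotientGroup.mk'_surjective _), Subgroup.index_top, mul_one,
    Subgroup.range_subtype]

/-- the valuation `id` on the invariants of a layer -/
def zc_vInv (S : Subgroup D) (N : Subgroup ↥S) [N.Normal] :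
    ((tt_res S (zc_Z D)).quotientToInvariants N).V →+ ℤ where
  toFun x := (x : ℤ)
  map_zero' := rfl
  map_add' _ _ := rfl

omit [Finite D] in
theorem zc_vInv_inv (S : Subgroup D) (N : Subgroup ↥S) [N.Normal] (g : ↥S ⧸ N)
    (x : ((tt_res S (zc_Z D)).quotientToInvariants N).V) :
    zc_vInv S N (((tt_res S (zc_Z D)).quotientToInvariants N).ρ g x) = zc_vInv S N x := by
  induction g using QuotientGroup.induction_on with
  | H s => rfl

/-- **The unramified formula for `zc_inv`**: the invariant of a class inflated from a quotient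
`S ⧸ N` of a layer. -/
theorem zc_inv_inf (S : Subgroup D) (N : Subgroup ↥S) [N.Normal]
    (f : cocycles₂ ((tt_res S (zc_Z D)).quotientToInvariants N)) :
    zc_inv φ hφ S ((ir_inf₂ (tt_res S (zc_Z D)) N).hom (H2π _ f)) =
      cy_frac N.index (zc_vInv S N (cy_repSum ((tt_res S (zc_Z D)).quotientToInvariants N)
        ((zc_gen φ hφ S : ↥S) : ↥S ⧸ N) N.index
        (f : (↥S ⧸ N) × (↥S ⧸ N) → ((tt_res S (zc_Z D)).quotientToInvariants N).V))) := by
  have hn : 0 < N.index := Nat.pos_of_ne_zero Subgroup.index_ne_zero_of_finite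
  have hσ : ((zc_gen φ hφ S : ↥S) : ↥S ⧸ N) ^ N.index = 1 := by
    rw [Subgroup.index_eq_card]; exact pow_card_eq_one'
  have hcard : N.index * Nat.card N = Nat.card S := N.index_mul_card
  have hτ : zc_gen φ hφ S ^ (N.index * Nat.card N) = 1 := by
    rw [hcard]; exact zc_gen_pow_card φ hφ S
  have hinf := cy_inv_inflation (A := (tt_res S (zc_Z D)).quotientToInvariants N)
    (B := tt_res S (zc_Z D)) (QuotientGroup.mk' N)
    (ofHom <| (tt_res S (zc_Z D)).ρ.quotientToInvariants_lift N)
    (σ := ((zc_gen φ hφ S : ↥S) : ↥S ⧸ N)) (n := N.index) (τ := zc_gen φ hφ S)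
    (zc_vInv S N) (AddMonoidHom.id ℤ) hn (r := Nat.card N) Nat.card_pos hσ hτ
    (zc_vInv_inv S N) (zc_hv S) rfl (fun _ => rfl) (H2π _ f)
  rw [cy_inv_H2π] at hinf
  rw [← hinf]
  have key : ∀ (m : ℕ) (hm : m = Nat.card S) (h : zc_gen φ hφ S ^ m = 1),
      cy_inv (tt_res S (zc_Z D)) (AddMonoidHom.id ℤ) (σ := zc_gen φ hφ S) (n := m) h (zc_hv S) =
        zc_inv φ hφ S := by
    rintro m rfl h
    rfl
  rw [key _ hcard hτ]

/-- **The unramified formula for `zc_pclass`** (`I = ⊥`, `frob = φ`, `v = id`). -/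
def zc_unr (p : ℕ) [Fact p.Prime] : lcu_Unr (zc_pclass φ hφ p) where
  I := ⊥
  I_normal := inferInstance
  frob := φ
  v := AddMonoidHom.id ℤ
  v_inv _ _ := rfl
  v_dvd S x _ := by
    rw [Subgroup.bot_subgroupOf, Subgroup.card_bot, Nat.cast_one]
    exact one_dvd _
  formula S N _ _ φ' hφ' f c hc := by
    have h1 : φ' = zc_gen φ hφ S := by
      apply Subtype.ext
      rw [zc_resDeg_bot, ← QuotientGroup.mk_pow] at hφ'
      have h2 := QuotientGroup.eq.1 hφ'
      rw [Subgroup.mem_bot, inv_mul_eq_one] at h2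
      exact h2
    subst h1
    rw [Subgroup.bot_subgroupOf, Subgroup.card_bot, Nat.cast_one, one_mul] at hc
    rw [zc_pclass_inv, zc_inv_inf]
    exact congrArg (cy_frac N.index) hc

end

end Fermat.Agent.S55
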