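/-
S55 / G4, leaf [FD]: the concrete local data on `J_T(a)` for a field level `a : ia_Lev T`.
* `rc_fd_Q T = ↥T ⊕ {q // q ∉ T}` : all rational primes;
* `rc_fd_w a q` : the canonical prime of `𝓞 a.L` above `q ∉ T` (cut out by the fixed embedding
  `ℚ̄ → PadicAlgCl q`; `rc_op_w`), tower-compatible, with stabiliser `il_D q a.L`;
* `rc_fd_data p a : rc_InvData p (id_JRep T a.L) (rc_fd_Q T)` : inside (`rc_ii_data`) ⊕ outside
  (`rc_io_data` at the canonical primes);
* `rc_fd_coind p a : hs_IsCoindSum (rc_fd_data p a)`, `rc_fd_finSupp`, hence (U4) `rc_fd_hasse` and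
  (U5) `rc_fd_exists`;
* `rc_fd_D_inl / _inr / _inr'`, `rc_fd_pr_inl / _inr`, `rc_fd_P_inl / _inr`, `rc_fd_pr_inq…`;
* `rc_fd_unr p a q : lcu_Unr ((rc_fd_data p a).P q)` for every `q`;
* `rc_fd_idx`, `rc_fd_prime`, `rc_fd_equiv T : rc_fd_Q T ≃ Nat.Primes`, `rc_fd_D_eq`;
* two levels `a ≤ b`: `rc_fd_map_stabilizer`, `rc_fd_Imap_toAdd`, `rc_fd_res_frob`,
  `rc_fd_morOut`, `rc_fd_mor p h : rc_InvMor (rc_fd_data p b) (rc_fd_data p a) (ia_Lev.res h)
  (id_iaJmapRep T h)` and (U3) `rc_fd_INV_inf`.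
Owner: helper19.  Prefix `rc_fd_`.
-/
import Fermat.Agent.S55.Recip.IdeleSum
import Fermat.Agent.S55.Recip.IdeleOut
import Fermat.Agent.S55.Recip.OutsidePlace
import Fermat.Agent.S55.Recip.InvMorSum
import Fermat.Agent.S55.Recip.ZClassUnr
import Fermat.Agent.S55.Recip.ZClassInfl
import Fermat.Agent.S55.Idele.AbsLevels
import Fermat.Agent.S55.Idele.FieldInfl
import Fermat.Agent.S55.Idele.LayersIneq
import Fermat.Agent.S55.Idele.LocalSeamUnr

set_option autoImplicit false
set_option linter.unusedSectionVars false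
set_option linter.style.haveILetI false

open scoped TensorProduct Pointwise
open NumberField groupCohomology CategoryTheory IsDedekindDomain

namespace Fermat.Agent.S55

local notation "Qbar" => AlgebraicClosure ℚ

noncomputable section

variable {T : Finset Nat.Primes}

/-- All rational primes: the primes of `T` and the primes outside `T`. -/
abbrev rc_fd_Q (T : Finset Nat.Primes) : Type := ↥T ⊕ {q : Nat.Primes // q ∉ T}

instance rc_fd_isGalois (a : ia_Lev T) : IsGalois ℚ ↥a.L := ⟨⟩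

/-- The canonical (tower-compatible) prime of `𝓞 a.L` above `q ∉ T`. -/
def rc_fd_w (a : ia_Lev T) : {q : Nat.Primes // q ∉ T} → id_P T ↥a.L := rc_op_w T a.L

theorem rc_fd_hw (a : ia_Lev T) (q : {q : Nat.Primes // q ∉ T}) :
    (((q.1 : Nat.Primes) : ℕ) : 𝓞 ↥a.L) ∈ (rc_fd_w a q).1.asIdeal := rc_op_hw T a.L q

/-- Tower compatibility of the canonical primes. -/
theorem rc_fd_w_under {a b : ia_Lev T} (h : a ≤ b) (q : {q : Nat.Primes // q ∉ T}) :
    letI := ia_algebra h
    id_underP T ↥a.L ↥b.L (rc_fd_w b q) = rc_fd_w a q := rc_op_underP T h q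

theorem rc_fd_smul_w_iff (a : ia_Lev T) (q : {q : Nat.Primes // q ∉ T}) (g : a.Γ) :
    g • rc_fd_w a q = rc_fd_w a q ↔ g ∈ il_D (q.1 : ℕ) a.L := rc_op_smul_w_iff T a.L q g

/-- A field level has trivial inertia at the primes outside `T`. -/
theorem rc_fd_unram (a : ia_Lev T) : rc_io_Unram T ↥a.L := by
  refine idl_unram_of_e T ℚ ↥a.L (fun w => ?_)
  obtain ⟨ℓ, hℓ, hmem⟩ := pl_exists_prime_mem a.L w.1
  exact iu_e_eq_one ℚ ↥a.L w.1 ℓ (iu_valuation_prime T a.L a.unr w.1 w.2 ℓ hℓ hmem)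

variable (p : ℕ) [Fact p.Prime]

/-- The local data at the primes outside `T` (at the canonical primes). -/
def rc_fd_out (a : ia_Lev T) : rc_InvData p (id_JRep T ↥a.L) {q : Nat.Primes // q ∉ T} :=
  rc_io_data p T ↥a.L (rc_fd_w a) (rc_fd_hw a) (rc_fd_unram a)

/-- **The local data of the total invariant on `J_T(a)`.** -/
def rc_fd_data (a : ia_Lev T) : rc_InvData p (id_JRep T ↥a.L) (rc_fd_Q T) :=
  rc_tc_sum (rc_ii_data p T a.L) (rc_fd_out p a)

/-- **`J_T(a)` is the restricted sum of the coinduced modules.** -/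
theorem rc_fd_coind (a : ia_Lev T) : hs_IsCoindSum (rc_fd_data p a) :=
  rc_is_isCoindSum (rc_fd_out p a) (rc_fd_w a) (rc_fd_hw a)
    (fun _ _ => MulAction.mem_stabilizer_iff) (fun _ => AddEquiv.refl ℤ) (fun _ _ _ => rfl)
    (fun _ _ => rfl)

theorem rc_fd_finSupp (a : ia_Lev T) : rc_FinSupp (rc_fd_data p a) := hs_finSupp (rc_fd_coind p a)

/-! ### The fields of `rc_fd_data` -/

section fields

variable (a : ia_Lev T)

@[simp] theorem rc_fd_D_inl (q : ↥T) : (rc_fd_data p a).D (.inl q) = il_D (q.1 : ℕ) a.L := rfl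

@[simp] theorem rc_fd_D_inr (q : {q : Nat.Primes // q ∉ T}) :
    (rc_fd_data p a).D (.inr q) = MulAction.stabilizer a.Γ (rc_fd_w a q) := rfl

/-- Outside `T` too, the decomposition group is the image of the local Galois group. -/
theorem rc_fd_D_inr' (q : {q : Nat.Primes // q ∉ T}) :
    (rc_fd_data p a).D (.inr q) = il_D (q.1.1 : ℕ) a.L := rc_op_stabilizer T a.L q

@[simp] theorem rc_fd_X_inl (q : ↥T) : (rc_fd_data p a).X (.inl q) = il_Xq q.1 a.L := rfl

@[simp] theorem rc_fd_X_inr (q : {q : Nat.Primes // q ∉ T}) :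
    (rc_fd_data p a).X (.inr q) = zc_Z ↥(rc_io_D (rc_fd_w a) q) := rfl

@[simp] theorem rc_fd_pr_inl (q : ↥T) : (rc_fd_data p a).pr (.inl q) = rc_ii_pr T a.L q := rfl

@[simp] theorem rc_fd_pr_inr (q : {q : Nat.Primes // q ∉ T}) :
    (rc_fd_data p a).pr (.inr q) = rc_io_pr (rc_fd_w a) q := rfl

@[simp] theorem rc_fd_P_inl (q : ↥T) : (rc_fd_data p a).P (.inl q) = ils_Pq p q.1 a.L := rfl

@[simp] theorem rc_fd_P_inr (q : {q : Nat.Primes // q ∉ T}) :
    (rc_fd_data p a).P (.inr q) =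
      zc_pclass (rc_io_frob (rc_fd_w a) (rc_fd_hw a) (rc_fd_unram a) q)
        (rc_io_frob_gen (rc_fd_w a) (rc_fd_hw a) (rc_fd_unram a) q) p := rfl

theorem rc_fd_pr_inl_apply (q : ↥T) (z : id_J T ↥a.L) :
    ((rc_fd_data p a).pr (.inl q)).hom (Additive.ofMul z : Additive (id_J T ↥a.L)) =
      Additive.ofMul (il_prU q.1 a.L (z.1 q)) := rfl

theorem rc_fd_pr_inr_apply (q : {q : Nat.Primes // q ∉ T}) (z : id_J T ↥a.L) :
    ((rc_fd_data p a).pr (.inr q)).hom (Additive.ofMul z : Additive (id_J T ↥a.L)) =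
      z.2.toAdd (rc_fd_w a q) := rfl

/-- The components of an idele concentrated at `q ∈ T`: at `q` itself. -/
theorem rc_fd_pr_inq (q : ↥T) (u : (id_A ↥a.L q.1)ˣ) :
    ((rc_fd_data p a).pr (.inl q)).hom
        (Additive.ofMul (id_inS T ↥a.L (id_inq T ↥a.L q u)) : Additive (id_J T ↥a.L)) =
      (il_pr q.1 a.L).hom (Additive.ofMul u : Additive (id_A ↥a.L q.1)ˣ) :=
  rc_ii_pr_inq T a.L q u

/-- The components of an idele concentrated at `q ∈ T`: at the other primes of `T`. -/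
theorem rc_fd_pr_inq_of_ne {q q' : ↥T} (h : q' ≠ q) (u : (id_A ↥a.L q.1)ˣ) :
    ((rc_fd_data p a).pr (.inl q')).hom
        (Additive.ofMul (id_inS T ↥a.L (id_inq T ↥a.L q u)) : Additive (id_J T ↥a.L)) = 0 :=
  rc_ii_pr_inq_of_ne T a.L h u

/-- The components of an idele of the `T`-part at the primes outside `T` vanish. -/
theorem rc_fd_pr_inS (q : {q : Nat.Primes // q ∉ T}) (x : id_JS T ↥a.L) :
    ((rc_fd_data p a).pr (.inr q)).hom
        (Additive.ofMul (id_inS T ↥a.L x) : Additive (id_J T ↥a.L)) = 0 :=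
  rc_io_pr_inS (rc_fd_w a) q x

end fields

/-! ### (U4), (U5) -/

/-- **(U4) Hasse principle** for the total local data. -/
theorem rc_fd_hasse (a : ia_Lev T) (H : Subgroup a.Γ)
    (z : groupCohomology (tt_res H (id_JRep T ↥a.L)) 2)
    (hz : ∀ (q : rc_fd_Q T) (g : a.Γ), rc_comp (rc_fd_data p a) q H g z = 0) : z = 0 :=
  hs_hasse (rc_fd_coind p a) H z hz

/-- **(U5) extension by zero** for the total local data. -/
theorem rc_fd_exists (a : ia_Lev T) (H : Subgroup a.Γ) (q : rc_fd_Q T) (g : a.Γ)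
    (w : groupCohomology (tt_res ((rc_conj g H).subgroupOf ((rc_fd_data p a).D q))
      ((rc_fd_data p a).X q)) 2) :
    ∃ z : groupCohomology (tt_res H (id_JRep T ↥a.L)) 2, rc_comp (rc_fd_data p a) q H g z = w ∧
      (∀ (q' : rc_fd_Q T) (g' : a.Γ), q' ≠ q → rc_comp (rc_fd_data p a) q' H g' z = 0) ∧
      (∀ g' : a.Γ, (¬ ∃ s ∈ H, ∃ d : ↥((rc_fd_data p a).D q), g' = s * g * d) →
        rc_comp (rc_fd_data p a) q H g' z = 0) :=
  hs_exists (rc_fd_coind p a) H q g w

/-! ### The unramified formula at every prime -/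

/-- **The unramified formula** for the local class module at every prime `q`
(inside `T`: `ils_unr`; outside `T`: `zc_unr`, with `I = ⊥`, `frob` the Frobenius, `v = id`). -/
def rc_fd_unr (a : ia_Lev T) : ∀ q : rc_fd_Q T, lcu_Unr ((rc_fd_data p a).P q)
  | .inl q => ils_unr p q.1 a.L
  | .inr q => zc_unr (rc_io_frob (rc_fd_w a) (rc_fd_hw a) (rc_fd_unram a) q)
      (rc_io_frob_gen (rc_fd_w a) (rc_fd_hw a) (rc_fd_unram a) q) p

@[simp] theorem rc_fd_unr_inl (a : ia_Lev T) (q : ↥T) :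
    rc_fd_unr p a (.inl q) = ils_unr p q.1 a.L := rfl

@[simp] theorem rc_fd_unr_inr (a : ia_Lev T) (q : {q : Nat.Primes // q ∉ T}) :
    rc_fd_unr p a (.inr q) = zc_unr (rc_io_frob (rc_fd_w a) (rc_fd_hw a) (rc_fd_unram a) q)
      (rc_io_frob_gen (rc_fd_w a) (rc_fd_hw a) (rc_fd_unram a) q) p := rfl

theorem rc_fd_unr_I_inr (a : ia_Lev T) (q : {q : Nat.Primes // q ∉ T}) :
    (rc_fd_unr p a (.inr q)).I = ⊥ := rfl

theorem rc_fd_unr_frob_inr (a : ia_Lev T) (q : {q : Nat.Primes // q ∉ T}) :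
    (rc_fd_unr p a (.inr q)).frob = rc_io_frob (rc_fd_w a) (rc_fd_hw a) (rc_fd_unram a) q := rfl

theorem rc_fd_unr_v_inr (a : ia_Lev T) (q : {q : Nat.Primes // q ∉ T}) (x : ℤ) :
    (rc_fd_unr p a (.inr q)).v x = x := rfl

/-- The Frobenius congruence at the canonical prime above `q ∉ T`. -/
theorem rc_fd_frob_spec (a : ia_Lev T) (q : {q : Nat.Primes // q ∉ T}) (x : 𝓞 ↥a.L) :
    ((rc_fd_unr p a (.inr q)).frob : a.Γ) • x - x ^ (q.1 : ℕ) ∈ (rc_fd_w a q).1.asIdeal :=
  rc_io_frob_spec (rc_fd_w a) (rc_fd_hw a) (rc_fd_unram a) q x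

/-! ### The index type is the set of all rational primes -/

section index

open Classical in
/-- The index of a rational prime. -/
def rc_fd_idx (T : Finset Nat.Primes) (q : Nat.Primes) : rc_fd_Q T :=
  if h : q ∈ T then .inl ⟨q, h⟩ else .inr ⟨q, h⟩

/-- The rational prime of an index. -/
def rc_fd_prime : rc_fd_Q T → Nat.Primes := Sum.elim Subtype.val Subtype.val

@[simp] theorem rc_fd_prime_inl (q : ↥T) : rc_fd_prime (.inl q : rc_fd_Q T) = q.1 := rfl

@[simp] theorem rc_fd_prime_inr (q : {q : Nat.Primes // q ∉ T}) :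
    rc_fd_prime (.inr q : rc_fd_Q T) = q.1 := rfl

theorem rc_fd_idx_of_mem {q : Nat.Primes} (h : q ∈ T) : rc_fd_idx T q = .inl ⟨q, h⟩ := by
  unfold rc_fd_idx
  rw [dif_pos h]

theorem rc_fd_idx_of_notMem {q : Nat.Primes} (h : q ∉ T) : rc_fd_idx T q = .inr ⟨q, h⟩ := by
  unfold rc_fd_idx
  rw [dif_neg h]

@[simp] theorem rc_fd_prime_idx (q : Nat.Primes) : rc_fd_prime (rc_fd_idx T q) = q := by
  by_cases h : q ∈ T
  · rw [rc_fd_idx_of_mem h]; rfl
  · rw [rc_fd_idx_of_notMem h]; rfl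

@[simp] theorem rc_fd_idx_prime (i : rc_fd_Q T) : rc_fd_idx T (rc_fd_prime i) = i := by
  rcases i with q | q
  · exact rc_fd_idx_of_mem q.2
  · exact rc_fd_idx_of_notMem q.2

/-- The index type of `rc_fd_data` is the set of all rational primes. -/
def rc_fd_equiv (T : Finset Nat.Primes) : rc_fd_Q T ≃ Nat.Primes where
  toFun := rc_fd_prime
  invFun := rc_fd_idx T
  left_inv := rc_fd_idx_prime
  right_inv := rc_fd_prime_idx

theorem rc_fd_prime_bijective : Function.Bijective (rc_fd_prime (T := T)) :=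
  (rc_fd_equiv T).bijective

theorem rc_fd_idx_bijective : Function.Bijective (rc_fd_idx T) := (rc_fd_equiv T).symm.bijective

/-- At every index the decomposition group is the image of the local Galois group. -/
theorem rc_fd_D_eq (a : ia_Lev T) (i : rc_fd_Q T) :
    (rc_fd_data p a).D i = il_D ((rc_fd_prime i : Nat.Primes) : ℕ) a.L := by
  rcases i with q | q
  · rfl
  · exact rc_fd_D_inr' p a q

end index

/-! ### Two levels: the four facts about the canonical primes -/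

section twoLevels

variable {a b : ia_Lev T} (h : a ≤ b)

/-- The decomposition groups at the canonical primes outside `T` correspond. -/
theorem rc_fd_map_stabilizer (q : {q : Nat.Primes // q ∉ T}) :
    (MulAction.stabilizer b.Γ (rc_fd_w b q)).map (ia_Lev.res h) =
      MulAction.stabilizer a.Γ (rc_fd_w a q) := by
  have hb : MulAction.stabilizer b.Γ (rc_fd_w b q) = il_D (q.1.1 : ℕ) b.L :=
    rc_op_stabilizer T b.L q
  have ha : MulAction.stabilizer a.Γ (rc_fd_w a q) = il_D (q.1.1 : ℕ) a.L :=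
    rc_op_stabilizer T a.L q
  rw [hb, ha]
  haveI : Fact (q.1.1 : ℕ).Prime := ⟨q.1.2⟩
  exact rc_ii_map_D (q.1.1 : ℕ) h (ia_Lev.res h) (ia_compat_res h)

/-- The coefficient of an extended divisor at the canonical prime (no ramification). -/
theorem rc_fd_Imap_toAdd (q : {q : Nat.Primes // q ∉ T}) (D : id_I T ↥a.L) :
    letI := ia_algebra h
    (id_Imap T ↥a.L ↥b.L D).toAdd (rc_fd_w b q) = D.toAdd (rc_fd_w a q) := by
  letI := ia_algebra h
  exact rc_op_Imap_toAdd_of_unram T h q (ia_unram h (rc_op_w T b.L q)) D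

/-- **Restriction maps the Frobenius at the canonical prime to the Frobenius.** -/
theorem rc_fd_res_frob (q : {q : Nat.Primes // q ∉ T}) :
    ia_Lev.res h ((rc_io_frob (rc_fd_w b) (rc_fd_hw b) (rc_fd_unram b) q : ↥(rc_io_D (rc_fd_w b) q)) :
        b.Γ) =
      ((rc_io_frob (rc_fd_w a) (rc_fd_hw a) (rc_fd_unram a) q : ↥(rc_io_D (rc_fd_w a) q)) : a.Γ) := by
  letI := ia_algebra h
  set φa := rc_io_frob (rc_fd_w a) (rc_fd_hw a) (rc_fd_unram a) q with hφa
  set φb := rc_io_frob (rc_fd_w b) (rc_fd_hw b) (rc_fd_unram b) q with hφb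
  refine rc_op_frob_unique (rc_fd_w a q).1.asIdeal (q.1 : ℕ) (rc_fd_unram a (rc_fd_w a q))
    ((rc_io_mem_D (rc_fd_w a) q (φa : a.Γ)).1 φa.2)
    (rc_io_frob_spec (rc_fd_w a) (rc_fd_hw a) (rc_fd_unram a) q) ?_
  intro x
  have h1 := rc_op_frob_res (ia_compat_res h (φb : b.Γ)) (rc_fd_w b q).1 (q.1 : ℕ)
    (rc_io_frob_spec (rc_fd_w b) (rc_fd_hw b) (rc_fd_unram b) q) x
  have h2 : id_under ↥a.L ↥b.L (rc_fd_w b q).1 = (rc_fd_w a q).1 := rc_op_under h q.1
  rw [h2] at h1
  exact h1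

/-- The transition map of `rc_ii_mor` is `id_iaJmapRep`. -/
theorem rc_fd_phi_eq :
    rc_ii_phi T h (ia_Lev.res h) (ia_compat_res h) = id_iaJmapRep T h := rfl

/-- **The morphism of the outside data between two field levels**: decomposition groups of the
canonical primes correspond, `ψ = id_ℤ`, coefficients of extended divisors are preserved (no
ramification), Frobenius restricts to Frobenius. -/
def rc_fd_morOut : rc_InvMor (rc_fd_out p b) (rc_fd_out p a) (ia_Lev.res h) (id_iaJmapRep T h) where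
  hD q := rc_fd_map_stabilizer h q
  ψ q := rc_zi_psi (rc_inf_πq (ia_Lev.res h) (rc_fd_map_stabilizer h q))
  sq q x := rc_fd_Imap_toAdd h q (Additive.toMul x).2
  inv q w _ :=
    rc_zi_invTop_infl (rc_io_frob (rc_fd_w a) (rc_fd_hw a) (rc_fd_unram a) q)
      (rc_io_frob_gen (rc_fd_w a) (rc_fd_hw a) (rc_fd_unram a) q)
      (rc_io_frob (rc_fd_w b) (rc_fd_hw b) (rc_fd_unram b) q)
      (rc_io_frob_gen (rc_fd_w b) (rc_fd_hw b) (rc_fd_unram b) q)
      (rc_inf_πq (ia_Lev.res h) (rc_fd_map_stabilizer h q))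
      (Subtype.ext (rc_fd_res_frob h q)) _ (fun _ => rfl) p w

/-- **The morphism of the total local data between two field levels.** -/
def rc_fd_mor : rc_InvMor (rc_fd_data p b) (rc_fd_data p a) (ia_Lev.res h) (id_iaJmapRep T h) :=
  rc_ms_sum (rc_ii_mor p T h (ia_Lev.res h) (ia_compat_res h)) (rc_fd_morOut p h)

/-- **(U3) for the total invariant between two field levels.** -/
theorem rc_fd_INV_inf (K : Subgroup a.Γ) (z : groupCohomology (tt_res K (id_JRep T ↥a.L)) 2)
    (hz : tt_IsPPrimary p z) :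
    rc_INV (rc_fd_data p b) (rc_fd_finSupp p b) (K.comap (ia_Lev.res h))
        ((lc_inf₂ (lc_piSub (ia_Lev.res h) K)
          (lc_phiSub (ia_Lev.res h) (id_iaJmapRep T h) K)).hom z) =
      rc_INV (rc_fd_data p a) (rc_fd_finSupp p a) K z :=
  rc_INV_inf (ia_Lev.res_surjective h) (rc_fd_mor p h) (rc_fd_finSupp p b) (rc_fd_finSupp p a) K z hz

end twoLevels

end

end Fermat.Agent.S55
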