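import Fermat.Agent.S55.Idele.LocalSeamUnram
import Fermat.Agent.S55.Idele.Comparison

/-!
# S55 / G4 (E): the canonical place over `q` and its dictionary (prefix `rc_tq_`)

For `q : Nat.Primes` and a finite normal `L ⊆ ℚ̄`, the fixed embedding `ℚ̄ → PadicAlgCl q` cuts out
the **canonical prime** `rc_tq_w q L` of `𝓞 L` over `q` (`= id_dc_prime (il_emb q L)`, with
underlying ideal `pl_ideal L (padicPlace q)`).  This file collects what the `T`-change (E) and the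
instantiation of the outside data need about it:

* `rc_tq_stabilizer`: its stabiliser in `Γ_L` is the decomposition group `il_D q L`;
* `rc_tq_ordA` / `rc_tq_icm_ordZ`: the normalised order at the canonical place of a unit of
  `ℚ_q ⊗ L` is the normalised valuation of its image in the local field `L·ℚ_q`
  (the value groups agree because `L` is dense);
* `rc_tq_unr_frob`: the Frobenius of the local class module `ils_unr` satisfies the Frobenius
  congruence at the canonical prime; `rc_tq_frob_unique`: at an unramified prime the congruence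
  determines the element of `Γ_L`;
* `rc_tq_w_under`: tower compatibility.
-/

set_option autoImplicit false
set_option linter.unusedSectionVars false
set_option linter.style.haveILetI false

open scoped TensorProduct Pointwise
open ExtCitation NumberField IsDedekindDomain
open scoped Valued

namespace Fermat.Agent.S55

local notation "Qbar" => AlgebraicClosure ℚ

noncomputable section

variable (q : Nat.Primes) (L : IntermediateField ℚ Qbar) [FiniteDimensional ℚ L] [Normal ℚ L]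
  [NumberField L]

/-- **The canonical prime of `L` over `q`**: the prime cut out by the fixed embedding
`ℚ̄ → PadicAlgCl q`. -/
def rc_tq_w : HeightOneSpectrum (𝓞 L) := id_dc_prime (il_emb (q : ℕ) L)

theorem rc_tq_mem_w (x : 𝓞 L) :
    x ∈ (rc_tq_w q L).asIdeal ↔ ‖il_emb (q : ℕ) L (x : L)‖ < 1 := Iff.rfl

theorem rc_tq_w_mem : ((q : ℕ) : 𝓞 L) ∈ (rc_tq_w q L).asIdeal :=
  id_dc_natCast_mem_ideal (il_emb (q : ℕ) L)

theorem rc_tq_w_asIdeal : (rc_tq_w q L).asIdeal = pl_ideal L (padicPlace (q : ℕ)) := by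
  ext x
  rw [rc_tq_mem_w, pl_mem_ideal, il_valuation_lt_one_iff, il_emb_apply]

/-- a prime with the same underlying ideal is the canonical prime -/
theorem rc_tq_eq_w {w : HeightOneSpectrum (𝓞 L)}
    (h : w.asIdeal = pl_ideal L (padicPlace (q : ℕ))) : w = rc_tq_w q L :=
  HeightOneSpectrum.ext (h.trans (rc_tq_w_asIdeal q L).symm)

theorem rc_tq_w_primeTo (T : Finset Nat.Primes) (hq : q ∉ T) :
    id_PrimeToS T L (rc_tq_w q L) := by
  rw [icm_primeToS_iff, icm_below_eq L (rc_tq_w_mem q L)]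
  exact hq

/-- the canonical prime over `q ∉ T` as a prime prime to `T` -/
def rc_tq_wP (T : Finset Nat.Primes) (q : {q : Nat.Primes // q ∉ T}) : id_P T L :=
  ⟨rc_tq_w q.1 L, rc_tq_w_primeTo q.1 L T q.2⟩

@[simp] theorem rc_tq_wP_val (T : Finset Nat.Primes) (q : {q : Nat.Primes // q ∉ T}) :
    (rc_tq_wP L T q).1 = rc_tq_w q.1 L := rfl

theorem rc_tq_wP_mem (T : Finset Nat.Primes) (q : {q : Nat.Primes // q ∉ T}) :
    (((q.1 : Nat.Primes) : ℕ) : 𝓞 L) ∈ (rc_tq_wP L T q).1.asIdeal := rc_tq_w_mem q.1 L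

/-- **The decomposition group of the canonical prime is `il_D q L`.** -/
theorem rc_tq_smul_w_eq_iff (g : L ≃ₐ[ℚ] L) :
    g • rc_tq_w q L = rc_tq_w q L ↔ g ∈ il_D (q : ℕ) L := by
  haveI : IsGalois ℚ L := ⟨⟩
  rw [il_D_eq_stabilizer, MulAction.mem_stabilizer_iff, ← rc_tq_w_asIdeal, ← id_smul_asIdeal]
  constructor
  · intro h
    rw [h]
  · intro h
    exact HeightOneSpectrum.ext h

theorem rc_tq_stabilizer :
    MulAction.stabilizer (L ≃ₐ[ℚ] L) (rc_tq_w q L) = il_D (q : ℕ) L := by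
  ext g
  rw [MulAction.mem_stabilizer_iff, rc_tq_smul_w_eq_iff]

theorem rc_tq_smul_wP_eq_iff (T : Finset Nat.Primes) (q : {q : Nat.Primes // q ∉ T})
    (g : L ≃ₐ[ℚ] L) :
    g • rc_tq_wP L T q = rc_tq_wP L T q ↔ g ∈ il_D ((q.1 : Nat.Primes) : ℕ) L := by
  rw [← rc_tq_smul_w_eq_iff]
  constructor
  · intro h
    exact congrArg Subtype.val h
  · intro h
    exact Subtype.ext h

theorem rc_tq_stabilizerP (T : Finset Nat.Primes) (q : {q : Nat.Primes // q ∉ T}) :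
    MulAction.stabilizer (L ≃ₐ[ℚ] L) (rc_tq_wP L T q) = il_D ((q.1 : Nat.Primes) : ℕ) L := by
  ext g
  rw [MulAction.mem_stabilizer_iff, rc_tq_smul_wP_eq_iff]

/-! ### The maximal ideal of the canonical place -/

theorem rc_tq_lift_eq (z : id_A ↥L q) :
    id_dc_lift (il_emb (q : ℕ) L) z = il_ev (q : ℕ) L z := by
  induction z using TensorProduct.induction_on with
  | zero => rw [map_zero, map_zero]
  | tmul a x => rw [id_dc_lift_tmul, il_ev_tmul, il_emb_apply]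
  | add z₁ z₂ h₁ h₂ => rw [map_add, map_add, h₁, h₂]

/-- the maximal ideal of `ℚ_q ⊗ L` of the canonical place -/
def rc_tq_max : MaximalSpectrum (id_A ↥L q) := id_dc_max (il_emb (q : ℕ) L)

theorem rc_tq_mem_max (z : id_A ↥L q) :
    z ∈ (rc_tq_max q L).asIdeal ↔ il_ev (q : ℕ) L z = 0 := by
  rw [rc_tq_max, id_dc_mem_max, rc_tq_lift_eq]

theorem rc_tq_maxEquiv_max :
    id_maxEquiv ↥L q (rc_tq_max q L) = ⟨rc_tq_w q L, rc_tq_w_mem q L⟩ :=
  Subtype.ext (id_dc_maxEquiv_max (il_emb (q : ℕ) L))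

theorem rc_tq_norm_max (z : id_A ↥L q) :
    dc_norm ↥L q (rc_tq_max q L) z = ‖il_ev (q : ℕ) L z‖ := by
  rw [rc_tq_max, dc_norm_eq_norm_lift, rc_tq_lift_eq]

theorem rc_tq_norm_max_incl (x : ↥L) :
    dc_norm ↥L q (rc_tq_max q L) (id_incl ↥L q x) = ‖il_emb (q : ℕ) L x‖ :=
  dc_norm_incl_eq_norm (il_emb (q : ℕ) L) x

theorem rc_tq_prime_max : dc_prime (rc_tq_max q L) = rc_tq_w q L :=
  dc_prime_eq_id_dc_prime (il_emb (q : ℕ) L)

/-- every non-zero element of `L·ℚ_q` has the norm of an element of `Lˣ` -/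
theorem rc_tq_exists_norm_eq (y : ↥(il_Lq (q : ℕ) L)) (hy : y ≠ 0) :
    ∃ x : (↥L)ˣ, ‖il_emb (q : ℕ) L (x : ↥L)‖ = ‖y‖ := by
  obtain ⟨z, hz⟩ := il_evLq_surjective (q : ℕ) L y
  have hpos : 0 < ‖y‖ := norm_pos_iff.2 hy
  obtain ⟨x, hx⟩ := dc_exists_approx (K := ↥L) (q := q) z hpos
  have h1 := hx (rc_tq_max q L)
  have hzn : dc_norm ↥L q (rc_tq_max q L) z = ‖y‖ := by
    rw [rc_tq_norm_max, ← hz]
    rfl
  have h2 : dc_norm ↥L q (rc_tq_max q L) (id_incl ↥L q x) = dc_norm ↥L q (rc_tq_max q L) z := by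
    have h3 : id_incl ↥L q x = z + -(z - id_incl ↥L q x) := by ring
    rw [h3]
    apply dc_norm_add_eq_left
    rw [dc_norm_neg, hzn]
    exact h1
  rw [rc_tq_norm_max_incl, hzn] at h2
  have hx0 : x ≠ 0 := by
    rintro rfl
    rw [map_zero, norm_zero] at h2
    exact hpos.ne h2
  exact ⟨Units.mk0 x hx0, h2⟩

/-- **The value groups agree**: the norm of a uniformiser of `L` at the canonical place is the
norm of a uniformiser of the local field `L·ℚ_q`. -/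
theorem rc_tq_c_eq :
    dc_c (rc_tq_max q L) = ‖((lq_unif (il_Lq (q : ℕ) L) : 𝒪[↥(il_Lq (q : ℕ) L)]) :
      ↥(il_Lq (q : ℕ) L))‖ := by
  set c := dc_c (rc_tq_max q L) with hc
  set ϖ := ‖((lq_unif (il_Lq (q : ℕ) L) : 𝒪[↥(il_Lq (q : ℕ) L)]) : ↥(il_Lq (q : ℕ) L))‖ with hϖ
  have hcpos : 0 < c := dc_c_pos _
  have hc1 : c < 1 := dc_c_lt_one _
  have hϖpos : 0 < ϖ := lq_norm_unif_pos _
  have hϖ1 : ϖ < 1 := lq_norm_unif_lt_one _
  -- `c = ϖ ^ n`
  have hu0 : il_embLq (q : ℕ) L (dc_unif (rc_tq_max q L)) ≠ 0 := by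
    rw [Ne, map_eq_zero_iff _ (il_embLq_injective (q : ℕ) L)]
    exact dc_unif_ne_zero _
  have h1 : c = ϖ ^ lq_ordZ (il_Lq (q : ℕ) L) (il_embLq (q : ℕ) L (dc_unif (rc_tq_max q L))) := by
    rw [hϖ, ← lq_ordZ_spec _ hu0, hc, dc_c, rc_tq_norm_max_incl]
    rfl
  -- `ϖ = c ^ m`
  obtain ⟨x, hx⟩ := rc_tq_exists_norm_eq q L _ (lq_unif_ne_zero (il_Lq (q : ℕ) L))
  have h2 : ϖ = c ^ id_ordZ ↥L (dc_prime (rc_tq_max q L)) x := by
    rw [hc, ← dc_norm_incl_eq_zpow, rc_tq_norm_max_incl, hx]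
  set n := lq_ordZ (il_Lq (q : ℕ) L) (il_embLq (q : ℕ) L (dc_unif (rc_tq_max q L))) with hn
  set m := id_ordZ ↥L (dc_prime (rc_tq_max q L)) x with hm
  have h3 : c ^ (1 : ℤ) = c ^ (m * n) := by
    rw [zpow_one, zpow_mul, ← h2, ← h1]
  have h4 : (1 : ℤ) = m * n := dc_c_zpow_injective (rc_tq_max q L) h3
  rcases Int.eq_one_or_neg_one_of_mul_eq_one' h4.symm with ⟨_, hn1⟩ | ⟨_, hn1⟩
  · rw [h1, hn1, zpow_one]
  · exfalso
    rw [hn1, zpow_neg, zpow_one] at h1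
    have h5 : c * ϖ = 1 := by
      rw [h1]
      exact inv_mul_cancel₀ hϖpos.ne'
    have h6 : c * ϖ < 1 := by
      calc c * ϖ < 1 * 1 := mul_lt_mul'' hc1 hϖ1 hcpos.le hϖpos.le
        _ = 1 := one_mul 1
    exact h6.ne h5

/-- **The order at the canonical place is the normalised valuation of the local field.** -/
theorem rc_tq_ordZ (u : (id_A ↥L q)ˣ) :
    dc_ordZ (rc_tq_max q L) u =
      lq_ordZ (il_Lq (q : ℕ) L) ((il_prU q L u : (↥(il_Lq (q : ℕ) L))ˣ) : ↥(il_Lq (q : ℕ) L)) := by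
  apply dc_ordZ_eq_of_norm_eq
  rw [rc_tq_c_eq, ← lq_ordZ_spec _ (il_prU q L u).ne_zero, rc_tq_norm_max]
  rfl

theorem rc_tq_ordA (u : (id_A ↥L q)ˣ) :
    id_ordA ↥L q ⟨rc_tq_w q L, rc_tq_w_mem q L⟩ u =
      Multiplicative.ofAdd (lq_ordZ (il_Lq (q : ℕ) L)
        ((il_prU q L u : (↥(il_Lq (q : ℕ) L))ˣ) : ↥(il_Lq (q : ℕ) L))) := by
  rw [← rc_tq_maxEquiv_max, id_ordA_maxEquiv, dc_ord_apply, rc_tq_ordZ]

/-- the same for the order package of `Idele/Comparison.lean` -/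
theorem rc_tq_icm_ordZ (u : (id_A ↥L q)ˣ) :
    (icm_ord ↥L).ordZ q (rc_tq_w q L) u =
      lq_ordZ (il_Lq (q : ℕ) L)
        ((il_prU q L u : (↥(il_Lq (q : ℕ) L))ˣ) : ↥(il_Lq (q : ℕ) L)) := by
  rw [icm_ordZ_of_mem ↥L q _ (rc_tq_w_mem q L), rc_tq_ordA]
  rfl

/-! ### Frobenius elements at the canonical place -/

/-- An element of `Gal(L·ℚ_q/ℚ_q)` inducing `x ↦ x ^ c` on the residue field gives, through `θ`,
an element of `Γ_L` satisfying the Frobenius congruence at the canonical prime. -/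
theorem rc_tq_theta_frob {τ : ↥(il_Lq (q : ℕ) L) ≃ₐ[ℚ_[(q : ℕ)]] ↥(il_Lq (q : ℕ) L)} {c : ℕ}
    (hτ : lq_IsFrob (il_Lq (q : ℕ) L) c τ) (x : 𝓞 ↥L) :
    il_theta (q : ℕ) L τ • x - x ^ c ∈ (rc_tq_w q L).asIdeal := by
  haveI : IsGalois ℚ L := ⟨⟩
  rw [rc_tq_mem_w]
  have h1 := hτ (il_embLq (q : ℕ) L (x : ↥L)) (il_norm_emb_le_one (q : ℕ) L x)
  rw [← il_embLq_theta, ← map_pow, ← map_sub] at h1
  exact h1

/-- the Frobenius of the local class module of the seam satisfies the Frobenius congruence at the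
canonical prime -/
theorem rc_tq_unr_frob (p : ℕ) [Fact p.Prime] (x : 𝓞 ↥L) :
    (((ils_unr p q L).frob : ↥(il_D (q : ℕ) L)) : ↥L ≃ₐ[ℚ] ↥L) • x - x ^ (q : ℕ) ∈
      (rc_tq_w q L).asIdeal := by
  haveI : IsGalois ℚ_[(q : ℕ)] ↥(il_Lq (q : ℕ) L) := ⟨⟩
  rw [ils_unr_frob', il_galEquiv_coe]
  exact rc_tq_theta_frob q L (lq_formation_isFrob (il_Lq (q : ℕ) L)) x

/-- **Uniqueness of the Frobenius at an unramified prime.** -/
theorem rc_tq_frob_unique {S : Finset Nat.Primes} (hL : L.IsUnramifiedOutside S) (hq : q ∉ S)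
    {c : ℕ} {φ φ' : ↥L ≃ₐ[ℚ] ↥L} (hφ' : φ' ∈ il_D (q : ℕ) L)
    (h : ∀ x : 𝓞 ↥L, φ • x - x ^ c ∈ (rc_tq_w q L).asIdeal)
    (h' : ∀ x : 𝓞 ↥L, φ' • x - x ^ c ∈ (rc_tq_w q L).asIdeal) : φ = φ' := by
  haveI : IsGalois ℚ L := ⟨⟩
  have h1 : φ'⁻¹ * φ ∈ (pl_ideal L (padicPlace (q : ℕ))).toAddSubgroup.inertia (↥L ≃ₐ[ℚ] ↥L) := by
    rw [AddSubgroup.mem_inertia]
    intro x
    show (φ'⁻¹ * φ) • x - x ∈ pl_ideal L (padicPlace (q : ℕ))
    rw [← rc_tq_w_asIdeal]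
    have h2 : (φ'⁻¹ * φ) • x - x = φ'⁻¹ • ((φ • x - x ^ c) - (φ' • x - x ^ c)) := by
      rw [sub_sub_sub_cancel_right, smul_sub, mul_smul, inv_smul_smul]
    rw [h2]
    have h3 : φ'⁻¹ • rc_tq_w q L = rc_tq_w q L :=
      (rc_tq_smul_w_eq_iff q L φ'⁻¹).2 (inv_mem hφ')
    have h4 : (φ • x - x ^ c) - (φ' • x - x ^ c) ∈ (rc_tq_w q L).asIdeal :=
      sub_mem (h x) (h' x)
    have h5 := Ideal.smul_mem_pointwise_smul φ'⁻¹ _ _ h4
    rw [← id_smul_asIdeal, h3] at h5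
    exact h5
  rw [pl_inertia_eq_bot L (padicPlace (q : ℕ)) hL q hq (pl_padicPlace_liesOver (q : ℕ)),
    Subgroup.mem_bot, inv_mul_eq_one] at h1
  exact h1.symm

/-! ### Tower compatibility -/

theorem rc_tq_w_under (L' : IntermediateField ℚ Qbar) [FiniteDimensional ℚ L'] [Normal ℚ L']
    [NumberField L'] [Algebra ↥L ↥L']
    (hι : ∀ x : ↥L, ((algebraMap ↥L ↥L' x : ↥L') : Qbar) = (x : Qbar)) :
    id_under ↥L ↥L' (rc_tq_w q L') = rc_tq_w q L := by
  apply HeightOneSpectrum.ext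
  ext x
  rw [id_under_asIdeal, Ideal.under_def, Ideal.mem_comap, rc_tq_mem_w, rc_tq_mem_w, il_emb_apply,
    il_emb_apply]
  have h1 : (((algebraMap (𝓞 ↥L) (𝓞 ↥L') x : 𝓞 ↥L') : ↥L') : Qbar) = ((x : ↥L) : Qbar) :=
    hι (x : ↥L)
  rw [h1]

end

end Fermat.Agent.S55
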