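import Fermat.Agent.S55.Recip.TermDict
import Fermat.Agent.S55.Recip.IdeleSum
import Fermat.Agent.S55.Recip.IdeleOut
import Fermat.Agent.S55.Recip.TChangePlace
import Fermat.Agent.S55.Recip.ZClassUnr
import Fermat.Agent.S55.Idele.LocalSeamUnr
import Fermat.Agent.S55.Idele.LocalInertia
import Fermat.Agent.S55.Recip.FieldData

/-!
# S55 / G4 (C): the place dictionary `rc_td_Dict` for the field data (prefix `rc_tf_`)

For a finite Galois `L ⊆ ℚ̄`, a finite set `T` of primes and `δ = id_diagRep T L : Lˣ ⟶ J_T(L)`: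

* `rc_tf_dictIn p T L q` (`q ∈ T`): the dictionary of the inside data `rc_ii_data p T L` at `q`:
  the canonical prime `rc_tq_w q L` over `q`, the unramified formula `ils_unr p q L`, whose inertia
  subgroup is the TRUE inertia group of the canonical prime (`q` may ramify in `L`);
* `rc_tf_dictOut p w hw hunr q` (`q ∉ T`): the dictionary of the outside data
  `rc_io_data p T L w hw hunr` at `q`: the chosen prime `w q`, the unramified formula `zc_unr`
  (trivial inertia), the Frobenius `rc_io_frob`;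
* `rc_tf_dict`: both, for the total data `rc_is_data p T L (rc_io_data p T L w hw hunr)`;
* `rc_tf_dictLev p a q`: the dictionary of `rc_fd_data p a` (`a : ia_Lev T`) at every rational
  prime `q : rc_fd_Q T`, with `U = rc_fd_unr p a q`.
-/

set_option autoImplicit false
set_option linter.unusedSectionVars false

open scoped TensorProduct NumberField Pointwise
open IsDedekindDomain CategoryTheory groupCohomology

namespace Fermat.Agent.S55

local notation "Qbar" => AlgebraicClosure ℚ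

noncomputable section

/-! ### Inside `T` -/

section inside

variable (p : ℕ) [Fact p.Prime] (T : Finset Nat.Primes) (L : IntermediateField ℚ Qbar)
  [FiniteDimensional ℚ L] [Normal ℚ L] [NumberField L]

/-- the decomposition group `il_D q L` is the stabiliser of the underlying ideal of the canonical
prime -/
theorem rc_tf_D_eq (q : Nat.Primes) :
    il_D (q : ℕ) L = MulAction.stabilizer (↥L ≃ₐ[ℚ] ↥L) (rc_tq_w q L).asIdeal := by
  haveI : IsGalois ℚ L := ⟨⟩
  rw [il_D_eq_stabilizer, rc_tq_w_asIdeal]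

/-- the inertia subgroup of `ils_unr` is the inertia group of the canonical prime -/
theorem rc_tf_mem_I_iff (q : Nat.Primes) (d : ↥(il_D (q : ℕ) L)) :
    d ∈ (ils_unr p q L).I ↔
      (d : ↥L ≃ₐ[ℚ] ↥L) ∈ (rc_tq_w q L).asIdeal.toAddSubgroup.inertia (↥L ≃ₐ[ℚ] ↥L) := by
  haveI : IsGalois ℚ L := ⟨⟩
  rw [ils_mem_unr_I, rc_tq_w_asIdeal, ← Subgroup.mem_subgroupOf,
    il_inertia_subgroupOf_eq_map, Subgroup.mem_map]
  constructor
  · intro h
    exact ⟨ils_e q L d, h, MulEquiv.apply_symm_apply (il_galEquiv (q : ℕ) L) d⟩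
  · rintro ⟨τ, hτ, rfl⟩
    have : ils_e q L ((il_galEquiv (q : ℕ) L).toMonoidHom τ) = τ :=
      MulEquiv.symm_apply_apply (il_galEquiv (q : ℕ) L) τ
    rw [this]
    exact hτ

/-- the valuation of `ils_unr` on the component of a principal idele is the order at the
canonical prime -/
theorem rc_tf_v_diag (q : ↥T) (y : (↥L)ˣ) :
    (ils_unr p q.1 L).v ((rc_ii_pr T L q).hom
      ((id_diagRep T ↥L).hom (Additive.ofMul y : Additive (↥L)ˣ))) =
      id_ordZ ↥L (rc_tq_w q.1 L) y := by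
  have h1 : (id_diagRep T ↥L).hom (Additive.ofMul y : Additive (↥L)ˣ) =
      (Additive.ofMul (id_diag T ↥L y) : Additive (id_J T ↥L)) := rfl
  rw [h1, rc_ii_pr_apply, ils_unr_v]
  have h2 := rc_tq_ordZ q.1 L (id_inclU ↥L q.1 y)
  rw [dc_ordZ_inclU, rc_tq_prime_max] at h2
  exact h2.symm

/-- **The dictionary of the inside data at `q ∈ T`.** -/
def rc_tf_dictIn (q : ↥T) : rc_td_Dict (rc_ii_data p T L) (id_diagRep T ↥L) q where
  w := rc_tq_w q.1 L
  ℓ := (q.1 : ℕ)
  hℓ := q.1.2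
  hmem := rc_tq_w_mem q.1 L
  hD := rc_tf_D_eq L q.1
  U := ils_unr p q.1 L
  hI := rc_tf_mem_I_iff p L q.1
  hfrob := rc_tq_unr_frob q.1 L p
  hv := rc_tf_v_diag p T L q

@[simp] theorem rc_tf_dictIn_w (q : ↥T) : (rc_tf_dictIn p T L q).w = rc_tq_w q.1 L := rfl
@[simp] theorem rc_tf_dictIn_ℓ (q : ↥T) : (rc_tf_dictIn p T L q).ℓ = (q.1 : ℕ) := rfl
@[simp] theorem rc_tf_dictIn_U (q : ↥T) : (rc_tf_dictIn p T L q).U = ils_unr p q.1 L := rfl

end inside

/-! ### Outside `T` -/

section outside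

variable (p : ℕ) [Fact p.Prime] {T : Finset Nat.Primes} {L : Type} [Field L] [NumberField L]
  [IsGalois ℚ L] (w : rc_io_Q T → id_P T L) (hw : ∀ q, ((q.1 : ℕ) : 𝓞 L) ∈ (w q).1.asIdeal)
  (hunr : rc_io_Unram T L)

/-- the decomposition group `rc_io_D w q` is the stabiliser of the underlying ideal -/
theorem rc_tf_D_out_eq (q : rc_io_Q T) :
    rc_io_D w q = MulAction.stabilizer (L ≃ₐ[ℚ] L) (w q).1.asIdeal := by
  ext g
  rw [rc_io_mem_D, MulAction.mem_stabilizer_iff]

/-- the trivial subgroup is the inertia group of `w q` (inside the decomposition group) -/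
theorem rc_tf_mem_bot_iff (hunr : rc_io_Unram T L) (q : rc_io_Q T) (d : ↥(rc_io_D w q)) :
    d ∈ (⊥ : Subgroup ↥(rc_io_D w q)) ↔
      (d : L ≃ₐ[ℚ] L) ∈ (w q).1.asIdeal.toAddSubgroup.inertia (L ≃ₐ[ℚ] L) := by
  rw [Subgroup.mem_bot]
  constructor
  · rintro rfl
    exact one_mem _
  · intro h
    rw [AddSubgroup.mem_inertia] at h
    exact Subtype.ext (hunr (w q) (d : L ≃ₐ[ℚ] L) h)

/-- **The dictionary of the outside data at `q ∉ T`.** -/
def rc_tf_dictOut (q : rc_io_Q T) :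
    rc_td_Dict (rc_io_data p T L w hw hunr) (id_diagRep T L) q where
  w := (w q).1
  ℓ := (q.1 : ℕ)
  hℓ := q.1.2
  hmem := hw q
  hD := rc_tf_D_out_eq w q
  U := zc_unr (rc_io_frob w hw hunr q) (rc_io_frob_gen w hw hunr q) p
  hI := rc_tf_mem_bot_iff w hunr q
  hfrob := rc_io_frob_spec w hw hunr q
  hv := fun y => rfl

@[simp] theorem rc_tf_dictOut_w (q : rc_io_Q T) :
    (rc_tf_dictOut p w hw hunr q).w = (w q).1 := rfl
@[simp] theorem rc_tf_dictOut_ℓ (q : rc_io_Q T) :
    (rc_tf_dictOut p w hw hunr q).ℓ = (q.1 : ℕ) := rfl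
@[simp] theorem rc_tf_dictOut_U (q : rc_io_Q T) : (rc_tf_dictOut p w hw hunr q).U =
    zc_unr (rc_io_frob w hw hunr q) (rc_io_frob_gen w hw hunr q) p := rfl

end outside

/-! ### The total data -/

section total

variable (p : ℕ) [Fact p.Prime] (T : Finset Nat.Primes) (L : IntermediateField ℚ Qbar)
  [FiniteDimensional ℚ L] [Normal ℚ L] [NumberField L] [IsGalois ℚ ↥L]
  (w : rc_io_Q T → id_P T ↥L) (hw : ∀ q, ((q.1 : ℕ) : 𝓞 ↥L) ∈ (w q).1.asIdeal)
  (hunr : rc_io_Unram T ↥L)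

/-- **The dictionary of the total data** `inside ⊕ outside`. -/
def rc_tf_dict (q : ↥T ⊕ rc_io_Q T) :
    rc_td_Dict (rc_is_data p T L (rc_io_data p T ↥L w hw hunr)) (id_diagRep T ↥L) q :=
  match q with
  | Sum.inl q => (rc_tf_dictIn p T L q).inl _ _ _
  | Sum.inr q => (rc_tf_dictOut p w hw hunr q).inr _ _ _

@[simp] theorem rc_tf_dict_inl (q : ↥T) :
    rc_tf_dict p T L w hw hunr (Sum.inl q) = (rc_tf_dictIn p T L q).inl _ _ _ := rfl

@[simp] theorem rc_tf_dict_inr (q : rc_io_Q T) :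
    rc_tf_dict p T L w hw hunr (Sum.inr q) = (rc_tf_dictOut p w hw hunr q).inr _ _ _ := rfl

end total

/-! ### Field levels -/

section level

variable (p : ℕ) [Fact p.Prime] {T : Finset Nat.Primes} (a : ia_Lev T)

/-- **The dictionary of the field data `rc_fd_data p a`** at every rational prime. -/
def rc_tf_dictLev (q : rc_fd_Q T) : rc_td_Dict (rc_fd_data p a) (id_diagRep T ↥a.L) q :=
  rc_tf_dict p T a.L (rc_fd_w a) (rc_fd_hw a) (rc_fd_unram a) q

@[simp] theorem rc_tf_dictLev_U (q : rc_fd_Q T) : (rc_tf_dictLev p a q).U = rc_fd_unr p a q := by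
  rcases q with q | q <;> rfl

@[simp] theorem rc_tf_dictLev_w_inl (q : ↥T) :
    (rc_tf_dictLev p a (Sum.inl q)).w = rc_tq_w q.1 a.L := rfl

@[simp] theorem rc_tf_dictLev_w_inr (q : {q : Nat.Primes // q ∉ T}) :
    (rc_tf_dictLev p a (Sum.inr q)).w = (rc_fd_w a q).1 := rfl

@[simp] theorem rc_tf_dictLev_ℓ_inl (q : ↥T) : (rc_tf_dictLev p a (Sum.inl q)).ℓ = (q.1 : ℕ) := rfl

@[simp] theorem rc_tf_dictLev_ℓ_inr (q : {q : Nat.Primes // q ∉ T}) :
    (rc_tf_dictLev p a (Sum.inr q)).ℓ = (q.1 : ℕ) := rfl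

/-- the rational prime of the dictionary, through `rc_fd_prime` -/
theorem rc_tf_dictLev_mem (q : rc_fd_Q T) :
    ((rc_tf_dictLev p a q).ℓ : 𝓞 ↥a.L) ∈ (rc_tf_dictLev p a q).w.asIdeal :=
  (rc_tf_dictLev p a q).hmem

end level

end

end Fermat.Agent.S55
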