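/-
S55 / G4 reciprocity, instantiation (C): **the covering inputs of `rc_cc_cyc` / `rc_cc_recip`**
(prefix `rc_dc_`).

* for the concrete dictionary `𝔇 := rc_tf_dictLev p a` of a field level `a : ia_Lev T`:
  `rc_dc_huniq`, `rc_dc_hcov` (the chosen primes `w_q` are a system of representatives of the
  primes of `a.L` modulo `Gal(a.L/ℚ)`), `rc_dc_ℓ`;
* generic in the dictionary: `rc_dc_ell_of_mem` (`hqm`: the index of a place over the modulus),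
  `rc_dc_hunr` (from "unramified outside `ℓ`" to the `hunr` shape of `rc_cc_cyc`);
* `rc_dc_finrank_eq_index` : `[E : ℚ] = [Γ_M : rc_dg_sub E M]`.
-/
import Mathlib
import Fermat.Agent.S55.Recip.TermDictField
import Fermat.Agent.S55.Recip.CycConcrete
import Fermat.Agent.S55.Recip.KillGrowth

set_option autoImplicit false

open NumberField IsDedekindDomain

namespace Fermat.Agent.S55

open Fermat.Agent.S14
open scoped IsMulCommutative Pointwise TensorProduct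

set_option linter.style.haveILetI false
set_option linter.unusedSectionVars false

local notation "Qbar" => AlgebraicClosure ℚ

section level

variable {T : Finset Nat.Primes} (p : ℕ) [Fact p.Prime] (a : ia_Lev T)

/-- the rational prime of the dictionary at `q` is `rc_fd_prime q`. -/
theorem rc_dc_ℓ (q : rc_fd_Q T) :
    (rc_tf_dictLev p a q).ℓ = ((rc_fd_prime q : Nat.Primes) : ℕ) := by
  rcases q with q | q <;> rfl

/-- **`huniq`**: distinct indices have non-conjugate primes. -/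
theorem rc_dc_huniq (q q' : rc_fd_Q T) (g : a.Γ)
    (h : g • (rc_tf_dictLev p a q).w.asIdeal = (rc_tf_dictLev p a q').w.asIdeal) : q = q' := by
  have h1 : ((rc_tf_dictLev p a q).ℓ : 𝓞 ↥a.L) ∈ (rc_tf_dictLev p a q').w.asIdeal := by
    rw [← h]
    exact rc_kg_ell_mem_smul (rc_tf_dictLev p a q) g
  have h2 := rc_ic_prime_unique ↥a.L (rc_tf_dictLev p a q').w (rc_tf_dictLev p a q).hℓ
    (rc_tf_dictLev p a q').hℓ h1 (rc_tf_dictLev p a q').hmem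
  rw [rc_dc_ℓ, rc_dc_ℓ] at h2
  exact rc_fd_prime_bijective.1 (Subtype.ext h2)

/-- **`hcov`**: every nonzero prime of `a.L` is conjugate to one of the chosen primes. -/
theorem rc_dc_hcov (R : Ideal (𝓞 ↥a.L)) (hR : R.IsPrime) (hR0 : R ≠ ⊥) :
    ∃ q, ∃ g : a.Γ, g • (rc_tf_dictLev p a q).w.asIdeal = R := by
  set v : HeightOneSpectrum (𝓞 ↥a.L) := ⟨R, hR, hR0⟩ with hv
  obtain ⟨ℓ, hℓ, hmem⟩ := rc_ic_exists_prime_mem ↥a.L v
  let ℓ' : Nat.Primes := ⟨ℓ, hℓ⟩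
  set q : rc_fd_Q T := rc_fd_idx T ℓ' with hq
  have hqℓ : (rc_tf_dictLev p a q).ℓ = ℓ := by
    rw [rc_dc_ℓ, hq, rc_fd_prime_idx]
  have h1 : ((ℓ : ℕ) : 𝓞 ↥a.L) ∈ (rc_tf_dictLev p a q).w.asIdeal := by
    rw [← hqℓ]
    exact (rc_tf_dictLev p a q).hmem
  obtain ⟨g, hg⟩ := rc_ic_exists_smul_eq ↥a.L (rc_tf_dictLev p a q).w v ℓ hℓ h1 hmem
  refine ⟨q, g, ?_⟩
  have := congrArg HeightOneSpectrum.asIdeal hg
  rwa [id_smul_asIdeal] at this

end level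

section generic

variable {M : Type} [Field M] [NumberField M] {p : ℕ} {J : Rep.{0} ℤ (M ≃ₐ[ℚ] M)} {Q : Type}
  {𝔻 : rc_InvData p J Q} {δ : id_KRep M ⟶ J} {q : Q} (𝔇 : rc_td_Dict 𝔻 δ q)
  {E : Type} [Field E] [NumberField E] [Algebra E M]

/-- a natural number lies in the prime of `E` under `g • w` iff it lies in `w`. -/
theorem rc_dc_natCast_mem_under_iff (g : M ≃ₐ[ℚ] M) (n : ℕ) :
    (n : 𝓞 E) ∈ (id_under E M (g • 𝔇.w)).asIdeal ↔ (n : 𝓞 M) ∈ 𝔇.w.asIdeal := by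
  rw [id_under_asIdeal, Ideal.under, Ideal.mem_comap, map_natCast, id_smul_asIdeal,
    rc_dg_natCast_mem_smul_iff]

/-- **`hqm`**: a place whose prime of `E` contains `ℓ ^ j` lies over `ℓ`. -/
theorem rc_dc_ell_of_mem {ℓ j : ℕ} (hℓ : ℓ.Prime) (g : M ≃ₐ[ℚ] M)
    (h : ((ℓ ^ j : ℕ) : 𝓞 E) ∈ (id_under E M (g • 𝔇.w)).asIdeal) : 𝔇.ℓ = ℓ := by
  rw [rc_dc_natCast_mem_under_iff, Nat.cast_pow] at h
  have h1 : (ℓ : 𝓞 M) ∈ 𝔇.w.asIdeal := 𝔇.w.isPrime.mem_of_pow_mem j h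
  exact rc_ic_prime_unique M 𝔇.w 𝔇.hℓ hℓ 𝔇.hmem h1

/-- conversely the places over `𝔇.ℓ` contain `𝔇.ℓ ^ j`, `j ≥ 1`. -/
theorem rc_dc_mem_of_ell {j : ℕ} (hj : 1 ≤ j) (g : M ≃ₐ[ℚ] M) :
    ((𝔇.ℓ ^ j : ℕ) : 𝓞 E) ∈ (id_under E M (g • 𝔇.w)).asIdeal := by
  rw [rc_dc_natCast_mem_under_iff, Nat.cast_pow]
  exact Ideal.pow_mem_of_mem _ 𝔇.hmem j hj

/-- **`hunr`**: from "unramified outside `ℓ`" (package form) to the shape of `rc_cc_cyc`. -/
theorem rc_dc_hunr {E' : Type} [Field E'] [NumberField E'] [Algebra E E'] {ℓ j : ℕ} (hj : 1 ≤ j)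
    (hP : ∀ v : Ideal (𝓞 E), v.IsPrime → v ≠ ⊥ → (ℓ : 𝓞 E) ∉ v → am_Unram E E' v)
    (g : M ≃ₐ[ℚ] M) (h : ((ℓ ^ j : ℕ) : 𝓞 E) ∉ (id_under E M (g • 𝔇.w)).asIdeal) :
    am_Unram E E' (id_under E M (g • 𝔇.w)).asIdeal := by
  refine hP _ (id_under E M (g • 𝔇.w)).isPrime (id_under E M (g • 𝔇.w)).ne_bot ?_
  intro hmem
  apply h
  rw [Nat.cast_pow]
  exact Ideal.pow_mem_of_mem _ hmem j hj

end generic

section hout

variable {M : Type} [Field M] [NumberField M] {p : ℕ} [hpF : Fact p.Prime]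
  {J : Rep.{0} ℤ (M ≃ₐ[ℚ] M)} {Q : Type}
  {𝔻 : rc_InvData p J Q} {δ : id_KRep M ⟶ J} (𝔇 : ∀ q, rc_td_Dict 𝔻 δ q)
  {E F : Type} [Field E] [NumberField E] [Field F] [NumberField F] [Algebra E F] [Algebra F M]
  [Algebra E M] [IsScalarTower E F M] [IsGalois E M] [IsGalois E F] [IsMulCommutative Gal(F/E)]

/-- **the `hout` hypothesis of `rc_co_recip`** from a finite bad set `B` of rational primes:
`B` contains `l'`, the support primes of `b'` and of `α`; the tower layer `F/E` is unramified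
outside `p` and its Frobenius orders at the primes of `E` over `B` (not over `p`) are divisible
by `p ^ k`. -/
theorem rc_dc_hout {B : Finset ℕ} {k : ℕ} {q₀ q₁ : Q}
    (hq₀ : ∀ q, (𝔇 q).ℓ = p → q = q₀) (hq₁B : (𝔇 q₁).ℓ ∈ B)
    (hunr : ∀ v : Ideal (𝓞 E), v.IsPrime → (p : 𝓞 E) ∉ v → am_Unram E F v)
    (hgrow : ∀ v ∈ rc_kg_primesOver E B, v.IsPrime → v ≠ ⊥ → (p : 𝓞 E) ∉ v →
      p ^ k ∣ orderOf (am_frob E F v))
    (b' : Eˣ) (hb' : rc_kg_suppPrimes b' ⊆ B)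
    (tα : Q → (M ≃ₐ[ℚ] M) → Prop) (hα : ∀ q g, (𝔇 q).ℓ ∉ B → tα q g)
    (q : Q) (g : M ≃ₐ[ℚ] M) (hq : q ≠ q₀) :
    p ^ k ∣ rc_idx (𝔻.D q) (rr_up (rc_dg_sub E M) (rc_dg_resHom E F M).ker) (rc_dg_sub E M) g ∨
      (tα q g ∧ q ≠ q₁ ∧ id_ordZ E (id_under E M (g • (𝔇 q).w)) b' = 0) := by
  by_cases hB : (𝔇 q).ℓ ∈ B
  · left
    exact rc_kg_hkill (𝔇 q) hB (fun h => hq (hq₀ q h)) hunr hgrow g
  · right
    refine ⟨hα q g hB, fun h => hB (h ▸ hq₁B), ?_⟩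
    refine rc_kg_ordZ_eq_zero (𝔇 q).hℓ ?_ (fun hmem => hB (hb' hmem))
    rw [rc_dc_natCast_mem_under_iff]
    exact (𝔇 q).hmem

/-- **`hout` in the Frobenius-order form of `rc_co_recip_field`.** -/
theorem rc_dc_hout_frob {B : Finset ℕ} {k : ℕ} {q₀ q₁ : Q}
    (hq₀ : ∀ q, (𝔇 q).ℓ = p → q = q₀) (hq₁B : (𝔇 q₁).ℓ ∈ B)
    (hgrow : ∀ v ∈ rc_kg_primesOver E B, v.IsPrime → v ≠ ⊥ → (p : 𝓞 E) ∉ v →
      p ^ k ∣ orderOf (am_frob E F v))
    (b' : Eˣ) (hb' : rc_kg_suppPrimes b' ⊆ B)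
    (tα : Q → (M ≃ₐ[ℚ] M) → Prop) (hα : ∀ q g, (𝔇 q).ℓ ∉ B → tα q g)
    (q : Q) (g : M ≃ₐ[ℚ] M) (hq : q ≠ q₀) :
    p ^ k ∣ orderOf (am_frob E F (id_under E M (g • (𝔇 q).w)).asIdeal) ∨
      (tα q g ∧ q ≠ q₁ ∧ id_ordZ E (id_under E M (g • (𝔇 q).w)) b' = 0) := by
  have hmemE : (((𝔇 q).ℓ : ℕ) : 𝓞 E) ∈ (id_under E M (g • (𝔇 q).w)).asIdeal := by
    rw [rc_dc_natCast_mem_under_iff]
    exact (𝔇 q).hmem
  by_cases hB : (𝔇 q).ℓ ∈ B
  · left
    set v := id_under E M (g • (𝔇 q).w) with hv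
    have hvmem : v.asIdeal ∈ rc_kg_primesOver E B :=
      rc_kg_mem_primesOver.2 ⟨v.isPrime, v.ne_bot, (𝔇 q).ℓ, hB, (𝔇 q).hℓ, hmemE⟩
    have hco : Nat.Coprime p (𝔇 q).ℓ :=
      (Nat.coprime_primes hpF.out (𝔇 q).hℓ).mpr (fun h => hq (hq₀ q h.symm))
    have hpv : (p : 𝓞 E) ∉ v.asIdeal := ax_natCast_not_mem _ v.isPrime.ne_top hmemE hco
    exact hgrow _ hvmem v.isPrime v.ne_bot hpv
  · right
    exact ⟨hα q g hB, fun h => hB (h ▸ hq₁B),
      rc_kg_ordZ_eq_zero (𝔇 q).hℓ hmemE (fun hmem => hB (hb' hmem))⟩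

end hout

section supportPrimes

variable {T : Finset Nat.Primes} (p : ℕ) [Fact p.Prime] (a : ia_Lev T)

/-- **the support primes `B₁` of a class**: a finite set of rational primes outside which all
local terms of `z` (at the field datum of the level `a`) vanish. -/
theorem rc_dc_exists_supportPrimes (K : Subgroup a.Γ)
    (z : groupCohomology (tt_res K (id_JRep T ↥a.L)) 2) :
    ∃ B₁ : Finset ℕ, ∀ (q : rc_fd_Q T) (g : a.Γ), ((rc_fd_prime q : Nat.Primes) : ℕ) ∉ B₁ →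
      rc_term (rc_fd_data p a) q K g z = 0 := by
  classical
  have hfin := rc_fd_finSupp p a K z
  refine ⟨hfin.toFinset.image (fun q => ((rc_fd_prime q : Nat.Primes) : ℕ)), ?_⟩
  intro q g hq
  rw [rc_term_apply]
  have h0 : rc_comp (rc_fd_data p a) q K g z = 0 := by
    by_contra hne
    apply hq
    refine Finset.mem_image.2 ⟨q, ?_, rfl⟩
    rw [Set.Finite.mem_toFinset]
    exact ⟨g, hne⟩
  rw [h0, map_zero]

end supportPrimes

section index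

variable {E M : Type} [Field E] [NumberField E] [Field M] [NumberField M] [Algebra E M]

/-- `[E : ℚ] = [Γ_M : rc_dg_sub E M]` for `M/ℚ` Galois. -/
theorem rc_dc_finrank_eq_index [IsGalois ℚ M] [IsGalois E M] :
    Module.finrank ℚ E = (rc_dg_sub E M).index := by
  have h1 : Nat.card (M ≃ₐ[ℚ] M) = Module.finrank ℚ M := IsGalois.card_aut_eq_finrank ℚ M
  have h2 : Nat.card ↥(rc_dg_sub E M) = Module.finrank E M := by
    rw [rc_tl_card_sub, IsGalois.card_aut_eq_finrank E M]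
  have h3 : Module.finrank ℚ E * Module.finrank E M = Module.finrank ℚ M :=
    Module.finrank_mul_finrank ℚ E M
  have h4 := Subgroup.index_mul_card (rc_dg_sub E M)
  rw [h1, h2, ← h3] at h4
  have hpos : 0 < Module.finrank E M := Module.finrank_pos
  exact (Nat.eq_of_mul_eq_mul_right hpos h4).symm

end index

section levelHqm

variable {T : Finset Nat.Primes} (p : ℕ) [Fact p.Prime] (a : ia_Lev T)
  {E : Type} [Field E] [NumberField E] [Algebra E ↥a.L]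

/-- **`hqm` for the field dictionary**: the place over the modulus `ℓ ^ j` is `rc_fd_idx T ℓ`. -/
theorem rc_dc_hqm (qℓ : Nat.Primes) {j : ℕ} (q : rc_fd_Q T) (g : a.Γ)
    (h : (((qℓ : ℕ) ^ j : ℕ) : 𝓞 E) ∈ (id_under E ↥a.L (g • (rc_tf_dictLev p a q).w)).asIdeal) :
    q = rc_fd_idx T qℓ := by
  have h1 := rc_dc_ell_of_mem (rc_tf_dictLev p a q) qℓ.2 g h
  rw [rc_dc_ℓ] at h1
  have h2 : rc_fd_prime q = qℓ := Subtype.ext h1
  rw [← h2, rc_fd_idx_prime]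

end levelHqm

end Fermat.Agent.S55
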