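import Fermat.Agent.S55.Recip.SumFormula
import Fermat.Agent.S55.Idele.FieldInfl

/-!
# S55 / G4 (C): the total invariant of a principal idele class and inflation (prefix `rc_di_`)

Step (4) of the reciprocity chain: to prove `INV_K (δ_* u) = 0` for a `p`-primary
`u ∈ H²(K, L_aˣ)` it suffices to prove it for the inflated class on a bigger level `b ≥ a`:

  `INV^b_{π⁻¹K} (δ^b_* (inf u)) = INV^a_K (δ^a_* u)`   (`rc_di_INV_inf`, abstract;
                                                      `rc_di_INV_inf_ia`, field levels).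
-/

set_option autoImplicit false
set_option linter.style.haveILetI false
set_option linter.unusedSectionVars false

namespace Fermat.Agent.S55

open CategoryTheory groupCohomology Rep

section abstract

variable {p : ℕ} [Fact p.Prime] {G Γ : Type} [Group G] [Group Γ] [Finite G] [Finite Γ]
  {π : G →* Γ} {A' J' : Rep.{0} ℤ G} {A J : Rep.{0} ℤ Γ}
  (δ' : A' ⟶ J') (δ : A ⟶ J) (φA : res π A ⟶ A') (φJ : res π J ⟶ J')
  {Q : Type} (𝔻' : rc_InvData p J' Q) (𝔻 : rc_InvData p J Q)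

/-- **The total invariant of the image of a class of `A` is compatible with inflation.** -/
theorem rc_di_INV_inf (hπ : Function.Surjective π)
    (hsq : ∀ x : A.V, δ'.hom (φA.hom x) = φJ.hom (δ.hom x))
    (M : rc_InvMor 𝔻' 𝔻 π φJ) (hfin' : rc_FinSupp 𝔻') (hfin : rc_FinSupp 𝔻)
    (K : Subgroup Γ) (u : groupCohomology (tt_res K A) 2) (hu : tt_IsPPrimary p u) :
    rc_INV 𝔻' hfin' (K.comap π) ((tt_coeffMap (rc_ci_resMor δ' (K.comap π)) 2).hom
        ((lc_inf₂ (lc_piSub π K) (lc_phiSub π φA K)).hom u)) =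
      rc_INV 𝔻 hfin K ((tt_coeffMap (rc_ci_resMor δ K) 2).hom u) := by
  rw [rc_sf_inf_coeff_apply δ' π φJ δ φA hsq K u]
  exact rc_INV_inf hπ M hfin' hfin K _
    (tt_isPPrimary_map (tt_coeffMap (rc_ci_resMor δ K) 2).hom.toAddMonoidHom hu)

/-- Reciprocity descends: if the inflated class has total invariant `0` above, the class has total
invariant `0` below. -/
theorem rc_di_INV_eq_zero (hπ : Function.Surjective π)
    (hsq : ∀ x : A.V, δ'.hom (φA.hom x) = φJ.hom (δ.hom x))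
    (M : rc_InvMor 𝔻' 𝔻 π φJ) (hfin' : rc_FinSupp 𝔻') (hfin : rc_FinSupp 𝔻)
    (K : Subgroup Γ) (u : groupCohomology (tt_res K A) 2) (hu : tt_IsPPrimary p u)
    (h : rc_INV 𝔻' hfin' (K.comap π) ((tt_coeffMap (rc_ci_resMor δ' (K.comap π)) 2).hom
        ((lc_inf₂ (lc_piSub π K) (lc_phiSub π φA K)).hom u)) = 0) :
    rc_INV 𝔻 hfin K ((tt_coeffMap (rc_ci_resMor δ K) 2).hom u) = 0 := by
  rw [← rc_di_INV_inf δ' δ φA φJ 𝔻' 𝔻 hπ hsq M hfin' hfin K u hu]
  exact h

end abstract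

section levels

variable {p : ℕ} [Fact p.Prime] {T : Finset Nat.Primes} {a b : ia_Lev T} (h : a ≤ b)
  {Q : Type} (𝔻b : rc_InvData p (id_JRep T ↥b.L) Q) (𝔻a : rc_InvData p (id_JRep T ↥a.L) Q)

/-- **Field levels**: the total invariant of a principal idele class and inflation. -/
theorem rc_di_INV_inf_ia (M : rc_InvMor 𝔻b 𝔻a (ia_Lev.res h) (id_iaJmapRep T h))
    (hfinb : rc_FinSupp 𝔻b) (hfina : rc_FinSupp 𝔻a)
    (K : Subgroup a.Γ) (u : groupCohomology (tt_res K (id_KRep ↥a.L)) 2)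
    (hu : tt_IsPPrimary p u) :
    rc_INV 𝔻b hfinb (K.comap (ia_Lev.res h))
        ((tt_coeffMap (rc_ci_resMor (id_diagRep T ↥b.L) (K.comap (ia_Lev.res h))) 2).hom
          ((lc_inf₂ (lc_piSub (ia_Lev.res h) K)
            (lc_phiSub (ia_Lev.res h) (id_iaKmapRep h) K)).hom u)) =
      rc_INV 𝔻a hfina K ((tt_coeffMap (rc_ci_resMor (id_diagRep T ↥a.L) K) 2).hom u) :=
  rc_di_INV_inf (id_diagRep T ↥b.L) (id_diagRep T ↥a.L) (id_iaKmapRep h) (id_iaJmapRep T h)
    𝔻b 𝔻a (ia_Lev.res_surjective h) (fun x => (id_iaJmapRep_diag h x).symm) M hfinb hfina K u hu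

end levels

end Fermat.Agent.S55
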