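import Fermat.Agent.S55.Recip.RecipLocal

/-!
# The reciprocity chase in the language of `rc_InvData` (G4 (C); prefix `rr_`)

One top group `Γ = Gal(Ω/ℚ)`, `A = Ωˣ`, `J` the ideles of `Ω`, `δ : A ⟶ J` the diagonal,
`𝔻 : rc_InvData p J Q` the local data, `𝒢 = Gal(Ω/E) ≤ Γ` the layer and `N ⊴ 𝒢` with
`𝒢 ⧸ N = ⟨σ⟩` cyclic of order `n` (`N = Gal(Ω/E(ζ_{p^r}))`).  `q₀ : Q` is the index of the prime `p`,
`Jp` the semi-local module at `p` with the projection `πp : J ⟶ Jp`.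

`rr_reciprocity`: if `β` is a class with `INV (δ β) = 0` having the same local terms as `α` at the
places over `p` (`[APPROX]` + `[CYC]` for the auxiliary cyclic layer), if at every other place
either the component of `δ (α - β)` vanishes or the local degree of the layer `N` is divisible by
`p ^ k` (`[LOC-KILL]`), if the Hasse principle holds on `N` and reciprocity holds for the cyclic
classes of `𝒢 ⧸ N` which are semi-local norms at `p` (`[CYC]` for `m = p ^ r`), then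
`INV (δ α) = 0`.
-/

set_option autoImplicit false

namespace Fermat.Agent.S55

open CategoryTheory groupCohomology

section generic

variable {k Γ : Type} [CommRing k] [Group Γ] {A J Jp : Rep.{0} k Γ} (δ : A ⟶ J) (πp : J ⟶ Jp)

/-- The coefficient map `H²(H, A) ⟶ H²(H, J)` on the layer `H`. -/
noncomputable abbrev rr_push (H : Subgroup Γ) :
    groupCohomology (tt_res H A) 2 ⟶ groupCohomology (tt_res H J) 2 :=
  tt_coeffMap ((Rep.resFunctor H.subtype).map δ) 2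

theorem rr_push_comp (H : Subgroup Γ) :
    rr_push δ H ≫ rr_push πp H = rr_push (δ ≫ πp) H := by
  rw [← map_comp]
  exact map_congr rfl rfl 2

/-- Coefficient maps commute with conjugation–restriction. -/
theorem rr_push_cj (g : Γ) {K H : Subgroup Γ} (hK : ∀ x ∈ K, g * x * g⁻¹ ∈ H) :
    rr_push δ H ≫ rc_cj J g hK 2 = rc_cj A g hK 2 ≫ rr_push δ K := by
  unfold rc_cj
  rw [← map_comp, ← map_comp]
  refine map_congr rfl ?_ 2
  ext m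
  exact (Rep.hom_comm_apply δ g⁻¹ m).symm

end generic

section invmap

variable {k G : Type} [CommRing k] [Group G] {B C : Rep.{0} k G} (ψ : B ⟶ C)
  (N : Subgroup G) [N.Normal]

/-- The map induced on `N`-invariants, as a morphism of `G ⧸ N`-modules. -/
noncomputable def rr_invMap : B.quotientToInvariants N ⟶ C.quotientToInvariants N :=
  Rep.ofHom ⟨LinearMap.codRestrict _
      (ψ.hom.toLinearMap ∘ₗ (Representation.invariants (B.ρ.comp N.subtype)).subtype)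
      (fun x => by
        rw [Representation.mem_invariants]
        intro n
        change C.ρ (n : G) (ψ.hom (x : B.V)) = ψ.hom (x : B.V)
        rw [← Rep.hom_comm_apply ψ]
        congr 1
        exact x.2 n),
    fun q => by
      induction q using QuotientGroup.induction_on with
      | H g =>
        ext x
        exact Rep.hom_comm_apply ψ g (x : B.V)⟩

theorem rr_invMap_coe (x : (B.quotientToInvariants N).V) :
    (((rr_invMap ψ N).hom x : (C.quotientToInvariants N).V) : C.V) = ψ.hom (x : B.V) := rfl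

/-- Coefficient maps commute with inflation. -/
theorem rr_inf_push :
    ir_inf₂ B N ≫ tt_coeffMap ψ 2 = tt_coeffMap (rr_invMap ψ N) 2 ≫ ir_inf₂ C N := by
  rw [← map_comp, ← map_comp]
  exact map_congr rfl rfl 2

end invmap

section bridge

variable {k Γ : Type} [CommRing k] [Group Γ] (A : Rep.{0} k Γ) (𝒢 : Subgroup Γ) (N : Subgroup ↥𝒢)

/-- `N`, a subgroup of `𝒢`, as a subgroup of `Γ`. -/
abbrev rr_up : Subgroup Γ := N.map 𝒢.subtype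

theorem rr_up_le : rr_up 𝒢 N ≤ 𝒢 := by
  rintro _ ⟨x, -, rfl⟩
  exact x.2

/-- `N → N.map 𝒢.subtype`. -/
def rr_upHom : ↥N →* ↥(rr_up 𝒢 N) where
  toFun x := ⟨((x : ↥𝒢) : Γ), Subgroup.mem_map_of_mem _ x.2⟩
  map_one' := rfl
  map_mul' _ _ := rfl

/-- the identity of `A`, covering `rr_upHom`. -/
noncomputable def rr_upMor :
    Rep.res (rr_upHom 𝒢 N) (tt_res (rr_up 𝒢 N) A) ⟶ Rep.res N.subtype (tt_res 𝒢 A) :=
  Rep.ofHom ⟨LinearMap.id, fun _ => rfl⟩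

/-- The restriction `H²(𝒢, A) ⟶ H²(N, A)` of `ir_` factors through the restriction `rc_cj _ 1` to
`N.map 𝒢.subtype ≤ Γ`. -/
theorem rr_res_bridge :
    ir_res₂ (tt_res 𝒢 A) N =
      rc_cj A 1 (rc_one_mem (rr_up_le 𝒢 N)) 2 ≫ map (rr_upHom 𝒢 N) (rr_upMor A 𝒢 N) 2 := by
  unfold rc_cj
  rw [← map_comp]
  refine map_congr ?_ ?_ 2
  · ext x
    change ((x : ↥𝒢) : Γ) = 1 * ((x : ↥𝒢) : Γ) * 1⁻¹
    simp
  · ext m
    change m = A.ρ (1 : Γ)⁻¹ m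
    simp

end bridge

section cyc

variable {Γ : Type} [Group Γ] {p : ℕ} {A J Jm : Rep.{0} ℤ Γ} {Q : Type}
  (𝔻 : rc_InvData p J Q) (δ : A ⟶ J) (πm : J ⟶ Jm)
  (𝒢 : Subgroup Γ) (N : Subgroup ↥𝒢) [N.Normal]

/-- the push-forward of an inflated class is the inflation of the push-forward, cocycle form. -/
theorem rr_push_inf_H2π (f : cocycles₂ ((tt_res 𝒢 A).quotientToInvariants N)) :
    (rr_push δ 𝒢).hom ((ir_inf₂ (tt_res 𝒢 A) N).hom (H2π _ f)) =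
      (ir_inf₂ (tt_res 𝒢 J) N).hom (H2π _ (mapCocycles₂ (MonoidHom.id (↥𝒢 ⧸ N))
        (rr_invMap ((Rep.resFunctor 𝒢.subtype).map δ) N) f)) := by
  have e := rr_inf_push ((Rep.resFunctor 𝒢.subtype).map δ) N
  have e' := congrArg (fun F => F.hom (H2π _ f)) e
  have e2 : (tt_coeffMap (rr_invMap ((Rep.resFunctor 𝒢.subtype).map δ) N) 2).hom (H2π _ f) =
      H2π _ (mapCocycles₂ (MonoidHom.id (↥𝒢 ⧸ N))
        (rr_invMap ((Rep.resFunctor 𝒢.subtype).map δ) N) f) := by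
    have := H2π_comp_map (A := (tt_res 𝒢 A).quotientToInvariants N)
      (B := (tt_res 𝒢 J).quotientToInvariants N) (MonoidHom.id (↥𝒢 ⧸ N))
      (rr_invMap ((Rep.resFunctor 𝒢.subtype).map δ) N)
    exact congr($this f)
  rw [← e2]
  exact e'

/-- **The local term of a global cyclic class at an unramified place** (`rr_term_inf_cyc` for the
push-forward of a class of `H²(𝒢 ⧸ N, A^N)`). -/
theorem rr_term_push_inf_cyc (q : Q) (g : Γ) (U : lcu_Unr (𝔻.P q))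
    {σ : ↥𝒢 ⧸ N} {n : ℕ} (hn : 0 < n) (hσ : σ ^ n = 1)
    (hIN : U.I.subgroupOf (rr_S 𝒢 g (𝔻.D q)) ≤ rr_N 𝒢 N g (𝔻.D q))
    (φ : ↥(rr_S 𝒢 g (𝔻.D q)))
    (hφ : (((φ : ↥(rr_S 𝒢 g (𝔻.D q))) : ↥(𝔻.D q)) : ↥(𝔻.D q) ⧸ U.I) =
      ((U.frob : ↥(𝔻.D q)) : ↥(𝔻.D q) ⧸ U.I) ^ lc_resDeg U.I (rr_S 𝒢 g (𝔻.D q)).subtype)
    (hm : 0 < (rr_N 𝒢 N g (𝔻.D q)).index)
    {d r : ℕ} (hd : rr_kapQ 𝒢 N g (𝔻.D q)
      ((φ : ↥(rr_S 𝒢 g (𝔻.D q))) : ↥(rr_S 𝒢 g (𝔻.D q)) ⧸ rr_N 𝒢 N g (𝔻.D q)) = σ ^ d)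
    (hdr : d * (rr_N 𝒢 N g (𝔻.D q)).index = n * r)
    (f : cocycles₂ ((tt_res 𝒢 A).quotientToInvariants N)) (c₀ : ℤ)
    (hc₀ : U.v ((𝔻.pr q).hom (J.ρ g⁻¹ (δ.hom
        ((cy_repSum ((tt_res 𝒢 A).quotientToInvariants N) σ n
          (f : (↥𝒢 ⧸ N) × (↥𝒢 ⧸ N) → ((tt_res 𝒢 A).quotientToInvariants N).V) :
          ((tt_res 𝒢 A).quotientToInvariants N).V) : A.V)))) =
      ((Nat.card ↥(U.I.subgroupOf (rr_S 𝒢 g (𝔻.D q))) : ℕ) : ℤ) * c₀) :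
    rc_term 𝔻 q 𝒢 g ((rr_push δ 𝒢).hom ((ir_inf₂ (tt_res 𝒢 A) N).hom (H2π _ f))) =
      cy_frac n ((d : ℤ) * c₀) := by
  rw [rr_push_inf_H2π]
  refine rr_term_inf_cyc 𝔻 𝒢 N q g U hn hσ hIN φ hφ hm hd hdr _ c₀ ?_
  rw [rr_repSum_mapCocycles₂]
  exact hc₀

/-- A class whose image in the semi-local module `Jm` vanishes has no components at the index
`qm` of the modulus (`𝔻.pr qm` factors through `πm`). -/
theorem rr_comp_eq_zero_of_semilocal (qm : Q) (pr' : tt_res (𝔻.D qm) Jm ⟶ 𝔻.X qm)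
    (hfac : (Rep.resFunctor (𝔻.D qm).subtype).map πm ≫ pr' = 𝔻.pr qm)
    (z : groupCohomology (tt_res 𝒢 J) 2) (hz : (rr_push πm 𝒢).hom z = 0) (g : Γ) :
    rc_comp 𝔻 qm 𝒢 g z = 0 := by
  have h1 : rc_loc (𝔻.pr qm) (rc_conj g 𝒢) 2 =
      rr_push πm (rc_conj g 𝒢) ≫ rc_loc pr' (rc_conj g 𝒢) 2 := by
    unfold rc_loc
    rw [← map_comp, ← hfac]
    exact map_congr rfl rfl 2
  have h2 : rc_cj J g (rc_conj_spec g 𝒢) 2 ≫ rc_loc (𝔻.pr qm) (rc_conj g 𝒢) 2 =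
      rr_push πm 𝒢 ≫ rc_cj Jm g (rc_conj_spec g 𝒢) 2 ≫ rc_loc pr' (rc_conj g 𝒢) 2 := by
    rw [h1, ← Category.assoc, ← rr_push_cj, Category.assoc]
  change (rc_cj J g (rc_conj_spec g 𝒢) 2 ≫ rc_loc (𝔻.pr qm) (rc_conj g 𝒢) 2).hom z = 0
  rw [h2]
  change (rc_cj Jm g (rc_conj_spec g 𝒢) 2 ≫ rc_loc pr' (rc_conj g 𝒢) 2).hom
    ((rr_push πm 𝒢).hom z) = 0
  rw [hz, map_zero]

/-- A cyclic class which is a semi-local norm at the modulus has no components there. -/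
theorem rr_comp_push_inf_eq_zero_of_norm (qm : Q) (pr' : tt_res (𝔻.D qm) Jm ⟶ 𝔻.X qm)
    (hfac : (Rep.resFunctor (𝔻.D qm).subtype).map πm ≫ pr' = 𝔻.pr qm)
    {σ : ↥𝒢 ⧸ N} {n : ℕ} (hn : 0 < n) (ho : orderOf σ = n)
    (hgen : ∀ g : ↥𝒢 ⧸ N, g ∈ Subgroup.zpowers σ)
    (f : cocycles₂ ((tt_res 𝒢 A).quotientToInvariants N))
    (hnorm : ∃ b : ((tt_res 𝒢 Jm).quotientToInvariants N).V,
      cy_repNorm ((tt_res 𝒢 Jm).quotientToInvariants N) σ n b =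
        (rr_invMap ((Rep.resFunctor 𝒢.subtype).map (δ ≫ πm)) N).hom
          (cy_repSum ((tt_res 𝒢 A).quotientToInvariants N) σ n
            (f : (↥𝒢 ⧸ N) × (↥𝒢 ⧸ N) → ((tt_res 𝒢 A).quotientToInvariants N).V)))
    (g : Γ) :
    rc_comp 𝔻 qm 𝒢 g ((rr_push δ 𝒢).hom ((ir_inf₂ (tt_res 𝒢 A) N).hom (H2π _ f))) = 0 := by
  apply rr_comp_eq_zero_of_semilocal 𝔻 πm 𝒢 qm pr' hfac
  obtain ⟨b, hb⟩ := hnorm
  have h1 := rr_cyc_loc_eq_zero_of_norm hn ho hgen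
    (rr_invMap ((Rep.resFunctor 𝒢.subtype).map (δ ≫ πm)) N) f b hb
  have e := rr_inf_push ((Rep.resFunctor 𝒢.subtype).map (δ ≫ πm)) N
  have e' := congrArg (fun F => F.hom (H2π _ f)) e
  have h2 : (rr_push (δ ≫ πm) 𝒢).hom ((ir_inf₂ (tt_res 𝒢 A) N).hom (H2π _ f)) = 0 := by
    refine e'.trans ?_
    change (ir_inf₂ (tt_res 𝒢 Jm) N).hom
      ((tt_coeffMap (rr_invMap ((Rep.resFunctor 𝒢.subtype).map (δ ≫ πm)) N) 2).hom (H2π _ f)) = 0
    rw [show (tt_coeffMap (rr_invMap ((Rep.resFunctor 𝒢.subtype).map (δ ≫ πm)) N) 2).hom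
      (H2π _ f) = 0 from h1, map_zero]
  rw [← rr_push_comp] at h2
  exact h2

end cyc

section cycrecip

variable {Γ : Type} [Group Γ] [Finite Γ] {p : ℕ} [Fact p.Prime] {A J Jm : Rep.{0} ℤ Γ} {Q : Type}
  (𝔻 : rc_InvData p J Q) (hfin : rc_FinSupp 𝔻) (δ : A ⟶ J) (πm : J ⟶ Jm)
  (𝒢 : Subgroup Γ) (N : Subgroup ↥𝒢) [N.Normal]

open MulAction in
omit [Fact p.Prime] in
/-- **Reciprocity on a cyclic layer** `𝒢 ⧸ N = ⟨σ⟩` whose ramification sits over the index `qm`: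
a cyclic class which is a semi-local norm at `qm` and whose local terms at the other places are
`x_{q,o} / n` (`rr_term_push_inf_cyc`) has total invariant `0` as soon as `σ ^ (∑ x_{q,o}) = 1`
(cyclotomic–cyclic reciprocity `rc_ad_ccr`). -/
theorem rr_cyc_recip (qm : Q) (pr' : tt_res (𝔻.D qm) Jm ⟶ 𝔻.X qm)
    (hfac : (Rep.resFunctor (𝔻.D qm).subtype).map πm ≫ pr' = 𝔻.pr qm)
    {σ : ↥𝒢 ⧸ N} {n : ℕ} (hn : 0 < n) (ho : orderOf σ = n)
    (hgen : ∀ g : ↥𝒢 ⧸ N, g ∈ Subgroup.zpowers σ)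
    (f : cocycles₂ ((tt_res 𝒢 A).quotientToInvariants N))
    (hnorm : ∃ b : ((tt_res 𝒢 Jm).quotientToInvariants N).V,
      cy_repNorm ((tt_res 𝒢 Jm).quotientToInvariants N) σ n b =
        (rr_invMap ((Rep.resFunctor 𝒢.subtype).map (δ ≫ πm)) N).hom
          (cy_repSum ((tt_res 𝒢 A).quotientToInvariants N) σ n
            (f : (↥𝒢 ⧸ N) × (↥𝒢 ⧸ N) → ((tt_res 𝒢 A).quotientToInvariants N).V)))
    (x : ∀ q : Q, orbitRel.Quotient ↥𝒢 (Γ ⧸ 𝔻.D q) → ℤ)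
    (hx : ∀ q, q ≠ qm → ∀ o, rc_term 𝔻 q 𝒢 (rc_rep (𝔻.D q) 𝒢 o)
      ((rr_push δ 𝒢).hom ((ir_inf₂ (tt_res 𝒢 A) N).hom (H2π _ f))) = cy_frac n (x q o))
    (hxm : ∀ o, x qm o = 0)
    (hsupp : {q : Q | ∃ o, x q o ≠ 0}.Finite)
    (hprod : σ ^ (∑ᶠ q, ∑ᶠ o, x q o) = 1) :
    rc_INV 𝔻 hfin 𝒢 ((rr_push δ 𝒢).hom ((ir_inf₂ (tt_res 𝒢 A) N).hom (H2π _ f))) = 0 := by
  classical
  refine rr_INV_eq_zero 𝔻 hfin hn ho 𝒢 _ x (fun q o => ?_) hsupp hprod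
  by_cases hq : q = qm
  · subst hq
    rw [rc_term_apply, rr_comp_push_inf_eq_zero_of_norm 𝔻 δ πm 𝒢 N q pr' hfac hn ho hgen f hnorm,
      map_zero, hxm, map_zero]
  · exact hx q hq o

end cycrecip

section main

variable {Γ : Type} [Group Γ] [Finite Γ] {p : ℕ} [Fact p.Prime] {A J Jp : Rep.{0} ℤ Γ} {Q : Type}
  (𝔻 : rc_InvData p J Q) (hfin : rc_FinSupp 𝔻) (δ : A ⟶ J) (πp : J ⟶ Jp) (q₀ : Q)
  (𝒢 : Subgroup Γ) (N : Subgroup ↥𝒢) [N.Normal]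

/-- **The reciprocity chase.** -/
theorem rr_reciprocity {σ : ↥𝒢 ⧸ N} {n : ℕ} (hn : 0 < n) (ho : orderOf σ = n)
    (hgen : ∀ g : ↥𝒢 ⧸ N, g ∈ Subgroup.zpowers σ)
    -- the layer `N`: Hasse principle, `H¹(N, C) = 0`, Hilbert 90
    (hHasse : rr_Hasse 𝔻 (rr_up 𝒢 N))
    (hinj : Function.Injective (rr_push δ (rr_up 𝒢 N)).hom)
    (hH90 : Subsingleton (groupCohomology (Rep.res N.subtype (tt_res 𝒢 A)) 1))
    -- the semi-local module at `q₀`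
    (hSL : ∀ z : groupCohomology (tt_res 𝒢 J) 2, (∀ g, rc_comp 𝔻 q₀ 𝒢 g z = 0) →
      (rr_push πp 𝒢).hom z = 0)
    (hH90p : Subsingleton (groupCohomology (Rep.res N.subtype (tt_res 𝒢 Jp)) 1))
    -- reciprocity on the cyclic layer `𝒢 ⧸ N` for classes that are semi-local norms at `q₀`
    (hCYC : ∀ f : cocycles₂ ((tt_res 𝒢 A).quotientToInvariants N),
      (∃ b : ((tt_res 𝒢 Jp).quotientToInvariants N).V,
        cy_repNorm ((tt_res 𝒢 Jp).quotientToInvariants N) σ n b =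
          (rr_invMap ((Rep.resFunctor 𝒢.subtype).map (δ ≫ πp)) N).hom
            (cy_repSum ((tt_res 𝒢 A).quotientToInvariants N) σ n
              (f : (↥𝒢 ⧸ N) × (↥𝒢 ⧸ N) → ((tt_res 𝒢 A).quotientToInvariants N).V))) →
      rc_INV 𝔻 hfin 𝒢 ((rr_push δ 𝒢).hom ((ir_inf₂ (tt_res 𝒢 A) N).hom (H2π _ f))) = 0)
    -- the classes
    (α β : groupCohomology (tt_res 𝒢 A) 2) {k : ℕ} (hα : p ^ k • α = 0) (hβ : p ^ k • β = 0)
    (hβINV : rc_INV 𝔻 hfin 𝒢 ((rr_push δ 𝒢).hom β) = 0)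
    (happrox : ∀ g, rc_term 𝔻 q₀ 𝒢 g ((rr_push δ 𝒢).hom α) =
      rc_term 𝔻 q₀ 𝒢 g ((rr_push δ 𝒢).hom β))
    (hkill : ∀ q g, q ≠ q₀ → rc_comp 𝔻 q 𝒢 g ((rr_push δ 𝒢).hom (α - β)) = 0 ∨
      p ^ k ∣ rc_idx (𝔻.D q) (rr_up 𝒢 N) 𝒢 g) :
    rc_INV 𝔻 hfin 𝒢 ((rr_push δ 𝒢).hom α) = 0 := by
  classical
  set γ := α - β with hγ
  have hγk : p ^ k • γ = 0 := by rw [hγ, smul_sub, hα, hβ, sub_zero]
  have hγk' : p ^ k • (rr_push δ 𝒢).hom γ = 0 := by rw [← map_nsmul, hγk, map_zero]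
  -- the components over `q₀` vanish
  have h0 : ∀ g, rc_comp 𝔻 q₀ 𝒢 g ((rr_push δ 𝒢).hom γ) = 0 := by
    intro g
    have hpp : tt_IsPPrimary p (rc_comp 𝔻 q₀ 𝒢 g ((rr_push δ 𝒢).hom γ)) :=
      rc_comp_isPPrimary 𝔻 q₀ 𝒢 g ⟨k, hγk'⟩
    apply (𝔻.P q₀).inv_inj _ _ hpp
    have := happrox g
    rw [rc_term_apply, rc_term_apply] at this
    rw [hγ, map_sub, map_sub, map_sub, this, sub_self]
  -- [LOC-KILL]
  have hres : (rc_res J (rr_up_le 𝒢 N)).hom ((rr_push δ 𝒢).hom γ) = 0 := by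
    apply rr_res_eq_zero 𝔻 (rr_up_le 𝒢 N) hHasse _ hγk'
    intro q g
    by_cases hq : q = q₀
    · subst hq
      exact Or.inl (h0 g)
    · exact hkill q g hq
  -- descend to `A`
  have hresA : (rc_cj A 1 (rc_one_mem (rr_up_le 𝒢 N)) 2).hom γ = 0 := by
    apply hinj
    rw [map_zero]
    have e := rr_push_cj δ 1 (rc_one_mem (rr_up_le 𝒢 N))
    have e' := congrArg (fun F => F.hom γ) e
    exact e'.symm.trans hres
  have hir : (ir_res₂ (tt_res 𝒢 A) N).hom γ = 0 := by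
    rw [rr_res_bridge]
    change (map (rr_upHom 𝒢 N) (rr_upMor A 𝒢 N) 2).hom
      ((rc_cj A 1 (rc_one_mem (rr_up_le 𝒢 N)) 2).hom γ) = 0
    rw [hresA, map_zero]
  obtain ⟨θ, hθ⟩ := ir_H2InfRes_exact' (tt_res 𝒢 A) N hH90 γ hir
  induction θ using H2_induction_on with | h f =>
  -- the cyclic class is a semi-local norm at `q₀`
  have hnorm : ∃ b : ((tt_res 𝒢 Jp).quotientToInvariants N).V,
      cy_repNorm ((tt_res 𝒢 Jp).quotientToInvariants N) σ n b =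
        (rr_invMap ((Rep.resFunctor 𝒢.subtype).map (δ ≫ πp)) N).hom
          (cy_repSum ((tt_res 𝒢 A).quotientToInvariants N) σ n
            (f : (↥𝒢 ⧸ N) × (↥𝒢 ⧸ N) → ((tt_res 𝒢 A).quotientToInvariants N).V)) := by
    have h1 : (rr_push πp 𝒢).hom ((rr_push δ 𝒢).hom γ) = 0 := hSL _ h0
    have h2 : (rr_push (δ ≫ πp) 𝒢).hom γ = 0 := by
      rw [← rr_push_comp]
      exact h1
    rw [← hθ] at h2
    have e := rr_inf_push ((Rep.resFunctor 𝒢.subtype).map (δ ≫ πp)) N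
    have e' := congrArg (fun F => F.hom (H2π _ f)) e
    have h3 : (ir_inf₂ (tt_res 𝒢 Jp) N).hom
        ((tt_coeffMap (rr_invMap ((Rep.resFunctor 𝒢.subtype).map (δ ≫ πp)) N) 2).hom
          (H2π _ f)) = 0 := e'.symm.trans h2
    have h4 := ir_H2InfRes_injective (tt_res 𝒢 Jp) N hH90p (h3.trans (map_zero _).symm)
    exact rr_cyc_norm_of_loc_eq_zero hn ho hgen _ f h4
  have hθINV := hCYC f hnorm
  rw [hθ] at hθINV
  have hsum : α = γ + β := by rw [hγ]; abel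
  rw [hsum, map_add, map_add, hθINV, hβINV, add_zero]

/-- **Sylow reduction**: it suffices to prove the vanishing of the total invariant of a
`p`-primary class after restriction to a subgroup of index prime to `p`. -/
theorem rr_INV_eq_zero_of_res {H' H : Subgroup Γ} (hle : H' ≤ H)
    (hidx : ¬ p ∣ H'.relIndex H) (z : groupCohomology (tt_res H J) 2) (hz : tt_IsPPrimary p z)
    (h : rc_INV 𝔻 hfin H' ((rc_res J hle).hom z) = 0) : rc_INV 𝔻 hfin H z = 0 := by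
  rw [rc_INV_res 𝔻 hfin hle z hz] at h
  obtain ⟨k, hk⟩ := hz
  have hk' : p ^ k • rc_INV 𝔻 hfin H z = 0 := by rw [← map_nsmul, hk, map_zero]
  have h1 : addOrderOf (rc_INV 𝔻 hfin H z) ∣ p ^ k := addOrderOf_dvd_of_nsmul_eq_zero hk'
  have h2 : addOrderOf (rc_INV 𝔻 hfin H z) ∣ H'.relIndex H := addOrderOf_dvd_of_nsmul_eq_zero h
  have hcop : Nat.Coprime (p ^ k) (H'.relIndex H) :=
    Nat.Coprime.pow_left k ((Nat.Prime.coprime_iff_not_dvd (Fact.out : p.Prime)).2 hidx)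
  have h3 : addOrderOf (rc_INV 𝔻 hfin H z) = 1 :=
    Nat.eq_one_of_dvd_coprimes hcop h1 h2
  exact AddMonoid.addOrderOf_eq_one_iff.1 h3

end main

end Fermat.Agent.S55
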