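import Fermat.Agent.S55.Recip.TChangeField

/-!
# S55 / G4 (E): the `T`-change, term by term (prefix `rc_tq_`)

The comparison of `Recip/TChangeIdele.lean` at the level of the single local terms `rc_term`
(needed by the term-by-term computations of the reciprocity law):

* `rc_tq_term_morAt`: for a place-wise morphism of local data `rc_tq_MorAt 𝔻' 𝔻 id φ q' q` over
  the same group, `rc_term 𝔻' q' K g (φ_* z) = rc_term 𝔻 q K g z` for `p`-primary `z`;
* `rc_tq_term_tchange`: the `T`-change over the common index type;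
* `rc_tq_term_tchange_fd` / `_diag`: for the field data `rc_fd_data`, at the index of a rational
  prime `q` (`rc_fd_idx`).
-/

set_option autoImplicit false
set_option linter.unusedSectionVars false
set_option linter.style.haveILetI false

open scoped TensorProduct Pointwise
open ExtCitation NumberField IsDedekindDomain CategoryTheory groupCohomology

namespace Fermat.Agent.S55

local notation "Qbar" => AlgebraicClosure ℚ

noncomputable section

/-! ### Term-level comparison for a coefficient change over the same group -/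

section generic

variable {k Γ : Type} [CommRing k] [Group Γ] {J J' : Rep.{0} k Γ}

/-- the map along `(id, φ)` on a layer is the coefficient map -/
theorem rc_tq_inf_map_id (φ : J ⟶ J') (K : Subgroup Γ)
    (hK : ∀ x ∈ K, (MonoidHom.id Γ) x ∈ K) (n : ℕ) :
    rc_inf_map (MonoidHom.id Γ) φ hK n = tt_coeffMap ((Rep.resFunctor K.subtype).map φ) n := by
  unfold rc_inf_map
  refine map_congr ?_ rfl n
  ext x
  rfl

end generic

section term

variable {Γ : Type} [Group Γ] [Finite Γ] {p : ℕ} [Fact p.Prime] {J J' : Rep.{0} ℤ Γ}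
  {Q Q' : Type} {𝔻' : rc_InvData p J' Q'} {𝔻 : rc_InvData p J Q} {φ : J ⟶ J'}

/-- **One local term and a coefficient change over the same group**, place by place. -/
theorem rc_tq_term_morAt {q' : Q'} {q : Q} (h : rc_tq_MorAt 𝔻' 𝔻 (MonoidHom.id Γ) φ q' q)
    (K : Subgroup Γ) (g : Γ) (z : groupCohomology (tt_res K J) 2) (hz : tt_IsPPrimary p z) :
    rc_term 𝔻' q' K g ((tt_coeffMap ((Rep.resFunctor K.subtype).map φ) 2).hom z) =
      rc_term 𝔻 q K g z := by
  rw [rc_term_apply, rc_term_apply]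
  have hsub : ∀ x ∈ (rc_conj g K).subgroupOf (𝔻'.D q'),
      rc_inf_πq (MonoidHom.id Γ) h.hD x ∈ (rc_conj g K).subgroupOf (𝔻.D q) := by
    intro x hx
    exact hx
  have hE : (rc_conj g K).subgroupOf (𝔻'.D q') =
      ((rc_conj g K).subgroupOf (𝔻.D q)).comap (rc_inf_πq (MonoidHom.id Γ) h.hD) := by
    ext x
    rfl
  have hK : ∀ x ∈ K, (MonoidHom.id Γ) x ∈ K := fun _ hx => hx
  have key := rc_inf_comp (MonoidHom.id Γ) φ (rc_inf_πq_mem (MonoidHom.id Γ) h.hD) (𝔻.pr q)
    (𝔻'.pr q') h.ψ h.sq g (H₁ := K) (K₁ := rc_conj g K) (H := K) (K := rc_conj g K)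
    hK (rc_conj_spec g K) (rc_conj_spec g K) hsub 2
  have h3 : rc_comp 𝔻' q' K g ((tt_coeffMap ((Rep.resFunctor K.subtype).map φ) 2).hom z) =
      (rc_inf_map (rc_inf_πq (MonoidHom.id Γ) h.hD) h.ψ hsub 2).hom (rc_comp 𝔻 q K g z) := by
    rw [← rc_tq_inf_map_id φ K hK 2]
    exact congrArg (fun f => f.hom z) key
  rw [h3]
  exact rc_inf_pcm_inv (𝔻.P q) (𝔻'.P q') (rc_inf_πq (MonoidHom.id Γ) h.hD)
    (rc_inf_πq_surjective (MonoidHom.id Γ) h.hD) h.ψ h.inv hE hsub _
    (rc_comp_isPPrimary 𝔻 q K g hz)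

end term

section idele

variable {p : ℕ} [Fact p.Prime] {S T : Finset Nat.Primes} {L : IntermediateField ℚ Qbar}
  [FiniteDimensional ℚ L] [Normal ℚ L] [NumberField L]
  {𝔻oT : rc_InvData p (id_JRep T ↥L) {q : Nat.Primes // q ∉ T}}
  {𝔻oS : rc_InvData p (id_JRep S ↥L) {q : Nat.Primes // q ∉ S}}

/-- **(E), term by term** (over the common index type). -/
theorem rc_tq_term_tchange (hST : S ⊆ T) (hL : L.IsUnramifiedOutside S)
    (OT : ∀ u, rc_tq_OutPlace 𝔻oT u u.1 u.2) (OS : ∀ u, rc_tq_OutPlace 𝔻oS u u.1 u.2)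
    (q₀ : rc_tq_Idx S T) (K : Subgroup (↥L ≃ₐ[ℚ] ↥L)) (g : ↥L ≃ₐ[ℚ] ↥L)
    (z : groupCohomology (tt_res K (id_JRep T ↥L)) 2) (hz : tt_IsPPrimary p z) :
    rc_term (rc_tc_sum (rc_ii_data p S L) 𝔻oS) (rc_tq_fS hST q₀) K g
        ((tt_coeffMap ((Rep.resFunctor K.subtype).map (icm_JRep ↥L hST)) 2).hom z) =
      rc_term (rc_tc_sum (rc_ii_data p T L) 𝔻oT) (rc_tq_fT hST q₀) K g z := by
  haveI : Finite (↥L ≃ₐ[ℚ] ↥L) := inferInstance
  exact rc_tq_term_morAt (rc_tq_morAtAll hST hL OT OS q₀) K g z hz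

end idele

section field

variable {T T' : Finset Nat.Primes} (p : ℕ) [Fact p.Prime]

/-- **(E) for the field data, term by term**: the local term at the rational prime `q`. -/
theorem rc_tq_term_tchange_fd (hTT' : T ⊆ T') (b : ia_Lev T) (q : Nat.Primes)
    (K : Subgroup b.Γ) (g : b.Γ) (z : groupCohomology (tt_res K (id_JRep T' ↥b.L)) 2)
    (hz : tt_IsPPrimary p z) :
    rc_term (rc_fd_data p b) (rc_fd_idx T q) K g
        ((tt_coeffMap ((Rep.resFunctor K.subtype).map (icm_JRep ↥b.L hTT')) 2).hom z) =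
      rc_term (rc_fd_data p (b.mono hTT')) (rc_fd_idx T' q) K g z := by
  have key := fun q₀ => rc_tq_term_tchange (p := p) hTT' b.unr
    (fun u => rc_tq_outPlace_fd p (b.mono hTT') u) (fun u => rc_tq_outPlace_fd p b u) q₀ K g z hz
  by_cases h1 : q ∈ T
  · rw [rc_fd_idx_of_mem h1, rc_fd_idx_of_mem (hTT' h1)]
    exact key (.inl ⟨q, h1⟩)
  · by_cases h2 : q ∈ T'
    · rw [rc_fd_idx_of_notMem h1, rc_fd_idx_of_mem h2]
      exact key (.inr (.inl ⟨q, h2, h1⟩))
    · rw [rc_fd_idx_of_notMem h1, rc_fd_idx_of_notMem h2]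
      exact key (.inr (.inr ⟨q, h2⟩))

/-- the same on the principal ideles -/
theorem rc_tq_term_tchange_fd_diag (hTT' : T ⊆ T') (b : ia_Lev T) (q : Nat.Primes)
    (K : Subgroup b.Γ) (g : b.Γ) (u : groupCohomology (tt_res K (id_KRep ↥b.L)) 2)
    (hu : tt_IsPPrimary p u) :
    rc_term (rc_fd_data p b) (rc_fd_idx T q) K g
        ((tt_coeffMap ((Rep.resFunctor K.subtype).map (id_diagRep T ↥b.L)) 2).hom u) =
      rc_term (rc_fd_data p (b.mono hTT')) (rc_fd_idx T' q) K g
        ((tt_coeffMap ((Rep.resFunctor K.subtype).map (id_diagRep T' ↥b.L)) 2).hom u) := by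
  have hz : tt_IsPPrimary p
      ((tt_coeffMap ((Rep.resFunctor K.subtype).map (id_diagRep T' ↥b.L)) 2).hom u) :=
    tt_isPPrimary_map
      (tt_coeffMap ((Rep.resFunctor K.subtype).map (id_diagRep T' ↥b.L)) 2).hom.toAddMonoidHom hu
  have h1 := rc_tq_term_tchange_fd p hTT' b q K g _ hz
  have h2 := rc_tq_coeff_comp (id_diagRep T' ↥b.L) (icm_JRep ↥b.L hTT') K 2 u
  rw [icm_diagRep_JRep] at h2
  rw [h2]
  exact h1

end field

end

end Fermat.Agent.S55
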