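/-
S55 / G4 (C), leaf [LC]: change of level (and of the set of primes) for the local terms of a
principal idele class.
* `rc_lv_place` : the canonical places are compatible with restriction and conjugation;
* `rc_lv_term_inf` / `rc_lv_INV_inf` : for field levels `a ≤ b` (same `T`), the local terms (resp. the
  total invariant) of `δ_*(inf u)` at level `b` are those of `δ_* u` at level `a`;
* `rc_lv_term` / `rc_lv_INV` : the same for `T ⊆ T'`, `b` a level for `T` and `Ω ≥ b` a level for
  `T'` (inflation at `T'` composed with helper28's `T`-change `rc_tq_term_tchange_fd_diag` /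
  `rc_tq_INV_tchange_fd_diag` at the level `b`).  The layer `K` is taken in
  `Subgroup (b.mono hTT').Γ` (same type as `Subgroup b.Γ` up to unfolding `ia_Lev.mono`; a
  `K : Subgroup b.Γ` can be passed directly).
Owner: helper19.  Prefix `rc_lv_`.
-/
import Fermat.Agent.S55.Recip.FieldData
import Fermat.Agent.S55.Recip.DiagInf
import Fermat.Agent.S55.Recip.TChangePlace
import Fermat.Agent.S55.Recip.TChangeTerm
import Fermat.Agent.S55.Recip.Reciprocity

set_option autoImplicit false
set_option linter.unusedSectionVars false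
set_option linter.style.haveILetI false

open scoped TensorProduct Pointwise
open NumberField groupCohomology CategoryTheory IsDedekindDomain

namespace Fermat.Agent.S55

local notation "Qbar" => AlgebraicClosure ℚ

noncomputable section

section sameT

variable {T : Finset Nat.Primes}

/-! ### Places -/

/-- **The canonical places are compatible with restriction and conjugation.** -/
theorem rc_lv_place {a b : ia_Lev T} (h : a ≤ b) (q : Nat.Primes) (g : b.Γ) :
    letI := ia_algebra h
    id_under ↥a.L ↥b.L (g • rc_tq_w q b.L) = ia_Lev.res h g • rc_tq_w q a.L := by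
  letI := ia_algebra h
  rw [id_under_smul ↥a.L ↥b.L (ia_compat_res h g), rc_tq_w_under q a.L b.L (fun _ => rfl)]

/-- The same for two sets of primes `T ⊆ T'`. -/
theorem rc_lv_place' {T' : Finset Nat.Primes} (hTT' : T ⊆ T') (b : ia_Lev T) (Ω : ia_Lev T')
    (h : b.mono hTT' ≤ Ω) (q : Nat.Primes) (g : Ω.Γ) :
    letI := ia_algebra h
    id_under ↥(b.mono hTT').L ↥Ω.L (g • rc_tq_w q Ω.L) =
      ia_Lev.res h g • rc_tq_w q (b.mono hTT').L :=
  rc_lv_place h q g

/-! ### Inflation at a fixed set of primes -/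

variable (p : ℕ) [Fact p.Prime]

/-- **One local term of `δ_*(inf u)`**: for field levels `a ≤ b`. -/
theorem rc_lv_term_inf {a b : ia_Lev T} (h : a ≤ b) (i : rc_fd_Q T) (K : Subgroup a.Γ) (g : b.Γ)
    (u : groupCohomology (tt_res K (id_KRep ↥a.L)) 2) (hu : tt_IsPPrimary p u) :
    rc_term (rc_fd_data p b) i (K.comap (ia_Lev.res h)) g
        ((rr_push (id_diagRep T ↥b.L) (K.comap (ia_Lev.res h))).hom
          ((lc_inf₂ (lc_piSub (ia_Lev.res h) K)
            (lc_phiSub (ia_Lev.res h) (id_iaKmapRep h) K)).hom u)) =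
      rc_term (rc_fd_data p a) i K (ia_Lev.res h g)
        ((rr_push (id_diagRep T ↥a.L) K).hom u) := by
  have h1 := rc_sf_inf_coeff_apply (id_diagRep T ↥b.L) (ia_Lev.res h) (id_iaJmapRep T h)
    (id_diagRep T ↥a.L) (id_iaKmapRep h) (fun x => (id_iaJmapRep_diag h x).symm) K u
  have h2 : (rr_push (id_diagRep T ↥b.L) (K.comap (ia_Lev.res h))).hom
      ((lc_inf₂ (lc_piSub (ia_Lev.res h) K)
        (lc_phiSub (ia_Lev.res h) (id_iaKmapRep h) K)).hom u) =
      (lc_inf₂ (lc_piSub (ia_Lev.res h) K) (lc_phiSub (ia_Lev.res h) (id_iaJmapRep T h) K)).hom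
        ((rr_push (id_diagRep T ↥a.L) K).hom u) := h1
  rw [h2]
  exact rc_term_inf (rc_fd_mor p h) i K g _
    (tt_isPPrimary_map (rr_push (id_diagRep T ↥a.L) K).hom.toAddMonoidHom hu)

/-- **The total invariant of `δ_*(inf u)`**: for field levels `a ≤ b`. -/
theorem rc_lv_INV_inf {a b : ia_Lev T} (h : a ≤ b) (K : Subgroup a.Γ)
    (u : groupCohomology (tt_res K (id_KRep ↥a.L)) 2) (hu : tt_IsPPrimary p u) :
    rc_INV (rc_fd_data p b) (rc_fd_finSupp p b) (K.comap (ia_Lev.res h))
        ((rr_push (id_diagRep T ↥b.L) (K.comap (ia_Lev.res h))).hom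
          ((lc_inf₂ (lc_piSub (ia_Lev.res h) K)
            (lc_phiSub (ia_Lev.res h) (id_iaKmapRep h) K)).hom u)) =
      rc_INV (rc_fd_data p a) (rc_fd_finSupp p a) K ((rr_push (id_diagRep T ↥a.L) K).hom u) :=
  rc_di_INV_inf_ia h (rc_fd_data p b) (rc_fd_data p a) (rc_fd_mor p h) (rc_fd_finSupp p b)
    (rc_fd_finSupp p a) K u hu

end sameT

/-! ### Change of level and of the set of primes -/

section main

variable {T T' : Finset Nat.Primes} (p : ℕ) [Fact p.Prime] (hTT' : T ⊆ T') (b : ia_Lev T)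
  (Ω : ia_Lev T') (h : b.mono hTT' ≤ Ω)

/-- **(1) One local term of `δ_*(inf u)`**: `b` a level for `T`, `Ω ≥ b` a level for `T' ⊇ T`. -/
theorem rc_lv_term (q : Nat.Primes) (K : Subgroup (b.mono hTT').Γ) (g : Ω.Γ)
    (u : groupCohomology (tt_res K (id_KRep ↥(b.mono hTT').L)) 2) (hu : tt_IsPPrimary p u) :
    rc_term (rc_fd_data p Ω) (rc_fd_idx T' q) (K.comap (ia_Lev.res h)) g
        ((rr_push (id_diagRep T' ↥Ω.L) (K.comap (ia_Lev.res h))).hom
          ((lc_inf₂ (lc_piSub (ia_Lev.res h) K)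
            (lc_phiSub (ia_Lev.res h) (id_iaKmapRep h) K)).hom u)) =
      rc_term (rc_fd_data p b) (rc_fd_idx T q) K (ia_Lev.res h g)
        ((rr_push (id_diagRep T ↥b.L) K).hom u) :=
  (rc_lv_term_inf p h (rc_fd_idx T' q) K g u hu).trans
    (rc_tq_term_tchange_fd_diag p hTT' b q K (ia_Lev.res h g) u hu).symm

/-- **(2) The total invariant of `δ_*(inf u)`**. -/
theorem rc_lv_INV (K : Subgroup (b.mono hTT').Γ)
    (u : groupCohomology (tt_res K (id_KRep ↥(b.mono hTT').L)) 2) (hu : tt_IsPPrimary p u) :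
    rc_INV (rc_fd_data p Ω) (rc_fd_finSupp p Ω) (K.comap (ia_Lev.res h))
        ((rr_push (id_diagRep T' ↥Ω.L) (K.comap (ia_Lev.res h))).hom
          ((lc_inf₂ (lc_piSub (ia_Lev.res h) K)
            (lc_phiSub (ia_Lev.res h) (id_iaKmapRep h) K)).hom u)) =
      rc_INV (rc_fd_data p b) (rc_fd_finSupp p b) K ((rr_push (id_diagRep T ↥b.L) K).hom u) :=
  (rc_lv_INV_inf p h K u hu).trans (rc_tq_INV_tchange_fd_diag p hTT' b K u hu).symm

end main

end

end Fermat.Agent.S55
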