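import Fermat.Agent.S55.Recip.RecipInputs
import Fermat.Agent.S55.Idele.CyclicLayersFinal
import Fermat.Agent.S55.Idele.ShortExact
import Fermat.Agent.S55.Tate.ClassModuleSylow
import Fermat.Agent.S55.LocalCF.FieldDictA

/-!
# The reciprocity chase with `hinj` on `p`-primary classes only (G4 (C); prefix `rr_pp_`)

`rr_reciprocity` asks for the injectivity of `H²(N, A) → H²(N, J)` on the layer `N`; G3 gives
`H¹(P, C) = 0` for `p`-subgroups `P` only, and `N` need not be a `p`-group.  The chase applies the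
injectivity to one class killed by `p ^ k` only, so:

* `rr_pp_hinj`: for `0 → A → J → C → 0` with `H¹(P, C) = 0` for all `p`-subgroups `P ≤ Γ`, the map
  `H²(H, A) → H²(H, J)` is injective on `p`-primary classes, for every subgroup `H` (restrict to a
  Sylow subgroup of `H`, `rr_hinj` there, and `[H : P] • x = 0`);
* `rr_pp_reciprocity`: `rr_reciprocity` with `hinj` weakened to `p`-primary classes;
* `rr_pp_hinj_field`: the instance `0 → Lˣ → J_T(L) → C_T(L) → 0` for `L / ℚ` finite Galois inside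
  `ℚ̄`, unramified outside `T ≠ ∅`, `p` odd (G3).
-/

set_option autoImplicit false
set_option linter.style.haveILetI false
set_option linter.unusedSectionVars false

namespace Fermat.Agent.S55

open CategoryTheory groupCohomology

section hinj

variable {Γ : Type} [Group Γ] [Finite Γ] {p : ℕ} [Fact p.Prime] {A J C : Rep.{0} ℤ Γ}
  (δ : A ⟶ J) (g : J ⟶ C)

/-- coefficient maps commute with the restriction between nested subgroups. -/
theorem rr_pp_push_resSub {P H : Subgroup Γ} (h : P ≤ H) :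
    rr_push δ H ≫ tt_resSub J h 2 = tt_resSub A h 2 ≫ rr_push δ P := by
  unfold tt_resSub
  rw [← map_comp, ← map_comp]
  exact map_congr rfl rfl 2

/-- **`hinj` on `p`-primary classes**: `H²(H, A) → H²(H, J)` is injective on `p`-primary classes
when `H¹(P, C) = 0` for the `p`-subgroups `P`. -/
theorem rr_pp_hinj (w : δ ≫ g = 0) (hδ : Function.Injective δ.hom)
    (hex : ∀ x : J.V, g.hom x = 0 → ∃ y : A.V, δ.hom y = x) (hg : Function.Surjective g.hom)
    (hP1 : ∀ P : Subgroup Γ, IsPGroup p P → Subsingleton (groupCohomology (tt_res P C) 1))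
    (H : Subgroup Γ) (x : groupCohomology (tt_res H A) 2) (hx : tt_IsPPrimary p x)
    (h0 : (rr_push δ H).hom x = 0) : x = 0 := by
  classical
  -- restriction to the Sylow subgroup
  have hr : (tt_resSub A (tt_psP_le p H) 2).hom x = 0 := by
    apply rr_hinj δ g w hδ hex hg (tt_psP p H) (hP1 _ (tt_psP_isPGroup p H))
    rw [map_zero]
    have e := congrArg (fun F => F.hom x) (rr_pp_push_resSub δ (tt_psP_le p H))
    have e' : (rr_push δ (tt_psP p H)).hom ((tt_resSub A (tt_psP_le p H) 2).hom x) =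
        (tt_resSub J (tt_psP_le p H) 2).hom ((rr_push δ H).hom x) := e.symm
    rw [e', h0, map_zero]
  have e := tt_resSub_image A H ((default : Sylow p H) : Subgroup H) 2
  have hS : (groupCohomology.map ((default : Sylow p H) : Subgroup H).subtype
      (𝟙 (Rep.res ((default : Sylow p H) : Subgroup H).subtype (tt_res H A))) 2).hom x = 0 := by
    rw [e]
    have h3 : ∀ {X Y Z : ModuleCat ℤ} (f : X ⟶ Y) (g : Y ⟶ Z) (x : X),
        (f ≫ g).hom x = g.hom (f.hom x) := fun _ _ _ => rfl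
    rw [h3]
    have hr' : (tt_resSub A (tt_psImage_le H ((default : Sylow p H) : Subgroup H)) 2).hom x = 0 :=
      hr
    rw [hr', map_zero]
  have h1 := h2_index_smul_eq_zero_of_res_eq_zero (tt_res H A)
    ((default : Sylow p H) : Subgroup H) x hS
  obtain ⟨k, hk⟩ := hx
  refine tt_ps_eq_zero_of_coprime ?_ x hk h1
  exact Nat.Coprime.pow_left k ((Nat.Prime.coprime_iff_not_dvd Fact.out).2
    (default : Sylow p H).not_dvd_index)

end hinj

section main

variable {Γ : Type} [Group Γ] [Finite Γ] {p : ℕ} [Fact p.Prime] {A J Jp : Rep.{0} ℤ Γ} {Q : Type}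
  (𝔻 : rc_InvData p J Q) (hfin : rc_FinSupp 𝔻) (δ : A ⟶ J) (πp : J ⟶ Jp) (q₀ : Q)
  (𝒢 : Subgroup Γ) (N : Subgroup ↥𝒢) [N.Normal]

/-- **The reciprocity chase**, with the injectivity hypothesis on the layer `N` required for
`p`-primary classes only. -/
theorem rr_pp_reciprocity {σ : ↥𝒢 ⧸ N} {n : ℕ} (hn : 0 < n) (ho : orderOf σ = n)
    (hgen : ∀ g : ↥𝒢 ⧸ N, g ∈ Subgroup.zpowers σ)
    -- the layer `N`: Hasse principle, `H¹(N, C) = 0`, Hilbert 90
    (hHasse : rr_Hasse 𝔻 (rr_up 𝒢 N))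
    (hinj : ∀ x : groupCohomology (tt_res (rr_up 𝒢 N) A) 2, tt_IsPPrimary p x →
      (rr_push δ (rr_up 𝒢 N)).hom x = 0 → x = 0)
    (hH90 : Subsingleton (groupCohomology (Rep.res N.subtype (tt_res 𝒢 A)) 1))
    -- the semi-local module at `q₀`
    (hSL : ∀ z : groupCohomology (tt_res 𝒢 J) 2, (∀ g, rc_comp 𝔻 q₀ 𝒢 g z = 0) →
      (rr_push πp 𝒢).hom z = 0)
    (hH90p : Subsingleton (groupCohomology (Rep.res N.subtype (tt_res 𝒢 Jp)) 1))
    -- reciprocity on the cyclic layer `𝒢 ⧸ N` for classes that are semi-local norms at `q₀`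
    (hCYC : ∀ f : cocycles₂ ((tt_res 𝒢 A).quotientToInvariants N),
      (∃ b : ((tt_res 𝒢 Jp).quotientToInvariants N).V,
        cy_repNorm ((tt_res 𝒢 Jp).quotientToInvariants N) σ n b =
          (rr_invMap ((Rep.resFunctor 𝒢.subtype).map (δ ≫ πp)) N).hom
            (cy_repSum ((tt_res 𝒢 A).quotientToInvariants N) σ n
              (f : (↥𝒢 ⧸ N) × (↥𝒢 ⧸ N) → ((tt_res 𝒢 A).quotientToInvariants N).V))) →
      rc_INV 𝔻 hfin 𝒢 ((rr_push δ 𝒢).hom ((ir_inf₂ (tt_res 𝒢 A) N).hom (H2π _ f))) = 0)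
    -- the classes
    (α β : groupCohomology (tt_res 𝒢 A) 2) {k : ℕ} (hα : p ^ k • α = 0) (hβ : p ^ k • β = 0)
    (hβINV : rc_INV 𝔻 hfin 𝒢 ((rr_push δ 𝒢).hom β) = 0)
    (happrox : ∀ g, rc_term 𝔻 q₀ 𝒢 g ((rr_push δ 𝒢).hom α) =
      rc_term 𝔻 q₀ 𝒢 g ((rr_push δ 𝒢).hom β))
    (hkill : ∀ q g, q ≠ q₀ → rc_comp 𝔻 q 𝒢 g ((rr_push δ 𝒢).hom (α - β)) = 0 ∨
      p ^ k ∣ rc_idx (𝔻.D q) (rr_up 𝒢 N) 𝒢 g) :
    rc_INV 𝔻 hfin 𝒢 ((rr_push δ 𝒢).hom α) = 0 := by
  classical
  set γ := α - β with hγ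
  have hγk : p ^ k • γ = 0 := by rw [hγ, smul_sub, hα, hβ, sub_zero]
  have hγk' : p ^ k • (rr_push δ 𝒢).hom γ = 0 := by rw [← map_nsmul, hγk, map_zero]
  -- the components over `q₀` vanish
  have h0 : ∀ g, rc_comp 𝔻 q₀ 𝒢 g ((rr_push δ 𝒢).hom γ) = 0 := by
    intro g
    have hpp : tt_IsPPrimary p (rc_comp 𝔻 q₀ 𝒢 g ((rr_push δ 𝒢).hom γ)) :=
      rc_comp_isPPrimary 𝔻 q₀ 𝒢 g ⟨k, hγk'⟩
    apply (𝔻.P q₀).inv_inj _ _ hpp
    have := happrox g
    rw [rc_term_apply, rc_term_apply] at this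
    rw [hγ, map_sub, map_sub, map_sub, this, sub_self]
  -- [LOC-KILL]
  have hres : (rc_res J (rr_up_le 𝒢 N)).hom ((rr_push δ 𝒢).hom γ) = 0 := by
    apply rr_res_eq_zero 𝔻 (rr_up_le 𝒢 N) hHasse _ hγk'
    intro q g
    by_cases hq : q = q₀
    · subst hq
      exact Or.inl (h0 g)
    · exact hkill q g hq
  -- descend to `A`
  have hresA : (rc_cj A 1 (rc_one_mem (rr_up_le 𝒢 N)) 2).hom γ = 0 := by
    apply hinj _ ⟨k, by rw [← map_nsmul, hγk, map_zero]⟩
    have e := rr_push_cj δ 1 (rc_one_mem (rr_up_le 𝒢 N))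
    have e' := congrArg (fun F => F.hom γ) e
    exact e'.symm.trans hres
  have hir : (ir_res₂ (tt_res 𝒢 A) N).hom γ = 0 := by
    rw [rr_res_bridge]
    change (map (rr_upHom 𝒢 N) (rr_upMor A 𝒢 N) 2).hom
      ((rc_cj A 1 (rc_one_mem (rr_up_le 𝒢 N)) 2).hom γ) = 0
    rw [hresA, map_zero]
  obtain ⟨θ, hθ⟩ := ir_H2InfRes_exact' (tt_res 𝒢 A) N hH90 γ hir
  induction θ using H2_induction_on with | h f =>
  -- the cyclic class is a semi-local norm at `q₀`
  have hnorm : ∃ b : ((tt_res 𝒢 Jp).quotientToInvariants N).V,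
      cy_repNorm ((tt_res 𝒢 Jp).quotientToInvariants N) σ n b =
        (rr_invMap ((Rep.resFunctor 𝒢.subtype).map (δ ≫ πp)) N).hom
          (cy_repSum ((tt_res 𝒢 A).quotientToInvariants N) σ n
            (f : (↥𝒢 ⧸ N) × (↥𝒢 ⧸ N) → ((tt_res 𝒢 A).quotientToInvariants N).V)) := by
    have h1 : (rr_push πp 𝒢).hom ((rr_push δ 𝒢).hom γ) = 0 := hSL _ h0
    have h2 : (rr_push (δ ≫ πp) 𝒢).hom γ = 0 := by
      rw [← rr_push_comp]
      exact h1
    rw [← hθ] at h2
    have e := rr_inf_push ((Rep.resFunctor 𝒢.subtype).map (δ ≫ πp)) N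
    have e' := congrArg (fun F => F.hom (H2π _ f)) e
    have h3 : (ir_inf₂ (tt_res 𝒢 Jp) N).hom
        ((tt_coeffMap (rr_invMap ((Rep.resFunctor 𝒢.subtype).map (δ ≫ πp)) N) 2).hom
          (H2π _ f)) = 0 := e'.symm.trans h2
    have h4 := ir_H2InfRes_injective (tt_res 𝒢 Jp) N hH90p (h3.trans (map_zero _).symm)
    exact rr_cyc_norm_of_loc_eq_zero hn ho hgen _ f h4
  have hθINV := hCYC f hnorm
  rw [hθ] at hθINV
  have hsum : α = γ + β := by rw [hγ]; abel
  rw [hsum, map_add, map_add, hθINV, hβINV, add_zero]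

end main

/-! ### The instance for fields -/

section field

open scoped NumberField

local notation "Qbar" => AlgebraicClosure ℚ

variable (T : Finset Nat.Primes) (hT : T.Nonempty) (p : ℕ) [Fact p.Prime] (hp2 : p ≠ 2)
  (L : IntermediateField ℚ Qbar) [Normal ℚ L] [NumberField L] (hL : L.IsUnramifiedOutside T)

include hT hp2 hL

/-- **`hinj` for `0 → Lˣ → J_T(L) → C_T(L) → 0`**: the diagonal `H²(H, Lˣ) → H²(H, J_T(L))` is
injective on `p`-primary classes, for every subgroup `H` of `Gal(L/ℚ)`. -/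
theorem rr_pp_hinj_field (H : Subgroup (L ≃ₐ[ℚ] L))
    (x : groupCohomology (tt_res H (id_KRep L)) 2) (hx : tt_IsPPrimary p x)
    (h0 : (rr_push (id_diagRep T L) H).hom x = 0) : x = 0 := by
  have hse := id_ses_shortExact T L hT
  obtain ⟨h1, h2, h3⟩ := (fg_shortExact_iff (id_ses T L)).1 hse
  exact rr_pp_hinj (id_diagRep T L) (id_toCRep T L) (id_ses_zero T L) h1 h2 h3
    (fun P hP => idl_field_H1_pgroup T L hL hT p hp2 P hP) H x hx h0

/-- the same in the literal shape of the hypothesis `hinj` of `rr_pp_reciprocity`. -/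
theorem rr_pp_hinj_field_up (𝒢 : Subgroup (L ≃ₐ[ℚ] L)) (N : Subgroup ↥𝒢) :
    ∀ x : groupCohomology (tt_res (rr_up 𝒢 N) (id_KRep L)) 2, tt_IsPPrimary p x →
      (rr_push (id_diagRep T L) (rr_up 𝒢 N)).hom x = 0 → x = 0 :=
  fun x hx h0 => rr_pp_hinj_field T hT p hp2 L hL (rr_up 𝒢 N) x hx h0

end field

section h90

open scoped NumberField

variable (L : Type) [Field L] [NumberField L]

/-- **`hH90`** of `rr_reciprocity` / `rr_pp_reciprocity` for `A = Lˣ`: Hilbert 90 on the layer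
`N ≤ 𝒢 ≤ Gal(L/ℚ)`, in the literal shape. -/
theorem rr_pp_hH90_field (𝒢 : Subgroup (L ≃ₐ[ℚ] L)) (N : Subgroup ↥𝒢) :
    Subsingleton (groupCohomology (Rep.res N.subtype (tt_res 𝒢 (id_KRep L))) 1) :=
  rr_h1_up (id_KRep L) 𝒢 N 1 (fdi_H1_subsingleton (rr_up 𝒢 N))

end h90

end Fermat.Agent.S55
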