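import Mathlib

/-!
# S55 / G4 (reciprocity), abstract counting arguments (pure abelian groups)

Two diagram chases used to build the invariant maps of the idele class groups from the total
idele invariant.  All cohomology groups are abstracted to plain additive groups and the maps
between them to additive homomorphisms, so the statements are independent of carriers.

* `rc_abs_cyclic`: `HU →f HJ →g HC` exact at `HJ`, `INV : HJ → ℚ/ℤ` killing `range f`,
  `|HC|` divides `n`, and some `z₀` has `INV z₀` of order `n`.  Then `INV w = 0 → g w = 0`,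
  `range g` has exactly `n` elements.
* `rc_abs_lift`: the "same degree" comparison of a layer `G/N` with a cyclic layer `G/N'`
  inside a common top group `G`: every class of `H²(G/N, C^N)` inflates to a class coming
  from the ideles, and the induced invariant is injective and attains order `n`.
-/

set_option autoImplicit false

namespace Fermat.Agent.S55

/-- `ℚ/ℤ` (same as `tt_QZ` of `Tate/ClassModule.lean`; restated to keep this file Mathlib-only). -/
abbrev rc_QZ : Type := AddCircle (1 : ℚ)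

section Cyclic

variable {HU HJ HC : Type*} [AddCommGroup HU] [AddCommGroup HJ] [AddCommGroup HC]

/-- **Cyclic layer, counting.** -/
theorem rc_abs_cyclic (f : HU →+ HJ) (g : HJ →+ HC) (hex : ∀ z, g z = 0 → ∃ u, f u = z)
    (INV : HJ →+ rc_QZ) (hrec : ∀ u, INV (f u) = 0)
    (n : ℕ) (hn : 0 < n) [Finite HC] (hcard : Nat.card HC ∣ n)
    (z₀ : HJ) (hz₀ : addOrderOf (INV z₀) = n) :
    (∀ w, INV w = 0 → g w = 0) ∧ Nat.card g.range = n ∧
      (∀ y : HC, y ∈ g.range → ∃ m : ℕ, y = m • g z₀) := by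
  classical
  -- the induced map on `range g`
  have hwell : ∀ w w', g w = g w' → INV w = INV w' := by
    intro w w' h
    have : g (w - w') = 0 := by rw [map_sub, h, sub_self]
    obtain ⟨u, hu⟩ := hex _ this
    have := hrec u
    rw [hu, map_sub, sub_eq_zero] at this
    exact this
  -- multiples of `g z₀`
  have hord : addOrderOf (g z₀) = n := by
    apply Nat.dvd_antisymm
    · have h1 : addOrderOf (g z₀) ∣ Nat.card HC := addOrderOf_dvd_natCard _
      exact h1.trans hcard
    · rw [← hz₀]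
      apply addOrderOf_dvd_of_nsmul_eq_zero
      have h0 : g (addOrderOf (g z₀) • z₀) = g 0 := by
        rw [map_nsmul, addOrderOf_nsmul_eq_zero, map_zero]
      have := hwell _ _ h0
      rw [map_nsmul, map_zero] at this
      exact this
  have hcardHC : Nat.card HC = n := by
    apply Nat.dvd_antisymm hcard
    rw [← hord]
    exact addOrderOf_dvd_natCard _
  -- `HC` is cyclic generated by `g z₀`
  have hgen : ∀ y : HC, ∃ m : ℕ, y = m • g z₀ := by
    have hz : Nat.card (AddSubgroup.zmultiples (g z₀)) = Nat.card HC := by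
      rw [Nat.card_zmultiples, hord, hcardHC]
    have htop : AddSubgroup.zmultiples (g z₀) = ⊤ :=
      AddSubgroup.eq_top_of_card_eq _ hz
    intro y
    have hy : y ∈ AddSubgroup.zmultiples (g z₀) := by rw [htop]; trivial
    obtain ⟨k, hk⟩ := AddSubgroup.mem_zmultiples_iff.mp hy
    refine ⟨(k % (n : ℤ)).toNat, ?_⟩
    have hnz : (n : ℤ) ≠ 0 := by exact_mod_cast hn.ne'
    have hk0 : 0 ≤ k % (n : ℤ) := Int.emod_nonneg k hnz
    have h2 : ((k % (n : ℤ)).toNat : ℤ) • g z₀ = k • g z₀ := by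
      rw [Int.toNat_of_nonneg hk0]
      have hmod : k % (n : ℤ) = k - (n : ℤ) * (k / (n : ℤ)) := by
        have := Int.emod_add_mul_ediv k (n : ℤ); linarith
      rw [hmod, sub_smul, mul_smul]
      have : (n : ℤ) • ((k / (n : ℤ)) • g z₀) = 0 := by
        rw [smul_comm, natCast_zsmul, ← hord, addOrderOf_nsmul_eq_zero, smul_zero]
      rw [this, sub_zero]
    rw [← hk, ← h2, natCast_zsmul]
  have hsurj : g.range = ⊤ := by
    rw [eq_top_iff]
    intro y _
    obtain ⟨m, hm⟩ := hgen y
    exact ⟨m • z₀, by rw [map_nsmul, hm]⟩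
  refine ⟨?_, ?_, fun y _ => hgen y⟩
  · intro w hw
    obtain ⟨m, hm⟩ := hgen (g w)
    have h1 : INV w = INV (m • z₀) := hwell _ _ (by rw [map_nsmul, hm])
    rw [hw, map_nsmul] at h1
    have h2 : n ∣ m := by
      rw [← hz₀]
      exact addOrderOf_dvd_of_nsmul_eq_zero h1.symm
    obtain ⟨c, rfl⟩ := h2
    rw [hm, mul_comm, mul_smul, ← hord, addOrderOf_nsmul_eq_zero, smul_zero]
  · rw [hsurj, Nat.card_congr (AddSubgroup.topEquiv (G := HC)).toEquiv, hcardHC]

end Cyclic

section Lift

variable {HU HJ HC HU' HJ' HC' HCq HJN HCN : Type*}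
  [AddCommGroup HU] [AddCommGroup HJ] [AddCommGroup HC]
  [AddCommGroup HU'] [AddCommGroup HJ'] [AddCommGroup HC']
  [AddCommGroup HCq] [AddCommGroup HJN] [AddCommGroup HCN]

/-- **Comparison of a layer with a cyclic layer of the same degree.**
`HU, HJ, HC` are `H²(G, -)` of `U ⊆ J ↠ C`; primed groups are `H²(G/N', (-)^{N'})` for a cyclic
quotient `G/N'` of order `n`; `HCq = H²(G/N, C^N)` with `[G:N] = n`; `HJN, HCN = H²(N, -)`. -/
theorem rc_abs_lift
    (f : HU →+ HJ) (g : HJ →+ HC) (hex : ∀ z, g z = 0 → ∃ u, f u = z)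
    (f' : HU' →+ HJ') (g' : HJ' →+ HC') (hex' : ∀ z, g' z = 0 → ∃ u, f' u = z)
    (hsurj' : Function.Surjective g')
    (iU : HU' →+ HU) (iJ : HJ' →+ HJ) (iC : HC' →+ HC)
    (hfi : ∀ u, f (iU u) = iJ (f' u)) (hgi : ∀ z, g (iJ z) = iC (g' z))
    (hiC : Function.Injective iC)
    (infl : HCq →+ HC) (hinfl : Function.Injective infl) (resC : HC →+ HCN)
    (hinfres : ∀ y, resC y = 0 → ∃ x, infl x = y)
    (resJ : HJ →+ HJN) (gN : HJN →+ HCN) (hres : ∀ z, gN (resJ z) = resC (g z))
    (INV : HJ →+ rc_QZ) (hrec : ∀ u, INV (f u) = 0)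
    (n : ℕ) (hn : 0 < n)
    (INVN : HJN →+ rc_QZ) (hINVres : ∀ z, INVN (resJ z) = n • INV z)
    (hinjN : ∀ w, INVN w = 0 → gN w = 0)
    [Finite HC'] (hcard' : Nat.card HC' ∣ n) [Finite HCq] (hcardq : Nat.card HCq ∣ n)
    (z₀ : HJ') (hz₀ : addOrderOf (INV (iJ z₀)) = n) :
    (∀ x : HCq, ∃ z : HJ, g z = infl x) ∧
    (∀ (x : HCq) (z : HJ), g z = infl x → INV z = 0 → x = 0) ∧
    (∃ (x : HCq) (z : HJ), g z = infl x ∧ addOrderOf (INV z) = n) ∧
    Nat.card HCq = n := by
  classical
  -- the cyclic layer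
  have hrec' : ∀ u, (INV.comp iJ) (f' u) = 0 := by
    intro u
    rw [AddMonoidHom.comp_apply, ← hfi, hrec]
  obtain ⟨hinj', hcardrange', hgen'⟩ :=
    rc_abs_cyclic f' g' hex' (INV.comp iJ) hrec' n hn hcard' z₀ hz₀
  have hrange' : g'.range = ⊤ := AddMonoidHom.range_eq_top.mpr hsurj'
  have hcardHC' : Nat.card HC' = n := by
    rw [← hcardrange', hrange', Nat.card_congr (AddSubgroup.topEquiv (G := HC')).toEquiv]
  have hnsmul' : ∀ y' : HC', n • y' = 0 := by
    intro y'
    rw [← hcardHC']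
    exact card_nsmul_eq_zero'
  -- Step 3: `range iC ≤ range infl`
  have hle : iC.range ≤ infl.range := by
    rintro _ ⟨y', rfl⟩
    obtain ⟨z', rfl⟩ := hsurj' y'
    have h1 : g' (n • z') = 0 := by rw [map_nsmul, hnsmul']
    obtain ⟨u, hu⟩ := hex' _ h1
    have h2 : n • INV (iJ z') = 0 := by
      have := hrec (iU u)
      rw [hfi, hu, map_nsmul, map_nsmul] at this
      exact this
    have h3 : INVN (resJ (iJ z')) = 0 := by rw [hINVres, h2]
    have h4 : resC (iC (g' z')) = 0 := by
      rw [← hgi, ← hres]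
      exact hinjN _ h3
    exact hinfres _ h4
  -- cardinalities
  have hcard_iC : Nat.card iC.range = n := by
    rw [← hcardHC']
    exact (Nat.card_congr (AddMonoidHom.ofInjective hiC).toEquiv).symm
  have hcard_infl : Nat.card infl.range = Nat.card HCq :=
    (Nat.card_congr (AddMonoidHom.ofInjective hinfl).toEquiv).symm
  have : Finite infl.range := Finite.of_equiv _ (AddMonoidHom.ofInjective hinfl).toEquiv
  have hdvd : n ∣ Nat.card HCq := by
    rw [← hcard_iC, ← hcard_infl]
    exact AddSubgroup.card_dvd_of_le hle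
  have hcardq' : Nat.card HCq = n := Nat.dvd_antisymm hcardq hdvd
  have heq : iC.range = infl.range := by
    apply AddSubgroup.eq_of_le_of_card_ge hle
    rw [hcard_iC, hcard_infl, hcardq']
  -- (i)
  have hi : ∀ x : HCq, ∃ z' : HJ', g (iJ z') = infl x := by
    intro x
    have hx : infl x ∈ iC.range := by rw [heq]; exact ⟨x, rfl⟩
    obtain ⟨y', hy'⟩ := hx
    obtain ⟨z', rfl⟩ := hsurj' y'
    exact ⟨z', by rw [hgi, hy']⟩
  refine ⟨fun x => ?_, ?_, ?_, hcardq'⟩
  · obtain ⟨z', hz'⟩ := hi x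
    exact ⟨iJ z', hz'⟩
  · intro x z hz hINV
    obtain ⟨z', hz'⟩ := hi x
    obtain ⟨m, hm⟩ := hgen' (g' z') ⟨z', rfl⟩
    -- `infl x = g (iJ (m • z₀))`
    have h1 : g (z - iJ (m • z₀)) = 0 := by
      rw [map_sub, hz, ← hz', hgi, hgi, hm, map_nsmul, map_nsmul, map_nsmul, sub_self]
    obtain ⟨u, hu⟩ := hex _ h1
    have h2 : INV z = m • INV (iJ z₀) := by
      have := hrec u
      rw [hu, map_sub, sub_eq_zero, map_nsmul, map_nsmul] at this
      exact this
    rw [hINV] at h2
    have h3 : n ∣ m := by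
      rw [← hz₀]
      exact addOrderOf_dvd_of_nsmul_eq_zero h2.symm
    obtain ⟨c, rfl⟩ := h3
    have h4 : infl x = 0 := by
      rw [← hz', hgi, hm, mul_comm, mul_smul, hnsmul', smul_zero, map_zero]
    exact hinfl (by rw [h4, map_zero])
  · have hx : iC (g' z₀) ∈ infl.range := by rw [← heq]; exact ⟨_, rfl⟩
    obtain ⟨x, hx⟩ := hx
    exact ⟨x, iJ z₀, by rw [hgi, hx], hz₀⟩

end Lift

end Fermat.Agent.S55
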