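import Fermat.Agent.S55.Recip.ClassInv
import Fermat.Agent.S55.Recip.AbstractCF
import Fermat.Agent.S55.LocalCF.PClassGeneric

/-!
# S55 / G4: the hypotheses of `rc_ci_pclass` from the total invariant (prefix `rc_ch_`)

* `rc_ch_les`: the long exact sequence of a short exact sequence of representations, on a layer,
  in element form;
* `rc_ch_globForm`: a global formation (`rc_GlobForm`) from a short exact sequence
  `0 → U → J → A → 0`, local data `𝔻 : rc_InvData p J Q` and the reciprocity law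
  `INV_K (f_* u) = 0` for `p`-primary `u ∈ H²(K, U)`;
* `rc_ch_hinjN`: on a `p`-subgroup `N₀` with `|H²(N₀, A)| ∣ |N₀|` carrying a class whose total
  invariant has order `|N₀|`, a class with total invariant `0` dies in `H²(N₀, A)`;
* `rc_ch_comp_mul`: the component at the place `h g d` is conjugate to the component at `g`;
* `rc_ch_hext`: from the Hasse principle (U4) and the extension by zero (U5) for `𝔻`, and a place
  `q₀` whose decomposition group contains `N`: for every `K' ≥ N` and `p ^ k ∣ |N|` there is a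
  class of `H²(K', J)` killed by `p ^ k` whose total invariant has order `p ^ k`.
-/

set_option autoImplicit false

namespace Fermat.Agent.S55

open CategoryTheory groupCohomology Rep

/-! ### The long exact sequence on a layer -/

section les

variable {k G : Type} [CommRing k] [Group G]

theorem rc_ch_resMor_eq {J A : Rep.{0} k G} (g : J ⟶ A) (K : Subgroup G) :
    rc_ci_resMor g K = (Rep.resFunctor K.subtype).map g := rfl

/-- exactness of `Hⁿ(K, X₁) → Hⁿ(K, X₂) → Hⁿ(K, X₃)` in element form -/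
theorem rc_ch_les {X : ShortComplex (Rep.{0} k G)} (hX : X.ShortExact) (K : Subgroup G) (n : ℕ)
    (z : groupCohomology (tt_res K X.X₂) n)
    (hz : (tt_coeffMap (rc_ci_resMor X.g K) n).hom z = 0) :
    ∃ u : groupCohomology (tt_res K X.X₁) n, (tt_coeffMap (rc_ci_resMor X.f K) n).hom u = z := by
  have hK : (X.map (Rep.resFunctor K.subtype)).ShortExact :=
    (Rep.shortExact_res K.subtype).mpr hX
  have hex := groupCohomology.mapShortComplex₂_exact hK n
  rw [ShortComplex.moduleCat_exact_iff] at hex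
  exact hex z hz

end les

/-! ### `p`-primary lifts -/

section plift

/-- If `f u` is `p`-primary and `u` is torsion, then `f u = f u'` for a `p`-primary `u'`. -/
theorem rc_ch_pPart_lift {p : ℕ} [hp : Fact p.Prime] {U Z : Type*} [AddCommGroup U]
    [AddCommGroup Z] (f : U →+ Z) (u : U) {n : ℕ} (hn : 0 < n) (hu : n • u = 0)
    (hz : tt_IsPPrimary p (f u)) : ∃ u' : U, tt_IsPPrimary p u' ∧ f u' = f u := by
  obtain ⟨k, hk⟩ := hz
  set m' := ordCompl[p] n with hm'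
  have hcop : Nat.Coprime m' (p ^ k) :=
    Nat.Coprime.pow_right k ((Nat.coprime_ordCompl hp.out hn.ne').symm)
  have hNpos : 0 < p ^ k := pow_pos hp.out.pos k
  refine ⟨(m' * tt_psInvMod m' (p ^ k)) • u, ⟨n.factorization p, ?_⟩, ?_⟩
  · rw [← mul_smul, ← mul_assoc, Nat.ordProj_mul_ordCompl_eq_self n p, mul_smul, smul_comm, hu,
      smul_zero]
  · rw [map_nsmul]
    have := tt_ps_nsmul_congr (f u) hk (tt_psInvMod_spec hNpos hcop)
    rw [this, one_smul]

end plift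

/-! ### The global formation attached to local data and reciprocity -/

section glob

variable {G : Type} [Group G] [Finite G] {p : ℕ} [hp : Fact p.Prime]

omit [Finite G] in
theorem rc_ch_res_eq_resSub {k : Type} [CommRing k] (J : Rep.{0} k G) {K' K : Subgroup G}
    (hle : K' ≤ K) : rc_cj J 1 (rc_one_mem hle) 2 = tt_resSub J hle 2 := by
  unfold rc_cj tt_resSub
  refine groupCohomology.map_congr ?_ ?_ 2
  · ext x
    simp
  · ext m
    change J.ρ (1 : G)⁻¹ m = m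
    simp

/-- **The global formation** of a short exact sequence `0 → U → J → A → 0` with local data on
`J` satisfying the reciprocity law. -/
noncomputable def rc_ch_globForm {X : ShortComplex (Rep.{0} ℤ G)} (hX : X.ShortExact) {Q : Type}
    (𝔻 : rc_InvData p X.X₂ Q) (hfin : rc_FinSupp 𝔻)
    (hrec : ∀ (K : Subgroup G) (u : groupCohomology (tt_res K X.X₁) 2), tt_IsPPrimary p u →
      rc_INV 𝔻 hfin K ((tt_coeffMap (rc_ci_resMor X.f K) 2).hom u) = 0) :
    rc_GlobForm p X.X₃ where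
  J := X.X₂
  g := X.g
  INV K := rc_INV 𝔻 hfin K
  INV_res hle z hz := by
    rw [← rc_INV_res 𝔻 hfin hle z hz]
    show _ = rc_INV 𝔻 hfin _ ((rc_cj X.X₂ 1 (rc_one_mem hle) 2).hom z)
    rw [rc_ch_res_eq_resSub]
  recip K z hz h0 := by
    obtain ⟨u, rfl⟩ := rc_ch_les hX K 2 z h0
    have hcard : Nat.card K • u = 0 := h2_card_smul_eq_zero (tt_res K X.X₁) u
    obtain ⟨u', hu'p, hu'⟩ := rc_ch_pPart_lift (p := p)
      (tt_coeffMap (rc_ci_resMor X.f K) 2).hom.toAddMonoidHom u Nat.card_pos hcard hz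
    have h1 : (tt_coeffMap (rc_ci_resMor X.f K) 2).hom u =
        (tt_coeffMap (rc_ci_resMor X.f K) 2).hom u' := hu'.symm
    rw [h1]
    exact hrec K u' hu'p

@[simp] theorem rc_ch_globForm_INV {X : ShortComplex (Rep.{0} ℤ G)} (hX : X.ShortExact)
    {Q : Type} (𝔻 : rc_InvData p X.X₂ Q) (hfin : rc_FinSupp 𝔻)
    (hrec : ∀ (K : Subgroup G) (u : groupCohomology (tt_res K X.X₁) 2), tt_IsPPrimary p u →
      rc_INV 𝔻 hfin K ((tt_coeffMap (rc_ci_resMor X.f K) 2).hom u) = 0) (K : Subgroup G) :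
    (rc_ch_globForm hX 𝔻 hfin hrec).INV K = rc_INV 𝔻 hfin K := rfl

end glob

/-! ### `hinjN` -/

section hinj

variable {G : Type} [Group G] [Finite G] {p : ℕ} [hp : Fact p.Prime] {A : Rep.{0} ℤ G}
  (𝔉 : rc_GlobForm p A)

/-- every class of a `p`-subgroup is `p`-primary -/
theorem rc_ch_isPPrimary_of_pgroup {k : Type} [CommRing k] (X : Rep.{0} k G) (N₀ : Subgroup G)
    (hN : IsPGroup p N₀) (z : groupCohomology (tt_res N₀ X) 2) : tt_IsPPrimary p z := by
  obtain ⟨n, hn⟩ := IsPGroup.iff_card.1 hN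
  exact ⟨n, by rw [← hn]; exact h2_card_smul_eq_zero (tt_res N₀ X) z⟩

/-- **`hinjN`**: counting on a `p`-subgroup with a class of full order. -/
theorem rc_ch_hinjN (N₀ : Subgroup G) (hN : IsPGroup p N₀)
    (hfin : Finite (groupCohomology (tt_res N₀ A) 2))
    (hcard : Nat.card (groupCohomology (tt_res N₀ A) 2) ∣ Nat.card N₀)
    (z₀ : groupCohomology (tt_res N₀ 𝔉.J) 2) (hz₀ : addOrderOf (𝔉.INV N₀ z₀) = Nat.card N₀)
    (z : groupCohomology (tt_res N₀ 𝔉.J) 2) (h0 : 𝔉.INV N₀ z = 0) : (𝔉.gK N₀).hom z = 0 := by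
  let g : groupCohomology (tt_res N₀ 𝔉.J) 2 →+ groupCohomology (tt_res N₀ A) 2 :=
    (𝔉.gK N₀).hom.toAddMonoidHom
  have h := rc_abs_cyclic (g.ker.subtype) g (fun z hz => ⟨⟨z, hz⟩, rfl⟩) (𝔉.INV N₀)
    (fun u => 𝔉.recip N₀ u.1 (rc_ch_isPPrimary_of_pgroup 𝔉.J N₀ hN u.1) u.2)
    (Nat.card N₀) Nat.card_pos hcard z₀ hz₀
  exact h.1 z h0

end hinj

/-! ### Components at conjugate places -/

section comp

variable {Γ : Type} [Group Γ] {p : ℕ} {J : Rep.{0} ℤ Γ} {Q : Type} (𝔻 : rc_InvData p J Q)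

theorem rc_ch_conj_mul_spec (q : Q) (H : Subgroup Γ) (g : Γ) {h : Γ} (hh : h ∈ H)
    (d : ↥(𝔻.D q)) :
    ∀ x ∈ rc_conj (h * g * d) H, (d : Γ) * x * (d : Γ)⁻¹ ∈ rc_conj g H := by
  intro x hx
  rw [rc_mem_conj] at hx ⊢
  have : g * ((d : Γ) * x * (d : Γ)⁻¹) * g⁻¹ = h⁻¹ * (h * g * d * x * (h * g * d)⁻¹) * h := by
    group
  rw [this]
  exact H.mul_mem (H.mul_mem (H.inv_mem hh) hx) hh

theorem rc_ch_conj_mul_spec' (q : Q) (H : Subgroup Γ) (g : Γ) {h : Γ} (hh : h ∈ H)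
    (d : ↥(𝔻.D q)) :
    ∀ x ∈ (rc_conj (h * g * d) H).subgroupOf (𝔻.D q),
      d * x * d⁻¹ ∈ (rc_conj g H).subgroupOf (𝔻.D q) := by
  intro x hx
  rw [Subgroup.mem_subgroupOf] at hx ⊢
  exact rc_ch_conj_mul_spec 𝔻 q H g hh d _ hx

/-- **The component at the place `h g d`** (`h ∈ H`, `d ∈ D q`) is the conjugate by `d` of the
component at `g`. -/
theorem rc_ch_comp_mul (q : Q) (H : Subgroup Γ) (g : Γ) {h : Γ} (hh : h ∈ H) (d : ↥(𝔻.D q))
    (z : groupCohomology (tt_res H J) 2) :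
    rc_comp 𝔻 q H (h * g * d) z =
      (rc_cj (𝔻.X q) d (rc_ch_conj_mul_spec' 𝔻 q H g hh d) 2).hom (rc_comp 𝔻 q H g z) := by
  have hK' := rc_ch_conj_mul_spec 𝔻 q H g hh d
  have hH : ∀ x ∈ H, h * x * h⁻¹ ∈ H := fun x hx => H.mul_mem (H.mul_mem hh hx) (H.inv_mem hh)
  have h1 : rc_cj J (h * g * d) (rc_conj_spec (h * g * d) H) 2 =
      rc_cj J g (rc_conj_spec g H) 2 ≫ rc_cj J (d : Γ) hK' 2 := by
    have hx1 : ∀ x ∈ rc_conj (h * g * d) H, (g * d) * x * (g * d)⁻¹ ∈ H := by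
      intro x hx
      rw [rc_mem_conj] at hx
      have : g * d * x * (g * d)⁻¹ = h⁻¹ * (h * g * d * x * (h * g * d)⁻¹) * h := by group
      rw [this]
      exact H.mul_mem (H.mul_mem (H.inv_mem hh) hx) hh
    rw [rc_cj_comp J g d (rc_conj_spec g H) hK' 2 hx1]
    have h2 := rc_cj_comp J h (g * d) hH hx1 2
      (by intro x hx; rw [← mul_assoc]; exact rc_conj_spec _ H x hx)
    rw [rc_cj_self J hh hH, Category.id_comp] at h2
    rw [h2]
    exact rc_cj_congr J (mul_assoc h g d) _ _ 2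
  unfold rc_comp
  rw [h1, Category.assoc, rc_cj_loc (𝔻.pr q) d hK' 2 (rc_ch_conj_mul_spec' 𝔻 q H g hh d),
    ← Category.assoc]
  rfl

open MulAction in
/-- `h g d` and `g` lie over the same `H`-orbit of `Γ ⧸ D`. -/
theorem rc_ch_orbit_eq (D H : Subgroup Γ) (g : Γ) {h : Γ} (hh : h ∈ H) (d : ↥D) :
    (Quotient.mk'' ((h * g * d : Γ) : Γ ⧸ D) : orbitRel.Quotient ↥H (Γ ⧸ D)) =
      Quotient.mk'' ((g : Γ) : Γ ⧸ D) := by
  apply Quotient.sound'
  refine ⟨⟨h, hh⟩, ?_⟩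
  show ((h * g : Γ) : Γ ⧸ D) = ((h * g * d : Γ) : Γ ⧸ D)
  rw [QuotientGroup.eq]
  have : (h * g)⁻¹ * (h * g * d) = d := by group
  rw [this]
  exact d.2

end comp

/-! ### `hext` -/

section hext

variable {G : Type} [Group G] [Finite G] {p : ℕ} [hp : Fact p.Prime] {J : Rep.{0} ℤ G}
  {Q : Type} (𝔻 : rc_InvData p J Q) (hfin : rc_FinSupp 𝔻)

open MulAction in
/-- **`hext`**: classes with total invariant of prescribed `p`-power order, supported at one
place whose decomposition group contains `N`. -/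
theorem rc_ch_hext
    (hU4 : ∀ (H : Subgroup G) (z : groupCohomology (tt_res H J) 2),
      (∀ q g, rc_comp 𝔻 q H g z = 0) → z = 0)
    (hU5 : ∀ (H : Subgroup G) (q : Q) (g : G)
      (w : groupCohomology (tt_res ((rc_conj g H).subgroupOf (𝔻.D q)) (𝔻.X q)) 2),
      ∃ z : groupCohomology (tt_res H J) 2, rc_comp 𝔻 q H g z = w ∧
        (∀ q' g', q' ≠ q → rc_comp 𝔻 q' H g' z = 0) ∧
        (∀ g', (¬ ∃ h ∈ H, ∃ d : ↥(𝔻.D q), g' = h * g * d) → rc_comp 𝔻 q H g' z = 0))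
    (N : Subgroup G) (q₀ : Q) (hq₀ : N ≤ 𝔻.D q₀) (K' : Subgroup G) (hK' : N ≤ K') (k : ℕ)
    (hm : p ^ k ∣ Nat.card N) :
    ∃ z : groupCohomology (tt_res K' J) 2, p ^ k • z = 0 ∧
      addOrderOf (rc_INV 𝔻 hfin K' z) = p ^ k := by
  -- `|N|` divides the order of the local layer
  have hNle : N.subgroupOf (𝔻.D q₀) ≤ (rc_conj 1 K').subgroupOf (𝔻.D q₀) := by
    intro x hx
    rw [Subgroup.mem_subgroupOf] at hx ⊢
    rw [rc_mem_conj]
    simpa using hK' hx
  have hcardN : Nat.card ↥(N.subgroupOf (𝔻.D q₀)) = Nat.card N :=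
    Nat.card_congr (Subgroup.subgroupOfEquivOfLe hq₀).toEquiv
  have hdvd : p ^ k ∣ Nat.card ↥((rc_conj 1 K').subgroupOf (𝔻.D q₀)) := by
    refine hm.trans ?_
    rw [← hcardN]
    exact Subgroup.card_dvd_of_le hNle
  have hdvd' : p ^ k ∣ ordProj[p] (Nat.card ↥((rc_conj 1 K').subgroupOf (𝔻.D q₀))) :=
    pow_dvd_pow p ((hp.out.pow_dvd_iff_le_factorization Nat.card_pos.ne').1 hdvd)
  obtain ⟨c, hc⟩ := hdvd'
  have hc0 : 0 < c := by
    rcases Nat.eq_zero_or_pos c with h | h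
    · rw [h, mul_zero] at hc
      exact absurd hc (Nat.ordProj_pos _ _).ne'
    · exact h
  -- the local class
  obtain ⟨u, hu, hord⟩ := (𝔻.P q₀).inv_gen
  have hw₁p : tt_IsPPrimary p
      ((tt_resMap ((rc_conj 1 K').subgroupOf (𝔻.D q₀)) (𝔻.X q₀) 2).hom u) :=
    tt_isPPrimary_map (tt_resMap _ (𝔻.X q₀) 2).hom.toAddMonoidHom hu
  have hinv₁ : addOrderOf ((𝔻.P q₀).inv _
      ((tt_resMap ((rc_conj 1 K').subgroupOf (𝔻.D q₀)) (𝔻.X q₀) 2).hom u)) =
      ordProj[p] (Nat.card ↥((rc_conj 1 K').subgroupOf (𝔻.D q₀))) := by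
    rw [(𝔻.P q₀).inv_res _ u hu]
    exact lc_pcm_order_res _ hord
  have hw₁0 := lc_pcm_torsion ((rc_conj 1 K').subgroupOf (𝔻.D q₀)) _ hw₁p
  have hw0 : p ^ k •
      (c • (tt_resMap ((rc_conj 1 K').subgroupOf (𝔻.D q₀)) (𝔻.X q₀) 2).hom u) = 0 := by
    rw [← mul_smul, ← hc]
    exact hw₁0
  have hinvw : addOrderOf ((𝔻.P q₀).inv _
      (c • (tt_resMap ((rc_conj 1 K').subgroupOf (𝔻.D q₀)) (𝔻.X q₀) 2).hom u)) = p ^ k := by
    rw [map_nsmul]
    have hfo : IsOfFinAddOrder ((𝔻.P q₀).inv _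
        ((tt_resMap ((rc_conj 1 K').subgroupOf (𝔻.D q₀)) (𝔻.X q₀) 2).hom u)) := by
      rw [← addOrderOf_pos_iff, hinv₁]
      exact Nat.ordProj_pos _ _
    rw [hfo.addOrderOf_nsmul, hinv₁, hc, Nat.gcd_eq_right (Dvd.intro_left _ rfl),
      Nat.mul_div_cancel _ hc0]
  -- the global class
  obtain ⟨z, hz1, hz2, hz3⟩ := hU5 K' q₀ 1
    (c • (tt_resMap ((rc_conj 1 K').subgroupOf (𝔻.D q₀)) (𝔻.X q₀) 2).hom u)
  have hmz : p ^ k • z = 0 := by
    apply hU4
    intro q g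
    rw [map_nsmul]
    by_cases hq : q = q₀
    · subst hq
      by_cases hg : ∃ h ∈ K', ∃ d : ↥(𝔻.D q), g = h * 1 * d
      · obtain ⟨h, hh, d, rfl⟩ := hg
        rw [rc_ch_comp_mul 𝔻 q K' 1 hh d z, hz1, ← map_nsmul, hw0, map_zero]
      · rw [hz3 g hg, smul_zero]
    · rw [hz2 q g hq, smul_zero]
  have hzp : tt_IsPPrimary p z := ⟨k, hmz⟩
  refine ⟨z, hmz, ?_⟩
  have hINV : rc_INV 𝔻 hfin K' z = (𝔻.P q₀).inv _
      (c • (tt_resMap ((rc_conj 1 K').subgroupOf (𝔻.D q₀)) (𝔻.X q₀) 2).hom u) := by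
    rw [rc_INV_apply, finsum_eq_single _ q₀ (fun q hq => ?_)]
    · rw [rc_qterm_apply,
        finsum_eq_single _ (Quotient.mk'' ((1 : G) : G ⧸ 𝔻.D q₀) :
          orbitRel.Quotient ↥K' (G ⧸ 𝔻.D q₀)) (fun o ho => ?_)]
      · obtain ⟨h, hh, d, hd⟩ := rc_exists_of_orbit_eq (𝔻.D q₀) K'
          (g₁ := rc_rep (𝔻.D q₀) K' (Quotient.mk'' ((1 : G) : G ⧸ 𝔻.D q₀))) (g₂ := 1)
          (rc_rep_spec _ _ _)
        rw [hd, rc_term_congr 𝔻 q₀ K' 1 hh d z hzp, rc_term_apply, hz1]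
      · rw [rc_term_apply, hz3 _ ?_, map_zero]
        rintro ⟨h, hh, d, hd⟩
        apply ho
        rw [← rc_rep_spec (𝔻.D q₀) K' o, hd]
        exact rc_ch_orbit_eq (𝔻.D q₀) K' 1 hh d
    · rw [rc_qterm_apply]
      exact finsum_eq_zero_of_forall_eq_zero fun o => by
        rw [rc_term_apply, hz2 q _ hq, map_zero]
  rw [hINV, hinvw]

end hext

end Fermat.Agent.S55
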