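import Fermat.Agent.S55.Recip.SemilocalHasse
import Fermat.Agent.S55.Idele.LocalSeam
import Fermat.Agent.S55.Idele.Descent
import Fermat.Agent.S55.Recip.ClassInvHyp

/-!
# S55 / G4 (C): semi-local Hilbert 90 without `p`-group hypotheses (prefix `rc_h9_`)

* `rc_h9_local` : `H¹(D', (L·ℚ_q)ˣ) = 0` for every subgroup `D'` of the decomposition group
  `D_q(L)` (Hilbert 90 for the local field, through `lq_formation`);
* `rc_h9_semilocal` : `H¹(H, (ℚ_q ⊗ L)ˣ) = 0` for every subgroup `H ≤ Gal(L/ℚ)` (Shapiro);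
* `rc_h9_hH90p` : the hypothesis `hH90p` of `rr_reciprocity` for `Jp = id_ARep L q`, for ANY
  `𝒢 ≤ Gal(L/ℚ)` and `N ≤ 𝒢` (the version `rr_hH90p` needs `𝒢` to be a `p`-group);
* `rc_h9_global`, `rc_h9_hH90` : Hilbert 90 for `Lˣ` on every layer, and the hypothesis `hH90`;
* `rc_h9_hinj_pPrimary` : the hypothesis `hinj` restricted to `p`-primary classes, from
  "`H¹(H, C)` has no `p`-torsion" (G3: `idl_field_h1_torsion`), for ANY finite layer `H`.
-/

set_option autoImplicit false

namespace Fermat.Agent.S55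

open CategoryTheory groupCohomology

local notation "Qbar" => AlgebraicClosure ℚ

section

variable (q : Nat.Primes) (L : IntermediateField ℚ Qbar) [FiniteDimensional ℚ L] [Normal ℚ L]

/-- **Local Hilbert 90 on every layer of the decomposition group.** -/
theorem rc_h9_local (D' : Subgroup ↥(il_D (q : ℕ) L)) :
    Subsingleton (groupCohomology (tt_res D' (il_Xq q L)) 1) :=
  (lq_formation (il_Lq (q : ℕ) L)).h90 ((ils_e q L).toMonoidHom.comp D'.subtype)
    ((ils_e q L).injective.comp Subtype.val_injective)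

end

section

variable (q : Nat.Primes) (L : IntermediateField ℚ Qbar) [FiniteDimensional ℚ L] [Normal ℚ L]
  [NumberField L]

/-- the one-term datum on `(ℚ_q ⊗ L)ˣ` (the class module plays no role here) -/
theorem rc_h9_coindSum (p : ℕ) [Fact p.Prime] :
    hs_IsCoindSum (rr_single (rc_ii_data p {q} L) ⟨q, Finset.mem_singleton_self q⟩
      (il_pr q L)) :=
  rc_sh_coindSum_in p {q} L ⟨q, Finset.mem_singleton_self q⟩

/-- **Semi-local Hilbert 90**: `H¹(H, (ℚ_q ⊗ L)ˣ) = 0` for every subgroup `H` of `Gal(L/ℚ)`. -/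
theorem rc_h9_semilocal (H : Subgroup (↥L ≃ₐ[ℚ] ↥L)) :
    Subsingleton (groupCohomology (tt_res H (id_ARep ↥L q)) 1) := by
  have : Fact (Nat.Prime 2) := ⟨Nat.prime_two⟩
  exact rr_H1_subsingleton (rc_h9_coindSum q L 2) H fun _ g => rc_h9_local q L _

/-- **`hH90p`** of `rr_reciprocity` for the semi-local module `(ℚ_q ⊗ L)ˣ`, any layer. -/
theorem rc_h9_hH90p (𝒢 : Subgroup (↥L ≃ₐ[ℚ] ↥L)) (N : Subgroup ↥𝒢) :
    Subsingleton (groupCohomology (Rep.res N.subtype (tt_res 𝒢 (id_ARep ↥L q))) 1) :=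
  rr_h1_up (id_ARep ↥L q) 𝒢 N 1 (rc_h9_semilocal q L (rr_up 𝒢 N))

end

section global

variable (L : Type) [Field L] [NumberField L]

/-- **Hilbert 90 on every layer**: `H¹(H, Lˣ) = 0` for every subgroup `H ≤ Gal(L/ℚ)`. -/
theorem rc_h9_global (H : Subgroup (L ≃ₐ[ℚ] L)) :
    Subsingleton (groupCohomology (tt_res H (id_KRep L)) 1) := by
  refine ⟨fun a b => ?_⟩
  have key : ∀ x : groupCohomology (tt_res H (id_KRep L)) 1, x = 0 := by
    intro x
    obtain ⟨c, hc, rfl⟩ := te_cl1_surjective (tt_res H (id_KRep L)) x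
    rw [te_cl1_eq_zero_iff]
    obtain ⟨b, hb⟩ := id_hilbert90 L H (fun σ => Additive.toMul (c σ)) (fun σ τ => by
      have h1 := hc σ τ
      have h2 := congrArg Additive.toMul h1
      exact h2)
    refine ⟨Additive.ofMul b, funext fun σ => ?_⟩
    exact (hb σ).symm
  rw [key a, key b]

/-- **`hH90`** of `rr_reciprocity` for `A = id_KRep L`, any layer. -/
theorem rc_h9_hH90 (𝒢 : Subgroup (L ≃ₐ[ℚ] L)) (N : Subgroup ↥𝒢) :
    Subsingleton (groupCohomology (Rep.res N.subtype (tt_res 𝒢 (id_KRep L))) 1) :=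
  rr_h1_up (id_KRep L) 𝒢 N 1 (rc_h9_global L (rr_up 𝒢 N))

end global

/-! ### `hinj` on `p`-primary classes from the absence of `p`-torsion in `H¹` of the cokernel -/

section hinj

variable {Γ : Type} [Group Γ] {A J C : Rep.{0} ℤ Γ} (δ : A ⟶ J) (g : J ⟶ C)

/-- **`hinj` for `p`-primary classes**: for a short exact sequence `0 → A → J → C → 0` and a
finite layer `H` such that `H¹(H, C)` has no `p`-torsion, a `p`-primary class of `H²(H, A)` dying
in `H²(H, J)` is zero.  (No `p`-group hypothesis on `H`; `H¹(H, C)` is killed by `|H|`.) -/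
theorem rc_h9_hinj_pPrimary (w : δ ≫ g = 0) (hδ : Function.Injective δ.hom)
    (hex : ∀ x : J.V, g.hom x = 0 → ∃ y : A.V, δ.hom y = x) (hg : Function.Surjective g.hom)
    (H : Subgroup Γ) [Finite ↥H] (p : ℕ) [Fact p.Prime]
    (h1 : ∀ y : groupCohomology (tt_res H C) 1, p • y = 0 → y = 0)
    (x : groupCohomology (tt_res H A) 2) (hx : tt_IsPPrimary p x)
    (h0 : (rr_push δ H).hom x = 0) : x = 0 := by
  let S : ShortComplex (Rep.{0} ℤ ↥H) :=
    ShortComplex.mk ((Rep.resFunctor H.subtype).map δ) ((Rep.resFunctor H.subtype).map g)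
      (by rw [← Functor.map_comp, w, Functor.map_zero])
  have hS : S.ShortExact := (fg_shortExact_iff S).2 ⟨hδ, hex, hg⟩
  have hE := mapShortComplex₁_exact hS (i := 1) (j := 2) rfl
  rw [ShortComplex.moduleCat_exact_iff] at hE
  obtain ⟨y, hy⟩ := hE x h0
  -- replace `y` by a `p`-primary class
  have hcard : Nat.card ↥H • y = 0 := rr_h1_card_smul (tt_res H C) y
  obtain ⟨y', hy'p, hy'⟩ := rc_ch_pPart_lift (p := p)
    (groupCohomology.δ hS 1 2 rfl).hom.toAddMonoidHom y Nat.card_pos hcard (by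
      change tt_IsPPrimary p ((groupCohomology.δ hS 1 2 rfl).hom y)
      rw [show (groupCohomology.δ hS 1 2 rfl).hom y = x from hy]
      exact hx)
  -- a `p`-primary class of `H¹(H, C)` vanishes
  have key : ∀ (m : ℕ) (z : groupCohomology (tt_res H C) 1), p ^ m • z = 0 → z = 0 := by
    intro m
    induction m with
    | zero => intro z hz; simpa using hz
    | succ m ih =>
      intro z hz
      apply ih
      apply h1
      rw [← mul_smul, ← pow_succ']
      exact hz
  obtain ⟨m, hm⟩ := hy'p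
  have hy'0 : y' = 0 := key m y' hm
  have h2 : (groupCohomology.δ hS 1 2 rfl).hom y' = (groupCohomology.δ hS 1 2 rfl).hom y := hy'
  rw [← show (groupCohomology.δ hS 1 2 rfl).hom y = x from hy, ← h2, hy'0, map_zero]

end hinj

end Fermat.Agent.S55
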