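import Fermat.Agent.S55.Recip.Orbit

/-!
# S55, leaf `Orbit`: from the universal property of coinduction to `ob_RepDecomp`

`A : Rep ℤ H`, `S ≤ H` of finite index, `B : Rep ℤ S`, `pr : res S A ⟶ B` such that
`a ↦ (g ↦ pr (g • a))` is a bijection from `A` onto the `S`-equivariant functions `H → B`
(`ob_IsCoind`: this is the form in which `Idele/Semilocal.lean` proves that the units of a Galois
algebra are coinduced).  Then `A` has an `ob_RepDecomp` indexed by `X = H ⧸ S` with component `B`
at the base point, hence the Hasse principle / Shapiro injectivity and Frobenius reciprocity of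
`Recip/Orbit.lean` hold for `(A, S, B, pr)`.
-/

set_option autoImplicit false

namespace Fermat.Agent.S55

open CategoryTheory groupCohomology MulAction

section coind

variable {H : Type} [Group H]

/-- `A` is coinduced from `B` along `pr : res S A ⟶ B`: the map `a ↦ (g ↦ pr (g • a))` is a
bijection onto the `S`-equivariant functions `H → B`. -/
structure ob_IsCoind (A : Rep.{0} ℤ H) (S : Subgroup H) (B : Rep.{0} ℤ S)
    (pr : tt_res S A ⟶ B) : Prop where
  ext : ∀ a : A.V, (∀ g : H, pr.hom (A.ρ g a) = 0) → a = 0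
  exists_eq : ∀ φ : H → B.V, (∀ (s : S) (g : H), φ ((s : H) * g) = B.ρ s (φ g)) →
    ∃ a : A.V, ∀ g : H, pr.hom (A.ρ g a) = φ g

variable {A : Rep.{0} ℤ H} {S : Subgroup H} {B : Rep.{0} ℤ S} {pr : tt_res S A ⟶ B}

theorem ob_IsCoind.ext' (hc : ob_IsCoind A S B pr) {a a' : A.V}
    (h : ∀ g : H, pr.hom (A.ρ g a) = pr.hom (A.ρ g a')) : a = a' := by
  rw [← sub_eq_zero]
  refine hc.ext _ fun g => ?_
  rw [map_sub, map_sub, h, sub_self]

/-- the base point of `H ⧸ S` -/
def ob_base (S : Subgroup H) : H ⧸ S := ((1 : H) : H ⧸ S)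

theorem ob_base_stab (S : Subgroup H) (g : H) : g ∈ S ↔ g • ob_base S = ob_base S := by
  rw [ob_base, MulAction.Quotient.smul_mk, smul_eq_mul, mul_one, QuotientGroup.eq, mul_one,
    inv_mem_iff]

theorem ob_base_trans (S : Subgroup H) (x : H ⧸ S) : x ∈ MulAction.orbit H (ob_base S) := by
  induction x using QuotientGroup.induction_on with
  | H g =>
    refine ⟨g, ?_⟩
    show g • ob_base S = _
    rw [ob_base, MulAction.Quotient.smul_mk, smul_eq_mul, mul_one]

theorem ob_pr_ρ (pr : tt_res S A ⟶ B) (s : S) (a : A.V) :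
    pr.hom (A.ρ (s : H) a) = B.ρ s (pr.hom a) :=
  Rep.hom_comm_apply pr s a

open scoped Classical in
/-- the family cutting out the component of `a` at `x` -/
noncomputable def ob_cut (pr : tt_res S A ⟶ B) (x : H ⧸ S) (a : A.V) : H → B.V :=
  fun g => if g⁻¹ • ob_base S = x then pr.hom (A.ρ g a) else 0

theorem ob_cut_equivariant (pr : tt_res S A ⟶ B) (x : H ⧸ S) (a : A.V) (s : S) (g : H) :
    ob_cut pr x a ((s : H) * g) = B.ρ s (ob_cut pr x a g) := by
  classical
  have hs : ((s : H) * g)⁻¹ • ob_base S = g⁻¹ • ob_base S := by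
    rw [mul_inv_rev, mul_smul]
    congr 1
    exact (ob_base_stab S _).mp (inv_mem s.2)
  simp only [ob_cut, hs]
  split_ifs
  · rw [map_mul]
    exact ob_pr_ρ pr s (A.ρ g a)
  · rw [map_zero]

open scoped Classical in
/-- the projector of `A` onto its component at `x : H ⧸ S` -/
noncomputable def ob_coindπ (hc : ob_IsCoind A S B pr) (x : H ⧸ S) : A.V →+ A.V where
  toFun a := (hc.exists_eq (ob_cut pr x a) (ob_cut_equivariant pr x a)).choose
  map_zero' := by
    refine hc.ext' fun g => ?_
    rw [(hc.exists_eq _ (ob_cut_equivariant pr x 0)).choose_spec g]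
    simp only [ob_cut, map_zero, ite_self]
  map_add' a a' := by
    refine hc.ext' fun g => ?_
    rw [map_add, map_add, (hc.exists_eq _ (ob_cut_equivariant pr x (a + a'))).choose_spec g,
      (hc.exists_eq _ (ob_cut_equivariant pr x a)).choose_spec g,
      (hc.exists_eq _ (ob_cut_equivariant pr x a')).choose_spec g]
    simp only [ob_cut]
    split_ifs
    · rw [map_add, map_add]
    · rw [add_zero]

open scoped Classical in
theorem ob_coindπ_spec (hc : ob_IsCoind A S B pr) (x : H ⧸ S) (a : A.V) (g : H) :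
    pr.hom (A.ρ g (ob_coindπ hc x a)) =
      if g⁻¹ • ob_base S = x then pr.hom (A.ρ g a) else 0 :=
  (hc.exists_eq _ (ob_cut_equivariant pr x a)).choose_spec g

theorem ob_IsCoind.pr_surjective (hc : ob_IsCoind A S B pr) : Function.Surjective pr.hom := by
  classical
  intro b
  obtain ⟨a, ha⟩ := hc.exists_eq (fun g => if h : g ∈ S then B.ρ ⟨g, h⟩ b else 0) (by
    intro s g
    by_cases hg : g ∈ S
    · have hsg : (s : H) * g ∈ S := S.mul_mem s.2 hg
      rw [dif_pos hsg, dif_pos hg]
      have : (⟨(s : H) * g, hsg⟩ : S) = s * ⟨g, hg⟩ := rfl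
      rw [this, map_mul]; rfl
    · have hsg : (s : H) * g ∉ S := fun h => hg (by
        have := S.mul_mem (inv_mem s.2) h
        rwa [inv_mul_cancel_left] at this)
      rw [dif_neg hsg, dif_neg hg, map_zero])
  refine ⟨a, ?_⟩
  have e : ∀ v : A.V, A.ρ 1 v = v := fun v => by simp
  have h1 := ha 1
  rw [e, dif_pos S.one_mem] at h1
  have h2 : (⟨1, S.one_mem⟩ : S) = 1 := rfl
  have e' : ∀ v : B.V, B.ρ 1 v = v := fun v => by simp
  rw [h2, e'] at h1
  exact h1

variable [Fintype (H ⧸ S)]

open scoped Classical in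
/-- the decomposition of a coinduced module indexed by `H ⧸ S` -/
noncomputable def ob_IsCoind.decomp (hc : ob_IsCoind A S B pr) : ob_RepDecomp A (H ⧸ S) where
  π := ob_coindπ hc
  idem x a := hc.ext' fun g => by
    rw [ob_coindπ_spec, ob_coindπ_spec]
    split_ifs <;> rfl
  orth x y a hxy := by
    refine hc.ext' fun g => ?_
    rw [ob_coindπ_spec, ob_coindπ_spec, map_zero, map_zero]
    split_ifs with h1 h2
    · exact absurd (h1.symm.trans h2) hxy
    · rfl
    · rfl
  sum_eq a := hc.ext' fun g => by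
    rw [map_sum, map_sum, Finset.sum_congr rfl (fun x _ => ob_coindπ_spec hc x a g),
      Finset.sum_ite_eq]
    simp
  ρ_π h x a := hc.ext' fun g => by
    have e1 : A.ρ g (A.ρ h (ob_coindπ hc x a)) = A.ρ (g * h) (ob_coindπ hc x a) := by
      rw [map_mul]; rfl
    have e2 : A.ρ g (A.ρ h a) = A.ρ (g * h) a := by
      rw [map_mul]; rfl
    rw [e1, ob_coindπ_spec, ob_coindπ_spec, e2]
    have e3 : ((g * h)⁻¹ • ob_base S = x) ↔ (g⁻¹ • ob_base S = h • x) := by
      rw [mul_inv_rev, mul_smul, inv_smul_eq_iff]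
    simp only [e3]

theorem ob_IsCoind.pr_eq_zero_iff (hc : ob_IsCoind A S B pr) (a : A.V) :
    pr.hom a = 0 ↔ hc.decomp.π (ob_base S) a = 0 := by
  classical
  constructor
  · intro h
    refine hc.ext _ fun g => ?_
    show pr.hom (A.ρ g (ob_coindπ hc (ob_base S) a)) = 0
    rw [ob_coindπ_spec]
    split_ifs with hg
    · have hgS : g ∈ S := by
        have := (ob_base_stab S g⁻¹).mpr hg
        simpa using this
      have := ob_pr_ρ pr ⟨g, hgS⟩ a
      rw [this, h, map_zero]
    · rfl
  · intro h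
    have e : ∀ v : A.V, A.ρ 1 v = v := fun v => by simp
    have h1 := ob_coindπ_spec hc (ob_base S) a 1
    rw [inv_one, one_smul, if_pos rfl, e, e] at h1
    have h2 : hc.decomp.π (ob_base S) a = ob_coindπ hc (ob_base S) a := rfl
    rw [h2] at h
    rw [h, map_zero] at h1
    exact h1.symm

/-- the component of a coinduced module at the base point -/
noncomputable def ob_IsCoind.comp (hc : ob_IsCoind A S B pr) :
    ob_Comp A hc.decomp (ob_base S) S B :=
  ob_Comp.ofKer hc.decomp (ob_base S) S B (ob_base_stab S) pr hc.pr_surjective hc.pr_eq_zero_iff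

@[simp] theorem ob_IsCoind.comp_pr (hc : ob_IsCoind A S B pr) : hc.comp.pr = pr := rfl

/-- **Shapiro for a coinduced module, in the form of the field `shapiro` of `du_Seam`.** -/
theorem ob_IsCoind.shapiro (hc : ob_IsCoind A S B pr) (Y : Rep.{0} ℤ H) (n : ℕ)
    (hn : n = 1 ∨ n = 2) (z : groupCohomology (tt_hom Y A) n)
    (hz : (tt_coeffMap (tt_homPost (tt_res S Y) pr) n).hom
      ((tt_resMap S (tt_hom Y A) n).hom z) = 0) : z = 0 :=
  ob_shapiro (ob_base_trans S) hc.comp Y n hn z hz

/-- `res + proj` is injective on `H²` of a coinduced module -/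
theorem ob_IsCoind.loc_injective₂ (hc : ob_IsCoind A S B pr) :
    Function.Injective (ob_loc S pr 2).hom :=
  ob_loc_injective₂ (ob_base_trans S) hc.comp

/-- `res + proj` is injective on `H¹` of a coinduced module -/
theorem ob_IsCoind.loc_injective₁ (hc : ob_IsCoind A S B pr) :
    Function.Injective (ob_loc S pr 1).hom :=
  ob_loc_injective₁ (ob_base_trans S) hc.comp

/-- **Frobenius reciprocity for a coinduced module** (the field `frob` of `ld_Data`). -/
theorem ob_IsCoind.frob (hc : ob_IsCoind A S B pr) (Y : Rep.{0} ℤ H) (ψ' : tt_res S Y ⟶ B) :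
    ∃ ψ : Y ⟶ A, (Rep.resFunctor S.subtype).map ψ ≫ pr = ψ' :=
  ob_frob hc.comp Y ψ'

end coind

end Fermat.Agent.S55
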