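import Fermat.Agent.S55.Recip.RecipInputs
import Fermat.Agent.S55.Recip.OrbitCoind
import Fermat.Agent.S55.Recip.IdeleIn
import Fermat.Agent.S55.Recip.TChange

/-!
# S55 / G4 (C)(iv): the semi-local Hasse principle `hSL` of `rr_reciprocity` (prefix `rc_sh_`)

* `rc_sh_hasse_coind` : Hasse principle on a layer `𝒢 ≤ Γ` for ONE coinduced module
  `A = Coind_D^Γ B`: a class of `H²(𝒢, A)` all of whose conjugate components
  `rc_cj A g ≫ rc_loc pr` vanish is `0`;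
* `rc_sh_hSL` : the hypothesis `hSL` of `rr_reciprocity`: if the projection `𝔻.pr q₀` factors
  through `πp : J ⟶ Jp` with `Jp` coinduced from `𝔻.X q₀`, then a class of `H²(𝒢, J)` without
  components at `q₀` dies in `H²(𝒢, Jp)` (same statement as helper21's `rr_hSL`, which takes
  `hs_IsCoindSum (rr_single 𝔻 q₀ pr')` instead of `ob_IsCoind`);
* `rc_sh_coindSum_single` : the bridge `ob_IsCoind Jp (𝔻.D q₀) (𝔻.X q₀) pr' →
  hs_IsCoindSum (rr_single 𝔻 q₀ pr')` (input of `rr_hSL`, `rr_hH90p`);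
* the instances for the inside datum `rc_ii_data p T L` and for a sum datum
  `rc_tc_sum (rc_ii_data p T L) 𝔻₂` at `Sum.inl q`: `rc_sh_hSL_in`, `rc_sh_hSL_sum`,
  `rc_sh_coindSum_in`, `rc_sh_coindSum_sum`.
-/

set_option autoImplicit false

namespace Fermat.Agent.S55

open CategoryTheory groupCohomology MulAction

section coind

variable {Γ : Type} [Group Γ] [Finite Γ]

/-- **Hasse principle on a layer for one coinduced module.** -/
theorem rc_sh_hasse_coind (A : Rep.{0} ℤ Γ) {D : Subgroup Γ} {B : Rep.{0} ℤ D}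
    (pr : tt_res D A ⟶ B) (hc : ob_IsCoind A D B pr) (𝒢 : Subgroup Γ)
    (w : groupCohomology (tt_res 𝒢 A) 2)
    (h : ∀ g : Γ, (rc_cj A g (rc_conj_spec g 𝒢) 2 ≫ rc_loc pr (rc_conj g 𝒢) 2).hom w = 0) :
    w = 0 := by
  classical
  let _ : Fintype (Γ ⧸ D) := Fintype.ofFinite _
  refine ob_H2_eq_zero_of_loc (hc.decomp.res 𝒢) (I := Γ)
    (fun g => g • ob_base D) ?_
    (fun g => hs_conjStab D 𝒢 g)
    (fun g => Rep.res (hs_conjHom D 𝒢 g) B)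
    (fun g => hs_conjComp hc.comp 𝒢 g) w ?_
  · intro x
    induction x using QuotientGroup.induction_on with
    | H k =>
      refine ⟨k, ?_⟩
      have hk : ((k : Γ) : Γ ⧸ D) = k • ob_base D := by
        rw [ob_base, MulAction.Quotient.smul_mk, smul_eq_mul, mul_one]
      rw [hk]
      exact MulAction.mem_orbit_self _
  · intro g
    rw [hs_loc_conjComp]
    change (groupCohomology.map _ _ 2).hom ((rc_cj A g _ 2 ≫
      rc_loc hc.comp.pr (rc_conj g 𝒢) 2).hom w) = 0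
    rw [ob_IsCoind.comp_pr, h g, map_zero]

end coind

section hSL

variable {Γ : Type} [Group Γ] [Finite Γ] {p : ℕ} {J Jp : Rep.{0} ℤ Γ} {Q : Type}
  (𝔻 : rc_InvData p J Q) (q₀ : Q) (πp : J ⟶ Jp)

omit [Finite Γ] in
/-- the component at `q₀` of a class of `H²(𝒢, J)` is the conjugate component of its image in
`H²(𝒢, Jp)` when `𝔻.pr q₀` factors through `πp`. -/
theorem rc_sh_comp_eq (pr' : tt_res (𝔻.D q₀) Jp ⟶ 𝔻.X q₀)
    (hfac : (Rep.resFunctor (𝔻.D q₀).subtype).map πp ≫ pr' = 𝔻.pr q₀) (𝒢 : Subgroup Γ)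
    (z : groupCohomology (tt_res 𝒢 J) 2) (g : Γ) :
    rc_comp 𝔻 q₀ 𝒢 g z =
      (rc_cj Jp g (rc_conj_spec g 𝒢) 2 ≫ rc_loc pr' (rc_conj g 𝒢) 2).hom
        ((rr_push πp 𝒢).hom z) := by
  have h1 : rc_loc (𝔻.pr q₀) (rc_conj g 𝒢) 2 =
      rr_push πp (rc_conj g 𝒢) ≫ rc_loc pr' (rc_conj g 𝒢) 2 := by
    unfold rc_loc
    rw [← map_comp, ← hfac]
    exact map_congr rfl rfl 2
  have h2 : rc_cj J g (rc_conj_spec g 𝒢) 2 ≫ rc_loc (𝔻.pr q₀) (rc_conj g 𝒢) 2 =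
      rr_push πp 𝒢 ≫ rc_cj Jp g (rc_conj_spec g 𝒢) 2 ≫ rc_loc pr' (rc_conj g 𝒢) 2 := by
    rw [h1, ← Category.assoc, ← rr_push_cj, Category.assoc]
  change (rc_cj J g (rc_conj_spec g 𝒢) 2 ≫ rc_loc (𝔻.pr q₀) (rc_conj g 𝒢) 2).hom z = _
  rw [h2]
  rfl

/-- **The hypothesis `hSL` of `rr_reciprocity`.** -/
theorem rc_sh_hSL (pr' : tt_res (𝔻.D q₀) Jp ⟶ 𝔻.X q₀)
    (hfac : (Rep.resFunctor (𝔻.D q₀).subtype).map πp ≫ pr' = 𝔻.pr q₀)
    (hc : ob_IsCoind Jp (𝔻.D q₀) (𝔻.X q₀) pr') (𝒢 : Subgroup Γ) :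
    ∀ z : groupCohomology (tt_res 𝒢 J) 2, (∀ g, rc_comp 𝔻 q₀ 𝒢 g z = 0) →
      (rr_push πp 𝒢).hom z = 0 := by
  intro z hz
  refine rc_sh_hasse_coind Jp pr' hc 𝒢 _ fun g => ?_
  rw [← rc_sh_comp_eq 𝔻 q₀ πp pr' hfac 𝒢 z g]
  exact hz g

omit [Finite Γ] in
/-- **Bridge**: one coinduced module is a (one-term) restricted sum of coinduced modules. -/
theorem rc_sh_coindSum_single (pr' : tt_res (𝔻.D q₀) Jp ⟶ 𝔻.X q₀)
    (hc : ob_IsCoind Jp (𝔻.D q₀) (𝔻.X q₀) pr') : hs_IsCoindSum (rr_single 𝔻 q₀ pr') where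
  ext a h := hc.ext a fun g => h () g
  fin _ := Set.toFinite _
  exists_eq φ hφ _ := by
    obtain ⟨a, ha⟩ := hc.exists_eq (φ ()) (fun s g => hφ () s g)
    exact ⟨a, fun _ g => ha g⟩

end hSL

/-! ### Instances: the inside datum at a prime of `T` -/

section instances

local notation "Qbar" => AlgebraicClosure ℚ

variable (p : ℕ) [Fact p.Prime] (T : Finset Nat.Primes) (L : IntermediateField ℚ Qbar)
  [FiniteDimensional ℚ L] [Normal ℚ L] [NumberField L]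

/-- `hSL` for the inside datum `rc_ii_data p T L` at `q ∈ T`, semi-local module `(ℚ_q ⊗ L)ˣ`. -/
theorem rc_sh_hSL_in (q : ↥T) (𝒢 : Subgroup (↥L ≃ₐ[ℚ] ↥L)) :
    ∀ z : groupCohomology (tt_res 𝒢 (id_JRep T ↥L)) 2,
      (∀ g, rc_comp (rc_ii_data p T L) q 𝒢 g z = 0) →
      (rr_push (rc_ii_proj T L q) 𝒢).hom z = 0 :=
  rc_sh_hSL (rc_ii_data p T L) q (rc_ii_proj T L q) (il_pr q.1 L) rfl (rc_ii_isCoind q.1 L) 𝒢

/-- the one-term coinduced-sum structure of `(ℚ_q ⊗ L)ˣ` (input of `rr_hSL` / `rr_hH90p`). -/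
theorem rc_sh_coindSum_in (q : ↥T) :
    hs_IsCoindSum (rr_single (rc_ii_data p T L) q (il_pr q.1 L)) :=
  rc_sh_coindSum_single (rc_ii_data p T L) q (il_pr q.1 L) (rc_ii_isCoind q.1 L)

variable {Q₂ : Type} (𝔻₂ : rc_InvData p (id_JRep T ↥L) Q₂)

/-- `hSL` for a sum datum `inside ⊕ 𝔻₂` at the inside index `Sum.inl q`. -/
theorem rc_sh_hSL_sum (q : ↥T) (𝒢 : Subgroup (↥L ≃ₐ[ℚ] ↥L)) :
    ∀ z : groupCohomology (tt_res 𝒢 (id_JRep T ↥L)) 2,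
      (∀ g, rc_comp (rc_tc_sum (rc_ii_data p T L) 𝔻₂) (Sum.inl q) 𝒢 g z = 0) →
      (rr_push (rc_ii_proj T L q) 𝒢).hom z = 0 :=
  rc_sh_hSL (rc_tc_sum (rc_ii_data p T L) 𝔻₂) (Sum.inl q) (rc_ii_proj T L q) (il_pr q.1 L) rfl
    (rc_ii_isCoind q.1 L) 𝒢

theorem rc_sh_coindSum_sum (q : ↥T) :
    hs_IsCoindSum (rr_single (rc_tc_sum (rc_ii_data p T L) 𝔻₂) (Sum.inl q) (il_pr q.1 L)) :=
  rc_sh_coindSum_single (rc_tc_sum (rc_ii_data p T L) 𝔻₂) (Sum.inl q) (il_pr q.1 L)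
    (rc_ii_isCoind q.1 L)

end instances

end Fermat.Agent.S55
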