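import Fermat.Agent.S55.Idele.AbsLevels
import Fermat.Agent.S55.Dual.Levels
import Fermat.Agent.S55.Recip.TowerLevel

/-!
# S55 / G4, leaf [Z]: the cyclotomic level `a(ζ_n)` over a field level (prefix `rc_zl_`)

For a field level `a : ia_Lev T` and `n ≠ 0` all of whose prime divisors lie in `T`, the field
`a.L(μ_n)` is again a field level `rc_zl_lev a n hn0 hn : ia_Lev T`, a cyclotomic extension of
`a.L` (`rc_zl_isCyclotomic`) whose relative Galois group is commutative (`rc_zl_rel_comm`) and, for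
`n = p ^ r` with `p` odd, cyclic (`rc_zl_ker_isCyclic`).
-/

set_option autoImplicit false
set_option linter.style.haveILetI false
set_option linter.unusedSectionVars false

open ExtCitation

namespace Fermat.Agent.S55

local notation "Qbar" => AlgebraicClosure ℚ
local notation "GQ" => (AlgebraicClosure ℚ ≃ₐ[ℚ] AlgebraicClosure ℚ)

/-! ### Roots of unity of order prime to the residue characteristic are fixed by inertia -/

section General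

variable {L : Type*} [Field L] (A : ValuationSubring L)

/-- A nontrivial `n`-th root of unity congruent to `1` modulo the maximal ideal forces a prime
divisor of `n` into the maximal ideal. -/
theorem rc_zl_valuation_prime_lt_one {n : ℕ} (hn : n ≠ 0) {ω : L} (hω : ω ^ n = 1)
    (hω1 : ω ≠ 1) (hlt : A.valuation (ω - 1) < 1) :
    ∃ p : ℕ, p.Prime ∧ p ∣ n ∧ A.valuation (p : L) < 1 := by
  have hd : orderOf ω ∣ n := orderOf_dvd_of_pow_eq_one hω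
  have hd1 : orderOf ω ≠ 1 := fun h => hω1 (orderOf_eq_one_iff.1 h)
  have hd0 : orderOf ω ≠ 0 := fun h => hn (by rw [h] at hd; exact zero_dvd_iff.1 hd)
  set d := orderOf ω with hddef
  have hp : d.minFac.Prime := Nat.minFac_prime hd1
  have hpd : d.minFac ∣ d := Nat.minFac_dvd d
  set p := d.minFac with hpdef
  have hωA : ω ∈ A := by
    rw [← ValuationSubring.valuation_le_one_iff, tl_valuation_eq_one_of_pow_eq_one A hn hω]
  have hdp0 : d / p ≠ 0 := by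
    intro h
    rcases (Nat.div_eq_zero_iff).1 h with h | h
    · exact hp.ne_zero h
    · exact absurd (Nat.le_of_dvd (Nat.pos_of_ne_zero hd0) hpd) (not_le.2 h)
  have hdplt : d / p < d := Nat.div_lt_self (Nat.pos_of_ne_zero hd0) hp.one_lt
  have h1 : (ω ^ (d / p)) ^ p = 1 := by
    rw [← pow_mul, Nat.div_mul_cancel hpd, hddef, pow_orderOf_eq_one]
  have h2 : ω ^ (d / p) ≠ 1 := by
    intro h
    have := orderOf_dvd_of_pow_eq_one h
    exact absurd (Nat.le_of_dvd (Nat.pos_of_ne_zero hdp0) this) (not_le.2 hdplt)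
  have h3 : A.valuation (ω ^ (d / p) - 1) < 1 := by
    have hfac : ω ^ (d / p) - 1 = (∑ j ∈ Finset.range (d / p), ω ^ j) * (ω - 1) := by
      rw [geom_sum_mul]
    rw [hfac, map_mul]
    have hsum : A.valuation (∑ j ∈ Finset.range (d / p), ω ^ j) ≤ 1 := by
      rw [ValuationSubring.valuation_le_one_iff]
      exact sum_mem fun j _ => pow_mem hωA j
    calc A.valuation (∑ j ∈ Finset.range (d / p), ω ^ j) * A.valuation (ω - 1)
        ≤ 1 * A.valuation (ω - 1) := mul_le_mul_left hsum _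
      _ = A.valuation (ω - 1) := one_mul _
      _ < 1 := hlt
  exact ⟨p, hp, dvd_trans hpd hd, tl_valuation_prime_lt_one A hp h1 h2 h3⟩

end General

/-- An inertia element at `q` fixes every `n`-th root of unity, `q ∤ n`. -/
theorem rc_zl_root_fixed {q : ℕ} (hq : q.Prime) (A : ValuationSubring Qbar)
    (hA : A.LiesOverPrime q) {σ : GQ} (hσ : σ ∈ A.inertiaSubgroupIn ℚ) {n : ℕ} (hn0 : n ≠ 0)
    (hqn : ¬ q ∣ n) {y : Qbar} (hy : y ^ n = 1) : σ y = y := by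
  by_contra hne
  obtain ⟨-, htriv⟩ := (tl_mem_inertiaSubgroupIn_iff A σ).1 hσ
  have hvy : A.valuation y = 1 := tl_valuation_eq_one_of_pow_eq_one A hn0 hy
  have hyA : y ∈ A := by rw [← ValuationSubring.valuation_le_one_iff, hvy]
  have hy0 : y ≠ 0 := by
    intro h0
    rw [h0, map_zero] at hvy
    exact zero_ne_one hvy
  have hlt0 : A.valuation (σ y - y) < 1 :=
    (ValuationSubring.mem_nonunits_iff (A := A)).1 (htriv y hyA)
  have hω : (σ y * y⁻¹) ^ n = 1 := by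
    rw [mul_pow, ← map_pow, hy, map_one, inv_pow, hy, inv_one, one_mul]
  have hω1 : σ y * y⁻¹ ≠ 1 := by
    intro h
    apply hne
    have := congrArg (· * y) h
    simpa [hy0] using this
  have hlt : A.valuation (σ y * y⁻¹ - 1) < 1 := by
    have : σ y * y⁻¹ - 1 = (σ y - y) * y⁻¹ := by
      rw [sub_mul, mul_inv_cancel₀ hy0]
    rw [this, map_mul, map_inv₀, hvy, inv_one, mul_one]
    exact hlt0
  obtain ⟨p, hp, hpn, h1⟩ := rc_zl_valuation_prime_lt_one A hn0 hω hω1 hlt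
  have h2 : A.valuation ((q : ℕ) : Qbar) < 1 :=
    (ValuationSubring.mem_nonunits_iff (A := A)).1 hA
  have hqp : q ≠ p := by
    rintro rfl
    exact hqn hpn
  exact tl_not_two_primes A hp hq hqp h1 h2

/-! ### The roots of unity -/

/-- The `n`-th roots of unity in `ℚ̄`. -/
def rc_zl_mu (n : ℕ) : Set Qbar := {x | x ^ n = 1}

theorem rc_zl_mem_mu {n : ℕ} {x : Qbar} : x ∈ rc_zl_mu n ↔ x ^ n = 1 := Iff.rfl

theorem rc_zl_mu_finite {n : ℕ} (hn0 : n ≠ 0) : (rc_zl_mu n).Finite := by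
  classical
  have h : rc_zl_mu n ⊆ ((Polynomial.nthRootsFinset n (1 : Qbar) : Finset Qbar) : Set Qbar) := by
    intro x hx
    rw [Finset.mem_coe, Polynomial.mem_nthRootsFinset (Nat.pos_of_ne_zero hn0)]
    exact hx
  exact (Finset.finite_toSet _).subset h

theorem rc_zl_mu_mono {n m : ℕ} (h : n ∣ m) : rc_zl_mu n ⊆ rc_zl_mu m := by
  intro x hx
  obtain ⟨k, rfl⟩ := h
  show x ^ (n * k) = 1
  rw [pow_mul, rc_zl_mem_mu.1 hx, one_pow]

/-- `ℚ(μ_n)` is normal over `ℚ`. -/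
theorem rc_zl_normal_adjoin (n : ℕ) : Normal ℚ (IntermediateField.adjoin ℚ (rc_zl_mu n)) := by
  have hnQ : Normal ℚ Qbar :=
    @IsAlgClosure.normal ℚ Qbar _ _ _ ⟨inferInstance, AlgebraicClosure.isAlgebraic ℚ⟩
  refine (IntermediateField.normal_iff_forall_map_le'
    (K := IntermediateField.adjoin ℚ (rc_zl_mu n))).2 ?_
  intro σ
  rw [IntermediateField.adjoin_map]
  apply IntermediateField.adjoin.mono
  rintro _ ⟨x, hx, rfl⟩
  show (σ x) ^ n = 1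
  rw [← map_pow, rc_zl_mem_mu.1 hx, map_one]

/-- `ℚ(μ_n)` is unramified outside `T` when all prime divisors of `n` lie in `T`. -/
theorem rc_zl_inertia_fixes_mu {T : Finset Nat.Primes} {n : ℕ} (hn0 : n ≠ 0)
    (hn : ∀ q : Nat.Primes, (q : ℕ) ∣ n → q ∈ T) (ℓ : Nat.Primes) (hℓ : ℓ ∉ T)
    (A : ValuationSubring Qbar) (hA : A.LiesOverPrime (ℓ : ℕ)) (σ : GQ)
    (hσ : σ ∈ A.inertiaSubgroupIn ℚ) (x : Qbar) (hx : x ∈ rc_zl_mu n) : σ x = x :=
  rc_zl_root_fixed ℓ.2 A hA hσ hn0 (fun h => hℓ (hn ℓ h)) hx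

/-! ### The level -/

variable {T : Finset Nat.Primes}

/-! Helpers for the hypothesis "all prime divisors of `n` lie in `T`". -/

theorem rc_zl_hn_one : ∀ q : Nat.Primes, (q : ℕ) ∣ 1 → q ∈ T := fun q h =>
  absurd (Nat.dvd_one.1 h) q.2.ne_one

theorem rc_zl_hn_prime {q₀ : Nat.Primes} (hq₀ : q₀ ∈ T) :
    ∀ q : Nat.Primes, (q : ℕ) ∣ (q₀ : ℕ) → q ∈ T := fun q h => by
  have : q = q₀ := Subtype.ext ((Nat.prime_dvd_prime_iff_eq q.2 q₀.2).1 h)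
  rwa [this]

theorem rc_zl_hn_mul {n m : ℕ} (hn : ∀ q : Nat.Primes, (q : ℕ) ∣ n → q ∈ T)
    (hm : ∀ q : Nat.Primes, (q : ℕ) ∣ m → q ∈ T) :
    ∀ q : Nat.Primes, (q : ℕ) ∣ n * m → q ∈ T := fun q h =>
  ((Nat.Prime.dvd_mul q.2).1 h).elim (hn q) (hm q)

theorem rc_zl_hn_pow {n : ℕ} (hn : ∀ q : Nat.Primes, (q : ℕ) ∣ n → q ∈ T) (r : ℕ) :
    ∀ q : Nat.Primes, (q : ℕ) ∣ n ^ r → q ∈ T := fun q h =>
  hn q (Nat.Prime.dvd_of_dvd_pow q.2 h)

theorem rc_zl_hn_primePow {p : ℕ} [Fact p.Prime] (hpT : pPrime p ∈ T) (r : ℕ) :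
    ∀ q : Nat.Primes, (q : ℕ) ∣ p ^ r → q ∈ T :=
  rc_zl_hn_pow (rc_zl_hn_prime (q₀ := pPrime p) hpT) r

theorem rc_zl_hn_mono {T' : Finset Nat.Primes} (hTT' : T ⊆ T') {n : ℕ}
    (hn : ∀ q : Nat.Primes, (q : ℕ) ∣ n → q ∈ T) :
    ∀ q : Nat.Primes, (q : ℕ) ∣ n → q ∈ T' := fun q h => hTT' (hn q h)

theorem rc_zl_hn_of_dvd {n m : ℕ} (hnm : n ∣ m) (hm : ∀ q : Nat.Primes, (q : ℕ) ∣ m → q ∈ T) :
    ∀ q : Nat.Primes, (q : ℕ) ∣ n → q ∈ T := fun q h => hm q (dvd_trans h hnm)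

/-- The level `a(μ_n)`, for `n ≠ 0` with all prime divisors in `T`. -/
noncomputable def rc_zl_lev (a : ia_Lev T) (n : ℕ) (hn0 : n ≠ 0)
    (hn : ∀ q : Nat.Primes, (q : ℕ) ∣ n → q ∈ T) : ia_Lev T where
  L := a.L ⊔ IntermediateField.adjoin ℚ (rc_zl_mu n)
  unr := ku_isUnramifiedOutside_sup_adjoin_of_fixed a.unr (rc_zl_mu_finite hn0)
    (fun ℓ hℓ A hA σ hσ y hy => rc_zl_inertia_fixes_mu hn0 hn ℓ hℓ A hA σ hσ y hy)
  nor := @IntermediateField.normal_sup ℚ Qbar _ _ _ a.L (IntermediateField.adjoin ℚ (rc_zl_mu n))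
    a.nor (rc_zl_normal_adjoin n)

section lev

variable (a : ia_Lev T) (n : ℕ) (hn0 : n ≠ 0) (hn : ∀ q : Nat.Primes, (q : ℕ) ∣ n → q ∈ T)

@[simp] theorem rc_zl_lev_L :
    (rc_zl_lev a n hn0 hn).L = a.L ⊔ IntermediateField.adjoin ℚ (rc_zl_mu n) := rfl

theorem rc_zl_le : a ≤ rc_zl_lev a n hn0 hn :=
  le_sup_left (α := IntermediateField ℚ Qbar)

theorem rc_zl_adjoin_le :
    IntermediateField.adjoin ℚ (rc_zl_mu n) ≤ (rc_zl_lev a n hn0 hn).L :=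
  le_sup_right (α := IntermediateField ℚ Qbar)

variable {n} in
theorem rc_zl_mem {x : Qbar} (hx : x ^ n = 1) : x ∈ (rc_zl_lev a n hn0 hn).L :=
  rc_zl_adjoin_le a n hn0 hn (IntermediateField.subset_adjoin ℚ _ hx)

theorem rc_zl_mono {m : ℕ} (hm0 : m ≠ 0) (hm : ∀ q : Nat.Primes, (q : ℕ) ∣ m → q ∈ T)
    (hnm : n ∣ m) : rc_zl_lev a n hn0 hn ≤ rc_zl_lev a m hm0 hm :=
  sup_le_sup_left (α := IntermediateField ℚ Qbar)
    (IntermediateField.adjoin.mono ℚ _ _ (rc_zl_mu_mono hnm)) a.L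

/-- Monotonicity in the base level. -/
theorem rc_zl_mono_base {a b : ia_Lev T} (h : a ≤ b) :
    rc_zl_lev a n hn0 hn ≤ rc_zl_lev b n hn0 hn :=
  sup_le_sup_right (α := IntermediateField ℚ Qbar) h _

/-- A level containing `a` and the `n`-th roots of unity contains `a(μ_n)`. -/
theorem rc_zl_le_of {b : ia_Lev T} (h : a ≤ b) (hb : ∀ x : Qbar, x ^ n = 1 → x ∈ b.L) :
    rc_zl_lev a n hn0 hn ≤ b :=
  sup_le (α := IntermediateField ℚ Qbar) h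
    (IntermediateField.adjoin_le_iff.2 fun x hx => hb x hx)

/-- A primitive `n`-th root of unity of `ℚ̄`, as an element of the level. -/
theorem rc_zl_exists_primitiveRoot :
    ∃ ζ : (rc_zl_lev a n hn0 hn).L, IsPrimitiveRoot ζ n ∧ IsPrimitiveRoot (ζ : Qbar) n := by
  haveI : NeZero n := ⟨hn0⟩
  obtain ⟨ζ, hζ⟩ := HasEnoughRootsOfUnity.exists_primitiveRoot Qbar n
  refine ⟨⟨ζ, rc_zl_mem a hn0 hn hζ.pow_eq_one⟩, ?_, hζ⟩
  refine IsPrimitiveRoot.of_map_of_injective (f := (rc_zl_lev a n hn0 hn).L.val) ?_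
    (rc_zl_lev a n hn0 hn).L.val.injective
  exact hζ

/-- `a(μ_n)` is generated over `a` by the `n`-th roots of unity, as an algebra. -/
theorem rc_zl_adjoin_roots :
    letI := ia_algebra (rc_zl_le a n hn0 hn)
    ∀ x : ↥(rc_zl_lev a n hn0 hn).L,
      x ∈ Algebra.adjoin ↥a.L {b : ↥(rc_zl_lev a n hn0 hn).L | b ^ n = 1} := by
  letI := ia_algebra (rc_zl_le a n hn0 hn)
  show ∀ x : ↥(rc_zl_lev a n hn0 hn).L,
      x ∈ Algebra.adjoin ↥a.L {b : ↥(rc_zl_lev a n hn0 hn).L | b ^ n = 1}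
  have halg : ∀ x ∈ rc_zl_mu n, IsAlgebraic ℚ x := fun x _ =>
    (AlgebraicClosure.isAlgebraic ℚ).isAlgebraic x
  have hsub : (rc_zl_lev a n hn0 hn).L.toSubalgebra =
      a.L.toSubalgebra ⊔ Algebra.adjoin ℚ (rc_zl_mu n) := by
    haveI : Algebra.IsAlgebraic ℚ ↥a.L := Algebra.IsAlgebraic.of_finite ℚ ↥a.L
    rw [rc_zl_lev_L, IntermediateField.sup_toSubalgebra_of_isAlgebraic_left,
      IntermediateField.adjoin_toSubalgebra_of_isAlgebraic halg]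
  have key : ∀ y : Qbar, y ∈ Algebra.adjoin ℚ ((a.L : Set Qbar) ∪ rc_zl_mu n) →
      ∃ hy : y ∈ (rc_zl_lev a n hn0 hn).L, (⟨y, hy⟩ : ↥(rc_zl_lev a n hn0 hn).L) ∈
        Algebra.adjoin ↥a.L {b : ↥(rc_zl_lev a n hn0 hn).L | b ^ n = 1} := by
    intro y hy
    induction hy using Algebra.adjoin_induction with
    | mem x hx =>
      rcases hx with hx | hx
      · refine ⟨rc_zl_le a n hn0 hn hx, ?_⟩
        exact Subalgebra.algebraMap_mem _ (⟨x, hx⟩ : ↥a.L)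
      · refine ⟨rc_zl_mem a hn0 hn hx, ?_⟩
        apply Algebra.subset_adjoin
        show (⟨x, _⟩ : ↥(rc_zl_lev a n hn0 hn).L) ^ n = 1
        apply Subtype.ext
        exact hx
    | algebraMap r =>
      refine ⟨(rc_zl_lev a n hn0 hn).L.algebraMap_mem r, ?_⟩
      exact Subalgebra.algebraMap_mem _ (algebraMap ℚ ↥a.L r)
    | add x y _ _ hx hy =>
      obtain ⟨hx1, hx2⟩ := hx
      obtain ⟨hy1, hy2⟩ := hy
      exact ⟨add_mem hx1 hy1, Subalgebra.add_mem _ hx2 hy2⟩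
    | mul x y _ _ hx hy =>
      obtain ⟨hx1, hx2⟩ := hx
      obtain ⟨hy1, hy2⟩ := hy
      exact ⟨mul_mem hx1 hy1, Subalgebra.mul_mem _ hx2 hy2⟩
  intro x
  have hx : (x : Qbar) ∈ Algebra.adjoin ℚ ((a.L : Set Qbar) ∪ rc_zl_mu n) := by
    rw [Algebra.adjoin_union]
    have : Algebra.adjoin ℚ (a.L : Set Qbar) = a.L.toSubalgebra :=
      Algebra.adjoin_eq a.L.toSubalgebra
    rw [this, ← hsub]
    exact x.2
  obtain ⟨hy, hmem⟩ := key (x : Qbar) hx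
  exact hmem

/-- **`a(μ_n)/a` is a cyclotomic extension.** -/
theorem rc_zl_isCyclotomic :
    letI := ia_algebra (rc_zl_le a n hn0 hn)
    IsCyclotomicExtension {n} ↥a.L ↥(rc_zl_lev a n hn0 hn).L := by
  letI := ia_algebra (rc_zl_le a n hn0 hn)
  show IsCyclotomicExtension {n} ↥a.L ↥(rc_zl_lev a n hn0 hn).L
  haveI : NeZero n := ⟨hn0⟩
  rw [IsCyclotomicExtension.iff_singleton]
  refine ⟨?_, rc_zl_adjoin_roots a n hn0 hn⟩
  obtain ⟨ζ, hζ, -⟩ := rc_zl_exists_primitiveRoot a n hn0 hn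
  exact ⟨ζ, hζ⟩

/-- The relative group `Gal(a(μ_n)/a)` inside `Γ` is the image of `Gal(a(μ_n)/a)`. -/
theorem rc_zl_sub_eq :
    letI := ia_algebra (rc_zl_le a n hn0 hn)
    rc_dg_sub ↥a.L ↥(rc_zl_lev a n hn0 hn).L = (rc_zl_lev a n hn0 hn).rel a := by
  letI := ia_algebra (rc_zl_le a n hn0 hn)
  exact rc_tl_sub_eq_of_isGal _ (ia_isGal (rc_zl_le a n hn0 hn))

/-- **`Gal(a(μ_n)/a)` is commutative.** -/
theorem rc_zl_rel_comm :
    ∀ g ∈ (rc_zl_lev a n hn0 hn).rel a, ∀ g' ∈ (rc_zl_lev a n hn0 hn).rel a,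
      g * g' = g' * g := by
  letI := ia_algebra (rc_zl_le a n hn0 hn)
  haveI := rc_zl_isCyclotomic a n hn0 hn
  haveI : IsMulCommutative
      (↥(rc_zl_lev a n hn0 hn).L ≃ₐ[↥a.L] ↥(rc_zl_lev a n hn0 hn).L) :=
    IsCyclotomicExtension.isMulCommutative {n} ↥a.L ↥(rc_zl_lev a n hn0 hn).L
  intro g hg g' hg'
  rw [← rc_zl_sub_eq a n hn0 hn] at hg hg'
  obtain ⟨x, hx⟩ := (rc_dg_subEquiv ↥a.L ↥(rc_zl_lev a n hn0 hn).L).surjective ⟨g, hg⟩
  obtain ⟨y, hy⟩ := (rc_dg_subEquiv ↥a.L ↥(rc_zl_lev a n hn0 hn).L).surjective ⟨g', hg'⟩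
  have h1 : (⟨g, hg⟩ : ↥(rc_dg_sub ↥a.L ↥(rc_zl_lev a n hn0 hn).L)) * ⟨g', hg'⟩ =
      ⟨g', hg'⟩ * ⟨g, hg⟩ := by
    rw [← hx, ← hy, ← map_mul, ← map_mul, mul_comm']
  exact congrArg Subtype.val h1

/-- The kernel of the restriction `Gal(a(μ_n)/ℚ) → Gal(a/ℚ)` is commutative. -/
theorem rc_zl_ker_comm :
    ∀ g ∈ (ia_Lev.res (rc_zl_le a n hn0 hn)).ker, ∀ g' ∈ (ia_Lev.res (rc_zl_le a n hn0 hn)).ker,
      g * g' = g' * g := by
  rw [ia_Lev.ker_res]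
  exact rc_zl_rel_comm a n hn0 hn

end lev

section tower

variable (a : ia_Lev T) {p : ℕ} [hpF : Fact p.Prime] (hp2 : p ≠ 2) (r : ℕ)
  (hn : ∀ q : Nat.Primes, (q : ℕ) ∣ p ^ r → q ∈ T)

include hp2

/-- For `p` odd, `Gal(a(μ_{p^r})/a)` is cyclic. -/
theorem rc_zl_rel_isCyclic :
    IsCyclic ↥((rc_zl_lev a (p ^ r) (pow_ne_zero r hpF.out.ne_zero) hn).rel a) := by
  letI := ia_algebra (rc_zl_le a (p ^ r) (pow_ne_zero r hpF.out.ne_zero) hn)
  haveI := rc_zl_isCyclotomic a (p ^ r) (pow_ne_zero r hpF.out.ne_zero) hn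
  rw [← rc_zl_sub_eq a (p ^ r) (pow_ne_zero r hpF.out.ne_zero) hn]
  exact rc_tl_isCyclic hp2 r

/-- For `p` odd, the kernel of `Gal(a(μ_{p^r})/ℚ) → Gal(a/ℚ)` is cyclic. -/
theorem rc_zl_ker_isCyclic :
    IsCyclic ↥(ia_Lev.res (rc_zl_le a (p ^ r) (pow_ne_zero r hpF.out.ne_zero) hn)).ker := by
  rw [ia_Lev.ker_res]
  exact rc_zl_rel_isCyclic a hp2 r hn

/-- For `p` odd and `ζ_p ∈ a`, `Gal(a(μ_{p^r})/a)` is a `p`-group. -/
theorem rc_zl_rel_isPGroup (hζ : ∀ ζ : Qbar, ζ ^ p = 1 → ζ ∈ a.L) :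
    IsPGroup p ↥((rc_zl_lev a (p ^ r) (pow_ne_zero r hpF.out.ne_zero) hn).rel a) := by
  letI := ia_algebra (rc_zl_le a (p ^ r) (pow_ne_zero r hpF.out.ne_zero) hn)
  haveI := rc_zl_isCyclotomic a (p ^ r) (pow_ne_zero r hpF.out.ne_zero) hn
  haveI : NeZero p := ⟨hpF.out.ne_zero⟩
  obtain ⟨ζ, hζp⟩ := HasEnoughRootsOfUnity.exists_primitiveRoot Qbar p
  have hζ₁ : IsPrimitiveRoot (⟨ζ, hζ ζ hζp.pow_eq_one⟩ : ↥a.L) p := by
    refine IsPrimitiveRoot.of_map_of_injective (f := a.L.val) ?_ a.L.val.injective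
    exact hζp
  rw [← rc_zl_sub_eq a (p ^ r) (pow_ne_zero r hpF.out.ne_zero) hn]
  exact rc_tl_isPGroup hp2 hζ₁ r

/-- For `p` odd and `ζ_p ∈ a`, the kernel of `Gal(a(μ_{p^r})/ℚ) → Gal(a/ℚ)` is a `p`-group. -/
theorem rc_zl_ker_isPGroup (hζ : ∀ ζ : Qbar, ζ ^ p = 1 → ζ ∈ a.L) :
    IsPGroup p ↥(ia_Lev.res (rc_zl_le a (p ^ r) (pow_ne_zero r hpF.out.ne_zero) hn)).ker := by
  rw [ia_Lev.ker_res]
  exact rc_zl_rel_isPGroup a hp2 r hn hζ

/-- (hNdvd) for `p` odd and `ζ_p ∈ a`, the order of `Gal(a(μ_{p^r})/a)` is divisible by any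
prescribed power of `p` for `r` large. -/
theorem rc_zl_growth (hpT : pPrime p ∈ T) (hζ : ∀ ζ : Qbar, ζ ^ p = 1 → ζ ∈ a.L) (k : ℕ) :
    ∃ r₀, ∀ r, r₀ ≤ r → p ^ k ∣ Nat.card ↥(ia_Lev.res
      (rc_zl_le a (p ^ r) (pow_ne_zero r hpF.out.ne_zero) (rc_zl_hn_primePow hpT r))).ker := by
  haveI : NeZero p := ⟨hpF.out.ne_zero⟩
  obtain ⟨ζ, hζp⟩ := HasEnoughRootsOfUnity.exists_primitiveRoot Qbar p
  have hζ₁ : IsPrimitiveRoot (⟨ζ, hζ ζ hζp.pow_eq_one⟩ : ↥a.L) p := by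
    refine IsPrimitiveRoot.of_map_of_injective (f := a.L.val) ?_ a.L.val.injective
    exact hζp
  obtain ⟨r₀, hr₀⟩ := rc_tl_growth ↥a.L hp2 hζ₁ k
  refine ⟨r₀, fun r hr => ?_⟩
  letI := ia_algebra (rc_zl_le a (p ^ r) (pow_ne_zero r hpF.out.ne_zero)
    (rc_zl_hn_primePow hpT r))
  haveI := rc_zl_isCyclotomic a (p ^ r) (pow_ne_zero r hpF.out.ne_zero)
    (rc_zl_hn_primePow hpT r)
  rw [ia_Lev.ker_res, ← rc_zl_sub_eq a (p ^ r) (pow_ne_zero r hpF.out.ne_zero)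
    (rc_zl_hn_primePow hpT r)]
  exact hr₀ r hr ↥(rc_zl_lev a (p ^ r) (pow_ne_zero r hpF.out.ne_zero)
    (rc_zl_hn_primePow hpT r)).L

/-- (hNdvd), in the shape of `rc_TwoLevel`. -/
theorem rc_zl_hNdvd (hpT : pPrime p ∈ T) (hζ : ∀ ζ : Qbar, ζ ^ p = 1 → ζ ∈ a.L) :
    ∃ r₀, ∀ r, r₀ ≤ r → ordProj[p] (Nat.card a.Γ) ∣ Nat.card ↥(ia_Lev.res
      (rc_zl_le a (p ^ r) (pow_ne_zero r hpF.out.ne_zero) (rc_zl_hn_primePow hpT r))).ker :=
  rc_zl_growth a hp2 hpT hζ ((Nat.card a.Γ).factorization p)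

end tower


end Fermat.Agent.S55
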