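import Fermat.Agent.S55.Recip.RecipCoreField
import Fermat.Agent.S55.Recip.ApproxClass
import Fermat.Agent.S55.Recip.DictCover
import Fermat.Agent.S55.Recip.LevelChange
import Fermat.Agent.S55.Recip.ZetaLevel
import Fermat.Agent.S55.Recip.RecipPPrimary
import Fermat.Agent.S55.Recip.SemilocalH90
import Fermat.Agent.S55.Recip.SemilocalHasse

/-!
# S55 / G4 (C): the reciprocity law at a field level containing `ζ_{l'}` (prefix `rc_rm_`)

* `rc_rm_level` : `rc_co_recip_field` for the concrete data `rc_fd_data p Ω` of a field level `Ω`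
  and the dictionary `rc_tf_dictLev p Ω`, with opaque carriers `E ⊆ F, Z ⊆ Ω.L`;
* `rc_rm_inner` : the reciprocity law `INV (δ_* u) = 0` for a class `u ∈ H²(K, a.Lˣ)` at a level
  `a ∋ ζ_p, ζ_{l'}`, `l'` an auxiliary prime for the exponent of `u`.
-/

set_option autoImplicit false
set_option linter.unusedSectionVars false
set_option linter.style.haveILetI false

open scoped NumberField Pointwise TensorProduct
open IsDedekindDomain CategoryTheory groupCohomology MulAction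
open Fermat.Agent.S14
open ExtCitation
open scoped IsMulCommutative

namespace Fermat.Agent.S55

local notation "Qbar" => AlgebraicClosure ℚ

noncomputable section

section level

variable {T : Finset Nat.Primes} (p : ℕ) [Fact p.Prime]

/-- **The canonical primes of the dictionary are compatible with restriction and conjugation.** -/
theorem rc_rm_dict_under {a Ω : ia_Lev T} (h : a ≤ Ω) (i : rc_fd_Q T) (g : Ω.Γ) :
    letI := ia_algebra h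
    id_under ↥a.L ↥Ω.L (g • (rc_tf_dictLev p Ω i).w) =
      ia_Lev.res h g • (rc_tf_dictLev p a i).w := by
  letI := ia_algebra h
  rcases i with q | q
  · exact rc_lv_place h q.1 g
  · rw [id_under_smul ↥a.L ↥Ω.L (ia_compat_res h g)]
    have h1 : id_under ↥a.L ↥Ω.L (rc_tf_dictLev p Ω (Sum.inr q)).w =
        (rc_tf_dictLev p a (Sum.inr q)).w := congrArg Subtype.val (rc_fd_w_under h q)
    rw [h1]

end level

section atLevel

variable {T : Finset Nat.Primes} (p : ℕ) [Fact p.Prime] (Ω : ia_Lev T)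
  {E F Z : Type} [Field E] [NumberField E] [Field F] [NumberField F] [Field Z] [NumberField Z]
  [Algebra E ↥Ω.L] [IsGalois E ↥Ω.L]
  [Algebra E F] [Algebra F ↥Ω.L] [IsScalarTower E F ↥Ω.L] [IsGalois E F]
  [IsMulCommutative Gal(F/E)]
  [Algebra E Z] [Algebra Z ↥Ω.L] [IsScalarTower E Z ↥Ω.L] [IsGalois E Z]
  [IsMulCommutative Gal(Z/E)]

/-- **The reciprocity chase at a field level** `Ω`, for opaque carriers `E ⊆ F, Z ⊆ Ω.L`:
`F = E(ζ_{p^r})`, `Z/E` cyclic of degree `p ^ c` inside `E(ζ_{l'})`. -/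
theorem rc_rm_level (hp2 : p ≠ 2) (hpT : pPrime p ∈ T) (l' : Nat.Primes) (hl' : l' ∈ T)
    (hl'p : (l' : ℕ) ≠ p)
    [NumberField.IsTotallyComplex E] [IsCyclic Gal(F/E)] {r : ℕ} (hr : 1 ≤ r)
    [IsCyclotomicExtension {p ^ r} E F]
    (hunr : ∀ v : Ideal (𝓞 E), v.IsPrime → ((p : ℕ) : 𝓞 E) ∉ v → am_Unram E F v)
    (t₀ : Gal(Z/E)) {c : ℕ} (hc : 1 ≤ c) (ht₀ : orderOf t₀ = p ^ c)
    (hgen₀ : ∀ t : Gal(Z/E), t ∈ Subgroup.zpowers t₀)
    (hunrZ : ∀ v : Ideal (𝓞 E), v.IsPrime → v ≠ ⊥ → (((l' : ℕ) : ℕ) : 𝓞 E) ∉ v → am_Unram E Z v)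
    (b' : Eˣ) (β : (id_A Z l')ˣ)
    (hβ : rc_cl_normT (E := E) (l' : ℕ) (β : id_A Z l') =
      (1 : ℚ_[(l' : ℕ)]) ⊗ₜ[ℚ] algebraMap E Z (b' : E))
    (hsym : rc_ad_symbol E Z (l' : ℕ) b' = 1)
    (α : groupCohomology (tt_res (rc_dg_sub E ↥Ω.L) (id_KRep ↥Ω.L)) 2) (hα : p ^ c • α = 0)
    (happ : ∀ (g : Ω.Γ) (d : ℕ),
      am_frob E Z (id_under E ↥Ω.L
        (g • (rc_tf_dictLev p Ω (rc_fd_idx T (pPrime p))).w)).asIdeal = t₀ ^ d →
      rc_term (rc_fd_data p Ω) (rc_fd_idx T (pPrime p)) (rc_dg_sub E ↥Ω.L) g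
          ((rr_push (id_diagRep T ↥Ω.L) (rc_dg_sub E ↥Ω.L)).hom α) =
        cy_frac (p ^ c) ((d : ℤ) * id_ordZ E (id_under E ↥Ω.L
          (g • (rc_tf_dictLev p Ω (rc_fd_idx T (pPrime p))).w)) b'))
    (hout : ∀ (q : rc_fd_Q T) (g : Ω.Γ), q ≠ rc_fd_idx T (pPrime p) →
      p ^ c ∣ orderOf (am_frob E F (id_under E ↥Ω.L (g • (rc_tf_dictLev p Ω q).w)).asIdeal) ∨
      (rc_term (rc_fd_data p Ω) q (rc_dg_sub E ↥Ω.L) g
          ((rr_push (id_diagRep T ↥Ω.L) (rc_dg_sub E ↥Ω.L)).hom α) = 0 ∧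
        q ≠ rc_fd_idx T l' ∧
        id_ordZ E (id_under E ↥Ω.L (g • (rc_tf_dictLev p Ω q).w)) b' = 0)) :
    rc_INV (rc_fd_data p Ω) (rc_fd_finSupp p Ω) (rc_dg_sub E ↥Ω.L)
      ((rr_push (id_diagRep T ↥Ω.L) (rc_dg_sub E ↥Ω.L)).hom α) = 0 := by
  have hT : T.Nonempty := ⟨_, hpT⟩
  have hq₀ : rc_fd_idx T (pPrime p) = Sum.inl ⟨pPrime p, hpT⟩ := rc_fd_idx_of_mem hpT
  have hq₁ : rc_fd_idx T l' = Sum.inl ⟨l', hl'⟩ := rc_fd_idx_of_mem hl'
  have hq01 : rc_fd_idx T (pPrime p) ≠ rc_fd_idx T l' := by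
    intro h
    have h1 := (rc_fd_idx_bijective (T := T)).1 h
    exact hl'p (congrArg (fun x : Nat.Primes => (x : ℕ)) h1).symm
  haveI : IsCyclotomicExtension {((pPrime p : Nat.Primes) : ℕ) ^ r} E F :=
    (inferInstance : IsCyclotomicExtension {p ^ r} E F)
  rw [hq₀] at happ hout hq01
  rw [hq₁] at hout hq01
  exact rc_co_recip_field (rc_fd_data p Ω) (rc_fd_finSupp p Ω) (id_diagRep T ↥Ω.L)
    (rc_tf_dictLev p Ω) (rc_dc_huniq p Ω) (rc_dc_hcov p Ω)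
    (pPrime p) (rc_ii_proj T Ω.L ⟨pPrime p, hpT⟩) (Sum.inl ⟨pPrime p, hpT⟩)
    (il_pr (pPrime p) Ω.L) rfl (fun _ => rfl)
    l' (rc_ii_proj T Ω.L ⟨l', hl'⟩) (Sum.inl ⟨l', hl'⟩) hq01
    (il_pr l' Ω.L) rfl (fun _ => rfl)
    (fun z hz => rc_fd_hasse p Ω _ z hz)
    (rr_pp_hinj_field_up T hT p hp2 Ω.L Ω.unr _ _)
    (rr_pp_hH90_field ↥Ω.L _ _)
    (rc_sh_hSL_sum p T Ω.L (rc_fd_out p Ω) ⟨pPrime p, hpT⟩ _)
    (rc_h9_hH90p (pPrime p) Ω.L _ _)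
    hr hunr
    (fun q g hm => by
      have h1 := rc_dc_hqm p Ω (pPrime p) (j := 1) q g (by rwa [pow_one])
      rw [h1, hq₀])
    t₀ hc ht₀ hgen₀ hunrZ
    (fun q g hm => by
      have h1 := rc_dc_hqm p Ω l' (j := 1) q g (by rwa [pow_one])
      rw [h1, hq₁])
    b' β hβ hsym α hα happ hout

end atLevel

section inner

variable {T : Finset Nat.Primes} (p : ℕ) [Fact p.Prime]

/-- **The reciprocity law at a level containing `ζ_p` and `ζ_{l'}`**, `l'` an auxiliary prime for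
the exponent `p ^ k` of the class `u`. -/
theorem rc_rm_inner (hp2 : p ≠ 2) (hpT : pPrime p ∈ T) (a : ia_Lev T)
    (K : Subgroup a.Γ) (ζ₁ : ↥a.L) (hζ₁ : IsPrimitiveRoot ζ₁ p) (hKζ : ∀ g ∈ K, g ζ₁ = ζ₁)
    (l' : Nat.Primes) (hl' : l' ∈ T) (ζl : ↥a.L) (hζl : IsPrimitiveRoot ζl (l' : ℕ))
    {k K' : ℕ} (hK' : k + Nat.log p K.index ≤ K') (hlK : (l' : ℕ) % p ^ K' = 1)
    (hnp : ¬ ∃ x : ZMod (l' : ℕ), x ^ p = (p : ZMod (l' : ℕ)))
    (u : groupCohomology (tt_res K (id_KRep ↥a.L)) 2) (hk : p ^ k • u = 0) :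
    rc_INV (rc_fd_data p a) (rc_fd_finSupp p a) K
      ((rr_push (id_diagRep T ↥a.L) K).hom u) = 0 := by
  classical
  have hp := (Fact.out : p.Prime)
  -- the trivial case
  rcases Nat.eq_zero_or_pos k with rfl | hkpos
  · rw [pow_zero, one_smul] at hk
    rw [hk, map_zero, map_zero]
  have hu : tt_IsPPrimary p u := ⟨k, hk⟩
  have hl'p : (l' : ℕ) ≠ p := by
    intro h
    exact hnp ⟨0, by rw [zero_pow hp.ne_zero, ← h, ZMod.natCast_self]⟩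
  have hco : Nat.Coprime (l' : ℕ) p := (Nat.coprime_primes l'.2 hp).mpr hl'p
  -- the base field
  obtain ⟨E, iF, iN, iA, iG, hsub, hgal, -⟩ := rc_fp_base ↥a.L K
  subst hsub
  obtain ⟨ζ₁', hζ₁'⟩ := hgal.fixed ζ₁ (fun σ hσ => hKζ σ hσ)
  have hζ₁'p : IsPrimitiveRoot ζ₁' p := by
    have h1 : IsPrimitiveRoot (algebraMap E ↥a.L ζ₁') p := hζ₁'.symm ▸ hζ₁
    exact IsPrimitiveRoot.of_map_of_injective h1 (algebraMap E ↥a.L).injective
  haveI : NumberField.IsTotallyComplex E := rc_fs_isTotallyComplex_of_zeta hp2 hζ₁'p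
  haveI : IsGalois ℚ ↥a.L := ⟨⟩
  -- the auxiliary layer
  obtain ⟨Z, _, _, _, _, _, _, _, hcyc, ⟨c, -, hcard⟩, hunrZ, hgrowZ, -, happrox⟩ :=
    rc_fp_aux (E := E) (M := ↥a.L) (p := p) (K := K') l' hlK hnp hζl
  have hfr : Module.finrank ℚ E = (rc_dg_sub E ↥a.L).index :=
    rc_dc_finrank_eq_index (E := E) (M := ↥a.L)
  have hgrowZ' := hgrowZ k (by rw [hfr]; exact hK')
  haveI := hcyc
  obtain ⟨t₀, ht₀gen⟩ := IsCyclic.exists_generator (α := Gal(Z/E))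
  have ht₀ : orderOf t₀ = p ^ c := by
    rw [orderOf_eq_card_of_forall_mem_zpowers ht₀gen, hcard]
  -- the index of `p`
  have hℓ₀ : (rc_tf_dictLev p a (rc_fd_idx T (pPrime p))).ℓ = p := by
    rw [rc_dc_ℓ, rc_fd_prime_idx]
    rfl
  have hq₀mem : ∀ g : a.Γ, ((p : ℕ) : 𝓞 E) ∈
      (id_under E ↥a.L (g • (rc_tf_dictLev p a (rc_fd_idx T (pPrime p))).w)).asIdeal := by
    intro g
    have h1 := rc_dc_mem_of_ell (E := E) (rc_tf_dictLev p a (rc_fd_idx T (pPrime p)))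
      (j := 1) le_rfl g
    rwa [hℓ₀, pow_one] at h1
  have hl'notmem : ∀ g : a.Γ, (((l' : ℕ) : ℕ) : 𝓞 E) ∉
      (id_under E ↥a.L (g • (rc_tf_dictLev p a (rc_fd_idx T (pPrime p))).w)).asIdeal := by
    intro g
    exact ax_natCast_not_mem _
      (id_under E ↥a.L (g • (rc_tf_dictLev p a (rc_fd_idx T (pPrime p))).w)).isPrime.ne_top
      (hq₀mem g) hco
  -- `k ≤ c`
  have hkc : k ≤ c := by
    have h1 := (hgrowZ' _
      (id_under E ↥a.L ((1 : a.Γ) • (rc_tf_dictLev p a (rc_fd_idx T (pPrime p))).w)).isPrime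
      (id_under E ↥a.L ((1 : a.Γ) • (rc_tf_dictLev p a (rc_fd_idx T (pPrime p))).w)).ne_bot
      (hq₀mem 1)).2
    have h2 : p ^ k ∣ p ^ c := by
      rw [← hcard]
      exact h1.trans (orderOf_dvd_natCard _)
    exact (Nat.pow_dvd_pow_iff_le_right hp.one_lt).1 h2
  have hc : 1 ≤ c := le_trans hkpos hkc
  -- the class at level `a`
  set z : groupCohomology (tt_res (rc_dg_sub E ↥a.L) (id_JRep T ↥a.L)) 2 :=
    (rr_push (id_diagRep T ↥a.L) (rc_dg_sub E ↥a.L)).hom u with hzdef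
  have hz : p ^ k • z = 0 := by rw [hzdef, ← map_nsmul, hk, map_zero]
  -- the element `b'`
  obtain ⟨b', ⟨-, ⟨β, hβ⟩, hsym⟩, happb⟩ := rc_ac_exists_elt (rc_fd_data p a) (id_diagRep T ↥a.L)
    (rc_tf_dictLev p a) (rc_fd_idx T (pPrime p)) hq₀mem t₀ ht₀ ht₀gen
    (fun v hv hv0 hpv => (hgrowZ' v hv hv0 hpv).2) (l' : ℕ) hl'notmem
    (fun b => (∃ b₀ : 𝓞 E, (b : E) = (b₀ : E) ∧
        b₀ - 1 ∈ Ideal.span {(((l' : ℕ) : ℕ) : 𝓞 E)}) ∧
      (∃ β : (ℚ_[(l' : ℕ)] ⊗[ℚ] Z)ˣ,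
        rc_cl_normT (E := E) (l' : ℕ) (β : ℚ_[(l' : ℕ)] ⊗[ℚ] Z) =
          (1 : ℚ_[(l' : ℕ)]) ⊗ₜ[ℚ] algebraMap E Z (b : E)) ∧
      rc_ad_symbol E Z (l' : ℕ) b = 1)
    (fun S n hS => by
      obtain ⟨b, h1, h2, h3, h4⟩ := happrox S n hS
      exact ⟨b, ⟨h1, h3, h4⟩, h2⟩) z hz
  -- the finite set of primes of `E` where growth is needed
  obtain ⟨Sg, hSg1, hSg2, hSg3⟩ : ∃ Sg : Finset (Ideal (𝓞 E)),
      (∀ v : HeightOneSpectrum (𝓞 E), id_ordZ E v b' ≠ 0 → v.asIdeal ∈ Sg) ∧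
      (∀ v : Ideal (𝓞 E), v.IsPrime → v ≠ ⊥ → (((l' : ℕ) : ℕ) : 𝓞 E) ∈ v → v ∈ Sg) ∧
      (∀ (q : rc_fd_Q T) (g₀ : a.Γ),
        rc_comp (rc_fd_data p a) q (rc_dg_sub E ↥a.L) g₀ z ≠ 0 →
        ∀ v : Ideal (𝓞 E), v.IsPrime → v ≠ ⊥ →
          ((((rc_fd_prime q : Nat.Primes) : ℕ) : ℕ) : 𝓞 E) ∈ v → v ∈ Sg) := by
    refine ⟨rc_kg_primesOver E (insert (l' : ℕ)
        ((rc_fd_finSupp p a (rc_dg_sub E ↥a.L) z).toFinset.image
          fun i => ((rc_fd_prime i : Nat.Primes) : ℕ))) ∪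
      (id_finite_ordZ_ne_zero E b').toFinset.image (fun v => v.asIdeal), ?_, ?_, ?_⟩
    · intro v hv
      rw [Finset.mem_union]
      right
      exact Finset.mem_image_of_mem _ ((Set.Finite.mem_toFinset _).2 hv)
    · intro v hv hv0 hm
      rw [Finset.mem_union]
      left
      exact rc_kg_mem_primesOver.2 ⟨hv, hv0, (l' : ℕ), Finset.mem_insert_self _ _, l'.2, hm⟩
    · intro q g₀ hne v hv hv0 hm
      rw [Finset.mem_union]
      left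
      refine rc_kg_mem_primesOver.2 ⟨hv, hv0, ((rc_fd_prime q : Nat.Primes) : ℕ),
        Finset.mem_insert_of_mem (Finset.mem_image_of_mem _ ?_), (rc_fd_prime q).2, hm⟩
      exact (Set.Finite.mem_toFinset _).2 ⟨g₀, hne⟩
  -- the level of the tower
  obtain ⟨r, hr, hrg⟩ : ∃ r : ℕ, 1 ≤ r ∧ rc_ax_growthLevel p Sg c ≤ r :=
    ⟨max 1 (rc_ax_growthLevel p Sg c), le_max_left _ _, le_max_right _ _⟩
  obtain ⟨Ω, h, ζr, hζr⟩ : ∃ (Ω : ia_Lev T) (_ : a ≤ Ω) (ζr : ↥Ω.L),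
      IsPrimitiveRoot ζr (p ^ r) := by
    have hn0 : p ^ r ≠ 0 := pow_ne_zero _ hp.ne_zero
    obtain ⟨ζr, hζr, -⟩ := rc_zl_exists_primitiveRoot a (p ^ r) hn0 (rc_zl_hn_primePow hpT r)
    exact ⟨rc_zl_lev a (p ^ r) hn0 (rc_zl_hn_primePow hpT r),
      rc_zl_le a (p ^ r) hn0 (rc_zl_hn_primePow hpT r), ζr, hζr⟩
  -- the algebra structures at level `Ω`
  letI := ia_algebra h
  letI : Algebra E ↥Ω.L := rc_fs_algebra E ↥a.L ↥Ω.L
  haveI : IsScalarTower E ↥a.L ↥Ω.L := rc_fs_isScalarTower E ↥a.L ↥Ω.L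
  letI : Algebra Z ↥Ω.L := rc_fs_algebra Z ↥a.L ↥Ω.L
  haveI : IsScalarTower E Z ↥Ω.L := rc_fp_isScalarTower_comp E Z ↥a.L ↥Ω.L
  haveI : IsGalois ℚ ↥Ω.L := ⟨⟩
  haveI : IsGalois E ↥Ω.L := IsGalois.tower_top_of_isGalois ℚ E ↥Ω.L
  have hsubΩ : rc_dg_sub E ↥Ω.L = (rc_dg_sub E ↥a.L).comap (ia_Lev.res h) :=
    rc_fs_sub_comap (E' := E) (ia_Lev.res h) (ia_compat_res h)
  -- the tower layer
  obtain ⟨F, _, _, _, _, _, _, _, _, hFcyc, -, -, hFunr, hFgrow, -⟩ :=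
    rc_fp_tower_cyc (E := E) (M := ↥Ω.L) hp2 hζ₁'p hr hζr
  haveI := hFcyc
  -- the places
  have hplace : ∀ (q : rc_fd_Q T) (g : Ω.Γ),
      id_under E ↥Ω.L (g • (rc_tf_dictLev p Ω q).w) =
        id_under E ↥a.L (ia_Lev.res h g • (rc_tf_dictLev p a q).w) := by
    intro q g
    rw [← id_under_trans E ↥a.L ↥Ω.L, rc_rm_dict_under p h q g]
  -- lift to `Ω`
  rw [← rc_lv_INV_inf p h (rc_dg_sub E ↥a.L) u hu]
  have key : ∀ (𝒢 : Subgroup Ω.Γ) (_ : rc_dg_sub E ↥Ω.L = 𝒢)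
      (α : groupCohomology (tt_res 𝒢 (id_KRep ↥Ω.L)) 2), p ^ c • α = 0 →
      (∀ (q : rc_fd_Q T) (g : Ω.Γ), rc_term (rc_fd_data p Ω) q 𝒢 g
          ((rr_push (id_diagRep T ↥Ω.L) 𝒢).hom α) =
        rc_term (rc_fd_data p a) q (rc_dg_sub E ↥a.L) (ia_Lev.res h g) z) →
      rc_INV (rc_fd_data p Ω) (rc_fd_finSupp p Ω) 𝒢
        ((rr_push (id_diagRep T ↥Ω.L) 𝒢).hom α) = 0 := by
    intro 𝒢 h𝒢
    subst h𝒢
    intro α hα hterm
    refine rc_rm_level p Ω hp2 hpT l' hl' hl'p hr hFunr t₀ hc ht₀ ht₀gen hunrZ b' β hβ hsym α hα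
      ?_ ?_
    · -- happ
      intro g d hd
      rw [hterm, hplace]
      rw [hplace] at hd
      exact happb (ia_Lev.res h g) d hd
    · -- hout
      intro q g hq
      have hℓv : (((rc_tf_dictLev p Ω q).ℓ : ℕ) : 𝓞 E) ∈
          (id_under E ↥Ω.L (g • (rc_tf_dictLev p Ω q).w)).asIdeal := by
        have h1 := rc_dc_mem_of_ell (E := E) (rc_tf_dictLev p Ω q) (j := 1) le_rfl g
        rwa [pow_one] at h1
      have hpv : ((p : ℕ) : 𝓞 E) ∉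
          (id_under E ↥Ω.L (g • (rc_tf_dictLev p Ω q).w)).asIdeal := by
        intro hm
        apply hq
        exact rc_dc_hqm p Ω (pPrime p) (j := 1) q g (by rwa [pow_one])
      by_cases hvS : (id_under E ↥Ω.L (g • (rc_tf_dictLev p Ω q).w)).asIdeal ∈ Sg
      · left
        exact hFgrow Sg c hrg _ hvS
          (id_under E ↥Ω.L (g • (rc_tf_dictLev p Ω q).w)).isPrime
          (id_under E ↥Ω.L (g • (rc_tf_dictLev p Ω q).w)).ne_bot hpv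
      · right
        refine ⟨?_, ?_, ?_⟩
        · -- the term vanishes
          rw [hterm]
          by_contra hne
          apply hvS
          refine hSg3 q (ia_Lev.res h g) (fun h0 => hne ?_) _
            (id_under E ↥Ω.L (g • (rc_tf_dictLev p Ω q).w)).isPrime
            (id_under E ↥Ω.L (g • (rc_tf_dictLev p Ω q).w)).ne_bot ?_
          · rw [rc_term_apply, h0, map_zero]
          · rw [← rc_dc_ℓ p Ω q]
            exact hℓv
        · -- `q ≠ q₁`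
          intro hq1
          apply hvS
          refine hSg2 _ (id_under E ↥Ω.L (g • (rc_tf_dictLev p Ω q).w)).isPrime
            (id_under E ↥Ω.L (g • (rc_tf_dictLev p Ω q).w)).ne_bot ?_
          have h1 : (rc_tf_dictLev p Ω q).ℓ = (l' : ℕ) := by
            rw [rc_dc_ℓ, hq1, rc_fd_prime_idx]
          rw [← h1]
          exact hℓv
        · -- `ord_v b' = 0`
          by_contra hne
          exact hvS (hSg1 _ hne)
  refine key _ hsubΩ _ ?_ (fun q g => rc_lv_term_inf p h q _ g u hu)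
  -- `p ^ c • inf u = 0`
  rw [← map_nsmul]
  have h0 : p ^ c • u = 0 := by
    obtain ⟨e, rfl⟩ := Nat.exists_eq_add_of_le hkc
    rw [pow_add, mul_comm, mul_smul, hk, smul_zero]
  rw [h0, map_zero]

end inner

end

end Fermat.Agent.S55
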