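import Mathlib
import Fermat.Agent.S14.AuxPrime.Final

/-!
# S55 / Recip / AuxPrimeK  (node P1b of the reciprocity block G4)

The auxiliary prime of level `p^K`: for an odd prime `p`, `K ≥ 1` and a finite set `B` of primes
there is a prime `l ∉ B` with `l ≡ 1 mod p^K` such that `p` is not a `p`-th power modulo `l`
(`rc_ax_exists_aux_prime_pow`).  Consequently the class of `p` generates the `p`-primary quotient
of `(ℤ/l)ˣ`, and the subfield of degree `p^K` of `ℚ(ζ_l)` has large local degree at `p`.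

Proof: the density statement `ax_densityOracle` of S14 applied to `k = ℚ(ζ_{p^K})` and the Kummer
extension `k(p^{1/p})`, which is non-trivial because `p` is not a `p`-th power in the abelian
field `ℚ(ζ_{p^K})` (`rc_ax_not_pow_in_cyclotomic`).
-/

set_option autoImplicit false

namespace Fermat.Agent.S55

open Polynomial NumberField

/-- A prime is not a `p`-th power of a natural number. -/
theorem rc_ax_prime_ne_pow {p : ℕ} (hp : p.Prime) (s : ℕ) : p ≠ s ^ p := by
  intro h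
  rcases Nat.lt_or_ge s 2 with hs | hs
  · have : s ^ p ≤ 1 := by
      interval_cases s
      · rw [zero_pow hp.ne_zero]; exact Nat.zero_le 1
      · rw [one_pow]
    have := hp.one_lt
    omega
  · have h1 : 2 ^ p ≤ s ^ p := Nat.pow_le_pow_left hs p
    have h2 : p < 2 ^ p := Nat.lt_two_pow_self
    omega

/-- A prime `p` is not a `p`-th power in `ℚ`. -/
theorem rc_ax_not_pow_rat {p : ℕ} (hp : p.Prime) (τ : ℚ) : τ ^ p ≠ (p : ℚ) := by
  intro h
  obtain ⟨s, hs⟩ := Fermat.Agent.S14.ax_nat_pow_of_rat_pow (p := p) (n := p) (τ := τ) h.symm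
  exact rc_ax_prime_ne_pow hp s hs

/-- For an odd prime `p` and `K ≥ 1`, `p` is not a `p`-th power in `ℚ(ζ_{p^K})`
(the Galois group is abelian and contains an element inverting the `p`-th roots of unity). -/
theorem rc_ax_not_pow_in_cyclotomic {p : ℕ} [hpF : Fact p.Prime] (hp2 : p ≠ 2) {K : ℕ}
    (hK : 1 ≤ K) {k : Type*} [Field k] [NumberField k] [IsCyclotomicExtension {p ^ K} ℚ k]
    (γ : k) : γ ^ p ≠ (p : k) := by
  intro hγ
  have hp := hpF.out
  have : NeZero (p ^ K) := ⟨pow_ne_zero _ hp.ne_zero⟩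
  have hab : IsAbelianGalois ℚ k := IsCyclotomicExtension.isAbelianGalois {p ^ K} ℚ k
  have hgal : IsGalois ℚ k := hab.toIsGalois
  have hcomm : IsMulCommutative Gal(k/ℚ) := hab.toIsMulCommutative
  have hζ := IsCyclotomicExtension.zeta_spec (p ^ K) ℚ k
  set ζ := IsCyclotomicExtension.zeta (p ^ K) ℚ k with hζdef
  have hirr : Irreducible (cyclotomic (p ^ K) ℚ) := cyclotomic.irreducible_rat (NeZero.pos _)
  set σ₀ : Gal(k/ℚ) := IsCyclotomicExtension.fromZetaAut hζ.inv hirr with hσ₀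
  have hσ₀ζ : σ₀ ζ = ζ⁻¹ := IsCyclotomicExtension.fromZetaAut_spec hζ.inv hirr
  have hpk : (p : k) ≠ 0 := by exact_mod_cast hp.ne_zero
  have hγ0 : γ ≠ 0 := by
    rintro rfl
    rw [zero_pow hp.ne_zero] at hγ
    exact hpk hγ.symm
  -- `p`-th roots of unity are inverted by `σ₀`
  have hinv : ∀ x : k, x ^ p = 1 → σ₀ x = x⁻¹ := by
    intro x hx
    have hxn : x ^ (p ^ K) = 1 := by
      obtain ⟨K', rfl⟩ : ∃ K', K = K' + 1 := ⟨K - 1, by omega⟩
      rw [pow_succ', pow_mul, hx, one_pow]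
    obtain ⟨i, -, rfl⟩ := hζ.eq_pow_of_pow_eq_one hxn
    rw [map_pow, hσ₀ζ, inv_pow]
  have hu : ∀ τ : Gal(k/ℚ), (τ γ / γ) ^ p = 1 := by
    intro τ
    rw [div_pow, ← map_pow, hγ, map_natCast, ← hγ, div_self (pow_ne_zero _ hγ0)]
  -- an odd prime
  obtain ⟨t, ht⟩ : ∃ t, p = 2 * t + 1 := by
    rcases hp.eq_two_or_odd with h | h
    · exact absurd h hp2
    · exact ⟨p / 2, by omega⟩
  have hsq : ∀ x : k, x ^ p = 1 → x ^ 2 = 1 → x = 1 := by
    intro x hx1 hx2
    have : x ^ p = x := by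
      rw [ht, pow_succ, pow_mul, hx2, one_pow, one_mul]
    rw [← this, hx1]
  set w := σ₀ γ / γ with hw
  have hwp : w ^ p = 1 := hu σ₀
  set v := w ^ (t + 1) with hv
  have hv2 : v ^ 2 = w := by
    rw [hv, ← pow_mul]
    have : (t + 1) * 2 = p + 1 := by omega
    rw [this, pow_succ, hwp, one_mul]
  have hvp : v ^ p = 1 := by rw [hv, ← pow_mul, mul_comm, pow_mul, hwp, one_pow]
  have hw0 : w ≠ 0 := by
    intro h
    rw [h, zero_pow hp.ne_zero] at hwp
    exact zero_ne_one hwp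
  have hv0 : v ≠ 0 := pow_ne_zero _ hw0
  have hfix : ∀ τ : Gal(k/ℚ), τ (γ * v) = γ * v := by
    intro τ
    set u := τ γ / γ with hudef
    have hup : u ^ p = 1 := hu τ
    have hu0 : u ≠ 0 := by
      intro h
      rw [h, zero_pow hp.ne_zero] at hup
      exact zero_ne_one hup
    have hc : σ₀ (τ γ) = τ (σ₀ γ) := by
      have h := mul_comm' σ₀ τ
      have := congrArg (fun f : Gal(k/ℚ) => f γ) h
      simpa [AlgEquiv.mul_apply] using this
    have h1 : τ γ = u * γ := (div_mul_cancel₀ _ hγ0).symm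
    have h2 : σ₀ γ = w * γ := (div_mul_cancel₀ _ hγ0).symm
    have hτv : (τ v) ^ p = 1 := by rw [← map_pow, hvp, map_one]
    have hτv0 : τ v ≠ 0 := by
      intro h
      rw [h, zero_pow hp.ne_zero] at hτv
      exact zero_ne_one hτv
    rw [h1, h2, map_mul, map_mul, hinv u hup, h2, h1] at hc
    -- hc : u⁻¹ * (w * γ) = τ w * (u * γ)
    have hc2 : w = τ w * u ^ 2 := by
      have : u⁻¹ * w * γ = τ w * u * γ := by
        rw [mul_assoc, hc, mul_assoc]
      have h3 := mul_right_cancel₀ hγ0 this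
      calc w = u * (u⁻¹ * w) := by rw [← mul_assoc, mul_inv_cancel₀ hu0, one_mul]
        _ = u * (τ w * u) := by rw [h3]
        _ = τ w * u ^ 2 := by ring
    have hτw : τ w = (τ v) ^ 2 := by rw [← map_pow, hv2]
    have hkey : (u * τ v / v) ^ 2 = 1 := by
      rw [div_pow, mul_pow, hv2]
      rw [hτw] at hc2
      rw [hc2]
      have : (τ v) ^ 2 * u ^ 2 ≠ 0 := mul_ne_zero (pow_ne_zero _ hτv0) (pow_ne_zero _ hu0)
      rw [mul_comm (u ^ 2)]
      exact div_self this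
    have hkeyp : (u * τ v / v) ^ p = 1 := by
      rw [div_pow, mul_pow, hup, hτv, hvp, one_mul, div_one]
    have hone := hsq _ hkeyp hkey
    have h4 : u * τ v = v := by
      have := (div_eq_one_iff_eq hv0).mp hone
      exact this
    rw [map_mul, h1]
    calc u * γ * τ v = γ * (u * τ v) := by ring
      _ = γ * v := by rw [h4]
  obtain ⟨c, hc⟩ := IntermediateField.mem_bot.mp
    ((IsGalois.mem_bot_iff_fixed (γ * v)).mpr hfix)
  apply rc_ax_not_pow_rat hp c
  apply (algebraMap ℚ k).injective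
  rw [map_pow, hc, mul_pow, hγ, hvp, mul_one, map_natCast]

/-- A prime `q` of `ℚ(ζ_{p^K})` of prime norm `r ≠ p` has `r ≡ 1 mod p^K`. -/
theorem rc_ax_mod_pow_eq_one {p : ℕ} [hpF : Fact p.Prime] {K : ℕ} (hK : 1 ≤ K) {k : Type*}
    [Field k] [NumberField k] [IsCyclotomicExtension {p ^ K} ℚ k] (q : Ideal (𝓞 k)) {r : ℕ}
    (hr : r.Prime) (hq : Ideal.absNorm q = r) (hrp : r ≠ p) : r % p ^ K = 1 := by
  have hp := hpF.out
  have hn0 : p ^ K ≠ 0 := pow_ne_zero _ hp.ne_zero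
  have : NeZero (p ^ K) := ⟨hn0⟩
  have : Fact r.Prime := ⟨hr⟩
  obtain ⟨K', rfl⟩ : ∃ K', K = K' + 1 := ⟨K - 1, by omega⟩
  obtain ⟨ζ, hζ⟩ := IsCyclotomicExtension.exists_isPrimitiveRoot ℚ k
    (Set.mem_singleton (p ^ (K' + 1))) hn0
  have hζO := hζ.toInteger_isPrimitiveRoot
  set z := hζ.toInteger with hz
  -- `z₁ = z ^ (p ^ K')` is a primitive `p`-th root of unity
  have hz₁ : IsPrimitiveRoot (z ^ (p ^ K')) p := by
    apply hζO.pow (Nat.pos_of_ne_zero hn0)
    rw [pow_succ]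
  have hsum : ∑ i ∈ Finset.range p, (z ^ (p ^ K')) ^ i = 0 := hz₁.geom_sum_eq_zero hp.one_lt
  have hcard : Nat.card (𝓞 k ⧸ q) = r := by
    rw [← hq, Ideal.absNorm_apply, Submodule.cardQuot_apply]
  have : Finite (𝓞 k ⧸ q) := Nat.finite_of_card_ne_zero (by rw [hcard]; exact hr.ne_zero)
  have := Fintype.ofFinite (𝓞 k ⧸ q)
  have hcard' : Fintype.card (𝓞 k ⧸ q) = r := by rw [← Nat.card_eq_fintype_card, hcard]
  let e : ZMod r ≃+* (𝓞 k ⧸ q) := ZMod.ringEquivOfPrime _ hr hcard'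
  have hqtop : q ≠ ⊤ := by
    rintro rfl
    rw [Ideal.absNorm_top] at hq
    exact hr.one_lt.ne hq
  have hrq : (r : 𝓞 k) ∈ q := hq ▸ Ideal.absNorm_mem q
  have hpq : (p : 𝓞 k) ∉ q :=
    Fermat.Agent.S14.ax_natCast_not_mem q hqtop hrq
      ((Nat.coprime_primes hp hr).mpr (Ne.symm hrp))
  set y : ZMod r := e.symm (Ideal.Quotient.mk q z) with hy
  have hyp : y ^ p ^ (K' + 1) = 1 := by
    rw [hy, ← map_pow, ← map_pow, hζO.pow_eq_one, map_one, map_one]
  have hy1 : ¬ y ^ p ^ K' = 1 := by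
    intro h
    have h1 : Ideal.Quotient.mk q (z ^ (p ^ K')) = 1 := by
      have := congrArg e h
      rwa [hy, ← map_pow, ← map_pow, RingEquiv.apply_symm_apply, map_one] at this
    apply hpq
    rw [← Ideal.Quotient.eq_zero_iff_mem]
    have h2 := congrArg (Ideal.Quotient.mk q) hsum
    rw [map_sum] at h2
    simp only [map_pow] at h2 h1
    simp only [h1, one_pow, Finset.sum_const, Finset.card_range, nsmul_eq_mul, mul_one,
      map_zero] at h2
    rw [map_natCast]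
    exact h2
  have hy0 : y ≠ 0 := by
    rintro h
    rw [h, zero_pow hn0] at hyp
    exact zero_ne_one hyp
  have hord : orderOf y = p ^ (K' + 1) := orderOf_eq_prime_pow hy1 hyp
  have hdvd : p ^ (K' + 1) ∣ r - 1 := hord ▸ ZMod.orderOf_dvd_card_sub_one hy0
  obtain ⟨t, ht⟩ := hdvd
  have hr1 : r = 1 + p ^ (K' + 1) * t := by
    have := hr.one_lt
    omega
  have h1lt : 1 < p ^ (K' + 1) := Nat.one_lt_pow (Nat.succ_ne_zero K') hp.one_lt
  rw [hr1, Nat.add_mul_mod_self_left, Nat.mod_eq_of_lt h1lt]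

/-- **Auxiliary prime of level `p^K`.** For an odd prime `p`, `K ≥ 1` and a finite set `B` there is
a prime `l ∉ B`, `l ≡ 1 mod p^K`, such that `p` is not a `p`-th power modulo `l`. -/
theorem rc_ax_exists_aux_prime_pow (p : ℕ) [hpF : Fact p.Prime] (hp2 : p ≠ 2) (K : ℕ)
    (hK : 1 ≤ K) (B : Finset ℕ) :
    ∃ l : ℕ, l.Prime ∧ l ∉ B ∧ l % p ^ K = 1 ∧ ¬ ∃ x : ZMod l, x ^ p = (p : ZMod l) := by
  classical
  have hp := hpF.out
  have hn0 : p ^ K ≠ 0 := pow_ne_zero _ hp.ne_zero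
  have : NeZero (p ^ K) := ⟨hn0⟩
  let k := CyclotomicField (p ^ K) ℚ
  let E₂ := (X ^ p - C ((p : ℕ) : k)).SplittingField
  have : IsCyclotomicExtension {p ^ K} ℚ k := CyclotomicField.isCyclotomicExtension (p ^ K) ℚ
  have nf₂ : NumberField E₂ := NumberField.of_module_finite k E₂
  have g₂ : IsGalois k E₂ := Fermat.Agent.S14.ax_isGalois_E₁ (p := p) p
  have hlt : Module.finrank k k < Module.finrank k E₂ := by
    rw [Module.finrank_self]
    by_contra hle
    have hpos : 0 < Module.finrank k E₂ := Module.finrank_pos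
    have h1 : Module.finrank k E₂ = 1 := by omega
    have hbij := Algebra.finrank_eq_one_iff_bijective_algebraMap.mp h1
    obtain ⟨β₂, hβ₂⟩ := Fermat.Agent.S14.ax_splitting_root (E := E₂) hp.ne_zero ((p : ℕ) : k)
    obtain ⟨β, rfl⟩ := hbij.2 β₂
    have hβ : β ^ p = ((p : ℕ) : k) := by
      apply hbij.1
      rw [map_pow, hβ₂]
    exact rc_ax_not_pow_in_cyclotomic hp2 hK β hβ
  set S' : Finset ℕ := B ∪ {p} with hS'
  have hfin : {I : Ideal (𝓞 k) | Ideal.absNorm I ∈ S'}.Finite := by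
    have : {I : Ideal (𝓞 k) | Ideal.absNorm I ∈ S'} =
        ⋃ n ∈ S', {I : Ideal (𝓞 k) | Ideal.absNorm I = n} := by
      ext I
      simp
    rw [this]
    exact Set.Finite.biUnion S'.finite_toSet (fun n _ => Ideal.finite_setOfPred_absNorm_eq n)
  obtain ⟨q, hqprime, hqT, hrprime, -, hsplit₂⟩ :=
    Fermat.Agent.S14.ax_densityOracle k k E₂ hlt hfin.toFinset
  set r := Ideal.absNorm q with hr
  have hrS' : r ∉ S' := by
    intro h
    apply hqT
    rw [Set.Finite.mem_toFinset]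
    exact h
  simp only [hS', Finset.mem_union, Finset.mem_singleton, not_or] at hrS'
  obtain ⟨hrB, hrp⟩ := hrS'
  have hmodK : r % p ^ K = 1 := rc_ax_mod_pow_eq_one hK q hrprime rfl hrp
  have hmod : r % p = 1 := by
    have hdvd : p ∣ p ^ K := dvd_pow_self p (by omega)
    have h1 : r % p ^ K % p = r % p := Nat.mod_mod_of_dvd r hdvd
    rw [hmodK] at h1
    rw [← h1]
    exact Nat.mod_eq_of_lt hp.one_lt
  refine ⟨r, hrprime, hrB, hmodK, fun hx => hsplit₂ ?_⟩
  intro Q hQp hQq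
  have hrdp : ¬ r ∣ p := by
    intro h
    exact hrp ((Nat.prime_dvd_prime_iff_eq hrprime hp).mp h)
  set Rts : Set (𝓞 E₂) := {x | x ^ p = ((p : ℕ) : 𝓞 E₂)} with hRts
  have hgen : ∀ σ : Gal(E₂/k), (∀ α ∈ Rts, σ • α = α) → σ = 1 := by
    intro σ hσ
    have hadj := IsSplittingField.adjoin_rootSet E₂ (X ^ p - C ((p : ℕ) : k))
    have hEq : Set.EqOn (σ : E₂ →ₐ[k] E₂) ((1 : Gal(E₂/k)) : E₂ →ₐ[k] E₂)
        ((X ^ p - C ((p : ℕ) : k) : k[X]).rootSet E₂) := by
      intro y hy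
      rw [mem_rootSet] at hy
      have hy2 : y ^ p = ((p : ℕ) : E₂) := by
        have h' : y ^ p = algebraMap k E₂ ((p : ℕ) : k) := by
          have := hy.2
          simpa [sub_eq_zero] using this
        rw [h', map_natCast]
      obtain ⟨x, hx1, hx2⟩ := Fermat.Agent.S14.ax_exists_integer_root hp.ne_zero hy2
      have := congrArg (algebraMap (𝓞 E₂) E₂) (hσ x hx2)
      simp only [AlgEquiv.coe_toAlgHom, AlgEquiv.one_apply]
      rw [← hx1]
      exact this
    exact AlgEquiv.coe_toAlgHom_injective (AlgHom.ext_of_adjoin_eq_top hadj hEq)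
  have hR : ∀ α ∈ Rts, ∃ c : ℕ, α ^ p = (c : 𝓞 E₂) ∧ ¬ r ∣ c ∧
      ∃ x : ZMod r, x ^ p = (c : ZMod r) := fun α hα => ⟨p, hα, hrdp, hx⟩
  have := hqprime
  have := hQp
  have := hQq
  exact Fermat.Agent.S14.ax_ramificationIdx_inertiaDeg_eq_one hp hrprime hmod Rts hgen hR q rfl Q

end Fermat.Agent.S55
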