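import Fermat.Agent.S55.LocalCF.PClass
import Fermat.Agent.S55.Tate.ClassModuleSylow
import Fermat.Agent.S55.Recip.TotalInv

/-!
# S55 / G4: the class invariant of an idele class module (abstract form, prefix `rc_ci_`)

`π : G →* Γ` is a surjection of finite groups with kernel `N` (think `G = Gal(L_b/ℚ)`,
`Γ = Gal(L_a/ℚ)`, `L_b/L_a` cyclic of `p`-power degree), `C : Rep ℤ Γ` and `A : Rep ℤ G` are the
class modules of the two levels with `C = A^N` (`lc_IsInfl π φ`).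

A *global formation* on `A` (`rc_GlobForm p A`) consists of the idele module `J` with the quotient
map `g : J ⟶ A`, a family of total invariants `INV K : H²(K, J) → ℚ/ℤ` (`K ≤ G`) compatible with
restriction (`INV_res`, (U2)) and killing the classes which die in `H²(K, A)` (`recip`,
reciprocity).

Under
* `hN1`  : `H¹(N, A) = 0` (for the kernels of the layers),
* `hbound`: the `p`-primary part of `H²(K, C)` has at most `|K|_p` elements (second inequality),
* `hinjN`: a `p`-primary class of `H²(N, J)` with total invariant `0` dies in `H²(N, A)`,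
* `hext` : for every `K' ≥ N` and `p ^ k ∣ |N|` there is a class of `H²(K', J)` killed by `p ^ k`
  whose total invariant has order `p ^ k`; `hNdvd`: `|Γ|_p ∣ |N|`,

every `p`-primary class `x` of `H²(K, C)` (`K ≤ Γ`) inflates to the image of a `p`-primary class `z`
of `H²(π⁻¹ K, J)` (`rc_ci_exists_lift`), and `inv_K x := INV_{π⁻¹ K} z` (`rc_ci_invLayer_eq`) makes
`C` a `PClassModule p` (`rc_ci_pclass`).
-/

set_option autoImplicit false

namespace Fermat.Agent.S55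

open CategoryTheory groupCohomology Rep

/-! ### Global formations -/

section basic

/-- the morphism induced on a layer -/
noncomputable def rc_ci_resMor {k G : Type} [CommRing k] [Group G] {J A : Rep.{0} k G}
    (g : J ⟶ A) (K : Subgroup G) : tt_res K J ⟶ tt_res K A :=
  ofHom ⟨g.hom.toLinearMap, fun x => g.hom.isIntertwining' x.1⟩

theorem rc_ci_resMor_apply {k G : Type} [CommRing k] [Group G] {J A : Rep.{0} k G} (g : J ⟶ A)
    (K : Subgroup G) (x : J.V) : (rc_ci_resMor g K).hom x = g.hom x := rfl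

/-- coefficient maps commute with restriction between nested subgroups -/
theorem rc_ci_coeff_resSub {k G : Type} [CommRing k] [Group G] {J A : Rep.{0} k G} (g : J ⟶ A)
    {K' K : Subgroup G} (hle : K' ≤ K) :
    tt_resSub J hle 2 ≫ tt_coeffMap (rc_ci_resMor g K') 2 =
      tt_coeffMap (rc_ci_resMor g K) 2 ≫ tt_resSub A hle 2 := by
  unfold tt_resSub
  rw [← map_comp, ← map_comp]
  refine groupCohomology.map_congr ?_ ?_ 2
  · ext x
    rfl
  · ext m
    rfl

/-- A global formation on the class module `A`: ideles, total invariants, (U2), reciprocity. -/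
structure rc_GlobForm (p : ℕ) {G : Type} [Group G] (A : Rep.{0} ℤ G) where
  J : Rep.{0} ℤ G
  g : J ⟶ A
  INV : ∀ K : Subgroup G, groupCohomology (tt_res K J) 2 →+ tt_QZ
  INV_res : ∀ {K' K : Subgroup G} (hle : K' ≤ K) (z : groupCohomology (tt_res K J) 2),
    tt_IsPPrimary p z → INV K' ((tt_resSub J hle 2).hom z) = K'.relIndex K • INV K z
  recip : ∀ (K : Subgroup G) (z : groupCohomology (tt_res K J) 2), tt_IsPPrimary p z →
    (tt_coeffMap (rc_ci_resMor g K) 2).hom z = 0 → INV K z = 0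

variable {p : ℕ} {G : Type} [Group G] {A : Rep.{0} ℤ G} (𝔉 : rc_GlobForm p A)

/-- the map `H²(K, J) → H²(K, A)` -/
noncomputable abbrev rc_GlobForm.gK (K : Subgroup G) :
    groupCohomology (tt_res K 𝔉.J) 2 ⟶ groupCohomology (tt_res K A) 2 :=
  tt_coeffMap (rc_ci_resMor 𝔉.g K) 2

theorem rc_ci_g_resSub {K' K : Subgroup G} (hle : K' ≤ K) :
    tt_resSub 𝔉.J hle 2 ≫ 𝔉.gK K' = 𝔉.gK K ≫ tt_resSub A hle 2 :=
  rc_ci_coeff_resSub 𝔉.g hle

theorem rc_ci_g_resSub_apply {K' K : Subgroup G} (hle : K' ≤ K)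
    (z : groupCohomology (tt_res K 𝔉.J) 2) :
    (𝔉.gK K').hom ((tt_resSub 𝔉.J hle 2).hom z) = (tt_resSub A hle 2).hom ((𝔉.gK K).hom z) :=
  congrArg (fun f => f.hom z) (rc_ci_g_resSub 𝔉 hle)

/-- the `p`-primary part of an abelian group -/
def rc_ci_pPart (p : ℕ) (M : Type*) [AddCommGroup M] : AddSubgroup M where
  carrier := {z | tt_IsPPrimary p z}
  zero_mem' := tt_isPPrimary_zero
  add_mem' := tt_isPPrimary_add
  neg_mem' := by
    rintro z ⟨k, hk⟩
    exact ⟨k, by rw [smul_neg, hk, neg_zero]⟩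

/-- The total invariant descends to the image of the `p`-primary classes in `H²(K, A)` and extends
(arbitrarily) to all of `H²(K, A)`. -/
theorem rc_ci_exists_inv (K : Subgroup G) :
    ∃ j : groupCohomology (tt_res K A) 2 →+ tt_QZ,
      ∀ z : groupCohomology (tt_res K 𝔉.J) 2, tt_IsPPrimary p z →
        j ((𝔉.gK K).hom z) = 𝔉.INV K z := by
  let Z := rc_ci_pPart p (groupCohomology (tt_res K 𝔉.J) 2)
  let f : ↥Z →+ groupCohomology (tt_res K A) 2 :=
    (𝔉.gK K).hom.toAddMonoidHom.comp Z.subtype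
  let I : ↥Z →+ tt_QZ := (𝔉.INV K).comp Z.subtype
  have hker : f.ker ≤ I.ker := by
    intro z hz
    rw [AddMonoidHom.mem_ker] at hz ⊢
    exact 𝔉.recip K z.1 z.2 hz
  obtain ⟨j, hj⟩ :=
    (Module.Baer.of_divisible (AddCircle (1 : ℚ))).extension_property_addMonoidHom
      (QuotientAddGroup.kerLift f) (QuotientAddGroup.kerLift_injective f)
      (QuotientAddGroup.lift f.ker I hker)
  refine ⟨j, fun z hz => ?_⟩
  have h1 := congrArg (fun t : ↥Z ⧸ f.ker →+ tt_QZ =>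
    t (QuotientAddGroup.mk (⟨z, hz⟩ : ↥Z))) hj
  exact h1

/-- **The descended invariant** on `H²(K, A)` (meaningful on the images of `p`-primary idele
classes). -/
noncomputable def rc_ci_inv (K : Subgroup G) : groupCohomology (tt_res K A) 2 →+ tt_QZ :=
  Classical.choose (rc_ci_exists_inv 𝔉 K)

theorem rc_ci_inv_g (K : Subgroup G) (z : groupCohomology (tt_res K 𝔉.J) 2)
    (hz : tt_IsPPrimary p z) : rc_ci_inv 𝔉 K ((𝔉.gK K).hom z) = 𝔉.INV K z :=
  Classical.choose_spec (rc_ci_exists_inv 𝔉 K) z hz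

end basic

/-! ### The top layer -/

section top

variable {k Γ : Type} [CommRing k] [Group Γ] (C : Rep.{0} k Γ)

/-- `H²(Γ, C) ≅ H²(⊤, C)`. -/
noncomputable def rc_ci_topIso (n : ℕ) :
    groupCohomology C n ≅ groupCohomology (tt_res (⊤ : Subgroup Γ) C) n :=
  mapIso (Subgroup.topEquiv.symm : Γ ≃* ↥(⊤ : Subgroup Γ)) (LinearEquiv.refl k C.V)
    (fun _ => rfl) n

theorem rc_ci_topIso_hom (n : ℕ) : (rc_ci_topIso C n).hom = tt_resMap ⊤ C n := by
  unfold rc_ci_topIso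
  refine groupCohomology.map_congr ?_ ?_ n
  · ext x
    rfl
  · ext m
    rfl

theorem rc_ci_resTop_bijective (n : ℕ) : Function.Bijective (tt_resMap ⊤ C n).hom := by
  rw [← rc_ci_topIso_hom]
  exact ConcreteCategory.bijective_of_isIso (rc_ci_topIso C n).hom

end top

/-! ### Inflation on the layers -/

section infl

variable {k G Γ : Type} [CommRing k] [Group G] [Group Γ]
  {A : Rep.{0} k G} (π : G →* Γ) {C : Rep.{0} k Γ} (φ : res π C ⟶ A)

/-- inflation on the layer `K` -/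
noncomputable abbrev rc_ci_inf (K : Subgroup Γ) :
    groupCohomology (tt_res K C) 2 ⟶ groupCohomology (tt_res (K.comap π) A) 2 :=
  lc_inf₂ (lc_piSub π K) (lc_phiSub π φ K)

theorem rc_ci_inf_resSub {K' K : Subgroup Γ} (hle : K' ≤ K) :
    tt_resSub C hle 2 ≫ rc_ci_inf π φ K' =
      rc_ci_inf π φ K ≫ tt_resSub A (Subgroup.comap_mono hle) 2 := by
  unfold tt_resSub
  rw [← map_comp, ← map_comp]
  refine groupCohomology.map_congr ?_ ?_ 2
  · ext x
    rfl
  · ext m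
    rfl

theorem rc_ci_inf_resSub_apply {K' K : Subgroup Γ} (hle : K' ≤ K)
    (x : groupCohomology (tt_res K C) 2) :
    (rc_ci_inf π φ K').hom ((tt_resSub C hle 2).hom x) =
      (tt_resSub A (Subgroup.comap_mono hle) 2).hom ((rc_ci_inf π φ K).hom x) :=
  congrArg (fun f => f.hom x) (rc_ci_inf_resSub π φ hle)

end infl

/-! ### The relative situation -/

section rel

variable {p : ℕ} [hp : Fact p.Prime] {G Γ : Type} [Group G] [Group Γ] [Finite G] [Finite Γ]
  {A : Rep.{0} ℤ G} (𝔉 : rc_GlobForm p A)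
  (π : G →* Γ) {C : Rep.{0} ℤ Γ} (φ : res π C ⟶ A)

/-- **The invariant map of the layer `K ≤ Γ`**: inflate to `π⁻¹ K` and apply the descended total
invariant. -/
noncomputable def rc_ci_invLayer (K : Subgroup Γ) : groupCohomology (tt_res K C) 2 →+ tt_QZ :=
  (rc_ci_inv 𝔉 (K.comap π)).comp (rc_ci_inf π φ K).hom.toAddMonoidHom

omit hp [Finite G] [Finite Γ] in
theorem rc_ci_invLayer_apply (K : Subgroup Γ) (x : groupCohomology (tt_res K C) 2) :
    rc_ci_invLayer 𝔉 π φ K x = rc_ci_inv 𝔉 (K.comap π) ((rc_ci_inf π φ K).hom x) := rfl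

omit hp [Finite G] [Finite Γ] in
/-- The characterisation of the invariant. -/
theorem rc_ci_invLayer_eq (K : Subgroup Γ) (x : groupCohomology (tt_res K C) 2)
    (z : groupCohomology (tt_res (K.comap π) 𝔉.J) 2) (hz : tt_IsPPrimary p z)
    (h : (𝔉.gK (K.comap π)).hom z = (rc_ci_inf π φ K).hom x) :
    rc_ci_invLayer 𝔉 π φ K x = 𝔉.INV (K.comap π) z := by
  rw [rc_ci_invLayer_apply, ← h, rc_ci_inv_g 𝔉 _ z hz]

variable {π φ} (hπ : lc_IsInfl π φ)
  (hN1 : ∀ K : Subgroup Γ, Subsingleton (groupCohomology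
    (Rep.res (lc_piSub π K).ker.subtype (Rep.res (K.comap π).subtype A)) 1))
  (hbound : ∀ K : Subgroup Γ,
    Finite {z : groupCohomology (tt_res K C) 2 // tt_IsPPrimary p z} ∧
      Nat.card {z : groupCohomology (tt_res K C) 2 // tt_IsPPrimary p z} ≤
        ordProj[p] (Nat.card K))
  (hinjN : ∀ N₀ : Subgroup G, N₀ = π.ker → ∀ z : groupCohomology (tt_res N₀ 𝔉.J) 2,
    tt_IsPPrimary p z → 𝔉.INV N₀ z = 0 → (𝔉.gK N₀).hom z = 0)
  (hext : ∀ K' : Subgroup G, π.ker ≤ K' → ∀ k : ℕ, p ^ k ∣ Nat.card π.ker →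
    ∃ z : groupCohomology (tt_res K' 𝔉.J) 2, p ^ k • z = 0 ∧
      addOrderOf (𝔉.INV K' z) = p ^ k)
  (hNdvd : ordProj[p] (Nat.card Γ) ∣ Nat.card π.ker)

include hπ hN1 hbound hinjN hext hNdvd

omit hp [Finite G] in
/-- **Key lemma.**  For every layer `K ≤ Γ` the `p`-primary part of `H²(K, C)` is generated by a
class `x₀` whose inflation is the image of an idele class `ζ₀` of `π⁻¹ K` whose total invariant has
order `|K|_p`. -/
theorem rc_ci_key (K : Subgroup Γ) :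
    ∃ (x₀ : groupCohomology (tt_res K C) 2)
      (ζ₀ : groupCohomology (tt_res (K.comap π) 𝔉.J) 2),
      ordProj[p] (Nat.card K) • ζ₀ = 0 ∧
      addOrderOf (𝔉.INV (K.comap π) ζ₀) = ordProj[p] (Nat.card K) ∧
      (rc_ci_inf π φ K).hom x₀ = (𝔉.gK (K.comap π)).hom ζ₀ ∧
      ordProj[p] (Nat.card K) • x₀ = 0 ∧
      ∀ x : groupCohomology (tt_res K C) 2, tt_IsPPrimary p x → ∃ i : ℕ, x = i • x₀ := by
  set n := ordProj[p] (Nat.card K) with hn
  have hker_le : π.ker ≤ K.comap π := fun x hx => by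
    rw [Subgroup.mem_comap, MonoidHom.mem_ker.1 hx]
    exact K.one_mem
  have hndvd : n ∣ ordProj[p] (Nat.card Γ) :=
    Nat.ordProj_dvd_ordProj_of_dvd Nat.card_pos.ne' (Subgroup.card_subgroup_dvd_card K) p
  obtain ⟨ζ₀, hζ0, hζord⟩ := hext (K.comap π) hker_le ((Nat.card K).factorization p)
    (hndvd.trans hNdvd)
  have hζp : tt_IsPPrimary p ζ₀ := ⟨(Nat.card K).factorization p, hζ0⟩
  -- the kernel of the layer, as a subgroup of `G`
  have hN₀le : tt_psImage (K.comap π) (lc_piSub π K).ker ≤ K.comap π := tt_psImage_le _ _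
  have hN₀eq : tt_psImage (K.comap π) (lc_piSub π K).ker = π.ker := by
    ext x
    constructor
    · rintro ⟨y, hy, rfl⟩
      have h1 : lc_piSub π K y = 1 := MonoidHom.mem_ker.1 hy
      have h2 : ((lc_piSub π K y : ↥K) : Γ) = 1 := by rw [h1]; rfl
      exact MonoidHom.mem_ker.2 h2
    · intro hx
      refine ⟨⟨x, hker_le hx⟩, ?_, rfl⟩
      apply MonoidHom.mem_ker.2
      apply Subtype.ext
      exact MonoidHom.mem_ker.1 hx
  have hrel : (tt_psImage (K.comap π) (lc_piSub π K).ker).relIndex (K.comap π) = Nat.card K := by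
    have h1 : (tt_psImage (K.comap π) (lc_piSub π K).ker).subgroupOf (K.comap π) =
        (lc_piSub π K).ker :=
      Subgroup.comap_map_eq_self_of_injective (K.comap π).subtype_injective _
    rw [Subgroup.relIndex, h1]
    exact lc_index_ker (lc_isInfl_sub hπ K)
  have hINV0 : 𝔉.INV _ ((tt_resSub 𝔉.J hN₀le 2).hom ζ₀) = 0 := by
    rw [𝔉.INV_res hN₀le ζ₀ hζp, hrel]
    obtain ⟨c, hc⟩ : n ∣ Nat.card K := Nat.ordProj_dvd _ _
    rw [hc, mul_comm, mul_smul, ← map_nsmul, hζ0, map_zero, smul_zero]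
  have hg0 := hinjN _ hN₀eq _
    (tt_isPPrimary_map (tt_resSub 𝔉.J hN₀le 2).hom.toAddMonoidHom hζp) hINV0
  have hnat : (tt_resSub A hN₀le 2).hom ((𝔉.gK (K.comap π)).hom ζ₀) = 0 := by
    rw [← rc_ci_g_resSub_apply]
    exact hg0
  have hres : (ir_res₂ (Rep.res (K.comap π).subtype A) (lc_piSub π K).ker).hom
      ((𝔉.gK (K.comap π)).hom ζ₀) = 0 := by
    have e := tt_resSub_image A (K.comap π) (lc_piSub π K).ker 2
    have e2 := congrArg (fun f => f.hom ((𝔉.gK (K.comap π)).hom ζ₀)) e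
    refine e2.trans ?_
    have h3 : ∀ {X Y Z : ModuleCat ℤ} (f : X ⟶ Y) (g : Y ⟶ Z) (x : X),
        (f ≫ g).hom x = g.hom (f.hom x) := fun _ _ _ => rfl
    rw [h3, hnat, map_zero]
  obtain ⟨x₀, hx₀⟩ := lc_inf₂_exact (lc_isInfl_sub hπ K) (hN1 K) _ hres
  have hinj := lc_inf₂_injective (lc_isInfl_sub hπ K) (hN1 K)
  have hx₀n : n • x₀ = 0 := by
    apply hinj
    rw [map_nsmul, hx₀, ← map_nsmul, hζ0, map_zero, map_zero]
  obtain ⟨hfin, hle⟩ := hbound K
  let h : Fin n → {z : groupCohomology (tt_res K C) 2 // tt_IsPPrimary p z} :=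
    fun i => ⟨i.1 • x₀, ⟨(Nat.card K).factorization p, by
      rw [smul_comm]
      exact (congrArg (fun t => i.1 • t) hx₀n).trans (smul_zero _)⟩⟩
  have hinjh : Function.Injective h := by
    intro i j hij
    have h1 : i.1 • x₀ = j.1 • x₀ := congrArg Subtype.val hij
    have h2 : i.1 • 𝔉.INV (K.comap π) ζ₀ = j.1 • 𝔉.INV (K.comap π) ζ₀ := by
      have h3 := congrArg (fun x => rc_ci_inv 𝔉 (K.comap π) ((rc_ci_inf π φ K).hom x)) h1
      simp only [map_nsmul] at h3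
      rw [hx₀, rc_ci_inv_g 𝔉 _ ζ₀ hζp] at h3
      exact h3
    rw [nsmul_eq_nsmul_iff_modEq, hζord] at h2
    exact Fin.ext (Nat.ModEq.eq_of_lt_of_lt h2 i.2 j.2)
  have hbij : Function.Bijective h :=
    hinjh.bijective_of_nat_card_le (by rw [Nat.card_fin]; exact hle)
  refine ⟨x₀, ζ₀, hζ0, hζord, hx₀, hx₀n, fun x hx => ?_⟩
  obtain ⟨i, hi⟩ := hbij.2 ⟨x, hx⟩
  exact ⟨i.1, (congrArg Subtype.val hi).symm⟩

/-- Every `p`-primary class of a layer inflates to the image of a `p`-primary idele class. -/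
theorem rc_ci_exists_lift (K : Subgroup Γ) (x : groupCohomology (tt_res K C) 2)
    (hx : tt_IsPPrimary p x) :
    ∃ z : groupCohomology (tt_res (K.comap π) 𝔉.J) 2, tt_IsPPrimary p z ∧
      (𝔉.gK (K.comap π)).hom z = (rc_ci_inf π φ K).hom x := by
  obtain ⟨x₀, ζ₀, hζ0, -, hx₀, -, hall⟩ := rc_ci_key 𝔉 hπ hN1 hbound hinjN hext hNdvd K
  obtain ⟨i, rfl⟩ := hall x hx
  refine ⟨i • ζ₀, tt_isPPrimary_nsmul i ⟨(Nat.card K).factorization p, hζ0⟩, ?_⟩
  rw [map_nsmul, map_nsmul, hx₀]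

/-- The invariant of a layer is injective on `p`-primary classes. -/
theorem rc_ci_invLayer_inj (K : Subgroup Γ) (x : groupCohomology (tt_res K C) 2)
    (hx : tt_IsPPrimary p x) (h0 : rc_ci_invLayer 𝔉 π φ K x = 0) : x = 0 := by
  obtain ⟨x₀, ζ₀, hζ0, hζord, hx₀, hx₀n, hall⟩ := rc_ci_key 𝔉 hπ hN1 hbound hinjN hext hNdvd K
  obtain ⟨i, rfl⟩ := hall x hx
  have hζp : tt_IsPPrimary p ζ₀ := ⟨(Nat.card K).factorization p, hζ0⟩
  rw [map_nsmul, rc_ci_invLayer_eq 𝔉 π φ K x₀ ζ₀ hζp hx₀.symm,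
    ← addOrderOf_dvd_iff_nsmul_eq_zero, hζord] at h0
  obtain ⟨c, hc⟩ := h0
  rw [hc, mul_comm, mul_smul, hx₀n, smul_zero]

/-- Invariants and restriction. -/
theorem rc_ci_invLayer_res (K : Subgroup Γ) (z : groupCohomology C 2) (hz : tt_IsPPrimary p z) :
    rc_ci_invLayer 𝔉 π φ K ((tt_resMap K C 2).hom z) =
      K.index • rc_ci_invLayer 𝔉 π φ ⊤ ((tt_resMap ⊤ C 2).hom z) := by
  have hx : tt_IsPPrimary p ((tt_resMap ⊤ C 2).hom z) :=
    tt_isPPrimary_map (tt_resMap ⊤ C 2).hom.toAddMonoidHom hz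
  obtain ⟨ζ, hζp, hζ⟩ := rc_ci_exists_lift 𝔉 hπ hN1 hbound hinjN hext hNdvd ⊤ _ hx
  have hle : K.comap π ≤ (⊤ : Subgroup Γ).comap π := Subgroup.comap_mono le_top
  have h1 : (tt_resMap K C 2).hom z =
      (tt_resSub C (le_top : K ≤ ⊤) 2).hom ((tt_resMap ⊤ C 2).hom z) :=
    (tt_resSub_resMap_apply C le_top 2 z).symm
  have h2 : (𝔉.gK (K.comap π)).hom ((tt_resSub 𝔉.J hle 2).hom ζ) =
      (rc_ci_inf π φ K).hom ((tt_resMap K C 2).hom z) := by
    rw [h1, rc_ci_inf_resSub_apply, ← hζ, rc_ci_g_resSub_apply]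
  rw [rc_ci_invLayer_eq 𝔉 π φ K _ ((tt_resSub 𝔉.J hle 2).hom ζ)
      (tt_isPPrimary_map (tt_resSub 𝔉.J hle 2).hom.toAddMonoidHom hζp) h2,
    rc_ci_invLayer_eq 𝔉 π φ ⊤ _ ζ hζp hζ, 𝔉.INV_res hle ζ hζp]
  congr 1
  rw [Subgroup.comap_top, Subgroup.relIndex_top_right,
    Subgroup.index_comap_of_surjective K hπ.surj]

/-- A `p`-primary class whose invariant has order `|Γ|_p`. -/
theorem rc_ci_invLayer_gen :
    ∃ u : groupCohomology C 2, tt_IsPPrimary p u ∧
      addOrderOf (rc_ci_invLayer 𝔉 π φ ⊤ ((tt_resMap ⊤ C 2).hom u)) =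
        ordProj[p] (Nat.card Γ) := by
  obtain ⟨x₀, ζ₀, hζ0, hζord, hx₀, hx₀n, -⟩ := rc_ci_key 𝔉 hπ hN1 hbound hinjN hext hNdvd ⊤
  have hζp : tt_IsPPrimary p ζ₀ := ⟨(Nat.card (⊤ : Subgroup Γ)).factorization p, hζ0⟩
  obtain ⟨u, hu⟩ := (rc_ci_resTop_bijective C 2).2 x₀
  refine ⟨u, ⟨(Nat.card (⊤ : Subgroup Γ)).factorization p, ?_⟩, ?_⟩
  · apply (rc_ci_resTop_bijective C 2).1
    rw [map_nsmul, hu, map_zero]
    exact hx₀n
  · rw [hu, rc_ci_invLayer_eq 𝔉 π φ ⊤ x₀ ζ₀ hζp hx₀.symm, hζord, Subgroup.card_top]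

end rel

/-! ### The `p`-class module -/

section pclass

variable {p : ℕ} [hp : Fact p.Prime] {G Γ : Type} [Group G] [Group Γ] [Finite G] [Finite Γ]
  {A : Rep.{0} ℤ G} (𝔉 : rc_GlobForm p A)
  {π : G →* Γ} {C : Rep.{0} ℤ Γ} {φ : res π C ⟶ A}

/-- **The `p`-class module attached to a global formation** on a cyclic `p`-layer above. -/
noncomputable def rc_ci_pclass (hπ : lc_IsInfl π φ)
    (hN1 : ∀ K : Subgroup Γ, Subsingleton (groupCohomology
      (Rep.res (lc_piSub π K).ker.subtype (Rep.res (K.comap π).subtype A)) 1))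
    (hC1 : ∀ (K : Subgroup Γ) (x : groupCohomology (tt_res K C) 1), p • x = 0 → x = 0)
    (hbound : ∀ K : Subgroup Γ,
      Finite {z : groupCohomology (tt_res K C) 2 // tt_IsPPrimary p z} ∧
        Nat.card {z : groupCohomology (tt_res K C) 2 // tt_IsPPrimary p z} ≤
          ordProj[p] (Nat.card K))
    (hinjN : ∀ N₀ : Subgroup G, N₀ = π.ker → ∀ z : groupCohomology (tt_res N₀ 𝔉.J) 2,
      tt_IsPPrimary p z → 𝔉.INV N₀ z = 0 → (𝔉.gK N₀).hom z = 0)
    (hext : ∀ K' : Subgroup G, π.ker ≤ K' → ∀ k : ℕ, p ^ k ∣ Nat.card π.ker →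
      ∃ z : groupCohomology (tt_res K' 𝔉.J) 2, p ^ k • z = 0 ∧
        addOrderOf (𝔉.INV K' z) = p ^ k)
    (hNdvd : ordProj[p] (Nat.card Γ) ∣ Nat.card π.ker) :
    PClassModule p C where
  inv K := rc_ci_invLayer 𝔉 π φ K
  h1 := hC1
  inv_inj K z hz h0 := rc_ci_invLayer_inj 𝔉 hπ hN1 hbound hinjN hext hNdvd K z hz h0
  inv_gen := rc_ci_invLayer_gen 𝔉 hπ hN1 hbound hinjN hext hNdvd
  inv_res K z hz := rc_ci_invLayer_res 𝔉 hπ hN1 hbound hinjN hext hNdvd K z hz

theorem rc_ci_pclass_inv (hπ : lc_IsInfl π φ)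
    (hN1 : ∀ K : Subgroup Γ, Subsingleton (groupCohomology
      (Rep.res (lc_piSub π K).ker.subtype (Rep.res (K.comap π).subtype A)) 1))
    (hC1 : ∀ (K : Subgroup Γ) (x : groupCohomology (tt_res K C) 1), p • x = 0 → x = 0)
    (hbound : ∀ K : Subgroup Γ,
      Finite {z : groupCohomology (tt_res K C) 2 // tt_IsPPrimary p z} ∧
        Nat.card {z : groupCohomology (tt_res K C) 2 // tt_IsPPrimary p z} ≤
          ordProj[p] (Nat.card K))
    (hinjN : ∀ N₀ : Subgroup G, N₀ = π.ker → ∀ z : groupCohomology (tt_res N₀ 𝔉.J) 2,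
      tt_IsPPrimary p z → 𝔉.INV N₀ z = 0 → (𝔉.gK N₀).hom z = 0)
    (hext : ∀ K' : Subgroup G, π.ker ≤ K' → ∀ k : ℕ, p ^ k ∣ Nat.card π.ker →
      ∃ z : groupCohomology (tt_res K' 𝔉.J) 2, p ^ k • z = 0 ∧
        addOrderOf (𝔉.INV K' z) = p ^ k)
    (hNdvd : ordProj[p] (Nat.card Γ) ∣ Nat.card π.ker)
    (K : Subgroup Γ) :
    (rc_ci_pclass 𝔉 hπ hN1 hC1 hbound hinjN hext hNdvd).inv K = rc_ci_invLayer 𝔉 π φ K := rfl

/-- **The characterisation of the class invariant**: `inv_K x = INV_{π⁻¹ K} z` whenever the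
`p`-primary idele class `z` maps to the inflation of `x`. -/
theorem rc_ci_inv_eq (hπ : lc_IsInfl π φ)
    (hN1 : ∀ K : Subgroup Γ, Subsingleton (groupCohomology
      (Rep.res (lc_piSub π K).ker.subtype (Rep.res (K.comap π).subtype A)) 1))
    (hC1 : ∀ (K : Subgroup Γ) (x : groupCohomology (tt_res K C) 1), p • x = 0 → x = 0)
    (hbound : ∀ K : Subgroup Γ,
      Finite {z : groupCohomology (tt_res K C) 2 // tt_IsPPrimary p z} ∧
        Nat.card {z : groupCohomology (tt_res K C) 2 // tt_IsPPrimary p z} ≤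
          ordProj[p] (Nat.card K))
    (hinjN : ∀ N₀ : Subgroup G, N₀ = π.ker → ∀ z : groupCohomology (tt_res N₀ 𝔉.J) 2,
      tt_IsPPrimary p z → 𝔉.INV N₀ z = 0 → (𝔉.gK N₀).hom z = 0)
    (hext : ∀ K' : Subgroup G, π.ker ≤ K' → ∀ k : ℕ, p ^ k ∣ Nat.card π.ker →
      ∃ z : groupCohomology (tt_res K' 𝔉.J) 2, p ^ k • z = 0 ∧
        addOrderOf (𝔉.INV K' z) = p ^ k)
    (hNdvd : ordProj[p] (Nat.card Γ) ∣ Nat.card π.ker)
    (K : Subgroup Γ) (x : groupCohomology (tt_res K C) 2)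
    (z : groupCohomology (tt_res (K.comap π) 𝔉.J) 2) (hz : tt_IsPPrimary p z)
    (h : (𝔉.gK (K.comap π)).hom z = (rc_ci_inf π φ K).hom x) :
    (rc_ci_pclass 𝔉 hπ hN1 hC1 hbound hinjN hext hNdvd).inv K x = 𝔉.INV (K.comap π) z :=
  rc_ci_invLayer_eq 𝔉 π φ K x z hz h

end pclass

end Fermat.Agent.S55
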