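import Fermat.Agent.S55.Recip.TChangeIdele
import Fermat.Agent.S55.Recip.FieldData

/-!
# S55 / G4 (E): the `T`-change for the field data `rc_fd_data` (prefix `rc_tq_`)

Instantiation of `Recip/TChangeIdele.lean` for helper19's concrete data on field levels
(`Recip/FieldData.lean`): for `T ⊆ T'` and a field level `b : ia_Lev T` (so `b.mono hTT'` is the
same field as a `T'`-level),

* `rc_tq_outPlace_fd p a q : rc_tq_OutPlace (rc_fd_out p a) q q.1 q.2` (the outside places of the
  field data are unramified places at the canonical primes);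
* `rc_tq_INV_tchange_fd`: `INV^T_K (κ_* z) = INV^{T'}_K z` for `p`-primary `z ∈ H²(K, J_{T'}(b))`;
* `rc_tq_INV_tchange_fd_diag`: `INV^T_K (δ_T u) = INV^{T'}_K (δ_{T'} u)` for `u ∈ H²(K, b.Lˣ)`.
-/

set_option autoImplicit false
set_option linter.unusedSectionVars false
set_option linter.style.haveILetI false

open scoped TensorProduct Pointwise
open ExtCitation NumberField IsDedekindDomain CategoryTheory groupCohomology

namespace Fermat.Agent.S55

local notation "Qbar" => AlgebraicClosure ℚ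

noncomputable section

variable {T T' : Finset Nat.Primes} (p : ℕ) [Fact p.Prime]

/-- the canonical primes of `Recip/OutsidePlace.lean` and of `Recip/TChangePlace.lean` agree -/
theorem rc_tq_op_v_eq (L : IntermediateField ℚ Qbar) [FiniteDimensional ℚ L] [IsGalois ℚ L]
    [NumberField L] (q : Nat.Primes) : rc_op_v L q = rc_tq_w q L :=
  rc_tq_eq_w q L rfl

theorem rc_tq_fd_w_eq (a : ia_Lev T) (q : {q : Nat.Primes // q ∉ T}) :
    rc_fd_w a q = ⟨rc_tq_w q.1 a.L, rc_tq_w_primeTo q.1 a.L T q.2⟩ :=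
  Subtype.ext (rc_tq_op_v_eq a.L q.1)

/-- **The outside places of the field data are unramified places at the canonical primes.** -/
def rc_tq_outPlace_fd (a : ia_Lev T) (q : {q : Nat.Primes // q ∉ T}) :
    rc_tq_OutPlace (rc_fd_out p a) q q.1 q.2 where
  hD := rc_op_stabilizer T a.L q
  val := AddEquiv.refl ℤ
  hpr z := congrArg (fun v => z.2.toAdd v) (rc_tq_fd_w_eq a q)
  U := zc_unr (rc_io_frob (rc_fd_w a) (rc_fd_hw a) (rc_fd_unram a) q)
      (rc_io_frob_gen (rc_fd_w a) (rc_fd_hw a) (rc_fd_unram a) q) p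
  hI := rfl
  hv _ := rfl
  hgen := rc_io_frob_gen (rc_fd_w a) (rc_fd_hw a) (rc_fd_unram a) q
  hfrob x := by
    have h := rc_io_frob_spec (rc_fd_w a) (rc_fd_hw a) (rc_fd_unram a) q x
    rw [rc_tq_fd_w_eq a q] at h
    exact h

/-- **(E) for the field data**: enlarging `T` to `T'` does not change the total invariant
(`κ = icm_JRep : J_{T'}(b) ⟶ J_T(b)`). -/
theorem rc_tq_INV_tchange_fd (hTT' : T ⊆ T') (b : ia_Lev T) (K : Subgroup b.Γ)
    (z : groupCohomology (tt_res K (id_JRep T' ↥b.L)) 2) (hz : tt_IsPPrimary p z) :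
    rc_INV (rc_fd_data p b) (rc_fd_finSupp p b) K
        ((tt_coeffMap ((Rep.resFunctor K.subtype).map (icm_JRep ↥b.L hTT')) 2).hom z) =
      rc_INV (rc_fd_data p (b.mono hTT')) (rc_fd_finSupp p (b.mono hTT')) K z :=
  rc_tq_INV_tchange hTT' b.unr (fun u => rc_tq_outPlace_fd p (b.mono hTT') u)
    (fun u => rc_tq_outPlace_fd p b u) (rc_fd_finSupp p (b.mono hTT')) (rc_fd_finSupp p b) K z hz

/-- **(E) for the principal ideles of a field level.** -/
theorem rc_tq_INV_tchange_fd_diag (hTT' : T ⊆ T') (b : ia_Lev T) (K : Subgroup b.Γ)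
    (u : groupCohomology (tt_res K (id_KRep ↥b.L)) 2) (hu : tt_IsPPrimary p u) :
    rc_INV (rc_fd_data p b) (rc_fd_finSupp p b) K
        ((tt_coeffMap ((Rep.resFunctor K.subtype).map (id_diagRep T ↥b.L)) 2).hom u) =
      rc_INV (rc_fd_data p (b.mono hTT')) (rc_fd_finSupp p (b.mono hTT')) K
        ((tt_coeffMap ((Rep.resFunctor K.subtype).map (id_diagRep T' ↥b.L)) 2).hom u) :=
  rc_tq_INV_tchange_diag hTT' b.unr (fun u => rc_tq_outPlace_fd p (b.mono hTT') u)
    (fun u => rc_tq_outPlace_fd p b u) (rc_fd_finSupp p (b.mono hTT')) (rc_fd_finSupp p b) K u hu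

end

end Fermat.Agent.S55
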