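import Fermat.Agent.S55.Recip.LevelChange
import Fermat.Agent.S55.Recip.TChangeField

/-!
# S55 / G4 (C): enlarging the set of primes and the level (prefix `rc_rl_`)

`rc_rl_INV_lift`: for `T ⊆ T'`, a field level `b` for `T`, a field level `Ω ≥ b` for `T'` and a
`p`-primary class `u ∈ H²(K, b.Lˣ)`: the total invariant of `δ_T u` at level `b` is the total
invariant of `δ_{T'} (inf u)` at level `Ω` (steps (3)/(4) of the reciprocity chain:
helper28's `T`-change followed by helper19's inflation).
-/

set_option autoImplicit false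

open CategoryTheory groupCohomology

namespace Fermat.Agent.S55

local notation "Qbar" => AlgebraicClosure ℚ

variable {T T' : Finset Nat.Primes} (p : ℕ) [Fact p.Prime]

/-- **Change of the set of primes and of the level for the total invariant of a principal idele
class.** -/
theorem rc_rl_INV_lift (hTT' : T ⊆ T') (b : ia_Lev T) (Ω : ia_Lev T') (h : b.mono hTT' ≤ Ω)
    (K : Subgroup b.Γ) (u : groupCohomology (tt_res K (id_KRep ↥b.L)) 2)
    (hu : tt_IsPPrimary p u) :
    rc_INV (rc_fd_data p b) (rc_fd_finSupp p b) K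
        ((tt_coeffMap ((Rep.resFunctor K.subtype).map (id_diagRep T ↥b.L)) 2).hom u) =
      rc_INV (rc_fd_data p Ω) (rc_fd_finSupp p Ω)
        (Subgroup.comap (ia_Lev.res h) (K : Subgroup (b.mono hTT').Γ))
        ((rr_push (id_diagRep T' ↥Ω.L)
            (Subgroup.comap (ia_Lev.res h) (K : Subgroup (b.mono hTT').Γ))).hom
          ((lc_inf₂ (lc_piSub (ia_Lev.res h) (K : Subgroup (b.mono hTT').Γ))
            (lc_phiSub (ia_Lev.res h) (id_iaKmapRep h) (K : Subgroup (b.mono hTT').Γ))).hom u)) := by
  rw [rc_tq_INV_tchange_fd_diag p hTT' b K u hu]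
  exact (rc_lv_INV_inf p h (K : Subgroup (b.mono hTT').Γ) u hu).symm

end Fermat.Agent.S55
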