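import Fermat.Agent.S55.Recip.RecipSylow
import Fermat.Agent.S55.Recip.RecipLift
import Fermat.Agent.S55.Recip.AuxPrimeK
import Fermat.Agent.S55.Recip.FieldData
import Fermat.Agent.S55.Recip.ClassInv
import Fermat.Agent.S55.Recip.ZetaLevel
import Fermat.Agent.S55.Recip.FieldSetup

/-!
# S55 / G4 (C): the reciprocity law on the field levels, outer reduction (prefix `rc_rm_`)

`rc_rm_outer`: the reciprocity law on all field levels containing `ζ_p` (= `rc_so_Recip p` of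
`Recip/S55OfRecip.lean`, the only arithmetic input of S55) from the inner statement
`rc_rm_Inner p`: the same vanishing at a level `a` for `T'` containing `ζ_p` and `ζ_{l'}`, for a
subgroup `K` fixing `ζ_p`, a class killed by `p ^ k` and an auxiliary prime `l' ∈ T'`,
`l' ≡ 1 mod p ^ K'` with `K' ≥ k + log_p [Γ : K]`, modulo which `p` is not a `p`-th power.

Steps: Sylow reduction (`rc_sy_of_pgroup`), choice of `k`, of `K'` and of the auxiliary prime
(`rc_ax_exists_aux_prime_pow`), enlargement `T ⊆ T' := insert l' T` and of the level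
`b ≤ a := b(μ_{l'})` (`rc_rl_INV_lift`).
-/

set_option autoImplicit false

open CategoryTheory groupCohomology ExtCitation

namespace Fermat.Agent.S55

local notation "Qbar" => AlgebraicClosure ℚ

/-- The inner statement of the reciprocity law: a level containing `ζ_p` and `ζ_{l'}`, a subgroup
fixing `ζ_p`, explicit exponents and the auxiliary prime `l'` inside the set of primes. -/
def rc_rm_Inner (p : ℕ) [Fact p.Prime] : Prop :=
  ∀ {T' : Finset Nat.Primes} (_ : pPrime p ∈ T') (a : ia_Lev T') (K : Subgroup a.Γ) (ζ₁ : ↥a.L)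
    (_ : IsPrimitiveRoot ζ₁ p) (_ : ∀ g ∈ K, g ζ₁ = ζ₁) (l' : Nat.Primes) (_ : l' ∈ T')
    (ζl : ↥a.L) (_ : IsPrimitiveRoot ζl (l' : ℕ)) {k K' : ℕ}
    (_ : k + Nat.log p K.index ≤ K') (_ : (l' : ℕ) % p ^ K' = 1)
    (_ : ¬ ∃ x : ZMod (l' : ℕ), x ^ p = (p : ZMod (l' : ℕ)))
    (u : groupCohomology (tt_res K (id_KRep ↥a.L)) 2) (_ : p ^ k • u = 0),
    rc_INV (rc_fd_data p a) (rc_fd_finSupp p a) K
      ((rr_push (id_diagRep T' ↥a.L) K).hom u) = 0

variable {p : ℕ} [hpF : Fact p.Prime]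

/-- **The reciprocity law on the field levels containing `ζ_p`**, from the inner statement. -/
theorem rc_rm_outer (hp2 : p ≠ 2) (hin : rc_rm_Inner p) (T : Finset Nat.Primes)
    (hpT : pPrime p ∈ T) (b : ia_Lev T) (hζ : ∀ ζ : Qbar, ζ ^ p = 1 → ζ ∈ b.L)
    (K : Subgroup b.Γ) (u : groupCohomology (tt_res K (id_KRep b.L)) 2)
    (hu : tt_IsPPrimary p u) :
    rc_INV (rc_fd_data p b) (rc_fd_finSupp p b) K
      ((tt_coeffMap (rc_ci_resMor (id_diagRep T b.L) K) 2).hom u) = 0 := by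
  refine rc_sy_of_pgroup (rc_fd_data p b) (rc_fd_finSupp p b) (id_diagRep T b.L)
    (fun P hP v hv => ?_) K u hu
  obtain ⟨k, hk⟩ := hv
  obtain ⟨l, hl, -, hlK, hnp⟩ := rc_ax_exists_aux_prime_pow p hp2
    (k + Nat.log p P.index + 1) (Nat.le_add_left 1 _) ∅
  -- the enlarged set of primes and the level `a = b(μ_l)`
  have hTT' : T ⊆ insert (⟨l, hl⟩ : Nat.Primes) T := Finset.subset_insert _ _
  have hlT' : (⟨l, hl⟩ : Nat.Primes) ∈ insert (⟨l, hl⟩ : Nat.Primes) T :=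
    Finset.mem_insert_self _ _
  have hn : ∀ q : Nat.Primes, (q : ℕ) ∣ l → q ∈ insert (⟨l, hl⟩ : Nat.Primes) T :=
    rc_zl_hn_prime (q₀ := (⟨l, hl⟩ : Nat.Primes)) hlT'
  have h : b.mono hTT' ≤ rc_zl_lev (b.mono hTT') l hl.ne_zero hn :=
    rc_zl_le (b.mono hTT') l hl.ne_zero hn
  refine (rc_rl_INV_lift p hTT' b (rc_zl_lev (b.mono hTT') l hl.ne_zero hn) h P v
    ⟨k, hk⟩).trans ?_
  -- the roots of unity
  have : NeZero p := ⟨hpF.out.ne_zero⟩
  obtain ⟨ζ, hζp⟩ := HasEnoughRootsOfUnity.exists_primitiveRoot Qbar p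
  have hζb : ζ ∈ b.L := hζ ζ hζp.pow_eq_one
  have hζ₀ : IsPrimitiveRoot (⟨ζ, hζb⟩ : ↥b.L) p :=
    IsPrimitiveRoot.of_map_of_injective (f := b.L.val) hζp b.L.val.injective
  have hζ₁ : IsPrimitiveRoot
      (⟨ζ, h hζb⟩ : ↥(rc_zl_lev (b.mono hTT') l hl.ne_zero hn).L) p :=
    IsPrimitiveRoot.of_map_of_injective (f := (rc_zl_lev (b.mono hTT') l hl.ne_zero hn).L.val)
      hζp (rc_zl_lev (b.mono hTT') l hl.ne_zero hn).L.val.injective
  obtain ⟨ζl, hζl, -⟩ := rc_zl_exists_primitiveRoot (b.mono hTT') l hl.ne_zero hn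
  refine hin (T' := insert (⟨l, hl⟩ : Nat.Primes) T) (hTT' hpT)
    (rc_zl_lev (b.mono hTT') l hl.ne_zero hn)
    (Subgroup.comap (ia_Lev.res h) (P : Subgroup (b.mono hTT').Γ)) ⟨ζ, h hζb⟩ hζ₁ ?_
    ⟨l, hl⟩ hlT' ζl hζl (k := k) (K' := k + Nat.log p P.index + 1) ?_ hlK hnp _ ?_
  · -- `K` fixes `ζ_p`
    intro g hg
    have h1 : (ia_Lev.res h g) (⟨ζ, hζb⟩ : ↥(b.mono hTT').L) = ⟨ζ, hζb⟩ :=
      rc_fs_zeta_fixed (M := ↥b.L) (𝒢 := P) hP hζ₀ (ia_Lev.res h g) hg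
    have h2 := ia_Lev.res_coe h g (⟨ζ, hζb⟩ : ↥(b.mono hTT').L)
    rw [h1] at h2
    apply Subtype.ext
    exact h2.symm
  · -- the index
    rw [Subgroup.index_comap_of_surjective _ (ia_Lev.res_surjective h)]
    exact Nat.le_succ _
  · -- the exponent
    rw [← map_nsmul]
    exact (congrArg _ hk).trans (map_zero _)

end Fermat.Agent.S55
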