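import Fermat.Agent.S55.Recip.ClassInv
import Fermat.Agent.S55.Recip.TotalInvInf

/-!
# S55 / G4 (F): the sum formula for the class invariant (abstract form, prefix `rc_sf_`)

Setting of `rc_ci_pclass` (`π : G →* Γ`, `C = A^N` via `φ`, a global formation `𝔉` on `A`), plus
the ideles `J` of the lower level with `gΓ : J ⟶ C`, the inclusion `φJ : Res(π) J ⟶ 𝔉.J` making
the square with `φ` commute, local data `𝔻'` on `𝔉.J` computing `𝔉.INV` and `𝔻` on `J`, related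
by an `rc_InvMor`.  Then for every layer `K ≤ Γ` and every `p`-primary `z ∈ H²(K, J)`

  `inv_K (gΓ_* z) = INV_K z`                       (`rc_sf_inv_layer`)

and on the top layer, for a `p`-primary `z ∈ H²(Γ, J)`,

  `invTop (gΓ_* z) = ∑ᶠ q, (𝔻.P q).invTop (loc_q z)`   (`rc_sf_invTop`).
-/

set_option autoImplicit false

namespace Fermat.Agent.S55

open CategoryTheory groupCohomology Rep

section naturality

variable {k G Γ : Type} [CommRing k] [Group G] [Group Γ]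
  {A J' : Rep.{0} k G} (g' : J' ⟶ A)
  (π : G →* Γ) {C J : Rep.{0} k Γ} (φ : res π C ⟶ A) (gΓ : J ⟶ C) (φJ : res π J ⟶ J')

/-- Inflation on a layer commutes with the coefficient maps `J → C`, `J' → A`. -/
theorem rc_sf_inf_coeff (hsq : ∀ x : J.V, g'.hom (φJ.hom x) = φ.hom (gΓ.hom x))
    (K : Subgroup Γ) :
    lc_inf₂ (lc_piSub π K) (lc_phiSub π φJ K) ≫ tt_coeffMap (rc_ci_resMor g' (K.comap π)) 2 =
      tt_coeffMap (rc_ci_resMor gΓ K) 2 ≫ lc_inf₂ (lc_piSub π K) (lc_phiSub π φ K) := by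
  rw [← map_comp, ← map_comp]
  refine groupCohomology.map_congr ?_ ?_ 2
  · ext x
    rfl
  · ext m
    exact hsq m

theorem rc_sf_inf_coeff_apply (hsq : ∀ x : J.V, g'.hom (φJ.hom x) = φ.hom (gΓ.hom x))
    (K : Subgroup Γ) (z : groupCohomology (tt_res K J) 2) :
    (tt_coeffMap (rc_ci_resMor g' (K.comap π)) 2).hom
        ((lc_inf₂ (lc_piSub π K) (lc_phiSub π φJ K)).hom z) =
      (lc_inf₂ (lc_piSub π K) (lc_phiSub π φ K)).hom
        ((tt_coeffMap (rc_ci_resMor gΓ K) 2).hom z) :=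
  congrArg (fun f => f.hom z) (rc_sf_inf_coeff g' π φ gΓ φJ hsq K)

/-- Restriction to a layer commutes with coefficient maps. -/
theorem rc_sf_resMap_coeff (K : Subgroup Γ) :
    tt_coeffMap gΓ 2 ≫ tt_resMap K C 2 =
      tt_resMap K J 2 ≫ tt_coeffMap (rc_ci_resMor gΓ K) 2 := by
  rw [← map_comp, ← map_comp]
  refine groupCohomology.map_congr ?_ ?_ 2
  · ext x
    rfl
  · ext m
    rfl

theorem rc_sf_resMap_coeff_apply (K : Subgroup Γ) (z : groupCohomology J 2) :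
    (tt_resMap K C 2).hom ((tt_coeffMap gΓ 2).hom z) =
      (tt_coeffMap (rc_ci_resMor gΓ K) 2).hom ((tt_resMap K J 2).hom z) :=
  congrArg (fun f => f.hom z) (rc_sf_resMap_coeff gΓ K)

end naturality

section main

variable {p : ℕ} [hp : Fact p.Prime] {G Γ : Type} [Group G] [Group Γ] [Finite G] [Finite Γ]
  {A : Rep.{0} ℤ G} (𝔉 : rc_GlobForm p A)
  {π : G →* Γ} {C : Rep.{0} ℤ Γ} {φ : res π C ⟶ A}
  {J : Rep.{0} ℤ Γ} (gΓ : J ⟶ C) (φJ : res π J ⟶ 𝔉.J)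
  {Q : Type} (𝔻' : rc_InvData p 𝔉.J Q) (𝔻 : rc_InvData p J Q)

/-- **The class invariant of the image of an idele class is its total invariant** (every layer;
stated for the layer invariant `rc_ci_invLayer`, which is `(rc_ci_pclass ..).inv K` by `rfl`). -/
theorem rc_sf_invLayer (hπ : Function.Surjective π)
    (hsq : ∀ x : J.V, 𝔉.g.hom (φJ.hom x) = φ.hom (gΓ.hom x))
    (hfin' : rc_FinSupp 𝔻') (hfin : rc_FinSupp 𝔻)
    (hINV : ∀ K : Subgroup G, 𝔉.INV K = rc_INV 𝔻' hfin' K)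
    (M : rc_InvMor 𝔻' 𝔻 π φJ)
    (K : Subgroup Γ) (z : groupCohomology (tt_res K J) 2) (hz : tt_IsPPrimary p z) :
    rc_ci_invLayer 𝔉 π φ K ((tt_coeffMap (rc_ci_resMor gΓ K) 2).hom z) = rc_INV 𝔻 hfin K z := by
  have hζ : tt_IsPPrimary p ((lc_inf₂ (lc_piSub π K) (lc_phiSub π φJ K)).hom z) :=
    tt_isPPrimary_map (lc_inf₂ (lc_piSub π K) (lc_phiSub π φJ K)).hom.toAddMonoidHom hz
  rw [rc_ci_invLayer_eq 𝔉 π φ K _ ((lc_inf₂ (lc_piSub π K) (lc_phiSub π φJ K)).hom z) hζ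
      (rc_sf_inf_coeff_apply 𝔉.g π φ gΓ φJ hsq K z),
    hINV, rc_INV_inf hπ M hfin' hfin K z hz]

/-- The same for any `p`-class module whose layer invariants are the `rc_ci_invLayer`s (e.g.
`rc_ci_pclass`, by `rc_ci_pclass_inv`). -/
theorem rc_sf_inv (P : PClassModule p C) (hP : ∀ K : Subgroup Γ, P.inv K = rc_ci_invLayer 𝔉 π φ K)
    (hπ : Function.Surjective π)
    (hsq : ∀ x : J.V, 𝔉.g.hom (φJ.hom x) = φ.hom (gΓ.hom x))
    (hfin' : rc_FinSupp 𝔻') (hfin : rc_FinSupp 𝔻)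
    (hINV : ∀ K : Subgroup G, 𝔉.INV K = rc_INV 𝔻' hfin' K)
    (M : rc_InvMor 𝔻' 𝔻 π φJ)
    (K : Subgroup Γ) (z : groupCohomology (tt_res K J) 2) (hz : tt_IsPPrimary p z) :
    P.inv K ((tt_coeffMap (rc_ci_resMor gΓ K) 2).hom z) = rc_INV 𝔻 hfin K z := by
  rw [hP, rc_sf_invLayer 𝔉 gΓ φJ 𝔻' 𝔻 hπ hsq hfin' hfin hINV M K z hz]

/-- **The sum formula**: the top invariant of the image of a `p`-primary idele class is the sum of
its local invariants. -/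
theorem rc_sf_invTop (P : PClassModule p C)
    (hP : ∀ K : Subgroup Γ, P.inv K = rc_ci_invLayer 𝔉 π φ K)
    (hπ : Function.Surjective π)
    (hsq : ∀ x : J.V, 𝔉.g.hom (φJ.hom x) = φ.hom (gΓ.hom x))
    (hfin' : rc_FinSupp 𝔻') (hfin : rc_FinSupp 𝔻)
    (hINV : ∀ K : Subgroup G, 𝔉.INV K = rc_INV 𝔻' hfin' K)
    (M : rc_InvMor 𝔻' 𝔻 π φJ)
    (z : groupCohomology J 2) (hz : tt_IsPPrimary p z) :
    P.invTop ((tt_coeffMap gΓ 2).hom z) = ∑ᶠ q, (𝔻.P q).invTop ((rc_locTop 𝔻 q).hom z) := by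
  have hzt : tt_IsPPrimary p ((tt_resMap ⊤ J 2).hom z) :=
    tt_isPPrimary_map (tt_resMap ⊤ J 2).hom.toAddMonoidHom hz
  rw [PClassModule.invTop_apply, rc_sf_resMap_coeff_apply,
    rc_sf_inv 𝔉 gΓ φJ 𝔻' 𝔻 P hP hπ hsq hfin' hfin hINV M ⊤ _ hzt,
    rc_INV_top 𝔻 hfin z hz]

/-- **The sum formula for a class supported at one place** `q₀`: if all the other localisations
of `z` vanish, the top invariant is the local invariant at `q₀`. -/
theorem rc_sf_invTop_single (P : PClassModule p C)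
    (hP : ∀ K : Subgroup Γ, P.inv K = rc_ci_invLayer 𝔉 π φ K)
    (hπ : Function.Surjective π)
    (hsq : ∀ x : J.V, 𝔉.g.hom (φJ.hom x) = φ.hom (gΓ.hom x))
    (hfin' : rc_FinSupp 𝔻') (hfin : rc_FinSupp 𝔻)
    (hINV : ∀ K : Subgroup G, 𝔉.INV K = rc_INV 𝔻' hfin' K)
    (M : rc_InvMor 𝔻' 𝔻 π φJ)
    (z : groupCohomology J 2) (hz : tt_IsPPrimary p z) (q₀ : Q)
    (h0 : ∀ q, q ≠ q₀ → (rc_locTop 𝔻 q).hom z = 0) :
    P.invTop ((tt_coeffMap gΓ 2).hom z) = (𝔻.P q₀).invTop ((rc_locTop 𝔻 q₀).hom z) := by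
  rw [rc_sf_invTop 𝔉 gΓ φJ 𝔻' 𝔻 P hP hπ hsq hfin' hfin hINV M z hz]
  exact finsum_eq_single _ q₀ fun q hq => by rw [h0 q hq, map_zero]

end main

end Fermat.Agent.S55
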