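import Fermat.Agent.S55.Recip.IdeleIn
import Fermat.Agent.S55.Recip.TChange
import Fermat.Agent.S55.Recip.SumFormula
import Fermat.Agent.S55.Idele.Seam

/-!
# S55 / G4 (F): the field `hsum` of `id_seam` from the total invariant (prefix `rc_ss_`)

For a finite Galois `L ⊆ ℚ̄`, a finite set `T` of primes, the inside data `rc_ii_data p T L`, ANY
outside datum `𝔻out` on `id_JRep T L` whose components vanish on the `T`-part of the ideles, and a
`p`-class module `P` on `id_CRep T L` whose top invariant is the total invariant of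
`rc_tc_sum (rc_ii_data p T L) 𝔻out` on the images of `p`-primary idele classes:

  `P.invTop ((j_q)_* z) = (ils_Pq p q L).invTop ((il_pr)_* (res_{D_q} z))`   (`rc_ss_hsum`)

for `q ∈ T` and `p`-primary `z ∈ H²(Gal(L/ℚ), (ℚ_q ⊗ L)ˣ)`.  `rc_ss_hsum_lev` is the literal field
`hsum` of `id_seam` at one level.
-/

set_option autoImplicit false
set_option linter.unusedSectionVars false

open scoped TensorProduct Pointwise
open NumberField groupCohomology CategoryTheory

namespace Fermat.Agent.S55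

local notation "Qbar" => AlgebraicClosure ℚ

noncomputable section

section generic

variable (S : Finset Nat.Primes) (K : Type) [Field K] [NumberField K]

/-- the inclusion of the `q`-component into the ideles, as a morphism of Galois modules -/
def rc_ss_inqRep (q : ↥S) : id_ARep K q.1 ⟶ id_JRep S K :=
  id_repHom ((id_inS S K).comp (id_inq S K q))
    (fun σ a => by
      change id_inS S K (id_inq S K q (σ • a)) = σ • id_inS S K (id_inq S K q a)
      rw [id_smul_inS, id_smul_inq])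

theorem rc_ss_inqRep_apply (q : ↥S) (u : (id_A K q.1)ˣ) :
    (rc_ss_inqRep S K q).hom (Additive.ofMul u : Additive (id_A K q.1)ˣ) =
      (Additive.ofMul (id_inS S K (id_inq S K q u)) : Additive (id_J S K)) := rfl

theorem rc_ss_inqRep_toC (q : ↥S) : rc_ss_inqRep S K q ≫ id_toCRep S K = id_jqRep S K q := by
  ext x
  rfl

end generic

section field

variable (p : ℕ) [Fact p.Prime] (T : Finset Nat.Primes) (L : IntermediateField ℚ Qbar)
  [FiniteDimensional ℚ L] [Normal ℚ L] [NumberField L]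

/-- the inclusion of the `q`-component followed by the local component at `q` is `il_pr` -/
theorem rc_ss_inq_pr (q : ↥T) :
    rc_ci_resMor (rc_ss_inqRep T ↥L q) (il_D (q.1 : ℕ) L) ≫ rc_ii_pr T L q = il_pr q.1 L := by
  ext x
  exact rc_ii_pr_inq T L q (Additive.toMul x)

theorem rc_ss_inq_pr_of_ne {q q' : ↥T} (h : q' ≠ q) (x : (id_ARep ↥L q.1).V) :
    (rc_ii_pr T L q').hom ((rc_ss_inqRep T ↥L q).hom x) = 0 :=
  rc_ii_pr_inq_of_ne T L h (Additive.toMul x)

variable {Qout : Type} (𝔻out : rc_InvData p (id_JRep T ↥L) Qout)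

/-- the localisation at `q` of a class supported at `q` -/
theorem rc_ss_locTop_same (q : ↥T) (z : groupCohomology (id_ARep ↥L q.1) 2) :
    (rc_locTop (rc_tc_sum (rc_ii_data p T L) 𝔻out) (Sum.inl q)).hom
        ((tt_coeffMap (rc_ss_inqRep T ↥L q) 2).hom z) =
      (tt_coeffMap (il_pr q.1 L) 2).hom
        ((tt_resMap (il_D (q.1 : ℕ) L) (id_ARep ↥L q.1) 2).hom z) := by
  rw [rc_locTop_eq]
  change (tt_coeffMap (rc_ii_pr T L q) 2).hom ((tt_resMap (il_D (q.1 : ℕ) L) (id_JRep T ↥L) 2).hom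
    ((tt_coeffMap (rc_ss_inqRep T ↥L q) 2).hom z)) = _
  rw [rc_sf_resMap_coeff_apply, ← rc_ss_inq_pr T L q]
  change _ = (groupCohomology.map (MonoidHom.id _) (_ ≫ _) 2).hom _
  rw [groupCohomology.map_id_comp]
  rfl

/-- the localisation at `q' ≠ q` (inside) of a class supported at `q` vanishes -/
theorem rc_ss_locTop_inl_of_ne {q q' : ↥T} (h : q' ≠ q)
    (z : groupCohomology (id_ARep ↥L q.1) 2) :
    (rc_locTop (rc_tc_sum (rc_ii_data p T L) 𝔻out) (Sum.inl q')).hom
        ((tt_coeffMap (rc_ss_inqRep T ↥L q) 2).hom z) = 0 := by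
  rw [rc_locTop_eq]
  change (tt_coeffMap (rc_ii_pr T L q') 2).hom
    ((tt_resMap (il_D (q'.1 : ℕ) L) (id_JRep T ↥L) 2).hom
      ((tt_coeffMap (rc_ss_inqRep T ↥L q) 2).hom z)) = _
  rw [rc_sf_resMap_coeff_apply]
  exact rc_ii_coeffMap_comp_eq_zero (rc_ci_resMor (rc_ss_inqRep T ↥L q) (il_D (q'.1 : ℕ) L))
    (rc_ii_pr T L q') (fun a => rc_ss_inq_pr_of_ne T L h a) _

/-- the localisation outside `T` of a class supported at `q ∈ T` vanishes -/
theorem rc_ss_locTop_inr
    (hout : ∀ (q' : Qout) (x : id_JS T ↥L),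
      (𝔻out.pr q').hom (Additive.ofMul (id_inS T ↥L x) : Additive (id_J T ↥L)) = 0)
    (q : ↥T) (q' : Qout) (z : groupCohomology (id_ARep ↥L q.1) 2) :
    (rc_locTop (rc_tc_sum (rc_ii_data p T L) 𝔻out) (Sum.inr q')).hom
        ((tt_coeffMap (rc_ss_inqRep T ↥L q) 2).hom z) = 0 := by
  rw [rc_locTop_eq]
  change (tt_coeffMap (𝔻out.pr q') 2).hom
    ((tt_resMap (𝔻out.D q') (id_JRep T ↥L) 2).hom
      ((tt_coeffMap (rc_ss_inqRep T ↥L q) 2).hom z)) = _
  rw [rc_sf_resMap_coeff_apply]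
  exact rc_ii_coeffMap_comp_eq_zero (rc_ci_resMor (rc_ss_inqRep T ↥L q) (𝔻out.D q'))
    (𝔻out.pr q') (fun a => hout q' _) _

/-- **The field `hsum`** for a field `L`: the top invariant of `(j_q)_* z` is the local invariant
at `q`. -/
theorem rc_ss_hsum
    (hout : ∀ (q' : Qout) (x : id_JS T ↥L),
      (𝔻out.pr q').hom (Additive.ofMul (id_inS T ↥L x) : Additive (id_J T ↥L)) = 0)
    (hfin : rc_FinSupp (rc_tc_sum (rc_ii_data p T L) 𝔻out))
    (P : PClassModule p (id_CRep T ↥L))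
    (hINV : ∀ w : groupCohomology (tt_res (⊤ : Subgroup (↥L ≃ₐ[ℚ] ↥L)) (id_JRep T ↥L)) 2,
      tt_IsPPrimary p w →
        P.inv ⊤ ((tt_coeffMap (rc_ci_resMor (id_toCRep T ↥L) ⊤) 2).hom w) =
          rc_INV (rc_tc_sum (rc_ii_data p T L) 𝔻out) hfin ⊤ w)
    (q : ↥T) (z : groupCohomology (id_ARep ↥L q.1) 2) (hz : tt_IsPPrimary p z) :
    P.invTop ((tt_coeffMap (id_jqRep T ↥L q) 2).hom z) =
      (ils_Pq p q.1 L).invTop ((tt_coeffMap (il_pr q.1 L) 2).hom
        ((tt_resMap (il_D (q.1 : ℕ) L) (id_ARep ↥L q.1) 2).hom z)) := by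
  have : Finite (↥L ≃ₐ[ℚ] ↥L) := inferInstance
  set w := (tt_coeffMap (rc_ss_inqRep T ↥L q) 2).hom z with hw
  have hwp : tt_IsPPrimary p w :=
    tt_isPPrimary_map (tt_coeffMap (rc_ss_inqRep T ↥L q) 2).hom.toAddMonoidHom hz
  have hwt : tt_IsPPrimary p ((tt_resMap ⊤ (id_JRep T ↥L) 2).hom w) :=
    tt_isPPrimary_map (tt_resMap ⊤ (id_JRep T ↥L) 2).hom.toAddMonoidHom hwp
  have h1 : (tt_coeffMap (id_jqRep T ↥L q) 2).hom z = (tt_coeffMap (id_toCRep T ↥L) 2).hom w := by
    rw [hw, ← rc_ss_inqRep_toC]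
    change (groupCohomology.map (MonoidHom.id _) (_ ≫ _) 2).hom z = _
    rw [groupCohomology.map_id_comp]
    rfl
  rw [h1, PClassModule.invTop_apply, rc_sf_resMap_coeff_apply, hINV _ hwt,
    rc_INV_top _ hfin w hwp,
    finsum_eq_single _ (Sum.inl q) (fun q' hq' => ?_), rc_ss_locTop_same]
  · rfl
  · rcases q' with q' | q'
    · have hne : q' ≠ q := fun h => hq' (by rw [h])
      rw [rc_ss_locTop_inl_of_ne p T L 𝔻out hne, map_zero]
    · rw [rc_ss_locTop_inr p T L 𝔻out hout, map_zero]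

end field

section level

variable {S : Finset Nat.Primes} (p : ℕ) [Fact p.Prime] (a : du_Lev S)
  {Qout : Type} (𝔻out : rc_InvData p (id_JRep S ↥a.L) Qout)

/-- **The field `hsum` of `id_seam`** at the level `a`, literally. -/
theorem rc_ss_hsum_lev
    (hout : ∀ (q' : Qout) (x : id_JS S ↥a.L),
      (𝔻out.pr q').hom (Additive.ofMul (id_inS S ↥a.L x) : Additive (id_J S ↥a.L)) = 0)
    (hfin : rc_FinSupp (rc_tc_sum (rc_ii_data p S a.L) 𝔻out))
    (P : PClassModule p (id_CRep S ↥a.L))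
    (hINV : ∀ w : groupCohomology (tt_res (⊤ : Subgroup a.Γ) (id_JRep S ↥a.L)) 2,
      tt_IsPPrimary p w →
        P.inv ⊤ ((tt_coeffMap (rc_ci_resMor (id_toCRep S ↥a.L) ⊤) 2).hom w) =
          rc_INV (rc_tc_sum (rc_ii_data p S a.L) 𝔻out) hfin ⊤ w)
    (q : ↥S) (z : groupCohomology (id_ARep ↥a.L q.1) 2) (hz : tt_IsPPrimary p z) :
    P.invTop ((tt_coeffMap (id_jqRep S ↥a.L q) 2).hom z) =
      (id_levPq p a q.1).invTop ((tt_coeffMap (il_pr q.1 a.L) 2).hom
        ((tt_resMap (il_D (q.1 : ℕ) a.L) (id_ARep ↥a.L q.1) 2).hom z)) :=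
  rc_ss_hsum p S a.L 𝔻out hout hfin P hINV q z hz

end level

end

end Fermat.Agent.S55
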