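import Fermat.Agent.S55.Recip.MainAbstract
import Fermat.Agent.S55.Recip.FieldData
import Fermat.Agent.S55.Recip.ZetaLevel

/-!
# S55 / G4: the system of local data on the field levels (prefix `rc_fi_`)

`rc_fi_sys`: the instance of `rc_FieldSys p T (rc_fd_Q T)` given by helper19's field data
`rc_fd_data` / `rc_fd_coind` / `rc_fd_mor`, the reciprocity law `hrec` (block (C), a hypothesis
here) and the `p`-cyclotomic tower step `a ≤ a(μ_{p^r})` with an inert prime outside `T`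
(helper23's `rc_zl_*`, helper25's `rc_tl_tower_exists_inert`).
-/

set_option autoImplicit false

open CategoryTheory groupCohomology ExtCitation

namespace Fermat.Agent.S55

local notation "Qbar" => AlgebraicClosure ℚ

variable {p : ℕ} [hpF : Fact p.Prime] {T : Finset Nat.Primes}

/-- **The tower step**: for `p` odd and `ζ_p ∈ a`, a level `b = a(μ_{p^r}) ≥ a` whose relative group
is a `p`-group of order divisible by the `p`-part of `|Γ_a|` and is contained in the decomposition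
group of a prime outside `T`. -/
theorem rc_fi_tower (hp2 : p ≠ 2) (hpT : pPrime p ∈ T) (a : ia_Lev T)
    (hζ : ∀ ζ : Qbar, ζ ^ p = 1 → ζ ∈ a.L) :
    ∃ (b : ia_Lev T) (h : a ≤ b), IsPGroup p (ia_Lev.res h).ker ∧
      ordProj[p] (Nat.card a.Γ) ∣ Nat.card (ia_Lev.res h).ker ∧
        ∃ q₀ : rc_fd_Q T, (ia_Lev.res h).ker ≤ (rc_fd_data p b).D q₀ := by
  obtain ⟨r, hr⟩ := rc_zl_hNdvd a hp2 hpT hζ
  refine ⟨rc_zl_lev a (p ^ r) (pow_ne_zero r hpF.out.ne_zero) (rc_zl_hn_primePow hpT r),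
    rc_zl_le a (p ^ r) (pow_ne_zero r hpF.out.ne_zero) (rc_zl_hn_primePow hpT r),
    rc_zl_ker_isPGroup a hp2 r (rc_zl_hn_primePow hpT r) hζ, hr r le_rfl, ?_⟩
  -- the inert prime
  set b := rc_zl_lev a (p ^ r) (pow_ne_zero r hpF.out.ne_zero) (rc_zl_hn_primePow hpT r) with hb
  have hab : a ≤ b := rc_zl_le a (p ^ r) (pow_ne_zero r hpF.out.ne_zero) (rc_zl_hn_primePow hpT r)
  letI := ia_algebra hab
  haveI : IsCyclotomicExtension {p ^ r} ↥a.L ↥b.L :=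
    rc_zl_isCyclotomic a (p ^ r) (pow_ne_zero r hpF.out.ne_zero) (rc_zl_hn_primePow hpT r)
  haveI : NeZero p := ⟨hpF.out.ne_zero⟩
  obtain ⟨ζ, hζp⟩ := HasEnoughRootsOfUnity.exists_primitiveRoot Qbar p
  have hζ₁ : IsPrimitiveRoot (⟨ζ, hζ ζ hζp.pow_eq_one⟩ : ↥a.L) p := by
    refine IsPrimitiveRoot.of_map_of_injective (f := a.L.val) ?_ a.L.val.injective
    exact hζp
  obtain ⟨q₀, hq₀, hq₀T, hstab⟩ := rc_tl_tower_exists_inert (E := ↥a.L) (M := ↥b.L) hp2 hζ₁ r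
    (T.image (fun q : Nat.Primes => (q : ℕ)))
  have hq₀T' : (⟨q₀, hq₀⟩ : Nat.Primes) ∉ T := by
    intro hmem
    exact hq₀T (Finset.mem_image.2 ⟨⟨q₀, hq₀⟩, hmem, rfl⟩)
  refine ⟨Sum.inr ⟨⟨q₀, hq₀⟩, hq₀T'⟩, ?_⟩
  rw [ia_Lev.ker_res, rc_fd_D_inr,
    ← rc_zl_sub_eq a (p ^ r) (pow_ne_zero r hpF.out.ne_zero) (rc_zl_hn_primePow hpT r)]
  intro g hg
  have h1 := hstab (rc_fd_w b ⟨⟨q₀, hq₀⟩, hq₀T'⟩).1 (rc_fd_hw b ⟨⟨q₀, hq₀⟩, hq₀T'⟩) hg
  rw [MulAction.mem_stabilizer_iff] at h1 ⊢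
  exact Subtype.ext h1

/-- **The system of local data on the field levels**, from the reciprocity law. -/
noncomputable def rc_fi_sys (hp2 : p ≠ 2) (hpT : pPrime p ∈ T)
    (hrec : ∀ b : ia_Lev T, (∀ ζ : Qbar, ζ ^ p = 1 → ζ ∈ b.L) → ∀ (K : Subgroup b.Γ)
      (u : groupCohomology (tt_res K (id_KRep b.L)) 2), tt_IsPPrimary p u →
      rc_INV (rc_fd_data p b) (rc_fd_finSupp p b) K
        ((tt_coeffMap (rc_ci_resMor (id_diagRep T b.L) K) 2).hom u) = 0) :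
    rc_FieldSys p T (rc_fd_Q T) where
  𝔻 := rc_fd_data p
  coind := rc_fd_coind p
  mor h := rc_fd_mor p h
  hrec := hrec
  tower := rc_fi_tower hp2 hpT

end Fermat.Agent.S55
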