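import Fermat.Agent.S55.Recip.Assembly
import Fermat.Agent.S55.Idele.AbsLevels
import Fermat.Agent.S55.Idele.LevelInfl
import Fermat.Agent.S55.Idele.ShortExact
import Fermat.Agent.S55.Idele.CyclicLayersFinal

/-!
# S55 / G4: the final export from a system of local data on field levels (prefix `rc_ma_`)

`rc_FieldSys p T Q` packages, for the field levels `a : ia_Lev T` (finite Galois extensions of `ℚ`
inside `ℚ̄`, unramified outside `T`), the local invariant data `𝔻 a` on the ideles `J_T(a)`, their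
coinduced-sum structure, the inflation morphisms between two levels, the reciprocity law on the
levels containing `ζ_p` and the existence of a cyclotomic `p`-tower step `a ≤ b` with an inert
prime.  From such a system (and the inequalities `G3`) we construct the `p`-class module structure
of `C_T(a)` for every level `a ∋ ζ_p` (`rc_ma_pclass`) and prove the invariant formula on every
layer (`rc_ma_inv`) and the sum formula (`rc_ma_invTop`).
-/

set_option autoImplicit false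
set_option linter.unusedSectionVars false
set_option linter.style.haveILetI false

open CategoryTheory groupCohomology

namespace Fermat.Agent.S55

local notation "Qbar" => AlgebraicClosure ℚ

/-- A system of local invariant data on the field levels `ia_Lev T`. -/
structure rc_FieldSys (p : ℕ) [Fact p.Prime] (T : Finset Nat.Primes) (Q : Type) where
  /-- the local data on the ideles of the level `a` -/
  𝔻 : ∀ a : ia_Lev T, rc_InvData p (id_JRep T a.L) Q
  /-- the ideles are the restricted sum of the coinduced local modules -/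
  coind : ∀ a : ia_Lev T, hs_IsCoindSum (𝔻 a)
  /-- inflation between two levels -/
  mor : ∀ {a b : ia_Lev T} (h : a ≤ b), rc_InvMor (𝔻 b) (𝔻 a) (ia_Lev.res h)
    (letI := ia_algebra h; id_JmapRep T a.L b.L (ia_Lev.res h) (ia_compat_res h))
  /-- reciprocity on the levels containing `ζ_p` -/
  hrec : ∀ b : ia_Lev T, (∀ ζ : Qbar, ζ ^ p = 1 → ζ ∈ b.L) → ∀ (K : Subgroup b.Γ)
    (u : groupCohomology (tt_res K (id_KRep b.L)) 2), tt_IsPPrimary p u →
    rc_INV (𝔻 b) (hs_finSupp (coind b)) K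
      ((tt_coeffMap (rc_ci_resMor (id_diagRep T b.L) K) 2).hom u) = 0
  /-- a step of the cyclotomic `p`-tower: kernel a large `p`-group, inert at some index `q₀` -/
  tower : ∀ a : ia_Lev T, (∀ ζ : Qbar, ζ ^ p = 1 → ζ ∈ a.L) → ∃ (b : ia_Lev T) (h : a ≤ b),
    IsPGroup p (ia_Lev.res h).ker ∧
      ordProj[p] (Nat.card a.Γ) ∣ Nat.card (ia_Lev.res h).ker ∧
        ∃ q₀ : Q, (ia_Lev.res h).ker ≤ (𝔻 b).D q₀

variable {p : ℕ} [Fact p.Prime] {T : Finset Nat.Primes} {Q : Type}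

section twoLevel

variable (𝔖 : rc_FieldSys p T Q) (hp2 : p ≠ 2) (hT : T.Nonempty) {a b : ia_Lev T} (h : a ≤ b)
  (hζ : ∀ ζ : Qbar, ζ ^ p = 1 → ζ ∈ a.L)

/-- The two-level datum of `a ≤ b`. -/
noncomputable def rc_ma_twoLevel (hNp : IsPGroup p (ia_Lev.res h).ker)
    (hNdvd : ordProj[p] (Nat.card a.Γ) ∣ Nat.card (ia_Lev.res h).ker)
    (q₀ : Q) (hq₀ : (ia_Lev.res h).ker ≤ (𝔖.𝔻 b).D q₀) : rc_TwoLevel p b.Γ a.Γ Q :=
  letI := ia_algebra h
  { π := ia_Lev.res h
    X' := id_ses T b.L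
    hX' := id_ses_shortExact T b.L hT
    J := id_JRep T a.L
    C := id_CRep T a.L
    g := id_toCRep T a.L
    φC := id_CmapRep T a.L b.L (ia_Lev.res h) (ia_compat_res h)
    hπ := id_isInfl_C T (ia_compat_res h) hT (ia_Lev.res_surjective h)
      (by rw [ia_Lev.ker_res]; exact ia_isGal h) (ia_unram h)
    φJ := id_JmapRep T a.L b.L (ia_Lev.res h) (ia_compat_res h)
    hsq := fun x => (id_CmapRep_toC T a.L b.L (ia_Lev.res h) (ia_compat_res h) x).symm
    𝔻' := 𝔖.𝔻 b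
    𝔻 := 𝔖.𝔻 a
    M := 𝔖.mor h
    hcoind' := 𝔖.coind b
    hfin := hs_finSupp (𝔖.coind a)
    hrec := 𝔖.hrec b (fun ζ hz => h (hζ ζ hz))
    hNp := hNp
    hNdvd := hNdvd
    q₀ := q₀
    hq₀ := hq₀
    hN1 := idl_field_hN1 T b.L b.unr hT p hp2 (ia_Lev.res h) hNp
    hC1 := idl_field_h1_torsion T a.L a.unr hT p hp2
    hbound := idl_field_pPrimary_bound T a.L a.unr hT p hp2
    hN2 := fun N₀ hN₀ => idl_field_H2_pgroup T b.L b.unr hT p hp2 N₀ (hN₀ ▸ hNp) }

end twoLevel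

section main

variable (𝔖 : rc_FieldSys p T Q) (hp2 : p ≠ 2) (hT : T.Nonempty) (a : ia_Lev T)
  (hζ : ∀ ζ : Qbar, ζ ^ p = 1 → ζ ∈ a.L)

/-- The chosen upper level of the tower step over `a`. -/
noncomputable def rc_ma_top : ia_Lev T := (𝔖.tower a hζ).choose

theorem rc_ma_le : a ≤ rc_ma_top 𝔖 a hζ := (𝔖.tower a hζ).choose_spec.choose

theorem rc_ma_top_spec : IsPGroup p (ia_Lev.res (rc_ma_le 𝔖 a hζ)).ker ∧
    ordProj[p] (Nat.card a.Γ) ∣ Nat.card (ia_Lev.res (rc_ma_le 𝔖 a hζ)).ker ∧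
      ∃ q₀ : Q, (ia_Lev.res (rc_ma_le 𝔖 a hζ)).ker ≤ (𝔖.𝔻 (rc_ma_top 𝔖 a hζ)).D q₀ :=
  (𝔖.tower a hζ).choose_spec.choose_spec

/-- The two-level datum of the chosen tower step. -/
noncomputable def rc_ma_two : rc_TwoLevel p (rc_ma_top 𝔖 a hζ).Γ a.Γ Q :=
  rc_ma_twoLevel 𝔖 hp2 hT (rc_ma_le 𝔖 a hζ) hζ (rc_ma_top_spec 𝔖 a hζ).1
    (rc_ma_top_spec 𝔖 a hζ).2.1 (rc_ma_top_spec 𝔖 a hζ).2.2.choose
    (rc_ma_top_spec 𝔖 a hζ).2.2.choose_spec

/-- **The `p`-class module structure of `C_T(a)`**, `a` a field level containing `ζ_p`. -/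
noncomputable def rc_ma_pclass : PClassModule p (id_CRep T a.L) :=
  rc_as_pclass (rc_ma_two 𝔖 hp2 hT a hζ)

/-- **The invariant formula on every layer**: `inv_K(g_* w) = INV_K(w)` for the `p`-primary
`w ∈ H²(K, J_T(a))`. -/
theorem rc_ma_inv (K : Subgroup a.Γ) (w : groupCohomology (tt_res K (id_JRep T a.L)) 2)
    (hw : tt_IsPPrimary p w) :
    (rc_ma_pclass 𝔖 hp2 hT a hζ).inv K
        ((tt_coeffMap (rc_ci_resMor (id_toCRep T a.L) K) 2).hom w) =
      rc_INV (𝔖.𝔻 a) (hs_finSupp (𝔖.coind a)) K w :=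
  rc_as_inv_toC (rc_ma_two 𝔖 hp2 hT a hζ) K w hw

/-- **The sum formula**: `inv(g_* w) = ∑_q inv_q(loc_q w)`. -/
theorem rc_ma_invTop (w : groupCohomology (id_JRep T a.L) 2) (hw : tt_IsPPrimary p w) :
    (rc_ma_pclass 𝔖 hp2 hT a hζ).invTop ((tt_coeffMap (id_toCRep T a.L) 2).hom w) =
      ∑ᶠ q, ((𝔖.𝔻 a).P q).invTop ((rc_locTop (𝔖.𝔻 a) q).hom w) :=
  rc_as_invTop_toC (rc_ma_two 𝔖 hp2 hT a hζ) w hw

end main

/-! ### Specialisation to the levels of block [D] -/

section levels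

variable {S : Finset Nat.Primes} (𝔖 : rc_FieldSys p S Q) (hp2 : p ≠ 2) (hS : S.Nonempty)
  (hpS : ExtCitation.pPrime p ∈ S)

/-- **The class modules `P a` of the seam**, `a : du_Lev S`. -/
noncomputable def rc_ma_levPclass (a : du_Lev S) : PClassModule p (id_CRep S a.L) :=
  rc_ma_pclass 𝔖 hp2 hS (ia_ofLev (Finset.Subset.refl S) a)
    (fun _ hx => a.pow_eq_one_mem hpS hx)

/-- The invariant formula on every layer of a level of block [D]. -/
theorem rc_ma_levInv (a : du_Lev S) (K : Subgroup a.Γ)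
    (w : groupCohomology (tt_res K (id_JRep S a.L)) 2) (hw : tt_IsPPrimary p w) :
    (rc_ma_levPclass 𝔖 hp2 hS hpS a).inv K
        ((tt_coeffMap (rc_ci_resMor (id_toCRep S a.L) K) 2).hom w) =
      rc_INV (𝔖.𝔻 (ia_ofLev (Finset.Subset.refl S) a))
        (hs_finSupp (𝔖.coind (ia_ofLev (Finset.Subset.refl S) a))) K w :=
  rc_ma_inv 𝔖 hp2 hS (ia_ofLev (Finset.Subset.refl S) a) _ K w hw

/-- The sum formula on a level of block [D]. -/
theorem rc_ma_levInvTop (a : du_Lev S) (w : groupCohomology (id_JRep S a.L) 2)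
    (hw : tt_IsPPrimary p w) :
    (rc_ma_levPclass 𝔖 hp2 hS hpS a).invTop ((tt_coeffMap (id_toCRep S a.L) 2).hom w) =
      ∑ᶠ q, ((𝔖.𝔻 (ia_ofLev (Finset.Subset.refl S) a)).P q).invTop
        ((rc_locTop (𝔖.𝔻 (ia_ofLev (Finset.Subset.refl S) a)) q).hom w) :=
  rc_ma_invTop 𝔖 hp2 hS (ia_ofLev (Finset.Subset.refl S) a) _ w hw

end levels

end Fermat.Agent.S55
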