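import Fermat.Agent.S55.Dual.Top
import Fermat.Agent.S55.Dual.XFinal
import Fermat.Agent.S55.Idele.SeamMain
import Fermat.Agent.S55.Idele.E1UnitDict
import Fermat.Agent.S55.Recip.MainAbstract
import Fermat.Agent.S55.Recip.FieldSysInst

/-!
# S55 from the reciprocity law alone (prefix `rc_so_`)

The complete assembly of S55: everything (block [D], the seam, capitulation, absorption, (E1'),
the unit dictionary, the abstract main theorem of G4, the tower step) is plugged in; the only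
hypothesis left is the reciprocity law `hrec` on the field levels containing `ζ_p`
(block (C): the total invariant of a principal `p`-primary idele class vanishes).
-/

set_option autoImplicit false

open CategoryTheory Module groupCohomology ExtCitation

namespace Fermat.Agent.S55

local notation "Qbar" => AlgebraicClosure ℚ

/-- The reciprocity law on the field levels for `T`, the only arithmetic input left. -/
def rc_so_Recip (p : ℕ) [Fact p.Prime] : Prop :=
  ∀ (T : Finset Nat.Primes), pPrime p ∈ T → ∀ b : ia_Lev T,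
    (∀ ζ : Qbar, ζ ^ p = 1 → ζ ∈ b.L) → ∀ (K : Subgroup b.Γ)
      (u : groupCohomology (tt_res K (id_KRep b.L)) 2), tt_IsPPrimary p u →
      rc_INV (rc_fd_data p b) (rc_fd_finSupp p b) K
        ((tt_coeffMap (rc_ci_resMor (id_diagRep T b.L) K) 2).hom u) = 0

variable {p : ℕ} [Fact p.Prime]

/-- The G4 export on every field level from the reciprocity law. -/
theorem rc_so_G4 (hp2 : p ≠ 2) (hrec : rc_so_Recip p) (T : Finset Nat.Primes) (b : ia_Lev T)
    (hpT : pPrime p ∈ T) (hζ : ∀ ζ : Qbar, ζ ^ p = 1 → ζ ∈ b.L) : ia_G4 p b :=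
  ⟨rc_ma_pclass (rc_fi_sys hp2 hpT (hrec T hpT)) hp2 ⟨_, hpT⟩ b hζ,
    fun H w hw => rc_ma_inv (rc_fi_sys hp2 hpT (hrec T hpT)) hp2 ⟨_, hpT⟩ b hζ H w hw⟩

/-- **The seam** from the reciprocity law. -/
noncomputable def rc_so_seam (hp2 : p ≠ 2) (hrec : rc_so_Recip p) {S : Finset Nat.Primes}
    (hpS : pPrime p ∈ S) : du_Seam p S :=
  ism_seam p ⟨_, hpS⟩ hpS
    (fun a => rc_ma_levPclass (rc_fi_sys hp2 hpS (hrec S hpS)) hp2 ⟨_, hpS⟩ hpS a)
    (fun a => rc_fd_out p (ia_ofLev (Finset.Subset.refl S) a))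
    (fun a q' x => rc_fd_pr_inS p (ia_ofLev (Finset.Subset.refl S) a) q' x)
    (fun a => rc_fd_finSupp p (ia_ofLev (Finset.Subset.refl S) a))
    (fun a w hw => rc_ma_levInv (rc_fi_sys hp2 hpS (hrec S hpS)) hp2 ⟨_, hpS⟩ hpS a ⊤ w hw)
    (ia_hE1 p hp2 ⟨_, hpS⟩ hpS (rc_so_G4 hp2 hrec))

/-- **S55 from the reciprocity law.** -/
theorem rc_so_main (hp2 : p ≠ 2) (hrec : rc_so_Recip p) (S : Finset Nat.Primes)
    (hpS : pPrime p ∈ S)
    (M : Rep (ZMod p) (AlgebraicClosure ℚ ≃ₐ[ℚ] AlgebraicClosure ℚ))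
    [FiniteDimensional (ZMod p) M]
    (hsm : ∀ m : M, ∃ F : IntermediateField ℚ (AlgebraicClosure ℚ), FiniteDimensional ℚ F ∧
      ∀ s ∈ F.fixingSubgroup, M.ρ s m = m)
    (hMur : ∀ q : Nat.Primes, q ∉ S → ∀ A : ValuationSubring (AlgebraicClosure ℚ),
      A.LiesOverPrime (q : ℕ) → ∀ g ∈ A.inertiaSubgroupIn ℚ, M.ρ g = 1) :
    ∃ B : sha₁ S (M.dualTwist (cycloChar p)) →ₗ[ZMod p] sha₂ S M →ₗ[ZMod p] ZMod p,
      (∀ y, (∀ x, B y x = 0) → y = 0) ∧ (∀ x, (∀ y, B y x = 0) → x = 0) :=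
  du_top hp2 S hpS M hsm hMur (rc_so_seam hp2 hrec hpS)
    (fun hζ K _ _ hA _ h => xf_D3X _ M K hA hpS hζ h)

end Fermat.Agent.S55
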