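import Fermat.Agent.S55.Tate.ClassModule
import Fermat.Agent.S55.FinGrp.H2Torsion
import Fermat.Agent.S55.Dual.FinDual

/-!
# S55 / G4: conjugation-restriction maps, localisation maps, and `p`-class modules

Generic tools for the total invariant (`Recip/TotalInv.lean`), for a group `Γ`, `J : Rep k Γ`:

* `rc_inn_trivial` : inner automorphisms act trivially on `H²` (explicit primitive
  `b g = h⁻¹ (f (h g h⁻¹, h) - f (h, g))`);
* `rc_cj J g hK n : Hⁿ(H, J) ⟶ Hⁿ(K, J)` for subgroups with `g K g⁻¹ ≤ H` (conjugation followed by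
  restriction), functorial (`rc_cj_comp`); `rc_cj J 1` is restriction;
* `rc_loc pr K n : Hⁿ(K, J) ⟶ Hⁿ(K ∩ D, X)` for a `D`-equivariant map `pr : J → X`
  (`K ∩ D` is `K.subgroupOf D`), compatible with `rc_cj` for `d ∈ D` (`rc_cj_loc`);
* for a `p`-class module `P` on `X : Rep ℤ Δ` (seam A): every `p`-primary class of a layer is the
  restriction of a `p`-primary class of the top layer (`rc_pcm_exists_res`), hence
  `P.inv D'' (rc_cj X d hK 2 w) = (|D'| / |D''|) • P.inv D' w` (`rc_pcm_inv_cj`): the invariants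
  are compatible with restriction between arbitrary layers and invariant under conjugation.
-/

set_option autoImplicit false

namespace Fermat.Agent.S55

open CategoryTheory groupCohomology

universe u

section conj
variable {k G : Type u} [CommRing k] [Group G]

/-- the module map `m ↦ h⁻¹ m` covering the inner automorphism `x ↦ h x h⁻¹`. -/
noncomputable def rc_innMor (A : Rep k G) (h : G) :
    Rep.res (MulAut.conj h).toMonoidHom A ⟶ A :=
  Rep.ofHom ⟨A.ρ h⁻¹, fun x => by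
    ext m
    change A.ρ h⁻¹ (A.ρ (h * x * h⁻¹) m) = A.ρ x (A.ρ h⁻¹ m)
    rw [← Module.End.mul_apply, ← map_mul, ← Module.End.mul_apply, ← map_mul]
    congr 2
    group⟩

theorem rc_innMor_apply (A : Rep k G) (h : G) (m : A.V) : (rc_innMor A h).hom m = A.ρ h⁻¹ m := rfl

/-- **Inner automorphisms act trivially on `H²`.** -/
theorem rc_inn_trivial_apply (A : Rep k G) (h : G) (z : H2 A) :
    map (MulAut.conj h).toMonoidHom (rc_innMor A h) 2 z = z := by
  induction z using H2_induction_on with | h x => ?_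
  rw [H2π_comp_map_apply, H2π_eq_iff, h2_mem_coboundaries₂_iff]
  have hx := (mem_cocycles₂_iff (x : G × G → A)).1 x.2
  refine ⟨fun g => A.ρ h⁻¹ ((x : G × G → A) (h * g * h⁻¹, h) - (x : G × G → A) (h, g)), ?_⟩
  funext ⟨g₁, g₂⟩
  rw [coe_mapCocycles₂]
  change A.ρ h⁻¹ ((x : G × G → A) (h * g₁ * h⁻¹, h * g₂ * h⁻¹)) - (x : G × G → A) (g₁, g₂) =
    A.ρ g₁ (A.ρ h⁻¹ ((x : G × G → A) (h * g₂ * h⁻¹, h) - (x : G × G → A) (h, g₂)))
      - A.ρ h⁻¹ ((x : G × G → A) (h * (g₁ * g₂) * h⁻¹, h) - (x : G × G → A) (h, g₁ * g₂))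
      + A.ρ h⁻¹ ((x : G × G → A) (h * g₁ * h⁻¹, h) - (x : G × G → A) (h, g₁))
  -- the three cocycle identities
  have e1 := hx (h * g₁ * h⁻¹) (h * g₂ * h⁻¹) h
  have e2 := hx (h * g₁ * h⁻¹) h g₂
  have e3 := hx h g₁ g₂
  have a1 : h * g₁ * h⁻¹ * (h * g₂ * h⁻¹) = h * (g₁ * g₂) * h⁻¹ := by group
  have a2 : h * g₂ * h⁻¹ * h = h * g₂ := by group
  have a3 : h * g₁ * h⁻¹ * h = h * g₁ := by group
  rw [a1, a2] at e1
  rw [a3] at e2
  have key : A.ρ g₁ ∘ₗ A.ρ h⁻¹ = A.ρ h⁻¹ ∘ₗ A.ρ (h * g₁ * h⁻¹) := by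
    rw [← Module.End.mul_eq_comp, ← Module.End.mul_eq_comp, ← map_mul, ← map_mul]
    congr 1
    group
  have key' : ∀ m, A.ρ g₁ (A.ρ h⁻¹ m) = A.ρ h⁻¹ (A.ρ (h * g₁ * h⁻¹) m) := fun m =>
    LinearMap.congr_fun key m
  have hh : ∀ m, A.ρ h⁻¹ (A.ρ h m) = m := fun m => by
    rw [← Module.End.mul_apply, ← map_mul, inv_mul_cancel, map_one, Module.End.one_apply]
  rw [key', ← map_sub, ← map_add]
  have : (x : G × G → A) (g₁, g₂) = A.ρ h⁻¹ (A.ρ h ((x : G × G → A) (g₁, g₂))) := (hh _).symm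
  rw [this, ← map_sub]
  congr 1
  rw [map_sub]
  -- now a linear consequence of e1 e2 e3
  have e1' := eq_sub_of_add_eq e1
  have e3' := eq_sub_of_add_eq' e3
  have e2' := eq_sub_of_add_eq' e2
  rw [e1', e3', e2']
  abel

/-- inner automorphisms act trivially on `H²`, as an equality of morphisms. -/
theorem rc_inn_trivial (A : Rep k G) (h : G) :
    map (MulAut.conj h).toMonoidHom (rc_innMor A h) 2 = 𝟙 _ := by
  ext z
  exact rc_inn_trivial_apply A h z

end conj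


section generic
variable {k Γ : Type} [CommRing k] [Group Γ]

/-- `k ↦ g k g⁻¹` from `K` to `H` when `g K g⁻¹ ≤ H`. -/
def rc_cjHom (g : Γ) {K H : Subgroup Γ} (hK : ∀ x ∈ K, g * x * g⁻¹ ∈ H) : ↥K →* ↥H where
  toFun x := ⟨g * x * g⁻¹, hK x x.2⟩
  map_one' := by ext; simp
  map_mul' a b := by ext; simp [mul_assoc]

@[simp] theorem rc_cjHom_coe (g : Γ) {K H : Subgroup Γ} (hK : ∀ x ∈ K, g * x * g⁻¹ ∈ H) (x : ↥K) :
    ((rc_cjHom g hK x : ↥H) : Γ) = g * x * g⁻¹ := rfl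

/-- the module map `m ↦ g⁻¹ m` covering `rc_cjHom g`. -/
noncomputable def rc_cjMor (J : Rep.{0} k Γ) (g : Γ) {K H : Subgroup Γ}
    (hK : ∀ x ∈ K, g * x * g⁻¹ ∈ H) :
    Rep.res (rc_cjHom g hK) (tt_res H J) ⟶ tt_res K J :=
  Rep.ofHom ⟨J.ρ g⁻¹, fun x => by
    ext m
    change J.ρ g⁻¹ (J.ρ (g * x * g⁻¹) m) = J.ρ x (J.ρ g⁻¹ m)
    rw [← Module.End.mul_apply, ← map_mul, ← Module.End.mul_apply, ← map_mul]
    congr 2
    group⟩

theorem rc_cjMor_apply (J : Rep.{0} k Γ) (g : Γ) {K H : Subgroup Γ}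
    (hK : ∀ x ∈ K, g * x * g⁻¹ ∈ H) (m : J.V) :
    (rc_cjMor J g hK).hom m = J.ρ g⁻¹ m := rfl

/-- conjugation-restriction `Hⁿ(H, J) → Hⁿ(K, J)` for `g K g⁻¹ ≤ H`. -/
noncomputable def rc_cj (J : Rep.{0} k Γ) (g : Γ) {K H : Subgroup Γ}
    (hK : ∀ x ∈ K, g * x * g⁻¹ ∈ H) (n : ℕ) :
    groupCohomology (tt_res H J) n ⟶ groupCohomology (tt_res K J) n :=
  map (rc_cjHom g hK) (rc_cjMor J g hK) n

theorem rc_cj_comp (J : Rep.{0} k Γ) (g g' : Γ) {K' K H : Subgroup Γ}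
    (hK : ∀ x ∈ K, g * x * g⁻¹ ∈ H) (hK' : ∀ x ∈ K', g' * x * g'⁻¹ ∈ K) (n : ℕ)
    (hKK' : ∀ x ∈ K', (g * g') * x * (g * g')⁻¹ ∈ H) :
    rc_cj J g hK n ≫ rc_cj J g' hK' n = rc_cj J (g * g') hKK' n := by
  unfold rc_cj
  rw [← map_comp]
  refine map_congr ?_ ?_ n
  · ext x
    simp [mul_assoc]
  · ext m
    change J.ρ g'⁻¹ (J.ρ g⁻¹ m) = J.ρ (g * g')⁻¹ m
    rw [← Module.End.mul_apply, ← map_mul, mul_inv_rev]

theorem rc_cj_congr (J : Rep.{0} k Γ) {g g' : Γ} (hg : g = g') {K H : Subgroup Γ}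
    (hK : ∀ x ∈ K, g * x * g⁻¹ ∈ H) (hK' : ∀ x ∈ K, g' * x * g'⁻¹ ∈ H) (n : ℕ) :
    rc_cj J g hK n = rc_cj J g' hK' n := by
  subst hg; rfl

/-- restriction `Hⁿ(H, J) → Hⁿ(K, J)` for `K ≤ H`, as `rc_cj` with `g = 1`. -/
theorem rc_one_mem {K H : Subgroup Γ} (hKH : K ≤ H) : ∀ x ∈ K, (1 : Γ) * x * (1 : Γ)⁻¹ ∈ H :=
  fun x hx => by simpa using hKH hx

/-- `rc_cj` from the whole group: it is the restriction map of seam A, up to the identification
`tt_res ⊤`. -/
theorem rc_cj_one_top_comp (J : Rep.{0} k Γ) (K : Subgroup Γ) (n : ℕ) :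
    tt_resMap ⊤ J n ≫ rc_cj J 1 (rc_one_mem (le_top : K ≤ ⊤)) n = tt_resMap K J n := by
  unfold rc_cj
  rw [← map_comp]
  refine map_congr ?_ ?_ n
  · ext x
    simp
  · ext m
    change J.ρ (1 : Γ)⁻¹ m = m
    simp

/-! ### Localisation at a subgroup `D` with a `D`-module quotient `X` -/

/-- `K ∩ D → K`, the inclusion, written on `K.subgroupOf D`. -/
def rc_locHom (D K : Subgroup Γ) : ↥(K.subgroupOf D) →* ↥K where
  toFun d := ⟨((d : ↥D) : Γ), Subgroup.mem_subgroupOf.mp d.2⟩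
  map_one' := rfl
  map_mul' _ _ := rfl

@[simp] theorem rc_locHom_coe (D K : Subgroup Γ) (d : ↥(K.subgroupOf D)) :
    ((rc_locHom D K d : ↥K) : Γ) = ((d : ↥D) : Γ) := rfl

/-- the module map covering `rc_locHom`. -/
noncomputable def rc_locMor {J : Rep.{0} k Γ} {D : Subgroup Γ} {X : Rep.{0} k ↥D}
    (pr : tt_res D J ⟶ X) (K : Subgroup Γ) :
    Rep.res (rc_locHom D K) (tt_res K J) ⟶ tt_res (K.subgroupOf D) X :=
  Rep.ofHom ⟨pr.hom.toLinearMap, fun d => by
    ext m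
    exact Rep.hom_comm_apply pr (d : ↥D) m⟩

theorem rc_locMor_apply {J : Rep.{0} k Γ} {D : Subgroup Γ} {X : Rep.{0} k ↥D}
    (pr : tt_res D J ⟶ X) (K : Subgroup Γ) (m : J.V) :
    (rc_locMor pr K).hom m = pr.hom m := rfl

/-- localisation `Hⁿ(K, J) → Hⁿ(K ∩ D, X)`. -/
noncomputable def rc_loc {J : Rep.{0} k Γ} {D : Subgroup Γ} {X : Rep.{0} k ↥D}
    (pr : tt_res D J ⟶ X) (K : Subgroup Γ) (n : ℕ) :
    groupCohomology (tt_res K J) n ⟶ groupCohomology (tt_res (K.subgroupOf D) X) n :=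
  map (rc_locHom D K) (rc_locMor pr K) n

/-- conjugation-restriction followed by localisation, for `d ∈ D`. -/
theorem rc_cj_loc {J : Rep.{0} k Γ} {D : Subgroup Γ} {X : Rep.{0} k ↥D}
    (pr : tt_res D J ⟶ X) (d : ↥D) {K' K : Subgroup Γ}
    (hK : ∀ x ∈ K', (d : Γ) * x * (d : Γ)⁻¹ ∈ K) (n : ℕ)
    (hK' : ∀ x ∈ K'.subgroupOf D, d * x * d⁻¹ ∈ K.subgroupOf D) :
    rc_cj J (d : Γ) hK n ≫ rc_loc pr K' n = rc_loc pr K n ≫ rc_cj X d hK' n := by
  unfold rc_cj rc_loc
  rw [← map_comp, ← map_comp]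
  refine map_congr ?_ ?_ n
  · ext x
    rfl
  · ext m
    change pr.hom (J.ρ (d : Γ)⁻¹ m) = X.ρ d⁻¹ (pr.hom m)
    exact Rep.hom_comm_apply pr d⁻¹ m

/-- the localisation map from the whole group is restriction followed by the coefficient map. -/
theorem rc_map_subtype_eq {J : Rep.{0} k Γ} {D : Subgroup Γ} {X : Rep.{0} k ↥D}
    (pr : tt_res D J ⟶ X) (n : ℕ) :
    map D.subtype pr n = tt_resMap D J n ≫ tt_coeffMap pr n := by
  rw [← map_comp]
  refine map_congr ?_ ?_ n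
  · rfl
  · ext m
    rfl

/-- restriction from the top, then to `K`, then localisation, is localisation from the top followed
by restriction to `K ∩ D`. -/
theorem rc_resMap_cj_loc {J : Rep.{0} k Γ} {D : Subgroup Γ} {X : Rep.{0} k ↥D}
    (pr : tt_res D J ⟶ X) (K : Subgroup Γ) (hK : ∀ x ∈ K, (1 : Γ) * x * (1 : Γ)⁻¹ ∈ (⊤ : Subgroup Γ))
    (n : ℕ) :
    tt_resMap ⊤ J n ≫ rc_cj J 1 hK n ≫ rc_loc pr K n =
      map D.subtype pr n ≫ tt_resMap (K.subgroupOf D) X n := by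
  unfold rc_cj rc_loc
  rw [← map_comp, ← map_comp, ← map_comp]
  refine map_congr ?_ ?_ n
  · ext x
    simp
  · ext m
    change pr.hom (J.ρ (1 : Γ)⁻¹ m) = pr.hom m
    simp

end generic


/-- an element of `ℚ/ℤ` killed by `n` is a multiple of any element of exact order `n`. -/
theorem rc_qz_mem_zmultiples {n : ℕ} (hn : 0 < n) {t x : tt_QZ} (ht : addOrderOf t = n)
    (hx : n • x = 0) : ∃ m : ℕ, x = m • t := by
  classical
  have : NeZero n := ⟨hn.ne'⟩
  have hle : AddSubgroup.zmultiples t ≤ fd_torsion n := by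
    rw [AddSubgroup.zmultiples_le]
    rw [fd_mem_torsion, ← ht, addOrderOf_nsmul_eq_zero]
  have hcard : Nat.card (AddSubgroup.zmultiples t) = n := by
    rw [Nat.card_zmultiples, ht]
  have hfin : Finite (fd_torsion n) := inferInstance
  have heq : AddSubgroup.zmultiples t = fd_torsion n := by
    apply AddSubgroup.eq_of_le_of_card_ge hle
    rw [hcard]
    exact fd_card_torsion_le n hn
  have hxm : x ∈ AddSubgroup.zmultiples t := by
    rw [heq]; exact hx
  have hfo : IsOfFinAddOrder t := by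
    rw [← addOrderOf_pos_iff, ht]; exact hn
  rw [← hfo.mem_multiples_iff_mem_zmultiples] at hxm
  obtain ⟨m, hm⟩ := (AddSubmonoid.mem_multiples_iff _ _).mp hxm
  exact ⟨m, hm.symm⟩


section pcm

variable {Δ : Type} [Group Δ] [Finite Δ] {p : ℕ} [hp : Fact p.Prime] {X : Rep.{0} ℤ Δ}
  (P : PClassModule p X)

include P in
theorem rc_pcm_ordProj_smul_inv (D' : Subgroup Δ) (w : groupCohomology (tt_res D' X) 2)
    (hw : tt_IsPPrimary p w) : ordProj[p] (Nat.card D') • P.inv D' w = 0 := by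
  obtain ⟨k, hk⟩ := hw
  have h1 : Nat.card D' • P.inv D' w = 0 := by
    rw [← map_nsmul, h2_card_smul_eq_zero, map_zero]
  have h2 : p ^ k • P.inv D' w = 0 := by rw [← map_nsmul, hk, map_zero]
  have hd : addOrderOf (P.inv D' w) ∣ Nat.gcd (Nat.card D') (p ^ k) :=
    Nat.dvd_gcd (addOrderOf_dvd_of_nsmul_eq_zero h1) (addOrderOf_dvd_of_nsmul_eq_zero h2)
  have hg : Nat.gcd (Nat.card D') (p ^ k) ∣ ordProj[p] (Nat.card D') := by
    obtain ⟨j, hjk, hj⟩ := (Nat.dvd_prime_pow hp.out).1 (Nat.gcd_dvd_right (Nat.card D') (p ^ k))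
    rw [hj]
    have hdv : p ^ j ∣ Nat.card D' := hj ▸ Nat.gcd_dvd_left _ _
    have hne : Nat.card D' ≠ 0 := Nat.card_pos.ne'
    exact pow_dvd_pow p ((hp.out.pow_dvd_iff_le_factorization hne).1 hdv)
  exact addOrderOf_dvd_iff_nsmul_eq_zero.1 (hd.trans hg)

include P in
theorem rc_pcm_exists_res (D' : Subgroup Δ) (w : groupCohomology (tt_res D' X) 2)
    (hw : tt_IsPPrimary p w) :
    ∃ z : groupCohomology X 2, tt_IsPPrimary p z ∧ (tt_resMap D' X 2).hom z = w := by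
  obtain ⟨u, hu, hord⟩ := P.inv_gen
  set t := P.inv D' ((tt_resMap D' X 2).hom u) with ht
  have ht' : t = D'.index • P.inv ⊤ ((tt_resMap ⊤ X 2).hom u) := P.inv_res D' u hu
  have hru : tt_IsPPrimary p ((tt_resMap D' X 2).hom u) :=
    tt_isPPrimary_map (tt_resMap D' X 2).hom.toAddMonoidHom hu
  set n' := ordProj[p] (Nat.card D') with hn'
  have hn'pos : 0 < n' := Nat.ordProj_pos _ _
  have hcardΔ : D'.index * Nat.card D' = Nat.card Δ := Subgroup.index_mul_card D'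
  have hidx : D'.index ≠ 0 := Subgroup.index_ne_zero_of_finite
  have hcD : Nat.card D' ≠ 0 := Nat.card_pos.ne'
  have hordt : addOrderOf t = n' := by
    apply Nat.dvd_antisymm
    · exact addOrderOf_dvd_iff_nsmul_eq_zero.2 (rc_pcm_ordProj_smul_inv P D' _ hru)
    · -- `n' ∣ addOrderOf t`
      set m := addOrderOf t with hm
      have h0 : m • t = 0 := addOrderOf_nsmul_eq_zero t
      rw [ht', ← mul_smul] at h0
      have hdvd : ordProj[p] (Nat.card Δ) ∣ m * D'.index := by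
        rw [← hord]; exact addOrderOf_dvd_iff_nsmul_eq_zero.2 h0
      rw [← hcardΔ, Nat.ordProj_mul _ hidx hcD] at hdvd
      -- write index = ordProj * ordCompl
      have hsplit : D'.index = ordProj[p] D'.index * ordCompl[p] D'.index :=
        (Nat.ordProj_mul_ordCompl_eq_self _ _).symm
      have hcop : Nat.Coprime n' (ordCompl[p] D'.index) :=
        Nat.Coprime.pow_left _ (Nat.coprime_ordCompl hp.out hidx)
      have h3 : ordProj[p] D'.index * n' ∣ ordProj[p] D'.index * (m * ordCompl[p] D'.index) := by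
        have : m * D'.index = ordProj[p] D'.index * (m * ordCompl[p] D'.index) := by
          conv_lhs => rw [hsplit]
          ring
        rw [← this]; exact hdvd
      have h4 : n' ∣ m * ordCompl[p] D'.index :=
        Nat.dvd_of_mul_dvd_mul_left (Nat.ordProj_pos _ _) h3
      exact hcop.dvd_of_dvd_mul_right h4
  have hkill : n' • P.inv D' w = 0 := rc_pcm_ordProj_smul_inv P D' w hw
  obtain ⟨m, hm⟩ := rc_qz_mem_zmultiples hn'pos hordt hkill
  refine ⟨m • u, tt_isPPrimary_nsmul m hu, ?_⟩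
  have hw' : tt_IsPPrimary p (w - (tt_resMap D' X 2).hom (m • u)) := by
    have h1 : tt_IsPPrimary p ((tt_resMap D' X 2).hom (m • u)) :=
      tt_isPPrimary_map (tt_resMap D' X 2).hom.toAddMonoidHom (tt_isPPrimary_nsmul m hu)
    obtain ⟨a, ha⟩ := hw
    obtain ⟨b, hb⟩ := h1
    refine ⟨a + b, ?_⟩
    have e1 : p ^ (a + b) • w = 0 := by rw [pow_add, mul_comm, mul_smul, ha, smul_zero]
    have e2 : p ^ (a + b) • (tt_resMap D' X 2).hom (m • u) = 0 := by
      rw [pow_add, mul_smul, hb, smul_zero]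
    rw [smul_sub, e1, e2, sub_zero]
  have hz : P.inv D' (w - (tt_resMap D' X 2).hom (m • u)) = 0 := by
    rw [map_sub, map_nsmul, map_nsmul, ← ht, hm, sub_self]
  have := P.inv_inj D' _ hw' hz
  exact (sub_eq_zero.1 this).symm


/-- restriction from the top followed by conjugation-restriction is restriction from the top. -/
theorem rc_resMap_cj {k Γ : Type} [CommRing k] [Group Γ] (X : Rep.{0} k Γ) (d : Γ)
    {D'' D' : Subgroup Γ} (hK : ∀ x ∈ D'', d * x * d⁻¹ ∈ D') :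
    tt_resMap D' X 2 ≫ rc_cj X d hK 2 = tt_resMap D'' X 2 := by
  have h1 : tt_resMap D' X 2 ≫ rc_cj X d hK 2 =
      map (MulAut.conj d).toMonoidHom (rc_innMor X d) 2 ≫ tt_resMap D'' X 2 := by
    unfold rc_cj
    rw [← map_comp, ← map_comp]
    refine map_congr ?_ ?_ 2
    · ext x
      rfl
    · ext m
      rfl
  rw [h1, rc_inn_trivial, Category.id_comp]

include P in
/-- **Invariants and conjugation-restriction.** -/
theorem rc_pcm_inv_cj (d : Δ) {D'' D' : Subgroup Δ} (hK : ∀ x ∈ D'', d * x * d⁻¹ ∈ D')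
    (w : groupCohomology (tt_res D' X) 2) (hw : tt_IsPPrimary p w) :
    P.inv D'' ((rc_cj X d hK 2).hom w) = (Nat.card D' / Nat.card D'') • P.inv D' w := by
  obtain ⟨z, hz, rfl⟩ := rc_pcm_exists_res P D' w hw
  have h1 : (rc_cj X d hK 2).hom ((tt_resMap D' X 2).hom z) = (tt_resMap D'' X 2).hom z := by
    rw [← rc_resMap_cj X d hK]
    rfl
  rw [h1, P.inv_res D'' z hz, P.inv_res D' z hz, ← mul_smul]
  congr 1
  have hinj : Function.Injective (rc_cjHom d hK) := by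
    intro a b hab
    have := congrArg (fun x : ↥D' => (x : Δ)) hab
    simp only [rc_cjHom_coe] at this
    ext
    simpa using this
  have hdvd : Nat.card D'' ∣ Nat.card D' := Subgroup.card_dvd_of_injective _ hinj
  obtain ⟨c, hc⟩ := hdvd
  have hpos : 0 < Nat.card D'' := Nat.card_pos
  rw [hc, Nat.mul_div_cancel_left _ hpos]
  have e1 : D''.index * Nat.card D'' = Nat.card Δ := Subgroup.index_mul_card D''
  have e2 : D'.index * Nat.card D' = Nat.card Δ := Subgroup.index_mul_card D'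
  rw [hc] at e2
  have : D''.index * Nat.card D'' = (c * D'.index) * Nat.card D'' := by
    rw [e1, ← e2]; ring
  exact Nat.eq_of_mul_eq_mul_right hpos this

end pcm

end Fermat.Agent.S55
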