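import Fermat.Agent.S55.Recip.DictCover
import Fermat.Agent.S55.Recip.LevelChange
import Fermat.Agent.S55.Recip.ApproxClass

/-!
# S55 / G4 (C): the exceptional set and the lift of `[APPROX]` to a higher level (prefix `rc_al_`)

* `rc_al_exists_B` (generic in the dictionary): a finite set `B` of rational primes outside of which
  a class `z` has vanishing local terms and an element `b' ∈ Eˣ` has order `0`.
-/

set_option autoImplicit false
set_option linter.unusedSectionVars false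
set_option linter.style.haveILetI false

open scoped NumberField Pointwise
open IsDedekindDomain CategoryTheory groupCohomology
open Fermat.Agent.S14

namespace Fermat.Agent.S55

section generic

variable {M : Type} [Field M] [NumberField M] {p : ℕ}
  {J : Rep.{0} ℤ (M ≃ₐ[ℚ] M)} {Q : Type} (𝔻 : rc_InvData p J Q) (δ : id_KRep M ⟶ J)
  {E : Type} [Field E] [NumberField E] [Algebra E M]

/-- **The exceptional set.** Outside a finite set `B` of rational primes the local terms of `z`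
vanish and `b'` is a unit. -/
theorem rc_al_exists_B (hfin : rc_FinSupp 𝔻) (𝔇 : ∀ q, rc_td_Dict 𝔻 δ q)
    (z : groupCohomology (tt_res (rc_dg_sub E M) J) 2) (b' : Eˣ) :
    ∃ B : Finset ℕ, ∀ q, (𝔇 q).ℓ ∉ B → ∀ g : M ≃ₐ[ℚ] M,
      rc_term 𝔻 q (rc_dg_sub E M) g z = 0 ∧
        id_ordZ E (id_under E M (g • (𝔇 q).w)) b' = 0 := by
  classical
  set B₁ : Finset ℕ := (hfin (rc_dg_sub E M) z).toFinset.image (fun q => (𝔇 q).ℓ) with hB₁
  set B₂ : Finset ℕ := (id_finite_ordZ_ne_zero E b').toFinset.image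
    (fun v => Classical.choose (rc_ic_exists_prime_mem E v)) with hB₂
  refine ⟨B₁ ∪ B₂, fun q hq g => ⟨?_, ?_⟩⟩
  · have hq1 : (𝔇 q).ℓ ∉ B₁ := fun h => hq (Finset.mem_union_left _ h)
    have h0 : rc_comp 𝔻 q (rc_dg_sub E M) g z = 0 := by
      by_contra hne
      apply hq1
      rw [hB₁, Finset.mem_image]
      exact ⟨q, (Set.Finite.mem_toFinset _).2 ⟨g, hne⟩, rfl⟩
    rw [rc_term_apply, h0, map_zero]
  · have hq2 : (𝔇 q).ℓ ∉ B₂ := fun h => hq (Finset.mem_union_right _ h)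
    by_contra hne
    apply hq2
    set v := id_under E M (g • (𝔇 q).w) with hv
    have hspec := Classical.choose_spec (rc_ic_exists_prime_mem E v)
    have hmem : (((𝔇 q).ℓ : ℕ) : 𝓞 E) ∈ v.asIdeal :=
      (rc_dc_natCast_mem_under_iff (𝔇 q) g _).2 (𝔇 q).hmem
    have heq : (𝔇 q).ℓ = Classical.choose (rc_ic_exists_prime_mem E v) :=
      rc_ic_prime_unique E v (𝔇 q).hℓ hspec.1 hmem hspec.2
    rw [hB₂, Finset.mem_image]
    exact ⟨v, (Set.Finite.mem_toFinset _).2 hne, heq.symm⟩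

/-- **`hout` of `rc_co_recip_field`** from GROWTH on the primes over a finite set `B` of rational
primes outside of which the class and the element `b'` are trivial. -/
theorem rc_al_hout [hpF : Fact p.Prime] (𝔇 : ∀ q, rc_td_Dict 𝔻 δ q)
    {F : Type} [Field F] [NumberField F] [Algebra E F] [IsGalois E F]
    (q₀ q₁ : Q) (hq₀ : ∀ q, (𝔇 q).ℓ = p → q = q₀) (B : Finset ℕ) (hq₁ : (𝔇 q₁).ℓ ∈ B) {c : ℕ}
    (hgrow : ∀ v ∈ rc_kg_primesOver E B, v.IsPrime → v ≠ ⊥ → (p : 𝓞 E) ∉ v →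
      p ^ c ∣ orderOf (am_frob E F v))
    (𝒢 : Subgroup (M ≃ₐ[ℚ] M)) (z : groupCohomology (tt_res 𝒢 J) 2) (b' : Eˣ)
    (hB : ∀ q, (𝔇 q).ℓ ∉ B → ∀ g : M ≃ₐ[ℚ] M,
      rc_term 𝔻 q 𝒢 g z = 0 ∧ id_ordZ E (id_under E M (g • (𝔇 q).w)) b' = 0)
    (q : Q) (g : M ≃ₐ[ℚ] M) (hq : q ≠ q₀) :
    p ^ c ∣ orderOf (am_frob E F (id_under E M (g • (𝔇 q).w)).asIdeal) ∨
      (rc_term 𝔻 q 𝒢 g z = 0 ∧ q ≠ q₁ ∧ id_ordZ E (id_under E M (g • (𝔇 q).w)) b' = 0) := by
  by_cases hℓB : (𝔇 q).ℓ ∈ B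
  · left
    haveI := (𝔇 q).w.isPrime
    haveI : (g • (𝔇 q).w.asIdeal).IsPrime := Ideal.IsPrime.smul g
    have hg0 : g • (𝔇 q).w.asIdeal ≠ ⊥ := id_smul_ne_bot M g (𝔇 q).w.ne_bot
    have hmem : (g • (𝔇 q).w.asIdeal).under (𝓞 E) ∈ rc_kg_primesOver E B :=
      rc_kg_under_mem (g • (𝔇 q).w.asIdeal) hg0 hℓB (𝔇 q).hℓ (rc_kg_ell_mem_smul (𝔇 q) g)
    obtain ⟨hv, hv0, -⟩ := rc_kg_mem_primesOver.1 hmem
    have hℓv : (((𝔇 q).ℓ : ℕ) : 𝓞 E) ∈ (g • (𝔇 q).w.asIdeal).under (𝓞 E) := by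
      rw [Ideal.under, Ideal.mem_comap, map_natCast]
      exact rc_kg_ell_mem_smul (𝔇 q) g
    have hℓp : (𝔇 q).ℓ ≠ p := fun h => hq (hq₀ q h)
    have hco : Nat.Coprime p (𝔇 q).ℓ :=
      (Nat.coprime_primes hpF.out (𝔇 q).hℓ).mpr (Ne.symm hℓp)
    have hpv : (p : 𝓞 E) ∉ (g • (𝔇 q).w.asIdeal).under (𝓞 E) :=
      ax_natCast_not_mem _ hv.ne_top hℓv hco
    exact hgrow _ hmem hv hv0 hpv
  · right
    obtain ⟨h1, h2⟩ := hB q hℓB g
    refine ⟨h1, ?_, h2⟩
    rintro rfl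
    exact hℓB hq₁

end generic

local notation "Qbar" => AlgebraicClosure ℚ

section level

variable {T : Finset Nat.Primes} (p : ℕ) [Fact p.Prime] {a Ω : ia_Lev T} (h : a ≤ Ω)
  {E : Type} [Field E] [NumberField E] [Algebra E ↥a.L]

/-- The primes of the field dictionaries are compatible with restriction. -/
theorem rc_al_w_under (i : rc_fd_Q T) :
    letI := ia_algebra h
    id_under ↥a.L ↥Ω.L (rc_tf_dictLev p Ω i).w = (rc_tf_dictLev p a i).w := by
  letI := ia_algebra h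
  rcases i with q | q
  · exact rc_tq_w_under q.1 a.L Ω.L (fun _ => rfl)
  · exact congrArg Subtype.val (rc_fd_w_under h q)

/-- **The prime of `E` under a place of the upper level** is the prime of `E` under the restricted
place of the lower level. -/
theorem rc_al_under (i : rc_fd_Q T) (g : Ω.Γ) :
    letI := ia_algebra h
    letI := rc_fs_algebra E ↥a.L ↥Ω.L
    id_under E ↥Ω.L (g • (rc_tf_dictLev p Ω i).w) =
      id_under E ↥a.L (ia_Lev.res h g • (rc_tf_dictLev p a i).w) := by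
  letI := ia_algebra h
  letI := rc_fs_algebra E ↥a.L ↥Ω.L
  haveI := rc_fs_isScalarTower E ↥a.L ↥Ω.L
  rw [← id_under_trans E ↥a.L ↥Ω.L, id_under_smul ↥a.L ↥Ω.L (ia_compat_res h g),
    rc_al_w_under p h i]

variable (K : Subgroup a.Γ) (u : groupCohomology (tt_res K (id_KRep ↥a.L)) 2)

/-- **Lift of `[APPROX]`** from the level `a` (where the class `u` lives) to a higher level `Ω`:
the hypothesis `happ` of `rc_co_recip_field` for `inf u`. -/
theorem rc_al_happ_lift {Z : Type} [Field Z] [NumberField Z] [Algebra E Z] [IsGalois E Z]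
    (hu : tt_IsPPrimary p u) (q₀ : rc_fd_Q T) (t₀ : Gal(Z/E)) (n : ℕ) (b' : Eˣ)
    (happ : ∀ (g : a.Γ) (d : ℕ),
      am_frob E Z (id_under E ↥a.L (g • (rc_tf_dictLev p a q₀).w)).asIdeal = t₀ ^ d →
      rc_term (rc_fd_data p a) q₀ K g ((rr_push (id_diagRep T ↥a.L) K).hom u) =
        cy_frac n ((d : ℤ) * id_ordZ E (id_under E ↥a.L (g • (rc_tf_dictLev p a q₀).w)) b')) :
    letI := ia_algebra h
    letI := rc_fs_algebra E ↥a.L ↥Ω.L
    ∀ (g : Ω.Γ) (d : ℕ),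
      am_frob E Z (id_under E ↥Ω.L (g • (rc_tf_dictLev p Ω q₀).w)).asIdeal = t₀ ^ d →
      rc_term (rc_fd_data p Ω) q₀ (K.comap (ia_Lev.res h)) g
        ((rr_push (id_diagRep T ↥Ω.L) (K.comap (ia_Lev.res h))).hom
          ((lc_inf₂ (lc_piSub (ia_Lev.res h) K)
            (lc_phiSub (ia_Lev.res h) (id_iaKmapRep h) K)).hom u)) =
        cy_frac n ((d : ℤ) * id_ordZ E (id_under E ↥Ω.L (g • (rc_tf_dictLev p Ω q₀).w)) b') := by
  letI := ia_algebra h
  letI := rc_fs_algebra E ↥a.L ↥Ω.L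
  intro g d hd
  rw [rc_al_under p h q₀ g] at hd ⊢
  rw [rc_lv_term_inf p h q₀ K g u hu]
  exact happ _ d hd

/-- **Lift of the exceptional set** from the level `a` to a higher level `Ω`. -/
theorem rc_al_hB_lift (hu : tt_IsPPrimary p u) (b' : Eˣ) (B : Finset ℕ)
    (hB : ∀ q, (rc_tf_dictLev p a q).ℓ ∉ B → ∀ g : a.Γ,
      rc_term (rc_fd_data p a) q K g ((rr_push (id_diagRep T ↥a.L) K).hom u) = 0 ∧
        id_ordZ E (id_under E ↥a.L (g • (rc_tf_dictLev p a q).w)) b' = 0) :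
    letI := ia_algebra h
    letI := rc_fs_algebra E ↥a.L ↥Ω.L
    ∀ q, (rc_tf_dictLev p Ω q).ℓ ∉ B → ∀ g : Ω.Γ,
      rc_term (rc_fd_data p Ω) q (K.comap (ia_Lev.res h)) g
        ((rr_push (id_diagRep T ↥Ω.L) (K.comap (ia_Lev.res h))).hom
          ((lc_inf₂ (lc_piSub (ia_Lev.res h) K)
            (lc_phiSub (ia_Lev.res h) (id_iaKmapRep h) K)).hom u)) = 0 ∧
        id_ordZ E (id_under E ↥Ω.L (g • (rc_tf_dictLev p Ω q).w)) b' = 0 := by
  letI := ia_algebra h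
  letI := rc_fs_algebra E ↥a.L ↥Ω.L
  intro q hq g
  rw [rc_al_under p h q g, rc_lv_term_inf p h q K g u hu]
  refine hB q ?_ _
  rwa [rc_dc_ℓ] at hq ⊢

end level

end Fermat.Agent.S55
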