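import Fermat.Agent.S55.Recip.ClassInvHyp
import Fermat.Agent.S55.Recip.TotalInvInf
import Fermat.Agent.S55.Recip.HasseSum

/-!
# S55 / G4: the two-level assembly (abstract, prefix `rc_as_`)

Two levels `a ≤ b` with Galois groups `Γ` and `G`, `π : G →* Γ` (surjective, kernel `N` a
`p`-group).  On the upper level: a short exact sequence `0 → U' → J' → A → 0` (`X'`), local data
`𝔻'` on `J'` which make `J'` a restricted sum of coinduced modules (`hs_IsCoindSum 𝔻'`), the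
reciprocity law for `𝔻'`, and one place `q₀` whose decomposition group contains `N`.  On the
lower level: `g : J ⟶ C`, local data `𝔻` on `J`.  The transition maps `φC : C → A` (`lc_IsInfl`),
`φJ : J → J'` with a morphism of local data `rc_InvMor 𝔻' 𝔻 π φJ` (local inflation
compatibility).  With the inputs of the second inequality (`hN1`, `hC1`, `hbound`, `hN2`):

* `rc_as_pclass : PClassModule p C`;
* `rc_as_inv_toC` : `inv_K (g_* w) = INV_K w` for every layer `K ≤ Γ` and every `p`-primary class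
  `w ∈ H²(K, J)`;
* `rc_as_invTop_toC` : `invTop (g_* w) = ∑ᶠ q, (P q).invTop (loc_q w)` (the sum formula).
-/

set_option autoImplicit false

namespace Fermat.Agent.S55

open CategoryTheory groupCohomology Rep

section naturality

variable {k G Γ : Type} [CommRing k] [Group G] [Group Γ]
  {J' A : Rep.{0} k G} {J C : Rep.{0} k Γ} (π : G →* Γ)
  (g' : J' ⟶ A) (g : J ⟶ C) (φC : res π C ⟶ A) (φJ : res π J ⟶ J')

/-- inflation commutes with the maps induced by `J → C`, `J' → A`. -/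
theorem rc_as_inf_coeff (hsq : ∀ x : J.V, g'.hom (φJ.hom x) = φC.hom (g.hom x)) (K : Subgroup Γ) :
    rc_ci_inf π φJ K ≫ tt_coeffMap (rc_ci_resMor g' (K.comap π)) 2 =
      tt_coeffMap (rc_ci_resMor g K) 2 ≫ rc_ci_inf π φC K := by
  rw [← map_comp, ← map_comp]
  refine groupCohomology.map_congr ?_ ?_ 2
  · ext x
    rfl
  · ext m
    exact hsq m

theorem rc_as_inf_coeff_apply (hsq : ∀ x : J.V, g'.hom (φJ.hom x) = φC.hom (g.hom x))
    (K : Subgroup Γ) (w : groupCohomology (tt_res K J) 2) :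
    (tt_coeffMap (rc_ci_resMor g' (K.comap π)) 2).hom ((rc_ci_inf π φJ K).hom w) =
      (rc_ci_inf π φC K).hom ((tt_coeffMap (rc_ci_resMor g K) 2).hom w) :=
  congrArg (fun f => f.hom w) (rc_as_inf_coeff π g' g φC φJ hsq K)

/-- restriction commutes with coefficient maps -/
theorem rc_as_coeff_resMap (K : Subgroup Γ) (n : ℕ) :
    tt_coeffMap g n ≫ tt_resMap K C n = tt_resMap K J n ≫ tt_coeffMap (rc_ci_resMor g K) n := by
  rw [← map_comp, ← map_comp]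
  refine groupCohomology.map_congr ?_ ?_ n
  · ext x
    rfl
  · ext m
    rfl

end naturality

section assembly

variable {p : ℕ} [hp : Fact p.Prime] {G Γ : Type} [Group G] [Group Γ] [Finite G] [Finite Γ]

/-- **The data of a two-level situation.** -/
structure rc_TwoLevel (p : ℕ) [Fact p.Prime] (G Γ : Type) [Group G] [Group Γ] [Finite G]
    [Finite Γ] (Q : Type) where
  π : G →* Γ
  /-- the upper level: `0 → U' → J' → A → 0` -/
  X' : ShortComplex (Rep.{0} ℤ G)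
  hX' : X'.ShortExact
  /-- the lower level: `J → C` -/
  J : Rep.{0} ℤ Γ
  C : Rep.{0} ℤ Γ
  g : J ⟶ C
  /-- transition maps -/
  φC : res π C ⟶ X'.X₃
  hπ : lc_IsInfl π φC
  φJ : res π J ⟶ X'.X₂
  hsq : ∀ x : J.V, X'.g.hom (φJ.hom x) = φC.hom (g.hom x)
  /-- local data -/
  𝔻' : rc_InvData p X'.X₂ Q
  𝔻 : rc_InvData p J Q
  M : rc_InvMor 𝔻' 𝔻 π φJ
  hcoind' : hs_IsCoindSum 𝔻'
  hfin : rc_FinSupp 𝔻
  /-- reciprocity on the upper level -/
  hrec : ∀ (K : Subgroup G) (u : groupCohomology (tt_res K X'.X₁) 2), tt_IsPPrimary p u →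
    rc_INV 𝔻' (hs_finSupp hcoind') K ((tt_coeffMap (rc_ci_resMor X'.f K) 2).hom u) = 0
  /-- the kernel: a `p`-group, large, inert at `q₀` -/
  hNp : IsPGroup p π.ker
  hNdvd : ordProj[p] (Nat.card Γ) ∣ Nat.card π.ker
  q₀ : Q
  hq₀ : π.ker ≤ 𝔻'.D q₀
  /-- second inequality / Hilbert 90 inputs -/
  hN1 : ∀ K : Subgroup Γ, Subsingleton (groupCohomology
    (Rep.res (lc_piSub π K).ker.subtype (Rep.res (K.comap π).subtype X'.X₃)) 1)
  hC1 : ∀ (K : Subgroup Γ) (x : groupCohomology (tt_res K C) 1), p • x = 0 → x = 0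
  hbound : ∀ K : Subgroup Γ,
    Finite {z : groupCohomology (tt_res K C) 2 // tt_IsPPrimary p z} ∧
      Nat.card {z : groupCohomology (tt_res K C) 2 // tt_IsPPrimary p z} ≤
        ordProj[p] (Nat.card K)
  hN2 : ∀ N₀ : Subgroup G, N₀ = π.ker →
    Finite (groupCohomology (tt_res N₀ X'.X₃) 2) ∧
      Nat.card (groupCohomology (tt_res N₀ X'.X₃) 2) ∣ Nat.card N₀

variable {Q : Type} (𝔗 : rc_TwoLevel p G Γ Q)

/-- the global formation of the upper level -/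
noncomputable def rc_TwoLevel.form : rc_GlobForm p 𝔗.X'.X₃ :=
  rc_ch_globForm 𝔗.hX' 𝔗.𝔻' (hs_finSupp 𝔗.hcoind') 𝔗.hrec

theorem rc_as_hext (K' : Subgroup G) (hK' : 𝔗.π.ker ≤ K') (k : ℕ)
    (hk : p ^ k ∣ Nat.card 𝔗.π.ker) :
    ∃ z : groupCohomology (tt_res K' 𝔗.form.J) 2, p ^ k • z = 0 ∧
      addOrderOf (𝔗.form.INV K' z) = p ^ k :=
  rc_ch_hext 𝔗.𝔻' (hs_finSupp 𝔗.hcoind') (hs_hasse 𝔗.hcoind') (hs_exists 𝔗.hcoind')
    𝔗.π.ker 𝔗.q₀ 𝔗.hq₀ K' hK' k hk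

theorem rc_as_hinjN (N₀ : Subgroup G) (hN₀ : N₀ = 𝔗.π.ker)
    (z : groupCohomology (tt_res N₀ 𝔗.form.J) 2) (_hz : tt_IsPPrimary p z)
    (h0 : 𝔗.form.INV N₀ z = 0) : (𝔗.form.gK N₀).hom z = 0 := by
  subst hN₀
  obtain ⟨n, hn⟩ := IsPGroup.iff_card.1 𝔗.hNp
  obtain ⟨z₀, -, hz₀⟩ := rc_as_hext 𝔗 𝔗.π.ker le_rfl n (by rw [hn])
  obtain ⟨hfin, hcard⟩ := 𝔗.hN2 𝔗.π.ker rfl
  exact rc_ch_hinjN 𝔗.form 𝔗.π.ker 𝔗.hNp hfin hcard z₀ (by rw [hz₀, hn]) z h0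

/-- **The `p`-class module of the lower level.** -/
noncomputable def rc_as_pclass : PClassModule p 𝔗.C :=
  rc_ci_pclass 𝔗.form 𝔗.hπ 𝔗.hN1 𝔗.hC1 𝔗.hbound (rc_as_hinjN 𝔗) (rc_as_hext 𝔗) 𝔗.hNdvd

/-- **The class invariant of the image of an idele class is its total invariant.** -/
theorem rc_as_inv_toC (K : Subgroup Γ) (w : groupCohomology (tt_res K 𝔗.J) 2)
    (hw : tt_IsPPrimary p w) :
    (rc_as_pclass 𝔗).inv K ((tt_coeffMap (rc_ci_resMor 𝔗.g K) 2).hom w) =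
      rc_INV 𝔗.𝔻 𝔗.hfin K w := by
  have hz : tt_IsPPrimary p ((rc_ci_inf 𝔗.π 𝔗.φJ K).hom w) :=
    tt_isPPrimary_map (rc_ci_inf 𝔗.π 𝔗.φJ K).hom.toAddMonoidHom hw
  have h := rc_as_inf_coeff_apply 𝔗.π 𝔗.X'.g 𝔗.g 𝔗.φC 𝔗.φJ 𝔗.hsq K w
  have h1 := rc_ci_inv_eq 𝔗.form 𝔗.hπ 𝔗.hN1 𝔗.hC1 𝔗.hbound (rc_as_hinjN 𝔗) (rc_as_hext 𝔗)
    𝔗.hNdvd K _ ((rc_ci_inf 𝔗.π 𝔗.φJ K).hom w) hz h
  refine h1.trans ?_
  exact rc_INV_inf 𝔗.hπ.surj 𝔗.M (hs_finSupp 𝔗.hcoind') 𝔗.hfin K w hw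

/-- **The sum formula**: the class invariant of the image of a global idele class is the sum of
its local invariants. -/
theorem rc_as_invTop_toC (w : groupCohomology 𝔗.J 2) (hw : tt_IsPPrimary p w) :
    (rc_as_pclass 𝔗).invTop ((tt_coeffMap 𝔗.g 2).hom w) =
      ∑ᶠ q, (𝔗.𝔻.P q).invTop ((rc_locTop 𝔗.𝔻 q).hom w) := by
  rw [PClassModule.invTop_apply, ← rc_INV_top 𝔗.𝔻 𝔗.hfin w hw,
    ← rc_as_inv_toC 𝔗 ⊤ ((tt_resMap ⊤ 𝔗.J 2).hom w)
      (tt_isPPrimary_map (tt_resMap ⊤ 𝔗.J 2).hom.toAddMonoidHom hw)]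
  congr 1
  -- restriction commutes with the coefficient map
  exact congrArg (fun f => f.hom w) (rc_as_coeff_resMap 𝔗.g ⊤ 2)

end assembly

end Fermat.Agent.S55
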