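import Fermat.Agent.S55.Local.CyclicInv

/-!
# Reciprocity on a cyclic layer, abstract form (G4 `[CYC]`; prefix `rr_`)

`G = ⟨σ⟩` is cyclic of order `n` and `A : Rep ℤ G` is the global module (`E'ˣ`).  A *place datum*
consists of a group `H` (the decomposition group), a homomorphism `ι : H →* G`, an `H`-module `B`
(the local units) with a coefficient map `φ : res ι A ⟶ B`, an element `τ : H` with `τ ^ m = 1`
(Frobenius) and `ι τ = σ ^ d`, `d * m = n * r`, and an `H`-invariant valuation `v' : B → ℤ`.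
The unramified local invariant is helper28's `cy_inv B v'`.

* `rr_cyc_inv_map`: the local invariant of a global class `[f]` is `d · v'(φ s) / n`,
  `s = ∑_{i<n} f (σ^i, σ)`;
* `rr_cyc_sum`: summing over finitely many places gives `(∑_v d_v · v'_v (φ_v s)) / n`;
* `rr_cyc_sum_eq_zero`: this vanishes as soon as `∏_v Frob_v ^ {ord_v s} = 1` in `G`
  (the output of cyclotomic–cyclic reciprocity `rc_ccr_*`);
* `rr_cyc_norm_of_loc_eq_zero`: if the class dies in `H²(G, Jm)` (the semi-local module over the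
  modulus), then `s` is a norm from `Jm` (the input of `rc_cl_ccr`).
-/

set_option autoImplicit false

namespace Fermat.Agent.S55

open groupCohomology CategoryTheory Finset

section local_formula

variable {G : Type} [Group G] {A : Rep ℤ G} {σ : G} {n : ℕ}
variable {H : Type} [Group H] {B : Rep ℤ H} (ι : H →* G) (φ : Rep.res ι A ⟶ B)

/-- `v' ∘ φ` of a partial norm along `σ ^ d = ι τ` is `m · v' (φ x)`. -/
theorem rr_v_map_repNorm {τ : H} {d : ℕ} (hι : ι τ = σ ^ d) (m : ℕ)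
    (v' : B.V →+ ℤ) (hv' : ∀ g x, v' (B.ρ g x) = v' x) (x : A.V) :
    v' (φ.hom (cy_repNorm A (σ ^ d) m x)) = (m : ℤ) * v' (φ.hom x) := by
  rw [cy_repNorm_apply, map_sum, map_sum]
  have h : ∀ i ∈ range m, v' (φ.hom (A.ρ ((σ ^ d) ^ i) x)) = v' (φ.hom x) := by
    intro i _
    rw [← hι, ← map_pow]
    have := Rep.hom_comm_apply φ (τ ^ i) x
    rw [show (Rep.res ι A).ρ (τ ^ i) x = A.ρ (ι (τ ^ i)) x from rfl] at this
    rw [this, hv']
  rw [Finset.sum_congr rfl h]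
  simp

/-- **Local invariant of a global class on a cyclic layer.**  For `ι τ = σ ^ d`, `d * m = n * r`:
`inv_{τ,m} (ι^* [f]) = d · v' (φ (∑_{i<n} f (σ^i, σ))) / n`. -/
theorem rr_cyc_inv_map (hn : 0 < n) (hσ : σ ^ n = 1) {τ : H} {m : ℕ} (hm : 0 < m)
    (hτ : τ ^ m = 1) {d : ℕ} (hι : ι τ = σ ^ d) {r : ℕ} (h : d * m = n * r)
    (v' : B.V →+ ℤ) (hv' : ∀ g x, v' (B.ρ g x) = v' x) (f : cocycles₂ A) :
    cy_inv B v' hτ hv' (map ι φ 2 (H2π A f)) =
      cy_frac n ((d : ℤ) * v' (φ.hom (cy_repSum A σ n (f : G × G → A.V)))) := by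
  have h1 : map ι φ 2 (H2π A f) = H2π B (mapCocycles₂ ι φ f) := by
    have := H2π_comp_map ι φ
    exact congr($this f)
  rw [h1, cy_inv_H2π, cy_repSum_mapCocycles₂ ι φ hσ hι m r h, map_add, map_add, map_nsmul,
    map_nsmul, rr_v_map_repNorm ι φ hι m v' hv', map_add, cy_frac_mul_self, add_zero]
  set x := v' (φ.hom (cy_repSum A σ n (f : G × G → A.V)))
  rw [nsmul_eq_mul]
  have h' : (r : ℤ) * n = d * m := by
    have : (d : ℤ) * m = n * r := by exact_mod_cast h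
    linear_combination -this
  exact cy_frac_eq_of_mul_eq hm hn h' x

/-- The same for a cyclic-algebra class `[a]`, `a ∈ A^G` (`1 < n`). -/
theorem rr_cyc_inv_map_repCocycle (hn : 0 < n) (h1n : 1 < n) (ho : orderOf σ = n)
    (hgen : ∀ g : G, g ∈ Subgroup.zpowers σ) {τ : H} {m : ℕ} (hm : 0 < m)
    (hτ : τ ^ m = 1) {d : ℕ} (hι : ι τ = σ ^ d) {r : ℕ} (h : d * m = n * r)
    (v' : B.V →+ ℤ) (hv' : ∀ g x, v' (B.ρ g x) = v' x) (a : A.V) (ha : A.ρ σ a = a) :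
    cy_inv B v' hτ hv' (map ι φ 2 (H2π A (cy_repCocycle A hn ho hgen a ha))) =
      cy_frac n ((d : ℤ) * v' (φ.hom a)) := by
  rw [rr_cyc_inv_map ι φ hn (cy_pow_eq_one_of_orderOf ho) hm hτ hι h v' hv',
    cy_repSum_repCocycle A hn ho hgen h1n]

end local_formula

section sum

variable {G : Type} [Group G] {A : Rep ℤ G} {σ : G} {n : ℕ}
variable {V : Type*} [Fintype V] {H : V → Type} [∀ v, Group (H v)] {B : ∀ v, Rep ℤ (H v)}
  (ι : ∀ v, H v →* G) (φ : ∀ v, Rep.res (ι v) A ⟶ B v)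
  {τ : ∀ v, H v} {m d r : V → ℕ} (v' : ∀ v, (B v).V →+ ℤ)

/-- **Sum of the unramified local invariants of a global class on a cyclic layer.** -/
theorem rr_cyc_sum (hn : 0 < n) (hσ : σ ^ n = 1) (hm : ∀ v, 0 < m v)
    (hτ : ∀ v, τ v ^ m v = 1) (hι : ∀ v, ι v (τ v) = σ ^ d v) (h : ∀ v, d v * m v = n * r v)
    (hv' : ∀ v g x, v' v ((B v).ρ g x) = v' v x) (f : cocycles₂ A) :
    ∑ v, cy_inv (B v) (v' v) (hτ v) (hv' v) (map (ι v) (φ v) 2 (H2π A f)) =
      cy_frac n (∑ v, (d v : ℤ) * v' v ((φ v).hom (cy_repSum A σ n (f : G × G → A.V)))) := by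
  rw [map_sum]
  exact Finset.sum_congr rfl fun v _ =>
    rr_cyc_inv_map (ι v) (φ v) hn hσ (hm v) (hτ v) (hι v) (h v) (v' v) (hv' v) f

/-- The sum vanishes when `n ∣ ∑_v d_v · ord_v s`. -/
theorem rr_cyc_sum_eq_zero_of_dvd (hn : 0 < n) (hσ : σ ^ n = 1) (hm : ∀ v, 0 < m v)
    (hτ : ∀ v, τ v ^ m v = 1) (hι : ∀ v, ι v (τ v) = σ ^ d v) (h : ∀ v, d v * m v = n * r v)
    (hv' : ∀ v g x, v' v ((B v).ρ g x) = v' v x) (f : cocycles₂ A)
    (hdvd : (n : ℤ) ∣ ∑ v, (d v : ℤ) * v' v ((φ v).hom (cy_repSum A σ n (f : G × G → A.V)))) :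
    ∑ v, cy_inv (B v) (v' v) (hτ v) (hv' v) (map (ι v) (φ v) 2 (H2π A f)) = 0 := by
  rw [rr_cyc_sum ι φ v' hn hσ hm hτ hι h hv' f]
  exact (cy_frac_eq_zero_iff hn _).2 hdvd

/-- **Reciprocity on a cyclic layer from the product formula for Frobenius elements**: if
`σ ^ (∑_v d_v · ord_v s) = 1`, i.e. `∏_v Frob_v ^ (ord_v s) = 1` in `G` (`Frob_v = σ ^ d_v`),
then the unramified local invariants of `[f]` sum to `0`. -/
theorem rr_cyc_sum_eq_zero (hn : 0 < n) (ho : orderOf σ = n) (hm : ∀ v, 0 < m v)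
    (hτ : ∀ v, τ v ^ m v = 1) (hι : ∀ v, ι v (τ v) = σ ^ d v) (h : ∀ v, d v * m v = n * r v)
    (hv' : ∀ v g x, v' v ((B v).ρ g x) = v' v x) (f : cocycles₂ A)
    (hprod : σ ^ (∑ v, (d v : ℤ) * v' v ((φ v).hom (cy_repSum A σ n (f : G × G → A.V)))) = 1) :
    ∑ v, cy_inv (B v) (v' v) (hτ v) (hv' v) (map (ι v) (φ v) 2 (H2π A f)) = 0 := by
  refine rr_cyc_sum_eq_zero_of_dvd ι φ v' hn (cy_pow_eq_one_of_orderOf ho) hm hτ hι h hv' f ?_
  have := orderOf_dvd_iff_zpow_eq_one.2 hprod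
  rwa [ho] at this

omit [Fintype V] in
/-- Bookkeeping: `σ ^ (∑_v d_v x_v) = ∏_v (Frob_v) ^ x_v` written with `Finset.noncommProd`-free
zpowers: each factor. -/
theorem rr_zpow_frob (hι : ∀ v, ι v (τ v) = σ ^ d v) (v : V) (x : ℤ) :
    (ι v (τ v)) ^ x = σ ^ ((d v : ℤ) * x) := by
  rw [hι, zpow_mul, zpow_natCast]

end sum

section norm

variable {G : Type} [Group G] {A Jm : Rep ℤ G} {σ : G} {n : ℕ}

/-- The cyclic invariant commutes with coefficient maps. -/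
theorem rr_repSum_mapCocycles₂ (ψ : A ⟶ Jm) (f : cocycles₂ A) :
    cy_repSum Jm σ n (mapCocycles₂ (MonoidHom.id G) ψ f : G × G → Jm.V) =
      ψ.hom (cy_repSum A σ n (f : G × G → A.V)) := by
  rw [cy_repSum_apply, cy_repSum_apply, map_sum]
  rfl

/-- **A global class on a cyclic layer that dies semi-locally is a semi-local norm**: if the image
of `[f]` in `H²(G, Jm)` vanishes then `ψ (∑_{i<n} f (σ^i, σ))` is a norm from `Jm`. -/
theorem rr_cyc_norm_of_loc_eq_zero (hn : 0 < n) (ho : orderOf σ = n)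
    (hgen : ∀ g : G, g ∈ Subgroup.zpowers σ) (ψ : A ⟶ Jm) (f : cocycles₂ A)
    (h0 : map (MonoidHom.id G) ψ 2 (H2π A f) = 0) :
    ∃ β : Jm.V, cy_repNorm Jm σ n β = ψ.hom (cy_repSum A σ n (f : G × G → A.V)) := by
  have h1 : map (MonoidHom.id G) ψ 2 (H2π A f) = H2π Jm (mapCocycles₂ (MonoidHom.id G) ψ f) := by
    have := H2π_comp_map (MonoidHom.id G) ψ
    exact congr($this f)
  rw [h1, cy_H2π_eq_zero_iff Jm hn ho hgen] at h0
  obtain ⟨β, hβ⟩ := h0
  exact ⟨β, by rw [hβ, rr_repSum_mapCocycles₂]⟩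

/-- Conversely a class whose cyclic invariant becomes a norm in `Jm` dies in `H²(G, Jm)`. -/
theorem rr_cyc_loc_eq_zero_of_norm (hn : 0 < n) (ho : orderOf σ = n)
    (hgen : ∀ g : G, g ∈ Subgroup.zpowers σ) (ψ : A ⟶ Jm) (f : cocycles₂ A)
    (β : Jm.V) (hβ : cy_repNorm Jm σ n β = ψ.hom (cy_repSum A σ n (f : G × G → A.V))) :
    map (MonoidHom.id G) ψ 2 (H2π A f) = 0 := by
  have h1 : map (MonoidHom.id G) ψ 2 (H2π A f) = H2π Jm (mapCocycles₂ (MonoidHom.id G) ψ f) := by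
    have := H2π_comp_map (MonoidHom.id G) ψ
    exact congr($this f)
  rw [h1, cy_H2π_eq_zero_iff Jm hn ho hgen]
  exact ⟨β, by rw [hβ, rr_repSum_mapCocycles₂]⟩

end norm

end Fermat.Agent.S55
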