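import Fermat.Agent.S14.Artin.Cyclotomic
import Fermat.Agent.S14.Artin.ArtinMap

/-!
# S55 / G4 (reciprocity), part 1: the "away from `m`" Artin symbol and cyclotomic reciprocity

`F ⊆ K` number fields, `K/F` Galois (abelian where needed), S14 carriers (`am_frob`).
For `m : ℕ` and an ideal `I` of `𝓞 F`, `rc_artAway m I` is the product of the Frobenius elements
over the prime factors of `I` not containing `m` (with multiplicity).

* `rc_artAway_mul`, `rc_artAway_pow`, `rc_artAway_one`: multiplicativity.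
* `rc_artAway_relNorm`: if `K/F` is unramified at the primes not containing `m`, norms of ideals
  of `K` have trivial symbol.
* `rc_artAway_span_smul_root`: (`F` totally complex) if `δ ≡ 1 mod m` then the symbol of `(δ)`
  fixes every `m`-th root of unity of `K`: cyclotomic reciprocity.
-/

set_option autoImplicit false

open NumberField

namespace Fermat.Agent.S55

open Fermat.Agent.S14
open scoped Pointwise IsMulCommutative nonZeroDivisors

set_option linter.style.haveILetI false
set_option linter.unusedSectionVars false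

section Defs

variable {F : Type*} [Field F] [NumberField F]

/-- The prime factors (with multiplicity) of `I` that do not contain `m`. -/
noncomputable def rc_factorsAway (m : ℕ) (I : Ideal (𝓞 F)) : Multiset (Ideal (𝓞 F)) := by
  classical
  exact (UniqueFactorizationMonoid.normalizedFactors I).filter (fun q => (m : 𝓞 F) ∉ q)

theorem rc_mem_factorsAway {m : ℕ} {I q : Ideal (𝓞 F)} :
    q ∈ rc_factorsAway m I ↔
      q ∈ UniqueFactorizationMonoid.normalizedFactors I ∧ (m : 𝓞 F) ∉ q := by
  classical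
  unfold rc_factorsAway
  rw [Multiset.mem_filter]

theorem rc_factorsAway_mul (m : ℕ) {I J : Ideal (𝓞 F)} (hI : I ≠ ⊥) (hJ : J ≠ ⊥) :
    rc_factorsAway m (I * J) = rc_factorsAway m I + rc_factorsAway m J := by
  classical
  unfold rc_factorsAway
  rw [UniqueFactorizationMonoid.normalizedFactors_mul hI hJ, Multiset.filter_add]

theorem rc_factorsAway_one (m : ℕ) : rc_factorsAway m (1 : Ideal (𝓞 F)) = 0 := by
  classical
  unfold rc_factorsAway
  rw [UniqueFactorizationMonoid.normalizedFactors_one, Multiset.filter_zero]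

theorem rc_factorsAway_pow (m : ℕ) (I : Ideal (𝓞 F)) (n : ℕ) :
    rc_factorsAway m (I ^ n) = n • rc_factorsAway m I := by
  classical
  unfold rc_factorsAway
  rw [UniqueFactorizationMonoid.normalizedFactors_pow, Multiset.filter_nsmul]

/-- Properties of the members of `rc_factorsAway`. -/
theorem rc_factorsAway_prop {m : ℕ} {I q : Ideal (𝓞 F)} (hq : q ∈ rc_factorsAway m I) :
    q.IsPrime ∧ q ≠ ⊥ ∧ (m : 𝓞 F) ∉ q := by
  obtain ⟨h1, h2⟩ := rc_mem_factorsAway.mp hq
  have hp := UniqueFactorizationMonoid.prime_of_normalized_factor q h1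
  exact ⟨Ideal.isPrime_of_prime hp, hp.ne_zero, h2⟩

end Defs

section Art

variable (F K : Type*) [Field F] [NumberField F] [Field K] [NumberField K] [Algebra F K]
  [IsGalois F K] [IsMulCommutative Gal(K/F)]

/-- The Artin symbol "away from `m`" of an ideal: the product of the Frobenius elements over
the prime factors of `I` not containing `m`. -/
noncomputable def rc_artAway (m : ℕ) (I : Ideal (𝓞 F)) : Gal(K/F) :=
  ((rc_factorsAway m I).map (am_frob F K)).prod

variable {F K}

theorem rc_artAway_one (m : ℕ) : rc_artAway F K m (1 : Ideal (𝓞 F)) = 1 := by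
  unfold rc_artAway
  rw [rc_factorsAway_one]
  simp

theorem rc_artAway_top (m : ℕ) : rc_artAway F K m (⊤ : Ideal (𝓞 F)) = 1 := by
  rw [← Ideal.one_eq_top]; exact rc_artAway_one m

theorem rc_artAway_mul (m : ℕ) {I J : Ideal (𝓞 F)} (hI : I ≠ ⊥) (hJ : J ≠ ⊥) :
    rc_artAway F K m (I * J) = rc_artAway F K m I * rc_artAway F K m J := by
  unfold rc_artAway
  rw [rc_factorsAway_mul m hI hJ, Multiset.map_add, Multiset.prod_add]

theorem rc_artAway_pow (m : ℕ) (I : Ideal (𝓞 F)) (n : ℕ) :
    rc_artAway F K m (I ^ n) = rc_artAway F K m I ^ n := by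
  unfold rc_artAway
  rw [rc_factorsAway_pow, Multiset.map_nsmul, Multiset.prod_nsmul]

theorem rc_artAway_prime_of_notMem (m : ℕ) (q : Ideal (𝓞 F)) [hq : q.IsPrime] (hq0 : q ≠ ⊥)
    (hm : (m : 𝓞 F) ∉ q) : rc_artAway F K m q = am_frob F K q := by
  classical
  unfold rc_artAway rc_factorsAway
  have hirr : Irreducible q := (Ideal.prime_of_isPrime hq0 hq).irreducible
  rw [UniqueFactorizationMonoid.normalizedFactors_irreducible hirr, normalize_eq,
    Multiset.filter_singleton, if_pos hm]
  simp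

theorem rc_artAway_prime_of_mem (m : ℕ) (q : Ideal (𝓞 F)) [hq : q.IsPrime] (hq0 : q ≠ ⊥)
    (hm : (m : 𝓞 F) ∈ q) : rc_artAway F K m q = 1 := by
  classical
  unfold rc_artAway rc_factorsAway
  have hirr : Irreducible q := (Ideal.prime_of_isPrime hq0 hq).irreducible
  rw [UniqueFactorizationMonoid.normalizedFactors_irreducible hirr, normalize_eq,
    Multiset.filter_singleton, if_neg (not_not.mpr hm)]
  simp

/-- If no prime factor of `I` contains `m`, the symbol away from `m` is the full Artin symbol. -/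
theorem rc_artAway_eq_artinFun (m : ℕ) (I : Ideal (𝓞 F))
    (h : ∀ q ∈ UniqueFactorizationMonoid.normalizedFactors I, (m : 𝓞 F) ∉ q) :
    rc_artAway F K m I = am_artinFun F K I := by
  classical
  unfold rc_artAway rc_factorsAway am_artinFun
  rw [Multiset.filter_eq_self.mpr h]

theorem rc_artAway_bot (m : ℕ) : rc_artAway F K m (⊥ : Ideal (𝓞 F)) = 1 := by
  classical
  unfold rc_artAway rc_factorsAway
  rw [← Ideal.zero_eq_bot, UniqueFactorizationMonoid.normalizedFactors_zero]
  simp

/-- The symbol away from `m` of the norm of a prime of `K`. -/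
theorem rc_artAway_relNorm_prime {m : ℕ} (Q : Ideal (𝓞 K)) [Q.IsPrime] (hQ0 : Q ≠ ⊥)
    (hunr : (m : 𝓞 F) ∉ Q.under (𝓞 F) → am_Unram F K (Q.under (𝓞 F))) :
    rc_artAway F K m (Ideal.relNorm (𝓞 F) Q) = 1 := by
  have hq0 : Q.under (𝓞 F) ≠ ⊥ := am_under_ne_bot Q hQ0
  haveI : (Q.under (𝓞 F)).IsPrime := Ideal.IsPrime.under (𝓞 F) Q
  rw [am_relNorm_prime Q hQ0, rc_artAway_pow]
  by_cases hm : (m : 𝓞 F) ∈ Q.under (𝓞 F)
  · rw [rc_artAway_prime_of_mem m _ hq0 hm, one_pow]
  · rw [rc_artAway_prime_of_notMem m _ hq0 hm, am_frob_pow_eq_one_iff hq0 (hunr hm) Q]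

/-- **Norms have trivial symbol.** If `K/F` is unramified at the primes not containing `m`,
the symbol away from `m` of the relative norm of any ideal of `K` is trivial. -/
theorem rc_artAway_relNorm {m : ℕ}
    (hunr : ∀ q : Ideal (𝓞 F), q.IsPrime → q ≠ ⊥ → (m : 𝓞 F) ∉ q → am_Unram F K q)
    (A : Ideal (𝓞 K)) : rc_artAway F K m (Ideal.relNorm (𝓞 F) A) = 1 := by
  induction A using UniqueFactorizationMonoid.induction_on_prime with
  | h₁ => rw [Ideal.zero_eq_bot, Ideal.relNorm_bot]; exact rc_artAway_bot m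
  | h₂ x hx =>
    rw [Ideal.isUnit_iff] at hx
    rw [hx, ← Ideal.one_eq_top, map_one]
    exact rc_artAway_one m
  | h₃ a P ha hP ih =>
    have hP0 : P ≠ ⊥ := hP.ne_zero
    haveI hPprime : P.IsPrime := Ideal.isPrime_of_prime hP
    rw [map_mul, rc_artAway_mul]
    · rw [rc_artAway_relNorm_prime P hP0 (fun hm => hunr _ (Ideal.IsPrime.under (𝓞 F) P)
        (am_under_ne_bot P hP0) hm), one_mul]
      exact ih
    · rwa [Ne, Ideal.relNorm_eq_bot_iff]
    · rwa [Ne, Ideal.relNorm_eq_bot_iff]

/-- Norms of elements have trivial symbol. -/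
theorem rc_artAway_span_norm {m : ℕ}
    (hunr : ∀ q : Ideal (𝓞 F), q.IsPrime → q ≠ ⊥ → (m : 𝓞 F) ∉ q → am_Unram F K q)
    (b : 𝓞 K) : rc_artAway F K m (Ideal.span {Algebra.intNorm (𝓞 F) (𝓞 K) b}) = 1 := by
  rw [← Ideal.relNorm_singleton]
  exact rc_artAway_relNorm hunr _

/-- If `δ ≡ 1 mod m`, no prime factor of `(δ)` contains `m`. -/
theorem rc_notMem_of_mem_normalizedFactors {m : ℕ} {δ : 𝓞 F}
    (hδ : δ - 1 ∈ Ideal.span {(m : 𝓞 F)}) {q : Ideal (𝓞 F)}
    (hq : q ∈ UniqueFactorizationMonoid.normalizedFactors (Ideal.span {δ})) :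
    (m : 𝓞 F) ∉ q := by
  intro hm
  have hp := UniqueFactorizationMonoid.prime_of_normalized_factor q hq
  haveI : q.IsPrime := Ideal.isPrime_of_prime hp
  have hdvd := UniqueFactorizationMonoid.dvd_of_mem_normalizedFactors hq
  have hle : Ideal.span {δ} ≤ q := Ideal.le_of_dvd hdvd
  have hδq : δ ∈ q := hle (Ideal.subset_span rfl)
  have h1 : δ - 1 ∈ q := (Ideal.span_singleton_le_iff_mem q).mpr hm hδ
  have : (1 : 𝓞 F) ∈ q := by
    have := q.sub_mem hδq h1
    simpa using this
  exact (Ideal.IsPrime.ne_top ‹q.IsPrime›) ((Ideal.eq_top_iff_one q).mpr this)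

/-- **Cyclotomic reciprocity.** `F` totally complex, `K/F` abelian. If `δ ≡ 1 mod m` then the
Artin symbol (away from `m`, which is the full symbol) of the principal ideal `(δ)` fixes every
`m`-th root of unity in `K`. -/
theorem rc_artAway_span_smul_root [IsTotallyComplex F] {m : ℕ} {δ : 𝓞 F} (hδ0 : δ ≠ 0)
    (hδ : δ - 1 ∈ Ideal.span {(m : 𝓞 F)}) {ζ : 𝓞 K} (hζ : ζ ^ m = 1) :
    rc_artAway F K m (Ideal.span {δ}) • ζ = ζ := by
  classical
  have hI : Ideal.span {δ} ≠ ⊥ := by
    rwa [Ne, Ideal.span_singleton_eq_bot]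
  have hs : ∀ q ∈ rc_factorsAway m (Ideal.span {δ}), q.IsPrime ∧ q ≠ ⊥ ∧ (m : 𝓞 F) ∉ q :=
    fun q hq => rc_factorsAway_prop hq
  have hall : rc_factorsAway m (Ideal.span {δ}) =
      UniqueFactorizationMonoid.normalizedFactors (Ideal.span {δ}) := by
    unfold rc_factorsAway
    exact Multiset.filter_eq_self.mpr fun q hq => rc_notMem_of_mem_normalizedFactors hδ hq
  unfold rc_artAway
  rw [am_prod_frob_smul_of_pow_eq_one hζ _ hs, hall]
  have hprod : ((UniqueFactorizationMonoid.normalizedFactors (Ideal.span {δ})).map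
      Ideal.absNorm).prod = Ideal.absNorm (Ideal.span {δ}) := by
    rw [← map_multiset_prod, Ideal.prod_normalizedFactors_eq_self hI]
  rw [hprod]
  have hmod := am_absNorm_span_singleton_modEq_one (F := F) hδ
  by_cases hm0 : m = 0
  · subst hm0
    have : Ideal.absNorm (Ideal.span {δ}) = 1 := by simpa [Nat.ModEq] using hmod
    rw [this, pow_one]
  · rw [pow_eq_pow_mod _ hζ, hmod, ← pow_eq_pow_mod _ hζ, pow_one]

end Art

end Fermat.Agent.S55
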