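import Fermat.Agent.S55.Recip.TermDict
import Fermat.Agent.S55.Recip.TChangePlace
import Fermat.Agent.S55.Recip.IdeleIn
import Fermat.Agent.S55.Idele.LocalSeamUnr

/-!
# S55 / G4 (C), leaf (DICT-in): the dictionary at the primes inside `T` (prefix `rc_di_dict`)

For a finite Galois `L ⊆ ℚ̄`, a finite set `T` of rational primes and `q ∈ T`, the index `q` of the
inside data `rc_ii_data p T L` means: the canonical prime `rc_tq_w q L` of `𝓞 L` over `q`
(cut out by the fixed embedding `ℚ̄ → PadicAlgCl q`), whose stabiliser is `il_D q L`; the unramified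
formula `ils_unr p q L`, whose inertia subgroup is the true inertia group of that prime
(`il_inertia_subgroupOf_eq_map`), whose Frobenius satisfies the Frobenius congruence
(`rc_tq_unr_frob`) and whose valuation is `ord` at the canonical prime on the diagonal
(`rc_tq_ordA` + `id_ordA_inclU`).
-/

set_option autoImplicit false
set_option linter.unusedSectionVars false
set_option linter.style.haveILetI false

open scoped TensorProduct Pointwise
open NumberField IsDedekindDomain groupCohomology CategoryTheory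

namespace Fermat.Agent.S55

local notation "Qbar" => AlgebraicClosure ℚ

noncomputable section

variable (p : ℕ) [Fact p.Prime] (T : Finset Nat.Primes) (L : IntermediateField ℚ Qbar)
  [FiniteDimensional ℚ L] [Normal ℚ L] [NumberField L]

/-- the decomposition group is the stabiliser of the underlying ideal of the canonical prime -/
theorem rc_di_dict_hD (q : Nat.Primes) :
    il_D (q : ℕ) L = MulAction.stabilizer (↥L ≃ₐ[ℚ] ↥L) (rc_tq_w q L).asIdeal := by
  ext g
  rw [MulAction.mem_stabilizer_iff, ← rc_tq_smul_w_eq_iff, ← id_smul_asIdeal]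
  constructor
  · intro h
    rw [h]
  · intro h
    exact HeightOneSpectrum.ext h

/-- the inertia subgroup of `ils_unr` is the inertia group of the canonical prime -/
theorem rc_di_dict_hI (q : Nat.Primes) (d : ↥(il_D (q : ℕ) L)) :
    d ∈ (ils_unr p q L).I ↔
      ((d : ↥(il_D (q : ℕ) L)) : ↥L ≃ₐ[ℚ] ↥L) ∈
        (rc_tq_w q L).asIdeal.toAddSubgroup.inertia (↥L ≃ₐ[ℚ] ↥L) := by
  haveI : IsGalois ℚ L := ⟨⟩
  rw [rc_tq_w_asIdeal, ← Subgroup.mem_subgroupOf, il_inertia_subgroupOf_eq_map, ils_mem_unr_I,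
    Subgroup.mem_map]
  constructor
  · intro h
    refine ⟨ils_e q L d, h, ?_⟩
    exact (il_galEquiv (q : ℕ) L).apply_symm_apply d
  · rintro ⟨τ, hτ, rfl⟩
    have h1 : ils_e q L ((il_galEquiv (q : ℕ) L).toMonoidHom τ) = τ :=
      (il_galEquiv (q : ℕ) L).symm_apply_apply τ
    rw [h1]
    exact hτ

/-- the valuation of `ils_unr` on the diagonal is the order at the canonical prime -/
theorem rc_di_dict_hv (q : ↥T) (y : (↥L)ˣ) :
    (ils_unr p q.1 L).v ((rc_ii_pr T L q).hom
      ((id_diagRep T ↥L).hom (Additive.ofMul y : Additive (↥L)ˣ))) =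
      id_ordZ ↥L (rc_tq_w q.1 L) y := by
  have h1 : (id_diagRep T ↥L).hom (Additive.ofMul y : Additive (↥L)ˣ) =
      (Additive.ofMul (id_diag T ↥L y) : Additive (id_J T ↥L)) := rfl
  rw [h1, rc_ii_pr_apply]
  have h2 : (id_diag T ↥L y).1 q = id_inclU ↥L q.1 y := rfl
  rw [h2]
  have h3 := rc_tq_ordA q.1 L (id_inclU ↥L q.1 y)
  rw [id_ordA_inclU] at h3
  exact (Multiplicative.ofAdd.injective h3).symm

/-- **(DICT-in)**: the dictionary of the inside data at `q ∈ T`. -/
def rc_di_dict (q : ↥T) : rc_td_Dict (rc_ii_data p T L) (id_diagRep T ↥L) q where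
  w := rc_tq_w q.1 L
  ℓ := (q.1 : ℕ)
  hℓ := q.1.2
  hmem := rc_tq_w_mem q.1 L
  hD := rc_di_dict_hD L q.1
  U := ils_unr p q.1 L
  hI := rc_di_dict_hI p L q.1
  hfrob := rc_tq_unr_frob q.1 L p
  hv := rc_di_dict_hv p T L q

@[simp] theorem rc_di_dict_w (q : ↥T) : (rc_di_dict p T L q).w = rc_tq_w q.1 L := rfl

@[simp] theorem rc_di_dict_ℓ (q : ↥T) : (rc_di_dict p T L q).ℓ = (q.1 : ℕ) := rfl

@[simp] theorem rc_di_dict_U (q : ↥T) : (rc_di_dict p T L q).U = ils_unr p q.1 L := rfl

end

end Fermat.Agent.S55
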