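import Fermat.Agent.S55.Recip.TermDict
import Fermat.Agent.S55.Recip.IdeleOut
import Fermat.Agent.S55.Recip.ZClassUnr

/-!
# S55 / G4 (C), leaf (DICT-out): the dictionary of the local data outside `T` (prefix `rc_do_`)

For a Galois number field `L` (a `Type`), a choice `w q` of primes of `L` over the rational primes
`q ∉ T` and trivial inertia outside `T` (`rc_io_Unram T L`), the local data
`rc_io_data p T L w hw hunr` at the index `q` have the arithmetic meaning required by
`rc_td_Dict`: the prime is `(w q).1`, the rational prime is `q.1`, the unramified formula is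
`zc_unr` of the Frobenius element `rc_io_frob` (`I = ⊥`, `v = id`), and the valuation of the
image of a global element is its order at `w q`.
-/

set_option autoImplicit false

open scoped NumberField Pointwise
open IsDedekindDomain CategoryTheory groupCohomology

namespace Fermat.Agent.S55

noncomputable section

variable {T : Finset Nat.Primes} {L : Type} [Field L] [NumberField L] [IsGalois ℚ L]
  (p : ℕ) [Fact p.Prime]
  (w : rc_io_Q T → id_P T L) (hw : ∀ q, ((q.1 : ℕ) : 𝓞 L) ∈ (w q).1.asIdeal)
  (hunr : rc_io_Unram T L)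

omit [IsGalois ℚ L] in
/-- the decomposition group of `w q` is the stabiliser of the ideal `(w q).1.asIdeal` -/
theorem rc_do_D_eq (q : rc_io_Q T) :
    rc_io_D w q = MulAction.stabilizer (L ≃ₐ[ℚ] L) (w q).1.asIdeal := by
  ext g
  rw [rc_io_mem_D, MulAction.mem_stabilizer_iff]

omit [IsGalois ℚ L] in
/-- the projection of a principal idele is the order of the element at `w q` -/
theorem rc_do_pr_diag (q : rc_io_Q T) (y : Lˣ) :
    (rc_io_pr w q).hom ((id_diagRep T L).hom (Additive.ofMul y)) = id_ordZ L (w q).1 y := rfl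

/-- **(DICT-out)**: the dictionary of the local data outside `T` at the index `q`. -/
def rc_do_dict (q : rc_io_Q T) :
    rc_td_Dict (rc_io_data p T L w hw hunr) (id_diagRep T L) q where
  w := (w q).1
  ℓ := (q.1 : ℕ)
  hℓ := q.1.2
  hmem := hw q
  hD := rc_do_D_eq w q
  U := zc_unr (rc_io_frob w hw hunr q) (rc_io_frob_gen w hw hunr q) p
  hI := by
    intro d
    constructor
    · intro hd
      have h1 : d = 1 := hd
      subst h1
      intro x
      show ((1 : L ≃ₐ[ℚ] L)) • x - x ∈ _
      rw [one_smul, sub_self]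
      exact zero_mem _
    · intro hd
      have h1 : ((d : ↥(rc_io_D w q)) : L ≃ₐ[ℚ] L) = 1 := hunr (w q) _ (fun x => hd x)
      have h2 : (d : ↥(rc_io_D w q)) = 1 := Subtype.ext h1
      exact (Subgroup.mem_bot (G := ↥(rc_io_D w q))).mpr h2
  hfrob := rc_io_frob_spec w hw hunr q
  hv := fun y => rc_do_pr_diag w q y

@[simp] theorem rc_do_dict_w (q : rc_io_Q T) : (rc_do_dict p w hw hunr q).w = (w q).1 := rfl

@[simp] theorem rc_do_dict_ℓ (q : rc_io_Q T) : (rc_do_dict p w hw hunr q).ℓ = (q.1 : ℕ) := rfl

theorem rc_do_dict_U (q : rc_io_Q T) :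
    (rc_do_dict p w hw hunr q).U =
      zc_unr (rc_io_frob w hw hunr q) (rc_io_frob_gen w hw hunr q) p := rfl

theorem rc_do_dict_U_I (q : rc_io_Q T) : (rc_do_dict p w hw hunr q).U.I = ⊥ := rfl

theorem rc_do_dict_U_frob (q : rc_io_Q T) :
    (rc_do_dict p w hw hunr q).U.frob = rc_io_frob w hw hunr q := rfl

theorem rc_do_dict_U_v (q : rc_io_Q T) (x : ℤ) : (rc_do_dict p w hw hunr q).U.v x = x := rfl

end

end Fermat.Agent.S55
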