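import Fermat.Agent.S55.Idele.CyclicLayersFinal
import Fermat.Agent.S55.Recip.Assembly

/-!
# S55 / G4: the G3 inputs of the two-level assembly (prefix `rc_g3_`)

The four fields `hN1`, `hC1`, `hbound`, `hN2` of `rc_TwoLevel` (Recip/Assembly.lean), in their
literal shapes, for

* the lower level `C = C_T(L)`, `L / ℚ` finite Galois inside `ℚ̄`, unramified outside `T`;
* the upper level `A = C_T(L')`, `L' / ℚ` finite Galois inside `ℚ̄`, unramified outside `T`;
* `π : Gal(L'/ℚ) →* Γ` any homomorphism whose kernel is a `p`-group;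

for `T ≠ ∅` and `p` odd.  Everything is a repackaging of helper23's `idl_field_*`
(Idele/CyclicLayersFinal.lean): G1 + G2 ⟹ cyclic layers ⟹ dévissage.  The modules enter through
an equation (`hC : C = id_CRep T ↥L`), so that the statements apply to the projections of a
structure (`𝔗.C`, `X'.X₃`) with `rfl`.
-/

set_option autoImplicit false
set_option linter.style.haveILetI false
set_option linter.unusedSectionVars false

open scoped NumberField
open IsDedekindDomain groupCohomology CategoryTheory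

noncomputable section

namespace Fermat.Agent.S55

local notation "Qbar" => AlgebraicClosure ℚ

section lower

variable (T : Finset Nat.Primes) (hT : T.Nonempty) (p : ℕ) [Fact p.Prime] (hp2 : p ≠ 2)
  (L : IntermediateField ℚ Qbar) [Normal ℚ L] [NumberField L] (hL : L.IsUnramifiedOutside T)

include hT hp2 hL

/-- the field `hC1` of `rc_TwoLevel`: no `p`-torsion in `H¹(K, C_T(L))`. -/
theorem rc_g3_hC1 (C : Rep.{0} ℤ (L ≃ₐ[ℚ] L)) (hC : C = id_CRep T L) :
    ∀ (K : Subgroup (L ≃ₐ[ℚ] L)) (x : groupCohomology (tt_res K C) 1), p • x = 0 → x = 0 := by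
  subst hC
  exact fun K x hx => idl_field_h1_torsion T L hL hT p hp2 K x hx

/-- the field `hbound` of `rc_TwoLevel`: the `p`-primary part of `H²(K, C_T(L))` has at most
`|K|_p` elements. -/
theorem rc_g3_hbound (C : Rep.{0} ℤ (L ≃ₐ[ℚ] L)) (hC : C = id_CRep T L) :
    ∀ K : Subgroup (L ≃ₐ[ℚ] L),
      Finite {z : groupCohomology (tt_res K C) 2 // tt_IsPPrimary p z} ∧
        Nat.card {z : groupCohomology (tt_res K C) 2 // tt_IsPPrimary p z} ≤
          ordProj[p] (Nat.card K) := by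
  subst hC
  exact fun K => idl_field_pPrimary_bound T L hL hT p hp2 K

/-- `H¹(N₀, C_T(L)) = 0` for the `p`-subgroups. -/
theorem rc_g3_H1_pgroup (C : Rep.{0} ℤ (L ≃ₐ[ℚ] L)) (hC : C = id_CRep T L)
    (N₀ : Subgroup (L ≃ₐ[ℚ] L)) (hN₀ : IsPGroup p N₀) :
    Subsingleton (groupCohomology (tt_res N₀ C) 1) := by
  subst hC
  exact idl_field_H1_pgroup T L hL hT p hp2 N₀ hN₀

/-- `H²(N₀, C_T(L))` is finite of order dividing `|N₀|` for the `p`-subgroups. -/
theorem rc_g3_H2_pgroup (C : Rep.{0} ℤ (L ≃ₐ[ℚ] L)) (hC : C = id_CRep T L)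
    (N₀ : Subgroup (L ≃ₐ[ℚ] L)) (hN₀ : IsPGroup p N₀) :
    Finite (groupCohomology (tt_res N₀ C) 2) ∧
      Nat.card (groupCohomology (tt_res N₀ C) 2) ∣ Nat.card N₀ := by
  subst hC
  exact idl_field_H2_pgroup T L hL hT p hp2 N₀ hN₀

/-- the field `hN1` of `rc_TwoLevel` (here `L` is the UPPER field and `A = C_T(L)`): `H¹` of the
kernel of every layer vanishes, for `π` with kernel a `p`-group. -/
theorem rc_g3_hN1 (A : Rep.{0} ℤ (L ≃ₐ[ℚ] L)) (hA : A = id_CRep T L) {Γ : Type} [Group Γ]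
    (π : (L ≃ₐ[ℚ] L) →* Γ) (hNp : IsPGroup p π.ker) :
    ∀ K : Subgroup Γ, Subsingleton (groupCohomology
      (Rep.res (lc_piSub π K).ker.subtype (Rep.res (K.comap π).subtype A)) 1) := by
  subst hA
  exact fun K => idl_field_hN1 T L hL hT p hp2 π hNp K

/-- the field `hN2` of `rc_TwoLevel` (here `L` is the UPPER field and `A = C_T(L)`):
`H²(N, C_T(L))` is finite of order dividing `|N|`, `N = ker π` a `p`-group. -/
theorem rc_g3_hN2 (A : Rep.{0} ℤ (L ≃ₐ[ℚ] L)) (hA : A = id_CRep T L) {Γ : Type} [Group Γ]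
    (π : (L ≃ₐ[ℚ] L) →* Γ) (hNp : IsPGroup p π.ker) :
    ∀ N₀ : Subgroup (L ≃ₐ[ℚ] L), N₀ = π.ker →
      Finite (groupCohomology (tt_res N₀ A) 2) ∧
        Nat.card (groupCohomology (tt_res N₀ A) 2) ∣ Nat.card N₀ := by
  subst hA
  rintro N₀ rfl
  exact idl_field_H2_pgroup T L hL hT p hp2 π.ker hNp

end lower

/-! ### The levels `a ≤ b` -/

section levels

variable {S : Finset Nat.Primes} (hS : S.Nonempty) (p : ℕ) [Fact p.Prime] (hp2 : p ≠ 2)

include hS hp2

/-- `ker (Γ_b → Γ_a)` is a `p`-group ⟹ the four G3 fields of `rc_TwoLevel` for the pair of levels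
`a ≤ b`, `C = C_S(a)`, `A = C_S(b)`, `π = du_Lev.res h`. -/
theorem rc_g3_lev {a b : du_Lev S} (h : a ≤ b) (hNp : IsPGroup p (du_Lev.res h).ker) :
    (∀ K : Subgroup a.Γ, Subsingleton (groupCohomology
      (Rep.res (lc_piSub (du_Lev.res h) K).ker.subtype
        (Rep.res (K.comap (du_Lev.res h)).subtype (id_CRep S b.L))) 1)) ∧
    (∀ (K : Subgroup a.Γ) (x : groupCohomology (tt_res K (id_CRep S a.L)) 1),
      p • x = 0 → x = 0) ∧
    (∀ K : Subgroup a.Γ,
      Finite {z : groupCohomology (tt_res K (id_CRep S a.L)) 2 // tt_IsPPrimary p z} ∧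
        Nat.card {z : groupCohomology (tt_res K (id_CRep S a.L)) 2 // tt_IsPPrimary p z} ≤
          ordProj[p] (Nat.card K)) ∧
    (∀ N₀ : Subgroup b.Γ, N₀ = (du_Lev.res h).ker →
      Finite (groupCohomology (tt_res N₀ (id_CRep S b.L)) 2) ∧
        Nat.card (groupCohomology (tt_res N₀ (id_CRep S b.L)) 2) ∣ Nat.card N₀) :=
  ⟨rc_g3_hN1 S hS p hp2 b.L b.unr _ rfl (du_Lev.res h) hNp,
    rc_g3_hC1 S hS p hp2 a.L a.unr _ rfl,
    rc_g3_hbound S hS p hp2 a.L a.unr _ rfl,
    rc_g3_hN2 S hS p hp2 b.L b.unr _ rfl (du_Lev.res h) hNp⟩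

end levels

end Fermat.Agent.S55
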