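import Fermat.Agent.S55.Recip.MainAbstract
import Fermat.Agent.S55.Recip.FieldData
import Fermat.Agent.S55.Recip.ZetaLevel
import Fermat.Agent.S55.Idele.SeamMain

/-!
# S55 / G4: the final export (prefix `rc_mn_`, `rc_main_`)

The concrete system of local data `rc_fd_data p a` on the field levels `a : ia_Lev T` is a
`rc_FieldSys` as soon as the reciprocity law `rc_mn_Recip p T` (block (C)) holds:
the tower step is `a ≤ a(μ_{p^r})` (`Recip/ZetaLevel.lean`), with an inert prime `q₀ ∉ T`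
(`Recip/TowerLevel.lean`).  Hence the `p`-class module structure `rc_main_pclass` of `C_T(a)` for
every field level `a ∋ ζ_p`, the invariant formula `rc_main_inv` on every layer, and the seam
`rc_main_seam : du_Seam p S` of block [G] (from reciprocity and `(E1')`).
-/

set_option autoImplicit false
set_option linter.unusedSectionVars false
set_option linter.style.haveILetI false

open CategoryTheory groupCohomology NumberField IsDedekindDomain

namespace Fermat.Agent.S55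

local notation "Qbar" => AlgebraicClosure ℚ

/-- **The reciprocity law (block (C))** for the total invariant of the field levels containing
`ζ_p`: the total invariant vanishes on the `p`-primary classes coming from `H²(K, Lˣ)`. -/
def rc_mn_Recip (p : ℕ) [Fact p.Prime] (T : Finset Nat.Primes) : Prop :=
  ∀ b : ia_Lev T, (∀ ζ : Qbar, ζ ^ p = 1 → ζ ∈ b.L) → ∀ (K : Subgroup b.Γ)
    (u : groupCohomology (tt_res K (id_KRep b.L)) 2), tt_IsPPrimary p u →
    rc_INV (rc_fd_data p b) (rc_fd_finSupp p b) K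
      ((tt_coeffMap (rc_ci_resMor (id_diagRep T b.L) K) 2).hom u) = 0

variable {T : Finset Nat.Primes} (p : ℕ) [hpF : Fact p.Prime]

/-- A primitive `p`-th root of unity in a level containing `μ_p`. -/
theorem rc_mn_exists_zeta (a : ia_Lev T) (hζ : ∀ ζ : Qbar, ζ ^ p = 1 → ζ ∈ a.L) :
    ∃ ζ₁ : ↥a.L, IsPrimitiveRoot ζ₁ p := by
  haveI : NeZero p := ⟨hpF.out.ne_zero⟩
  obtain ⟨ζ, hζ'⟩ := HasEnoughRootsOfUnity.exists_primitiveRoot Qbar p
  refine ⟨⟨ζ, hζ ζ hζ'.pow_eq_one⟩, ?_⟩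
  exact IsPrimitiveRoot.of_map_of_injective (f := a.L.val) hζ' a.L.val.injective

/-- **The tower step**: `b = a(μ_{p^r})`, `r` large, has a `p`-group kernel of order divisible by
the `p`-part of `|Gal(a/ℚ)|`, contained in the decomposition group at some `q₀ ∉ T`. -/
theorem rc_mn_tower (hp2 : p ≠ 2) (hpT : ExtCitation.pPrime p ∈ T) (a : ia_Lev T)
    (hζ : ∀ ζ : Qbar, ζ ^ p = 1 → ζ ∈ a.L) :
    ∃ (b : ia_Lev T) (h : a ≤ b), IsPGroup p (ia_Lev.res h).ker ∧
      ordProj[p] (Nat.card a.Γ) ∣ Nat.card (ia_Lev.res h).ker ∧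
        ∃ q₀ : rc_fd_Q T, (ia_Lev.res h).ker ≤ (rc_fd_data p b).D q₀ := by
  obtain ⟨r₀, hr₀⟩ := rc_zl_hNdvd a hp2 hpT hζ
  have hn := rc_zl_hn_primePow (p := p) hpT r₀
  have hn0 : p ^ r₀ ≠ 0 := pow_ne_zero r₀ hpF.out.ne_zero
  have h : a ≤ rc_zl_lev a (p ^ r₀) hn0 hn := rc_zl_le a (p ^ r₀) hn0 hn
  refine ⟨rc_zl_lev a (p ^ r₀) hn0 hn, h, rc_zl_ker_isPGroup a hp2 r₀ hn hζ, hr₀ r₀ le_rfl, ?_⟩
  obtain ⟨ζ₁, hζ₁⟩ := rc_mn_exists_zeta p a hζ
  letI := ia_algebra h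
  haveI := rc_zl_isCyclotomic a (p ^ r₀) hn0 hn
  obtain ⟨q₀, hq₀p, hq₀B, hq₀⟩ := rc_tl_tower_exists_inert (E := ↥a.L)
    (M := ↥(rc_zl_lev a (p ^ r₀) hn0 hn).L) hp2 hζ₁ r₀
    (T.image (fun q : Nat.Primes => (q : ℕ)))
  have hq₀T : (⟨q₀, hq₀p⟩ : Nat.Primes) ∉ T := fun hmem =>
    hq₀B (Finset.mem_image.2 ⟨_, hmem, rfl⟩)
  refine ⟨.inr ⟨⟨q₀, hq₀p⟩, hq₀T⟩, ?_⟩
  rw [rc_fd_D_inr', ia_Lev.ker_res, ← rc_zl_sub_eq a (p ^ r₀) hn0 hn]
  intro g hg
  have h1 := hq₀ (rc_op_v (rc_zl_lev a (p ^ r₀) hn0 hn).L ⟨q₀, hq₀p⟩)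
    (rc_op_natCast_mem (rc_zl_lev a (p ^ r₀) hn0 hn).L ⟨q₀, hq₀p⟩) hg
  exact (rc_op_smul_v_iff (rc_zl_lev a (p ^ r₀) hn0 hn).L ⟨q₀, hq₀p⟩ g).1
    (MulAction.mem_stabilizer_iff.1 h1)

/-- **The concrete system of local data on the field levels.** -/
noncomputable def rc_mn_sys (hp2 : p ≠ 2) (hpT : ExtCitation.pPrime p ∈ T)
    (hrec : rc_mn_Recip p T) : rc_FieldSys p T (rc_fd_Q T) where
  𝔻 := rc_fd_data p
  coind := rc_fd_coind p
  mor := fun h => rc_fd_mor p h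
  hrec := hrec
  tower := rc_mn_tower p hp2 hpT

section fieldExport

variable (hp2 : p ≠ 2) (hpT : ExtCitation.pPrime p ∈ T) (hrec : rc_mn_Recip p T) (a : ia_Lev T)
  (hζ : ∀ ζ : Qbar, ζ ^ p = 1 → ζ ∈ a.L)

/-- **G4, final export on fields**: the `p`-class module structure of `C_T(a)`, `a` a finite
Galois extension of `ℚ` unramified outside `T ∋ p` containing `ζ_p`, `p` odd. -/
noncomputable def rc_main_pclass : PClassModule p (id_CRep T a.L) :=
  rc_ma_pclass (rc_mn_sys p hp2 hpT hrec) hp2 ⟨_, hpT⟩ a hζ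

/-- **G4, the invariant formula on every layer** `K ≤ Gal(a/ℚ)`:
`inv_K(g_* w) = INV_K(w)` for the `p`-primary `w ∈ H²(K, J_T(a))`. -/
theorem rc_main_inv (K : Subgroup a.Γ) (w : groupCohomology (tt_res K (id_JRep T a.L)) 2)
    (hw : tt_IsPPrimary p w) :
    (rc_main_pclass p hp2 hpT hrec a hζ).inv K
        ((tt_coeffMap (rc_ci_resMor (id_toCRep T a.L) K) 2).hom w) =
      rc_INV (rc_fd_data p a) (rc_fd_finSupp p a) K w :=
  rc_ma_inv (rc_mn_sys p hp2 hpT hrec) hp2 ⟨_, hpT⟩ a hζ K w hw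

/-- **G4, the sum formula.** -/
theorem rc_main_invTop (w : groupCohomology (id_JRep T a.L) 2) (hw : tt_IsPPrimary p w) :
    (rc_main_pclass p hp2 hpT hrec a hζ).invTop ((tt_coeffMap (id_toCRep T a.L) 2).hom w) =
      ∑ᶠ q, ((rc_fd_data p a).P q).invTop ((rc_locTop (rc_fd_data p a) q).hom w) :=
  rc_ma_invTop (rc_mn_sys p hp2 hpT hrec) hp2 ⟨_, hpT⟩ a hζ w hw

end fieldExport

/-! ### The seam of block [G] -/

section seam

variable {S : Finset Nat.Primes} (hp2 : p ≠ 2) (hpS : ExtCitation.pPrime p ∈ S)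
  (hrec : rc_mn_Recip p S)

/-- The class modules of the levels of block [D]. -/
noncomputable def rc_main_P (a : du_Lev S) : PClassModule p (id_CRep S a.L) :=
  rc_main_pclass p hp2 hpS hrec (ia_ofLev (Finset.Subset.refl S) a)
    (fun _ hx => a.pow_eq_one_mem hpS hx)

/-- The outside data of the levels of block [D]. -/
noncomputable def rc_main_out (a : du_Lev S) :
    rc_InvData p (id_JRep S ↥a.L) {q : Nat.Primes // q ∉ S} :=
  rc_fd_out p (ia_ofLev (Finset.Subset.refl S) a)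

theorem rc_main_hout (a : du_Lev S) (q' : {q : Nat.Primes // q ∉ S}) (x : id_JS S ↥a.L) :
    ((rc_main_out p a).pr q').hom
      (Additive.ofMul (id_inS S ↥a.L x) : Additive (id_J S ↥a.L)) = 0 :=
  rc_fd_pr_inS p (ia_ofLev (Finset.Subset.refl S) a) q' x

theorem rc_main_hfin (a : du_Lev S) :
    rc_FinSupp (rc_tc_sum (rc_ii_data p S a.L) (rc_main_out p a)) :=
  rc_fd_finSupp p (ia_ofLev (Finset.Subset.refl S) a)

/-- The total-invariant formula at `H = ⊤` on the levels of block [D]. -/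
theorem rc_main_hmain (a : du_Lev S)
    (w : groupCohomology (tt_res (⊤ : Subgroup a.Γ) (id_JRep S ↥a.L)) 2)
    (hw : tt_IsPPrimary p w) :
    (rc_main_P p hp2 hpS hrec a).inv ⊤
        ((tt_coeffMap (rc_ci_resMor (id_toCRep S ↥a.L) ⊤) 2).hom w) =
      rc_INV (rc_tc_sum (rc_ii_data p S a.L) (rc_main_out p a)) (rc_main_hfin p a) ⊤ w :=
  rc_main_inv p hp2 hpS hrec (ia_ofLev (Finset.Subset.refl S) a) _ ⊤ w hw

/-- **The seam G → D**, from the reciprocity law (C) and `(E1')`. -/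
noncomputable def rc_main_seam
    (hE1 : ∀ K : du_Lev S, ∃ (K₁ L : du_Lev S) (_ : K ≤ K₁) (h : K₁ ≤ L),
      ∀ c : (id_CRep S L.L).V, ∃ d : (id_CRep S K₁.L).V,
        e2_nrm (L.rel K₁) (id_CRep S L.L) c = id_tC h (p • d)) : du_Seam p S :=
  ism_seam p ⟨_, hpS⟩ hpS (rc_main_P p hp2 hpS hrec) (rc_main_out p) (rc_main_hout p)
    (rc_main_hfin p) (rc_main_hmain p hp2 hpS hrec) hE1

end seam

end Fermat.Agent.S55
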