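/-
S55 / G4 (C), leaf (NORM-conv): the converse of `rc_sn_exists_beta`.
`E ⊆ E' ⊆ M`, `𝒢 = Gal(M/E)`, `N = Gal(M/E')`, `ρ : 𝒢 → Gal(E'/E)` the restriction, `σ` a generator of
`𝒢 ⧸ N` of order `n`.  If `1 ⊗ x` (`x ∈ Eˣ`) is the norm of `β ∈ (ℚ_q ⊗ E')ˣ` in the sense of
`rc_cl_normT`, then the image `b` of `β` in `((ℚ_q ⊗ M)ˣ)^N` has cyclic norm `1 ⊗ x`:
* `rc_nc_elt` : the element `b`; `rc_nc_norm` : `cy_repNorm σ n b = 1 ⊗ x`;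
* `rc_nc_hnorm` : the same for a layer package `rc_td_Layer`;
* `rc_nc_hnorm_cyc` : the hypothesis `hnorm` of `rr_cyc_recip` / `rc_cc_recip` / `rc_cc_cyc` for a
  cocycle `f` whose cyclic sum is `x`.
Owner: helper19.  Prefix `rc_nc_`.
-/
import Fermat.Agent.S55.Recip.TermDict

set_option autoImplicit false
set_option linter.unusedSectionVars false

open scoped TensorProduct
open NumberField

namespace Fermat.Agent.S55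

open Fermat.Agent.S14 groupCohomology

section generic

variable {E E' M : Type} [Field E] [NumberField E] [Field E'] [NumberField E'] [Field M]
  [NumberField M] [Algebra E E'] [Algebra E' M] [Algebra E M] [IsScalarTower E E' M]
  [IsGalois E E']

variable {q : Nat.Primes} {𝒢 : Subgroup (M ≃ₐ[ℚ] M)} {N : Subgroup ↥𝒢} [N.Normal]

/-- the elements of `N = ker ρ` fix the image of `(ℚ_q ⊗ E')ˣ` -/
theorem rc_nc_smul_AmapU_of_mem (ρ : ↥𝒢 →* (E' ≃ₐ[E] E'))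
    (hρ : ∀ (g : ↥𝒢) (x : E'), algebraMap E' M (ρ g x) = (g : M ≃ₐ[ℚ] M) (algebraMap E' M x))
    (hker : ρ.ker = N) (ν : ↥𝒢) (hν : ν ∈ N) (β : (id_A E' q)ˣ) :
    (ν : M ≃ₐ[ℚ] M) • id_AmapU E' M q β = id_AmapU E' M q β := by
  have h1 : ρ ν = 1 := by
    rw [← MonoidHom.mem_ker, hker]
    exact hν
  rw [rc_sn_smul_AmapU q 𝒢 ρ hρ, h1]
  have h2 : ((1 : E' ≃ₐ[E] E').restrictScalars ℚ : E' ≃ₐ[ℚ] E') = 1 := rfl
  rw [h2, one_smul]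

/-- **The image of `β ∈ (ℚ_q ⊗ E')ˣ` in `((ℚ_q ⊗ M)ˣ)^N`.** -/
noncomputable def rc_nc_elt (ρ : ↥𝒢 →* (E' ≃ₐ[E] E'))
    (hρ : ∀ (g : ↥𝒢) (x : E'), algebraMap E' M (ρ g x) = (g : M ≃ₐ[ℚ] M) (algebraMap E' M x))
    (hker : ρ.ker = N) (β : (id_A E' q)ˣ) :
    ((tt_res 𝒢 (id_ARep M q)).quotientToInvariants N).V :=
  ⟨(Additive.ofMul (id_AmapU E' M q β) : Additive (id_A M q)ˣ),
    (Representation.mem_invariants _ _).2 fun ν =>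
      congrArg Additive.ofMul (rc_nc_smul_AmapU_of_mem ρ hρ hker ν.1 ν.2 β)⟩

theorem rc_nc_elt_coe (ρ : ↥𝒢 →* (E' ≃ₐ[E] E'))
    (hρ : ∀ (g : ↥𝒢) (x : E'), algebraMap E' M (ρ g x) = (g : M ≃ₐ[ℚ] M) (algebraMap E' M x))
    (hker : ρ.ker = N) (β : (id_A E' q)ˣ) :
    ((rc_nc_elt ρ hρ hker β : ((tt_res 𝒢 (id_ARep M q)).quotientToInvariants N).V) :
      (id_ARep M q).V) = (Additive.ofMul (id_AmapU E' M q β) : Additive (id_A M q)ˣ) := rfl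

/-- **Ascent of the semi-local norm.** If `1 ⊗ x` is the norm of `β ∈ (ℚ_q ⊗ E')ˣ`, the image of
`β` in `((ℚ_q ⊗ M)ˣ)^N` has cyclic norm `1 ⊗ x`. -/
theorem rc_nc_norm (ρ : ↥𝒢 →* (E' ≃ₐ[E] E'))
    (hρ : ∀ (g : ↥𝒢) (x : E'), algebraMap E' M (ρ g x) = (g : M ≃ₐ[ℚ] M) (algebraMap E' M x))
    (hρs : Function.Surjective ρ) (hker : ρ.ker = N)
    {σ : ↥𝒢 ⧸ N} {n : ℕ} (ho : orderOf σ = n) (hgen : ∀ g : ↥𝒢 ⧸ N, g ∈ Subgroup.zpowers σ)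
    (x : Eˣ) (β : (id_A E' q)ˣ)
    (hβ : rc_cl_normT (E := E) (q : ℕ) (β : id_A E' q) =
      (1 : ℚ_[(q : ℕ)]) ⊗ₜ[ℚ] algebraMap E E' (x : E)) :
    ((cy_repNorm ((tt_res 𝒢 (id_ARep M q)).quotientToInvariants N) σ n
        (rc_nc_elt ρ hρ hker β) : ((tt_res 𝒢 (id_ARep M q)).quotientToInvariants N).V) :
        (id_ARep M q).V) =
      Additive.ofMul (id_inclU M q (id_unitsMap E M x)) := by
  classical
  obtain ⟨g₀, rfl⟩ := QuotientGroup.mk_surjective σ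
  obtain ⟨hoτ, hgenτ⟩ := rc_sn_generator N ρ hρs hker g₀ ho hgen
  set u : (id_A M q)ˣ := id_AmapU E' M q β with hu
  have h1 : ((cy_repNorm ((tt_res 𝒢 (id_ARep M q)).quotientToInvariants N)
      ((g₀ : ↥𝒢) : ↥𝒢 ⧸ N) n (rc_nc_elt ρ hρ hker β) :
      ((tt_res 𝒢 (id_ARep M q)).quotientToInvariants N).V) : (id_ARep M q).V) =
      Additive.ofMul (∏ i ∈ Finset.range n, (((g₀ ^ i : ↥𝒢) : M ≃ₐ[ℚ] M) • u)) := by
    rw [cy_repNorm_apply, Submodule.coe_sum, ofMul_prod]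
    refine Finset.sum_congr rfl fun i _ => ?_
    rfl
  have h2 : ∏ i ∈ Finset.range n, (((g₀ ^ i : ↥𝒢) : M ≃ₐ[ℚ] M) • u) =
      id_AmapU E' M q (∏ t : E' ≃ₐ[E] E', ((t.restrictScalars ℚ : E' ≃ₐ[ℚ] E') • β)) := by
    rw [← rc_sn_prod_range_pow hoτ hgenτ (fun t => ((t.restrictScalars ℚ : E' ≃ₐ[ℚ] E') • β)),
      map_prod]
    refine Finset.prod_congr rfl fun i _ => ?_
    rw [hu, rc_sn_smul_AmapU q 𝒢 ρ hρ, map_pow]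
  have h5 : ((∏ t : E' ≃ₐ[E] E', ((t.restrictScalars ℚ : E' ≃ₐ[ℚ] E') • β) : (id_A E' q)ˣ) :
      id_A E' q) = rc_cl_normT (E := E) (q : ℕ) (β : id_A E' q) := by
    rw [Units.coe_prod]
    unfold rc_cl_normT
    refine Finset.prod_congr rfl fun t _ => ?_
    rw [ga_coe_smul_units]
    rfl
  rw [h1, h2]
  congr 1
  apply Units.ext
  change id_Amap E' M q ((∏ t : E' ≃ₐ[E] E', ((t.restrictScalars ℚ : E' ≃ₐ[ℚ] E') • β) :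
    (id_A E' q)ˣ) : id_A E' q) = id_incl M q ((id_unitsMap E M x : Mˣ) : M)
  rw [h5, hβ, id_Amap_tmul, id_incl_apply, ← IsScalarTower.algebraMap_apply]
  rfl

/-- **(NORM-conv)** for a layer package. -/
theorem rc_nc_hnorm (𝔏 : rc_td_Layer E E' M 𝒢 N)
    {σ : ↥𝒢 ⧸ N} {n : ℕ} (ho : orderOf σ = n)
    (hgen : ∀ g : ↥𝒢 ⧸ N, g ∈ Subgroup.zpowers σ)
    (x : Eˣ) (β : (id_A E' q)ˣ)
    (hβ : rc_cl_normT (E := E) (q : ℕ) (β : id_A E' q) =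
      (1 : ℚ_[(q : ℕ)]) ⊗ₜ[ℚ] algebraMap E E' (x : E)) :
    ∃ b : ((tt_res 𝒢 (id_ARep M q)).quotientToInvariants N).V,
      ((cy_repNorm ((tt_res 𝒢 (id_ARep M q)).quotientToInvariants N) σ n b :
        ((tt_res 𝒢 (id_ARep M q)).quotientToInvariants N).V) : (id_ARep M q).V) =
      Additive.ofMul (id_inclU M q (id_unitsMap E M x)) :=
  ⟨rc_nc_elt 𝔏.ρ 𝔏.hρ 𝔏.hker β, rc_nc_norm 𝔏.ρ 𝔏.hρ 𝔏.hρs 𝔏.hker ho hgen x β hβ⟩

/-- **(NORM-conv) in the shape of the hypothesis `hnorm`** of `rr_cyc_recip` / `rc_cc_recip` /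
`rc_cc_cyc`: for a cocycle `f` whose cyclic sum is `x ∈ Eˣ` and a "diagonal" `ψ : Mˣ ⟶ (ℚ_q ⊗ M)ˣ`. -/
theorem rc_nc_hnorm_cyc (𝔏 : rc_td_Layer E E' M 𝒢 N)
    (ψ : id_KRep M ⟶ id_ARep M q)
    (hψ : ∀ y : Mˣ, ψ.hom (Additive.ofMul y) = Additive.ofMul (id_inclU M q y))
    {σ : ↥𝒢 ⧸ N} {n : ℕ} (ho : orderOf σ = n)
    (hgen : ∀ g : ↥𝒢 ⧸ N, g ∈ Subgroup.zpowers σ)
    (f : cocycles₂ ((tt_res 𝒢 (id_KRep M)).quotientToInvariants N)) (x : Eˣ)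
    (hx : ((cy_repSum ((tt_res 𝒢 (id_KRep M)).quotientToInvariants N) σ n
        (f : (↥𝒢 ⧸ N) × (↥𝒢 ⧸ N) → ((tt_res 𝒢 (id_KRep M)).quotientToInvariants N).V) :
        ((tt_res 𝒢 (id_KRep M)).quotientToInvariants N).V) : (id_KRep M).V) =
      Additive.ofMul (id_unitsMap E M x))
    (β : (id_A E' q)ˣ)
    (hβ : rc_cl_normT (E := E) (q : ℕ) (β : id_A E' q) =
      (1 : ℚ_[(q : ℕ)]) ⊗ₜ[ℚ] algebraMap E E' (x : E)) :
    ∃ b : ((tt_res 𝒢 (id_ARep M q)).quotientToInvariants N).V,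
      cy_repNorm ((tt_res 𝒢 (id_ARep M q)).quotientToInvariants N) σ n b =
        (rr_invMap ((Rep.resFunctor 𝒢.subtype).map ψ) N).hom
          (cy_repSum ((tt_res 𝒢 (id_KRep M)).quotientToInvariants N) σ n
            (f : (↥𝒢 ⧸ N) × (↥𝒢 ⧸ N) →
              ((tt_res 𝒢 (id_KRep M)).quotientToInvariants N).V)) := by
  refine ⟨rc_nc_elt 𝔏.ρ 𝔏.hρ 𝔏.hker β, Subtype.ext ?_⟩
  rw [rc_nc_norm 𝔏.ρ 𝔏.hρ 𝔏.hρs 𝔏.hker ho hgen x β hβ, rr_invMap_coe]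
  change _ = ψ.hom _
  rw [hx]
  exact (hψ _).symm

end generic

end Fermat.Agent.S55
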