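import Fermat.Agent.S55.Recip.OrbitCochain
import Fermat.Agent.S55.Tate.Explicit
import Fermat.Agent.S55.Tate.ClassModule
import Fermat.Agent.S55.Tate.Hom

/-!
# S55, block [G4], leaf `Orbit` (Mathlib `groupCohomology` level)

`H` a group acting on a finite set `X`, `A : Rep ℤ H` with an equivariant decomposition
`A = ∏_{x ∈ X} A_x` (`ob_RepDecomp A X`: the structure `ob_Decomp` of `OrbitCochain.lean` written
with `A.ρ`).  For a point `x₀` with stabiliser `S` and a *component* `B : Rep ℤ S`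
(`ob_Comp A D x₀ S B`: an `S`-equivariant `pr : res S A ⟶ B` with an additive section `ι`,
`pr ∘ ι = id`, `ι ∘ pr = π x₀`):

* `ob_loc S pr n := groupCohomology.map S.subtype pr n` (restriction, then projection);
* `ob_H2_eq_zero_of_loc`, `ob_H1_eq_zero_of_loc`: a class whose localisations at one point of every
  orbit vanish is zero; `ob_loc_injective₂`, `ob_loc_injective₁` for a transitive `X`;
* `ob_frob`: Frobenius reciprocity (surjectivity): every `ψ' : res S Y ⟶ B` is `res ψ ≫ pr`;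
* `ob_ext : H²(S, B) →+ H²(H, A)` with `ob_loc ∘ ob_ext = id` and `ob_loc' ∘ ob_ext = 0` for a
  component at a point of another orbit.
-/

set_option autoImplicit false

namespace Fermat.Agent.S55

open CategoryTheory groupCohomology MulAction

section defs

variable {H : Type} [Group H]

/-- the action of `H` on the carrier of a representation (not an instance) -/
@[reducible] def ob_repAction (A : Rep.{0} ℤ H) : DistribMulAction H A.V where
  smul g v := A.ρ g v
  one_smul v := by show A.ρ 1 v = v; simp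
  mul_smul g h v := by show A.ρ (g * h) v = A.ρ g (A.ρ h v); simp
  smul_zero g := map_zero (A.ρ g)
  smul_add g := map_add (A.ρ g)

/-- An `H`-equivariant decomposition `A = ∏_{x ∈ X} A_x` of a representation, given by orthogonal
idempotents (`ob_Decomp` in the language of `A.ρ`). -/
structure ob_RepDecomp (A : Rep.{0} ℤ H) (X : Type*) [MulAction H X] [Fintype X] where
  π : X → A.V →+ A.V
  idem : ∀ x m, π x (π x m) = π x m
  orth : ∀ x y m, x ≠ y → π x (π y m) = 0
  sum_eq : ∀ m, ∑ x, π x m = m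
  ρ_π : ∀ (h : H) x m, A.ρ h (π x m) = π (h • x) (A.ρ h m)

variable {A : Rep.{0} ℤ H} {X : Type*} [MulAction H X] [Fintype X]

/-- the underlying `ob_Decomp` for the action `ob_repAction A` -/
def ob_RepDecomp.toDecomp (D : ob_RepDecomp A X) :
    @ob_Decomp H _ X _ _ A.V _ (ob_repAction A) :=
  letI := ob_repAction A
  { π := D.π, idem := D.idem, orth := D.orth, sum_eq := D.sum_eq, smul_π := D.ρ_π }

/-- an `ob_Decomp` for any action on `A.V` compatible with `A.ρ` gives an `ob_RepDecomp` -/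
def ob_RepDecomp.ofDecomp [DistribMulAction H A.V] (hρ : ∀ (g : H) (v : A.V), A.ρ g v = g • v)
    (D : ob_Decomp H X A.V) : ob_RepDecomp A X where
  π := D.π
  idem := D.idem
  orth := D.orth
  sum_eq := D.sum_eq
  ρ_π h x m := by rw [hρ, hρ]; exact D.smul_π h x m

/-- A *component* of `A` at `x₀`: a representation `B` of the stabiliser `S` of `x₀` identified
with `A_{x₀} = range (π x₀)` through a projection `pr` and an additive section `ι`. -/
structure ob_Comp (A : Rep.{0} ℤ H) {X : Type*} [MulAction H X] [Fintype X] (D : ob_RepDecomp A X)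
    (x₀ : X) (S : Subgroup H) (B : Rep.{0} ℤ S) where
  stab : ∀ g : H, g ∈ S ↔ g • x₀ = x₀
  pr : tt_res S A ⟶ B
  ι : B.V →+ A.V
  pr_ι : ∀ b : B.V, pr.hom (ι b) = b
  ι_pr : ∀ a : A.V, ι (pr.hom a) = D.π x₀ a

/-- restriction to `S` followed by the projection to a component -/
noncomputable abbrev ob_loc (S : Subgroup H) {A : Rep.{0} ℤ H} {B : Rep.{0} ℤ S}
    (pr : tt_res S A ⟶ B) (n : ℕ) : groupCohomology A n ⟶ groupCohomology B n :=
  groupCohomology.map S.subtype pr n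

theorem ob_loc_eq (S : Subgroup H) {A : Rep.{0} ℤ H} {B : Rep.{0} ℤ S} (pr : tt_res S A ⟶ B)
    (n : ℕ) (z : groupCohomology A n) :
    (ob_loc S pr n).hom z = (tt_coeffMap pr n).hom ((tt_resMap S A n).hom z) := by
  have h := groupCohomology.map_comp (A := A) (B := tt_res S A) (C := B) S.subtype
    (MonoidHom.id S) (𝟙 (tt_res S A)) pr n
  have h2 : ob_loc S pr n = tt_resMap S A n ≫ tt_coeffMap pr n := by
    rw [← h]
    exact groupCohomology.map_congr rfl (by rfl) n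
  rw [h2]
  rfl

end defs

/-! ### cocycle level: arbitrary families of orbit representatives -/

section family

variable {H : Type*} [Group H] {X : Type*} [MulAction H X] [Fintype X]
variable {P : Type*} [AddCommGroup P] [DistribMulAction H P]

theorem ob_orb_eq {x y : X} (h : x ∈ MulAction.orbit H y) : ob_orb H x = ob_orb H y := by
  ext z
  rw [ob_mem_orb, ob_mem_orb, MulAction.orbit_eq_iff.mpr h]

theorem ob_Decomp.orbProj_eq (D : ob_Decomp H X P) {x y : X} (h : x ∈ MulAction.orbit H y) :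
    D.orbProj x = D.orbProj y := by
  ext m
  rw [D.orbProj_apply, D.orbProj_apply, ob_orb_eq h]

/-- **Hasse principle for a finite product, degree `2`**, with an arbitrary family `pt` of points
meeting every orbit. -/
theorem ob_isCoboundary₂_of_loc_family (D : ob_Decomp H X P) {c : H × H → P} (hc : IsCocycle₂ c)
    {I : Type*} (pt : I → X) (hpt : ∀ x : X, ∃ i, x ∈ MulAction.orbit H (pt i))
    (h : ∀ i, ∃ b₀ : ↥(MulAction.stabilizer H (pt i)) → P,
      ∀ s s' : ↥(MulAction.stabilizer H (pt i)),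
        s • b₀ s' - b₀ (s * s') + b₀ s = D.π (pt i) (c ((s : H), (s' : H)))) :
    IsCoboundary₂ c := by
  classical
  have h1 := ob_isCoboundary₂_sum (Finset.univ : Finset (MulAction.orbitRel.Quotient H X))
    (fun ω p => D.orbProj ω.out (c p)) (fun ω _ => by
      obtain ⟨i, hi⟩ := hpt ω.out
      obtain ⟨b₀, hb₀⟩ := h i
      have := ob_isCoboundary₂_orbProj D (pt i) hc b₀ hb₀
      rwa [← D.orbProj_eq hi] at this)
  have h2 : (fun p => ∑ ω : MulAction.orbitRel.Quotient H X, D.orbProj ω.out (c p)) = c := by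
    funext p; exact D.sum_orbProj (c p)
  rwa [h2] at h1

/-- **Hasse principle for a finite product, degree `1`**, with an arbitrary family `pt` of points
meeting every orbit. -/
theorem ob_isCoboundary₁_of_loc_family (D : ob_Decomp H X P) {c : H → P} (hc : IsCocycle₁ c)
    {I : Type*} (pt : I → X) (hpt : ∀ x : X, ∃ i, x ∈ MulAction.orbit H (pt i))
    (h : ∀ i, ∃ m₀ : P, ∀ s : ↥(MulAction.stabilizer H (pt i)),
      s • m₀ - m₀ = D.π (pt i) (c (s : H))) :
    IsCoboundary₁ c := by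
  classical
  have h1 := ob_isCoboundary₁_sum (Finset.univ : Finset (MulAction.orbitRel.Quotient H X))
    (fun ω g => D.orbProj ω.out (c g)) (fun ω _ => by
      obtain ⟨i, hi⟩ := hpt ω.out
      obtain ⟨m₀, hm₀⟩ := h i
      have := ob_isCoboundary₁_orbProj D (pt i) hc m₀ hm₀
      rwa [← D.orbProj_eq hi] at this)
  have h2 : (fun g => ∑ ω : MulAction.orbitRel.Quotient H X, D.orbProj ω.out (c g)) = c := by
    funext g; exact D.sum_orbProj (c g)
  rwa [h2] at h1

end family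

/-! ### components -/

section comp

variable {H : Type} [Group H] {A : Rep.{0} ℤ H} {X : Type*} [MulAction H X] [Fintype X]
  {D : ob_RepDecomp A X} {x₀ : X} {S : Subgroup H} {B : Rep.{0} ℤ S}

theorem ob_Comp.S_eq (C : ob_Comp A D x₀ S B) : S = MulAction.stabilizer H x₀ := by
  ext g
  rw [C.stab, MulAction.mem_stabilizer_iff]

theorem ob_Comp.π_ι (C : ob_Comp A D x₀ S B) (b : B.V) : D.π x₀ (C.ι b) = C.ι b := by
  rw [← C.ι_pr, C.pr_ι]

theorem ob_Comp.pr_π (C : ob_Comp A D x₀ S B) (a : A.V) : C.pr.hom (D.π x₀ a) = C.pr.hom a := by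
  rw [← C.ι_pr, C.pr_ι]

theorem ob_Comp.pr_ρ (C : ob_Comp A D x₀ S B) (s : S) (a : A.V) :
    C.pr.hom (A.ρ (s : H) a) = B.ρ s (C.pr.hom a) :=
  Rep.hom_comm_apply C.pr s a

/-- the section `ι` of a component is equivariant for the stabiliser -/
theorem ob_Comp.ι_ρ (C : ob_Comp A D x₀ S B) (s : S) (b : B.V) :
    C.ι (B.ρ s b) = A.ρ (s : H) (C.ι b) := by
  have hs : (s : H) • x₀ = x₀ := (C.stab s).mp s.2
  conv_lhs => rw [← C.pr_ι b]
  rw [← C.pr_ρ, C.ι_pr, ← C.π_ι b, D.ρ_π, hs, D.idem]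

theorem ob_Comp.pr_eq_zero_iff (C : ob_Comp A D x₀ S B) (a : A.V) :
    C.pr.hom a = 0 ↔ D.π x₀ a = 0 := by
  constructor
  · intro h; rw [← C.ι_pr, h, map_zero]
  · intro h; rw [← C.pr_π, h, map_zero]

/-- A component from a surjective `S`-equivariant projection with the same kernel as `π x₀`
(the section `ι` is chosen). -/
noncomputable def ob_Comp.ofKer (D : ob_RepDecomp A X) (x₀ : X) (S : Subgroup H)
    (B : Rep.{0} ℤ S) (stab : ∀ g : H, g ∈ S ↔ g • x₀ = x₀) (pr : tt_res S A ⟶ B)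
    (hsurj : Function.Surjective pr.hom) (hker : ∀ a : A.V, pr.hom a = 0 ↔ D.π x₀ a = 0) :
    ob_Comp A D x₀ S B where
  stab := stab
  pr := pr
  ι :=
    { toFun := fun b => D.π x₀ (hsurj b).choose
      map_zero' := by
        rw [← hker, (hsurj 0).choose_spec]
      map_add' := fun b b' => by
        rw [← sub_eq_zero, ← map_add, ← map_sub, ← hker, map_sub, map_add,
          (hsurj (b + b')).choose_spec, (hsurj b).choose_spec, (hsurj b').choose_spec, sub_self] }
  pr_ι b := by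
    show pr.hom (D.π x₀ (hsurj b).choose) = b
    have h : pr.hom (D.π x₀ (hsurj b).choose - (hsurj b).choose) = 0 := by
      rw [hker, map_sub, D.idem, sub_self]
    rw [map_sub, sub_eq_zero] at h
    rw [h, (hsurj b).choose_spec]
  ι_pr a := by
    show D.π x₀ (hsurj (pr.hom a)).choose = D.π x₀ a
    rw [← sub_eq_zero, ← map_sub, ← hker, map_sub, (hsurj (pr.hom a)).choose_spec, sub_self]

@[simp] theorem ob_Comp.ofKer_pr (D : ob_RepDecomp A X) (x₀ : X) (S : Subgroup H)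
    (B : Rep.{0} ℤ S) (stab : ∀ g : H, g ∈ S ↔ g • x₀ = x₀) (pr : tt_res S A ⟶ B)
    (hsurj : Function.Surjective pr.hom) (hker : ∀ a : A.V, pr.hom a = 0 ↔ D.π x₀ a = 0) :
    (ob_Comp.ofKer D x₀ S B stab pr hsurj hker).pr = pr := rfl

end comp

/-! ### injectivity of `res + proj` -/

section inj

variable {H : Type} [Group H] {A : Rep.{0} ℤ H} {X : Type*} [MulAction H X] [Fintype X]
  (D : ob_RepDecomp A X)

/-- **Hasse principle, degree `2`**: a class of `H²(H, A)` whose localisations at a family of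
components meeting every orbit vanish is zero. -/
theorem ob_H2_eq_zero_of_loc {I : Type*} (pt : I → X)
    (hpt : ∀ x : X, ∃ i, x ∈ MulAction.orbit H (pt i))
    (S : I → Subgroup H) (B : ∀ i, Rep.{0} ℤ (S i)) (C : ∀ i, ob_Comp A D (pt i) (S i) (B i))
    (z : groupCohomology A 2) (hz : ∀ i, (ob_loc (S i) (C i).pr 2).hom z = 0) : z = 0 := by
  obtain ⟨c, hc, rfl⟩ := te_cl2_surjective A z
  rw [te_cl2_eq_zero_iff]
  let _ := ob_repAction A
  have hcob : IsCoboundary₂ c := by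
    refine ob_isCoboundary₂_of_loc_family D.toDecomp (c := c) hc pt hpt fun i => ?_
    have h1 := hz i
    rw [ob_loc, te_map_cl2 (S i).subtype (C i).pr hc, te_cl2_eq_zero_iff] at h1
    obtain ⟨y, hy⟩ := h1
    have hmem : ∀ s : ↥(MulAction.stabilizer H (pt i)), (s : H) ∈ S i := fun s =>
      ((C i).stab s).mpr s.2
    refine ⟨fun s => (C i).ι (y ⟨s, hmem s⟩), fun s s' => ?_⟩
    have h2 := congrFun hy (⟨s, hmem s⟩, ⟨s', hmem s'⟩)
    simp only [te_d1] at h2
    have h3 := congrArg (C i).ι h2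
    rw [(C i).ι_pr, map_add, map_sub, (C i).ι_ρ] at h3
    exact h3.symm
  obtain ⟨b, hb⟩ := hcob
  exact ⟨b, funext fun q => (hb q.1 q.2).symm⟩

/-- **Hasse principle, degree `1`.** -/
theorem ob_H1_eq_zero_of_loc {I : Type*} (pt : I → X)
    (hpt : ∀ x : X, ∃ i, x ∈ MulAction.orbit H (pt i))
    (S : I → Subgroup H) (B : ∀ i, Rep.{0} ℤ (S i)) (C : ∀ i, ob_Comp A D (pt i) (S i) (B i))
    (z : groupCohomology A 1) (hz : ∀ i, (ob_loc (S i) (C i).pr 1).hom z = 0) : z = 0 := by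
  obtain ⟨c, hc, rfl⟩ := te_cl1_surjective A z
  rw [te_cl1_eq_zero_iff]
  let _ := ob_repAction A
  have hcob : IsCoboundary₁ c := by
    refine ob_isCoboundary₁_of_loc_family D.toDecomp (c := c) (fun g h => hc g h) pt hpt fun i => ?_
    have h1 := hz i
    rw [ob_loc, te_map_cl1 (S i).subtype (C i).pr hc, te_cl1_eq_zero_iff] at h1
    obtain ⟨y, hy⟩ := h1
    have hmem : ∀ s : ↥(MulAction.stabilizer H (pt i)), (s : H) ∈ S i := fun s =>
      ((C i).stab s).mpr s.2
    refine ⟨(C i).ι y, fun s => ?_⟩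
    have h2 := congrFun hy ⟨s, hmem s⟩
    simp only [te_d0] at h2
    have h3 := congrArg (C i).ι h2
    rw [(C i).ι_pr, map_sub, (C i).ι_ρ] at h3
    exact h3.symm
  obtain ⟨m, hm⟩ := hcob
  exact ⟨m, funext fun g => (hm g).symm⟩

variable {D} {x₀ : X} {S : Subgroup H} {B : Rep.{0} ℤ S}

/-- For a transitive `X`: `H²(H, A) → H²(S, B)` (restriction, then projection) is injective. -/
theorem ob_loc_injective₂ (htr : ∀ x : X, x ∈ MulAction.orbit H x₀) (C : ob_Comp A D x₀ S B) :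
    Function.Injective (ob_loc S C.pr 2).hom := by
  rw [injective_iff_map_eq_zero]
  intro z hz
  exact ob_H2_eq_zero_of_loc D (fun _ : Unit => x₀) (fun x => ⟨(), htr x⟩) (fun _ => S)
    (fun _ => B) (fun _ => C) z (fun _ => hz)

/-- For a transitive `X`: `H¹(H, A) → H¹(S, B)` (restriction, then projection) is injective. -/
theorem ob_loc_injective₁ (htr : ∀ x : X, x ∈ MulAction.orbit H x₀) (C : ob_Comp A D x₀ S B) :
    Function.Injective (ob_loc S C.pr 1).hom := by
  rw [injective_iff_map_eq_zero]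
  intro z hz
  exact ob_H1_eq_zero_of_loc D (fun _ : Unit => x₀) (fun x => ⟨(), htr x⟩) (fun _ => S)
    (fun _ => B) (fun _ => C) z (fun _ => hz)

end inj

/-! ### Frobenius reciprocity -/

section frob

/-- an additive map between `ℤ`-modules (with arbitrary `Module ℤ` instances) as a linear map -/
def ob_addLin {M N : Type*} [AddCommGroup M] [AddCommGroup N] [Module ℤ M] [Module ℤ N]
    (f : M →+ N) : M →ₗ[ℤ] N where
  toFun := f
  map_add' := f.map_add
  map_smul' n m := by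
    have := map_intCast_smul f ℤ ℤ n m
    simpa using this

@[simp] theorem ob_addLin_apply {M N : Type*} [AddCommGroup M] [AddCommGroup N] [Module ℤ M]
    [Module ℤ N] (f : M →+ N) (m : M) : ob_addLin f m = f m := rfl

/-- A morphism of `Rep ℤ G` from an equivariant additive map.  (All instances are passed
explicitly: on `Y.V` the instance `Y.hV2 : Module ℤ Y.V` is not the one found by instance
synthesis.) -/
noncomputable def ob_mkHom {G : Type} [Group G] (Y A : Rep.{0} ℤ G) (f : Y.V →+ A.V)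
    (hf : ∀ (g : G) (y : Y.V), f (Y.ρ g y) = A.ρ g (f y)) : Y ⟶ A :=
  @Rep.ofHom ℤ G _ _ Y.V A.V Y.hV1 A.hV1 Y.hV2 A.hV2 Y.ρ A.ρ
    (@LinearMap.intertwiningMap_of_isIntertwiningMap ℤ G Y.V A.V _ _ _ _ Y.hV2 A.hV2 Y.ρ A.ρ
      (@ob_addLin Y.V A.V _ _ Y.hV2 A.hV2 f) hf)

theorem ob_mkHom_apply {G : Type} [Group G] (Y A : Rep.{0} ℤ G) (f : Y.V →+ A.V)
    (hf : ∀ (g : G) (y : Y.V), f (Y.ρ g y) = A.ρ g (f y)) (y : Y.V) :
    (ob_mkHom Y A f hf).hom y = f y := rfl

variable {H : Type} [Group H] {A : Rep.{0} ℤ H} {X : Type*} [MulAction H X] [Fintype X]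
  {D : ob_RepDecomp A X} {x₀ : X} {S : Subgroup H} {B : Rep.{0} ℤ S}

/-- the additive map underlying the coinduced morphism:
`y ↦ ∑_{x ∈ H x₀} τ(x) • ι (ψ' (τ(x)⁻¹ • y))` -/
noncomputable def ob_frobAdd (C : ob_Comp A D x₀ S B) (Y : Rep.{0} ℤ H) (ψ' : tt_res S Y ⟶ B) :
    Y.V →+ A.V where
  toFun y := ∑ x ∈ ob_orb H x₀, A.ρ (ob_tau H x₀ x) (C.ι (ψ'.hom (Y.ρ (ob_tau H x₀ x)⁻¹ y)))
  map_zero' := by
    refine Finset.sum_eq_zero fun x _ => ?_
    rw [map_zero, map_zero, map_zero, map_zero]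
  map_add' y y' := by
    rw [← Finset.sum_add_distrib]
    refine Finset.sum_congr rfl fun x _ => ?_
    rw [map_add, map_add, map_add, map_add]

theorem ob_frobAdd_apply (C : ob_Comp A D x₀ S B) (Y : Rep.{0} ℤ H) (ψ' : tt_res S Y ⟶ B)
    (y : Y.V) : ob_frobAdd C Y ψ' y =
      ∑ x ∈ ob_orb H x₀, A.ρ (ob_tau H x₀ x) (C.ι (ψ'.hom (Y.ρ (ob_tau H x₀ x)⁻¹ y))) := rfl

theorem ob_frobAdd_ρ (C : ob_Comp A D x₀ S B) (Y : Rep.{0} ℤ H) (ψ' : tt_res S Y ⟶ B)
    (g : H) (y : Y.V) : ob_frobAdd C Y ψ' (Y.ρ g y) = A.ρ g (ob_frobAdd C Y ψ' y) := by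
  rw [ob_frobAdd_apply, ob_frobAdd_apply]
  let _ := ob_repAction A
  have h := ob_smul_sum_tau x₀ g
    (fun x => C.ι (ψ'.hom (Y.ρ (ob_tau H x₀ x)⁻¹ y)))
  refine Eq.trans ?_ h.symm
  refine Finset.sum_congr rfl fun x hx => ?_
  congr 1
  have hmem : ((ob_sig H x₀ x g : ↥(MulAction.stabilizer H x₀)) : H) ∈ S :=
    (C.stab _).mpr (ob_sig H x₀ x g).2
  have h1 := C.ι_ρ ⟨_, hmem⟩ (ψ'.hom (Y.ρ (ob_tau H x₀ (g⁻¹ • x))⁻¹ y))
  have h2 := Rep.hom_comm_apply ψ' ⟨_, hmem⟩ (Y.ρ (ob_tau H x₀ (g⁻¹ • x))⁻¹ y)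
  refine Eq.trans ?_ h1
  rw [← h2]
  congr 2
  let _ := ob_repAction Y
  show (ob_tau H x₀ x)⁻¹ • g • y =
    ((ob_sig H x₀ x g : ↥(MulAction.stabilizer H x₀)) : H) • (ob_tau H x₀ (g⁻¹ • x))⁻¹ • y
  rw [ob_sig_coe hx, smul_smul, smul_smul]
  congr 1
  group

/-- the coinduced morphism `Y ⟶ A` attached to `ψ' : res S Y ⟶ B` -/
noncomputable def ob_frobHom (C : ob_Comp A D x₀ S B) (Y : Rep.{0} ℤ H) (ψ' : tt_res S Y ⟶ B) :
    Y ⟶ A :=
  ob_mkHom Y A (ob_frobAdd C Y ψ') (fun g y => ob_frobAdd_ρ C Y ψ' g y)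

theorem ob_frobHom_apply (C : ob_Comp A D x₀ S B) (Y : Rep.{0} ℤ H) (ψ' : tt_res S Y ⟶ B)
    (y : Y.V) : (ob_frobHom C Y ψ').hom y = ob_frobAdd C Y ψ' y := rfl

theorem ob_pr_frobAdd (C : ob_Comp A D x₀ S B) (Y : Rep.{0} ℤ H) (ψ' : tt_res S Y ⟶ B)
    (y : Y.V) : C.pr.hom (ob_frobAdd C Y ψ' y) = ψ'.hom y := by
  rw [← C.pr_π, ob_frobAdd_apply, map_sum, Finset.sum_eq_single x₀]
  · rw [ob_tau_self, inv_one, map_one, map_one]
    show C.pr.hom (D.π x₀ (C.ι (ψ'.hom y))) = ψ'.hom y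
    rw [C.π_ι, C.pr_ι]
  · intro x hx hne
    let _ := ob_repAction A
    exact D.toDecomp.π_tau_smul_of_ne hx hne.symm _ (C.π_ι _)
  · intro h; exact absurd (ob_self_mem_orb x₀) h

/-- **Frobenius reciprocity** (surjectivity): every `S`-morphism from `res S Y` to a component `B`
of `A` at `x₀` is induced by an `H`-morphism `Y ⟶ A`.  (No transitivity is needed.) -/
theorem ob_frob (C : ob_Comp A D x₀ S B) (Y : Rep.{0} ℤ H) (ψ' : tt_res S Y ⟶ B) :
    ∃ ψ : Y ⟶ A, (Rep.resFunctor S.subtype).map ψ ≫ C.pr = ψ' := by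
  refine ⟨ob_frobHom C Y ψ', ?_⟩
  apply Rep.hom_ext
  exact DFunLike.ext _ _ fun y => ob_pr_frobAdd C Y ψ' y

end frob

/-! ### the internal Hom `Hom(Y, A)` of a decomposed module -/

section hom

variable {H : Type} [Group H]

/-- post-composition with an additive map, as an additive map on the carrier of `tt_hom` -/
noncomputable def ob_postAdd (Y : Rep.{0} ℤ H) {A A' : Rep.{0} ℤ H} (f : A.V →+ A'.V) :
    (tt_hom Y A).V →+ (tt_hom Y A').V where
  toFun φ := (@ob_addLin A.V A'.V _ _ A.hV2 A'.hV2 f).comp φ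
  map_zero' := DFunLike.ext _ _ fun _ => map_zero f
  map_add' φ ψ := DFunLike.ext _ _ fun y => map_add f (φ y) (ψ y)

theorem ob_postAdd_apply (Y : Rep.{0} ℤ H) {A A' : Rep.{0} ℤ H} (f : A.V →+ A'.V)
    (φ : (tt_hom Y A).V) (y : Y.V) : ob_postAdd Y f φ y = f (φ y) := rfl

/-- evaluation at `y`, as an additive map on the carrier of `tt_hom` -/
def ob_evalAdd (Y A : Rep.{0} ℤ H) (y : Y.V) : (tt_hom Y A).V →+ A.V where
  toFun φ := φ y
  map_zero' := by
    show (0 : (tt_hom Y A).V) y = 0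
    exact @LinearMap.zero_apply ℤ ℤ Y.V A.V _ _ _ _ Y.hV2 A.hV2 _ y
  map_add' φ ψ := @LinearMap.add_apply ℤ ℤ Y.V A.V _ _ _ _ Y.hV2 A.hV2 _ φ ψ y

theorem ob_hom_ext {Y A : Rep.{0} ℤ H} {φ ψ : (tt_hom Y A).V} (h : ∀ y : Y.V, φ y = ψ y) :
    φ = ψ :=
  DFunLike.ext _ _ h

variable {A : Rep.{0} ℤ H} {X : Type*} [MulAction H X] [Fintype X]

/-- the decomposition `Hom(Y, A) = ∏_x Hom(Y, A_x)`, `f ↦ π x ∘ f` -/
noncomputable def ob_RepDecomp.hom (D : ob_RepDecomp A X) (Y : Rep.{0} ℤ H) :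
    ob_RepDecomp (tt_hom Y A) X where
  π x := ob_postAdd Y (D.π x)
  idem x φ := ob_hom_ext fun y => D.idem x (φ y)
  orth x x' φ hne := ob_hom_ext fun y => D.orth x x' (φ y) hne
  sum_eq φ := ob_hom_ext fun y => by
    have h := map_sum (ob_evalAdd Y A y) (fun x => ob_postAdd Y (D.π x) φ) Finset.univ
    exact h.trans (D.sum_eq (φ y))
  ρ_π h x φ := ob_hom_ext fun y => D.ρ_π h x (φ (Y.ρ h⁻¹ y))

theorem ob_RepDecomp.hom_π_apply (D : ob_RepDecomp A X) (Y : Rep.{0} ℤ H) (x : X)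
    (φ : (tt_hom Y A).V) (y : Y.V) : (D.hom Y).π x φ y = D.π x (φ y) := rfl

variable {D : ob_RepDecomp A X} {x₀ : X} {S : Subgroup H} {B : Rep.{0} ℤ S}

/-- the component `Hom(res Y, B)` of `Hom(Y, A)` at `x₀` -/
noncomputable def ob_Comp.hom (C : ob_Comp A D x₀ S B) (Y : Rep.{0} ℤ H) :
    ob_Comp (tt_hom Y A) (D.hom Y) x₀ S (tt_hom (tt_res S Y) B) where
  stab := C.stab
  pr := tt_homPost (tt_res S Y) C.pr
  ι := ob_postAdd (A := B) (A' := tt_res S A) (tt_res S Y) C.ι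
  pr_ι φ := ob_hom_ext fun y => C.pr_ι (φ y)
  ι_pr φ := ob_hom_ext fun y => C.ι_pr (φ y)

theorem ob_Comp.hom_pr (C : ob_Comp A D x₀ S B) (Y : Rep.{0} ℤ H) :
    (C.hom Y).pr = tt_homPost (tt_res S Y) C.pr := rfl

/-- **Shapiro, in the form of the field `shapiro` of `du_Seam`**: for a transitive `X` and a
component `B` of `A` at `x₀`, restriction to `S` followed by the projection is injective on
`Hⁿ(H, Hom(Y, A))`, `n = 1, 2`, for every `Y`. -/
theorem ob_shapiro (htr : ∀ x : X, x ∈ MulAction.orbit H x₀) (C : ob_Comp A D x₀ S B)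
    (Y : Rep.{0} ℤ H) (n : ℕ) (hn : n = 1 ∨ n = 2) (z : groupCohomology (tt_hom Y A) n)
    (hz : (tt_coeffMap (tt_homPost (tt_res S Y) C.pr) n).hom
      ((tt_resMap S (tt_hom Y A) n).hom z) = 0) : z = 0 := by
  have h1 : (ob_loc S (C.hom Y).pr n).hom z = 0 := (ob_loc_eq S (C.hom Y).pr n z).trans hz
  rcases hn with rfl | rfl
  · exact ob_loc_injective₁ htr (C.hom Y) (h1.trans (map_zero _).symm)
  · exact ob_loc_injective₂ htr (C.hom Y) (h1.trans (map_zero _).symm)

end hom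

end Fermat.Agent.S55
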