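import Mathlib

/-!
# S55, block [G4], leaf `Orbit` (cochain level)

Explicit Shapiro lemma in degrees `1, 2` at the level of cocycles (plain functions, Mathlib's
`groupCohomology.IsCocycle₁/₂`, `IsCoboundary₁/₂` conventions).

`H` is a group acting on a finite set `X`, `P` is an `H`-module with an equivariant decomposition
`P = ∏_{x ∈ X} P_x`, encoded by a family of orthogonal idempotents `π x : P →+ P`
(`ob_Decomp`) with `h • π x m = π (h • x) (h • m)`.  For `x₀ : X` with stabiliser `S`: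

* `ob_coind₂ x₀ c₀` extends a `2`-cocycle `c₀` of `S` with values in `P_{x₀}` to a `2`-cocycle of
  `H` with values in `P`, supported on the orbit of `x₀`, whose localisation at `x₀` is `c₀`
  (`ob_isCocycle₂_coind₂`, `ob_loc_coind₂`, `ob_supp_coind₂`, `ob_isCoboundary₂_coind₂`);
* `ob_isCoboundary₂_of_loc`: a `2`-cocycle of `H` supported on the orbit of `x₀` whose
  localisation `(s, s') ↦ π x₀ (c (s, s'))` is a coboundary on `S` is a coboundary on `H`.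
* the same in degree `1`.
-/

set_option autoImplicit false

namespace Fermat.Agent.S55

open MulAction Finset groupCohomology

open scoped Classical in
/-- the orbit of `x₀` as a finset -/
noncomputable def ob_orb (H : Type*) [Group H] {X : Type*} [MulAction H X] [Fintype X]
    (x₀ : X) : Finset X :=
  Finset.univ.filter (fun x => x ∈ MulAction.orbit H x₀)

/-- An `H`-equivariant decomposition `P = ∏_{x ∈ X} P_x` of an `H`-module, given by orthogonal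
idempotents. -/
structure ob_Decomp (H : Type*) [Group H] (X : Type*) [MulAction H X] [Fintype X]
    (P : Type*) [AddCommGroup P] [DistribMulAction H P] where
  π : X → P →+ P
  idem : ∀ x m, π x (π x m) = π x m
  orth : ∀ x y m, x ≠ y → π x (π y m) = 0
  sum_eq : ∀ m, ∑ x, π x m = m
  smul_π : ∀ (h : H) x m, h • π x m = π (h • x) (h • m)

section Basic

variable {H : Type*} [Group H] {X : Type*} [MulAction H X] [Fintype X]

theorem ob_mem_orb {x₀ x : X} : x ∈ ob_orb H x₀ ↔ x ∈ MulAction.orbit H x₀ := by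
  classical
  simp [ob_orb]

theorem ob_self_mem_orb (x₀ : X) : x₀ ∈ ob_orb H x₀ :=
  ob_mem_orb.mpr (MulAction.mem_orbit_self x₀)

theorem ob_smul_mem_orb {x₀ x : X} (g : H) (hx : x ∈ ob_orb H x₀) : g • x ∈ ob_orb H x₀ := by
  rw [ob_mem_orb] at hx ⊢
  obtain ⟨k, rfl⟩ := hx
  exact ⟨g * k, mul_smul g k x₀⟩

/-- reindexing a sum over the orbit by translation -/
theorem ob_sum_smul {M : Type*} [AddCommMonoid M] (x₀ : X) (g : H) (F : X → M) :
    ∑ x ∈ ob_orb H x₀, F (g • x) = ∑ x ∈ ob_orb H x₀, F x := by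
  refine Finset.sum_bij' (fun x _ => g • x) (fun x _ => g⁻¹ • x) ?_ ?_ ?_ ?_ ?_
  · intro x hx; exact ob_smul_mem_orb g hx
  · intro x hx; exact ob_smul_mem_orb g⁻¹ hx
  · intro x _; simp
  · intro x _; simp
  · intro x _; rfl

open scoped Classical in
/-- a section of `g ↦ g • x₀` over the orbit, normalised by `τ x₀ = 1` -/
noncomputable def ob_tau (H : Type*) [Group H] {X : Type*} [MulAction H X] (x₀ x : X) : H :=
  if x = x₀ then 1 else if h : ∃ g : H, g • x₀ = x then h.choose else 1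

omit [Fintype X] in
theorem ob_tau_self (x₀ : X) : ob_tau H x₀ x₀ = 1 := by
  simp [ob_tau]

theorem ob_tau_smul {x₀ x : X} (hx : x ∈ ob_orb H x₀) : ob_tau H x₀ x • x₀ = x := by
  classical
  rw [ob_mem_orb] at hx
  unfold ob_tau
  split_ifs with h1 h2
  · rw [one_smul, h1]
  · exact h2.choose_spec
  · exact absurd hx h2

theorem ob_sig_aux {x₀ x : X} (hx : x ∈ ob_orb H x₀) (g : H) :
    (ob_tau H x₀ x)⁻¹ * g * ob_tau H x₀ (g⁻¹ • x) ∈ MulAction.stabilizer H x₀ := by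
  rw [MulAction.mem_stabilizer_iff, mul_smul, mul_smul,
    ob_tau_smul (ob_smul_mem_orb g⁻¹ hx), smul_inv_smul, inv_smul_eq_iff, ob_tau_smul hx]

open scoped Classical in
/-- the `S`-valued cocycle `σ(x, g) = τ(x)⁻¹ g τ(g⁻¹ x)` of the permutation action -/
noncomputable def ob_sig (H : Type*) [Group H] {X : Type*} [MulAction H X] (x₀ x : X) (g : H) :
    ↥(MulAction.stabilizer H x₀) :=
  if h : (ob_tau H x₀ x)⁻¹ * g * ob_tau H x₀ (g⁻¹ • x) ∈ MulAction.stabilizer H x₀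
  then ⟨_, h⟩ else 1

theorem ob_sig_coe {x₀ x : X} (hx : x ∈ ob_orb H x₀) (g : H) :
    (ob_sig H x₀ x g : H) = (ob_tau H x₀ x)⁻¹ * g * ob_tau H x₀ (g⁻¹ • x) := by
  unfold ob_sig
  rw [dif_pos (ob_sig_aux hx g)]

theorem ob_tau_mul_sig {x₀ x : X} (hx : x ∈ ob_orb H x₀) (g : H) :
    ob_tau H x₀ x * (ob_sig H x₀ x g : H) = g * ob_tau H x₀ (g⁻¹ • x) := by
  rw [ob_sig_coe hx]; group

theorem ob_sig_mul {x₀ x : X} (hx : x ∈ ob_orb H x₀) (g h : H) :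
    ob_sig H x₀ x (g * h) = ob_sig H x₀ x g * ob_sig H x₀ (g⁻¹ • x) h := by
  apply Subtype.ext
  rw [Subgroup.coe_mul, ob_sig_coe hx, ob_sig_coe hx, ob_sig_coe (ob_smul_mem_orb g⁻¹ hx),
    mul_inv_rev, mul_smul]
  group

theorem ob_sig_self (x₀ : X) (s : ↥(MulAction.stabilizer H x₀)) :
    ob_sig H x₀ x₀ (s : H) = s := by
  apply Subtype.ext
  have hs : (s : H)⁻¹ • x₀ = x₀ := by
    have := (s⁻¹).2
    rwa [MulAction.mem_stabilizer_iff] at this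
  rw [ob_sig_coe (ob_self_mem_orb x₀), hs, ob_tau_self]
  group

end Basic

section Coind

variable {H : Type*} [Group H] {X : Type*} [MulAction H X] [Fintype X]
variable {P : Type*} [AddCommGroup P] [DistribMulAction H P]

/-- the idempotent `π x₀` commutes with the stabiliser of `x₀` -/
theorem ob_Decomp.smul_π_stab (D : ob_Decomp H X P) (x₀ : X)
    (s : ↥(MulAction.stabilizer H x₀)) (m : P) : s • D.π x₀ m = D.π x₀ (s • m) := by
  have h := D.smul_π (s : H) x₀ m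
  have hs : (s : H) • x₀ = x₀ := s.2
  rw [hs] at h
  exact h

/-- `τ(x) • P_{x₀} ⊆ P_x` -/
theorem ob_Decomp.π_tau_smul (D : ob_Decomp H X P) {x₀ x : X} (hx : x ∈ ob_orb H x₀)
    (m : P) (hm : D.π x₀ m = m) :
    D.π x (ob_tau H x₀ x • m) = ob_tau H x₀ x • m := by
  conv_rhs => rw [← hm]
  rw [D.smul_π, ob_tau_smul hx]

theorem ob_Decomp.π_tau_smul_of_ne (D : ob_Decomp H X P) {x₀ x : X} (hx : x ∈ ob_orb H x₀)
    {y : X} (hy : y ≠ x) (m : P) (hm : D.π x₀ m = m) :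
    D.π y (ob_tau H x₀ x • m) = 0 := by
  rw [← D.π_tau_smul hx m hm, D.orth y x _ hy]

/-- **Coinduction of a `2`-cochain** of the stabiliser `S` of `x₀` to `H`:
`c(g,h) = ∑_{x ∈ H x₀} τ(x) • c₀(σ(x,g), σ(g⁻¹x,h))`. -/
noncomputable def ob_coind₂ (x₀ : X)
    (c₀ : ↥(MulAction.stabilizer H x₀) × ↥(MulAction.stabilizer H x₀) → P) : H × H → P :=
  fun p => ∑ x ∈ ob_orb H x₀,
    ob_tau H x₀ x • c₀ (ob_sig H x₀ x p.1, ob_sig H x₀ (p.1⁻¹ • x) p.2)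

/-- **Coinduction of a `1`-cochain**: `b(g) = ∑_{x ∈ H x₀} τ(x) • b₀(σ(x,g))`. -/
noncomputable def ob_coind₁ (x₀ : X) (b₀ : ↥(MulAction.stabilizer H x₀) → P) : H → P :=
  fun g => ∑ x ∈ ob_orb H x₀, ob_tau H x₀ x • b₀ (ob_sig H x₀ x g)

/-- `g • ∑_x τ(x) • F(x) = ∑_x τ(x) • σ(x,g) • F(g⁻¹ x)` -/
theorem ob_smul_sum_tau (x₀ : X) (g : H) (F : X → P) :
    g • ∑ x ∈ ob_orb H x₀, ob_tau H x₀ x • F x =
      ∑ x ∈ ob_orb H x₀, ob_tau H x₀ x • ((ob_sig H x₀ x g : H) • F (g⁻¹ • x)) := by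
  rw [Finset.smul_sum, ← ob_sum_smul x₀ g⁻¹ (fun x => g • ob_tau H x₀ x • F x)]
  refine Finset.sum_congr rfl fun x hx => ?_
  rw [smul_smul, smul_smul, ob_tau_mul_sig hx]

end Coind

section CoindProps

variable {H : Type*} [Group H] {X : Type*} [MulAction H X] [Fintype X]
variable {P : Type*} [AddCommGroup P] [DistribMulAction H P]

theorem ob_isCocycle₂_coind₂ (x₀ : X)
    {c₀ : ↥(MulAction.stabilizer H x₀) × ↥(MulAction.stabilizer H x₀) → P}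
    (hc₀ : IsCocycle₂ c₀) : IsCocycle₂ (ob_coind₂ x₀ c₀) := by
  intro g h j
  simp only [ob_coind₂]
  rw [ob_smul_sum_tau x₀ g (fun y => c₀ (ob_sig H x₀ y h, ob_sig H x₀ (h⁻¹ • y) j)),
    ← Finset.sum_add_distrib, ← Finset.sum_add_distrib]
  refine Finset.sum_congr rfl fun x hx => ?_
  have hx' : g⁻¹ • x ∈ ob_orb H x₀ := ob_smul_mem_orb g⁻¹ hx
  rw [← smul_add, ← smul_add, ob_sig_mul hx g h, ob_sig_mul hx' h j, mul_inv_rev, mul_smul]
  have := hc₀ (ob_sig H x₀ x g) (ob_sig H x₀ (g⁻¹ • x) h) (ob_sig H x₀ (h⁻¹ • g⁻¹ • x) j)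
  rw [this, Subgroup.smul_def]

theorem ob_isCocycle₁_coind₁ (x₀ : X) {b₀ : ↥(MulAction.stabilizer H x₀) → P}
    (hb₀ : IsCocycle₁ b₀) : IsCocycle₁ (ob_coind₁ x₀ b₀) := by
  intro g h
  simp only [ob_coind₁]
  rw [ob_smul_sum_tau x₀ g (fun y => b₀ (ob_sig H x₀ y h)), ← Finset.sum_add_distrib]
  refine Finset.sum_congr rfl fun x hx => ?_
  rw [← smul_add, ob_sig_mul hx g h, hb₀, Subgroup.smul_def]

/-- coinduction commutes with the coboundary `d¹` -/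
theorem ob_coind₂_d (x₀ : X) (b₀ : ↥(MulAction.stabilizer H x₀) → P)
    {c₀ : ↥(MulAction.stabilizer H x₀) × ↥(MulAction.stabilizer H x₀) → P}
    (h₀ : ∀ s s', s • b₀ s' - b₀ (s * s') + b₀ s = c₀ (s, s')) (g h : H) :
    g • ob_coind₁ x₀ b₀ h - ob_coind₁ x₀ b₀ (g * h) + ob_coind₁ x₀ b₀ g =
      ob_coind₂ x₀ c₀ (g, h) := by
  simp only [ob_coind₁, ob_coind₂]
  rw [ob_smul_sum_tau x₀ g (fun y => b₀ (ob_sig H x₀ y h)), ← Finset.sum_sub_distrib,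
    ← Finset.sum_add_distrib]
  refine Finset.sum_congr rfl fun x hx => ?_
  rw [← smul_sub, ← smul_add, ob_sig_mul hx g h, ← h₀, Subgroup.smul_def]

theorem ob_isCoboundary₂_coind₂ (x₀ : X)
    {c₀ : ↥(MulAction.stabilizer H x₀) × ↥(MulAction.stabilizer H x₀) → P}
    (hc₀ : IsCoboundary₂ c₀) : IsCoboundary₂ (ob_coind₂ x₀ c₀) := by
  obtain ⟨b₀, hb₀⟩ := hc₀
  exact ⟨ob_coind₁ x₀ b₀, fun g h => ob_coind₂_d x₀ b₀ hb₀ g h⟩

/-- the localisation at `x₀` of the coinduced cocycle is the original cocycle -/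
theorem ob_loc_coind₂ (D : ob_Decomp H X P) (x₀ : X)
    {c₀ : ↥(MulAction.stabilizer H x₀) × ↥(MulAction.stabilizer H x₀) → P}
    (hr : ∀ p, D.π x₀ (c₀ p) = c₀ p) (s s' : ↥(MulAction.stabilizer H x₀)) :
    D.π x₀ (ob_coind₂ x₀ c₀ ((s : H), (s' : H))) = c₀ (s, s') := by
  simp only [ob_coind₂]
  rw [map_sum, Finset.sum_eq_single x₀]
  · have hs : (s : H)⁻¹ • x₀ = x₀ := by
      have := (s⁻¹).2
      rwa [MulAction.mem_stabilizer_iff] at this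
    rw [hs, ob_sig_self, ob_sig_self, ob_tau_self, one_smul, hr]
  · intro x hx hne
    exact D.π_tau_smul_of_ne hx hne.symm _ (hr _)
  · intro h; exact absurd (ob_self_mem_orb x₀) h

/-- the coinduced cocycle is supported on the orbit of `x₀` -/
theorem ob_supp_coind₂ (D : ob_Decomp H X P) (x₀ : X)
    {c₀ : ↥(MulAction.stabilizer H x₀) × ↥(MulAction.stabilizer H x₀) → P}
    (hr : ∀ p, D.π x₀ (c₀ p) = c₀ p) {y : X} (hy : y ∉ ob_orb H x₀) (p : H × H) :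
    D.π y (ob_coind₂ x₀ c₀ p) = 0 := by
  simp only [ob_coind₂]
  rw [map_sum]
  refine Finset.sum_eq_zero fun x hx => ?_
  exact D.π_tau_smul_of_ne hx (fun h : y = x => hy (h ▸ hx)) _ (hr _)

theorem ob_loc_coind₁ (D : ob_Decomp H X P) (x₀ : X) {b₀ : ↥(MulAction.stabilizer H x₀) → P}
    (hr : ∀ s, D.π x₀ (b₀ s) = b₀ s) (s : ↥(MulAction.stabilizer H x₀)) :
    D.π x₀ (ob_coind₁ x₀ b₀ (s : H)) = b₀ s := by
  simp only [ob_coind₁]
  rw [map_sum, Finset.sum_eq_single x₀]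
  · rw [ob_sig_self, ob_tau_self, one_smul, hr]
  · intro x hx hne
    exact D.π_tau_smul_of_ne hx hne.symm _ (hr _)
  · intro h; exact absurd (ob_self_mem_orb x₀) h

theorem ob_supp_coind₁ (D : ob_Decomp H X P) (x₀ : X) {b₀ : ↥(MulAction.stabilizer H x₀) → P}
    (hr : ∀ s, D.π x₀ (b₀ s) = b₀ s) {y : X} (hy : y ∉ ob_orb H x₀) (g : H) :
    D.π y (ob_coind₁ x₀ b₀ g) = 0 := by
  simp only [ob_coind₁]
  rw [map_sum]
  refine Finset.sum_eq_zero fun x hx => ?_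
  exact D.π_tau_smul_of_ne hx (fun h : y = x => hy (h ▸ hx)) _ (hr _)

end CoindProps

section Inj

variable {H : Type*} [Group H] {X : Type*} [MulAction H X] [Fintype X]
variable {P : Type*} [AddCommGroup P] [DistribMulAction H P]

/-- the retraction `r : H → S`, `r(g) = g τ(g⁻¹ x₀)` -/
noncomputable def ob_r (H : Type*) [Group H] {X : Type*} [MulAction H X] (x₀ : X) (g : H) :
    ↥(MulAction.stabilizer H x₀) := ob_sig H x₀ x₀ g

theorem ob_r_self (x₀ : X) (s : ↥(MulAction.stabilizer H x₀)) : ob_r H x₀ (s : H) = s :=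
  ob_sig_self x₀ s

theorem ob_r_mul (x₀ : X) (s : ↥(MulAction.stabilizer H x₀)) (g : H) :
    ob_r H x₀ ((s : H) * g) = s * ob_r H x₀ g := by
  have hs : (s : H)⁻¹ • x₀ = x₀ := by
    have := (s⁻¹).2
    rwa [MulAction.mem_stabilizer_iff] at this
  unfold ob_r
  rw [ob_sig_mul (ob_self_mem_orb x₀), ob_sig_self, hs]

/-- the homogeneous, `P_{x₀}`-valued form of an inhomogeneous `2`-cochain of `H` in `P` -/
def ob_hom₂ (D : ob_Decomp H X P) (x₀ : X) (c : H × H → P) (h₀ h₁ h₂ : H) : P :=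
  D.π x₀ (h₀ • c (h₀⁻¹ * h₁, h₁⁻¹ * h₂))

theorem ob_hom₂_cocycle (D : ob_Decomp H X P) (x₀ : X) {c : H × H → P} (hc : IsCocycle₂ c)
    (h₀ h₁ h₂ h₃ : H) :
    ob_hom₂ D x₀ c h₁ h₂ h₃ - ob_hom₂ D x₀ c h₀ h₂ h₃ + ob_hom₂ D x₀ c h₀ h₁ h₃
      - ob_hom₂ D x₀ c h₀ h₁ h₂ = 0 := by
  have h := hc (h₀⁻¹ * h₁) (h₁⁻¹ * h₂) (h₂⁻¹ * h₃)
  have e1 : h₀⁻¹ * h₁ * (h₁⁻¹ * h₂) = h₀⁻¹ * h₂ := by group
  have e2 : h₁⁻¹ * h₂ * (h₂⁻¹ * h₃) = h₁⁻¹ * h₃ := by group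
  rw [e1, e2] at h
  have h' := congrArg (fun m => D.π x₀ (h₀ • m)) h
  simp only [smul_add, map_add, smul_smul, mul_inv_cancel_left] at h'
  simp only [ob_hom₂]
  rw [sub_eq_zero, sub_add_eq_add_sub, sub_eq_iff_eq_add]
  rw [add_comm (D.π x₀ (h₀ • c (h₀⁻¹ * h₁, h₁⁻¹ * h₂)))]
  exact h'.symm

theorem ob_hom₂_smul (D : ob_Decomp H X P) (x₀ : X) (c : H × H → P)
    (s : ↥(MulAction.stabilizer H x₀)) (h₀ h₁ h₂ : H) :
    ob_hom₂ D x₀ c ((s : H) * h₀) ((s : H) * h₁) ((s : H) * h₂) =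
      (s : H) • ob_hom₂ D x₀ c h₀ h₁ h₂ := by
  simp only [ob_hom₂]
  have e1 : ((s : H) * h₀)⁻¹ * ((s : H) * h₁) = h₀⁻¹ * h₁ := by group
  have e2 : ((s : H) * h₁)⁻¹ * ((s : H) * h₂) = h₁⁻¹ * h₂ := by group
  rw [e1, e2, mul_smul]
  exact (D.smul_π_stab x₀ s _).symm

end Inj

/-- bookkeeping for the prism homotopy in degree `2` -/
theorem ob_abel_aux₂ {P : Type*} [AddCommGroup P]
    (A1 A0 A2 r012 h0r1r2 h0r0r2 h0r0r1 h1r1r2 h0h1r2 h0h1r1 h1h2r2 h0h2r2 h0h1h2 : P)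
    (E1 : h1h2r2 - h0h2r2 + h0h1r2 - h0h1h2 = 0)
    (E2 : h1r1r2 - h0r1r2 + h0h1r2 - h0h1r1 = 0)
    (E3 : r012 - h0r1r2 + h0r0r2 - h0r0r1 = 0)
    (E4 : A1 - A0 + A2 = r012) :
    (A1 - h1r1r2 + h1h2r2) - (A0 - h0r0r2 + h0h2r2) + (A2 - h0r0r1 + h0h1r1) = h0h1h2 := by
  rw [← sub_eq_zero]
  have h : (A1 - h1r1r2 + h1h2r2) - (A0 - h0r0r2 + h0h2r2) + (A2 - h0r0r1 + h0h1r1) - h0h1h2 =
      (A1 - A0 + A2 - r012) + (r012 - h0r1r2 + h0r0r2 - h0r0r1)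
        - (h1r1r2 - h0r1r2 + h0h1r2 - h0h1r1) + (h1h2r2 - h0h2r2 + h0h1r2 - h0h1h2) := by
    abel
  rw [h, E1, E2, E3, sub_eq_zero.mpr E4]
  simp

section Inj2

variable {H : Type*} [Group H] {X : Type*} [MulAction H X] [Fintype X]
variable {P : Type*} [AddCommGroup P] [DistribMulAction H P]

/-- the primitive on the homogeneous level: `ã = r^* a₀ - k b̃` -/
noncomputable def ob_prim₂ (D : ob_Decomp H X P) (x₀ : X) (c : H × H → P)
    (b₀ : ↥(MulAction.stabilizer H x₀) → P) (h₀ h₁ : H) : P :=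
  (ob_r H x₀ h₀ : H) • b₀ ((ob_r H x₀ h₀)⁻¹ * ob_r H x₀ h₁)
    - ob_hom₂ D x₀ c h₀ (ob_r H x₀ h₀ : H) (ob_r H x₀ h₁ : H)
    + ob_hom₂ D x₀ c h₀ h₁ (ob_r H x₀ h₁ : H)

/-- the coboundary of `a₀(s₀,s₁) = s₀ • b₀(s₀⁻¹ s₁)` is the restriction of `b̃` -/
theorem ob_hom_d_a₀ (D : ob_Decomp H X P) (x₀ : X) (c : H × H → P)
    (b₀ : ↥(MulAction.stabilizer H x₀) → P)
    (hb₀ : ∀ s s' : ↥(MulAction.stabilizer H x₀),
      s • b₀ s' - b₀ (s * s') + b₀ s = D.π x₀ (c ((s : H), (s' : H))))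
    (s₀ s₁ s₂ : ↥(MulAction.stabilizer H x₀)) :
    (s₁ : H) • b₀ (s₁⁻¹ * s₂) - (s₀ : H) • b₀ (s₀⁻¹ * s₂) + (s₀ : H) • b₀ (s₀⁻¹ * s₁) =
      ob_hom₂ D x₀ c (s₀ : H) (s₁ : H) (s₂ : H) := by
  have h := hb₀ (s₀⁻¹ * s₁) (s₁⁻¹ * s₂)
  have e1 : s₀⁻¹ * s₁ * (s₁⁻¹ * s₂) = s₀⁻¹ * s₂ := by group
  rw [e1] at h
  have h' := congrArg (fun m => (s₀ : H) • m) h
  simp only [smul_add, smul_sub, Subgroup.smul_def, smul_smul] at h'
  have e2 : (s₀ : H) * ((s₀⁻¹ * s₁ : ↥(MulAction.stabilizer H x₀)) : H) = (s₁ : H) := by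
    push_cast; group
  rw [e2] at h'
  simp only [ob_hom₂]
  rw [h']
  have := D.smul_π_stab x₀ s₀ (c (((s₀⁻¹ * s₁ : ↥(MulAction.stabilizer H x₀)) : H),
    ((s₁⁻¹ * s₂ : ↥(MulAction.stabilizer H x₀)) : H)))
  rw [Subgroup.smul_def, Subgroup.smul_def] at this
  rw [this]
  push_cast
  rfl

/-- **the prism homotopy identity**: `d ã = b̃` -/
theorem ob_d_prim₂ (D : ob_Decomp H X P) (x₀ : X) {c : H × H → P} (hc : IsCocycle₂ c)
    (b₀ : ↥(MulAction.stabilizer H x₀) → P)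
    (hb₀ : ∀ s s' : ↥(MulAction.stabilizer H x₀),
      s • b₀ s' - b₀ (s * s') + b₀ s = D.π x₀ (c ((s : H), (s' : H))))
    (h₀ h₁ h₂ : H) :
    ob_prim₂ D x₀ c b₀ h₁ h₂ - ob_prim₂ D x₀ c b₀ h₀ h₂ + ob_prim₂ D x₀ c b₀ h₀ h₁ =
      ob_hom₂ D x₀ c h₀ h₁ h₂ := by
  have E1 := ob_hom₂_cocycle D x₀ hc h₀ h₁ h₂ (ob_r H x₀ h₂ : H)
  have E2 := ob_hom₂_cocycle D x₀ hc h₀ h₁ (ob_r H x₀ h₁ : H) (ob_r H x₀ h₂ : H)
  have E3 := ob_hom₂_cocycle D x₀ hc h₀ (ob_r H x₀ h₀ : H) (ob_r H x₀ h₁ : H) (ob_r H x₀ h₂ : H)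
  have E4 := ob_hom_d_a₀ D x₀ c b₀ hb₀ (ob_r H x₀ h₀) (ob_r H x₀ h₁) (ob_r H x₀ h₂)
  simp only [ob_prim₂]
  exact ob_abel_aux₂ _ _ _ _ _ _ _ _ _ _ _ _ _ E1 E2 E3 E4

end Inj2

section Inj3

variable {H : Type*} [Group H] {X : Type*} [MulAction H X] [Fintype X]
variable {P : Type*} [AddCommGroup P] [DistribMulAction H P]

theorem ob_prim₂_smul (D : ob_Decomp H X P) (x₀ : X) (c : H × H → P)
    (b₀ : ↥(MulAction.stabilizer H x₀) → P) (s : ↥(MulAction.stabilizer H x₀)) (h₀ h₁ : H) :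
    ob_prim₂ D x₀ c b₀ ((s : H) * h₀) ((s : H) * h₁) = (s : H) • ob_prim₂ D x₀ c b₀ h₀ h₁ := by
  simp only [ob_prim₂, ob_r_mul, smul_add, smul_sub, Subgroup.coe_mul, ob_hom₂_smul, mul_smul]
  have e : (s * ob_r H x₀ h₀)⁻¹ * (s * ob_r H x₀ h₁) = (ob_r H x₀ h₀)⁻¹ * ob_r H x₀ h₁ := by
    group
  rw [e]

/-- sums over the orbit of the components recover an element supported on the orbit -/
theorem ob_Decomp.sum_orb (D : ob_Decomp H X P) (x₀ : X) (m : P)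
    (hm : ∀ y, y ∉ ob_orb H x₀ → D.π y m = 0) : ∑ x ∈ ob_orb H x₀, D.π x m = m := by
  conv_rhs => rw [← D.sum_eq m]
  exact Finset.sum_subset (Finset.subset_univ _) (fun y _ hy => hm y hy)

theorem ob_Decomp.tau_smul_π (D : ob_Decomp H X P) {x₀ x : X} (hx : x ∈ ob_orb H x₀) (m : P) :
    ob_tau H x₀ x • D.π x₀ ((ob_tau H x₀ x)⁻¹ • m) = D.π x m := by
  rw [D.smul_π, ob_tau_smul hx, smul_inv_smul]

/-- the `P`-valued homogeneous primitive -/
noncomputable def ob_primP (D : ob_Decomp H X P) (x₀ : X) (c : H × H → P)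
    (b₀ : ↥(MulAction.stabilizer H x₀) → P) (h₀ h₁ : H) : P :=
  ∑ x ∈ ob_orb H x₀, ob_tau H x₀ x •
    ob_prim₂ D x₀ c b₀ ((ob_tau H x₀ x)⁻¹ * h₀) ((ob_tau H x₀ x)⁻¹ * h₁)

theorem ob_primP_smul (D : ob_Decomp H X P) (x₀ : X) (c : H × H → P)
    (b₀ : ↥(MulAction.stabilizer H x₀) → P) (g h₀ h₁ : H) :
    ob_primP D x₀ c b₀ (g * h₀) (g * h₁) = g • ob_primP D x₀ c b₀ h₀ h₁ := by
  simp only [ob_primP]
  rw [ob_smul_sum_tau x₀ g (fun y => ob_prim₂ D x₀ c b₀ ((ob_tau H x₀ y)⁻¹ * h₀)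
    ((ob_tau H x₀ y)⁻¹ * h₁))]
  refine Finset.sum_congr rfl fun x hx => ?_
  rw [← ob_prim₂_smul, ob_sig_coe hx]
  congr 2 <;> group

/-- **Injectivity of Shapiro's map in degree `2`, cocycle level**: a `2`-cocycle of `H` with values
in `P`, supported on the orbit of `x₀`, whose localisation at `x₀` is a coboundary on the
stabiliser of `x₀`, is a coboundary. -/
theorem ob_isCoboundary₂_of_loc (D : ob_Decomp H X P) (x₀ : X) {c : H × H → P}
    (hc : IsCocycle₂ c) (hsupp : ∀ y, y ∉ ob_orb H x₀ → ∀ p, D.π y (c p) = 0)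
    (b₀ : ↥(MulAction.stabilizer H x₀) → P)
    (hb₀ : ∀ s s' : ↥(MulAction.stabilizer H x₀),
      s • b₀ s' - b₀ (s * s') + b₀ s = D.π x₀ (c ((s : H), (s' : H)))) :
    IsCoboundary₂ c := by
  refine ⟨fun g => ob_primP D x₀ c b₀ 1 g, fun g h => ?_⟩
  have h1 : g • ob_primP D x₀ c b₀ 1 h = ob_primP D x₀ c b₀ g (g * h) := by
    rw [← ob_primP_smul, mul_one]
  rw [h1]
  simp only [ob_primP]
  rw [← Finset.sum_sub_distrib, ← Finset.sum_add_distrib]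
  rw [← D.sum_orb x₀ (c (g, h)) (fun y hy => hsupp y hy _)]
  refine Finset.sum_congr rfl fun x hx => ?_
  rw [← smul_sub, ← smul_add, mul_one, ← mul_assoc,
    ob_d_prim₂ D x₀ hc b₀ hb₀ (ob_tau H x₀ x)⁻¹ ((ob_tau H x₀ x)⁻¹ * g)
      ((ob_tau H x₀ x)⁻¹ * g * h)]
  simp only [ob_hom₂]
  have e1 : ((ob_tau H x₀ x)⁻¹)⁻¹ * ((ob_tau H x₀ x)⁻¹ * g) = g := by group
  have e2 : ((ob_tau H x₀ x)⁻¹ * g)⁻¹ * ((ob_tau H x₀ x)⁻¹ * g * h) = h := by group
  rw [e1, e2, D.tau_smul_π hx]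

end Inj3

section InjOne

variable {H : Type*} [Group H] {X : Type*} [MulAction H X] [Fintype X]
variable {P : Type*} [AddCommGroup P] [DistribMulAction H P]

/-- the homogeneous, `P_{x₀}`-valued form of an inhomogeneous `1`-cochain -/
def ob_hom₁ (D : ob_Decomp H X P) (x₀ : X) (c : H → P) (h₀ h₁ : H) : P :=
  D.π x₀ (h₀ • c (h₀⁻¹ * h₁))

theorem ob_hom₁_cocycle (D : ob_Decomp H X P) (x₀ : X) {c : H → P} (hc : IsCocycle₁ c)
    (h₀ h₁ h₂ : H) :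
    ob_hom₁ D x₀ c h₁ h₂ - ob_hom₁ D x₀ c h₀ h₂ + ob_hom₁ D x₀ c h₀ h₁ = 0 := by
  have h := hc (h₀⁻¹ * h₁) (h₁⁻¹ * h₂)
  have e1 : h₀⁻¹ * h₁ * (h₁⁻¹ * h₂) = h₀⁻¹ * h₂ := by group
  rw [e1] at h
  have h' := congrArg (fun m => D.π x₀ (h₀ • m)) h
  simp only [smul_add, map_add, smul_smul, mul_inv_cancel_left] at h'
  simp only [ob_hom₁]
  rw [h']
  abel

theorem ob_hom₁_smul (D : ob_Decomp H X P) (x₀ : X) (c : H → P)
    (s : ↥(MulAction.stabilizer H x₀)) (h₀ h₁ : H) :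
    ob_hom₁ D x₀ c ((s : H) * h₀) ((s : H) * h₁) = (s : H) • ob_hom₁ D x₀ c h₀ h₁ := by
  simp only [ob_hom₁]
  have e1 : ((s : H) * h₀)⁻¹ * ((s : H) * h₁) = h₀⁻¹ * h₁ := by group
  rw [e1, mul_smul]
  exact (D.smul_π_stab x₀ s _).symm

noncomputable def ob_prim₁ (D : ob_Decomp H X P) (x₀ : X) (c : H → P) (m₀ : P) (h₀ : H) : P :=
  (ob_r H x₀ h₀ : H) • m₀ - ob_hom₁ D x₀ c h₀ (ob_r H x₀ h₀ : H)

theorem ob_hom_d_m₀ (D : ob_Decomp H X P) (x₀ : X) (c : H → P) (m₀ : P)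
    (hm₀ : ∀ s : ↥(MulAction.stabilizer H x₀), s • m₀ - m₀ = D.π x₀ (c (s : H)))
    (s₀ s₁ : ↥(MulAction.stabilizer H x₀)) :
    (s₁ : H) • m₀ - (s₀ : H) • m₀ = ob_hom₁ D x₀ c (s₀ : H) (s₁ : H) := by
  have h := hm₀ (s₀⁻¹ * s₁)
  have h' := congrArg (fun m => (s₀ : H) • m) h
  simp only [smul_sub, Subgroup.smul_def, smul_smul] at h'
  have e2 : (s₀ : H) * ((s₀⁻¹ * s₁ : ↥(MulAction.stabilizer H x₀)) : H) = (s₁ : H) := by
    push_cast; group
  rw [e2] at h'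
  simp only [ob_hom₁]
  rw [h']
  have := D.smul_π_stab x₀ s₀ (c ((s₀⁻¹ * s₁ : ↥(MulAction.stabilizer H x₀)) : H))
  rw [Subgroup.smul_def, Subgroup.smul_def] at this
  rw [this]
  push_cast
  rfl

theorem ob_d_prim₁ (D : ob_Decomp H X P) (x₀ : X) {c : H → P} (hc : IsCocycle₁ c) (m₀ : P)
    (hm₀ : ∀ s : ↥(MulAction.stabilizer H x₀), s • m₀ - m₀ = D.π x₀ (c (s : H)))
    (h₀ h₁ : H) :
    ob_prim₁ D x₀ c m₀ h₁ - ob_prim₁ D x₀ c m₀ h₀ = ob_hom₁ D x₀ c h₀ h₁ := by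
  have E1 := ob_hom₁_cocycle D x₀ hc h₀ h₁ (ob_r H x₀ h₁ : H)
  have E2 := ob_hom₁_cocycle D x₀ hc h₀ (ob_r H x₀ h₀ : H) (ob_r H x₀ h₁ : H)
  have E4 := ob_hom_d_m₀ D x₀ c m₀ hm₀ (ob_r H x₀ h₀) (ob_r H x₀ h₁)
  simp only [ob_prim₁]
  rw [← sub_eq_zero]
  have h : ∀ (A1 A0 r01 h1r1 h0r1 h0h1 h0r0 : P), (A1 - h1r1) - (A0 - h0r0) - h0h1 =
      (A1 - A0 - r01) + (r01 - h0r1 + h0r0) - (h1r1 - h0r1 + h0h1) := by
    intros; abel
  rw [h _ _ (ob_hom₁ D x₀ c (ob_r H x₀ h₀ : H) (ob_r H x₀ h₁ : H)) _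
    (ob_hom₁ D x₀ c h₀ (ob_r H x₀ h₁ : H)), E1, E2, sub_eq_zero.mpr E4]
  simp

theorem ob_prim₁_smul (D : ob_Decomp H X P) (x₀ : X) (c : H → P) (m₀ : P)
    (s : ↥(MulAction.stabilizer H x₀)) (h₀ : H) :
    ob_prim₁ D x₀ c m₀ ((s : H) * h₀) = (s : H) • ob_prim₁ D x₀ c m₀ h₀ := by
  simp only [ob_prim₁, ob_r_mul, smul_sub, Subgroup.coe_mul, ob_hom₁_smul, mul_smul]

/-- **Injectivity of Shapiro's map in degree `1`, cocycle level.** -/
theorem ob_isCoboundary₁_of_loc (D : ob_Decomp H X P) (x₀ : X) {c : H → P}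
    (hc : IsCocycle₁ c) (hsupp : ∀ y, y ∉ ob_orb H x₀ → ∀ g, D.π y (c g) = 0) (m₀ : P)
    (hm₀ : ∀ s : ↥(MulAction.stabilizer H x₀), s • m₀ - m₀ = D.π x₀ (c (s : H))) :
    IsCoboundary₁ c := by
  refine ⟨∑ x ∈ ob_orb H x₀, ob_tau H x₀ x • ob_prim₁ D x₀ c m₀ ((ob_tau H x₀ x)⁻¹), fun g => ?_⟩
  rw [ob_smul_sum_tau x₀ g (fun y => ob_prim₁ D x₀ c m₀ ((ob_tau H x₀ y)⁻¹)),
    ← Finset.sum_sub_distrib, ← D.sum_orb x₀ (c g) (fun y hy => hsupp y hy _)]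
  refine Finset.sum_congr rfl fun x hx => ?_
  rw [← smul_sub, ← ob_prim₁_smul, ob_sig_coe hx]
  have e0 : (ob_tau H x₀ x)⁻¹ * g * ob_tau H x₀ (g⁻¹ • x) * (ob_tau H x₀ (g⁻¹ • x))⁻¹ =
      (ob_tau H x₀ x)⁻¹ * g := by group
  rw [e0, ob_d_prim₁ D x₀ hc m₀ hm₀]
  simp only [ob_hom₁]
  have e1 : ((ob_tau H x₀ x)⁻¹)⁻¹ * ((ob_tau H x₀ x)⁻¹ * g) = g := by group
  rw [e1, D.tau_smul_π hx]

end InjOne

section CoindOne

variable {H : Type*} [Group H] {X : Type*} [MulAction H X] [Fintype X]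
variable {P : Type*} [AddCommGroup P] [DistribMulAction H P]

theorem ob_isCoboundary₁_coind₁ (x₀ : X) {b₀ : ↥(MulAction.stabilizer H x₀) → P}
    (hb₀ : IsCoboundary₁ b₀) : IsCoboundary₁ (ob_coind₁ x₀ b₀) := by
  obtain ⟨m₀, hm₀⟩ := hb₀
  refine ⟨∑ x ∈ ob_orb H x₀, ob_tau H x₀ x • m₀, fun g => ?_⟩
  rw [ob_smul_sum_tau x₀ g (fun _ => m₀), ← Finset.sum_sub_distrib]
  simp only [ob_coind₁]
  refine Finset.sum_congr rfl fun x _ => ?_
  rw [← smul_sub, ← hm₀, Subgroup.smul_def]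

end CoindOne

section AllOrbits

variable {H : Type*} [Group H] {X : Type*} [MulAction H X] [Fintype X]
variable {P : Type*} [AddCommGroup P] [DistribMulAction H P]

/-- the `H`-equivariant projector onto the part of `P` supported on the orbit of `x₀` -/
noncomputable def ob_Decomp.orbProj (D : ob_Decomp H X P) (x₀ : X) : P →+ P :=
  ∑ x ∈ ob_orb H x₀, D.π x

theorem ob_Decomp.orbProj_apply (D : ob_Decomp H X P) (x₀ : X) (m : P) :
    D.orbProj x₀ m = ∑ x ∈ ob_orb H x₀, D.π x m := by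
  simp [ob_Decomp.orbProj]

theorem ob_Decomp.smul_orbProj (D : ob_Decomp H X P) (x₀ : X) (g : H) (m : P) :
    g • D.orbProj x₀ m = D.orbProj x₀ (g • m) := by
  rw [D.orbProj_apply, D.orbProj_apply, Finset.smul_sum,
    ← ob_sum_smul x₀ g (fun x => D.π x (g • m))]
  exact Finset.sum_congr rfl fun x _ => D.smul_π g x m

theorem ob_Decomp.π_orbProj (D : ob_Decomp H X P) (x₀ : X) {y : X} (hy : y ∈ ob_orb H x₀)
    (m : P) : D.π y (D.orbProj x₀ m) = D.π y m := by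
  rw [D.orbProj_apply, map_sum, Finset.sum_eq_single y]
  · exact D.idem y m
  · intro x _ hne; exact D.orth y x m hne.symm
  · intro h; exact absurd hy h

theorem ob_Decomp.π_orbProj_of_notMem (D : ob_Decomp H X P) (x₀ : X) {y : X}
    (hy : y ∉ ob_orb H x₀) (m : P) : D.π y (D.orbProj x₀ m) = 0 := by
  rw [D.orbProj_apply, map_sum]
  exact Finset.sum_eq_zero fun x hx => D.orth y x m (fun h : y = x => hy (h ▸ hx))

theorem ob_isCocycle₂_orbProj (D : ob_Decomp H X P) (x₀ : X) {c : H × H → P}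
    (hc : IsCocycle₂ c) : IsCocycle₂ (fun p => D.orbProj x₀ (c p)) := by
  intro g h j
  have := congrArg (D.orbProj x₀) (hc g h j)
  simp only [map_add] at this
  rw [this, D.smul_orbProj]

theorem ob_isCocycle₁_orbProj (D : ob_Decomp H X P) (x₀ : X) {c : H → P}
    (hc : IsCocycle₁ c) : IsCocycle₁ (fun g => D.orbProj x₀ (c g)) := by
  intro g h
  have := congrArg (D.orbProj x₀) (hc g h)
  simp only [map_add] at this
  show D.orbProj x₀ (c (g * h)) = g • D.orbProj x₀ (c h) + D.orbProj x₀ (c g)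
  rw [this, D.smul_orbProj]

/-- the part of a cocycle supported on one orbit is a coboundary as soon as its localisation at
one point of the orbit is -/
theorem ob_isCoboundary₂_orbProj (D : ob_Decomp H X P) (x₀ : X) {c : H × H → P}
    (hc : IsCocycle₂ c) (b₀ : ↥(MulAction.stabilizer H x₀) → P)
    (hb₀ : ∀ s s' : ↥(MulAction.stabilizer H x₀),
      s • b₀ s' - b₀ (s * s') + b₀ s = D.π x₀ (c ((s : H), (s' : H)))) :
    IsCoboundary₂ (fun p => D.orbProj x₀ (c p)) := by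
  refine ob_isCoboundary₂_of_loc D x₀ (ob_isCocycle₂_orbProj D x₀ hc)
    (fun y hy p => D.π_orbProj_of_notMem x₀ hy _) b₀ (fun s s' => ?_)
  rw [hb₀, D.π_orbProj x₀ (ob_self_mem_orb x₀)]

theorem ob_isCoboundary₁_orbProj (D : ob_Decomp H X P) (x₀ : X) {c : H → P}
    (hc : IsCocycle₁ c) (m₀ : P)
    (hm₀ : ∀ s : ↥(MulAction.stabilizer H x₀), s • m₀ - m₀ = D.π x₀ (c (s : H))) :
    IsCoboundary₁ (fun g => D.orbProj x₀ (c g)) := by
  refine ob_isCoboundary₁_of_loc D x₀ (ob_isCocycle₁_orbProj D x₀ hc)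
    (fun y hy g => D.π_orbProj_of_notMem x₀ hy _) m₀ (fun s => ?_)
  rw [hm₀, D.π_orbProj x₀ (ob_self_mem_orb x₀)]

open scoped Classical in
/-- decomposition of an element along the orbits -/
theorem ob_Decomp.sum_orbProj (D : ob_Decomp H X P) (m : P) :
    ∑ ω : MulAction.orbitRel.Quotient H X, D.orbProj ω.out m = m := by
  classical
  conv_rhs => rw [← D.sum_eq m]
  rw [← Finset.sum_fiberwise (s := Finset.univ) (g := fun x => (⟦x⟧ : MulAction.orbitRel.Quotient H X))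
    (f := fun x => D.π x m)]
  refine Finset.sum_congr rfl fun ω _ => ?_
  rw [D.orbProj_apply]
  refine Finset.sum_congr ?_ fun _ _ => rfl
  ext x
  rw [ob_mem_orb, Finset.mem_filter]
  constructor
  · intro hx
    refine ⟨Finset.mem_univ _, ?_⟩
    have : (⟦x⟧ : MulAction.orbitRel.Quotient H X) = ⟦ω.out⟧ :=
      Quotient.sound ((MulAction.orbitRel_apply (G := H)).mpr hx)
    rw [this, Quotient.out_eq]
  · rintro ⟨-, hx⟩
    have h2 : (⟦x⟧ : MulAction.orbitRel.Quotient H X) = ⟦ω.out⟧ := by rw [hx, Quotient.out_eq]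
    exact (MulAction.orbitRel_apply (G := H)).mp (Quotient.exact h2)

theorem ob_isCoboundary₂_sum {G A ι : Type*} [Group G] [AddCommGroup A] [DistribMulAction G A]
    (s : Finset ι) (f : ι → G × G → A) (h : ∀ i ∈ s, IsCoboundary₂ (f i)) :
    IsCoboundary₂ (fun p => ∑ i ∈ s, f i p) := by
  classical
  induction s using Finset.induction_on with
  | empty => exact ⟨0, fun g h => by simp⟩
  | insert a s ha ih =>
    obtain ⟨b₁, hb₁⟩ := h a (Finset.mem_insert_self _ _)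
    obtain ⟨b₂, hb₂⟩ := ih (fun i hi => h i (Finset.mem_insert_of_mem hi))
    refine ⟨b₁ + b₂, fun g h => ?_⟩
    simp only [Pi.add_apply, smul_add, Finset.sum_insert ha, ← hb₁, ← hb₂]
    abel

theorem ob_isCoboundary₁_sum {G A ι : Type*} [Group G] [AddCommGroup A] [DistribMulAction G A]
    (s : Finset ι) (f : ι → G → A) (h : ∀ i ∈ s, IsCoboundary₁ (f i)) :
    IsCoboundary₁ (fun g => ∑ i ∈ s, f i g) := by
  classical
  induction s using Finset.induction_on with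
  | empty => exact ⟨0, fun g => by simp⟩
  | insert a s ha ih =>
    obtain ⟨b₁, hb₁⟩ := h a (Finset.mem_insert_self _ _)
    obtain ⟨b₂, hb₂⟩ := ih (fun i hi => h i (Finset.mem_insert_of_mem hi))
    refine ⟨b₁ + b₂, fun g => ?_⟩
    simp only [smul_add, Finset.sum_insert ha, ← hb₁, ← hb₂]
    abel

open scoped Classical in
/-- **Hasse principle for a finite product, degree `2`**: a `2`-cocycle of `H` with values in
`P = ∏_x P_x` whose localisation at every `x` (restriction to the stabiliser, projection to `P_x`)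
is a coboundary is a coboundary.  (It suffices to know this for the points `ω.out`, one per
orbit.) -/
theorem ob_isCoboundary₂_of_loc_all (D : ob_Decomp H X P) {c : H × H → P} (hc : IsCocycle₂ c)
    (h : ∀ ω : MulAction.orbitRel.Quotient H X,
      ∃ b₀ : ↥(MulAction.stabilizer H ω.out) → P, ∀ s s' : ↥(MulAction.stabilizer H ω.out),
        s • b₀ s' - b₀ (s * s') + b₀ s = D.π ω.out (c ((s : H), (s' : H)))) :
    IsCoboundary₂ c := by
  classical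
  have h1 := ob_isCoboundary₂_sum (Finset.univ : Finset (MulAction.orbitRel.Quotient H X))
    (fun ω p => D.orbProj ω.out (c p)) (fun ω _ => by
      obtain ⟨b₀, hb₀⟩ := h ω
      exact ob_isCoboundary₂_orbProj D ω.out hc b₀ hb₀)
  have h2 : (fun p => ∑ ω : MulAction.orbitRel.Quotient H X, D.orbProj ω.out (c p)) = c := by
    funext p; exact D.sum_orbProj (c p)
  rwa [h2] at h1

open scoped Classical in
/-- **Hasse principle for a finite product, degree `1`.** -/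
theorem ob_isCoboundary₁_of_loc_all (D : ob_Decomp H X P) {c : H → P} (hc : IsCocycle₁ c)
    (h : ∀ ω : MulAction.orbitRel.Quotient H X,
      ∃ m₀ : P, ∀ s : ↥(MulAction.stabilizer H ω.out), s • m₀ - m₀ = D.π ω.out (c (s : H))) :
    IsCoboundary₁ c := by
  classical
  have h1 := ob_isCoboundary₁_sum (Finset.univ : Finset (MulAction.orbitRel.Quotient H X))
    (fun ω g => D.orbProj ω.out (c g)) (fun ω _ => by
      obtain ⟨m₀, hm₀⟩ := h ω
      exact ob_isCoboundary₁_orbProj D ω.out hc m₀ hm₀)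
  have h2 : (fun g => ∑ ω : MulAction.orbitRel.Quotient H X, D.orbProj ω.out (c g)) = c := by
    funext g; exact D.sum_orbProj (c g)
  rwa [h2] at h1

end AllOrbits

end Fermat.Agent.S55
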