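import Fermat.Agent.S55.Recip.TotalInv
import Fermat.Agent.S55.Tate.Reciprocity

/-!
# Local components of the classes `x ∪ δχ`

For the local data `𝔻 : rc_InvData p J Q`, the component (`rc_comp`) of the class
`x ∪ δχ ∈ H²(H, J)` (`x` an `H`-invariant element, `χ` a character of `H`) at the place
`g · (chosen place over q)` is `pr_q (g⁻¹ x) ∪ δ(χ^g |_{D'})`, and the local term (`rc_term`) is the
local reciprocity pairing of the layer `D' = g⁻¹ H g ∩ D q`.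
-/

set_option autoImplicit false
set_option linter.unusedSectionVars false

namespace Fermat.Agent.S55

open CategoryTheory groupCohomology

noncomputable section

/-- the image of an invariant element under a morphism of pairs is invariant -/
lemma rcp_inv_map {G H : Type} [Group G] [Group H] (f : H →* G) {C : Rep.{0} ℤ G}
    {C' : Rep.{0} ℤ H} (φ : Rep.res f C ⟶ C') {c : C.V} (hc : ∀ g, C.ρ g c = c) (h : H) :
    C'.ρ h (φ.hom c) = φ.hom c := by
  have h1 := Rep.hom_comm_apply φ h c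
  have h2 : (Rep.res f C).ρ h c = C.ρ (f h) c := rfl
  rw [h2, hc] at h1
  exact h1.symm

/-- `rcp_class_map` with the invariance of the image supplied automatically -/
theorem rcp_class_map' {G H : Type} [Group G] [Group H] (f : H →* G) {C : Rep.{0} ℤ G}
    {C' : Rep.{0} ℤ H} (φ : Rep.res f C ⟶ C') (c : C.V) (hc : ∀ g, C.ρ g c = c)
    (χ : Additive G →+ tt_QZ) :
    (groupCohomology.map f φ 2).hom (rcp_class C c hc χ) =
      rcp_class C' (φ.hom c) (rcp_inv_map f φ hc) (χ.comp (MonoidHom.toAdditive f)) :=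
  rcp_class_map f φ c hc (rcp_inv_map f φ hc) χ

section comp

variable {Γ : Type} [Group Γ] {p : ℕ} {J : Rep.{0} ℤ Γ} {Q : Type} (𝔻 : rc_InvData p J Q)

/-- the homomorphism `g⁻¹ H g ∩ D q → H`, `d ↦ g d g⁻¹` -/
def rcp_compHom (q : Q) (H : Subgroup Γ) (g : Γ) :
    ↥((rc_conj g H).subgroupOf (𝔻.D q)) →* ↥H :=
  (rc_cjHom g (rc_conj_spec g H)).comp (rc_locHom (𝔻.D q) (rc_conj g H))

lemma rcp_compHom_coe (q : Q) (H : Subgroup Γ) (g : Γ)
    (d : ↥((rc_conj g H).subgroupOf (𝔻.D q))) :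
    ((rcp_compHom 𝔻 q H g d : ↥H) : Γ) = g * ((d : ↥(𝔻.D q)) : Γ) * g⁻¹ := rfl

/-- the character `χ^g` restricted to `g⁻¹ H g ∩ D q` -/
def rcp_compChar (q : Q) (H : Subgroup Γ) (g : Γ) (χ : Additive ↥H →+ tt_QZ) :
    Additive ↥((rc_conj g H).subgroupOf (𝔻.D q)) →+ tt_QZ :=
  χ.comp (MonoidHom.toAdditive (rcp_compHom 𝔻 q H g))

lemma rcp_compChar_apply (q : Q) (H : Subgroup Γ) (g : Γ) (χ : Additive ↥H →+ tt_QZ)
    (d : ↥((rc_conj g H).subgroupOf (𝔻.D q))) :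
    rcp_compChar 𝔻 q H g χ (Additive.ofMul d) = χ (Additive.ofMul (rcp_compHom 𝔻 q H g d)) := rfl

/-- the local component `pr_q (g⁻¹ x)` of an `H`-invariant element is invariant under
`g⁻¹ H g ∩ D q` -/
lemma rcp_comp_inv (q : Q) (H : Subgroup Γ) (g : Γ) {x : J.V}
    (hx : ∀ h : ↥H, (tt_res H J).ρ h x = x) (d : ↥((rc_conj g H).subgroupOf (𝔻.D q))) :
    (tt_res ((rc_conj g H).subgroupOf (𝔻.D q)) (𝔻.X q)).ρ d ((𝔻.pr q).hom (J.ρ g⁻¹ x)) =
      (𝔻.pr q).hom (J.ρ g⁻¹ x) :=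
  rcp_inv_map (rc_locHom (𝔻.D q) (rc_conj g H)) (rc_locMor (𝔻.pr q) (rc_conj g H))
    (c := J.ρ g⁻¹ x)
    (rcp_inv_map (rc_cjHom g (rc_conj_spec g H)) (rc_cjMor J g (rc_conj_spec g H)) hx) d

/-- **The local component of `x ∪ δχ`.** -/
theorem rcp_comp_class (q : Q) (H : Subgroup Γ) (g : Γ) (x : J.V)
    (hx : ∀ h : ↥H, (tt_res H J).ρ h x = x) (χ : Additive ↥H →+ tt_QZ) :
    rc_comp 𝔻 q H g (rcp_class (tt_res H J) x hx χ) =
      rcp_class (tt_res ((rc_conj g H).subgroupOf (𝔻.D q)) (𝔻.X q))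
        ((𝔻.pr q).hom (J.ρ g⁻¹ x)) (rcp_comp_inv 𝔻 q H g hx) (rcp_compChar 𝔻 q H g χ) := by
  show (rc_loc (𝔻.pr q) (rc_conj g H) 2).hom
    ((rc_cj J g (rc_conj_spec g H) 2).hom (rcp_class (tt_res H J) x hx χ)) = _
  unfold rc_cj rc_loc
  rw [rcp_class_map' (rc_cjHom g (rc_conj_spec g H)) (rc_cjMor J g (rc_conj_spec g H)) x hx χ,
    rcp_class_map' (rc_locHom (𝔻.D q) (rc_conj g H)) (rc_locMor (𝔻.pr q) (rc_conj g H))]
  rfl

/-- **The local term of `x ∪ δχ`** is the local reciprocity pairing on the layer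
`g⁻¹ H g ∩ D q` of the component of `x` with the conjugated character. -/
theorem rcp_term_class [Fact p.Prime] (q : Q) [Finite ↥(𝔻.D q)] (H : Subgroup Γ) (g : Γ)
    (x : J.V) (hx : ∀ h : ↥H, (tt_res H J).ρ h x = x) (χ : Additive ↥H →+ tt_QZ) :
    rc_term 𝔻 q H g (rcp_class (tt_res H J) x hx χ) =
      rcp_pair ((𝔻.P q).restrict ((rc_conj g H).subgroupOf (𝔻.D q)))
        ⟨(𝔻.pr q).hom (J.ρ g⁻¹ x), rcp_comp_inv 𝔻 q H g hx⟩ (rcp_compChar 𝔻 q H g χ) := by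
  rw [rc_term_apply, rcp_comp_class, rcp_pair_restrict]

end comp

end

end Fermat.Agent.S55
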