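import Fermat.Agent.S55.Recip.CycConcrete
import Fermat.Agent.S55.Recip.RecipPPrimary
import Fermat.Agent.S55.FinGrp.H2Torsion

/-!
# S55 / G4 (C): the reciprocity chase on a concrete tower (prefix `rc_co_`)

`M` a Galois number field with local data `𝔻` and a dictionary `𝔇`; `E ⊆ M`; two cyclic layers
`E ⊆ E' ⊆ M` (inside `E(ζ_{p^j})`, modulus `p`) and `E ⊆ Z ⊆ M` (of degree `p ^ K'`, modulus `l'`,
with an element `b' ∈ Eˣ` which is a semi-local norm at `l'` from `Z` and has trivial Artin symbol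
away from `l'`).  If the local terms of `α` at the places over `p` are those of the cyclic class
`(Z/E, b')` and if at every other place either `p ^ K'` divides the local degree of `E'/E` or both
`α` and `b'` are trivial there, then the total invariant of `α` vanishes (`rc_co_recip`).
-/

set_option autoImplicit false
set_option linter.unusedSectionVars false

open scoped NumberField Pointwise
open IsDedekindDomain CategoryTheory groupCohomology MulAction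
open Fermat.Agent.S14
open scoped IsMulCommutative

namespace Fermat.Agent.S55

noncomputable section

section core

variable {M : Type} [Field M] [NumberField M] [Finite (M ≃ₐ[ℚ] M)] {p : ℕ} [Fact p.Prime]
  {J : Rep.{0} ℤ (M ≃ₐ[ℚ] M)} {Q : Type} (𝔻 : rc_InvData p J Q) (hfin : rc_FinSupp 𝔻)
  (δ : id_KRep M ⟶ J) (𝔇 : ∀ q, rc_td_Dict 𝔻 δ q)
  {E E' Z : Type} [Field E] [NumberField E] [Field E'] [NumberField E'] [Field Z] [NumberField Z]
  [Algebra E M] [IsGalois E M]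
  [Algebra E E'] [Algebra E' M] [IsScalarTower E E' M] [IsGalois E E'] [IsMulCommutative Gal(E'/E)]
  [Algebra E Z] [Algebra Z M] [IsScalarTower E Z M] [IsGalois E Z] [IsMulCommutative Gal(Z/E)]
  {N NZ : Subgroup ↥(rc_dg_sub E M)} [N.Normal] [NZ.Normal]
  (𝔏 : rc_td_Layer E E' M (rc_dg_sub E M) N) (𝔏Z : rc_td_Layer E Z M (rc_dg_sub E M) NZ)

/-- The element of `(Mˣ)^{NZ}` attached to `b' ∈ Eˣ`. -/
def rc_co_elt (NZ : Subgroup ↥(rc_dg_sub E M)) [NZ.Normal] (b' : Eˣ) :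
    ((tt_res (rc_dg_sub E M) (id_KRep M)).quotientToInvariants NZ).V :=
  ⟨(Additive.ofMul (id_unitsMap E M b') : Additive Mˣ), fun g => by
    have hg : ((g : ↥(rc_dg_sub E M)) : M ≃ₐ[ℚ] M) ∈ rc_dg_sub E M := (g : ↥(rc_dg_sub E M)).2
    rw [rc_dg_mem_sub] at hg
    apply Additive.toMul.injective
    apply Units.ext
    exact hg (b' : E)⟩

theorem rc_co_elt_coe (b' : Eˣ) :
    ((rc_co_elt NZ b' : ((tt_res (rc_dg_sub E M) (id_KRep M)).quotientToInvariants NZ).V) :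
      (id_KRep M).V) = Additive.ofMul (id_unitsMap E M b') := rfl

theorem rc_co_elt_inv (b' : Eˣ) (σ : ↥(rc_dg_sub E M) ⧸ NZ) :
    ((tt_res (rc_dg_sub E M) (id_KRep M)).quotientToInvariants NZ).ρ σ (rc_co_elt NZ b') =
      rc_co_elt NZ b' := by
  induction σ using QuotientGroup.induction_on with
  | H g =>
    apply Subtype.ext
    have hg : ((g : ↥(rc_dg_sub E M)) : M ≃ₐ[ℚ] M) ∈ rc_dg_sub E M := g.2
    rw [rc_dg_mem_sub] at hg
    apply Additive.toMul.injective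
    apply Units.ext
    exact hg (b' : E)

/-- **The reciprocity chase on a concrete tower.** -/
theorem rc_co_recip
    (huniq : ∀ q q' (g : M ≃ₐ[ℚ] M), g • (𝔇 q).w.asIdeal = (𝔇 q').w.asIdeal → q = q')
    (hcov : ∀ R : Ideal (𝓞 M), R.IsPrime → R ≠ ⊥ →
      ∃ q, ∃ g : M ≃ₐ[ℚ] M, g • (𝔇 q).w.asIdeal = R)
    -- the modulus `p` of the layer `E'/E`
    (qp : Nat.Primes) (πp : J ⟶ id_ARep M qp) (q₀ : Q)
    (pr'p : tt_res (𝔻.D q₀) (id_ARep M qp) ⟶ 𝔻.X q₀)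
    (hfacp : (Rep.resFunctor (𝔻.D q₀).subtype).map πp ≫ pr'p = 𝔻.pr q₀)
    (hψp : ∀ y : Mˣ, (δ ≫ πp).hom (Additive.ofMul y) = Additive.ofMul (id_inclU M qp y))
    -- the modulus `l'` of the layer `Z/E`
    (ql : Nat.Primes) (πl : J ⟶ id_ARep M ql) (q₁ : Q) (hq01 : q₀ ≠ q₁)
    (pr'l : tt_res (𝔻.D q₁) (id_ARep M ql) ⟶ 𝔻.X q₁)
    (hfacl : (Rep.resFunctor (𝔻.D q₁).subtype).map πl ≫ pr'l = 𝔻.pr q₁)
    (hψl : ∀ y : Mˣ, (δ ≫ πl).hom (Additive.ofMul y) = Additive.ofMul (id_inclU M ql y))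
    -- the inputs of `rr_pp_reciprocity` on the layer `N`
    (hHasse : rr_Hasse 𝔻 (rr_up (rc_dg_sub E M) N))
    (hinj : ∀ x : groupCohomology (tt_res (rr_up (rc_dg_sub E M) N) (id_KRep M)) 2,
      tt_IsPPrimary p x → (rr_push δ (rr_up (rc_dg_sub E M) N)).hom x = 0 → x = 0)
    (hH90 : Subsingleton (groupCohomology
      (Rep.res N.subtype (tt_res (rc_dg_sub E M) (id_KRep M))) 1))
    (hSL : ∀ z : groupCohomology (tt_res (rc_dg_sub E M) J) 2,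
      (∀ g, rc_comp 𝔻 q₀ (rc_dg_sub E M) g z = 0) → (rr_push πp (rc_dg_sub E M)).hom z = 0)
    (hH90p : Subsingleton (groupCohomology
      (Rep.res N.subtype (tt_res (rc_dg_sub E M) (id_ARep M qp))) 1))
    -- the cyclic layer `E'/E` inside `C = E(ζ_{p^j})`
    [NumberField.IsTotallyComplex E]
    {C : Type} [Field C] [NumberField C] [Algebra E' C] [Algebra E C]
    [IsScalarTower E E' C] [IsGalois E C] [IsMulCommutative Gal(C/E)] {j : ℕ} (hj : 1 ≤ j)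
    [IsCyclotomicExtension {(qp : ℕ) ^ j} E C]
    {σ : ↥(rc_dg_sub E M) ⧸ N} {n : ℕ} (hn : 0 < n)
    (ho : orderOf σ = n) (hgen : ∀ g : ↥(rc_dg_sub E M) ⧸ N, g ∈ Subgroup.zpowers σ)
    (τ : ↥(rc_dg_sub E M)) (hτ : (τ : ↥(rc_dg_sub E M) ⧸ N) = σ)
    (hunr : ∀ q (g : M ≃ₐ[ℚ] M),
      (((qp : ℕ) ^ j : ℕ) : 𝓞 E) ∉ (id_under E M (g • (𝔇 q).w)).asIdeal →
      am_Unram E E' (id_under E M (g • (𝔇 q).w)).asIdeal)
    (hqm : ∀ q (g : M ≃ₐ[ℚ] M),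
      (((qp : ℕ) ^ j : ℕ) : 𝓞 E) ∈ (id_under E M (g • (𝔇 q).w)).asIdeal → q = q₀)
    (hterm : ∀ q (g : M ≃ₐ[ℚ] M) (d : ℕ)
      (f : cocycles₂ ((tt_res (rc_dg_sub E M) (id_KRep M)).quotientToInvariants N)) (x : Eˣ),
      am_Unram E E' (id_under E M (g • (𝔇 q).w)).asIdeal →
      am_frob E E' (id_under E M (g • (𝔇 q).w)).asIdeal = 𝔏.ρ τ ^ d →
      ((cy_repSum ((tt_res (rc_dg_sub E M) (id_KRep M)).quotientToInvariants N) σ n
        (f : (↥(rc_dg_sub E M) ⧸ N) × (↥(rc_dg_sub E M) ⧸ N) →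
          ((tt_res (rc_dg_sub E M) (id_KRep M)).quotientToInvariants N).V) :
        ((tt_res (rc_dg_sub E M) (id_KRep M)).quotientToInvariants N).V) : (id_KRep M).V) =
        Additive.ofMul (id_unitsMap E M x) →
      rc_term 𝔻 q (rc_dg_sub E M) g ((rr_push δ (rc_dg_sub E M)).hom
          ((ir_inf₂ (tt_res (rc_dg_sub E M) (id_KRep M)) N).hom (H2π _ f))) =
        cy_frac n ((d : ℤ) * id_ordZ E (id_under E M (g • (𝔇 q).w)) x))
    -- the cyclic layer `Z/E` of degree `p ^ K'`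
    {σZ : ↥(rc_dg_sub E M) ⧸ NZ} {K' : ℕ} (hK' : 1 ≤ K') (hoZ : orderOf σZ = p ^ K')
    (hgenZ : ∀ g : ↥(rc_dg_sub E M) ⧸ NZ, g ∈ Subgroup.zpowers σZ)
    (τZ : ↥(rc_dg_sub E M)) (hτZ : (τZ : ↥(rc_dg_sub E M) ⧸ NZ) = σZ)
    (hunrZ : ∀ q (g : M ≃ₐ[ℚ] M),
      (((ql : ℕ) : ℕ) : 𝓞 E) ∉ (id_under E M (g • (𝔇 q).w)).asIdeal →
      am_Unram E Z (id_under E M (g • (𝔇 q).w)).asIdeal)
    (hqmZ : ∀ q (g : M ≃ₐ[ℚ] M),
      (((ql : ℕ) : ℕ) : 𝓞 E) ∈ (id_under E M (g • (𝔇 q).w)).asIdeal → q = q₁)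
    (htermZ : ∀ q (g : M ≃ₐ[ℚ] M) (d : ℕ)
      (f : cocycles₂ ((tt_res (rc_dg_sub E M) (id_KRep M)).quotientToInvariants NZ)) (x : Eˣ),
      am_Unram E Z (id_under E M (g • (𝔇 q).w)).asIdeal →
      am_frob E Z (id_under E M (g • (𝔇 q).w)).asIdeal = 𝔏Z.ρ τZ ^ d →
      ((cy_repSum ((tt_res (rc_dg_sub E M) (id_KRep M)).quotientToInvariants NZ) σZ (p ^ K')
        (f : (↥(rc_dg_sub E M) ⧸ NZ) × (↥(rc_dg_sub E M) ⧸ NZ) →
          ((tt_res (rc_dg_sub E M) (id_KRep M)).quotientToInvariants NZ).V) :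
        ((tt_res (rc_dg_sub E M) (id_KRep M)).quotientToInvariants NZ).V) : (id_KRep M).V) =
        Additive.ofMul (id_unitsMap E M x) →
      rc_term 𝔻 q (rc_dg_sub E M) g ((rr_push δ (rc_dg_sub E M)).hom
          ((ir_inf₂ (tt_res (rc_dg_sub E M) (id_KRep M)) NZ).hom (H2π _ f))) =
        cy_frac (p ^ K') ((d : ℤ) * id_ordZ E (id_under E M (g • (𝔇 q).w)) x))
    -- the element `b'`
    (b' : Eˣ)
    (hnormb : ∃ bb : ((tt_res (rc_dg_sub E M) (id_ARep M ql)).quotientToInvariants NZ).V,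
      ((cy_repNorm ((tt_res (rc_dg_sub E M) (id_ARep M ql)).quotientToInvariants NZ) σZ (p ^ K') bb :
        ((tt_res (rc_dg_sub E M) (id_ARep M ql)).quotientToInvariants NZ).V) : (id_ARep M ql).V) =
        Additive.ofMul (id_inclU M ql (id_unitsMap E M b')))
    (hsym : rc_ad_symbol E Z (ql : ℕ) b' = 1)
    -- the class `α`
    (α : groupCohomology (tt_res (rc_dg_sub E M) (id_KRep M)) 2) (hα : p ^ K' • α = 0)
    (happ : ∀ (g : M ≃ₐ[ℚ] M) (d : ℕ),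
      am_frob E Z (id_under E M (g • (𝔇 q₀).w)).asIdeal = 𝔏Z.ρ τZ ^ d →
      rc_term 𝔻 q₀ (rc_dg_sub E M) g ((rr_push δ (rc_dg_sub E M)).hom α) =
        cy_frac (p ^ K') ((d : ℤ) * id_ordZ E (id_under E M (g • (𝔇 q₀).w)) b'))
    (hout : ∀ q (g : M ≃ₐ[ℚ] M), q ≠ q₀ →
      p ^ K' ∣ rc_idx (𝔻.D q) (rr_up (rc_dg_sub E M) N) (rc_dg_sub E M) g ∨
      (rc_term 𝔻 q (rc_dg_sub E M) g ((rr_push δ (rc_dg_sub E M)).hom α) = 0 ∧ q ≠ q₁ ∧
        id_ordZ E (id_under E M (g • (𝔇 q).w)) b' = 0)) :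
    rc_INV 𝔻 hfin (rc_dg_sub E M) ((rr_push δ (rc_dg_sub E M)).hom α) = 0 := by
  classical
  have hp := (Fact.out : p.Prime)
  have hnZ : 0 < p ^ K' := pow_pos hp.pos K'
  have h1nZ : 1 < p ^ K' := Nat.one_lt_pow (by omega) hp.one_lt
  -- the cyclic class `(Z/E, b')`
  set AZ := (tt_res (rc_dg_sub E M) (id_KRep M)).quotientToInvariants NZ with hAZ
  set fZ : cocycles₂ AZ := cy_repCocycle AZ hnZ hoZ hgenZ (rc_co_elt NZ b')
    (rc_co_elt_inv b' σZ) with hfZ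
  have hsum : cy_repSum AZ σZ (p ^ K') (fZ : (↥(rc_dg_sub E M) ⧸ NZ) × (↥(rc_dg_sub E M) ⧸ NZ) →
      AZ.V) = rc_co_elt NZ b' :=
    cy_repSum_repCocycle AZ hnZ hoZ hgenZ h1nZ _ _
  have hxZ : ((cy_repSum AZ σZ (p ^ K')
      (fZ : (↥(rc_dg_sub E M) ⧸ NZ) × (↥(rc_dg_sub E M) ⧸ NZ) → AZ.V) : AZ.V) :
      (id_KRep M).V) = Additive.ofMul (id_unitsMap E M b') := by
    rw [hsum]
    rfl
  set β : groupCohomology (tt_res (rc_dg_sub E M) (id_KRep M)) 2 :=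
    (ir_inf₂ (tt_res (rc_dg_sub E M) (id_KRep M)) NZ).hom (H2π _ fZ) with hβdef
  -- `β` is a semi-local norm at `l'`
  have hnormZ : ∃ bb : ((tt_res (rc_dg_sub E M) (id_ARep M ql)).quotientToInvariants NZ).V,
      cy_repNorm ((tt_res (rc_dg_sub E M) (id_ARep M ql)).quotientToInvariants NZ) σZ (p ^ K') bb =
        (rr_invMap ((Rep.resFunctor (rc_dg_sub E M).subtype).map (δ ≫ πl)) NZ).hom
          (cy_repSum AZ σZ (p ^ K')
            (fZ : (↥(rc_dg_sub E M) ⧸ NZ) × (↥(rc_dg_sub E M) ⧸ NZ) → AZ.V)) := by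
    obtain ⟨bb, hbb⟩ := hnormb
    refine ⟨bb, Subtype.ext ?_⟩
    rw [hbb, rr_invMap_coe, hxZ]
    exact (hψl _).symm
  -- generator of `Gal(Z/E)`
  have hgenρZ := rc_cc_hgenρ 𝔏Z hgenZ τZ hτZ
  have hexZ : ∀ v : Ideal (𝓞 E), ∃ d : ℕ, am_frob E Z v = 𝔏Z.ρ τZ ^ d := by
    intro v
    have h1 := hgenρZ (am_frob E Z v)
    rw [← mem_powers_iff_mem_zpowers] at h1
    obtain ⟨d, hd⟩ := h1
    exact ⟨d, hd.symm⟩
  -- the local terms of `β` away from `l'`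
  have htermβ : ∀ q (g : M ≃ₐ[ℚ] M) (d : ℕ), q ≠ q₁ →
      am_frob E Z (id_under E M (g • (𝔇 q).w)).asIdeal = 𝔏Z.ρ τZ ^ d →
      rc_term 𝔻 q (rc_dg_sub E M) g ((rr_push δ (rc_dg_sub E M)).hom β) =
        cy_frac (p ^ K') ((d : ℤ) * id_ordZ E (id_under E M (g • (𝔇 q).w)) b') := by
    intro q g d hq hd
    have hu : am_Unram E Z (id_under E M (g • (𝔇 q).w)).asIdeal :=
      hunrZ q g (fun hm => hq (hqmZ q g hm))
    exact htermZ q g d fZ b' hu hd hxZ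
  -- `p ^ K'` kills `β`
  have hcardZ : Nat.card (↥(rc_dg_sub E M) ⧸ NZ) = p ^ K' := by
    rw [← hoZ]
    exact (orderOf_eq_card_of_forall_mem_zpowers hgenZ).symm
  have hβ : p ^ K' • β = 0 := by
    rw [hβdef, ← map_nsmul, ← hcardZ, h2_card_smul_eq_zero, map_zero]
  -- `INV β = 0`
  have hβINV : rc_INV 𝔻 hfin (rc_dg_sub E M) ((rr_push δ (rc_dg_sub E M)).hom β) = 0 :=
    rc_cc_recip 𝔻 hfin δ 𝔇 huniq hcov 𝔏Z πl q₁ pr'l hfacl hnZ hoZ hgenZ τZ hτZ (ql : ℕ) hunrZ hqmZ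
      fZ b' (fun q g d hu hd => htermZ q g d fZ b' hu hd hxZ) hnormZ hsym
  -- `[CYC]` on the layer `N`
  have hCYC : ∀ f : cocycles₂ ((tt_res (rc_dg_sub E M) (id_KRep M)).quotientToInvariants N),
      (∃ b : ((tt_res (rc_dg_sub E M) (id_ARep M qp)).quotientToInvariants N).V,
        cy_repNorm ((tt_res (rc_dg_sub E M) (id_ARep M qp)).quotientToInvariants N) σ n b =
          (rr_invMap ((Rep.resFunctor (rc_dg_sub E M).subtype).map (δ ≫ πp)) N).hom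
            (cy_repSum ((tt_res (rc_dg_sub E M) (id_KRep M)).quotientToInvariants N) σ n
              (f : (↥(rc_dg_sub E M) ⧸ N) × (↥(rc_dg_sub E M) ⧸ N) →
                ((tt_res (rc_dg_sub E M) (id_KRep M)).quotientToInvariants N).V))) →
      rc_INV 𝔻 hfin (rc_dg_sub E M) ((rr_push δ (rc_dg_sub E M)).hom
        ((ir_inf₂ (tt_res (rc_dg_sub E M) (id_KRep M)) N).hom (H2π _ f))) = 0 :=
    fun f hnorm => rc_cc_cyc 𝔻 hfin δ 𝔇 huniq hcov 𝔏 qp πp q₀ pr'p hfacp hψp (C := C) hj hn ho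
      hgen τ hτ hunr hqm hterm f hnorm
  -- `[APPROX]`
  have happrox : ∀ g, rc_term 𝔻 q₀ (rc_dg_sub E M) g ((rr_push δ (rc_dg_sub E M)).hom α) =
      rc_term 𝔻 q₀ (rc_dg_sub E M) g ((rr_push δ (rc_dg_sub E M)).hom β) := by
    intro g
    obtain ⟨d, hd⟩ := hexZ (id_under E M (g • (𝔇 q₀).w)).asIdeal
    rw [happ g d hd, htermβ q₀ g d hq01 hd]
  -- `[LOC-KILL]`
  have hkill : ∀ q g, q ≠ q₀ →
      rc_comp 𝔻 q (rc_dg_sub E M) g ((rr_push δ (rc_dg_sub E M)).hom (α - β)) = 0 ∨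
      p ^ K' ∣ rc_idx (𝔻.D q) (rr_up (rc_dg_sub E M) N) (rc_dg_sub E M) g := by
    intro q g hq
    rcases hout q g hq with h | ⟨h1, h2, h3⟩
    · exact Or.inr h
    · left
      obtain ⟨d, hd⟩ := hexZ (id_under E M (g • (𝔇 q).w)).asIdeal
      have hβ0 : rc_term 𝔻 q (rc_dg_sub E M) g ((rr_push δ (rc_dg_sub E M)).hom β) = 0 := by
        rw [htermβ q g d h2 hd, h3, mul_zero, map_zero]
      have hα' : p ^ K' • (rr_push δ (rc_dg_sub E M)).hom α = 0 := by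
        rw [← map_nsmul, hα, map_zero]
      have hβ' : p ^ K' • (rr_push δ (rc_dg_sub E M)).hom β = 0 := by
        rw [← map_nsmul, hβ, map_zero]
      have hcα : rc_comp 𝔻 q (rc_dg_sub E M) g ((rr_push δ (rc_dg_sub E M)).hom α) = 0 := by
        apply (𝔻.P q).inv_inj _ _ (rc_comp_isPPrimary 𝔻 q _ g ⟨K', hα'⟩)
        rw [← rc_term_apply]
        exact h1
      have hcβ : rc_comp 𝔻 q (rc_dg_sub E M) g ((rr_push δ (rc_dg_sub E M)).hom β) = 0 := by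
        apply (𝔻.P q).inv_inj _ _ (rc_comp_isPPrimary 𝔻 q _ g ⟨K', hβ'⟩)
        rw [← rc_term_apply]
        exact hβ0
      rw [map_sub, map_sub, hcα, hcβ, sub_zero]
  exact rr_pp_reciprocity 𝔻 hfin δ πp q₀ (rc_dg_sub E M) N hn ho hgen hHasse hinj hH90 hSL hH90p
    hCYC α β hα hβ hβINV happrox hkill

end core

end

end Fermat.Agent.S55
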