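import Fermat.Agent.S55.Recip.TermDict
import Fermat.Agent.S55.Recip.TowerLevel

/-!
# S55 / G4 (C), leaf (L3): the local term of a global cyclic class (prefix `rc_tf_`)

`M` a number field Galois over `ℚ`, `Γ = M ≃ₐ[ℚ] M`, `𝔻 : rc_InvData p J Q` local data on a module
`J` receiving `Mˣ` through `δ`, with a place dictionary `𝔇 : rc_td_Dict 𝔻 δ q` at the index `q`
(prime `w` of `M` over `ℓ`, `𝔻.D q = Stab(w)`, unramified formula `U` with the true inertia group,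
Frobenius congruence, valuation `= ord_w` on `δ(Mˣ)`), and a layer `𝔏 : rc_td_Layer E E' M 𝒢 N`
(`𝒢 = Gal(M/E)`, `N = Gal(M/E')`, `E'/E` abelian).

`rc_tf_term`: if the prime `P = g w ∩ E` is unramified in `E'/E`, `σ = τ N` generates `𝒢 ⧸ N`
(order `n`), `Frob_P = ρ(τ) ^ d`, and the cyclic class `[f]` has `∑_i f(σ^i, σ) = x ∈ Eˣ`, then the
local term at `g w` of `δ_*(inf [f])` is `d · ord_P(x) / n`.

Proof: `rr_term_push_inf_cyc` with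
* `hIN` (`rc_tf_thIN`): the inertia group of `g w` in `𝒢` restricts trivially to `E'`;
* `φ` := the Frobenius of the layer from `rc_dg_exists_frob_conj`; it is the `f`-th power of the
  Frobenius of `D` modulo inertia, `f = lc_resDeg = f(P | ℓ)` (`rc_tf_tresDeg`, by counting:
  `rc_tf_tresDeg_mul` + `|D| = |I| f(w|ℓ)`, `|S''| = e f`, `|I ∩ S''| = e`, tower law),
  `rc_tf_thphi`;
* the index of `N''` in `S''` is the order of `Frob_P` (`rc_tf_tindex`);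
* `hc₀` (`rc_tf_thc0`): `𝔇.hv` + `rc_pd_ordZ_conj` + `rc_pd_card_inertia`.
-/

set_option autoImplicit false
set_option linter.style.haveILetI false
set_option linter.unusedSectionVars false

open scoped NumberField Pointwise
open IsDedekindDomain CategoryTheory groupCohomology
open Fermat.Agent.S14
open scoped IsMulCommutative

namespace Fermat.Agent.S55

/-! ### Group theory and arithmetic -/

/-- counting the residue degree `[D : S I]` -/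
theorem rc_tf_tresDeg_mul {D : Type*} [Group D] [Finite D] (I : Subgroup D) [I.Normal]
    (S : Subgroup D) :
    lc_resDeg I S.subtype * (Nat.card ↥S * Nat.card ↥I) =
      Nat.card D * Nat.card ↥(I.subgroupOf S) := by
  set K := S.subtype.range.map (QuotientGroup.mk' I) with hK
  have h1 : K.index * Nat.card ↥K = Nat.card (D ⧸ I) := K.index_mul_card
  have h2 : Nat.card (D ⧸ I) * Nat.card ↥I = Nat.card D :=
    (Subgroup.card_eq_card_quotient_mul_card_subgroup I).symm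
  have h3 : Nat.card ↥K = Nat.card (↥S ⧸ I.comap S.subtype) := by
    rw [hK, ← lc_quotMap_range]
    exact (Nat.card_congr
      (MonoidHom.ofInjective (lc_quotMap_injective I S.subtype)).toEquiv).symm
  have h4 : Nat.card (↥S ⧸ I.comap S.subtype) * Nat.card ↥(I.comap S.subtype) = Nat.card ↥S :=
    (Subgroup.card_eq_card_quotient_mul_card_subgroup _).symm
  have h5 : Nat.card ↥(I.comap S.subtype) = Nat.card ↥(I.subgroupOf S) := rfl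
  have h6 : lc_resDeg I S.subtype = K.index := rfl
  rw [h6, ← h4, ← h2, ← h1, h3, h5]
  ring

/-- `d · ord(x ^ d) = ord(x) · (d / gcd(ord x, d))` -/
theorem rc_tf_tmul_orderOf_pow {G : Type*} [Group G] [Finite G] (x : G) (d : ℕ) :
    d * orderOf (x ^ d) = orderOf x * (d / Nat.gcd (orderOf x) d) := by
  rw [orderOf_pow]
  have h1 : Nat.gcd (orderOf x) d ∣ orderOf x := Nat.gcd_dvd_left _ _
  have h2 : Nat.gcd (orderOf x) d ∣ d := Nat.gcd_dvd_right _ _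
  obtain ⟨a, ha⟩ := h1
  obtain ⟨b, hb⟩ := h2
  have hc : 0 < Nat.gcd (orderOf x) d := Nat.gcd_pos_of_pos_left _ (orderOf_pos x)
  set c := Nat.gcd (orderOf x) d with hcdef
  rw [ha]
  conv_lhs => rw [hb]
  conv_rhs => rw [hb]
  rw [Nat.mul_div_cancel_left _ hc, Nat.mul_div_cancel_left _ hc]
  ring

/-! ### Frobenius congruences -/

section frob

variable {M : Type} [Field M] [NumberField M]

/-- iterates of an element acting as `x ↦ x ^ ℓ` modulo a stable ideal -/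
theorem rc_tf_tfrob_pow (Q₀ : Ideal (𝓞 M)) {ℓ : ℕ} {F : M ≃ₐ[ℚ] M} (hFs : F • Q₀ = Q₀)
    (hF : ∀ x : 𝓞 M, F • x - x ^ ℓ ∈ Q₀) (k : ℕ) (x : 𝓞 M) :
    (F ^ k) • x - x ^ (ℓ ^ k) ∈ Q₀ := by
  induction k generalizing x with
  | zero => simp
  | succ k ih =>
    rw [pow_succ', mul_smul, pow_succ, pow_mul]
    have h1 : F • ((F ^ k) • x) - F • (x ^ (ℓ ^ k)) ∈ Q₀ := by
      rw [← smul_sub]
      have h2 := Ideal.smul_mem_pointwise_smul F _ Q₀ (ih x)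
      rwa [hFs] at h2
    have h2 := hF (x ^ (ℓ ^ k))
    have h3 := add_mem h1 h2
    simpa using h3

/-- two elements of the decomposition group acting in the same way modulo `Q₀` are congruent
modulo the inertia group -/
theorem rc_tf_tmem_inertia (Q₀ : Ideal (𝓞 M)) {a b : M ≃ₐ[ℚ] M} (ha : a • Q₀ = Q₀)
    (h : ∀ x : 𝓞 M, a • x - b • x ∈ Q₀) : a⁻¹ * b ∈ Q₀.inertia (M ≃ₐ[ℚ] M) := by
  intro x
  show (a⁻¹ * b) • x - x ∈ Q₀
  have h1 : (a⁻¹ * b) • x - x = a⁻¹ • (-(a • x - b • x)) := by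
    rw [neg_sub, smul_sub, mul_smul, inv_smul_smul]
  rw [h1]
  have h2 : a⁻¹ • Q₀ = Q₀ := by
    conv_lhs => rw [← ha]
    exact inv_smul_smul a Q₀
  have h3 := Ideal.smul_mem_pointwise_smul a⁻¹ _ Q₀ (neg_mem (h x))
  rwa [h2] at h3

end frob

/-! ### Counting the residue degree -/

section count

variable {E M : Type} [Field E] [NumberField E] [Field M] [NumberField M] [Algebra E M]
  [IsGalois E M] [IsGalois ℚ M]

/-- the absolute residue degree: `|𝓞 E ⧸ P| = ℓ ^ f(P | ℓ)` -/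
theorem rc_tf_tcard_quot (P : Ideal (𝓞 E)) [hP : P.IsPrime] {ℓ : ℕ} (hℓ : ℓ.Prime)
    (hmem : (ℓ : 𝓞 E) ∈ P) : Nat.card (𝓞 E ⧸ P) = ℓ ^ P.inertiaDeg ℤ := by
  haveI : Fact ℓ.Prime := ⟨hℓ⟩
  have hmax : (Ideal.span {(ℓ : ℤ)}).IsMaximal := Int.ideal_span_isMaximal_of_prime ℓ
  have hunder : P.under ℤ = Ideal.span {(ℓ : ℤ)} := by
    symm
    apply hmax.eq_of_le (Ideal.IsPrime.under ℤ P).ne_top
    rw [Ideal.span_singleton_le_iff_mem, Ideal.under_def, Ideal.mem_comap]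
    simpa using hmem
  haveI : P.LiesOver (Ideal.span {(ℓ : ℤ)}) := ⟨hunder.symm⟩
  have hP0 : P ≠ ⊥ := by
    rintro rfl
    rw [Ideal.mem_bot] at hmem
    have : (ℓ : 𝓞 E) ≠ 0 := Nat.cast_ne_zero.mpr hℓ.ne_zero
    exact this hmem
  haveI : P.IsMaximal := hP.isMaximal hP0
  have h1 := Ideal.absNorm_eq_pow_inertiaDeg' P hℓ
  rw [Ideal.inertiaDeg'_eq_inertiaDeg] at h1
  rw [← h1, Ideal.absNorm_apply, Submodule.cardQuot_apply]

/-- **The residue degree of the layer**: `[D : S'' I] = f(P | ℓ)` where `P = g w₀ ∩ E`. -/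
theorem rc_tf_tresDeg (w₀ : HeightOneSpectrum (𝓞 M)) (g : M ≃ₐ[ℚ] M)
    (D : Subgroup (M ≃ₐ[ℚ] M)) (hD : D = MulAction.stabilizer (M ≃ₐ[ℚ] M) w₀.asIdeal)
    (I : Subgroup ↥D) [I.Normal]
    (hI : ∀ d : ↥D, d ∈ I ↔ (d : M ≃ₐ[ℚ] M) ∈ w₀.asIdeal.toAddSubgroup.inertia (M ≃ₐ[ℚ] M)) :
    lc_resDeg I ((rc_conj g (rc_dg_sub E M)).subgroupOf D).subtype =
      ((g • w₀.asIdeal).under (𝓞 E)).inertiaDeg ℤ := by
  subst hD
  haveI : (g • w₀.asIdeal).IsPrime := Ideal.IsPrime.smul g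
  haveI : ((g • w₀.asIdeal).under (𝓞 E)).IsPrime := Ideal.IsPrime.under (𝓞 E) _
  haveI : (g • w₀.asIdeal).LiesOver ((g • w₀.asIdeal).under (𝓞 E)) := ⟨rfl⟩
  have hI' : I = (w₀.asIdeal.inertia (M ≃ₐ[ℚ] M)).subgroupOf
      (MulAction.stabilizer (M ≃ₐ[ℚ] M) w₀.asIdeal) := by
    ext d
    rw [hI, Subgroup.mem_subgroupOf]
  have hle : w₀.asIdeal.inertia (M ≃ₐ[ℚ] M) ≤ MulAction.stabilizer (M ≃ₐ[ℚ] M) w₀.asIdeal :=
    Ideal.inertia_le_stabilizer w₀.asIdeal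
  -- the four cardinalities
  have c1 : Nat.card ↥(MulAction.stabilizer (M ≃ₐ[ℚ] M) w₀.asIdeal) =
      Nat.card ↥(w₀.asIdeal.inertia (M ≃ₐ[ℚ] M)) * w₀.asIdeal.inertiaDeg ℤ := by
    haveI : (w₀.asIdeal.under ℤ).IsPrime := Ideal.IsPrime.under ℤ w₀.asIdeal
    haveI : w₀.asIdeal.LiesOver (w₀.asIdeal.under ℤ) := ⟨rfl⟩
    exact Ideal.card_stabilizer_eq_card_inertia_mul_finrank (G := (M ≃ₐ[ℚ] M))
      (w₀.asIdeal.under ℤ) w₀.asIdeal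
  have c2 : Nat.card ↥I = Nat.card ↥(w₀.asIdeal.inertia (M ≃ₐ[ℚ] M)) := by
    rw [hI']
    exact Nat.card_congr (Subgroup.subgroupOfEquivOfLe hle).toEquiv
  have c3 : Nat.card ↥((rc_conj g (rc_dg_sub E M)).subgroupOf
      (MulAction.stabilizer (M ≃ₐ[ℚ] M) w₀.asIdeal)) =
      (g • w₀.asIdeal).ramificationIdx (𝓞 E) * (g • w₀.asIdeal).inertiaDeg (𝓞 E) := by
    rw [rc_dg_card_conj_sub (E := E) w₀.asIdeal g, rc_dg_card_stabilizer_eq_mul (E := E)]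
  have c4 : Nat.card ↥(I.subgroupOf ((rc_conj g (rc_dg_sub E M)).subgroupOf
      (MulAction.stabilizer (M ≃ₐ[ℚ] M) w₀.asIdeal))) =
      (g • w₀.asIdeal).ramificationIdx (𝓞 E) := by
    rw [hI', rc_pd_card_subgroupOf_subgroupOf _ _ _ hle, rc_pd_card_inertia (E := E) w₀ g]
    unfold id_e
    rw [Ideal.ramificationIdx'_eq_ramificationIdx _ _ (id_under E M (g • w₀)).ne_bot]
    rfl
  have key := rc_tf_tresDeg_mul I ((rc_conj g (rc_dg_sub E M)).subgroupOf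
      (MulAction.stabilizer (M ≃ₐ[ℚ] M) w₀.asIdeal))
  rw [c1, c2, c3, c4] at key
  -- the tower law
  have t1 : (g • w₀.asIdeal).inertiaDeg ℤ = w₀.asIdeal.inertiaDeg ℤ :=
    Ideal.inertiaDeg_smul ℤ w₀.asIdeal g
  have t2 : (g • w₀.asIdeal).inertiaDeg ℤ =
      ((g • w₀.asIdeal).under (𝓞 E)).inertiaDeg ℤ * (g • w₀.asIdeal).inertiaDeg (𝓞 E) :=
    Ideal.inertiaDeg_tower ((g • w₀.asIdeal).under (𝓞 E)) (g • w₀.asIdeal)
  have p1 : 0 < Nat.card ↥(w₀.asIdeal.inertia (M ≃ₐ[ℚ] M)) := Nat.card_pos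
  have p2 : 0 < (g • w₀.asIdeal).ramificationIdx (𝓞 E) := by
    rw [← c4]; exact Nat.card_pos
  have p3 : 0 < (g • w₀.asIdeal).inertiaDeg (𝓞 E) := Ideal.inertiaDeg_pos _ _
  rw [← t1, t2] at key
  have key2 : lc_resDeg I ((rc_conj g (rc_dg_sub E M)).subgroupOf
        (MulAction.stabilizer (M ≃ₐ[ℚ] M) w₀.asIdeal)).subtype *
        (g • w₀.asIdeal).inertiaDeg (𝓞 E) *
      ((g • w₀.asIdeal).ramificationIdx (𝓞 E) * Nat.card ↥(w₀.asIdeal.inertia (M ≃ₐ[ℚ] M))) =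
      ((g • w₀.asIdeal).under (𝓞 E)).inertiaDeg ℤ * (g • w₀.asIdeal).inertiaDeg (𝓞 E) *
      ((g • w₀.asIdeal).ramificationIdx (𝓞 E) *
        Nat.card ↥(w₀.asIdeal.inertia (M ≃ₐ[ℚ] M))) := by
    linarith [key]
  have key3 := Nat.eq_of_mul_eq_mul_right (Nat.mul_pos p2 p1) key2
  exact Nat.eq_of_mul_eq_mul_right p3 key3

/-- **The Frobenius of the layer is the `f`-th power of the Frobenius of `D`** modulo inertia,
`f = lc_resDeg`. -/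
theorem rc_tf_thphi (w₀ : HeightOneSpectrum (𝓞 M)) {ℓ : ℕ} (hℓ : ℓ.Prime)
    (hmem : (ℓ : 𝓞 M) ∈ w₀.asIdeal) (g : M ≃ₐ[ℚ] M)
    (D : Subgroup (M ≃ₐ[ℚ] M)) (hD : D = MulAction.stabilizer (M ≃ₐ[ℚ] M) w₀.asIdeal)
    (I : Subgroup ↥D) [I.Normal]
    (hI : ∀ d : ↥D, d ∈ I ↔ (d : M ≃ₐ[ℚ] M) ∈ w₀.asIdeal.toAddSubgroup.inertia (M ≃ₐ[ℚ] M))
    (frob : ↥D) (hfrob : ∀ x : 𝓞 M, (frob : M ≃ₐ[ℚ] M) • x - x ^ ℓ ∈ w₀.asIdeal)
    (φ : ↥((rc_conj g (rc_dg_sub E M)).subgroupOf D))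
    (hφ : ∀ x : 𝓞 M, ((φ : ↥D) : M ≃ₐ[ℚ] M) • x -
      x ^ Nat.card (𝓞 E ⧸ (g • w₀.asIdeal).under (𝓞 E)) ∈ w₀.asIdeal) :
    (((φ : ↥((rc_conj g (rc_dg_sub E M)).subgroupOf D)) : ↥D) : ↥D ⧸ I) =
      ((frob : ↥D) : ↥D ⧸ I) ^
        lc_resDeg I ((rc_conj g (rc_dg_sub E M)).subgroupOf D).subtype := by
  haveI : (g • w₀.asIdeal).IsPrime := Ideal.IsPrime.smul g
  haveI : ((g • w₀.asIdeal).under (𝓞 E)).IsPrime := Ideal.IsPrime.under (𝓞 E) _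
  have hmemE : (ℓ : 𝓞 E) ∈ (g • w₀.asIdeal).under (𝓞 E) := by
    rw [Ideal.under, Ideal.mem_comap, map_natCast, rc_dg_natCast_mem_smul_iff]
    exact hmem
  have hcard := rc_tf_tcard_quot ((g • w₀.asIdeal).under (𝓞 E)) hℓ hmemE
  rw [← rc_tf_tresDeg (E := E) w₀ g D hD I hI] at hcard
  set f := lc_resDeg I ((rc_conj g (rc_dg_sub E M)).subgroupOf D).subtype with hf
  have hfs : (frob : M ≃ₐ[ℚ] M) • w₀.asIdeal = w₀.asIdeal := by
    have h1 : (frob : M ≃ₐ[ℚ] M) ∈ MulAction.stabilizer (M ≃ₐ[ℚ] M) w₀.asIdeal := hD ▸ frob.2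
    exact MulAction.mem_stabilizer_iff.mp h1
  have hFs : ((frob : M ≃ₐ[ℚ] M) ^ f) • w₀.asIdeal = w₀.asIdeal := by
    have h1 : (frob : M ≃ₐ[ℚ] M) ^ f ∈ MulAction.stabilizer (M ≃ₐ[ℚ] M) w₀.asIdeal :=
      pow_mem (MulAction.mem_stabilizer_iff.mpr hfs) f
    exact MulAction.mem_stabilizer_iff.mp h1
  have h2 : ((frob : M ≃ₐ[ℚ] M) ^ f)⁻¹ * ((φ : ↥D) : M ≃ₐ[ℚ] M) ∈
      w₀.asIdeal.inertia (M ≃ₐ[ℚ] M) := by
    apply rc_tf_tmem_inertia w₀.asIdeal hFs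
    intro x
    have h3 := rc_tf_tfrob_pow w₀.asIdeal hfs hfrob f x
    have h4 := hφ x
    rw [hcard] at h4
    have h5 := sub_mem h3 h4
    rwa [sub_sub_sub_cancel_right] at h5
  have h6 : (frob ^ f)⁻¹ * (φ : ↥D) ∈ I := (hI _).mpr h2
  rw [← QuotientGroup.mk_pow, eq_comm]
  exact QuotientGroup.eq.mpr h6

/-- `|I ∩ S''| = e(g w₀ | E)` -/
theorem rc_tf_tcard_I (w₀ : HeightOneSpectrum (𝓞 M)) (g : M ≃ₐ[ℚ] M)
    (D : Subgroup (M ≃ₐ[ℚ] M)) (hD : D = MulAction.stabilizer (M ≃ₐ[ℚ] M) w₀.asIdeal)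
    (I : Subgroup ↥D)
    (hI : ∀ d : ↥D, d ∈ I ↔ (d : M ≃ₐ[ℚ] M) ∈ w₀.asIdeal.toAddSubgroup.inertia (M ≃ₐ[ℚ] M)) :
    Nat.card ↥(I.subgroupOf (rr_S (rc_dg_sub E M) g D)) = id_e E M (g • w₀) := by
  subst hD
  have hI' : I = (w₀.asIdeal.inertia (M ≃ₐ[ℚ] M)).subgroupOf
      (MulAction.stabilizer (M ≃ₐ[ℚ] M) w₀.asIdeal) := by
    ext d
    rw [hI, Subgroup.mem_subgroupOf]
  have hle : w₀.asIdeal.inertia (M ≃ₐ[ℚ] M) ≤ MulAction.stabilizer (M ≃ₐ[ℚ] M) w₀.asIdeal :=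
    Ideal.inertia_le_stabilizer w₀.asIdeal
  rw [hI', rc_pd_card_subgroupOf_subgroupOf _ _ _ hle, rc_pd_card_inertia (E := E) w₀ g]

end count

/-! ### The layer -/

section layer

variable {E E' M : Type} [Field E] [NumberField E] [Field E'] [NumberField E'] [Field M]
  [NumberField M] [Algebra E E'] [Algebra E' M] [Algebra E M] [IsScalarTower E E' M]
  [IsGalois E M] [IsGalois E E'] [IsGalois ℚ M]

/-- the restriction to `E'` on integers -/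
theorem rc_tf_tres_smul (τ : ↥(rc_dg_sub E M)) (x : 𝓞 E') :
    algebraMap (𝓞 E') (𝓞 M) (rc_dg_resHom E E' M τ • x) =
      (τ : M ≃ₐ[ℚ] M) • algebraMap (𝓞 E') (𝓞 M) x := by
  apply NumberField.RingOfIntegers.ext
  show algebraMap E' M (rc_dg_resHom E E' M τ (x : E')) =
    (τ : M ≃ₐ[ℚ] M) (algebraMap E' M (x : E'))
  exact rc_dg_resHom_commutes τ (x : E')

/-- an element of the layer in the inertia group of a prime `R` of `M` over a prime unramified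
in `E'/E` restricts trivially to `E'` -/
theorem rc_tf_tres_eq_one (R : Ideal (𝓞 M)) [R.IsPrime]
    (hu : am_Unram E E' (R.under (𝓞 E))) (τ : ↥(rc_dg_sub E M))
    (hτ : (τ : M ≃ₐ[ℚ] M) ∈ R.inertia (M ≃ₐ[ℚ] M)) : rc_dg_resHom E E' M τ = 1 := by
  haveI : (R.under (𝓞 E')).IsPrime := Ideal.IsPrime.under (𝓞 E') R
  have hlo : (R.under (𝓞 E')).LiesOver (R.under (𝓞 E)) := ⟨by rw [Ideal.under_under]⟩
  have h1 : rc_dg_resHom E E' M τ ∈ (R.under (𝓞 E')).inertia Gal(E'/E) := by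
    intro x
    show rc_dg_resHom E E' M τ • x - x ∈ R.under (𝓞 E')
    rw [Ideal.under, Ideal.mem_comap, map_sub, rc_tf_tres_smul]
    exact hτ (algebraMap (𝓞 E') (𝓞 M) x)
  rw [hu (R.under (𝓞 E')) inferInstance hlo, Subgroup.mem_bot] at h1
  exact h1

/-- **`hIN`**: the place is unramified in the layer. -/
theorem rc_tf_thIN (w₀ : HeightOneSpectrum (𝓞 M)) (g : M ≃ₐ[ℚ] M)
    (hu : am_Unram E E' ((g • w₀.asIdeal).under (𝓞 E)))
    (D : Subgroup (M ≃ₐ[ℚ] M)) (I : Subgroup ↥D)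
    (hI : ∀ d : ↥D, d ∈ I ↔ (d : M ≃ₐ[ℚ] M) ∈ w₀.asIdeal.toAddSubgroup.inertia (M ≃ₐ[ℚ] M)) :
    I.subgroupOf (rr_S (rc_dg_sub E M) g D) ≤
      rr_N (rc_dg_sub E M) (rc_dg_resHom E E' M).ker g D := by
  intro s hs
  rw [Subgroup.mem_subgroupOf] at hs
  haveI : (g • w₀.asIdeal).IsPrime := Ideal.IsPrime.smul g
  show rr_kap (rc_dg_sub E M) g D s ∈ (rc_dg_resHom E E' M).ker
  rw [MonoidHom.mem_ker]
  apply rc_tf_tres_eq_one (g • w₀.asIdeal) hu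
  rw [rr_kap_coe]
  exact (rc_pd_mem_inertia_smul_iff w₀.asIdeal g _).mpr ((hI _).mp hs)

/-- `N'' = g⁻¹ Gal(M/E') g ∩ D` inside `S''`. -/
theorem rc_tf_tN_eq (g : M ≃ₐ[ℚ] M) (D : Subgroup (M ≃ₐ[ℚ] M)) :
    rr_N (rc_dg_sub E M) (rc_dg_resHom E E' M).ker g D =
      ((rc_conj g (rc_dg_sub E' M)).subgroupOf D).subgroupOf (rr_S (rc_dg_sub E M) g D) := by
  ext s
  show rr_kap (rc_dg_sub E M) g D s ∈ (rc_dg_resHom E E' M).ker ↔ _
  rw [rc_dg_resHom_ker, Subgroup.mem_subgroupOf, Subgroup.mem_subgroupOf, Subgroup.mem_subgroupOf,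
    rr_kap_coe, rc_mem_conj]

/-- the index of `N''` in `S''` is the order of the Frobenius of the layer -/
theorem rc_tf_tindex [IsMulCommutative Gal(E'/E)] (w₀ : HeightOneSpectrum (𝓞 M))
    (g : M ≃ₐ[ℚ] M) (hu : am_Unram E E' ((g • w₀.asIdeal).under (𝓞 E)))
    (D : Subgroup (M ≃ₐ[ℚ] M)) (hD : D = MulAction.stabilizer (M ≃ₐ[ℚ] M) w₀.asIdeal) :
    (rr_N (rc_dg_sub E M) (rc_dg_resHom E E' M).ker g D).index =
      orderOf (am_frob E E' ((g • w₀.asIdeal).under (𝓞 E))) := by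
  subst hD
  haveI : IsGalois E' M := IsGalois.tower_top_of_isGalois E E' M
  haveI : (g • w₀.asIdeal).IsPrime := Ideal.IsPrime.smul g
  have hg0 : g • w₀.asIdeal ≠ ⊥ := id_smul_ne_bot M g w₀.ne_bot
  have hle : (rc_conj g (rc_dg_sub E' M)).subgroupOf
      (MulAction.stabilizer (M ≃ₐ[ℚ] M) w₀.asIdeal) ≤
      rr_S (rc_dg_sub E M) g (MulAction.stabilizer (M ≃ₐ[ℚ] M) w₀.asIdeal) := by
    intro d hd
    rw [Subgroup.mem_subgroupOf] at hd ⊢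
    exact rc_conj_mono g (rc_dg_sub_le (E := E) (E' := E') (M := M)) hd
  have h1 := (rr_N (rc_dg_sub E M) (rc_dg_resHom E E' M).ker g
    (MulAction.stabilizer (M ≃ₐ[ℚ] M) w₀.asIdeal)).index_mul_card
  have h2 : Nat.card ↥(rr_N (rc_dg_sub E M) (rc_dg_resHom E E' M).ker g
      (MulAction.stabilizer (M ≃ₐ[ℚ] M) w₀.asIdeal)) =
      Nat.card ↥(MulAction.stabilizer Gal(M/E') (g • w₀.asIdeal)) := by
    rw [rc_tf_tN_eq, Nat.card_congr (Subgroup.subgroupOfEquivOfLe hle).toEquiv,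
      rc_dg_card_conj_sub (E := E') w₀.asIdeal g]
  have h3 : Nat.card ↥(rr_S (rc_dg_sub E M) g
      (MulAction.stabilizer (M ≃ₐ[ℚ] M) w₀.asIdeal)) =
      Nat.card ↥(MulAction.stabilizer Gal(M/E) (g • w₀.asIdeal)) :=
    rc_dg_card_conj_sub (E := E) w₀.asIdeal g
  rw [h2, h3, rc_dg_card_stabilizer_tower_unram (E' := E') (g • w₀.asIdeal) hg0 hu, mul_comm] at h1
  exact Nat.eq_of_mul_eq_mul_left Nat.card_pos h1

variable {p : ℕ} {J : Rep.{0} ℤ (M ≃ₐ[ℚ] M)} {Q : Type}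
  (𝔻 : rc_InvData p J Q) (δ : id_KRep M ⟶ J) {q : Q} (𝔇 : rc_td_Dict 𝔻 δ q)

/-- **`hc₀`**: the valuation of the component of a global element of `E`. -/
theorem rc_tf_thc0 (g : M ≃ₐ[ℚ] M) (x : Eˣ) :
    𝔇.U.v ((𝔻.pr q).hom (J.ρ g⁻¹ (δ.hom
      (Additive.ofMul (id_unitsMap E M x) : (id_KRep M).V)))) =
      ((Nat.card ↥(𝔇.U.I.subgroupOf (rr_S (rc_dg_sub E M) g (𝔻.D q))) : ℕ) : ℤ) *
        id_ordZ E (id_under E M (g • 𝔇.w)) x := by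
  have h1 : J.ρ g⁻¹ (δ.hom (Additive.ofMul (id_unitsMap E M x) : (id_KRep M).V)) =
      δ.hom (Additive.ofMul (g⁻¹ • id_unitsMap E M x) : (id_KRep M).V) :=
    (Rep.hom_comm_apply δ g⁻¹ _).symm
  rw [h1, 𝔇.hv, rc_pd_ordZ_conj, rc_tf_tcard_I (E := E) 𝔇.w g (𝔻.D q) 𝔇.hD 𝔇.U.I 𝔇.hI]

/-- the order of the restriction of `τ` is the order of its class modulo the kernel -/
theorem rc_tf_torderOf (τ : ↥(rc_dg_sub E M)) :
    orderOf (rc_dg_resHom E E' M τ) =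
      orderOf ((τ : ↥(rc_dg_sub E M)) : ↥(rc_dg_sub E M) ⧸ (rc_dg_resHom E E' M).ker) := by
  rw [orderOf_eq_orderOf_iff]
  intro k
  rw [← map_pow, ← QuotientGroup.mk_pow, QuotientGroup.eq_one_iff, MonoidHom.mem_ker]

/-- **The local term of a global cyclic class at a place unramified in the layer**, core form:
`𝒢 = rc_dg_sub E M`, `N = ker (rc_dg_resHom E E' M)`. -/
theorem rc_tf_term_core [IsMulCommutative Gal(E'/E)]
    {σ : ↥(rc_dg_sub E M) ⧸ (rc_dg_resHom E E' M).ker} {n : ℕ} (hn : 0 < n)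
    (ho : orderOf σ = n) (τ : ↥(rc_dg_sub E M))
    (hτ : ((τ : ↥(rc_dg_sub E M)) : ↥(rc_dg_sub E M) ⧸ (rc_dg_resHom E E' M).ker) = σ)
    (g : M ≃ₐ[ℚ] M) (hu : am_Unram E E' ((g • 𝔇.w.asIdeal).under (𝓞 E))) {d : ℕ}
    (hd : am_frob E E' ((g • 𝔇.w.asIdeal).under (𝓞 E)) = rc_dg_resHom E E' M τ ^ d)
    (f : cocycles₂ ((tt_res (rc_dg_sub E M) (id_KRep M)).quotientToInvariants
      (rc_dg_resHom E E' M).ker))
    (x : Eˣ)
    (hx : ((cy_repSum ((tt_res (rc_dg_sub E M) (id_KRep M)).quotientToInvariants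
      (rc_dg_resHom E E' M).ker) σ n ⇑f : _) : (id_KRep M).V) =
        Additive.ofMul (id_unitsMap E M x)) :
    rc_term 𝔻 q (rc_dg_sub E M) g ((rr_push δ (rc_dg_sub E M)).hom
      ((ir_inf₂ (tt_res (rc_dg_sub E M) (id_KRep M)) (rc_dg_resHom E E' M).ker).hom
        (H2π _ f))) =
      cy_frac n ((d : ℤ) * id_ordZ E (id_under E M (g • 𝔇.w)) x) := by
  obtain ⟨φ₀, hφs, h, hres, hcong⟩ :=
    rc_dg_exists_frob_conj (E := E) (E' := E') 𝔇.w.asIdeal 𝔇.w.ne_bot g hu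
  have hφD : φ₀ ∈ 𝔻.D q := by rw [𝔇.hD]; exact hφs
  have hφS : (⟨φ₀, hφD⟩ : ↥(𝔻.D q)) ∈ rr_S (rc_dg_sub E M) g (𝔻.D q) := by
    rw [Subgroup.mem_subgroupOf]
    exact rc_mem_conj.mpr h
  set φ : ↥(rr_S (rc_dg_sub E M) g (𝔻.D q)) := ⟨⟨φ₀, hφD⟩, hφS⟩ with hφdef
  have hkap : rr_kap (rc_dg_sub E M) g (𝔻.D q) φ = ⟨g * φ₀ * g⁻¹, h⟩ := Subtype.ext rfl
  have hσ : σ ^ n = 1 := by rw [← ho]; exact pow_orderOf_eq_one σ
  have hm : 0 < (rr_N (rc_dg_sub E M) (rc_dg_resHom E E' M).ker g (𝔻.D q)).index :=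
    Nat.pos_of_ne_zero Subgroup.index_ne_zero_of_finite
  -- the Frobenius of the layer maps to `σ ^ d`
  have hd' : rr_kapQ (rc_dg_sub E M) (rc_dg_resHom E E' M).ker g (𝔻.D q)
      ((φ : ↥(rr_S (rc_dg_sub E M) g (𝔻.D q))) :
        ↥(rr_S (rc_dg_sub E M) g (𝔻.D q)) ⧸
          rr_N (rc_dg_sub E M) (rc_dg_resHom E E' M).ker g (𝔻.D q)) = σ ^ d := by
    rw [rr_kapQ_mk, hkap, ← hτ, ← QuotientGroup.mk_pow]
    apply QuotientGroup.eq.mpr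
    rw [MonoidHom.mem_ker, map_mul, map_inv, map_pow, hres, hd, inv_mul_cancel]
  -- the index
  have hidx := rc_tf_tindex (E := E) (E' := E') 𝔇.w g hu (𝔻.D q) 𝔇.hD
  have hdr : d * (rr_N (rc_dg_sub E M) (rc_dg_resHom E E' M).ker g (𝔻.D q)).index =
      n * (d / Nat.gcd n d) := by
    rw [hidx, hd, ← ho, ← hτ, ← rc_tf_torderOf]
    exact rc_tf_tmul_orderOf_pow _ d
  refine rr_term_push_inf_cyc 𝔻 δ (rc_dg_sub E M) (rc_dg_resHom E E' M).ker q g 𝔇.U hn hσ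
    (rc_tf_thIN 𝔇.w g hu (𝔻.D q) 𝔇.U.I 𝔇.hI) φ
    (rc_tf_thphi 𝔇.w 𝔇.hℓ 𝔇.hmem g (𝔻.D q) 𝔇.hD 𝔇.U.I 𝔇.hI 𝔇.U.frob 𝔇.hfrob φ hcong)
    hm hd' hdr f _ ?_
  rw [hx]
  exact rc_tf_thc0 𝔻 δ 𝔇 g x

end layer

/-! ### The final form -/

section final

variable {M : Type} [Field M] [NumberField M] [IsGalois ℚ M] {p : ℕ} [Fact p.Prime]
  {J : Rep.{0} ℤ (M ≃ₐ[ℚ] M)} {Q : Type} (𝔻 : rc_InvData p J Q) (δ : id_KRep M ⟶ J) {q : Q}
  (𝔇 : rc_td_Dict 𝔻 δ q) {E E' : Type} [Field E] [NumberField E] [Field E'] [NumberField E']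
  [Algebra E E'] [Algebra E' M] [Algebra E M] [IsScalarTower E E' M] [IsGalois E M]
  [IsGalois E E'] [IsMulCommutative Gal(E'/E)] {𝒢 : Subgroup (M ≃ₐ[ℚ] M)} {N : Subgroup ↥𝒢}
  [N.Normal] (𝔏 : rc_td_Layer E E' M 𝒢 N)

/-- **(L3) The local term of a global cyclic class at a place unramified in the layer.** -/
theorem rc_tf_term {σ : ↥𝒢 ⧸ N} {n : ℕ} (hn : 0 < n) (ho : orderOf σ = n) (τ : ↥𝒢)
    (hτ : (τ : ↥𝒢 ⧸ N) = σ) (g : M ≃ₐ[ℚ] M)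
    (hu : am_Unram E E' ((g • 𝔇.w.asIdeal).under (𝓞 E))) {d : ℕ}
    (hd : am_frob E E' ((g • 𝔇.w.asIdeal).under (𝓞 E)) = 𝔏.ρ τ ^ d)
    (f : cocycles₂ ((tt_res 𝒢 (id_KRep M)).quotientToInvariants N)) (x : Eˣ)
    (hx : ((cy_repSum ((tt_res 𝒢 (id_KRep M)).quotientToInvariants N) σ n ⇑f : _) :
      (id_KRep M).V) = Additive.ofMul (id_unitsMap E M x)) :
    rc_term 𝔻 q 𝒢 g ((rr_push δ 𝒢).hom
      ((ir_inf₂ (tt_res 𝒢 (id_KRep M)) N).hom (H2π _ f))) =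
      cy_frac n ((d : ℤ) * id_ordZ E (id_under E M (g • 𝔇.w)) x) := by
  obtain ⟨ρ, hρ, hρs, hker, h𝒢, hN⟩ := 𝔏
  have e1 : rc_dg_sub E M = 𝒢 := rc_tl_sub_eq_of_isGal 𝒢 h𝒢
  subst e1
  have e2 : ρ = rc_dg_resHom E E' M := by
    ext τ x
    apply (algebraMap E' M).injective
    rw [hρ, rc_dg_resHom_commutes]
  subst e2
  subst hker
  exact rc_tf_term_core 𝔻 δ 𝔇 hn ho τ hτ g hu hd f x hx

end final

end Fermat.Agent.S55
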