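import Fermat.Agent.S55.Recip.RecipCore
import Fermat.Agent.S55.Recip.TermFormula
import Fermat.Agent.S55.Recip.NormConv
import Fermat.Agent.S55.Recip.FieldSetup

/-!
# S55 / G4 (C): the reciprocity chase with field-theoretic hypotheses (prefix `rc_co_`)

`rc_co_recip_field` is `rc_co_recip` for the layers `rc_fs_layer`, with the cyclotomic carrier
`C := E'`, generators chosen by surjectivity of `rc_dg_resHom`, the term formula `rc_tf_term`, the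
norm conversion `rc_nc_hnorm` and `rc_dg_idx_unram` plugged in: all remaining hypotheses speak
about the number fields `E ⊆ E', Z ⊆ M` only.
-/

set_option autoImplicit false
set_option linter.unusedSectionVars false

open scoped NumberField Pointwise TensorProduct
open IsDedekindDomain CategoryTheory groupCohomology MulAction
open Fermat.Agent.S14
open scoped IsMulCommutative

namespace Fermat.Agent.S55

noncomputable section

section gen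

variable (E E' M : Type) [Field E] [NumberField E] [Field E'] [NumberField E'] [Field M]
  [NumberField M] [Algebra E E'] [Algebra E' M] [Algebra E M] [IsScalarTower E E' M]
  [IsGalois E M] [IsGalois E E']

/-- a lift to the layer `𝒢 = rc_dg_sub E M` of a given generator of `Gal(E'/E)`. -/
theorem rc_co_exists_generator_of (t₀ : Gal(E'/E)) (ht₀ : ∀ t : Gal(E'/E), t ∈ Subgroup.zpowers t₀) :
    ∃ τ : ↥(rc_dg_sub E M), rc_dg_resHom E E' M τ = t₀ ∧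
      orderOf (τ : ↥(rc_dg_sub E M) ⧸ (rc_dg_resHom E E' M).ker) = orderOf t₀ ∧
      ∀ g : ↥(rc_dg_sub E M) ⧸ (rc_dg_resHom E E' M).ker,
        g ∈ Subgroup.zpowers (τ : ↥(rc_dg_sub E M) ⧸ (rc_dg_resHom E E' M).ker) := by
  obtain ⟨τ, hτ⟩ := rc_dg_resHom_surjective (E := E) (E' := E') (M := M) t₀
  set e := rc_fs_kerQuotEquiv E E' M with he
  have hemk : e (τ : ↥(rc_dg_sub E M) ⧸ (rc_dg_resHom E E' M).ker) = t₀ := by
    rw [he, rc_fs_kerQuotEquiv_mk, hτ]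
  refine ⟨τ, hτ, ?_, ?_⟩
  · rw [← orderOf_injective e.toMonoidHom e.injective]
    change orderOf (e _) = _
    rw [hemk]
  · intro g
    obtain ⟨k, hk⟩ := Subgroup.mem_zpowers_iff.1 (ht₀ (e g))
    refine Subgroup.mem_zpowers_iff.2 ⟨k, ?_⟩
    apply e.injective
    rw [map_zpow, hemk, hk]

end gen

section core

variable {M : Type} [Field M] [NumberField M] [IsGalois ℚ M] {p : ℕ} [Fact p.Prime]
  {J : Rep.{0} ℤ (M ≃ₐ[ℚ] M)} {Q : Type} (𝔻 : rc_InvData p J Q) (hfin : rc_FinSupp 𝔻)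
  (δ : id_KRep M ⟶ J) (𝔇 : ∀ q, rc_td_Dict 𝔻 δ q)
  {E E' Z : Type} [Field E] [NumberField E] [Field E'] [NumberField E'] [Field Z] [NumberField Z]
  [Algebra E M] [IsGalois E M]
  [Algebra E E'] [Algebra E' M] [IsScalarTower E E' M] [IsGalois E E'] [IsMulCommutative Gal(E'/E)]
  [Algebra E Z] [Algebra Z M] [IsScalarTower E Z M] [IsGalois E Z] [IsMulCommutative Gal(Z/E)]

/-- **The reciprocity chase, field-theoretic form.** -/
theorem rc_co_recip_field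
    (huniq : ∀ q q' (g : M ≃ₐ[ℚ] M), g • (𝔇 q).w.asIdeal = (𝔇 q').w.asIdeal → q = q')
    (hcov : ∀ R : Ideal (𝓞 M), R.IsPrime → R ≠ ⊥ →
      ∃ q, ∃ g : M ≃ₐ[ℚ] M, g • (𝔇 q).w.asIdeal = R)
    -- the modulus `p` of the layer `E'/E`
    (qp : Nat.Primes) (πp : J ⟶ id_ARep M qp) (q₀ : Q)
    (pr'p : tt_res (𝔻.D q₀) (id_ARep M qp) ⟶ 𝔻.X q₀)
    (hfacp : (Rep.resFunctor (𝔻.D q₀).subtype).map πp ≫ pr'p = 𝔻.pr q₀)
    (hψp : ∀ y : Mˣ, (δ ≫ πp).hom (Additive.ofMul y) = Additive.ofMul (id_inclU M qp y))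
    -- the modulus `l'` of the layer `Z/E`
    (ql : Nat.Primes) (πl : J ⟶ id_ARep M ql) (q₁ : Q) (hq01 : q₀ ≠ q₁)
    (pr'l : tt_res (𝔻.D q₁) (id_ARep M ql) ⟶ 𝔻.X q₁)
    (hfacl : (Rep.resFunctor (𝔻.D q₁).subtype).map πl ≫ pr'l = 𝔻.pr q₁)
    (hψl : ∀ y : Mˣ, (δ ≫ πl).hom (Additive.ofMul y) = Additive.ofMul (id_inclU M ql y))
    -- the inputs of `rr_pp_reciprocity` on the layer of `E'`
    (hHasse : rr_Hasse 𝔻 (rr_up (rc_dg_sub E M) (rc_dg_resHom E E' M).ker))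
    (hinj : ∀ x : groupCohomology
        (tt_res (rr_up (rc_dg_sub E M) (rc_dg_resHom E E' M).ker) (id_KRep M)) 2,
      tt_IsPPrimary p x →
      (rr_push δ (rr_up (rc_dg_sub E M) (rc_dg_resHom E E' M).ker)).hom x = 0 → x = 0)
    (hH90 : Subsingleton (groupCohomology
      (Rep.res (rc_dg_resHom E E' M).ker.subtype (tt_res (rc_dg_sub E M) (id_KRep M))) 1))
    (hSL : ∀ z : groupCohomology (tt_res (rc_dg_sub E M) J) 2,
      (∀ g, rc_comp 𝔻 q₀ (rc_dg_sub E M) g z = 0) → (rr_push πp (rc_dg_sub E M)).hom z = 0)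
    (hH90p : Subsingleton (groupCohomology
      (Rep.res (rc_dg_resHom E E' M).ker.subtype (tt_res (rc_dg_sub E M) (id_ARep M qp))) 1))
    -- the cyclic layer `E' = E(ζ_{p^j})`
    [NumberField.IsTotallyComplex E] [IsCyclic Gal(E'/E)] {j : ℕ} (hj : 1 ≤ j)
    [IsCyclotomicExtension {(qp : ℕ) ^ j} E E']
    (hunr : ∀ v : Ideal (𝓞 E), v.IsPrime → (((qp : ℕ) : ℕ) : 𝓞 E) ∉ v → am_Unram E E' v)
    (hqm : ∀ q (g : M ≃ₐ[ℚ] M),
      (((qp : ℕ) : ℕ) : 𝓞 E) ∈ (id_under E M (g • (𝔇 q).w)).asIdeal → q = q₀)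
    -- the cyclic layer `Z/E` of degree `p ^ c`
    (t₀ : Gal(Z/E)) {c : ℕ} (hc : 1 ≤ c) (ht₀ : orderOf t₀ = p ^ c)
    (hgen₀ : ∀ t : Gal(Z/E), t ∈ Subgroup.zpowers t₀)
    (hunrZ : ∀ v : Ideal (𝓞 E), v.IsPrime → v ≠ ⊥ → (((ql : ℕ) : ℕ) : 𝓞 E) ∉ v → am_Unram E Z v)
    (hqmZ : ∀ q (g : M ≃ₐ[ℚ] M),
      (((ql : ℕ) : ℕ) : 𝓞 E) ∈ (id_under E M (g • (𝔇 q).w)).asIdeal → q = q₁)
    -- the element `b'`
    (b' : Eˣ) (β : (id_A Z ql)ˣ)
    (hβ : rc_cl_normT (E := E) (ql : ℕ) (β : id_A Z ql) =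
      (1 : ℚ_[(ql : ℕ)]) ⊗ₜ[ℚ] algebraMap E Z (b' : E))
    (hsym : rc_ad_symbol E Z (ql : ℕ) b' = 1)
    -- the class `α`
    (α : groupCohomology (tt_res (rc_dg_sub E M) (id_KRep M)) 2) (hα : p ^ c • α = 0)
    (happ : ∀ (g : M ≃ₐ[ℚ] M) (d : ℕ),
      am_frob E Z (id_under E M (g • (𝔇 q₀).w)).asIdeal = t₀ ^ d →
      rc_term 𝔻 q₀ (rc_dg_sub E M) g ((rr_push δ (rc_dg_sub E M)).hom α) =
        cy_frac (p ^ c) ((d : ℤ) * id_ordZ E (id_under E M (g • (𝔇 q₀).w)) b'))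
    (hout : ∀ q (g : M ≃ₐ[ℚ] M), q ≠ q₀ →
      p ^ c ∣ orderOf (am_frob E E' (id_under E M (g • (𝔇 q).w)).asIdeal) ∨
      (rc_term 𝔻 q (rc_dg_sub E M) g ((rr_push δ (rc_dg_sub E M)).hom α) = 0 ∧ q ≠ q₁ ∧
        id_ordZ E (id_under E M (g • (𝔇 q).w)) b' = 0)) :
    rc_INV 𝔻 hfin (rc_dg_sub E M) ((rr_push δ (rc_dg_sub E M)).hom α) = 0 := by
  classical
  have : Finite (M ≃ₐ[ℚ] M) := inferInstance
  have hqp : (qp : ℕ).Prime := qp.2
  -- generators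
  obtain ⟨τ, hτ1, hτ2, -, -⟩ := rc_fs_exists_generator E E' M
  obtain ⟨τZ, hτZ0, hτZ1, hτZ2⟩ := rc_co_exists_generator_of E Z M t₀ hgen₀
  have hn : 0 < Nat.card Gal(E'/E) := Nat.card_pos
  -- membership of `p ^ j`
  have hpow : ∀ v : Ideal (𝓞 E), v.IsPrime →
      ((((qp : ℕ) ^ j : ℕ) : 𝓞 E) ∈ v ↔ (((qp : ℕ) : ℕ) : 𝓞 E) ∈ v) := by
    intro v hv
    rw [Nat.cast_pow]
    constructor
    · exact fun h => hv.mem_of_pow_mem j h
    · intro h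
      obtain ⟨j', rfl⟩ : ∃ j', j = j' + 1 := ⟨j - 1, by omega⟩
      rw [pow_succ]
      exact v.mul_mem_left _ h
  refine rc_co_recip 𝔻 hfin δ 𝔇 (rc_fs_layer E E' M) (rc_fs_layer E Z M) huniq hcov
    qp πp q₀ pr'p hfacp hψp ql πl q₁ hq01 pr'l hfacl hψl hHasse hinj hH90 hSL hH90p (C := E') hj hn
    hτ1 hτ2 τ rfl ?_ ?_ ?_ hc (hτZ1.trans ht₀) hτZ2 τZ rfl ?_ hqmZ ?_ b' ?_ hsym α hα ?_ ?_
  · -- hunr
    intro q g hm
    exact hunr _ (id_under E M (g • (𝔇 q).w)).isPrime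
      (fun h => hm ((hpow _ (id_under E M (g • (𝔇 q).w)).isPrime).2 h))
  · -- hqm
    intro q g hm
    exact hqm q g ((hpow _ (id_under E M (g • (𝔇 q).w)).isPrime).1 hm)
  · -- hterm
    intro q g d f x hu hd hx
    exact rc_tf_term 𝔻 δ (𝔇 q) (rc_fs_layer E E' M) hn hτ1 τ rfl g hu hd f x hx
  · -- hunrZ
    intro q g hm
    exact hunrZ _ (id_under E M (g • (𝔇 q).w)).isPrime (id_under E M (g • (𝔇 q).w)).ne_bot hm
  · -- htermZ
    intro q g d f x hu hd hx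
    exact rc_tf_term 𝔻 δ (𝔇 q) (rc_fs_layer E Z M) (pow_pos (Fact.out : p.Prime).pos c)
      (hτZ1.trans ht₀) τZ rfl g hu hd f x hx
  · -- hnormb
    exact rc_nc_hnorm (rc_fs_layer E Z M) (hτZ1.trans ht₀) hτZ2 b' β hβ
  · -- happ
    intro g d hd
    refine happ g d ?_
    rw [hd, rc_fs_layer_ρ, hτZ0]
  · -- hout
    intro q g hq
    rcases hout q g hq with h | h
    · left
      have hpv : (((qp : ℕ) : ℕ) : 𝓞 E) ∉ (id_under E M (g • (𝔇 q).w)).asIdeal :=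
        fun hm => hq (hqm q g hm)
      have hu : am_Unram E E' ((g • (𝔇 q).w.asIdeal).under (𝓞 E)) :=
        hunr _ (id_under E M (g • (𝔇 q).w)).isPrime hpv
      have := (𝔇 q).w.isPrime
      rw [(𝔇 q).hD, rc_sn_up_ker, rc_dg_idx_unram (𝔇 q).w.asIdeal (𝔇 q).w.ne_bot g hu]
      exact h
    · exact Or.inr h

end core

end

end Fermat.Agent.S55
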