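import Fermat.Agent.S55.Recip.Reciprocity
import Fermat.Agent.S55.Recip.HasseSum
import Fermat.Agent.S55.FinGrp.CohTrivExact
import Fermat.Agent.S55.Devissage.Transport

/-!
# Inputs of the reciprocity chase `rr_reciprocity` (G4 (C); prefix `rr_`)

* `rr_hinj`: for a short exact sequence `0 → A → J → C → 0` of `Γ`-modules and a layer `H` with
  `H¹(H, C) = 0` the map `H²(H, A) → H²(H, J)` is injective (hypothesis `hinj`);
* `rr_h1_up`: `H¹` of `N ≤ 𝒢` computed as a subgroup of `Γ` (hypotheses `hH90`, `hH90p`);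
* `rr_single`, `rr_hSL`: the semi-local module at one index and the hypothesis `hSL` from
  `hs_IsCoindSum` (Shapiro).
-/

set_option autoImplicit false

namespace Fermat.Agent.S55

open CategoryTheory groupCohomology

section hinj

variable {k Γ : Type} [CommRing k] [Group Γ] {A J C : Rep.{0} k Γ} (δ : A ⟶ J) (g : J ⟶ C)

/-- **`hinj`**: `H²(H, A) → H²(H, J)` is injective when `H¹(H, C) = 0`. -/
theorem rr_hinj (w : δ ≫ g = 0) (hδ : Function.Injective δ.hom)
    (hex : ∀ x : J.V, g.hom x = 0 → ∃ y : A.V, δ.hom y = x) (hg : Function.Surjective g.hom)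
    (H : Subgroup Γ) (hH1 : Subsingleton (groupCohomology (tt_res H C) 1)) :
    Function.Injective (rr_push δ H).hom := by
  let S : ShortComplex (Rep.{0} k ↥H) :=
    ShortComplex.mk ((Rep.resFunctor H.subtype).map δ) ((Rep.resFunctor H.subtype).map g)
      (by rw [← Functor.map_comp, w, Functor.map_zero])
  have hS : S.ShortExact := (fg_shortExact_iff S).2 ⟨hδ, hex, hg⟩
  have hE := mapShortComplex₁_exact hS (i := 1) (j := 2) rfl
  rw [ShortComplex.moduleCat_exact_iff] at hE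
  rw [injective_iff_map_eq_zero]
  intro x hx
  obtain ⟨y, hy⟩ := hE x hx
  have hy0 : y = 0 := @Subsingleton.elim _ hH1 y 0
  rw [← hy, hy0]
  exact map_zero _

end hinj

section up

variable {k Γ : Type} [CommRing k] [Group Γ] (A : Rep.{0} k Γ) (𝒢 : Subgroup Γ) (N : Subgroup ↥𝒢)

/-- `N ≃ N.map 𝒢.subtype`. -/
def rr_upEquiv : ↥N ≃* ↥(rr_up 𝒢 N) where
  toFun := rr_upHom 𝒢 N
  invFun y := ⟨⟨(y : Γ), rr_up_le 𝒢 N y.2⟩, by
    obtain ⟨x, hx, hxy⟩ := y.2
    have : x = ⟨(y : Γ), rr_up_le 𝒢 N y.2⟩ := Subtype.ext hxy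
    rw [← this]
    exact hx⟩
  left_inv _ := rfl
  right_inv _ := rfl
  map_mul' _ _ := rfl

/-- **`hH90`-shape**: vanishing of `H¹` of the layer `N`, computed as a subgroup of `Γ`. -/
theorem rr_h1_up (n : ℕ) (h : Subsingleton (groupCohomology (tt_res (rr_up 𝒢 N) A) n)) :
    Subsingleton (groupCohomology (Rep.res N.subtype (tt_res 𝒢 A)) n) :=
  (dv_subsingleton_iff (rr_upEquiv 𝒢 N) (tt_res (rr_up 𝒢 N) A) n).2 h

end up

section single

variable {Γ : Type} [Group Γ] {p : ℕ} {J Jp : Rep.{0} ℤ Γ} {Q : Type}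
  (𝔻 : rc_InvData p J Q) (πp : J ⟶ Jp) (q₀ : Q) (pr' : tt_res (𝔻.D q₀) Jp ⟶ 𝔻.X q₀)

/-- The datum with the single index `q₀` on the semi-local module `Jp`. -/
@[reducible] def rr_single : rc_InvData p Jp Unit where
  D _ := 𝔻.D q₀
  X _ := 𝔻.X q₀
  pr _ := pr'
  P _ := 𝔻.P q₀

/-- The components at `q₀` factor through the semi-local module. -/
theorem rr_comp_single
    (hfac : (Rep.resFunctor (𝔻.D q₀).subtype).map πp ≫ pr' = 𝔻.pr q₀) (H : Subgroup Γ) (g : Γ)
    (z : groupCohomology (tt_res H J) 2) :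
    rc_comp 𝔻 q₀ H g z = rc_comp (rr_single 𝔻 q₀ pr') () H g ((rr_push πp H).hom z) := by
  have h1 : rc_loc (𝔻.pr q₀) (rc_conj g H) 2 =
      rr_push πp (rc_conj g H) ≫ rc_loc pr' (rc_conj g H) 2 := by
    unfold rc_loc
    rw [← map_comp, ← hfac]
    exact map_congr rfl rfl 2
  have h2 : rc_cj J g (rc_conj_spec g H) 2 ≫ rc_loc (𝔻.pr q₀) (rc_conj g H) 2 =
      rr_push πp H ≫ rc_cj Jp g (rc_conj_spec g H) 2 ≫ rc_loc pr' (rc_conj g H) 2 := by
    rw [h1, ← Category.assoc, ← rr_push_cj, Category.assoc]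
  exact congrArg (fun F => F.hom z) h2

variable [Finite Γ]

/-- **`hSL`**: a class of `H²(𝒢, J)` without components at `q₀` dies in the semi-local module,
as soon as the latter is coinduced from `𝔻.X q₀` (Shapiro). -/
theorem rr_hSL (hfac : (Rep.resFunctor (𝔻.D q₀).subtype).map πp ≫ pr' = 𝔻.pr q₀)
    (h : hs_IsCoindSum (rr_single 𝔻 q₀ pr')) (𝒢 : Subgroup Γ)
    (z : groupCohomology (tt_res 𝒢 J) 2) (hz : ∀ g, rc_comp 𝔻 q₀ 𝒢 g z = 0) :
    (rr_push πp 𝒢).hom z = 0 :=
  hs_hasse h 𝒢 _ fun _ g => by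
    rw [← rr_comp_single 𝔻 πp q₀ pr' hfac]
    exact hz g

end single

/-! ### The Hasse principle in degree `1` (after helper15's `hs_hasse'`) -/

section supp₁

variable {H : Type} [Group H] {A : Rep.{0} ℤ H} {X : Type*} [MulAction H X] [Fintype X]
  (D : ob_RepDecomp A X)

/-- Degree `1` analogue of `hs_cl2_eq_zero_of_loc_supp`. -/
theorem rr_cl1_eq_zero_of_loc_supp {I : Type*} (pt : I → X)
    (S : I → Subgroup H) (B : ∀ i, Rep.{0} ℤ (S i)) (C : ∀ i, ob_Comp A D (pt i) (S i) (B i))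
    (c : H → A.V) (hc : te_IsZ1 A c)
    (hsupp : ∀ x : X, (∀ i, x ∉ MulAction.orbit H (pt i)) → ∀ s, D.π x (c s) = 0)
    (hz : ∀ i, (ob_loc (S i) (C i).pr 1).hom (te_cl1 A c hc) = 0) : te_cl1 A c hc = 0 := by
  rw [te_cl1_eq_zero_iff]
  let _ := ob_repAction A
  have hcob : IsCoboundary₁ c := by
    refine ob_isCoboundary₁_of_loc_family D.toDecomp (c := c) (fun g h => hc g h)
      (I := I ⊕ {x : X // ∀ i, x ∉ MulAction.orbit H (pt i)})
      (fun j => Sum.elim pt (fun x => x.1) j) ?_ ?_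
    · intro x
      by_cases hx : ∃ i, x ∈ MulAction.orbit H (pt i)
      · obtain ⟨i, hi⟩ := hx
        exact ⟨Sum.inl i, hi⟩
      · exact ⟨Sum.inr ⟨x, fun i hi => hx ⟨i, hi⟩⟩, MulAction.mem_orbit_self x⟩
    · rintro (i | x)
      · have h1 := hz i
        rw [ob_loc, te_map_cl1 (S i).subtype (C i).pr hc, te_cl1_eq_zero_iff] at h1
        obtain ⟨y, hy⟩ := h1
        have hmem : ∀ s : ↥(MulAction.stabilizer H (pt i)), (s : H) ∈ S i := fun s =>
          ((C i).stab s).mpr s.2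
        refine ⟨(C i).ι y, fun s => ?_⟩
        have h2 := congrFun hy ⟨s, hmem s⟩
        simp only [te_d0] at h2
        have h3 := congrArg (C i).ι h2
        rw [(C i).ι_pr, map_sub, (C i).ι_ρ] at h3
        exact h3.symm
      · refine ⟨0, fun s => ?_⟩
        show s • (0 : A.V) - 0 = D.π x.1 (c (s : H))
        rw [hsupp x.1 x.2, smul_zero, sub_zero]
  obtain ⟨m, hm⟩ := hcob
  exact ⟨m, funext fun g => (hm g).symm⟩

end supp₁

section hasse₁

variable {Γ : Type} [Group Γ] {A : Rep.{0} ℤ Γ} {X : Type*} [MulAction Γ X] [Fintype X]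
  {𝒟 : ob_RepDecomp A X} {x₀ : X} {S : Subgroup Γ} {B : Rep.{0} ℤ S}

/-- `hs_loc_conjComp` in an arbitrary degree. -/
theorem rr_loc_conjComp (C : ob_Comp A 𝒟 x₀ S B) (H : Subgroup Γ) (g : Γ) (n : ℕ) :
    ob_loc (hs_conjStab S H g) (hs_conjComp C H g).pr n =
      (rc_cj A g (rc_conj_spec g H) n ≫ rc_loc C.pr (rc_conj g H) n) ≫
        groupCohomology.map (hs_conjEquiv S H g).toMonoidHom
          (𝟙 (Rep.res (hs_conjEquiv S H g).toMonoidHom (tt_res ((rc_conj g H).subgroupOf S) B)))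
          n := by
  unfold rc_cj rc_loc
  rw [ob_loc, ← groupCohomology.map_comp, ← groupCohomology.map_comp]
  refine groupCohomology.map_congr ?_ ?_ n
  · ext s
    show ((s : ↥H) : Γ) = g * (g⁻¹ * ((s : ↥H) : Γ) * g) * g⁻¹
    group
  · rfl

end hasse₁

section hasse₁'

variable {Γ : Type} [Group Γ] [Finite Γ] {p : ℕ} {J : Rep.{0} ℤ Γ} {Q : Type}
  {𝔻 : rc_InvData p J Q}

/-- **The Hasse principle in degree `1`**: a class of `H¹(H, J)` all of whose components vanish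
is zero. -/
theorem rr_hasse₁ (h : hs_IsCoindSum 𝔻) (H : Subgroup Γ) (z : groupCohomology (tt_res H J) 1)
    (hz : ∀ (q : Q) (g : Γ), (rc_cj J g (rc_conj_spec g H) 1 ≫
      rc_loc (𝔻.pr q) (rc_conj g H) 1).hom z = 0) : z = 0 := by
  classical
  obtain ⟨c, hc, rfl⟩ := te_cl1_surjective (tt_res H J) z
  have hfin : (⋃ r : ↥H, {q : Q | ∃ g : Γ, (𝔻.pr q).hom (J.ρ g (c r)) ≠ 0}).Finite :=
    Set.finite_iUnion fun r => h.fin (c r)
  set T : Finset Q := hfin.toFinset with hTdef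
  have hT : ∀ q, q ∉ T → ∀ (r : ↥H) (k : Γ), (𝔻.pr q).hom (J.ρ k (c r)) = 0 := by
    intro q hq r k
    by_contra hne
    exact hq (hfin.mem_toFinset.mpr (Set.mem_iUnion.mpr ⟨r, k, hne⟩))
  refine rr_cl1_eq_zero_of_loc_supp ((hs_decomp h T).res H) (I := ↥T × Γ)
    (fun i => i.2 • hs_base 𝔻 T i.1.1 i.1.2)
    (fun i => hs_conjStab (𝔻.D i.1.1) H i.2)
    (fun i => Rep.res (hs_conjHom (𝔻.D i.1.1) H i.2) (𝔻.X i.1.1))
    (fun i => hs_conjComp (hs_comp h T i.1.1 i.1.2) H i.2) c hc ?_ ?_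
  · intro x hx r
    cases x with
    | none =>
      refine h.ext _ fun q g => ?_
      rw [ob_RepDecomp.res_π, hs_decomp_π, hs_π_spec]
      split_ifs with h1
      · have hq : q ∉ T := by
          intro hq
          rw [hs_pt_of_mem T hq] at h1
          cases h1
        exact hT q hq r g
      · rfl
    | some y =>
      exfalso
      obtain ⟨q, y⟩ := y
      induction y using QuotientGroup.induction_on with
      | H k =>
        refine hx (q, k) ⟨1, ?_⟩
        show (1 : Γ) • (k • hs_base 𝔻 T q.1 q.2) = _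
        rw [one_smul, hs_smul_base]
  · intro i
    rw [rr_loc_conjComp]
    have h1 : (rc_cj J i.2 (rc_conj_spec i.2 H) 1 ≫
        rc_loc (𝔻.pr i.1.1) (rc_conj i.2 H) 1).hom (te_cl1 (tt_res H J) c hc) = 0 := hz i.1.1 i.2
    show (groupCohomology.map _ _ 1).hom ((rc_cj J i.2 _ 1 ≫
      rc_loc (hs_comp h T i.1.1 i.1.2).pr (rc_conj i.2 H) 1).hom _) = 0
    rw [hs_comp_pr, h1, map_zero]

/-- `H¹(H, J) = 0` as soon as all local `H¹` vanish. -/
theorem rr_H1_subsingleton (h : hs_IsCoindSum 𝔻) (H : Subgroup Γ)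
    (hloc : ∀ (q : Q) (g : Γ), Subsingleton
      (groupCohomology (tt_res ((rc_conj g H).subgroupOf (𝔻.D q)) (𝔻.X q)) 1)) :
    Subsingleton (groupCohomology (tt_res H J) 1) := by
  refine ⟨fun a b => ?_⟩
  rw [rr_hasse₁ h H a fun q g => @Subsingleton.elim _ (hloc q g) _ _,
    rr_hasse₁ h H b fun q g => @Subsingleton.elim _ (hloc q g) _ _]

end hasse₁'

/-! ### Local `H¹` vanishing from the class module axioms -/

section h1torsion

/-- `|G|` kills `H¹(G, A)`. -/
theorem rr_h1_card_smul {G : Type} [Group G] [Finite G] (A : Rep.{0} ℤ G)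
    (x : groupCohomology A 1) : Nat.card G • x = 0 := by
  classical
  have := Fintype.ofFinite G
  obtain ⟨c, hc, rfl⟩ := te_cl1_surjective A x
  rw [← te_cl1_nsmul, te_cl1_eq_zero_iff]
  refine ⟨-∑ h, c h, funext fun g => ?_⟩
  have h1 : ∑ h, c (g * h) = A.ρ g (∑ h, c h) + Nat.card G • c g := by
    have : ∀ h, c (g * h) = A.ρ g (c h) + c g := fun h => hc g h
    simp_rw [this]
    rw [Finset.sum_add_distrib, map_sum, Finset.sum_const, Finset.card_univ,
      Nat.card_eq_fintype_card]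
  have h2 : ∑ h, c (g * h) = ∑ h, c h :=
    Fintype.sum_bijective (g * ·) (Group.mulLeft_bijective g) _ _ (fun _ => rfl)
  rw [h2] at h1
  simp only [te_d0, Pi.smul_apply, map_neg]
  have h3 : Nat.card G • c g = ∑ h, c h - A.ρ g (∑ h, c h) := by
    rw [eq_sub_iff_add_eq, add_comm]
    exact h1.symm
  rw [h3]
  abel

variable {Δ : Type} [Group Δ] [Finite Δ] {p : ℕ} [Fact p.Prime] {X : Rep.{0} ℤ Δ}

/-- For a `p`-class module, `H¹` of a `p`-subgroup vanishes. -/
theorem rr_H1_subsingleton_of_pgroup (P : PClassModule p X) (D' : Subgroup Δ)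
    (hD' : IsPGroup p ↥D') : Subsingleton (groupCohomology (tt_res D' X) 1) := by
  obtain ⟨n, hn⟩ := IsPGroup.exists_card_eq hD'
  have key : ∀ (m : ℕ) (x : groupCohomology (tt_res D' X) 1), p ^ m • x = 0 → x = 0 := by
    intro m
    induction m with
    | zero => intro x hx; simpa using hx
    | succ m ih =>
      intro x hx
      apply ih
      apply P.h1 D'
      rw [← mul_smul, ← pow_succ']
      exact hx
  have h0 : ∀ x : groupCohomology (tt_res D' X) 1, x = 0 := fun x =>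
    key n x (by rw [← hn]; exact rr_h1_card_smul _ x)
  exact ⟨fun a b => by rw [h0 a, h0 b]⟩

end h1torsion

section hH90p

variable {Γ : Type} [Group Γ] [Finite Γ] {p : ℕ} [Fact p.Prime] {J Jp : Rep.{0} ℤ Γ} {Q : Type}
  (𝔻 : rc_InvData p J Q) (q₀ : Q) (pr' : tt_res (𝔻.D q₀) Jp ⟶ 𝔻.X q₀)

/-- **`hH90p`**: semi-local Hilbert 90 on a `p`-subgroup layer, from Shapiro and the class module
axiom `h1` of the local module. -/
theorem rr_hH90p (h : hs_IsCoindSum (rr_single 𝔻 q₀ pr')) (𝒢 : Subgroup Γ) (N : Subgroup ↥𝒢)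
    (hp : IsPGroup p ↥𝒢) :
    Subsingleton (groupCohomology (Rep.res N.subtype (tt_res 𝒢 Jp)) 1) := by
  apply rr_h1_up
  refine rr_H1_subsingleton h (rr_up 𝒢 N) fun _ g => ?_
  refine rr_H1_subsingleton_of_pgroup (𝔻.P q₀) _ ?_
  -- `g⁻¹ N g ∩ D` is a `p`-group
  have h1 : IsPGroup p ↥(rr_up 𝒢 N) :=
    (hp.to_subgroup N).of_equiv (rr_upEquiv 𝒢 N)
  have h2 : IsPGroup p ↥(rc_conj g (rr_up 𝒢 N)) := by
    refine IsPGroup.of_injective h1 (rc_cjHom g (rc_conj_spec g (rr_up 𝒢 N))) ?_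
    intro a b hab
    have := congrArg (fun x : ↥(rr_up 𝒢 N) => (x : Γ)) hab
    simp only [rc_cjHom_coe] at this
    apply Subtype.ext
    simpa using this
  exact IsPGroup.of_injective h2 (rc_locHom (𝔻.D q₀) (rc_conj g (rr_up 𝒢 N))) (by
    intro a b hab
    have := congrArg (fun x : ↥(rc_conj g (rr_up 𝒢 N)) => (x : Γ)) hab
    simp only [rc_locHom_coe] at this
    apply Subtype.ext
    apply Subtype.ext
    exact this)

end hH90p

end Fermat.Agent.S55
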