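import Fermat.Agent.S55.Recip.TotalInv
import Fermat.Agent.S55.Recip.CyclicRecip
import Fermat.Agent.S55.LocalCF.UnrFormula

/-!
# Local terms of the total invariant for classes inflated from a quotient layer (G4; prefix `rr_`)

`𝔻 : rc_InvData p J Q` (helper13's `Recip/TotalInv.lean`), `𝒢 ≤ Γ` a layer and `N ⊴ 𝒢`.
For a class `θ ∈ H²(𝒢 ⧸ N, J^N)` the component of `inf θ ∈ H²(𝒢, J)` at the place `g · v_q` is
again inflated, from the quotient of `S'' = g⁻¹𝒢g ∩ D_q` by `N'' = g⁻¹Ng ∩ D_q` (`rr_comp_inf`).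
With the unramified formula `lcu_Unr (𝔻.P q)` and `𝒢 ⧸ N = ⟨σ⟩` cyclic this computes the local
term of the total invariant of a global cyclic class (`rr_term_inf_cyc`).
-/

set_option autoImplicit false

namespace Fermat.Agent.S55

open CategoryTheory groupCohomology

section generic

variable {k Γ : Type} [CommRing k] [Group Γ] (J : Rep.{0} k Γ) {D : Subgroup Γ} {X : Rep.{0} k ↥D}
  (pr : tt_res D J ⟶ X) (𝒢 : Subgroup Γ) (N : Subgroup ↥𝒢) [N.Normal] (g : Γ)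

/-- the decomposition group of the layer `𝒢` at the place `g · v`, inside `D`. -/
abbrev rr_S (D : Subgroup Γ) : Subgroup ↥D := (rc_conj g 𝒢).subgroupOf D

/-- `d ↦ g d g⁻¹`, from `g⁻¹𝒢g ∩ D` to `𝒢`. -/
def rr_kap (D : Subgroup Γ) : ↥(rr_S 𝒢 g D) →* ↥𝒢 :=
  (rc_cjHom g (rc_conj_spec g 𝒢)).comp (rc_locHom D (rc_conj g 𝒢))

@[simp] theorem rr_kap_coe (d : ↥(rr_S 𝒢 g D)) :
    ((rr_kap 𝒢 g D d : ↥𝒢) : Γ) = g * ((d : ↥D) : Γ) * g⁻¹ := rfl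

/-- `g⁻¹Ng ∩ D`, as a (normal) subgroup of `g⁻¹𝒢g ∩ D`. -/
abbrev rr_N (D : Subgroup Γ) : Subgroup ↥(rr_S 𝒢 g D) := N.comap (rr_kap 𝒢 g D)

/-- the induced map on the quotients. -/
def rr_kapQ (D : Subgroup Γ) : ↥(rr_S 𝒢 g D) ⧸ rr_N 𝒢 N g D →* ↥𝒢 ⧸ N :=
  QuotientGroup.map (rr_N 𝒢 N g D) N (rr_kap 𝒢 g D) le_rfl

@[simp] theorem rr_kapQ_mk (d : ↥(rr_S 𝒢 g D)) :
    rr_kapQ 𝒢 N g D (d : ↥(rr_S 𝒢 g D) ⧸ rr_N 𝒢 N g D) =
      ((rr_kap 𝒢 g D d : ↥𝒢) : ↥𝒢 ⧸ N) := rfl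

theorem rr_kapQ_injective : Function.Injective (rr_kapQ 𝒢 N g D) := by
  rw [injective_iff_map_eq_one]
  intro x hx
  induction x using QuotientGroup.induction_on with
  | H d =>
    rw [rr_kapQ_mk, QuotientGroup.eq_one_iff] at hx
    exact (QuotientGroup.eq_one_iff d).2 hx

omit [N.Normal] in
/-- `d · pr (g⁻¹ m) = pr (g⁻¹ (g d g⁻¹) m)`. -/
theorem rr_pr_conj (d : ↥D) (m : J.V) :
    X.ρ d (pr.hom (J.ρ g⁻¹ m)) = pr.hom (J.ρ g⁻¹ (J.ρ (g * (d : Γ) * g⁻¹) m)) := by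
  have h1 := Rep.hom_comm_apply pr d (J.ρ g⁻¹ m)
  rw [← h1]
  congr 1
  change J.ρ (d : Γ) (J.ρ g⁻¹ m) = _
  rw [← Module.End.mul_apply, ← map_mul, ← Module.End.mul_apply, ← map_mul]
  congr 2
  group

/-- the component map on invariants: `x ↦ pr (g⁻¹ x)`, from `J^N` to `X^{N''}`. -/
noncomputable def rr_mu :
    Rep.res (rr_kapQ 𝒢 N g D) ((tt_res 𝒢 J).quotientToInvariants N) ⟶
      (tt_res (rr_S 𝒢 g D) X).quotientToInvariants (rr_N 𝒢 N g D) :=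
  Rep.ofHom ⟨LinearMap.codRestrict _
      ((pr.hom.toLinearMap ∘ₗ J.ρ g⁻¹) ∘ₗ
        (Representation.invariants ((tt_res 𝒢 J).ρ.comp N.subtype)).subtype)
      (fun x => by
        rw [Representation.mem_invariants]
        intro n
        change X.ρ ((n : ↥(rr_S 𝒢 g D)) : ↥D) (pr.hom (J.ρ g⁻¹ (x : J.V))) =
          pr.hom (J.ρ g⁻¹ (x : J.V))
        rw [rr_pr_conj]
        congr 2
        exact x.2 ⟨rr_kap 𝒢 g D (n : ↥(rr_S 𝒢 g D)), n.2⟩),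
    fun d => by
      induction d using QuotientGroup.induction_on with
      | H d =>
        ext x
        change pr.hom (J.ρ g⁻¹ (J.ρ (g * ((d : ↥D) : Γ) * g⁻¹) (x : J.V))) =
          X.ρ (d : ↥D) (pr.hom (J.ρ g⁻¹ (x : J.V)))
        rw [rr_pr_conj]⟩

theorem rr_mu_coe (x : ((tt_res 𝒢 J).quotientToInvariants N).V) :
    (((rr_mu J pr 𝒢 N g).hom x : ((tt_res (rr_S 𝒢 g D) X).quotientToInvariants
      (rr_N 𝒢 N g D)).V) : X.V) = pr.hom (J.ρ g⁻¹ (x : J.V)) := rfl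

/-- **The component of an inflated class is inflated**: conjugating by `g`, restricting to
`g⁻¹𝒢g ∩ D` and projecting commutes with inflation from `𝒢 ⧸ N` resp. `(g⁻¹𝒢g ∩ D) ⧸ (g⁻¹Ng ∩ D)`. -/
theorem rr_comp_inf :
    ir_inf₂ (tt_res 𝒢 J) N ≫ rc_cj J g (rc_conj_spec g 𝒢) 2 ≫ rc_loc pr (rc_conj g 𝒢) 2 =
      map (rr_kapQ 𝒢 N g D) (rr_mu J pr 𝒢 N g) 2 ≫
        ir_inf₂ (tt_res (rr_S 𝒢 g D) X) (rr_N 𝒢 N g D) := by
  unfold rc_cj rc_loc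
  rw [← map_comp, ← map_comp, ← map_comp]
  refine map_congr ?_ ?_ 2
  · ext d
    rfl
  · ext x
    rfl

end generic

section cyc

variable {Γ : Type} [Group Γ] {p : ℕ} {J : Rep.{0} ℤ Γ} {Q : Type} (𝔻 : rc_InvData p J Q)
  (𝒢 : Subgroup Γ) (N : Subgroup ↥𝒢) [N.Normal] (q : Q) (g : Γ) (U : lcu_Unr (𝔻.P q))

/-- the valuation on the invariants `X_q^{N''}` (not normalised). -/
noncomputable def rr_vInv :
    ((tt_res (rr_S 𝒢 g (𝔻.D q)) (𝔻.X q)).quotientToInvariants (rr_N 𝒢 N g (𝔻.D q))).V →+ ℤ :=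
  { toFun := fun x => U.v (x : (𝔻.X q).V)
    map_zero' := by
      change U.v (0 : (𝔻.X q).V) = 0
      exact map_zero _
    map_add' := fun x y => by
      change U.v ((x : (𝔻.X q).V) + (y : (𝔻.X q).V)) = _
      exact map_add _ _ _ }

theorem rr_vInv_apply
    (x : ((tt_res (rr_S 𝒢 g (𝔻.D q)) (𝔻.X q)).quotientToInvariants (rr_N 𝒢 N g (𝔻.D q))).V) :
    rr_vInv 𝔻 𝒢 N q g U x = U.v (x : (𝔻.X q).V) := rfl

theorem rr_vInv_inv (t : ↥(rr_S 𝒢 g (𝔻.D q)) ⧸ rr_N 𝒢 N g (𝔻.D q))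
    (x : ((tt_res (rr_S 𝒢 g (𝔻.D q)) (𝔻.X q)).quotientToInvariants (rr_N 𝒢 N g (𝔻.D q))).V) :
    rr_vInv 𝔻 𝒢 N q g U
      (((tt_res (rr_S 𝒢 g (𝔻.D q)) (𝔻.X q)).quotientToInvariants (rr_N 𝒢 N g (𝔻.D q))).ρ t x) =
      rr_vInv 𝔻 𝒢 N q g U x := by
  induction t using QuotientGroup.induction_on with
  | H t =>
    rw [rr_vInv_apply, rr_vInv_apply]
    exact U.v_inv ((t : ↥(rr_S 𝒢 g (𝔻.D q))) : ↥(𝔻.D q)) (x : (𝔻.X q).V)

/-- **The local term of a global class inflated from a cyclic quotient layer, at an unramified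
place.**  `𝒢 ⧸ N = ⟨σ⟩` of order dividing `n`; the place `g · v_q` is unramified in the layer
(`I ∩ S'' ≤ N''`), `φ` is a Frobenius element of `S''` and its image in `𝒢 ⧸ N` is `σ ^ d`.
Then the local term is `d · ord(s) / n`, `s = ∑_{i<n} f (σ^i, σ)`, where `ord` is the normalised
valuation: `|I ∩ S''| · ord (s) = v (pr_q (g⁻¹ s))`. -/
theorem rr_term_inf_cyc {σ : ↥𝒢 ⧸ N} {n : ℕ} (hn : 0 < n) (hσ : σ ^ n = 1)
    (hIN : U.I.subgroupOf (rr_S 𝒢 g (𝔻.D q)) ≤ rr_N 𝒢 N g (𝔻.D q))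
    (φ : ↥(rr_S 𝒢 g (𝔻.D q)))
    (hφ : (((φ : ↥(rr_S 𝒢 g (𝔻.D q))) : ↥(𝔻.D q)) : ↥(𝔻.D q) ⧸ U.I) =
      ((U.frob : ↥(𝔻.D q)) : ↥(𝔻.D q) ⧸ U.I) ^ lc_resDeg U.I (rr_S 𝒢 g (𝔻.D q)).subtype)
    (hm : 0 < (rr_N 𝒢 N g (𝔻.D q)).index)
    {d r : ℕ} (hd : rr_kapQ 𝒢 N g (𝔻.D q)
      ((φ : ↥(rr_S 𝒢 g (𝔻.D q))) : ↥(rr_S 𝒢 g (𝔻.D q)) ⧸ rr_N 𝒢 N g (𝔻.D q)) = σ ^ d)
    (hdr : d * (rr_N 𝒢 N g (𝔻.D q)).index = n * r)
    (f : cocycles₂ ((tt_res 𝒢 J).quotientToInvariants N)) (c₀ : ℤ)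
    (hc₀ : U.v ((𝔻.pr q).hom (J.ρ g⁻¹
        ((cy_repSum ((tt_res 𝒢 J).quotientToInvariants N) σ n
          (f : (↥𝒢 ⧸ N) × (↥𝒢 ⧸ N) → ((tt_res 𝒢 J).quotientToInvariants N).V) :
          ((tt_res 𝒢 J).quotientToInvariants N).V) : J.V))) =
      ((Nat.card ↥(U.I.subgroupOf (rr_S 𝒢 g (𝔻.D q))) : ℕ) : ℤ) * c₀) :
    rc_term 𝔻 q 𝒢 g ((ir_inf₂ (tt_res 𝒢 J) N).hom (H2π _ f)) = cy_frac n ((d : ℤ) * c₀) := by
  let S'' : Subgroup ↥(𝔻.D q) := rr_S 𝒢 g (𝔻.D q)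
  let N'' : Subgroup ↥(rr_S 𝒢 g (𝔻.D q)) := rr_N 𝒢 N g (𝔻.D q)
  set m := (rr_N 𝒢 N g (𝔻.D q)).index with hm'
  let B := (tt_res (rr_S 𝒢 g (𝔻.D q)) (𝔻.X q)).quotientToInvariants (rr_N 𝒢 N g (𝔻.D q))
  let κ := rr_kapQ 𝒢 N g (𝔻.D q)
  let μ := rr_mu J (𝔻.pr q) 𝒢 N g
  -- the component is inflated
  have h1 : rc_comp 𝔻 q 𝒢 g ((ir_inf₂ (tt_res 𝒢 J) N).hom (H2π _ f)) =
      (ir_inf₂ (tt_res S'' (𝔻.X q)) N'').hom (H2π B (mapCocycles₂ κ μ f)) := by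
    have e := rr_comp_inf J (𝔻.pr q) 𝒢 N g
    have e' := congrArg (fun F => F.hom (H2π _ f)) e
    have e2 : (map κ μ 2).hom (H2π _ f) = H2π B (mapCocycles₂ κ μ f) := by
      have := H2π_comp_map κ μ
      exact congr($this f)
    change (ir_inf₂ (tt_res 𝒢 J) N ≫ rc_cj J g (rc_conj_spec g 𝒢) 2 ≫
      rc_loc (𝔻.pr q) (rc_conj g 𝒢) 2).hom (H2π _ f) = _
    rw [← e2]
    exact e'
  rw [rc_term_apply, h1]
  -- the cyclic invariant of the pulled-back cocycle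
  set s := cy_repSum ((tt_res 𝒢 J).quotientToInvariants N) σ n
    (f : (↥𝒢 ⧸ N) × (↥𝒢 ⧸ N) → ((tt_res 𝒢 J).quotientToInvariants N).V) with hs
  set y := (f : (↥𝒢 ⧸ N) × (↥𝒢 ⧸ N) → ((tt_res 𝒢 J).quotientToInvariants N).V) (1, 1) -
    cy_phi σ (f : (↥𝒢 ⧸ N) × (↥𝒢 ⧸ N) → ((tt_res 𝒢 J).quotientToInvariants N).V) d with hy
  have h2 : cy_repSum B ((φ : ↥S'') : ↥S'' ⧸ N'') m
      (mapCocycles₂ κ μ f : (↥S'' ⧸ N'') × (↥S'' ⧸ N'') → B.V) =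
      μ.hom (r • s + cy_repNorm ((tt_res 𝒢 J).quotientToInvariants N) (σ ^ d) m y) :=
    cy_repSum_mapCocycles₂ κ μ hσ hd m r hdr f
  -- divisibility of the valuation of the error term
  obtain ⟨c₁, hc₁⟩ : ((Nat.card ↥(U.I.subgroupOf S'') : ℕ) : ℤ) ∣
      U.v ((μ.hom y : B.V) : (𝔻.X q).V) := by
    apply U.v_dvd S''
    intro t ht
    have htS : t ∈ S'' := ht.2
    have htN : (⟨t, htS⟩ : ↥S'') ∈ N'' := hIN (by
      rw [Subgroup.mem_subgroupOf]; exact ht.1)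
    exact (μ.hom y).2 ⟨⟨t, htS⟩, htN⟩
  have hvnorm : rr_vInv 𝔻 𝒢 N q g U (μ.hom (cy_repNorm ((tt_res 𝒢 J).quotientToInvariants N)
      (σ ^ d) m y)) = (m : ℤ) * rr_vInv 𝔻 𝒢 N q g U (μ.hom y) :=
    rr_v_map_repNorm κ μ hd m (rr_vInv 𝔻 𝒢 N q g U) (rr_vInv_inv 𝔻 𝒢 N q g U) y
  have hval : U.v ((cy_repSum B ((φ : ↥S'') : ↥S'' ⧸ N'') m
      (mapCocycles₂ κ μ f : (↥S'' ⧸ N'') × (↥S'' ⧸ N'') → B.V) : B.V) : (𝔻.X q).V) =
      ((Nat.card ↥(U.I.subgroupOf S'') : ℕ) : ℤ) * ((r : ℤ) * c₀ + (m : ℤ) * c₁) := by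
    rw [h2]
    have e1 : U.v (((μ.hom (r • s + cy_repNorm ((tt_res 𝒢 J).quotientToInvariants N)
        (σ ^ d) m y) : B.V)) : (𝔻.X q).V) =
        (r : ℤ) * rr_vInv 𝔻 𝒢 N q g U (μ.hom s) +
          rr_vInv 𝔻 𝒢 N q g U (μ.hom (cy_repNorm ((tt_res 𝒢 J).quotientToInvariants N)
            (σ ^ d) m y)) := by
      rw [← rr_vInv_apply 𝔻 𝒢 N q g U, map_add, map_add, map_nsmul, map_nsmul, nsmul_eq_mul]
    rw [e1, hvnorm, rr_vInv_apply, rr_vInv_apply, rr_mu_coe, hc₀, hc₁]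
    ring
  rw [U.formula S'' N'' hIN φ hφ (mapCocycles₂ κ μ f) _ hval, map_add, cy_frac_mul_self, add_zero]
  have h' : (r : ℤ) * n = d * m := by
    have : (d : ℤ) * m = n * r := by exact_mod_cast hdr
    linear_combination -this
  exact cy_frac_eq_of_mul_eq hm hn h' c₀

end cyc

section lockill

variable {Γ : Type} [Group Γ] [Finite Γ] {p : ℕ} [Fact p.Prime] {J : Rep.{0} ℤ Γ} {Q : Type}
  (𝔻 : rc_InvData p J Q)

omit [Finite Γ] [Fact p.Prime] in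
/-- the component of a restricted class is the restriction of the component. -/
theorem rr_comp_res (q : Q) {H' H : Subgroup Γ} (hle : H' ≤ H) (g : Γ)
    (hK'' : ∀ x ∈ (rc_conj g H').subgroupOf (𝔻.D q),
      (1 : ↥(𝔻.D q)) * x * (1 : ↥(𝔻.D q))⁻¹ ∈ (rc_conj g H).subgroupOf (𝔻.D q))
    (z : groupCohomology (tt_res H J) 2) :
    rc_comp 𝔻 q H' g ((rc_res J hle).hom z) =
      (rc_cj (𝔻.X q) 1 hK'' 2).hom (rc_comp 𝔻 q H g z) := by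
  have hKK : ∀ x ∈ rc_conj g H', (1 : Γ) * x * (1 : Γ)⁻¹ ∈ rc_conj g H :=
    rc_one_mem (rc_conj_mono g hle)
  have h1 : rc_res J hle ≫ rc_cj J g (rc_conj_spec g H') 2 =
      rc_cj J g (rc_conj_spec g H) 2 ≫ rc_cj J 1 hKK 2 := by
    have hx1 : ∀ x ∈ rc_conj g H', (1 * g) * x * (1 * g)⁻¹ ∈ H := by
      intro x hx; rw [one_mul]; exact hle (rc_conj_spec g H' x hx)
    have hx2 : ∀ x ∈ rc_conj g H', (g * 1) * x * (g * 1)⁻¹ ∈ H := by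
      intro x hx; rw [mul_one]; exact hle (rc_conj_spec g H' x hx)
    rw [rc_cj_comp J 1 g (rc_one_mem hle) (rc_conj_spec g H') 2 hx1,
      rc_cj_comp J g 1 (rc_conj_spec g H) hKK 2 hx2]
    exact rc_cj_congr J (by rw [one_mul, mul_one]) _ _ 2
  unfold rc_comp
  have := rc_cj_loc (𝔻.pr q) (1 : ↥(𝔻.D q)) hKK 2 hK''
  have e : (rc_res J hle ≫ rc_cj J g (rc_conj_spec g H') 2 ≫
      rc_loc (𝔻.pr q) (rc_conj g H') 2) =
      (rc_cj J g (rc_conj_spec g H) 2 ≫ rc_loc (𝔻.pr q) (rc_conj g H) 2) ≫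
        rc_cj (𝔻.X q) 1 hK'' 2 := by
    rw [← Category.assoc, h1, Category.assoc, Category.assoc]
    congr 1
  exact congrArg (fun f => f.hom z) e

omit [Finite Γ] [Fact p.Prime] in
theorem rr_one_mem_subgroupOf (q : Q) {H' H : Subgroup Γ} (hle : H' ≤ H) (g : Γ) :
    ∀ x ∈ (rc_conj g H').subgroupOf (𝔻.D q),
      (1 : ↥(𝔻.D q)) * x * (1 : ↥(𝔻.D q))⁻¹ ∈ (rc_conj g H).subgroupOf (𝔻.D q) := by
  intro x hx
  rw [Subgroup.mem_subgroupOf] at hx ⊢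
  simpa using rc_conj_mono g hle hx

/-- **[LOC-KILL], one place.**  If `p ^ k` kills the component of `z` at the place `g · v_q` and
divides the local index `|g⁻¹Hg ∩ D_q| / |g⁻¹H'g ∩ D_q|` of the layer `H' ≤ H`, then the component
of `res z` at that place vanishes. -/
theorem rr_comp_res_eq_zero (q : Q) {H' H : Subgroup Γ} (hle : H' ≤ H) (g : Γ)
    (z : groupCohomology (tt_res H J) 2) {k : ℕ} (hk : p ^ k • rc_comp 𝔻 q H g z = 0)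
    (hidx : p ^ k ∣ rc_idx (𝔻.D q) H' H g) :
    rc_comp 𝔻 q H' g ((rc_res J hle).hom z) = 0 := by
  have hK'' := rr_one_mem_subgroupOf 𝔻 q hle g
  rw [rr_comp_res 𝔻 q hle g hK'' z]
  have hw : tt_IsPPrimary p (rc_comp 𝔻 q H g z) := ⟨k, hk⟩
  have hw' : tt_IsPPrimary p ((rc_cj (𝔻.X q) 1 hK'' 2).hom (rc_comp 𝔻 q H g z)) :=
    tt_isPPrimary_map (rc_cj (𝔻.X q) 1 hK'' 2).hom.toAddMonoidHom hw
  apply (𝔻.P q).inv_inj _ _ hw'
  rw [rc_pcm_inv_cj (𝔻.P q) 1 hK'' _ hw]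
  obtain ⟨c, hc⟩ := hidx
  change rc_idx (𝔻.D q) H' H g • _ = 0
  rw [hc, mul_comm, mul_smul, ← map_nsmul, hk, map_zero, smul_zero]

/-- The Hasse principle for the layer `H`: a class all of whose components vanish is zero
(`(U4)`: Shapiro + cohomology of the restricted product). -/
def rr_Hasse (H : Subgroup Γ) : Prop :=
  ∀ z : groupCohomology (tt_res H J) 2, (∀ q g, rc_comp 𝔻 q H g z = 0) → z = 0

/-- **[LOC-KILL].**  A class `z` of the layer `H` killed by `p ^ k` such that at every place either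
its component vanishes or `p ^ k` divides the local index of `H' ≤ H` dies on `H'`. -/
theorem rr_res_eq_zero {H' H : Subgroup Γ} (hle : H' ≤ H) (hH' : rr_Hasse 𝔻 H')
    (z : groupCohomology (tt_res H J) 2) {k : ℕ} (hk : p ^ k • z = 0)
    (h : ∀ q g, rc_comp 𝔻 q H g z = 0 ∨ p ^ k ∣ rc_idx (𝔻.D q) H' H g) :
    (rc_res J hle).hom z = 0 := by
  apply hH'
  intro q g
  rcases h q g with h0 | hidx
  · rw [rr_comp_res 𝔻 q hle g (rr_one_mem_subgroupOf 𝔻 q hle g) z, h0, map_zero]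
  · exact rr_comp_res_eq_zero 𝔻 q hle g z (by rw [← map_nsmul, hk, map_zero]) hidx

end lockill

section total

variable {Γ : Type} [Group Γ] [Finite Γ] {p : ℕ} [Fact p.Prime] {J : Rep.{0} ℤ Γ} {Q : Type}
  (𝔻 : rc_InvData p J Q) (hfin : rc_FinSupp 𝔻)

open MulAction

omit [Fact p.Prime] in
/-- **The total invariant of a class all of whose local terms are of the form `x / n`.** -/
theorem rr_INV_eq_frac (H : Subgroup Γ) (w : groupCohomology (tt_res H J) 2) (n : ℕ)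
    (x : ∀ q : Q, orbitRel.Quotient ↥H (Γ ⧸ 𝔻.D q) → ℤ)
    (hx : ∀ q o, rc_term 𝔻 q H (rc_rep (𝔻.D q) H o) w = cy_frac n (x q o))
    (hsupp : {q : Q | ∃ o, x q o ≠ 0}.Finite) :
    rc_INV 𝔻 hfin H w = cy_frac n (∑ᶠ q, ∑ᶠ o, x q o) := by
  rw [rc_INV_apply]
  have h1 : ∀ q, rc_qterm 𝔻 q H w = cy_frac n (∑ᶠ o, x q o) := by
    intro q
    have : Fintype (orbitRel.Quotient ↥H (Γ ⧸ 𝔻.D q)) := Fintype.ofFinite _
    rw [rc_qterm_apply, finsum_eq_sum_of_fintype, finsum_eq_sum_of_fintype, map_sum]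
    exact Finset.sum_congr rfl fun o _ => hx q o
  rw [finsum_congr h1]
  have hs : (Function.support fun q => ∑ᶠ o, x q o).Finite := by
    refine hsupp.subset fun q hq => ?_
    by_contra hcon
    simp only [Set.mem_ofPred_eq, not_exists, not_not] at hcon
    exact hq (finsum_eq_zero_of_forall_eq_zero hcon)
  exact (AddMonoidHom.map_finsum (cy_frac n) hs).symm

omit [Fact p.Prime] in
/-- **Reciprocity on an inflated cyclic class, from the product formula**: if all local terms are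
`x_{q,o} / n` and `σ ^ (∑ x_{q,o}) = 1` for an element `σ` of order `n` (in any group), the total
invariant vanishes. -/
theorem rr_INV_eq_zero {G : Type*} [Group G] {σ : G} {n : ℕ} (hn : 0 < n) (ho : orderOf σ = n)
    (H : Subgroup Γ) (w : groupCohomology (tt_res H J) 2)
    (x : ∀ q : Q, orbitRel.Quotient ↥H (Γ ⧸ 𝔻.D q) → ℤ)
    (hx : ∀ q o, rc_term 𝔻 q H (rc_rep (𝔻.D q) H o) w = cy_frac n (x q o))
    (hsupp : {q : Q | ∃ o, x q o ≠ 0}.Finite)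
    (hprod : σ ^ (∑ᶠ q, ∑ᶠ o, x q o) = 1) :
    rc_INV 𝔻 hfin H w = 0 := by
  rw [rr_INV_eq_frac 𝔻 hfin H w n x hx hsupp, cy_frac_eq_zero_iff hn, ← ho]
  exact orderOf_dvd_iff_zpow_eq_one.2 hprod

end total

end Fermat.Agent.S55
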