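import Fermat.Agent.S55.Recip.Reciprocity
import Fermat.Agent.S55.Tate.ClassModuleSylow

/-!
# S55 / G4 (C): Sylow reduction for the reciprocity law (prefix `rc_sy_`)

`rc_sy_of_pgroup`: the vanishing of the total invariant on the image of `H²(K, A)` (`p`-primary
classes) for all `p`-subgroups `K` implies it for all subgroups.
-/

set_option autoImplicit false

open CategoryTheory groupCohomology

namespace Fermat.Agent.S55

variable {Γ : Type} [Group Γ] [Finite Γ] {p : ℕ} [Fact p.Prime] {A J : Rep.{0} ℤ Γ} {Q : Type}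
  (𝔻 : rc_InvData p J Q) (hfin : rc_FinSupp 𝔻) (δ : A ⟶ J)

omit [Finite Γ] in
/-- Coefficient maps commute with `rc_res`. -/
theorem rc_sy_push_res {P H : Subgroup Γ} (h : P ≤ H) (u : groupCohomology (tt_res H A) 2) :
    (rc_res J h).hom ((rr_push δ H).hom u) = (rr_push δ P).hom ((rc_res A h).hom u) := by
  have e := rr_push_cj δ 1 (rc_one_mem h)
  exact congrArg (fun F => F.hom u) e

/-- **Sylow reduction of the reciprocity law.** -/
theorem rc_sy_of_pgroup
    (h : ∀ P : Subgroup Γ, IsPGroup p P → ∀ u : groupCohomology (tt_res P A) 2,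
      tt_IsPPrimary p u → rc_INV 𝔻 hfin P ((rr_push δ P).hom u) = 0)
    (K : Subgroup Γ) (u : groupCohomology (tt_res K A) 2) (hu : tt_IsPPrimary p u) :
    rc_INV 𝔻 hfin K ((rr_push δ K).hom u) = 0 := by
  refine rr_INV_eq_zero_of_res 𝔻 hfin (tt_psP_le p K) (tt_psM_not_dvd p K) _
    (tt_isPPrimary_map (rr_push δ K).hom.toAddMonoidHom hu) ?_
  rw [rc_sy_push_res δ (tt_psP_le p K) u]
  exact h _ (tt_psP_isPGroup p K) _
    (tt_isPPrimary_map (rc_res A (tt_psP_le p K)).hom.toAddMonoidHom hu)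

end Fermat.Agent.S55
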