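import Mathlib

/-!
# S55 / G4: degree-2 cohomology of a restricted product (explicit cocycles)

`H` a finite group, `P q` (`q : ι`) a family of `H`-modules with `H`-stable subgroups `U q`.
The restricted product `rp_J P U ⊆ ∀ q, P q` consists of the families lying in `U q` for all
but finitely many `q`.  If `H²(H, U q) = 0` for almost all `q` (in the explicit form: every
`U q`-valued 2-cocycle is the coboundary of a `U q`-valued 1-cochain), then

* `rp_eventually_coboundary`: the `q`-component of a `J`-valued 2-cocycle is a coboundary for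
  almost all `q`;
* `rp_coboundary_of_local`: a `J`-valued 2-cocycle all of whose components are coboundaries is the
  coboundary of a `J`-valued 1-cochain (*local-global principle* for `H²(H, J)`);
* `rp_single`: extension by zero of a local cochain.

Conventions: Mathlib's `groupCohomology.IsCocycle₂`, coboundary `g • b h - b (g * h) + b g`.
-/

set_option autoImplicit false
set_option linter.unusedSectionVars false

namespace Fermat.Agent.S55

open Filter groupCohomology

variable {H : Type*} [Group H] {ι : Type*}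
  (P : ι → Type*) [∀ q, AddCommGroup (P q)] [∀ q, DistribMulAction H (P q)]
  (U : ∀ q, AddSubgroup (P q))

/-- The restricted product of the `P q` with respect to the subgroups `U q`. -/
def rp_J : AddSubgroup (∀ q, P q) where
  carrier := {x | ∀ᶠ q in cofinite, x q ∈ U q}
  add_mem' := by
    intro x y hx hy
    simp only [Set.mem_ofPred_eq] at hx hy ⊢
    filter_upwards [hx, hy] with q h1 h2
    exact (U q).add_mem h1 h2
  zero_mem' := by
    simp only [Set.mem_ofPred_eq]
    exact Eventually.of_forall fun q => (U q).zero_mem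
  neg_mem' := by
    intro x hx
    simp only [Set.mem_ofPred_eq] at hx ⊢
    filter_upwards [hx] with q h1
    exact (U q).neg_mem h1

variable {P U}

theorem rp_mem_J {x : ∀ q, P q} : x ∈ rp_J P U ↔ ∀ᶠ q in cofinite, x q ∈ U q := Iff.rfl

theorem rp_smul_mem_J (hU : ∀ q (h : H) (u : P q), u ∈ U q → h • u ∈ U q) (h : H)
    {x : ∀ q, P q} (hx : x ∈ rp_J P U) : h • x ∈ rp_J P U := by
  rw [rp_mem_J] at hx ⊢
  filter_upwards [hx] with q h1
  exact hU q h _ h1

/-- The hypothesis "`H²(H, U q) = 0`" in explicit form. -/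
def rp_UnitH2Trivial (P : ι → Type*) [∀ q, AddCommGroup (P q)] [∀ q, DistribMulAction H (P q)]
    (U : ∀ q, AddSubgroup (P q)) (q : ι) : Prop :=
  ∀ f : H × H → P q, IsCocycle₂ f → (∀ g h, f (g, h) ∈ U q) →
    ∃ b : H → P q, (∀ g, b g ∈ U q) ∧ ∀ g h, g • b h - b (g * h) + b g = f (g, h)

theorem rp_isCocycle₂_component {c : H × H → ∀ q, P q} (hc : IsCocycle₂ c) (q : ι) :
    IsCocycle₂ (fun x => c x q) := by
  intro g h j
  have := congrFun (hc g h j) q
  simpa using this

section Finite

variable [Finite H]

theorem rp_eventually_values {c : H × H → ∀ q, P q} (hcJ : ∀ g h, c (g, h) ∈ rp_J P U) :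
    ∀ᶠ q in cofinite, ∀ g h, c (g, h) q ∈ U q := by
  have h1 : ∀ g : H, ∀ᶠ q in cofinite, ∀ h : H, c (g, h) q ∈ U q := fun g =>
    (eventually_all (l := cofinite)).mpr fun h => hcJ g h
  exact (eventually_all (l := cofinite)).mpr h1

/-- For almost all `q`, the `q`-component of a `J`-valued 2-cocycle is a coboundary (of a
`U q`-valued cochain). -/
theorem rp_eventually_coboundary (hU2 : ∀ᶠ q in cofinite, rp_UnitH2Trivial (H := H) P U q)
    {c : H × H → ∀ q, P q} (hc : IsCocycle₂ c) (hcJ : ∀ g h, c (g, h) ∈ rp_J P U) :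
    ∀ᶠ q in cofinite, ∃ b : H → P q, (∀ g, b g ∈ U q) ∧
      ∀ g h, g • b h - b (g * h) + b g = c (g, h) q := by
  filter_upwards [hU2, rp_eventually_values hcJ] with q h1 h2
  exact h1 (fun x => c x q) (rp_isCocycle₂_component hc q) h2

/-- **Local-global principle for `H²` of a restricted product.** -/
theorem rp_coboundary_of_local (hU2 : ∀ᶠ q in cofinite, rp_UnitH2Trivial (H := H) P U q)
    {c : H × H → ∀ q, P q} (hc : IsCocycle₂ c) (hcJ : ∀ g h, c (g, h) ∈ rp_J P U)
    (hloc : ∀ q, ∃ b : H → P q, ∀ g h, g • b h - b (g * h) + b g = c (g, h) q) :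
    ∃ b : H → ∀ q, P q, (∀ g, b g ∈ rp_J P U) ∧
      ∀ g h, g • b h - b (g * h) + b g = c (g, h) := by
  classical
  have hev := rp_eventually_coboundary hU2 hc hcJ
  choose b₀ hb₀ using hloc
  -- choose good primitives where available
  let good : ι → Prop := fun q => ∃ b : H → P q, (∀ g, b g ∈ U q) ∧
      ∀ g h, g • b h - b (g * h) + b g = c (g, h) q
  let b : H → ∀ q, P q := fun g q =>
    if hq : good q then hq.choose g else b₀ q g
  refine ⟨b, fun g => ?_, fun g h => ?_⟩
  · rw [rp_mem_J]
    filter_upwards [hev] with q hq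
    have hgood : good q := hq
    simp only [b, dif_pos hgood]
    exact hgood.choose_spec.1 g
  · funext q
    by_cases hq : good q
    · have := hq.choose_spec.2 g h
      simpa [b, dif_pos hq] using this
    · have := hb₀ q g h
      simpa [b, dif_neg hq] using this

end Finite

/-- Extension by zero of an element of `P q₀`. -/
noncomputable def rp_single [DecidableEq ι] (q₀ : ι) : P q₀ →+ ∀ q, P q :=
  AddMonoidHom.mk' (fun a => Pi.single q₀ a) (fun a b => Pi.single_add q₀ a b)

theorem rp_single_mem_J [DecidableEq ι] (q₀ : ι) (a : P q₀) :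
    (rp_single (P := P) q₀ a) ∈ rp_J P U := by
  rw [rp_mem_J]
  have : {q | q ≠ q₀} ∈ cofinite := by
    rw [mem_cofinite]
    simp
  filter_upwards [this] with q hq
  simp only [rp_single, AddMonoidHom.mk'_apply, Pi.single_eq_of_ne hq]
  exact (U q).zero_mem

theorem rp_single_apply_self [DecidableEq ι] (q₀ : ι) (a : P q₀) :
    rp_single (P := P) q₀ a q₀ = a := by
  simp [rp_single]

theorem rp_single_apply_ne [DecidableEq ι] {q₀ q : ι} (hq : q ≠ q₀) (a : P q₀) :
    rp_single (P := P) q₀ a q = 0 := by
  simp [rp_single, Pi.single_eq_of_ne hq]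

theorem rp_smul_single [DecidableEq ι] (q₀ : ι) (h : H) (a : P q₀) :
    h • rp_single (P := P) q₀ a = rp_single (P := P) q₀ (h • a) := by
  funext q
  by_cases hq : q = q₀
  · subst hq
    simp [rp_single]
  · simp [rp_single, Pi.single_eq_of_ne hq]

end Fermat.Agent.S55
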