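import Fermat.Agent.S55.Recip.ZClassUnr

/-!
# S55 / G4 (E): comparison of two unramified `p`-class modules

If `P : PClassModule p X` satisfies the unramified formula `U : lcu_Unr P` with **trivial inertia**
`U.I = ⊥` and the Frobenius `U.frob` generates `D`, then all the invariant maps of `P` are the
cyclic invariants `cy_inv` for the valuation `U.v` (`rc_uc_inv_eq_cy`).  Consequently two such
class modules linked by a valuation-preserving morphism `ψ : X ⟶ X'` have the same invariants
(`rc_uc_inv_map`, `rc_uc_invTop_map`); e.g. `X = ` units of an unramified local field,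
`X' = ℤ`, `ψ = ord`.

Owner: helper28.  Prefix `rc_uc_`.
-/

set_option autoImplicit false

namespace Fermat.Agent.S55

open groupCohomology CategoryTheory Rep

noncomputable section

/-! ### Cohomology of the trivial group -/

section trivialGroup

variable {k G : Type} [CommRing k] [Group G] [Subsingleton G] (A : Rep.{0} k G)

theorem rc_uc_H1_eq_zero (x : groupCohomology A 1) : x = 0 := by
  induction x using H1_induction_on with | h f =>
  refine (H1π_eq_zero_iff f).2 ⟨0, ?_⟩
  funext g
  have hg : g = 1 := Subsingleton.elim _ _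
  have h1 : (f : G → A.V) 1 = 0 := cocycles₁_map_one f
  rw [hg, h1]
  simp

theorem rc_uc_H2_eq_zero (x : groupCohomology A 2) : x = 0 := by
  induction x using H2_induction_on with | h f =>
  refine (H2π_eq_zero_iff f).2 ⟨fun _ => (f : G × G → A.V) (1, 1), ?_⟩
  funext ⟨g, h⟩
  have hg : g = 1 := Subsingleton.elim _ _
  have hh : h = 1 := Subsingleton.elim _ _
  subst hg hh
  simp [d₁₂_hom_apply]

end trivialGroup

/-- Inflation from the quotient by the trivial subgroup is surjective on `H²`. -/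
theorem rc_uc_inf_bot_surjective {k G : Type} [CommRing k] [Group G] (A : Rep.{0} k G) :
    Function.Surjective (ir_inf₂ A (⊥ : Subgroup G)).hom := by
  intro x
  exact ir_H2InfRes_exact' A ⊥
    ⟨fun a b => by rw [rc_uc_H1_eq_zero _ a, rc_uc_H1_eq_zero _ b]⟩ x (rc_uc_H2_eq_zero _ _)

/-- The coefficient map of the inflation `H²(G ⧸ N, A^N) ⟶ H²(G, A)` (stated over a general
commutative ring to avoid the `Module ℤ` diamond). -/
def rc_uc_infHom {k G : Type} [CommRing k] [Group G] (A : Rep.{0} k G) (N : Subgroup G)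
    [N.Normal] : Rep.res (QuotientGroup.mk' N) (A.quotientToInvariants N) ⟶ A :=
  ofHom <| A.ρ.quotientToInvariants_lift N

theorem rc_uc_inf_eq {k G : Type} [CommRing k] [Group G] (A : Rep.{0} k G) (N : Subgroup G)
    [N.Normal] : ir_inf₂ A N = map (QuotientGroup.mk' N) (rc_uc_infHom A N) 2 := rfl

theorem rc_uc_infHom_apply {k G : Type} [CommRing k] [Group G] (A : Rep.{0} k G) (N : Subgroup G)
    [N.Normal] (x : (A.quotientToInvariants N).V) : (rc_uc_infHom A N).hom x = (x : A.V) := rfl

/-! ### The invariants of an unramified class module are the cyclic invariants -/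

section main

variable {p : ℕ} {D : Type} [Group D] [Finite D] {X : Rep.{0} ℤ D} {P : PClassModule p X}

omit [Finite D] in
theorem rc_uc_resDeg (I : Subgroup D) [I.Normal] (hI : I = ⊥) (S : Subgroup D) :
    lc_resDeg I S.subtype = S.index := by
  subst hI
  exact zc_resDeg_bot S

omit [Finite D] in
theorem rc_uc_card_subgroupOf (I : Subgroup D) (hI : I = ⊥) (S : Subgroup D) :
    Nat.card ↥(I.subgroupOf S) = 1 := by
  subst hI
  rw [Subgroup.bot_subgroupOf, Subgroup.card_bot]

/-- the valuation on the invariants of a layer -/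
def rc_uc_vInv (v : X.V →+ ℤ) (S : Subgroup D) (N : Subgroup ↥S) [N.Normal] :
    ((tt_res S X).quotientToInvariants N).V →+ ℤ where
  toFun x := v (x : X.V)
  map_zero' := map_zero v
  map_add' _ _ := map_add v _ _

omit [Finite D] in
theorem rc_uc_vInv_inv (v : X.V →+ ℤ) (hv : ∀ (d : D) (x : X.V), v (X.ρ d x) = v x)
    (S : Subgroup D) (N : Subgroup ↥S) [N.Normal] (g : ↥S ⧸ N)
    (x : ((tt_res S X).quotientToInvariants N).V) :
    rc_uc_vInv v S N (((tt_res S X).quotientToInvariants N).ρ g x) = rc_uc_vInv v S N x := by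
  induction g using QuotientGroup.induction_on with
  | H s => exact hv (s : D) (x : X.V)

/-- **The invariant maps of an unramified class module with trivial inertia are the cyclic
invariants** for the valuation `U.v` and the generator `frob ^ [D : S]` of the layer `S`. -/
theorem rc_uc_inv_eq_cy (U : lcu_Unr P) (hI : U.I = ⊥)
    (hgen : ∀ d : D, d ∈ Subgroup.zpowers U.frob) (S : Subgroup D)
    (z : groupCohomology (tt_res S X) 2) :
    P.inv S z = cy_inv (tt_res S X) U.v (σ := zc_gen U.frob hgen S) (n := Nat.card S)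
      (zc_gen_pow_card U.frob hgen S) (fun g x => U.v_inv (g : D) x) z := by
  obtain ⟨y, rfl⟩ := rc_uc_inf_bot_surjective (tt_res S X) z
  induction y using H2_induction_on with | h fb =>
  have hN : U.I.subgroupOf S ≤ (⊥ : Subgroup ↥S) := by
    rw [hI, Subgroup.bot_subgroupOf]
  have hφ' : (((zc_gen U.frob hgen S : ↥S) : D) : D ⧸ U.I) =
      ((U.frob : D) : D ⧸ U.I) ^ lc_resDeg U.I S.subtype := by
    rw [zc_gen_coe, QuotientGroup.mk_pow, rc_uc_resDeg U.I hI S]
  have h1 := U.formula S ⊥ hN (zc_gen U.frob hgen S) hφ' fb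
    (U.v ((cy_repSum ((tt_res S X).quotientToInvariants (⊥ : Subgroup ↥S))
      ((zc_gen U.frob hgen S : ↥S) : ↥S ⧸ (⊥ : Subgroup ↥S)) (⊥ : Subgroup ↥S).index
      (fb : (↥S ⧸ (⊥ : Subgroup ↥S)) × (↥S ⧸ (⊥ : Subgroup ↥S)) →
        ((tt_res S X).quotientToInvariants (⊥ : Subgroup ↥S)).V) :
        ((tt_res S X).quotientToInvariants (⊥ : Subgroup ↥S)).V) : X.V))
    (by rw [rc_uc_card_subgroupOf U.I hI S, Nat.cast_one, one_mul])
  rw [h1]
  -- the cyclic side
  set N : Subgroup ↥S := ⊥ with hNdef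
  have hn : 0 < N.index := Nat.pos_of_ne_zero Subgroup.index_ne_zero_of_finite
  have hσ : ((zc_gen U.frob hgen S : ↥S) : ↥S ⧸ N) ^ N.index = 1 := by
    rw [Subgroup.index_eq_card]; exact pow_card_eq_one'
  have hcard : N.index * Nat.card N = Nat.card S := N.index_mul_card
  have hτ : zc_gen U.frob hgen S ^ (N.index * Nat.card N) = 1 := by
    rw [hcard]; exact zc_gen_pow_card U.frob hgen S
  have hinf := cy_inv_inflation (A := (tt_res S X).quotientToInvariants N)
    (B := tt_res S X) (QuotientGroup.mk' N)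
    (rc_uc_infHom (tt_res S X) N)
    (σ := ((zc_gen U.frob hgen S : ↥S) : ↥S ⧸ N)) (n := N.index) (τ := zc_gen U.frob hgen S)
    (rc_uc_vInv U.v S N) U.v hn (r := Nat.card N) Nat.card_pos hσ hτ
    (rc_uc_vInv_inv U.v U.v_inv S N) (fun g x => U.v_inv (g : D) x) rfl (fun _ => rfl)
    (H2π _ fb)
  rw [cy_inv_H2π] at hinf
  have key : ∀ (m : ℕ) (hm : m = Nat.card S) (h : zc_gen U.frob hgen S ^ m = 1),
      cy_inv (tt_res S X) U.v (σ := zc_gen U.frob hgen S) (n := m) h
        (fun g x => U.v_inv (g : D) x) =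
      cy_inv (tt_res S X) U.v (σ := zc_gen U.frob hgen S) (n := Nat.card S)
        (zc_gen_pow_card U.frob hgen S) (fun g x => U.v_inv (g : D) x) := by
    rintro m rfl h
    rfl
  rw [← key _ hcard hτ]
  exact hinf.symm

/-! ### Comparison of two unramified class modules -/

variable {X' : Rep.{0} ℤ D} {P' : PClassModule p X'}

/-- **Two unramified class modules (trivial inertia, same Frobenius) linked by a
valuation-preserving morphism have the same invariants on every layer.** -/
theorem rc_uc_inv_map (U : lcu_Unr P) (U' : lcu_Unr P') (hI : U.I = ⊥) (hI' : U'.I = ⊥)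
    (hgen : ∀ d : D, d ∈ Subgroup.zpowers U.frob) (hfrob : U'.frob = U.frob)
    (ψ : X ⟶ X') (hψ : ∀ x, U'.v (ψ.hom x) = U.v x) (S : Subgroup D)
    (z : groupCohomology (tt_res S X) 2) :
    P'.inv S ((tt_coeffMap ((Rep.resFunctor S.subtype).map ψ) 2).hom z) = P.inv S z := by
  have hgen' : ∀ d : D, d ∈ Subgroup.zpowers U'.frob := fun d => hfrob ▸ hgen d
  rw [rc_uc_inv_eq_cy U hI hgen S, rc_uc_inv_eq_cy U' hI' hgen' S]
  have hpos : 0 < Nat.card ↥S := Nat.card_pos
  have hι : (MonoidHom.id ↥S) (zc_gen U'.frob hgen' S) = zc_gen U.frob hgen S ^ 1 := by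
    rw [pow_one]
    apply Subtype.ext
    rw [MonoidHom.id_apply, zc_gen_coe, zc_gen_coe, hfrob]
  have h := cy_inv_map (A := tt_res S X) (B := tt_res S X') (MonoidHom.id ↥S)
    ((Rep.resFunctor S.subtype).map ψ) (σ := zc_gen U.frob hgen S) (n := Nat.card ↥S)
    (τ := zc_gen U'.frob hgen' S) (m := Nat.card ↥S) U.v U'.v hpos hpos
    (zc_gen_pow_card U.frob hgen S) (zc_gen_pow_card U'.frob hgen' S)
    (fun g x => U.v_inv (g : D) x) (fun g x => U'.v_inv (g : D) x) (d := 1) hι (r := 1)
    (by rw [one_mul, mul_one]) (e := 1) (fun x => by rw [one_mul]; exact hψ x) z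
  rw [Nat.cast_one, mul_one, one_smul] at h
  exact h

/-- Top-layer form of `rc_uc_inv_map`. -/
theorem rc_uc_invTop_map (U : lcu_Unr P) (U' : lcu_Unr P') (hI : U.I = ⊥) (hI' : U'.I = ⊥)
    (hgen : ∀ d : D, d ∈ Subgroup.zpowers U.frob) (hfrob : U'.frob = U.frob)
    (ψ : X ⟶ X') (hψ : ∀ x, U'.v (ψ.hom x) = U.v x) (w : groupCohomology X 2) :
    P'.invTop ((tt_coeffMap ψ 2).hom w) = P.invTop w := by
  rw [PClassModule.invTop_apply, PClassModule.invTop_apply,
    ← rc_uc_inv_map U U' hI hI' hgen hfrob ψ hψ ⊤ ((tt_resMap ⊤ X 2).hom w)]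
  congr 1
  have e : tt_coeffMap ψ 2 ≫ tt_resMap ⊤ X' 2 =
      tt_resMap ⊤ X 2 ≫ tt_coeffMap ((Rep.resFunctor (⊤ : Subgroup D).subtype).map ψ) 2 := by
    rw [← map_comp, ← map_comp]
    exact map_congr rfl rfl 2
  exact congrArg (fun f => f.hom w) e

/-! ### Top-layer forms and comparison over two groups -/

omit [Finite D] in
theorem rc_uc_pow_card (φ : D) (hφ : ∀ d : D, d ∈ Subgroup.zpowers φ) : φ ^ Nat.card D = 1 :=
  zc_pow_card φ hφ

/-- **The top invariant of an unramified class module with trivial inertia** is the cyclic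
invariant for the valuation `U.v` and the generator `U.frob`. -/
theorem rc_uc_invTop_eq_cy (U : lcu_Unr P) (hI : U.I = ⊥)
    (hgen : ∀ d : D, d ∈ Subgroup.zpowers U.frob) (w : groupCohomology X 2) :
    P.invTop w = cy_inv X U.v (σ := U.frob) (n := Nat.card D)
      (rc_uc_pow_card U.frob hgen) U.v_inv w := by
  rw [PClassModule.invTop_apply, rc_uc_inv_eq_cy U hI hgen ⊤]
  have hpos : 0 < Nat.card D := Nat.card_pos
  have hpos' : 0 < Nat.card ↥(⊤ : Subgroup D) := Nat.card_pos
  have hι : (⊤ : Subgroup D).subtype (zc_gen U.frob hgen ⊤) = U.frob ^ 1 := by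
    rw [Subgroup.coe_subtype, zc_gen_coe, Subgroup.index_top]
  have hcard : Nat.card ↥(⊤ : Subgroup D) = Nat.card D := Subgroup.card_top
  have h := cy_inv_map (A := X) (B := tt_res ⊤ X) (⊤ : Subgroup D).subtype (𝟙 (tt_res ⊤ X))
    (σ := U.frob) (n := Nat.card D) (τ := zc_gen U.frob hgen ⊤)
    (m := Nat.card ↥(⊤ : Subgroup D)) U.v U.v hpos hpos'
    (rc_uc_pow_card U.frob hgen) (zc_gen_pow_card U.frob hgen ⊤)
    U.v_inv (fun g x => U.v_inv (g : D) x) (d := 1) hι (r := 1)
    (by rw [one_mul, mul_one, hcard]) (e := 1) (fun x => by rw [one_mul]; rfl) w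
  rw [Nat.cast_one, mul_one, one_smul] at h
  exact h

/-- **Comparison over two groups**: `ι : D' →* D` with `ι frob' = frob` and `|D'| = |D|`,
`ψ : res ι X ⟶ X'` valuation preserving; both class modules unramified with trivial inertia. -/
theorem rc_uc_invTop_map_hom {D' : Type} [Group D'] [Finite D'] {X' : Rep.{0} ℤ D'}
    {P' : PClassModule p X'} (U : lcu_Unr P) (U' : lcu_Unr P') (hI : U.I = ⊥) (hI' : U'.I = ⊥)
    (hgen : ∀ d : D, d ∈ Subgroup.zpowers U.frob)
    (hgen' : ∀ d : D', d ∈ Subgroup.zpowers U'.frob)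
    (ι : D' →* D) (hι : ι U'.frob = U.frob) (hcard : Nat.card D' = Nat.card D)
    (ψ : Rep.res ι X ⟶ X') (hψ : ∀ x, U'.v (ψ.hom x) = U.v x) (w : groupCohomology X 2) :
    P'.invTop ((map ι ψ 2).hom w) = P.invTop w := by
  rw [rc_uc_invTop_eq_cy U hI hgen, rc_uc_invTop_eq_cy U' hI' hgen']
  have hpos : 0 < Nat.card D := Nat.card_pos
  have hpos' : 0 < Nat.card D' := Nat.card_pos
  have h := cy_inv_map (A := X) (B := X') ι ψ
    (σ := U.frob) (n := Nat.card D) (τ := U'.frob) (m := Nat.card D') U.v U'.v hpos hpos'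
    (rc_uc_pow_card U.frob hgen) (rc_uc_pow_card U'.frob hgen')
    U.v_inv U'.v_inv (d := 1) (by rw [hι, pow_one]) (r := 1)
    (by rw [one_mul, mul_one, hcard]) (e := 1) (fun x => by rw [one_mul]; exact hψ x) w
  rw [Nat.cast_one, mul_one, one_smul] at h
  exact h

end main

end

end Fermat.Agent.S55
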