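import Fermat.Agent.S55.Recip.TChangePlace
import Fermat.Agent.S55.Recip.TChange
import Fermat.Agent.S55.Recip.UnrCompare
import Fermat.Agent.S55.Recip.IdeleIn

/-!
# S55 / G4 (E): the `T`-change of the total invariant (prefix `rc_tq_`)

`S ⊆ T` finite sets of primes, `L ⊆ ℚ̄` finite Galois, unramified outside `S`, `Γ = Gal(L/ℚ)`.
The comparison map `κ = icm_JRep : J_T(L) ⟶ J_S(L)` (`Idele/Comparison.lean`) forgets the
components at the primes of `T ∖ S`, replacing them by their divisors.  The total invariants of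
`J_T(L)` and `J_S(L)` are built from the inside data `rc_ii_data` (`Recip/IdeleIn.lean`) and from
*outside data*; the latter enter only through the structure `rc_tq_OutPlace`: "the component `q₀`
is an unramified place sitting at the canonical prime `rc_tq_w ℓ L` over `ℓ`" (local module `≃ ℤ`,
component map = coefficient of the divisor, class module with an unramified formula `lcu_Unr`
with trivial inertia whose Frobenius satisfies the Frobenius congruence).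

Main results:

* `rc_tq_INV_tchange`: `INV^S_K (κ_* z) = INV^T_K z` for every layer `K ≤ Γ` and every `p`-primary
  `z ∈ H²(K, J_T(L))`;
* `rc_tq_INV_tchange_diag`: `INV^S_K (δ_S u) = INV^T_K (δ_T u)` for `u ∈ H²(K, Lˣ)`.

Proof: both data are reindexed by `S ⊔ (T ∖ S) ⊔ {ℓ ∉ T}` (`rc_tc_INV_reindex`); a morphism of
local data over `(id, κ)` is assembled place by place (`rc_tq_MorAt`): at `s ∈ S` the local data
coincide; at `t ∈ T ∖ S` the unramified local field `L·ℚ_t` (formula `ils_unr`) is compared with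
the outside place through the valuation (`rc_tq_icm_ordZ`), and at `ℓ ∉ T` two outside places are
compared; in both cases the Frobenius elements agree by `rc_tq_frob_unique` and the invariants by
`rc_uc_invTop_map_hom`.  Then `rc_tc_INV_coeff`.
-/

set_option autoImplicit false
set_option linter.unusedSectionVars false
set_option linter.style.haveILetI false

open scoped TensorProduct Pointwise
open ExtCitation NumberField IsDedekindDomain CategoryTheory groupCohomology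

namespace Fermat.Agent.S55

local notation "Qbar" => AlgebraicClosure ℚ

noncomputable section

/-! ### Morphisms of local data, one place at a time -/

section morAt

variable {G Γ : Type} [Group G] [Group Γ] {p : ℕ} {J' : Rep.{0} ℤ G} {J : Rep.{0} ℤ Γ}
  {Q Q' : Type}

/-- The component at a pair of indices `(q', q)` of a morphism of local data (the four fields of
`rc_InvMor` at one place; the two data may be indexed by different types). -/
structure rc_tq_MorAt (𝔻' : rc_InvData p J' Q') (𝔻 : rc_InvData p J Q) (π : G →* Γ)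
    (φ : Rep.res π J ⟶ J') (q' : Q') (q : Q) where
  hD : (𝔻'.D q').map π = 𝔻.D q
  ψ : Rep.res (rc_inf_πq π hD) (𝔻.X q) ⟶ 𝔻'.X q'
  sq : ∀ x : J.V, (𝔻'.pr q').hom (φ.hom x) = ψ.hom ((𝔻.pr q).hom x)
  inv : ∀ w : groupCohomology (𝔻.X q) 2, tt_IsPPrimary p w →
    (𝔻'.P q').invTop ((map (rc_inf_πq π hD) ψ 2).hom w) = (𝔻.P q).invTop w

variable {𝔻' : rc_InvData p J' Q'} {𝔻 : rc_InvData p J Q} {π : G →* Γ}
  {φ : Rep.res π J ⟶ J'}

/-- A family of place-wise morphisms along two reindexing maps is a morphism of the reindexed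
data. -/
def rc_tq_mor {Q₀ : Type} (f' : Q₀ → Q') (f : Q₀ → Q)
    (h : ∀ q₀, rc_tq_MorAt 𝔻' 𝔻 π φ (f' q₀) (f q₀)) :
    rc_InvMor (rc_tc_reindex f' 𝔻') (rc_tc_reindex f 𝔻) π φ where
  hD q₀ := (h q₀).hD
  ψ q₀ := (h q₀).ψ
  sq q₀ := (h q₀).sq
  inv q₀ := (h q₀).inv

variable {Q₁ Q₂ Q₁' Q₂' : Type} {𝔻₁' : rc_InvData p J' Q₁'} {𝔻₂' : rc_InvData p J' Q₂'}
  {𝔻₁ : rc_InvData p J Q₁} {𝔻₂ : rc_InvData p J Q₂}

def rc_tq_morAt_inl_inl {a' : Q₁'} {a : Q₁} (h : rc_tq_MorAt 𝔻₁' 𝔻₁ π φ a' a) :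
    rc_tq_MorAt (rc_tc_sum 𝔻₁' 𝔻₂') (rc_tc_sum 𝔻₁ 𝔻₂) π φ (Sum.inl a') (Sum.inl a) where
  hD := h.hD
  ψ := h.ψ
  sq := h.sq
  inv := h.inv

def rc_tq_morAt_inr_inl {b' : Q₂'} {a : Q₁} (h : rc_tq_MorAt 𝔻₂' 𝔻₁ π φ b' a) :
    rc_tq_MorAt (rc_tc_sum 𝔻₁' 𝔻₂') (rc_tc_sum 𝔻₁ 𝔻₂) π φ (Sum.inr b') (Sum.inl a) where
  hD := h.hD
  ψ := h.ψ
  sq := h.sq
  inv := h.inv

def rc_tq_morAt_inr_inr {b' : Q₂'} {b : Q₂} (h : rc_tq_MorAt 𝔻₂' 𝔻₂ π φ b' b) :
    rc_tq_MorAt (rc_tc_sum 𝔻₁' 𝔻₂') (rc_tc_sum 𝔻₁ 𝔻₂) π φ (Sum.inr b') (Sum.inr b) where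
  hD := h.hD
  ψ := h.ψ
  sq := h.sq
  inv := h.inv

end morAt

/-! ### The identity component -/

section idMor

variable {k Γ : Type} [CommRing k] [Group Γ] {D : Subgroup Γ}

theorem rc_tq_πq_id (hD : D.map (MonoidHom.id Γ) = D) :
    rc_inf_πq (MonoidHom.id Γ) hD = MonoidHom.id ↥D := by
  ext d
  rfl

/-- the identity of `X` as a morphism over `rc_inf_πq id` -/
def rc_tq_idMor (X : Rep.{0} k ↥D) (hD : D.map (MonoidHom.id Γ) = D) :
    Rep.res (rc_inf_πq (MonoidHom.id Γ) hD) X ⟶ X :=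
  ga_mkHomGen (Rep.res (rc_inf_πq (MonoidHom.id Γ) hD) X) X (AddMonoidHom.id X.V)
    (fun _ _ => rfl) (fun _ _ => rfl)

@[simp] theorem rc_tq_idMor_apply (X : Rep.{0} k ↥D) (hD : D.map (MonoidHom.id Γ) = D)
    (x : X.V) : (rc_tq_idMor X hD).hom x = x := rfl

theorem rc_tq_map_idMor (X : Rep.{0} k ↥D) (hD : D.map (MonoidHom.id Γ) = D) (n : ℕ) :
    map (rc_inf_πq (MonoidHom.id Γ) hD) (rc_tq_idMor X hD) n = 𝟙 _ := by
  rw [← map_id (B := X) (n := n)]
  exact map_congr (rc_tq_πq_id hD) rfl n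

end idMor

/-! ### The comparison map on ideles as a morphism of Galois modules -/

section kappa

universe u

variable (K : Type u) [Field K] [NumberField K] {S T : Finset Nat.Primes}

/-- the comparison map `J_T(K) → J_S(K)` (`S ⊆ T`) as a morphism of Galois modules -/
def icm_JRep (hST : S ⊆ T) : id_JRep T K ⟶ id_JRep S K :=
  id_repHom (icm_J K hST) (fun σ z => icm_Jcomp_smul (icm_ord K) hST σ z)

theorem icm_JRep_apply (hST : S ⊆ T) (z : id_J T K) :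
    (icm_JRep K hST).hom (Additive.ofMul z : Additive (id_J T K)) =
      Additive.ofMul (icm_J K hST z) := rfl

theorem icm_J_fst (hST : S ⊆ T) (z : id_J T K) (q : S) :
    (icm_J K hST z).1 q = z.1 ⟨q.1, hST q.2⟩ := rfl

theorem icm_J_snd_of_mem (hST : S ⊆ T) (z : id_J T K) (v : id_P S K) {q : Nat.Primes}
    (hq : q ∈ T) (hv : ((q : ℕ) : 𝓞 K) ∈ v.1.asIdeal) :
    (icm_J K hST z).2.toAdd v = (icm_ord K).ordZ q v.1 (z.1 ⟨q, hq⟩) :=
  icm_Jcomp_snd_of_mem (icm_ord K) hST z v hq hv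

theorem icm_J_snd_of_primeToS (hST : S ⊆ T) (z : id_J T K) (v : id_P S K)
    (hv : id_PrimeToS T K v.1) : (icm_J K hST z).2.toAdd v = z.2.toAdd ⟨v.1, hv⟩ :=
  icm_Jcomp_snd_of_primeToS (icm_ord K) hST z v hv

theorem icm_J_diag (hST : S ⊆ T) (x : Kˣ) : icm_J K hST (id_diag T K x) = id_diag S K x :=
  icm_Jcomp_diag (icm_ord K) hST x

/-- the comparison map is compatible with the diagonal embeddings -/
theorem icm_diagRep_JRep (hST : S ⊆ T) :
    id_diagRep T K ≫ icm_JRep K hST = id_diagRep S K := by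
  apply Rep.hom_ext
  ext x
  exact congrArg Additive.ofMul (icm_J_diag K hST (Additive.toMul x))

end kappa

/-! ### Unramified outside places at the canonical prime -/

section outPlace

variable {p : ℕ} {T : Finset Nat.Primes} {L : IntermediateField ℚ Qbar}
  [FiniteDimensional ℚ L] [Normal ℚ L] [NumberField L] {Qo : Type}

/-- **An unramified "outside" place sitting at the canonical prime over `ℓ ∉ T`**: the component
`q₀` of a local datum `𝔻o` on `J_T(L)` has the decomposition group of the canonical prime over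
`ℓ`, local module `≃ ℤ` (through `val`), component map "coefficient of the divisor at the
canonical prime", and its class module satisfies the unramified formula with trivial inertia,
valuation `val` and a generating Frobenius element satisfying the Frobenius congruence. -/
structure rc_tq_OutPlace (𝔻o : rc_InvData p (id_JRep T ↥L) Qo) (q₀ : Qo) (ℓ : Nat.Primes)
    (hℓ : ℓ ∉ T) where
  hD : 𝔻o.D q₀ = il_D (ℓ : ℕ) L
  val : (𝔻o.X q₀).V ≃+ ℤ
  hpr : ∀ z : id_J T ↥L, val ((𝔻o.pr q₀).hom (Additive.ofMul z : Additive (id_J T ↥L))) =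
    z.2.toAdd ⟨rc_tq_w ℓ L, rc_tq_w_primeTo ℓ L T hℓ⟩
  U : lcu_Unr (𝔻o.P q₀)
  hI : U.I = ⊥
  hv : ∀ x, U.v x = val x
  hgen : ∀ d : ↥(𝔻o.D q₀), d ∈ Subgroup.zpowers U.frob
  hfrob : ∀ x : 𝓞 ↥L, ((U.frob : ↥(𝔻o.D q₀)) : ↥L ≃ₐ[ℚ] ↥L) • x - x ^ (ℓ : ℕ) ∈
    (rc_tq_w ℓ L).asIdeal

variable {𝔻o : rc_InvData p (id_JRep T ↥L) Qo} {q₀ : Qo} {ℓ : Nat.Primes} {hℓ : ℓ ∉ T}

theorem rc_tq_OutPlace.htriv (O : rc_tq_OutPlace 𝔻o q₀ ℓ hℓ) (d : ↥(𝔻o.D q₀))
    (x : (𝔻o.X q₀).V) : (𝔻o.X q₀).ρ d x = x := by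
  apply O.val.injective
  rw [← O.hv, ← O.hv, O.U.v_inv]

theorem rc_tq_OutPlace.frob_mem (O : rc_tq_OutPlace 𝔻o q₀ ℓ hℓ) :
    ((O.U.frob : ↥(𝔻o.D q₀)) : ↥L ≃ₐ[ℚ] ↥L) ∈ il_D (ℓ : ℕ) L := by
  rw [← O.hD]
  exact O.U.frob.2

end outPlace

section local3

variable {p : ℕ} [Fact p.Prime] {S T : Finset Nat.Primes} {L : IntermediateField ℚ Qbar}
  [FiniteDimensional ℚ L] [Normal ℚ L] [NumberField L]

/-! ### (i) a prime of `S`: identical local data -/

/-- the component of the `T`-change at a prime `s ∈ S ⊆ T` -/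
def rc_tq_morAt_in (hST : S ⊆ T) (s : ↥S) :
    rc_tq_MorAt (rc_ii_data p S L) (rc_ii_data p T L) (MonoidHom.id (↥L ≃ₐ[ℚ] ↥L))
      (icm_JRep ↥L hST) s ⟨s.1, hST s.2⟩ where
  hD := Subgroup.map_id _
  ψ := rc_tq_idMor (il_Xq s.1 L) (Subgroup.map_id _)
  sq := by
    intro x
    rfl
  inv := by
    intro w _
    have h := rc_tq_map_idMor (il_Xq s.1 L) (Subgroup.map_id (il_D ((s.1 : Nat.Primes) : ℕ) L)) 2
    exact congrArg (fun f => (ils_Pq p s.1 L).invTop (f.hom w)) h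

end local3

section local3

variable {p : ℕ} [Fact p.Prime] {S T : Finset Nat.Primes} {L : IntermediateField ℚ Qbar}
  [FiniteDimensional ℚ L] [Normal ℚ L] [NumberField L]

/-! ### (iii) a prime outside `T`: two unramified outside places -/

section outOut

variable {QoS QoT : Type} {𝔻oS : rc_InvData p (id_JRep S ↥L) QoS}
  {𝔻oT : rc_InvData p (id_JRep T ↥L) QoT} {u' : QoS} {u : QoT} {ℓ : Nat.Primes}
  {hℓS : ℓ ∉ S} {hℓT : ℓ ∉ T}

theorem rc_tq_out_hD (OS : rc_tq_OutPlace 𝔻oS u' ℓ hℓS) (OT : rc_tq_OutPlace 𝔻oT u ℓ hℓT) :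
    (𝔻oS.D u').map (MonoidHom.id (↥L ≃ₐ[ℚ] ↥L)) = 𝔻oT.D u := by
  rw [Subgroup.map_id, OS.hD, OT.hD]

/-- the identification `ℤ ≃ ℤ` of the two local modules -/
def rc_tq_out_psi (OS : rc_tq_OutPlace 𝔻oS u' ℓ hℓS) (OT : rc_tq_OutPlace 𝔻oT u ℓ hℓT) :
    Rep.res (rc_inf_πq (MonoidHom.id (↥L ≃ₐ[ℚ] ↥L)) (rc_tq_out_hD OS OT)) (𝔻oT.X u) ⟶
      𝔻oS.X u' :=
  ga_mkHom _ _ (OS.val.symm.toAddMonoidHom.comp OT.val.toAddMonoidHom) (fun d x => by
    have h1 : (Rep.res (rc_inf_πq (MonoidHom.id (↥L ≃ₐ[ℚ] ↥L)) (rc_tq_out_hD OS OT))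
        (𝔻oT.X u)).ρ d x = x := OT.htriv _ x
    exact (congrArg (fun y => OS.val.symm (OT.val y)) h1).trans (OS.htriv d _).symm)

theorem rc_tq_out_psi_apply (OS : rc_tq_OutPlace 𝔻oS u' ℓ hℓS)
    (OT : rc_tq_OutPlace 𝔻oT u ℓ hℓT) (x : (𝔻oT.X u).V) :
    OS.val ((rc_tq_out_psi OS OT).hom x) = OT.val x := by
  show OS.val (OS.val.symm (OT.val x)) = OT.val x
  rw [AddEquiv.apply_symm_apply]

/-- the component of the `T`-change at a prime `ℓ ∉ T` -/
def rc_tq_morAt_out (hST : S ⊆ T) (hL : L.IsUnramifiedOutside S)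
    (OS : rc_tq_OutPlace 𝔻oS u' ℓ hℓS) (OT : rc_tq_OutPlace 𝔻oT u ℓ hℓT) :
    rc_tq_MorAt 𝔻oS 𝔻oT (MonoidHom.id (↥L ≃ₐ[ℚ] ↥L)) (icm_JRep ↥L hST) u' u where
  hD := rc_tq_out_hD OS OT
  ψ := rc_tq_out_psi OS OT
  sq := by
    intro x
    obtain ⟨z, rfl⟩ : ∃ z : id_J T ↥L, (Additive.ofMul z : Additive (id_J T ↥L)) = x := ⟨_, rfl⟩
    apply OS.val.injective
    exact ((OS.hpr (icm_J ↥L hST z)).trans
      ((icm_J_snd_of_primeToS ↥L hST z _ _).trans (OT.hpr z).symm)).trans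
        (rc_tq_out_psi_apply OS OT _).symm
  inv := by
    intro w _
    haveI : Finite (↥L ≃ₐ[ℚ] ↥L) := inferInstance
    refine rc_uc_invTop_map_hom OT.U OS.U OT.hI OS.hI OT.hgen OS.hgen
      (rc_inf_πq (MonoidHom.id (↥L ≃ₐ[ℚ] ↥L)) (rc_tq_out_hD OS OT)) ?_ ?_
      (rc_tq_out_psi OS OT) ?_ w
    · apply Subtype.ext
      exact rc_tq_frob_unique ℓ L hL hℓS OT.frob_mem OS.hfrob OT.hfrob
    · exact Nat.card_congr (MulEquiv.subgroupCongr (OS.hD.trans OT.hD.symm)).toEquiv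
    · intro x
      exact (OS.hv _).trans ((rc_tq_out_psi_apply OS OT x).trans (OT.hv x).symm)

end outOut

end local3

section local3

variable {p : ℕ} [Fact p.Prime] {S T : Finset Nat.Primes} {L : IntermediateField ℚ Qbar}
  [FiniteDimensional ℚ L] [Normal ℚ L] [NumberField L]

/-! ### (ii) a prime of `T ∖ S`: the unramified local field against an outside place -/

section inOut

variable {QoS : Type} {𝔻oS : rc_InvData p (id_JRep S ↥L) QoS} {t' : QoS} {t : ↥T}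
  {htS : t.1 ∉ S}

theorem rc_tq_mid_hD (OS : rc_tq_OutPlace 𝔻oS t' t.1 htS) :
    (𝔻oS.D t').map (MonoidHom.id (↥L ≃ₐ[ℚ] ↥L)) = (rc_ii_data p T L).D t := by
  rw [Subgroup.map_id, OS.hD]
  rfl

/-- the valuation `(L·ℚ_t)ˣ → ℤ` as a morphism to the local module of the outside place -/
def rc_tq_mid_psi (OS : rc_tq_OutPlace 𝔻oS t' t.1 htS) :
    Rep.res (rc_inf_πq (MonoidHom.id (↥L ≃ₐ[ℚ] ↥L)) (rc_tq_mid_hD (T := T) OS))
      ((rc_ii_data p T L).X t) ⟶ 𝔻oS.X t' :=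
  ga_mkHom _ _ (OS.val.symm.toAddMonoidHom.comp (ils_unr p t.1 L).v) (fun d x => by
    have h1 : (ils_unr p t.1 L).v ((Rep.res (rc_inf_πq (MonoidHom.id (↥L ≃ₐ[ℚ] ↥L))
        (rc_tq_mid_hD (T := T) OS)) ((rc_ii_data p T L).X t)).ρ d x) = (ils_unr p t.1 L).v x :=
      (ils_unr p t.1 L).v_inv _ x
    exact (congrArg (fun n : ℤ => OS.val.symm n) h1).trans (OS.htriv d _).symm)

theorem rc_tq_mid_psi_apply (OS : rc_tq_OutPlace 𝔻oS t' t.1 htS) (x : (il_Xq t.1 L).V) :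
    OS.val ((rc_tq_mid_psi (T := T) OS).hom x) = (ils_unr p t.1 L).v x := by
  show OS.val (OS.val.symm ((ils_unr p t.1 L).v x)) = (ils_unr p t.1 L).v x
  rw [AddEquiv.apply_symm_apply]

/-- the component of the `T`-change at a prime `t ∈ T ∖ S` -/
def rc_tq_morAt_mid (hST : S ⊆ T) (hL : L.IsUnramifiedOutside S)
    (OS : rc_tq_OutPlace 𝔻oS t' t.1 htS) :
    rc_tq_MorAt 𝔻oS (rc_ii_data p T L) (MonoidHom.id (↥L ≃ₐ[ℚ] ↥L)) (icm_JRep ↥L hST) t' t where
  hD := rc_tq_mid_hD OS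
  ψ := rc_tq_mid_psi OS
  sq := by
    intro x
    obtain ⟨z, rfl⟩ : ∃ z : id_J T ↥L, (Additive.ofMul z : Additive (id_J T ↥L)) = x := ⟨_, rfl⟩
    apply OS.val.injective
    exact ((OS.hpr (icm_J ↥L hST z)).trans
      ((icm_J_snd_of_mem ↥L hST z _ t.2 (rc_tq_w_mem t.1 L)).trans
        (rc_tq_icm_ordZ t.1 L _))).trans (rc_tq_mid_psi_apply (T := T) OS _).symm
  inv := by
    intro w _
    haveI : Finite (↥L ≃ₐ[ℚ] ↥L) := inferInstance
    refine rc_uc_invTop_map_hom (ils_unr p t.1 L) OS.U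
      (ils_unr_I_eq_bot_of_unram S L p hL t.1 htS) OS.hI
      (ils_unr_frob_gen_of_unram S L p hL t.1 htS) OS.hgen
      (rc_inf_πq (MonoidHom.id (↥L ≃ₐ[ℚ] ↥L)) (rc_tq_mid_hD (T := T) OS)) ?_ ?_
      (rc_tq_mid_psi OS) ?_ w
    · apply Subtype.ext
      exact rc_tq_frob_unique t.1 L hL htS (ils_unr p t.1 L).frob.2 OS.hfrob
        (rc_tq_unr_frob t.1 L p)
    · exact Nat.card_congr (MulEquiv.subgroupCongr OS.hD).toEquiv
    · intro x
      exact (OS.hv _).trans (rc_tq_mid_psi_apply (T := T) OS x)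

end inOut

end local3

/-! ### The common index type -/

section index

variable (S T : Finset Nat.Primes)

/-- the primes of `T ∖ S` -/
abbrev rc_tq_Mid : Type := {q : Nat.Primes // q ∈ T ∧ q ∉ S}

/-- the common index type `S ⊔ (T ∖ S) ⊔ (primes outside T)` -/
abbrev rc_tq_Idx : Type := ↥S ⊕ (rc_tq_Mid S T ⊕ {q : Nat.Primes // q ∉ T})

variable {S T}

/-- the index map to the places of the `T`-datum -/
def rc_tq_fT (hST : S ⊆ T) : rc_tq_Idx S T → ↥T ⊕ {q : Nat.Primes // q ∉ T}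
  | .inl s => .inl ⟨s.1, hST s.2⟩
  | .inr (.inl t) => .inl ⟨t.1, t.2.1⟩
  | .inr (.inr u) => .inr u

/-- the index map to the places of the `S`-datum -/
def rc_tq_fS (hST : S ⊆ T) : rc_tq_Idx S T → ↥S ⊕ {q : Nat.Primes // q ∉ S}
  | .inl s => .inl s
  | .inr (.inl t) => .inr ⟨t.1, t.2.2⟩
  | .inr (.inr u) => .inr ⟨u.1, fun h => u.2 (hST h)⟩

theorem rc_tq_fT_bijective (hST : S ⊆ T) : Function.Bijective (rc_tq_fT hST) := by
  constructor
  · rintro (s | t | u) (s' | t' | u') h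
    · have h0 : (⟨s.1, hST s.2⟩ : ↥T) = ⟨s'.1, hST s'.2⟩ := Sum.inl.inj h
      have h1 : s.1 = s'.1 := Subtype.mk.inj h0
      exact congrArg Sum.inl (Subtype.ext h1)
    · have h0 : (⟨s.1, hST s.2⟩ : ↥T) = ⟨t'.1, t'.2.1⟩ := Sum.inl.inj h
      have h1 : s.1 = t'.1 := Subtype.mk.inj h0
      exact absurd (h1 ▸ s.2) t'.2.2
    · exact absurd h (by simp [rc_tq_fT])
    · have h0 : (⟨t.1, t.2.1⟩ : ↥T) = ⟨s'.1, hST s'.2⟩ := Sum.inl.inj h
      have h1 : t.1 = s'.1 := Subtype.mk.inj h0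
      exact absurd (h1 ▸ s'.2) t.2.2
    · have h0 : (⟨t.1, t.2.1⟩ : ↥T) = ⟨t'.1, t'.2.1⟩ := Sum.inl.inj h
      have h1 : t.1 = t'.1 := Subtype.mk.inj h0
      exact congrArg (fun x => Sum.inr (Sum.inl x)) (Subtype.ext h1)
    · exact absurd h (by simp [rc_tq_fT])
    · exact absurd h (by simp [rc_tq_fT])
    · exact absurd h (by simp [rc_tq_fT])
    · exact congrArg (fun x => Sum.inr (Sum.inr x)) (Sum.inr.inj h)
  · rintro (t | u)
    · by_cases h : t.1 ∈ S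
      · exact ⟨.inl ⟨t.1, h⟩, rfl⟩
      · exact ⟨.inr (.inl ⟨t.1, t.2, h⟩), rfl⟩
    · exact ⟨.inr (.inr u), rfl⟩

theorem rc_tq_fS_bijective (hST : S ⊆ T) : Function.Bijective (rc_tq_fS hST) := by
  constructor
  · rintro (s | t | u) (s' | t' | u') h
    · exact congrArg Sum.inl (Sum.inl.inj h)
    · exact absurd h (by simp [rc_tq_fS])
    · exact absurd h (by simp [rc_tq_fS])
    · exact absurd h (by simp [rc_tq_fS])
    · have h0 : (⟨t.1, t.2.2⟩ : {q : Nat.Primes // q ∉ S}) = ⟨t'.1, t'.2.2⟩ := Sum.inr.inj h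
      have h1 : t.1 = t'.1 := Subtype.mk.inj h0
      exact congrArg (fun x => Sum.inr (Sum.inl x)) (Subtype.ext h1)
    · have h0 : (⟨t.1, t.2.2⟩ : {q : Nat.Primes // q ∉ S}) = ⟨u'.1, fun h => u'.2 (hST h)⟩ :=
        Sum.inr.inj h
      have h1 : t.1 = u'.1 := Subtype.mk.inj h0
      exact absurd (h1 ▸ t.2.1) u'.2
    · exact absurd h (by simp [rc_tq_fS])
    · have h0 : (⟨u.1, fun h => u.2 (hST h)⟩ : {q : Nat.Primes // q ∉ S}) = ⟨t'.1, t'.2.2⟩ :=
        Sum.inr.inj h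
      have h1 : u.1 = t'.1 := Subtype.mk.inj h0
      exact absurd (h1 ▸ t'.2.1) u.2
    · have h0 : (⟨u.1, fun h => u.2 (hST h)⟩ : {q : Nat.Primes // q ∉ S}) =
          ⟨u'.1, fun h => u'.2 (hST h)⟩ := Sum.inr.inj h
      have h1 : u.1 = u'.1 := Subtype.mk.inj h0
      exact congrArg (fun x => Sum.inr (Sum.inr x)) (Subtype.ext h1)
  · rintro (s | u)
    · exact ⟨.inl s, rfl⟩
    · by_cases h : u.1 ∈ T
      · exact ⟨.inr (.inl ⟨u.1, h, u.2⟩), rfl⟩
      · exact ⟨.inr (.inr ⟨u.1, h⟩), rfl⟩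

end index

/-! ### Composition of coefficient maps on a layer -/

section coeffComp

variable {k Γ : Type} [CommRing k] [Group Γ] {A B C : Rep.{0} k Γ}

theorem rc_tq_coeff_comp (f : A ⟶ B) (g : B ⟶ C) (K : Subgroup Γ) (n : ℕ)
    (u : groupCohomology (tt_res K A) n) :
    (tt_coeffMap ((Rep.resFunctor K.subtype).map (f ≫ g)) n).hom u =
      (tt_coeffMap ((Rep.resFunctor K.subtype).map g) n).hom
        ((tt_coeffMap ((Rep.resFunctor K.subtype).map f) n).hom u) := by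
  have h1 : (Rep.resFunctor K.subtype).map (f ≫ g) =
      (Rep.resFunctor K.subtype).map f ≫ (Rep.resFunctor K.subtype).map g :=
    Functor.map_comp _ f g
  have h2 := map_id_comp ((Rep.resFunctor K.subtype).map f) ((Rep.resFunctor K.subtype).map g) n
  rw [h1]
  exact congrArg (fun F => F.hom u) h2

end coeffComp

section main

variable {p : ℕ} [Fact p.Prime] {S T : Finset Nat.Primes} {L : IntermediateField ℚ Qbar}
  [FiniteDimensional ℚ L] [Normal ℚ L] [NumberField L]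
  {𝔻oT : rc_InvData p (id_JRep T ↥L) {q : Nat.Primes // q ∉ T}}
  {𝔻oS : rc_InvData p (id_JRep S ↥L) {q : Nat.Primes // q ∉ S}}

/-- the place-wise components of the `T`-change -/
def rc_tq_morAtAll (hST : S ⊆ T) (hL : L.IsUnramifiedOutside S)
    (OT : ∀ u, rc_tq_OutPlace 𝔻oT u u.1 u.2) (OS : ∀ u, rc_tq_OutPlace 𝔻oS u u.1 u.2) :
    ∀ q₀ : rc_tq_Idx S T,
      rc_tq_MorAt (rc_tc_sum (rc_ii_data p S L) 𝔻oS) (rc_tc_sum (rc_ii_data p T L) 𝔻oT)
        (MonoidHom.id (↥L ≃ₐ[ℚ] ↥L)) (icm_JRep ↥L hST) (rc_tq_fS hST q₀) (rc_tq_fT hST q₀)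
  | .inl s => rc_tq_morAt_inl_inl (rc_tq_morAt_in hST s)
  | .inr (.inl t) =>
      rc_tq_morAt_inr_inl (rc_tq_morAt_mid (t := ⟨t.1, t.2.1⟩) hST hL (OS ⟨t.1, t.2.2⟩))
  | .inr (.inr u) =>
      rc_tq_morAt_inr_inr (rc_tq_morAt_out hST hL (OS ⟨u.1, fun h => u.2 (hST h)⟩) (OT u))

/-- **The morphism of local data of the `T`-change** (over the common index type). -/
def rc_tq_invMor (hST : S ⊆ T) (hL : L.IsUnramifiedOutside S)
    (OT : ∀ u, rc_tq_OutPlace 𝔻oT u u.1 u.2) (OS : ∀ u, rc_tq_OutPlace 𝔻oS u u.1 u.2) :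
    rc_InvMor (rc_tc_reindex (rc_tq_fS hST) (rc_tc_sum (rc_ii_data p S L) 𝔻oS))
      (rc_tc_reindex (rc_tq_fT hST) (rc_tc_sum (rc_ii_data p T L) 𝔻oT))
      (MonoidHom.id (↥L ≃ₐ[ℚ] ↥L)) (icm_JRep ↥L hST) :=
  rc_tq_mor (rc_tq_fS hST) (rc_tq_fT hST) (rc_tq_morAtAll hST hL OT OS)

/-- **(E) The `T`-change of the total invariant.** For `S ⊆ T` and `L` unramified outside `S`,
the total invariants of `J_T(L)` and `J_S(L)` (inside data `rc_ii_data`, outside data any family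
of unramified places at the canonical primes) correspond under the comparison map
`J_T(L) → J_S(L)`, on every layer and for all `p`-primary classes. -/
theorem rc_tq_INV_tchange (hST : S ⊆ T) (hL : L.IsUnramifiedOutside S)
    (OT : ∀ u, rc_tq_OutPlace 𝔻oT u u.1 u.2) (OS : ∀ u, rc_tq_OutPlace 𝔻oS u u.1 u.2)
    (hfT : rc_FinSupp (rc_tc_sum (rc_ii_data p T L) 𝔻oT))
    (hfS : rc_FinSupp (rc_tc_sum (rc_ii_data p S L) 𝔻oS))
    (K : Subgroup (↥L ≃ₐ[ℚ] ↥L)) (z : groupCohomology (tt_res K (id_JRep T ↥L)) 2)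
    (hz : tt_IsPPrimary p z) :
    rc_INV (rc_tc_sum (rc_ii_data p S L) 𝔻oS) hfS K
        ((tt_coeffMap ((Rep.resFunctor K.subtype).map (icm_JRep ↥L hST)) 2).hom z) =
      rc_INV (rc_tc_sum (rc_ii_data p T L) 𝔻oT) hfT K z := by
  haveI : Finite (↥L ≃ₐ[ℚ] ↥L) := inferInstance
  set eT := Equiv.ofBijective (rc_tq_fT (S := S) (T := T) hST) (rc_tq_fT_bijective hST) with heT
  set eS := Equiv.ofBijective (rc_tq_fS (S := S) (T := T) hST) (rc_tq_fS_bijective hST) with heS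
  have hfT' := rc_tc_finSupp_reindex eT _ hfT
  have hfS' := rc_tc_finSupp_reindex eS _ hfS
  have h1 := rc_tc_INV_reindex eT _ hfT hfT' K z
  have h2 := rc_tc_INV_reindex eS _ hfS hfS' K
    ((tt_coeffMap ((Rep.resFunctor K.subtype).map (icm_JRep ↥L hST)) 2).hom z)
  have h3 := rc_tc_INV_coeff (icm_JRep ↥L hST) (rc_tq_invMor hST hL OT OS) hfS' hfT' K z hz
  exact h2.symm.trans (h3.trans h1)

/-- **(E) for the principal ideles**: the total invariants for `S` and for `T` agree on the image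
of `H²(K, Lˣ)`. -/
theorem rc_tq_INV_tchange_diag (hST : S ⊆ T) (hL : L.IsUnramifiedOutside S)
    (OT : ∀ u, rc_tq_OutPlace 𝔻oT u u.1 u.2) (OS : ∀ u, rc_tq_OutPlace 𝔻oS u u.1 u.2)
    (hfT : rc_FinSupp (rc_tc_sum (rc_ii_data p T L) 𝔻oT))
    (hfS : rc_FinSupp (rc_tc_sum (rc_ii_data p S L) 𝔻oS))
    (K : Subgroup (↥L ≃ₐ[ℚ] ↥L)) (u : groupCohomology (tt_res K (id_KRep ↥L)) 2)
    (hu : tt_IsPPrimary p u) :
    rc_INV (rc_tc_sum (rc_ii_data p S L) 𝔻oS) hfS K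
        ((tt_coeffMap ((Rep.resFunctor K.subtype).map (id_diagRep S ↥L)) 2).hom u) =
      rc_INV (rc_tc_sum (rc_ii_data p T L) 𝔻oT) hfT K
        ((tt_coeffMap ((Rep.resFunctor K.subtype).map (id_diagRep T ↥L)) 2).hom u) := by
  have hz : tt_IsPPrimary p
      ((tt_coeffMap ((Rep.resFunctor K.subtype).map (id_diagRep T ↥L)) 2).hom u) :=
    tt_isPPrimary_map
      (tt_coeffMap ((Rep.resFunctor K.subtype).map (id_diagRep T ↥L)) 2).hom.toAddMonoidHom hu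
  have h1 := rc_tq_INV_tchange hST hL OT OS hfT hfS K _ hz
  have h2 := rc_tq_coeff_comp (id_diagRep T ↥L) (icm_JRep ↥L hST) K 2 u
  rw [icm_diagRep_JRep] at h2
  rw [h2]
  exact h1

end main

end

end Fermat.Agent.S55
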