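import Fermat.Agent.S55.Recip.ZClass
import Fermat.Agent.S55.Tate.Explicit

/-!
# S55, block [G4]: the invariant of `δχ` for the class module `ℤ` of a cyclic group

Complements `Recip/ZClass.lean` (prefix `zc_`): explicit-cocycle (`te_`) forms of the invariant
maps and the formula `inv_{D'} (δχ) = χ (φ ^ [D : D'])`:

* `zc_inv_cl2`, `zc_invTop_cl2`: the invariants of the class `te_cl2 _ f hf` of an explicit cocycle;
* `zc_isZ2_of_delta`: an integral `2`-cochain which is the coboundary of a rational `1`-cochain is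
  a cocycle;
* `zc_inv_delta`: if `f = δ x` with `x : D' → ℚ` (a lift of a character `χ : D' → ℚ/ℤ`) then
  `inv_{D'} [f] = x (τ) mod ℤ`, `τ = φ ^ [D : D']`.
-/

set_option autoImplicit false

namespace Fermat.Agent.S55

open Finset groupCohomology CategoryTheory

variable {D : Type} [Group D] [Finite D] (φ : D) (hφ : ∀ x : D, x ∈ Subgroup.zpowers φ)

theorem zc_inv_cl2 (D' : Subgroup D) (f : ↥D' × ↥D' → ℤ)
    (hf : te_IsZ2 (tt_res D' (zc_Z D)) f) :
    zc_inv φ hφ D' (te_cl2 (tt_res D' (zc_Z D)) f hf) =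
      cy_frac (Nat.card D') (∑ i ∈ range (Nat.card D'),
        f (zc_gen φ hφ D' ^ i, zc_gen φ hφ D')) :=
  zc_inv_layer_cocycle φ hφ D' ⟨f, (te_isZ2_iff (tt_res D' (zc_Z D)) f).mp hf⟩

theorem zc_invTop_cl2 (p : ℕ) [Fact p.Prime] (f : D × D → ℤ) (hf : te_IsZ2 (zc_Z D) f) :
    (zc_pclass φ hφ p).invTop (te_cl2 (zc_Z D) f hf) =
      cy_frac (Nat.card D) (∑ i ∈ range (Nat.card D), f (φ ^ i, φ)) :=
  zc_inv_cocycle φ hφ p ⟨f, (te_isZ2_iff (zc_Z D) f).mp hf⟩

omit [Finite D] in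
/-- an integral `2`-cochain which is the coboundary of a rational `1`-cochain is a cocycle -/
theorem zc_isZ2_of_delta (D' : Subgroup D) (x : ↥D' → ℚ) (f : ↥D' × ↥D' → ℤ)
    (hfx : ∀ g h : ↥D', (f (g, h) : ℚ) = x h - x (g * h) + x g) :
    te_IsZ2 (tt_res D' (zc_Z D)) f := by
  intro g h j
  show f (g * h, j) + f (g, h) = f (h, j) + f (g, h * j)
  have : ((f (g * h, j) + f (g, h) : ℤ) : ℚ) = ((f (h, j) + f (g, h * j) : ℤ) : ℚ) := by
    push_cast
    rw [hfx, hfx, hfx, hfx, mul_assoc]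
    ring
  exact_mod_cast this

/-- **The invariant of `δχ`**: if the integral `2`-cocycle `f` is the coboundary of the rational
`1`-cochain `x` (a lift of a character `χ : D' → ℚ/ℤ`), then `inv_{D'} [f] = x(τ) mod ℤ = χ(τ)`,
`τ = φ ^ [D : D']`. -/
theorem zc_inv_delta (D' : Subgroup D) (x : ↥D' → ℚ) (f : ↥D' × ↥D' → ℤ)
    (hfx : ∀ g h : ↥D', (f (g, h) : ℚ) = x h - x (g * h) + x g)
    (hf : te_IsZ2 (tt_res D' (zc_Z D)) f) :
    zc_inv φ hφ D' (te_cl2 (tt_res D' (zc_Z D)) f hf) =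
      ((x (zc_gen φ hφ D') : ℚ) : AddCircle (1 : ℚ)) := by
  rw [zc_inv_cl2, cy_frac_apply]
  congr 1
  set τ := zc_gen φ hφ D' with hτ
  set m := Nat.card D' with hm
  have hm0 : (m : ℚ) ≠ 0 := by
    have : 0 < m := Nat.card_pos
    exact_mod_cast this.ne'
  have hsum : ((∑ i ∈ range m, f (τ ^ i, τ) : ℤ) : ℚ) = m * x τ := by
    push_cast
    have h1 : ∀ i ∈ range m, (f (τ ^ i, τ) : ℚ) = x τ - (x (τ ^ (i + 1)) - x (τ ^ i)) := by
      intro i _
      rw [hfx, pow_succ]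
      ring
    rw [Finset.sum_congr rfl h1, Finset.sum_sub_distrib, Finset.sum_range_sub
      (fun i => x (τ ^ i)), Finset.sum_const, card_range, pow_zero,
      zc_gen_pow_card φ hφ D', sub_self, sub_zero, nsmul_eq_mul]
  rw [hsum]
  field_simp

end Fermat.Agent.S55
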